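import Mathlib

/-!
# P19 (S34), block ABS, leaves ABS-3 and ABS-4 (note 806)

Abstract setting: `Bη` a Dedekind domain with fraction field `F` (in the application the integral
closure of `K[j]` in `F`), `B` a ring with a ring hom `ι : B →+* Bη` (the integral closure of
`Λ[j]`), `Λ` a base ring with an element `π`.

* `absThrough ι 𝔪` : the height-one primes `𝔔` of `Bη` with `𝔔 ∩ B ≤ 𝔪` ("horizontal primes
  through `𝔪`").
* `abs_lp_of_places` (ABS-3): if at every `𝔔 ∈ S` in the support of `u` either there is a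
  function `h` with `ord_𝔔 h = 1` and `ord_𝔔' h = 0` for the other `𝔔' ∈ S`, or `P 𝔔` holds, and
  `m ∣ ord_𝔔 u` on `S`, then `u / h0 ^ m` has its `S`-support inside `P`, for some `h0 ≠ 0`.
* `abs_lp_place` (ABS-4): a `Λ`-point `φ : B → Λ` with a function `h ∈ ker φ` dividing
  `π ^ k * s * b` for all `b ∈ ker φ` (`s` a unit at the centre of `φ`): then `h` has order `1` at
  the prime of `φ` and order `0` at every other horizontal prime through the centre of `φ`.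
-/

set_option autoImplicit false

namespace Fermat.Agent.S34

open IsDedekindDomain

/-- The height-one primes `𝔔` of `Bη` passing through the ideal `𝔪` of `B`: `𝔔 ∩ B ≤ 𝔪`. -/
def absThrough {B Bη : Type*} [CommRing B] [CommRing Bη] [IsDedekindDomain Bη] (ι : B →+* Bη)
    (𝔪 : Ideal B) : Set (HeightOneSpectrum Bη) :=
  {𝔔 | 𝔔.asIdeal.comap ι ≤ 𝔪}

theorem mem_absThrough {B Bη : Type*} [CommRing B] [CommRing Bη] [IsDedekindDomain Bη]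
    {ι : B →+* Bη} {𝔪 : Ideal B} {𝔔 : HeightOneSpectrum Bη} :
    𝔔 ∈ absThrough ι 𝔪 ↔ ∀ b : B, ι b ∈ 𝔔.asIdeal → b ∈ 𝔪 :=
  Iff.rfl

section ABS3

variable {Bη F : Type*} [CommRing Bη] [IsDedekindDomain Bη] [Field F] [Algebra Bη F]
  [IsFractionRing Bη F]

/-- The support of a nonzero element of the fraction field is finite. -/
theorem abs_finite_support {u : F} (hu : u ≠ 0) :
    {𝔔 : HeightOneSpectrum Bη | 𝔔.valuation F u ≠ 1}.Finite := by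
  refine ((HeightOneSpectrum.Support.finite Bη u).union
    (HeightOneSpectrum.Support.finite Bη u⁻¹)).subset ?_
  intro 𝔔 h𝔔
  rcases lt_or_gt_of_ne (h𝔔 : 𝔔.valuation F u ≠ 1) with h | h
  · right
    show 1 < 𝔔.valuation F u⁻¹
    rw [map_inv₀]
    exact (one_lt_inv₀ (by
      rw [zero_lt_iff]; exact (Valuation.ne_zero_iff _).mpr hu)).mpr h
  · left
    exact h

/-- **ABS-3** (LP″ from per-place LP). -/
theorem abs_lp_of_places (S : Set (HeightOneSpectrum Bη)) (P : HeightOneSpectrum Bη → Prop)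
    (m : ℕ) (u : F) (hu : u ≠ 0)
    (hdiv : ∀ 𝔔 ∈ S, ∃ n : ℤ, 𝔔.valuation F u = WithZero.exp ((m : ℤ) * n))
    (hlp : ∀ 𝔔 ∈ S, 𝔔.valuation F u ≠ 1 →
      (∃ h : F, 𝔔.valuation F h = WithZero.exp (-1 : ℤ) ∧
        ∀ 𝔔' ∈ S, 𝔔' ≠ 𝔔 → 𝔔'.valuation F h = 1) ∨ P 𝔔) :
    ∃ h0 : F, h0 ≠ 0 ∧ ∀ 𝔔 ∈ S, 𝔔.valuation F (u / h0 ^ m) ≠ 1 → P 𝔔 := by
  classical
  -- the set of places where a local function is available
  let G : HeightOneSpectrum Bη → Prop := fun 𝔔 =>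
    ∃ h : F, 𝔔.valuation F h = WithZero.exp (-1 : ℤ) ∧ ∀ 𝔔' ∈ S, 𝔔' ≠ 𝔔 → 𝔔'.valuation F h = 1
  have hfin : {𝔔 : HeightOneSpectrum Bη | 𝔔 ∈ S ∧ 𝔔.valuation F u ≠ 1 ∧ G 𝔔}.Finite :=
    (abs_finite_support (Bη := Bη) hu).subset (fun 𝔔 h => h.2.1)
  set T : Finset (HeightOneSpectrum Bη) := hfin.toFinset with hT
  have hTmem : ∀ 𝔔, 𝔔 ∈ T ↔ 𝔔 ∈ S ∧ 𝔔.valuation F u ≠ 1 ∧ G 𝔔 := fun 𝔔 => by
    rw [hT, Set.Finite.mem_toFinset]; rfl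
  -- choose the data
  have hch : ∀ 𝔔 : HeightOneSpectrum Bη, ∃ (h : F) (n : ℤ), 𝔔 ∈ T →
      (𝔔.valuation F h = WithZero.exp (-1 : ℤ) ∧ (∀ 𝔔' ∈ S, 𝔔' ≠ 𝔔 → 𝔔'.valuation F h = 1) ∧
        𝔔.valuation F u = WithZero.exp ((m : ℤ) * n)) := by
    intro 𝔔
    by_cases h𝔔 : 𝔔 ∈ T
    · obtain ⟨hS, -, h, hh1, hh2⟩ := (hTmem 𝔔).mp h𝔔
      obtain ⟨n, hn⟩ := hdiv 𝔔 hS
      exact ⟨h, n, fun _ => ⟨hh1, hh2, hn⟩⟩
    · exact ⟨1, 0, fun h => absurd h h𝔔⟩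
  choose hf nf hspec using hch
  have hne : ∀ 𝔔 ∈ T, hf 𝔔 ≠ 0 := by
    intro 𝔔 h𝔔 h0
    have := (hspec 𝔔 h𝔔).1
    rw [h0, map_zero] at this
    exact WithZero.exp_ne_zero this.symm
  refine ⟨∏ 𝔔 ∈ T, hf 𝔔 ^ (- nf 𝔔), ?_, ?_⟩
  · exact Finset.prod_ne_zero_iff.mpr (fun 𝔔 h𝔔 => zpow_ne_zero _ (hne 𝔔 h𝔔))
  · intro 𝔔 h𝔔S hval
    -- the valuation of `h0` at `𝔔 ∈ S`
    have hv0 : 𝔔.valuation F (∏ 𝔔' ∈ T, hf 𝔔' ^ (- nf 𝔔')) =
        if 𝔔 ∈ T then WithZero.exp (nf 𝔔) else 1 := by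
      rw [map_prod]
      by_cases h𝔔T : 𝔔 ∈ T
      · rw [if_pos h𝔔T, Finset.prod_eq_single_of_mem 𝔔 h𝔔T]
        · rw [map_zpow₀, (hspec 𝔔 h𝔔T).1, ← WithZero.exp_zsmul]
          congr 1
          simp
        · intro 𝔔' h𝔔'T hne'
          rw [map_zpow₀, (hspec 𝔔' h𝔔'T).2.1 𝔔 h𝔔S (Ne.symm hne'), one_zpow]
      · rw [if_neg h𝔔T]
        refine Finset.prod_eq_one (fun 𝔔' h𝔔'T => ?_)
        have hne' : 𝔔 ≠ 𝔔' := fun h => h𝔔T (h ▸ h𝔔'T)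
        rw [map_zpow₀, (hspec 𝔔' h𝔔'T).2.1 𝔔 h𝔔S hne', one_zpow]
    by_cases h𝔔T : 𝔔 ∈ T
    · exfalso
      apply hval
      rw [map_div₀, map_pow, hv0, if_pos h𝔔T, (hspec 𝔔 h𝔔T).2.2, ← WithZero.exp_nsmul,
        nsmul_eq_mul]
      exact div_self WithZero.exp_ne_zero
    · have hval' : 𝔔.valuation F u ≠ 1 := by
        intro h1
        apply hval
        rw [map_div₀, map_pow, hv0, if_neg h𝔔T, one_pow, div_one, h1]
      rcases hlp 𝔔 h𝔔S hval' with hG | hP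
      · exact absurd ((hTmem 𝔔).mpr ⟨h𝔔S, hval', hG⟩) h𝔔T
      · exact hP

end ABS3

section ABS4

variable {Λ B Bη F : Type*} [CommRing Λ] [CommRing B] [Algebra Λ B]
  [CommRing Bη] [IsDedekindDomain Bη] [Field F] [Algebra Bη F] [IsFractionRing Bη F]

/-- **ABS-4** (per-place LP from the closed-point data of note 809). -/
theorem abs_lp_place (ι : B →+* Bη) (π : Λ)
    (hπu : IsUnit (ι (algebraMap Λ B π)))
    (hloc : ∀ y : Bη, ∃ (n : ℕ) (b : B), ι (algebraMap Λ B π) ^ n * y = ι b)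
    (φ : B →ₐ[Λ] Λ) (𝔔 : HeightOneSpectrum Bη) (h𝔔 : ∀ b : B, ι b ∈ 𝔔.asIdeal ↔ φ b = 0)
    (h : B) (hh : φ h = 0) (k : ℕ) (s : B) (hs : ¬ π ∣ φ s)
    (hdiv : ∀ b : B, φ b = 0 → h ∣ algebraMap Λ B (π ^ k) * (s * b)) :
    𝔔.valuation F (algebraMap Bη F (ι h)) = WithZero.exp (-1 : ℤ) ∧
    ∀ 𝔔' : HeightOneSpectrum Bη, 𝔔' ≠ 𝔔 →
      𝔔' ∈ absThrough ι (Ideal.comap (φ : B →+* Λ) (Ideal.span {π})) →
      𝔔'.valuation F (algebraMap Bη F (ι h)) = 1 := by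
  have hφs : φ s ≠ 0 := fun h0 => hs (h0 ▸ dvd_zero π)
  have hunit : ∀ (𝔓 : HeightOneSpectrum Bη) (n : ℕ), ι (algebraMap Λ B π) ^ n ∉ 𝔓.asIdeal :=
    fun 𝔓 n hmem => 𝔓.isPrime.ne_top (Ideal.eq_top_of_isUnit_mem _ hmem (hπu.pow n))
  constructor
  · rw [HeightOneSpectrum.valuation_of_algebraMap]
    apply le_antisymm
    · have hmem : ι h ∈ 𝔔.asIdeal ^ 1 := by rw [pow_one]; exact (h𝔔 h).mpr hh
      have := (HeightOneSpectrum.intValuation_le_pow_iff_mem 𝔔 (ι h) 1).mpr hmem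
      simpa using this
    · obtain ⟨ϖ, hϖ⟩ := HeightOneSpectrum.intValuation_exists_uniformizer 𝔔
      have hϖmem : ϖ ∈ 𝔔.asIdeal := by
        rw [← HeightOneSpectrum.intValuation_lt_one_iff_mem, hϖ]
        rw [← WithZero.exp_zero, WithZero.exp_lt_exp]
        norm_num
      obtain ⟨n, b, hb⟩ := hloc ϖ
      have hbmem : ι b ∈ 𝔔.asIdeal := hb ▸ 𝔔.asIdeal.mul_mem_left _ hϖmem
      obtain ⟨c, hc⟩ := hdiv b ((h𝔔 b).mp hbmem)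
      have h1 : 𝔔.intValuation (ι (algebraMap Λ B π)) = 1 :=
        HeightOneSpectrum.intValuation_eq_one_iff.mpr (by simpa using hunit 𝔔 1)
      have h2 : 𝔔.intValuation (ι s) = 1 :=
        HeightOneSpectrum.intValuation_eq_one_iff.mpr (fun hmem => hφs ((h𝔔 s).mp hmem))
      have h3 : 𝔔.intValuation (ι b) = WithZero.exp (-1 : ℤ) := by
        rw [← hb, map_mul, map_pow, h1, one_pow, one_mul, hϖ]
      have h4 := congrArg (fun z => 𝔔.intValuation (ι z)) hc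
      simp only [map_mul, map_pow, h1, h2, h3, one_pow, one_mul] at h4
      rw [h4]
      calc 𝔔.intValuation (ι h) * 𝔔.intValuation (ι c)
          ≤ 𝔔.intValuation (ι h) * 1 :=
            mul_le_mul_right (HeightOneSpectrum.intValuation_le_one 𝔔 (ι c)) _
        _ = 𝔔.intValuation (ι h) := mul_one _
  · intro 𝔔' hne hthr
    rw [HeightOneSpectrum.valuation_of_algebraMap, HeightOneSpectrum.intValuation_eq_one_iff]
    intro hmem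
    have hnle : ¬ 𝔔.asIdeal ≤ 𝔔'.asIdeal := fun hle =>
      hne (HeightOneSpectrum.ext (𝔔.isMaximal.eq_of_le 𝔔'.isPrime.ne_top hle)).symm
    obtain ⟨y, hy𝔔, hy𝔔'⟩ := SetLike.not_le_iff_exists.mp hnle
    obtain ⟨n, b, hb⟩ := hloc y
    have hbmem : ι b ∈ 𝔔.asIdeal := hb ▸ 𝔔.asIdeal.mul_mem_left _ hy𝔔
    have hb' : ι b ∉ 𝔔'.asIdeal := by
      rw [← hb]
      intro hmem'
      rcases 𝔔'.isPrime.mem_or_mem hmem' with h1 | h1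
      · exact hunit 𝔔' n h1
      · exact hy𝔔' h1
    obtain ⟨c, hc⟩ := hdiv b ((h𝔔 b).mp hbmem)
    have h5 : ι (algebraMap Λ B π) ^ k * (ι s * ι b) ∈ 𝔔'.asIdeal := by
      have : ι (algebraMap Λ B (π ^ k) * (s * b)) = ι h * ι c := by rw [hc, map_mul]
      rw [map_mul, map_mul, map_pow, map_pow] at this
      rw [this]
      exact 𝔔'.asIdeal.mul_mem_right _ hmem
    rcases 𝔔'.isPrime.mem_or_mem h5 with h6 | h6
    · exact hunit 𝔔' k h6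
    · rcases 𝔔'.isPrime.mem_or_mem h6 with h7 | h7
      · have h8 := hthr h7
        rw [Ideal.mem_comap, Ideal.mem_span_singleton] at h8
        exact hs h8
      · exact hb' h7

/-- **ABS-3 + ABS-4** combined: LP″ at `𝔪` from the closed-point outputs of note 809
(`node_lp_global_smooth` / `node_lp_global_cross`) at the `Λ`-points centred at `𝔪`, the
remaining places of the support of `u` through `𝔪` satisfying `P`. -/
theorem abs_lp_of_points (ι : B →+* Bη) (π : Λ)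
    (hπu : IsUnit (ι (algebraMap Λ B π)))
    (hloc : ∀ y : Bη, ∃ (n : ℕ) (b : B), ι (algebraMap Λ B π) ^ n * y = ι b)
    (𝔪 : Ideal B) (P : HeightOneSpectrum Bη → Prop) (m : ℕ) (u : F) (hu : u ≠ 0)
    (hdiv : ∀ 𝔔 ∈ absThrough ι 𝔪, ∃ n : ℤ, 𝔔.valuation F u = WithZero.exp ((m : ℤ) * n))
    (hpt : ∀ 𝔔 ∈ absThrough ι 𝔪, 𝔔.valuation F u ≠ 1 →
      (∃ φ : B →ₐ[Λ] Λ, 𝔪 = Ideal.comap (φ : B →+* Λ) (Ideal.span {π}) ∧
        (∀ b : B, ι b ∈ 𝔔.asIdeal ↔ φ b = 0) ∧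
        ∃ h : B, φ h = 0 ∧ ∃ s : B, ¬ π ∣ φ s ∧ ∀ b : B, φ b = 0 → h ∣ s * b) ∨
      (∃ φ : B →ₐ[Λ] Λ, 𝔪 = Ideal.comap (φ : B →+* Λ) (Ideal.span {π}) ∧
        (∀ b : B, ι b ∈ 𝔔.asIdeal ↔ φ b = 0) ∧
        ∃ h : B, φ h = 0 ∧ ∃ (k : ℕ) (s : B), ¬ π ∣ φ s ∧
          ∀ b : B, φ b = 0 → h ∣ algebraMap Λ B (π ^ k) * (s * b)) ∨
      P 𝔔) :
    ∃ h0 : F, h0 ≠ 0 ∧ ∀ 𝔔 ∈ absThrough ι 𝔪, 𝔔.valuation F (u / h0 ^ m) ≠ 1 → P 𝔔 := by
  refine abs_lp_of_places (absThrough ι 𝔪) P m u hu hdiv (fun 𝔔 h𝔔 hval => ?_)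
  rcases hpt 𝔔 h𝔔 hval with ⟨φ, h𝔪, hφ, h, hh, s, hs, hd⟩ | ⟨φ, h𝔪, hφ, h, hh, k, s, hs, hd⟩ | hP
  · left
    have hd' : ∀ b : B, φ b = 0 → h ∣ algebraMap Λ B (π ^ 0) * (s * b) := fun b hb => by
      rw [pow_zero, map_one, one_mul]; exact hd b hb
    obtain ⟨h1, h2⟩ := abs_lp_place (F := F) ι π hπu hloc φ 𝔔 hφ h hh 0 s hs hd'
    exact ⟨algebraMap Bη F (ι h), h1, fun 𝔔' h𝔔' hne => h2 𝔔' hne (h𝔪 ▸ h𝔔')⟩
  · left
    obtain ⟨h1, h2⟩ := abs_lp_place (F := F) ι π hπu hloc φ 𝔔 hφ h hh k s hs hd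
    exact ⟨algebraMap Bη F (ι h), h1, fun 𝔔' h𝔔' hne => h2 𝔔' hne (h𝔪 ▸ h𝔔')⟩
  · exact Or.inr hP

end ABS4

end Fermat.Agent.S34
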