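import Mathlib
import Fermat.Agent.S34.AbsLP

/-!
# P19 (S34), block GAL-B, slice P of the G3 dictionary: a `Λ`-point from a rational prime

`s34dict_point_of_residue`: a horizontal prime `𝔔` of the generic fibre `Bη` through the closed
point `𝔪 ∋ π` of the chart `B`, whose residue field is `K`, is the kernel of a `Λ`-point
`φ : B →ₐ[Λ] Λ` centred at `𝔪`.
-/

set_option autoImplicit false

namespace Fermat.Agent.S34

open IsDedekindDomain

/-- the evaluation `Bη → K` at a prime with residue field `K`. -/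
theorem s34dp_exists_ev {K Bη : Type*} [Field K] [CommRing Bη] [Algebra K Bη] (I : Ideal Bη)
    (hI : I.IsMaximal) (hres : ∀ y : Bη, ∃ c : K, y - algebraMap K Bη c ∈ I) :
    ∃ ev : Bη →+* K, (∀ c : K, ev (algebraMap K Bη c) = c) ∧ ∀ y : Bη, ev y = 0 ↔ y ∈ I := by
  have : Nontrivial (Bη ⧸ I) := Ideal.Quotient.nontrivial_iff.mpr hI.ne_top
  let g : K →+* Bη ⧸ I := (Ideal.Quotient.mk I).comp (algebraMap K Bη)
  have hg : Function.Bijective g := by
    refine ⟨g.injective, fun x => ?_⟩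
    obtain ⟨y, rfl⟩ := Ideal.Quotient.mk_surjective x
    obtain ⟨c, hc⟩ := hres y
    exact ⟨c, (Ideal.Quotient.eq.mpr hc).symm⟩
  let e : K ≃+* Bη ⧸ I := RingEquiv.ofBijective g hg
  refine ⟨(e.symm : Bη ⧸ I →+* K).comp (Ideal.Quotient.mk I), fun c => ?_, fun y => ?_⟩
  · show e.symm (g c) = c
    exact e.symm_apply_apply c
  · show e.symm (Ideal.Quotient.mk I y) = 0 ↔ y ∈ I
    rw [map_eq_zero_iff e.symm e.symm.injective, Ideal.Quotient.eq_zero_iff_mem]

/-- **Slice P**: a horizontal prime through `𝔪` with residue field `K` is the kernel of a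
`Λ`-point centred at `𝔪`. -/
theorem s34dict_point_of_residue {Λ K B Bη : Type*} [CommRing Λ] [IsDomain Λ]
    [IsDiscreteValuationRing Λ] [Field K] [Algebra Λ K] [IsFractionRing Λ K] [CommRing B]
    [Algebra Λ B] [CommRing Bη] [IsDedekindDomain Bη] [Algebra K Bη]
    (ι : B →+* Bη) (hι : ∀ l : Λ, ι (algebraMap Λ B l) = algebraMap K Bη (algebraMap Λ K l))
    (π : Λ) (hπ : Irreducible π) (𝔪 : Ideal B) (h𝔪 : 𝔪.IsMaximal)
    (hπ𝔪 : algebraMap Λ B π ∈ 𝔪) (𝔔 : HeightOneSpectrum Bη) (h𝔔 : 𝔔 ∈ absThrough ι 𝔪)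
    (hres : ∀ y : Bη, ∃ c : K, y - algebraMap K Bη c ∈ 𝔔.asIdeal) :
    ∃ φ : B →ₐ[Λ] Λ, 𝔪 = Ideal.comap (φ : B →+* Λ) (Ideal.span {π}) ∧
      ∀ b : B, ι b ∈ 𝔔.asIdeal ↔ φ b = 0 := by
  classical
  have h𝔔' : ∀ b : B, ι b ∈ 𝔔.asIdeal → b ∈ 𝔪 := h𝔔
  obtain ⟨ev, hevK, hev0⟩ := s34dp_exists_ev 𝔔.asIdeal 𝔔.isMaximal hres
  have hinj : Function.Injective (algebraMap Λ K) := IsFractionRing.injective Λ K
  have hmax : IsLocalRing.maximalIdeal Λ = Ideal.span {π} :=
    (IsDiscreteValuationRing.irreducible_iff_uniformizer π).mp hπ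
  have h1𝔪 : (1 : B) ∉ 𝔪 := fun h => h𝔪.ne_top ((Ideal.eq_top_iff_one _).mpr h)
  -- non-units of `Λ` are multiples of `π`
  have hdvd : ∀ l : Λ, ¬ IsUnit l → π ∣ l := by
    intro l hl
    have : l ∈ IsLocalRing.maximalIdeal Λ := (IsLocalRing.mem_maximalIdeal l).mpr hl
    rw [hmax, Ideal.mem_span_singleton] at this
    exact this
  -- the composite `B → K`
  let φ₀ : B →+* K := ev.comp ι
  have hφ₀Λ : ∀ l : Λ, φ₀ (algebraMap Λ B l) = algebraMap Λ K l := by
    intro l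
    show ev (ι (algebraMap Λ B l)) = algebraMap Λ K l
    rw [hι, hevK]
  have hφ₀0 : ∀ b : B, φ₀ b = 0 ↔ ι b ∈ 𝔔.asIdeal := fun b => hev0 (ι b)
  -- its values are integral
  have hint : ∀ b : B, ∃ l : Λ, algebraMap Λ K l = φ₀ b := by
    intro b
    rcases ValuationRing.isInteger_or_isInteger Λ (φ₀ b) with ⟨l, hl⟩ | ⟨l', hl'⟩
    · exact ⟨l, hl⟩
    · by_cases hc0 : φ₀ b = 0
      · exact ⟨0, by rw [map_zero, hc0]⟩
      by_cases hu : IsUnit l'
      · obtain ⟨u, hu'⟩ := hu.exists_right_inv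
        refine ⟨u, ?_⟩
        have h1 : algebraMap Λ K l' * algebraMap Λ K u = 1 := by
          rw [← map_mul, hu', map_one]
        rw [hl'] at h1
        have h2 : (φ₀ b)⁻¹ * φ₀ b = 1 := inv_mul_cancel₀ hc0
        exact mul_left_cancel₀ (inv_ne_zero hc0) (h1.trans h2.symm)
      · exfalso
        obtain ⟨l'', rfl⟩ := hdvd l' hu
        have hz : φ₀ (algebraMap Λ B (π * l'') * b - 1) = 0 := by
          rw [map_sub, map_mul, hφ₀Λ, hl', map_one, inv_mul_cancel₀ hc0, sub_self]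
        have hmem := h𝔔' _ ((hφ₀0 _).mp hz)
        have hmem2 : algebraMap Λ B (π * l'') * b ∈ 𝔪 := by
          rw [map_mul, mul_assoc]
          exact 𝔪.mul_mem_right _ hπ𝔪
        apply h1𝔪
        have := 𝔪.sub_mem hmem2 hmem
        rwa [sub_sub_cancel] at this
  choose φf hφf using hint
  let φ : B →ₐ[Λ] Λ :=
    { toFun := φf
      map_one' := hinj (by rw [hφf, map_one, map_one])
      map_mul' := fun a b => hinj (by rw [hφf, map_mul, map_mul, hφf, hφf])
      map_zero' := hinj (by rw [hφf, map_zero, map_zero])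
      map_add' := fun a b => hinj (by rw [hφf, map_add, map_add, hφf, hφf])
      commutes' := fun l => hinj (by rw [hφf, hφ₀Λ]; rfl) }
  have hφ : ∀ b : B, algebraMap Λ K (φ b) = φ₀ b := hφf
  have hker : ∀ b : B, ι b ∈ 𝔔.asIdeal ↔ φ b = 0 := by
    intro b
    rw [← hφ₀0, ← hφ, map_eq_zero_iff _ hinj]
  refine ⟨φ, ?_, hker⟩
  have hne : Ideal.comap (φ : B →+* Λ) (Ideal.span {π}) ≠ ⊤ := by
    intro htop
    have h1 : (1 : B) ∈ Ideal.comap (φ : B →+* Λ) (Ideal.span {π}) := htop ▸ Submodule.mem_top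
    rw [Ideal.mem_comap, Ideal.mem_span_singleton] at h1
    have h2 : π ∣ 1 := by simpa using h1
    exact hπ.not_isUnit (isUnit_of_dvd_one h2)
  refine h𝔪.eq_of_le hne fun b hb => ?_
  rw [Ideal.mem_comap, Ideal.mem_span_singleton]
  by_contra hnd
  have hu : IsUnit (φ b) := by
    by_contra hnu
    exact hnd (hdvd _ hnu)
  obtain ⟨l, hl⟩ := hu.exists_right_inv
  have hz : φ (b * algebraMap Λ B l - 1) = 0 := by
    rw [map_sub, map_mul, AlgHom.commutes, map_one]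
    show φ b * l - 1 = 0
    rw [hl, sub_self]
  have hmem := h𝔔' _ ((hker _).mpr hz)
  apply h1𝔪
  have := 𝔪.sub_mem (𝔪.mul_mem_right (algebraMap Λ B l) hb) hmem
  rwa [sub_sub_cancel] at this

end Fermat.Agent.S34
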