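import Mathlib
import Fermat.Prelude.Def_ModularCurve_ArithmeticGalois

/-!
# P19 (S34), block GAL: the fields `𝔽_K = laurentBaseChange K F₀` for `K ⊆ ℚ̄`

Generic in `F₀ : IntermediateField ℚ (LaurentSeries ℚ)` (the function field of `X₀(N)` over `ℚ`,
or a rigidified cover of it).

* `s34galEmb F₀ K : 𝔽_K →+* 𝔽_ℚ̄`: the coefficientwise embedding;
* `s34gal_exists_emb_eq`: every element of `𝔽_ℚ̄` comes from `𝔽_K` for all large number fields;
* `s34gal_smul_emb_of_fix`: elements of `𝔽_K` are fixed by `Gal(ℚ̄ / K)`;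
* `s34gal_emb_smul`: for `K / ℚ` normal the embedding is `Gal(ℚ̄ / ℚ)`-equivariant;
* `s34galRational F₀ L P`: the place `P` of `𝔽_ℚ̄` is fixed by `Gal(ℚ̄ / L)`.
-/

set_option autoImplicit false

namespace Fermat.Agent.S34

open AlgebraicCurve ModularCurve IntermediateField

local notation "Qb" => AlgebraicClosure ℚ

variable (F₀ : IntermediateField ℚ (LaurentSeries ℚ))

section Emb

variable (K : IntermediateField ℚ Qb)

theorem s34gal_coeffMap_algebraMap {K₁ K₂ : Type*} [Field K₁] [Field K₂] (f : K₁ →+* K₂)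
    (c : K₁) :
    coeffMap f (algebraMap K₁ (LaurentSeries K₁) c) = algebraMap K₂ (LaurentSeries K₂) (f c) := by
  rw [algebraMap_laurentSeries_eq_single, algebraMap_laurentSeries_eq_single, coeffMap_single]

theorem s34gal_coeffMap_coeffEmb {K₁ K₂ : Type*} [Field K₁] [Field K₂] [Algebra ℚ K₁]
    [Algebra ℚ K₂] (f : K₁ →+* K₂) (x : LaurentSeries ℚ) :
    coeffMap f (coeffEmb K₁ x) = coeffEmb K₂ x := by
  rw [coeffEmb, coeffMap_coeffMap]
  exact coeffMap_congr (RingHom.ext fun c => by simp) x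

/-- Functoriality of `laurentBaseChange` in the coefficient field. -/
theorem s34gal_coeffMap_mem_of_hom {K₁ K₂ : Type*} [Field K₁] [Field K₂] [Algebra ℚ K₁]
    [Algebra ℚ K₂] (f : K₁ →+* K₂) {y : LaurentSeries K₁}
    (hy : y ∈ laurentBaseChange K₁ F₀) : coeffMap f y ∈ laurentBaseChange K₂ F₀ := by
  rw [mem_laurentBaseChange_iff] at hy
  induction hy using Subfield.closure_induction with
  | mem y hy =>
      rcases hy with ⟨a, rfl⟩ | ⟨z, hz, rfl⟩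
      · rw [s34gal_coeffMap_algebraMap]
        exact (laurentBaseChange K₂ F₀).algebraMap_mem _
      · rw [s34gal_coeffMap_coeffEmb]
        exact coeffEmb_mem_laurentBaseChange K₂ hz
  | one => simp
  | add x y _ _ hx hy => simpa using add_mem hx hy
  | neg x _ hx => simpa using neg_mem hx
  | inv x _ hx => simpa using inv_mem hx
  | mul x y _ _ hx hy => simpa using mul_mem hx hy

theorem s34gal_coeffMap_mem {y : LaurentSeries ↥K} (hy : y ∈ laurentBaseChange (↥K) F₀) :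
    coeffMap (algebraMap ↥K Qb) y ∈ laurentBaseChange Qb F₀ :=
  s34gal_coeffMap_mem_of_hom F₀ _ hy

/-- The coefficientwise embedding `𝔽_K → 𝔽_ℚ̄`. -/
noncomputable def s34galEmb :
    ↥(laurentBaseChange (↥K) F₀) →+* ↥(laurentBaseChange Qb F₀) where
  toFun f := ⟨coeffMap (algebraMap ↥K Qb) (f : LaurentSeries ↥K), s34gal_coeffMap_mem F₀ K f.2⟩
  map_one' := Subtype.ext (map_one _)
  map_mul' _ _ := Subtype.ext (map_mul _ _ _)
  map_zero' := Subtype.ext (map_zero _)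
  map_add' _ _ := Subtype.ext (map_add _ _ _)

theorem coe_s34galEmb (f : ↥(laurentBaseChange (↥K) F₀)) :
    ((s34galEmb F₀ K f : ↥(laurentBaseChange Qb F₀)) : LaurentSeries Qb) =
      coeffMap (algebraMap ↥K Qb) (f : LaurentSeries ↥K) := rfl

theorem s34galEmb_injective : Function.Injective (s34galEmb F₀ K) := (s34galEmb F₀ K).injective

theorem s34galEmb_algebraMap (c : ↥K) :
    s34galEmb F₀ K (algebraMap ↥K ↥(laurentBaseChange (↥K) F₀) c) =
      algebraMap Qb ↥(laurentBaseChange Qb F₀) (c : Qb) := by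
  apply Subtype.ext
  rw [coe_s34galEmb]
  exact s34gal_coeffMap_algebraMap (algebraMap ↥K Qb) c

/-- Elements of `𝔽_K` are fixed by `Gal(ℚ̄ / K)`. -/
theorem s34gal_smul_emb_of_fix (σ : Qb ≃ₐ[ℚ] Qb) (hσ : ∀ a ∈ K, σ a = a)
    (f : ↥(laurentBaseChange (↥K) F₀)) :
    arithmeticGalois F₀ σ • s34galEmb F₀ K f = s34galEmb F₀ K f := by
  apply Subtype.ext
  rw [coe_arithmeticGalois_smul, coe_s34galEmb, coeffMap_coeffMap]
  exact coeffMap_congr (RingHom.ext fun c => hσ _ c.2) _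

/-- For `K / ℚ` normal the embedding is Galois equivariant. -/
theorem s34gal_emb_smul [Normal ℚ ↥K] (σ : Qb ≃ₐ[ℚ] Qb) (f : ↥(laurentBaseChange (↥K) F₀)) :
    s34galEmb F₀ K (arithmeticGalois F₀ (σ.restrictNormal ↥K) • f) =
      arithmeticGalois F₀ σ • s34galEmb F₀ K f := by
  have h : (algebraMap ↥K Qb).comp ((σ.restrictNormal ↥K : ↥K ≃ₐ[ℚ] ↥K) : ↥K →+* ↥K) =
      ((σ : Qb ≃ₐ[ℚ] Qb) : Qb →+* Qb).comp (algebraMap ↥K Qb) := by
    ext c
    exact AlgEquiv.restrictNormal_commutes σ ↥K c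
  apply Subtype.ext
  have h1 : ((s34galEmb F₀ K (arithmeticGalois F₀ (σ.restrictNormal ↥K) • f) :
      ↥(laurentBaseChange Qb F₀)) : LaurentSeries Qb) =
      coeffMap (algebraMap ↥K Qb) (coeffMap ((σ.restrictNormal ↥K : ↥K ≃ₐ[ℚ] ↥K) : ↥K →+* ↥K)
        (f : LaurentSeries ↥K)) := rfl
  have h2 : ((arithmeticGalois F₀ σ • s34galEmb F₀ K f : ↥(laurentBaseChange Qb F₀)) :
      LaurentSeries Qb) =
      coeffMap ((σ : Qb ≃ₐ[ℚ] Qb) : Qb →+* Qb) (coeffMap (algebraMap ↥K Qb)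
        (f : LaurentSeries ↥K)) := rfl
  rw [h1, h2, coeffMap_coeffMap, coeffMap_coeffMap]
  exact coeffMap_congr h _

end Emb

section Descent

theorem s34gal_coeffMap_inclusion {K₁ K₂ : IntermediateField ℚ Qb} (h : K₁ ≤ K₂)
    (y : LaurentSeries ↥K₁) :
    coeffMap (algebraMap ↥K₂ Qb) (coeffMap (IntermediateField.inclusion h : ↥K₁ →+* ↥K₂) y) =
      coeffMap (algebraMap ↥K₁ Qb) y := by
  rw [coeffMap_coeffMap]
  exact coeffMap_congr (RingHom.ext fun _ => rfl) y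

/-- Every element of `𝔽_ℚ̄` is defined over a number field. -/
theorem s34gal_exists_numberField {z : LaurentSeries Qb} (hz : z ∈ laurentBaseChange Qb F₀) :
    ∃ K₀ : IntermediateField ℚ Qb, FiniteDimensional ℚ ↥K₀ ∧
      ∃ y : LaurentSeries ↥K₀, y ∈ laurentBaseChange (↥K₀) F₀ ∧
        coeffMap (algebraMap ↥K₀ Qb) y = z := by
  rw [mem_laurentBaseChange_iff] at hz
  have : Algebra.IsAlgebraic ℚ Qb := AlgebraicClosure.isAlgebraic ℚ
  have hsup : ∀ (K₁ K₂ : IntermediateField ℚ Qb), FiniteDimensional ℚ ↥K₁ →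
      FiniteDimensional ℚ ↥K₂ → FiniteDimensional ℚ ↥(K₁ ⊔ K₂) := by
    intro K₁ K₂ h1 h2
    exact IntermediateField.finiteDimensional_sup K₁ K₂
  induction hz using Subfield.closure_induction with
  | mem y hy =>
    rcases hy with ⟨c, rfl⟩ | ⟨x, hx, rfl⟩
    · refine ⟨ℚ⟮c⟯, ?_, algebraMap _ _ (⟨c, mem_adjoin_simple_self ℚ c⟩ : ↥(ℚ⟮c⟯)),
        (laurentBaseChange ↥(ℚ⟮c⟯) F₀).algebraMap_mem _, ?_⟩
      · exact IntermediateField.adjoin.finiteDimensional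
          (Algebra.IsIntegral.isIntegral c)
      · rw [s34gal_coeffMap_algebraMap]
        rfl
    · exact ⟨⊥, inferInstance, coeffEmb _ x, coeffEmb_mem_laurentBaseChange _ hx,
        s34gal_coeffMap_coeffEmb _ x⟩
  | one =>
    exact ⟨⊥, inferInstance, 1, one_mem _, map_one _⟩
  | add x y _ _ hx hy =>
    obtain ⟨K₁, h1, y₁, hy₁, rfl⟩ := hx
    obtain ⟨K₂, h2, y₂, hy₂, rfl⟩ := hy
    refine ⟨K₁ ⊔ K₂, hsup K₁ K₂ h1 h2,
      coeffMap (IntermediateField.inclusion (le_sup_left : K₁ ≤ K₁ ⊔ K₂) : ↥K₁ →+* _) y₁ +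
      coeffMap (IntermediateField.inclusion (le_sup_right : K₂ ≤ K₁ ⊔ K₂) : ↥K₂ →+* _) y₂,
      add_mem (s34gal_coeffMap_mem_of_hom F₀ _ hy₁) (s34gal_coeffMap_mem_of_hom F₀ _ hy₂), ?_⟩
    rw [map_add, s34gal_coeffMap_inclusion, s34gal_coeffMap_inclusion]
  | neg x _ hx =>
    obtain ⟨K₁, h1, y₁, hy₁, rfl⟩ := hx
    exact ⟨K₁, h1, -y₁, neg_mem hy₁, map_neg _ _⟩
  | inv x _ hx =>
    obtain ⟨K₁, h1, y₁, hy₁, rfl⟩ := hx
    exact ⟨K₁, h1, y₁⁻¹, inv_mem hy₁, map_inv₀ _ _⟩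
  | mul x y _ _ hx hy =>
    obtain ⟨K₁, h1, y₁, hy₁, rfl⟩ := hx
    obtain ⟨K₂, h2, y₂, hy₂, rfl⟩ := hy
    refine ⟨K₁ ⊔ K₂, hsup K₁ K₂ h1 h2,
      coeffMap (IntermediateField.inclusion (le_sup_left : K₁ ≤ K₁ ⊔ K₂) : ↥K₁ →+* _) y₁ *
      coeffMap (IntermediateField.inclusion (le_sup_right : K₂ ≤ K₁ ⊔ K₂) : ↥K₂ →+* _) y₂,
      mul_mem (s34gal_coeffMap_mem_of_hom F₀ _ hy₁) (s34gal_coeffMap_mem_of_hom F₀ _ hy₂), ?_⟩
    rw [map_mul, s34gal_coeffMap_inclusion, s34gal_coeffMap_inclusion]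

/-- Every element of `𝔽_ℚ̄` comes from `𝔽_K` for all large enough number fields `K`. -/
theorem s34gal_exists_emb_eq (f : ↥(laurentBaseChange Qb F₀)) :
    ∃ K₀ : IntermediateField ℚ Qb, FiniteDimensional ℚ ↥K₀ ∧
      ∀ K : IntermediateField ℚ Qb, K₀ ≤ K →
        ∃ f' : ↥(laurentBaseChange (↥K) F₀), s34galEmb F₀ K f' = f := by
  obtain ⟨K₀, hK₀, y₀, hy₀, hyf⟩ := s34gal_exists_numberField F₀ f.2
  refine ⟨K₀, hK₀, fun K hK => ⟨⟨coeffMap (IntermediateField.inclusion hK : ↥K₀ →+* ↥K) y₀,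
    s34gal_coeffMap_mem_of_hom F₀ _ hy₀⟩, Subtype.ext ?_⟩⟩
  rw [coe_s34galEmb]
  exact (s34gal_coeffMap_inclusion hK y₀).trans hyf

/-- Every element of `𝔽_ℚ̄` is fixed by `Gal(ℚ̄ / L)` for a number field `L`. -/
theorem s34gal_exists_fix (f : ↥(laurentBaseChange Qb F₀)) :
    ∃ L : IntermediateField ℚ Qb, FiniteDimensional ℚ ↥L ∧
      ∀ σ : Qb ≃ₐ[ℚ] Qb, (∀ a ∈ L, σ a = a) → arithmeticGalois F₀ σ • f = f := by
  obtain ⟨K₀, hK₀, h⟩ := s34gal_exists_emb_eq F₀ f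
  obtain ⟨f', rfl⟩ := h K₀ le_rfl
  exact ⟨K₀, hK₀, fun σ hσ => s34gal_smul_emb_of_fix F₀ K₀ σ hσ f'⟩

end Descent

section Rational

/-- A place of `𝔽_ℚ̄` is `L`-rational if it is fixed by `Gal(ℚ̄ / L)`. -/
def s34galRational (L : IntermediateField ℚ Qb)
    (P : Place Qb ↥(laurentBaseChange Qb F₀)) : Prop :=
  ∀ σ : Qb ≃ₐ[ℚ] Qb, (∀ a ∈ L, σ a = a) → arithmeticGalois F₀ σ • P = P

theorem s34galRational_mono {L L' : IntermediateField ℚ Qb} (h : L ≤ L')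
    {P : Place Qb ↥(laurentBaseChange Qb F₀)} (hP : s34galRational F₀ L P) :
    s34galRational F₀ L' P :=
  fun σ hσ => hP σ fun a ha => hσ a (h ha)

end Rational

end Fermat.Agent.S34
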