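import Mathlib
import Fermat.Agent.S34.GalField
import Fermat.Agent.S37.HeckeFF
import Fermat.Agent.S24.Places

/-!
# P19 (S34), block GAL-B, leaf LYING: places of `𝔽_ℚ̄` above a place of `𝔽_K`

* `s34galLying_coe_mem`: the integral closure of `k[y]` lies in every valuation subring
  containing `k` and `y`;
* `s34galLying_exists_place_eq`: in a function field over an algebraically closed field of
  characteristic zero, every nontrivial valuation subring containing the constants is the
  valuation ring of a place (it is discrete);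
* `s34gal_exists_place_over`: every place of `𝔽_K / K` has a place of `𝔽_ℚ̄ / ℚ̄` above it.

Proof of the last statement: the image of the valuation ring `O` of the place in `𝔽_ℚ̄` is a
local subring; it is dominated by a valuation subring `W` (Mathlib), `W` contains `ℚ̄` because it
is integrally closed and `ℚ̄ / K` is integral, and `W` is not everything because a nonzero
non-unit of `O` stays a non-unit.  By the second statement `W` is the valuation ring of a place.
-/

set_option autoImplicit false

namespace Fermat.Agent.S34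

open AlgebraicCurve ModularCurve IntermediateField IsDedekindDomain
open scoped IntermediateField.algebraAdjoinAdjoin

local notation "Qb" => AlgebraicClosure ℚ

/-- The integral closure of `k[y]` lies in every valuation subring containing `k` and `y`. -/
theorem s34galLying_coe_mem {k F : Type*} [Field k] [Field F] [Algebra k F] {y : F}
    (W : ValuationSubring F) (hk : ∀ c : k, algebraMap k F c ∈ W) (hy : y ∈ W)
    (b : integralClosure (Algebra.adjoin k {y}) F) : (b : F) ∈ W := by
  let S : Subalgebra k F := { W.toSubring with algebraMap_mem' := hk }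
  have hle : Algebra.adjoin k {y} ≤ S := Algebra.adjoin_le (Set.singleton_subset_iff.mpr hy)
  let ι : Algebra.adjoin k {y} →+* W :=
    (algebraMap (Algebra.adjoin k {y}) F).codRestrict W.toSubring (fun a => hle a.2)
  have hι : (algebraMap W F).comp ι = algebraMap (Algebra.adjoin k {y}) F :=
    RingHom.ext fun a => rfl
  obtain ⟨p, hpm, hp⟩ := b.2
  have hint : IsIntegral W (b : F) := by
    refine ⟨p.map ι, hpm.map ι, ?_⟩
    rw [Polynomial.eval₂_map, hι]
    exact hp
  obtain ⟨x, hx⟩ := IsIntegrallyClosed.isIntegral_iff.mp hint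
  rw [← hx]
  exact x.2

/-- In a function field over an algebraically closed field of characteristic zero, every
nontrivial valuation subring containing the constants is the valuation ring of a place. -/
theorem s34galLying_exists_place_eq {k F : Type*} [Field k] [Field F] [Algebra k F]
    [IsAlgClosed k] [CharZero k] (hFF : Fermat.Agent.S37.IsFF k F)
    (W : ValuationSubring F) (hk : ∀ c : k, algebraMap k F c ∈ W) (hW : W ≠ ⊤) :
    ∃ P : Place k F, P.toValuationSubring = W := by
  classical
  obtain ⟨x, hx, hfin⟩ := hFF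
  -- a nonzero non-unit `y` of `W`
  obtain ⟨z, hz⟩ : ∃ z : F, z ∉ W := by
    by_contra h
    exact hW (SetLike.ext fun z => ⟨fun _ => ValuationSubring.mem_top z,
      fun _ => by_contra fun hz => h ⟨z, hz⟩⟩)
  have hz0 : z ≠ 0 := fun h => hz (h ▸ W.zero_mem)
  obtain ⟨y, hy_def⟩ : ∃ y : F, y = z⁻¹ := ⟨_, rfl⟩
  have hyW : y ∈ W := hy_def ▸ (W.mem_or_inv_mem z).resolve_left hz
  have hy0 : y ≠ 0 := hy_def ▸ inv_ne_zero hz0
  have hyinv : y⁻¹ ∉ W := by
    rw [hy_def, inv_inv]
    exact hz
  have hvy : W.valuation y < 1 := by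
    have h1 : ¬ W.valuation y⁻¹ ≤ 1 := fun h => hyinv ((W.valuation_le_one_iff _).1 h)
    rw [map_inv₀, not_le] at h1
    by_contra h2
    rw [not_lt] at h2
    have hpos : (0 : ValuationSubring.ValueGroup W) < W.valuation y :=
      lt_of_lt_of_le zero_lt_one h2
    exact absurd (inv_le_one_of_one_le₀ h2) (not_le.mpr h1)
  -- `y` is transcendental
  have hyr : y ∉ Set.range (algebraMap k F) := by
    rintro ⟨c, hc⟩
    apply hyinv
    rw [← hc, ← map_inv₀]
    exact hk _
  have hyt : Transcendental k y := S24.transcendental_of_not_mem_range hx hyr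
  have : FiniteDimensional k⟮y⟯ F := S24.finiteDimensional_adjoin_of_transcendental hx hyt
  have := S24.PlacesSetup.isDedekindDomain hyt
  have := S24.PlacesSetup.isFractionRing (K := k) (F := F) (y := y)
  -- the ring hom `R → W`
  have hRW : ∀ r : integralClosure (Algebra.adjoin k {y}) F,
      algebraMap (integralClosure (Algebra.adjoin k {y}) F) F r ∈ W :=
    fun r => s34galLying_coe_mem W hk hyW r
  let φ : integralClosure (Algebra.adjoin k {y}) F →+* W :=
    (algebraMap (integralClosure (Algebra.adjoin k {y}) F) F).codRestrict W.toSubring hRW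
  have hφ : ∀ r : integralClosure (Algebra.adjoin k {y}) F,
      ((φ r : W) : F) = algebraMap (integralClosure (Algebra.adjoin k {y}) F) F r := fun _ => rfl
  let 𝔫 : Ideal (integralClosure (Algebra.adjoin k {y}) F) :=
    (IsLocalRing.maximalIdeal W).comap φ
  have h𝔫prime : 𝔫.IsPrime := Ideal.comap_isPrime φ _
  have hmem𝔫 : ∀ r : integralClosure (Algebra.adjoin k {y}) F,
      r ∈ 𝔫 ↔ W.valuation (algebraMap (integralClosure (Algebra.adjoin k {y}) F) F r) < 1 := by
    intro r
    rw [← hφ, ← W.valuation_lt_one_iff]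
    exact Iff.rfl
  have hnot𝔫 : ∀ r : integralClosure (Algebra.adjoin k {y}) F,
      r ∉ 𝔫 → W.valuation (algebraMap (integralClosure (Algebra.adjoin k {y}) F) F r) = 1 := by
    intro r hr
    rw [hmem𝔫, not_lt] at hr
    exact le_antisymm ((W.valuation_le_one_iff _).2 (hRW r)) hr
  -- `y ∈ 𝔫`
  have hyR𝔫 : algebraMap (Algebra.adjoin k {y}) (integralClosure (Algebra.adjoin k {y}) F)
      (S24.PlacesSetup.gen k y) ∈ 𝔫 := by
    rw [hmem𝔫]
    exact hvy
  have h𝔫bot : 𝔫 ≠ ⊥ := by
    intro h
    rw [h, Ideal.mem_bot] at hyR𝔫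
    apply hy0
    have := congrArg (algebraMap (integralClosure (Algebra.adjoin k {y}) F) F) hyR𝔫
    simpa using this
  let w : HeightOneSpectrum (integralClosure (Algebra.adjoin k {y}) F) :=
    ⟨𝔫, h𝔫prime, h𝔫bot⟩
  refine ⟨Place.ofHeightOneSpectrum (K := k) w, ?_⟩
  rw [Place.ofHeightOneSpectrum_toValuationSubring]
  -- the key computation: `f = n / d` with `d ∉ 𝔫`
  have key : ∀ f : F, w.valuation F f ≤ 1 → W.valuation f ≤ 1 ∧
      (w.valuation F f < 1 → W.valuation f < 1) := by
    intro f hf
    obtain ⟨n, d, hnd⟩ := HeightOneSpectrum.exists_primeCompl_mul_eq_of_integer w f hf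
    have hd𝔫 : (d : integralClosure (Algebra.adjoin k {y}) F) ∉ 𝔫 := d.2
    have hd1 := hnot𝔫 _ hd𝔫
    have hWf : W.valuation f =
        W.valuation (algebraMap (integralClosure (Algebra.adjoin k {y}) F) F n) := by
      rw [← hnd, map_mul, hd1, mul_one]
    have hwd : w.valuation F
        (algebraMap (integralClosure (Algebra.adjoin k {y}) F) F d) = 1 := by
      have h1 : ¬ w.valuation F
          (algebraMap (integralClosure (Algebra.adjoin k {y}) F) F d) < 1 := by
        rw [HeightOneSpectrum.valuation_lt_one_iff_mem]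
        exact hd𝔫
      exact le_antisymm (w.valuation_le_one _) (not_lt.mp h1)
    have hwf : w.valuation F f =
        w.valuation F (algebraMap (integralClosure (Algebra.adjoin k {y}) F) F n) := by
      rw [← hnd, map_mul, hwd, mul_one]
    refine ⟨?_, fun hlt => ?_⟩
    · rw [hWf]
      exact (W.valuation_le_one_iff _).2 (hRW n)
    · rw [hWf, ← hmem𝔫]
      rw [hwf, HeightOneSpectrum.valuation_lt_one_iff_mem] at hlt
      exact hlt
  refine SetLike.ext fun f => ?_
  rw [Valuation.mem_valuationSubring_iff]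
  constructor
  · intro hf
    exact (W.valuation_le_one_iff f).1 (key f hf).1
  · intro hf
    by_contra hcon
    rw [not_le] at hcon
    have hf0 : f ≠ 0 := by
      rintro rfl
      rw [map_zero] at hcon
      exact absurd hcon (not_lt.mpr zero_le_one)
    have hinv : w.valuation F f⁻¹ < 1 := by
      rw [map_inv₀]
      exact inv_lt_one_of_one_lt₀ hcon
    have h2 := (key f⁻¹ hinv.le).2 hinv
    rw [map_inv₀] at h2
    have h3 : W.valuation f ≤ 1 := (W.valuation_le_one_iff f).2 hf
    have hpos : (0 : ValuationSubring.ValueGroup W) < W.valuation f := by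
      rw [Valuation.pos_iff]
      exact hf0
    have h4 : (1 : ValuationSubring.ValueGroup W) ≤ (W.valuation f)⁻¹ :=
      (one_le_inv₀ hpos).2 h3
    exact absurd h2 (not_lt.mpr h4)

variable (F₀ : IntermediateField ℚ (LaurentSeries ℚ))

/-- **LEAF LYING**: every place of `𝔽_K / K` has a place of `𝔽_ℚ̄ / ℚ̄` above it. -/
theorem s34gal_exists_place_over (hFF : Fermat.Agent.S37.IsFF Qb ↥(laurentBaseChange Qb F₀))
    (K : IntermediateField ℚ Qb) (Q : Place ↥K ↥(laurentBaseChange (↥K) F₀)) :
    ∃ P : Place Qb ↥(laurentBaseChange Qb F₀),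
      ∀ f : ↥(laurentBaseChange (↥K) F₀),
        f ∈ Q.toValuationSubring ↔ s34galEmb F₀ K f ∈ P.toValuationSubring := by
  classical
  -- a valuation subring dominating the image of `O_Q`
  obtain ⟨W, hle, hloc⟩ :=
    ((Q.toValuationSubring.toLocalSubring).map (s34galEmb F₀ K)).exists_le_valuationSubring
  have hOW : ∀ f : ↥(laurentBaseChange (↥K) F₀), f ∈ Q.toValuationSubring →
      s34galEmb F₀ K f ∈ W := fun f hf => hle ⟨f, hf, rfl⟩
  -- non-units stay non-units
  have hnon : ∀ f : ↥(laurentBaseChange (↥K) F₀), f ∈ Q.toValuationSubring → f⁻¹ ∉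
      Q.toValuationSubring → (s34galEmb F₀ K f)⁻¹ ∉ W := by
    intro f hf hfinv hcon
    have hfW := hOW f hf
    have hf0 : f ≠ 0 := by
      rintro rfl
      rw [inv_zero] at hfinv
      exact hfinv (zero_mem _)
    have he0 : s34galEmb F₀ K f ≠ 0 := by
      rw [Ne, map_eq_zero]
      exact hf0
    let a : ((Q.toValuationSubring.toLocalSubring).map (s34galEmb F₀ K)).toSubring :=
      ⟨s34galEmb F₀ K f, ⟨f, hf, rfl⟩⟩
    have hu : IsUnit (Subring.inclusion hle a) := by
      refine isUnit_iff_exists_inv.mpr ⟨⟨(s34galEmb F₀ K f)⁻¹, hcon⟩, Subtype.ext ?_⟩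
      show s34galEmb F₀ K f * (s34galEmb F₀ K f)⁻¹ = 1
      exact mul_inv_cancel₀ he0
    have hu' : IsUnit a := hloc.map_nonunit a hu
    obtain ⟨⟨b, g, hg, rfl⟩, hab⟩ := isUnit_iff_exists_inv.mp hu'
    have h1 : s34galEmb F₀ K f * s34galEmb F₀ K g = 1 := congrArg Subtype.val hab
    rw [← map_mul, ← map_one (s34galEmb F₀ K)] at h1
    have h2 : f * g = 1 := s34galEmb_injective F₀ K h1
    apply hfinv
    rw [inv_eq_of_mul_eq_one_right h2]
    exact hg
  -- `ℚ̄ ⊆ W`
  have hQbW : ∀ c : Qb, algebraMap Qb ↥(laurentBaseChange Qb F₀) c ∈ W := by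
    intro c
    let ι : ↥K →+* W :=
      ((s34galEmb F₀ K).comp (algebraMap ↥K ↥(laurentBaseChange (↥K) F₀))).codRestrict
        W.toSubring (fun a => hOW _ (Q.algebraMap_mem' a))
    have hι : (algebraMap W ↥(laurentBaseChange Qb F₀)).comp ι =
        (algebraMap Qb ↥(laurentBaseChange Qb F₀)).comp (algebraMap ↥K Qb) := by
      refine RingHom.ext fun a => ?_
      exact s34galEmb_algebraMap F₀ K a
    have hcint : IsIntegral ↥K c := by
      have : Algebra.IsAlgebraic ℚ Qb := AlgebraicClosure.isAlgebraic ℚ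
      exact (Algebra.IsIntegral.isIntegral (R := ℚ) c).tower_top
    obtain ⟨p, hpm, hp⟩ := hcint
    have hint : IsIntegral W (algebraMap Qb ↥(laurentBaseChange Qb F₀) c) := by
      refine ⟨p.map ι, hpm.map ι, ?_⟩
      rw [Polynomial.eval₂_map, hι, ← Polynomial.hom_eval₂, hp, map_zero]
    obtain ⟨x, hx⟩ := IsIntegrallyClosed.isIntegral_iff.mp hint
    rw [← hx]
    exact x.2
  -- `W ≠ ⊤`
  have hWtop : W ≠ ⊤ := by
    intro hW
    obtain ⟨z, hz⟩ : ∃ z : ↥(laurentBaseChange (↥K) F₀), z ∉ Q.toValuationSubring := by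
      by_contra h
      exact Q.ne_top' (SetLike.ext fun z => ⟨fun _ => ValuationSubring.mem_top z,
        fun _ => by_contra fun hz => h ⟨z, hz⟩⟩)
    have hzi : z⁻¹ ∈ Q.toValuationSubring := (Q.toValuationSubring.mem_or_inv_mem z).resolve_left hz
    have h1 := hnon z⁻¹ hzi (by rw [inv_inv]; exact hz)
    rw [hW] at h1
    exact h1 (ValuationSubring.mem_top _)
  obtain ⟨P, hP⟩ := s34galLying_exists_place_eq hFF W hQbW hWtop
  refine ⟨P, fun f => ?_⟩
  rw [hP]
  constructor
  · exact hOW f
  · intro hfW
    by_contra hf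
    have hfi : f⁻¹ ∈ Q.toValuationSubring := (Q.toValuationSubring.mem_or_inv_mem f).resolve_left hf
    have h1 := hnon f⁻¹ hfi (by rw [inv_inv]; exact hf)
    rw [map_inv₀, inv_inv] at h1
    exact h1 hfW

end Fermat.Agent.S34
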