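import Mathlib
import Fermat.Prelude.Def_ModularCurve_ArithmeticGalois
import Fermat.Agent.S24.PlacesBasic

/-!
# P19 (S34), block GAL: second differences of Kummer generators

Pure bookkeeping in the frozen `Pic⁰` formalism.  Let `g, g'` be semilinear automorphisms of a
function field `F / K`, `D` a divisor of degree zero with `m • D = div u`.  The second difference
`z = g' • (g • u / u) / (g • u / u)` has divisor `m • (g' • g • D - g' • D - g • D + D)`; hence if
all orders of `z` are `m` times the orders of some `w ≠ 0` (for instance if `z = c * w ^ m` with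
`c` a nonzero constant), then `g' • g • x - g' • x - g • x + x = 0` for `x = [D]`.

`s34gal_geo_of_pow` is the instance for `J₀(N)` and the arithmetic Galois action: it reduces the
geometric theorem of P19 to the statement that the second difference of a Kummer generator is an
`m`-th power up to a constant.
-/

set_option autoImplicit false

namespace Fermat.Agent.S34

open AlgebraicCurve ModularCurve

section Abstract

variable {K F : Type*} [Field K] [Field F] [Algebra K F]

theorem s34gal_ord_smul (g : SemilinearAut K F) (v : Place K F) (f : F) :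
    v.ord (g • f) = (g⁻¹ • v).ord f := by
  have h := SemilinearAut.ord_smul g (g⁻¹ • v) f
  rwa [smul_inv_smul] at h

theorem s34gal_smul_ne_zero (g : SemilinearAut K F) {f : F} (hf : f ≠ 0) : g • f ≠ 0 := by
  simpa using hf

theorem s34gal_ord_div (P : Place K F) {f h : F} (hf : f ≠ 0) (hh : h ≠ 0) :
    P.ord (f / h) = P.ord f - P.ord h := by
  rw [div_eq_mul_inv, P.ord_mul hf (inv_ne_zero hh), P.ord_inv, sub_eq_add_neg]

/-- The second difference of `u` with respect to `g`, `g'`. -/
noncomputable def s34galSecondDiff (g g' : SemilinearAut K F) (u : F) : F :=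
  (g' • (g • u / u)) / (g • u / u)

theorem s34galSecondDiff_ne_zero (g g' : SemilinearAut K F) {u : F} (hu : u ≠ 0) :
    s34galSecondDiff g g' u ≠ 0 := by
  have h1 : g • u / u ≠ 0 := div_ne_zero (s34gal_smul_ne_zero g hu) hu
  exact div_ne_zero (s34gal_smul_ne_zero g' h1) h1

/-- Orders of the second difference of a function with divisor `E`. -/
theorem s34gal_ord_secondDiff (g g' : SemilinearAut K F) {u : F} (hu : u ≠ 0)
    (E : Divisor K F) (hE : ∀ v : Place K F, E v = v.ord u) (v : Place K F) :
    v.ord (s34galSecondDiff g g' u) = (g' • g • E - g' • E - g • E + E) v := by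
  have h1 : g • u ≠ 0 := s34gal_smul_ne_zero g hu
  have h2 : g • u / u ≠ 0 := div_ne_zero h1 hu
  have h3 : g' • (g • u / u) ≠ 0 := s34gal_smul_ne_zero g' h2
  rw [s34galSecondDiff, s34gal_ord_div v h3 h2, s34gal_ord_smul g' v, s34gal_ord_div _ h1 hu,
    s34gal_ord_div v h1 hu, s34gal_ord_smul g (g'⁻¹ • v), s34gal_ord_smul g v]
  simp only [Finsupp.add_apply, Finsupp.sub_apply, SemilinearAut.divisor_smul_apply, hE]
  ring

/-- If the orders of the second difference of a Kummer generator of `[D]` are `m` times the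
orders of a function `w`, then the second difference of the class `[D]` vanishes. -/
theorem s34gal_secondDiff_class_eq_zero (g g' : SemilinearAut K F) {m : ℕ} (hm : m ≠ 0)
    (D : Divisor.degZero (K := K) (F := F)) {u : F} (hu : u ≠ 0)
    (hD : ∀ v : Place K F, (m • (D : Divisor K F)) v = v.ord u)
    {w : F} (hw : w ≠ 0)
    (hz : ∀ v : Place K F, v.ord (s34galSecondDiff g g' u) = (m : ℤ) * v.ord w) :
    g' • g • Pic0.mk D - g' • Pic0.mk D - g • Pic0.mk D + Pic0.mk D = 0 := by
  simp only [SemilinearAut.pic0_smul_mk]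
  show Pic0.mk (SemilinearAut.degZeroSMulHom g' (SemilinearAut.degZeroSMulHom g D)
    - SemilinearAut.degZeroSMulHom g' D - SemilinearAut.degZeroSMulHom g D + D) = 0
  refine (QuotientAddGroup.eq_zero_iff _).mpr ?_
  rw [AddSubgroup.mem_addSubgroupOf]
  refine ⟨w, hw, fun v => ?_⟩
  have h1 := s34gal_ord_secondDiff g g' hu (m • (D : Divisor K F)) hD v
  rw [hz v] at h1
  have h2 : (g' • g • (m • (D : Divisor K F)) - g' • (m • (D : Divisor K F))
      - g • (m • (D : Divisor K F)) + m • (D : Divisor K F)) v
      = (m : ℤ) * (g' • g • (D : Divisor K F) - g' • (D : Divisor K F)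
        - g • (D : Divisor K F) + (D : Divisor K F)) v := by
    simp only [Finsupp.add_apply, Finsupp.sub_apply, SemilinearAut.divisor_smul_apply,
      Finsupp.smul_apply, nsmul_eq_mul]
    ring
  rw [h2] at h1
  have hm' : (m : ℤ) ≠ 0 := by exact_mod_cast hm
  have h3 := mul_left_cancel₀ hm' h1
  simpa using h3.symm

/-- Variant: the second difference is an `m`-th power up to a nonzero constant. -/
theorem s34gal_secondDiff_class_eq_zero_of_pow (g g' : SemilinearAut K F) {m : ℕ} (hm : m ≠ 0)
    (D : Divisor.degZero (K := K) (F := F)) {u : F} (hu : u ≠ 0)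
    (hD : ∀ v : Place K F, (m • (D : Divisor K F)) v = v.ord u)
    {w : F} {c : K} (hz : s34galSecondDiff g g' u = algebraMap K F c * w ^ m) :
    g' • g • Pic0.mk D - g' • Pic0.mk D - g • Pic0.mk D + Pic0.mk D = 0 := by
  have hz0 := s34galSecondDiff_ne_zero g g' hu
  rw [hz] at hz0
  have hc : algebraMap K F c ≠ 0 := left_ne_zero_of_mul hz0
  have hw : w ≠ 0 := fun h => by
    rw [h, zero_pow hm, mul_zero] at hz0
    exact hz0 rfl
  refine s34gal_secondDiff_class_eq_zero g g' hm D hu hD hw fun v => ?_
  rw [hz, v.ord_mul hc (pow_ne_zero _ hw), Fermat.Agent.S24.PlacesBasic.ord_algebraMap v c,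
    zero_add, ← zpow_natCast, v.ord_zpow]

/-- Every class killed by `m` has a Kummer generator. -/
theorem s34gal_exists_kummer {m : ℕ} (x : Pic0 K F) (hx : m • x = 0) :
    ∃ (D : Divisor.degZero (K := K) (F := F)) (u : F), Pic0.mk D = x ∧ u ≠ 0 ∧
      ∀ v : Place K F, (m • (D : Divisor K F)) v = v.ord u := by
  obtain ⟨D, rfl⟩ := Pic0.mk_surjective x
  have h1 : Pic0.mk (m • D) = 0 := hx
  have h2 := (QuotientAddGroup.eq_zero_iff _).mp h1
  rw [AddSubgroup.mem_addSubgroupOf] at h2
  obtain ⟨u, hu, hD⟩ := h2
  exact ⟨D, u, rfl, hu, fun v => by simpa using hD v⟩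

end Abstract

/-- **GEO from the Kummer statement.**  For `x ∈ J₀(N)` and `τ, τ' ∈ Gal(ℚ̄/ℚ)`: if for SOME
representative `D` of `x` and Kummer generator `u` (`m • D = div u`) the second difference of `u`
is an `m`-th power up to a nonzero constant, then `τ'τx − τ'x − τx + x = 0`. -/
theorem s34gal_geo_of_pow (N : ℕ) {m : ℕ} (hm : m ≠ 0)
    (τ τ' : AlgebraicClosure ℚ ≃ₐ[ℚ] AlgebraicClosure ℚ) (x : JZero N)
    (h : ∃ (D : Divisor.degZero (K := AlgebraicClosure ℚ) (F := modularFunctionFieldBar N))
        (u w : modularFunctionFieldBar N) (c : AlgebraicClosure ℚ),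
        Pic0.mk D = x ∧ u ≠ 0 ∧
        (∀ v : Place (AlgebraicClosure ℚ) (modularFunctionFieldBar N),
          (m • (D : Divisor (AlgebraicClosure ℚ) (modularFunctionFieldBar N))) v = v.ord u) ∧
        s34galSecondDiff (arithmeticGalois (modularFunctionFieldFull N) τ)
            (arithmeticGalois (modularFunctionFieldFull N) τ') u
          = algebraMap (AlgebraicClosure ℚ) (modularFunctionFieldBar N) c * w ^ m) :
    τ' • τ • x - τ' • x - τ • x + x = 0 := by
  obtain ⟨D, u, w, c, rfl, hu, hD, hz⟩ := h
  exact s34gal_secondDiff_class_eq_zero_of_pow _ _ hm D hu hD hz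

end Fermat.Agent.S34
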