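import Mathlib
import Fermat.Agent.S34.GalPic
import Fermat.Agent.S34.GalField

/-!
# P19 (S34), block GAL, leaf R1: rational places and values

* `s34galRational_smul`: for `L / ℚ` normal, Galois translates of `L`-rational places are
  `L`-rational;
* `s34gal_value_smul`: `σ` transports the value `c` of `f` at `P` to the value `σ c` of `σ • f`
  at `σ • P`;
* `s34galRational_value`: the value of an element of `𝔽_L` at an `L`-rational place lies in `L`.
-/

set_option autoImplicit false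

namespace Fermat.Agent.S34

open AlgebraicCurve ModularCurve IntermediateField

local notation "Qb" => AlgebraicClosure ℚ

variable (F₀ : IntermediateField ℚ (LaurentSeries ℚ))

theorem s34galR1_isGalois : IsGalois ℚ Qb := by
  have h1 : Algebra.IsAlgebraic ℚ Qb := AlgebraicClosure.isAlgebraic ℚ
  have h2 : IsAlgClosure ℚ Qb := ⟨inferInstance, h1⟩
  infer_instance

/-- For `L / ℚ` normal, every automorphism of `ℚ̄` maps `L` into `L`. -/
theorem s34galR1_apply_mem {L : IntermediateField ℚ Qb} [Normal ℚ ↥L] (σ : Qb ≃ₐ[ℚ] Qb)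
    {a : Qb} (ha : a ∈ L) : σ a ∈ L := by
  have h := AlgEquiv.restrictNormal_commutes σ ↥L ⟨a, ha⟩
  have h2 : σ a = ((σ.restrictNormal ↥L ⟨a, ha⟩ : ↥L) : Qb) := h.symm
  rw [h2]
  exact (σ.restrictNormal ↥L ⟨a, ha⟩).2

theorem s34galRational_smul {L : IntermediateField ℚ Qb} [Normal ℚ ↥L] (σ : Qb ≃ₐ[ℚ] Qb)
    {P : Place Qb ↥(laurentBaseChange Qb F₀)} (hP : s34galRational F₀ L P) :
    s34galRational F₀ L (arithmeticGalois F₀ σ • P) := by
  intro σ' hσ'
  have h1 : ∀ a ∈ L, (σ⁻¹ * σ' * σ) a = a := by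
    intro a ha
    show σ⁻¹ (σ' (σ a)) = a
    rw [hσ' _ (s34galR1_apply_mem σ ha)]
    exact σ.symm_apply_apply a
  have h3 := hP _ h1
  rw [map_mul, map_mul, mul_smul, mul_smul, map_inv, inv_smul_eq_iff] at h3
  exact h3

theorem s34gal_value_smul (σ : Qb ≃ₐ[ℚ] Qb) (P : Place Qb ↥(laurentBaseChange Qb F₀))
    (f : ↥(laurentBaseChange Qb F₀)) (c : Qb) :
    (arithmeticGalois F₀ σ • P).ord (arithmeticGalois F₀ σ • f - algebraMap Qb ↥(laurentBaseChange Qb F₀) (σ c)) =
      P.ord (f - algebraMap Qb ↥(laurentBaseChange Qb F₀) c) := by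
  have h : arithmeticGalois F₀ σ • (f - algebraMap Qb ↥(laurentBaseChange Qb F₀) c) =
      arithmeticGalois F₀ σ • f - algebraMap Qb ↥(laurentBaseChange Qb F₀) (σ c) := by
    rw [smul_sub, SemilinearAut.smul_algebraMap]
    rfl
  rw [← h, SemilinearAut.ord_smul]

theorem s34galRational_value {L : IntermediateField ℚ Qb}
    {P : Place Qb ↥(laurentBaseChange Qb F₀)} (hP : s34galRational F₀ L P)
    (f : ↥(laurentBaseChange (↥L) F₀)) {c : Qb}
    (hc : 0 < P.ord (s34galEmb F₀ L f - algebraMap Qb ↥(laurentBaseChange Qb F₀) c)) : c ∈ L := by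
  have key : ∀ σ : Qb ≃ₐ[ℚ] Qb, (∀ a ∈ L, σ a = a) → σ c = c := by
    intro σ hσ
    have h1 := s34gal_value_smul F₀ σ P (s34galEmb F₀ L f) c
    rw [hP σ hσ, s34gal_smul_emb_of_fix F₀ L σ hσ f] at h1
    by_contra hne
    have hA : s34galEmb F₀ L f - algebraMap Qb ↥(laurentBaseChange Qb F₀) c ≠ 0 := by
      intro h
      rw [h, Place.ord_zero] at hc
      exact lt_irrefl _ hc
    have hB : s34galEmb F₀ L f - algebraMap Qb ↥(laurentBaseChange Qb F₀) (σ c) ≠ 0 := by
      intro h
      rw [h, Place.ord_zero] at h1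
      rw [← h1] at hc
      exact lt_irrefl _ hc
    have hAB : (s34galEmb F₀ L f - algebraMap Qb ↥(laurentBaseChange Qb F₀) c) +
        -(s34galEmb F₀ L f - algebraMap Qb ↥(laurentBaseChange Qb F₀) (σ c)) =
        algebraMap Qb ↥(laurentBaseChange Qb F₀) (σ c - c) := by
      rw [map_sub]
      ring
    have hne' : (s34galEmb F₀ L f - algebraMap Qb ↥(laurentBaseChange Qb F₀) c) +
        -(s34galEmb F₀ L f - algebraMap Qb ↥(laurentBaseChange Qb F₀) (σ c)) ≠ 0 := by
      rw [hAB, Ne, map_eq_zero, sub_eq_zero]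
      exact hne
    have h2 := Fermat.Agent.S24.PlacesBasic.min_ord_le_ord_add P hA (neg_ne_zero.2 hB) hne'
    rw [hAB, Fermat.Agent.S24.PlacesBasic.ord_algebraMap, Fermat.Agent.S24.PlacesBasic.ord_neg,
      h1, min_self] at h2
    exact absurd hc (not_lt.2 h2)
  have hmem : c ∈ IntermediateField.fixedField L.fixingSubgroup := by
    rw [IntermediateField.mem_fixedField_iff]
    intro σ hσ
    exact key σ ((IntermediateField.mem_fixingSubgroup_iff L σ).1 hσ)
  have := s34galR1_isGalois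
  rwa [InfiniteGalois.fixedField_fixingSubgroup] at hmem

end Fermat.Agent.S34
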