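import Mathlib
import Fermat.Agent.S34.GalPic
import Fermat.Agent.S34.GalField
import Fermat.Agent.S34.GalRat
import Fermat.Agent.S37.HeckeFF
import Fermat.Agent.S24.PlacesBasic

/-!
# P19 (S34), block GAL, leaf RATORD (second team)

At a `K`-rational place `P` of `𝔽_ℚ̄ = laurentBaseChange ℚ̄ F₀` lying over a place `Q` of
`𝔽_K = laurentBaseChange K F₀`:

* `s34gal_rational_residue_surj_B`: the residue field of `Q` is `K`;
* `s34gal_ord_emb_of_rational_B`: the constant field extension is unramified at `P`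
  (`ord_P (emb f) = ord_Q f`);
* `s34gal_place_over_unique_B`: `P` is the only place of `𝔽_ℚ̄` over `Q`.

The abstract part (`s34roB_*`) works with the subring `T` generated by the constants and the
image of the valuation ring of `Q`: every nonzero element of `T` is a power of the image of a
uniformiser of `Q` times an element `c + emb π * w'` with `c` a nonzero constant and `w' ∈ T`.
-/

set_option autoImplicit false

namespace Fermat.Agent.S34

open AlgebraicCurve ModularCurve IntermediateField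

local notation "Qb" => AlgebraicClosure ℚ

section Abstract

variable {k FK : Type*} (Kb : Type*) {FB : Type*} [Field k] [Field FK] [Algebra k FK] [Field Kb]
  [Field FB] [Algebra Kb FB]

/-- The subring generated by the constants and the image of the valuation ring of `Q`. -/
def s34roB_T (emb : FK →+* FB) (Q : Place k FK) : Subring FB :=
  Subring.closure (Set.range (algebraMap Kb FB) ∪ emb '' (Q.toValuationSubring : Set FK))

variable {Kb}

theorem s34roB_pos_iff (emb : FK →+* FB) (Q : Place k FK) (P : Place Kb FB)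
    (hPQ : ∀ f : FK, f ∈ Q.toValuationSubring ↔ emb f ∈ P.toValuationSubring) {f : FK}
    (hf : f ≠ 0) : 0 < Q.ord f ↔ 0 < P.ord (emb f) := by
  have hf' : emb f ≠ 0 := (map_ne_zero emb).mpr hf
  rw [S24.PlacesBasic.ord_pos_iff_inv_not_mem Q hf, S24.PlacesBasic.ord_pos_iff_inv_not_mem P hf',
    hPQ, map_inv₀]

theorem s34roB_nonneg_iff (emb : FK →+* FB) (Q : Place k FK) (P : Place Kb FB)
    (hPQ : ∀ f : FK, f ∈ Q.toValuationSubring ↔ emb f ∈ P.toValuationSubring) {f : FK}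
    (hf : f ≠ 0) : 0 ≤ Q.ord f ↔ 0 ≤ P.ord (emb f) := by
  have hf' : emb f ≠ 0 := (map_ne_zero emb).mpr hf
  rw [← S24.PlacesBasic.mem_iff_ord_nonneg Q hf, ← S24.PlacesBasic.mem_iff_ord_nonneg P hf', hPQ]

theorem s34roB_zero_of_zero (emb : FK →+* FB) (Q : Place k FK) (P : Place Kb FB)
    (hPQ : ∀ f : FK, f ∈ Q.toValuationSubring ↔ emb f ∈ P.toValuationSubring) {f : FK}
    (hf : f ≠ 0) (h : Q.ord f = 0) : P.ord (emb f) = 0 := by
  have h1 := s34roB_pos_iff emb Q P hPQ hf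
  have h2 := s34roB_nonneg_iff emb Q P hPQ hf
  omega

theorem s34roB_T_le (emb : FK →+* FB) (Q : Place k FK) (P : Place Kb FB)
    (hPQ : ∀ f : FK, f ∈ Q.toValuationSubring → emb f ∈ P.toValuationSubring) :
    s34roB_T Kb emb Q ≤ P.toValuationSubring.toSubring := by
  refine Subring.closure_le.mpr ?_
  rintro x (⟨c, rfl⟩ | ⟨b, hb, rfl⟩)
  · exact P.algebraMap_mem' c
  · exact hPQ b hb

/-- Every element of `T` is a constant plus `emb π` times an element of `T`. -/
theorem s34roB_decomp (emb : FK →+* FB) (ι : k →+* Kb)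
    (hι : ∀ c : k, emb (algebraMap k FK c) = algebraMap Kb FB (ι c))
    (Q : Place k FK) (π : Q.toValuationSubring) (hπ : Irreducible π)
    (hres : ∀ f ∈ Q.toValuationSubring, ∃ c : k, f = algebraMap k FK c ∨
      0 < Q.ord (f - algebraMap k FK c))
    {w : FB} (hw : w ∈ s34roB_T Kb emb Q) :
    ∃ (c : Kb) (w₁ : FB), w₁ ∈ s34roB_T Kb emb Q ∧
      w = algebraMap Kb FB c + emb (π : FK) * w₁ := by
  have hπ0 : (π : FK) ≠ 0 := fun h => hπ.ne_zero (Subtype.ext h)
  have hcT : ∀ d : Kb, algebraMap Kb FB d ∈ s34roB_T Kb emb Q := fun d =>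
    Subring.subset_closure (Or.inl ⟨d, rfl⟩)
  have hπT : emb (π : FK) ∈ s34roB_T Kb emb Q :=
    Subring.subset_closure (Or.inr ⟨_, π.2, rfl⟩)
  induction hw using Subring.closure_induction with
  | mem x hx =>
    rcases hx with ⟨c, rfl⟩ | ⟨b, hb, rfl⟩
    · exact ⟨c, 0, zero_mem _, by rw [mul_zero, add_zero]⟩
    · obtain ⟨v, hv⟩ := hres b hb
      have hb' : (b - algebraMap k FK v) / (π : FK) ∈ Q.toValuationSubring := by
        rcases hv with hv | hv
        · rw [hv, sub_self, zero_div]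
          exact zero_mem _
        · have hne : b - algebraMap k FK v ≠ 0 := by
            intro h
            rw [h, Place.ord_zero] at hv
            exact lt_irrefl _ hv
          rw [S24.PlacesBasic.mem_iff_ord_nonneg Q (div_ne_zero hne hπ0), div_eq_mul_inv,
            Q.ord_mul hne (inv_ne_zero hπ0), Q.ord_inv, Q.ord_coe_irreducible hπ]
          omega
      refine ⟨ι v, emb ((b - algebraMap k FK v) / (π : FK)),
        Subring.subset_closure (Or.inr ⟨_, hb', rfl⟩), ?_⟩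
      rw [← hι, ← map_mul, ← map_add]
      congr 1
      field_simp
      ring
  | zero => exact ⟨0, 0, zero_mem _, by rw [map_zero, mul_zero, add_zero]⟩
  | one => exact ⟨1, 0, zero_mem _, by rw [map_one, mul_zero, add_zero]⟩
  | add x y _ _ hx hy =>
    obtain ⟨c, w₁, hw₁, rfl⟩ := hx
    obtain ⟨c', w₁', hw₁', rfl⟩ := hy
    exact ⟨c + c', w₁ + w₁', add_mem hw₁ hw₁', by rw [map_add]; ring⟩
  | neg x _ hx =>
    obtain ⟨c, w₁, hw₁, rfl⟩ := hx
    exact ⟨-c, -w₁, neg_mem hw₁, by rw [map_neg]; ring⟩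
  | mul x y _ _ hx hy =>
    obtain ⟨c, w₁, hw₁, rfl⟩ := hx
    obtain ⟨c', w₁', hw₁', rfl⟩ := hy
    refine ⟨c * c', algebraMap Kb FB c * w₁' + algebraMap Kb FB c' * w₁ +
      emb (π : FK) * (w₁ * w₁'), ?_, by rw [map_mul]; ring⟩
    exact add_mem (add_mem (mul_mem (hcT c) hw₁') (mul_mem (hcT c') hw₁))
      (mul_mem hπT (mul_mem hw₁ hw₁'))

/-- Every nonzero element of `T` is a power of `emb π` times `c + emb π * w'`, `c ≠ 0`. -/
theorem s34roB_factor (emb : FK →+* FB) (ι : k →+* Kb)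
    (hι : ∀ c : k, emb (algebraMap k FK c) = algebraMap Kb FB (ι c))
    (Q : Place k FK) (π : Q.toValuationSubring) (hπ : Irreducible π)
    (hres : ∀ f ∈ Q.toValuationSubring, ∃ c : k, f = algebraMap k FK c ∨
      0 < Q.ord (f - algebraMap k FK c))
    (P : Place Kb FB)
    (hPQ : ∀ f : FK, f ∈ Q.toValuationSubring ↔ emb f ∈ P.toValuationSubring) :
    ∀ (n : ℕ) (w : FB), w ∈ s34roB_T Kb emb Q → w ≠ 0 → (P.ord w).toNat = n →
      ∃ (j : ℕ) (c : Kb) (w' : FB), c ≠ 0 ∧ w' ∈ s34roB_T Kb emb Q ∧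
        w = emb (π : FK) ^ j * (algebraMap Kb FB c + emb (π : FK) * w') := by
  have hπ0' : (π : FK) ≠ 0 := fun h => hπ.ne_zero (Subtype.ext h)
  have hpos : 0 < P.ord (emb (π : FK)) :=
    (s34roB_pos_iff emb Q P hPQ hπ0').1 (by rw [Q.ord_coe_irreducible hπ]; exact one_pos)
  have hTle := s34roB_T_le emb Q P (fun f hf => (hPQ f).1 hf)
  intro n
  induction n using Nat.strong_induction_on with
  | _ n ih =>
    intro w hw hw0 hn
    obtain ⟨c, w₁, hw₁, rfl⟩ := s34roB_decomp emb ι hι Q π hπ hres hw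
    by_cases hc : c = 0
    · subst hc
      rw [map_zero, zero_add] at hw0 hn
      have hπ0 : emb (π : FK) ≠ 0 := left_ne_zero_of_mul hw0
      have hw₁0 : w₁ ≠ 0 := right_ne_zero_of_mul hw0
      have h1 : 0 ≤ P.ord w₁ := (S24.PlacesBasic.mem_iff_ord_nonneg P hw₁0).1 (hTle hw₁)
      have h3 : P.ord (emb (π : FK) * w₁) = P.ord (emb (π : FK)) + P.ord w₁ :=
        P.ord_mul hπ0 hw₁0
      obtain ⟨j, c', w', hc', hw', hw₁eq⟩ := ih (P.ord w₁).toNat (by omega) w₁ hw₁ hw₁0 rfl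
      refine ⟨j + 1, c', w', hc', hw', ?_⟩
      rw [map_zero, zero_add]
      conv_lhs => rw [hw₁eq]
      rw [pow_succ]
      ring
    · exact ⟨0, c, w₁, hc, hw₁, by rw [pow_zero, one_mul]⟩

/-- The order of a factorised element at any place containing `T` at which `emb π` vanishes. -/
theorem s34roB_ord_factor (emb : FK →+* FB) (Q : Place k FK) (π : Q.toValuationSubring)
    (P : Place Kb FB) (hT : s34roB_T Kb emb Q ≤ P.toValuationSubring.toSubring)
    (hpos : 0 < P.ord (emb (π : FK))) {j : ℕ} {c : Kb} {w' : FB} (hc : c ≠ 0)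
    (hw' : w' ∈ s34roB_T Kb emb Q) :
    P.ord (emb (π : FK) ^ j * (algebraMap Kb FB c + emb (π : FK) * w')) =
      j * P.ord (emb (π : FK)) := by
  have hπ0 : emb (π : FK) ≠ 0 := by
    intro h
    rw [h, Place.ord_zero] at hpos
    exact lt_irrefl _ hpos
  have hc0 : algebraMap Kb FB c ≠ 0 := (map_ne_zero _).mpr hc
  have hU : algebraMap Kb FB c + emb (π : FK) * w' ≠ 0 ∧
      P.ord (algebraMap Kb FB c + emb (π : FK) * w') = 0 := by
    by_cases hw0 : w' = 0
    · rw [hw0, mul_zero, add_zero]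
      exact ⟨hc0, S24.PlacesBasic.ord_algebraMap P c⟩
    · have h1 : 0 ≤ P.ord w' := (S24.PlacesBasic.mem_iff_ord_nonneg P hw0).1 (hT hw')
      have h2 : P.ord (emb (π : FK) * w') = P.ord (emb (π : FK)) + P.ord w' :=
        P.ord_mul hπ0 hw0
      have h3 : P.ord (algebraMap Kb FB c) ≠ P.ord (emb (π : FK) * w') := by
        rw [S24.PlacesBasic.ord_algebraMap]
        omega
      have h4 := S24.PlacesBasic.ord_add_eq_min P hc0 (mul_ne_zero hπ0 hw0) h3
      rw [S24.PlacesBasic.ord_algebraMap] at h4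
      refine ⟨?_, ?_⟩
      · intro h0
        have h5 : emb (π : FK) * w' = -algebraMap Kb FB c := by
          rw [eq_neg_iff_add_eq_zero, add_comm]
          exact h0
        rw [h5, S24.PlacesBasic.ord_neg] at h3
        exact h3 rfl
      · rw [h4]
        omega
  rw [P.ord_mul (pow_ne_zero _ hπ0) hU.1, hU.2, add_zero, ← zpow_natCast, P.ord_zpow]

/-- The orders at two places over `Q` of any nonzero function are the same multiple of the
orders of `emb π`. -/
theorem s34roB_core (emb : FK →+* FB) (ι : k →+* Kb)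
    (hι : ∀ c : k, emb (algebraMap k FK c) = algebraMap Kb FB (ι c))
    (Q : Place k FK) (π : Q.toValuationSubring) (hπ : Irreducible π)
    (hres : ∀ f ∈ Q.toValuationSubring, ∃ c : k, f = algebraMap k FK c ∨
      0 < Q.ord (f - algebraMap k FK c))
    (P P' : Place Kb FB)
    (hPQ : ∀ f : FK, f ∈ Q.toValuationSubring ↔ emb f ∈ P.toValuationSubring)
    (hP'Q : ∀ f : FK, f ∈ Q.toValuationSubring ↔ emb f ∈ P'.toValuationSubring)
    (hgen : ∀ x : FB, ∃ a b : FB, a ∈ s34roB_T Kb emb Q ∧ b ∈ s34roB_T Kb emb Q ∧ b ≠ 0 ∧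
      x * b = a)
    {x : FB} (hx : x ≠ 0) :
    ∃ m : ℤ, P.ord x = m * P.ord (emb (π : FK)) ∧ P'.ord x = m * P'.ord (emb (π : FK)) := by
  have hπ0' : (π : FK) ≠ 0 := fun h => hπ.ne_zero (Subtype.ext h)
  have hposQ : 0 < Q.ord (π : FK) := by
    rw [Q.ord_coe_irreducible hπ]
    exact one_pos
  obtain ⟨a, b, ha, hb, hb0, hab⟩ := hgen x
  have ha0 : a ≠ 0 := by
    rw [← hab]
    exact mul_ne_zero hx hb0
  have hx' : x = a / b := eq_div_of_mul_eq hb0 hab
  obtain ⟨ja, ca, wa, hca, hwa, hadef⟩ := s34roB_factor emb ι hι Q π hπ hres P hPQ _ a ha ha0 rfl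
  obtain ⟨jb, cb, wb, hcb, hwb, hbdef⟩ := s34roB_factor emb ι hι Q π hπ hres P hPQ _ b hb hb0 rfl
  refine ⟨(ja : ℤ) - jb, ?_, ?_⟩
  · have hT := s34roB_T_le emb Q P (fun f hf => (hPQ f).1 hf)
    have hpos := (s34roB_pos_iff emb Q P hPQ hπ0').1 hposQ
    have e1 := s34roB_ord_factor emb Q π P hT hpos (j := ja) hca hwa
    have e2 := s34roB_ord_factor emb Q π P hT hpos (j := jb) hcb hwb
    rw [← hadef] at e1
    rw [← hbdef] at e2
    rw [hx', s34gal_ord_div P ha0 hb0, e1, e2]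
    ring
  · have hT := s34roB_T_le emb Q P' (fun f hf => (hP'Q f).1 hf)
    have hpos := (s34roB_pos_iff emb Q P' hP'Q hπ0').1 hposQ
    have e1 := s34roB_ord_factor emb Q π P' hT hpos (j := ja) hca hwa
    have e2 := s34roB_ord_factor emb Q π P' hT hpos (j := jb) hcb hwb
    rw [← hadef] at e1
    rw [← hbdef] at e2
    rw [hx', s34gal_ord_div P' ha0 hb0, e1, e2]
    ring

/-- The ramification index is one. -/
theorem s34roB_e_eq_one (emb : FK →+* FB) (ι : k →+* Kb)
    (hι : ∀ c : k, emb (algebraMap k FK c) = algebraMap Kb FB (ι c))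
    (Q : Place k FK) (π : Q.toValuationSubring) (hπ : Irreducible π)
    (hres : ∀ f ∈ Q.toValuationSubring, ∃ c : k, f = algebraMap k FK c ∨
      0 < Q.ord (f - algebraMap k FK c))
    (P : Place Kb FB)
    (hPQ : ∀ f : FK, f ∈ Q.toValuationSubring ↔ emb f ∈ P.toValuationSubring)
    (hgen : ∀ x : FB, ∃ a b : FB, a ∈ s34roB_T Kb emb Q ∧ b ∈ s34roB_T Kb emb Q ∧ b ≠ 0 ∧
      x * b = a) :
    P.ord (emb (π : FK)) = 1 := by
  have hπ0' : (π : FK) ≠ 0 := fun h => hπ.ne_zero (Subtype.ext h)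
  have hpos : 0 < P.ord (emb (π : FK)) :=
    (s34roB_pos_iff emb Q P hPQ hπ0').1 (by rw [Q.ord_coe_irreducible hπ]; exact one_pos)
  obtain ⟨ϖ, hϖ⟩ := IsDiscreteValuationRing.exists_irreducible P.toValuationSubring
  have hϖ0 : (ϖ : FB) ≠ 0 := fun h => hϖ.ne_zero (Subtype.ext h)
  obtain ⟨m, hm, -⟩ := s34roB_core emb ι hι Q π hπ hres P P hPQ hPQ hgen hϖ0
  rw [P.ord_coe_irreducible hϖ] at hm
  exact Int.eq_one_of_dvd_one hpos.le ⟨m, by rw [hm]; ring⟩

theorem s34roB_ord_emb (emb : FK →+* FB) (ι : k →+* Kb)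
    (hι : ∀ c : k, emb (algebraMap k FK c) = algebraMap Kb FB (ι c))
    (Q : Place k FK) (π : Q.toValuationSubring) (hπ : Irreducible π)
    (hres : ∀ f ∈ Q.toValuationSubring, ∃ c : k, f = algebraMap k FK c ∨
      0 < Q.ord (f - algebraMap k FK c))
    (P : Place Kb FB)
    (hPQ : ∀ f : FK, f ∈ Q.toValuationSubring ↔ emb f ∈ P.toValuationSubring)
    (hgen : ∀ x : FB, ∃ a b : FB, a ∈ s34roB_T Kb emb Q ∧ b ∈ s34roB_T Kb emb Q ∧ b ≠ 0 ∧
      x * b = a)
    (f : FK) : P.ord (emb f) = Q.ord f := by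
  rcases eq_or_ne f 0 with rfl | hf
  · rw [map_zero, Place.ord_zero, Place.ord_zero]
  have he := s34roB_e_eq_one emb ι hι Q π hπ hres P hPQ hgen
  have hπ0' : (π : FK) ≠ 0 := fun h => hπ.ne_zero (Subtype.ext h)
  obtain ⟨u, hu⟩ := Q.exists_unit_mul_zpow hf hπ
  have hu0 : ((u : Q.toValuationSubring) : FK) ≠ 0 := fun h => u.ne_zero (Subtype.ext h)
  have h1 : P.ord (emb ((u : Q.toValuationSubring) : FK)) = 0 :=
    s34roB_zero_of_zero emb Q P hPQ hu0 (Q.ord_coe_unit u)
  conv_lhs => rw [hu]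
  rw [map_mul, map_zpow₀, P.ord_mul ((map_ne_zero emb).mpr hu0)
    (zpow_ne_zero _ ((map_ne_zero emb).mpr hπ0')), h1, zero_add, P.ord_zpow, he, mul_one]

theorem s34roB_unique (emb : FK →+* FB) (ι : k →+* Kb)
    (hι : ∀ c : k, emb (algebraMap k FK c) = algebraMap Kb FB (ι c))
    (Q : Place k FK) (π : Q.toValuationSubring) (hπ : Irreducible π)
    (hres : ∀ f ∈ Q.toValuationSubring, ∃ c : k, f = algebraMap k FK c ∨
      0 < Q.ord (f - algebraMap k FK c))
    (P P' : Place Kb FB)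
    (hPQ : ∀ f : FK, f ∈ Q.toValuationSubring ↔ emb f ∈ P.toValuationSubring)
    (hP'Q : ∀ f : FK, f ∈ Q.toValuationSubring ↔ emb f ∈ P'.toValuationSubring)
    (hgen : ∀ x : FB, ∃ a b : FB, a ∈ s34roB_T Kb emb Q ∧ b ∈ s34roB_T Kb emb Q ∧ b ≠ 0 ∧
      x * b = a) :
    P' = P := by
  have he := s34roB_e_eq_one emb ι hι Q π hπ hres P hPQ hgen
  have hπ0' : (π : FK) ≠ 0 := fun h => hπ.ne_zero (Subtype.ext h)
  have hpos' : 0 < P'.ord (emb (π : FK)) :=
    (s34roB_pos_iff emb Q P' hP'Q hπ0').1 (by rw [Q.ord_coe_irreducible hπ]; exact one_pos)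
  symm
  apply S24.PlacesBasic.place_ext_of_ord
  intro x hx h0
  obtain ⟨m, hm, hm'⟩ := s34roB_core emb ι hι Q π hπ hres P P' hPQ hP'Q hgen hx
  rw [he, mul_one] at hm
  rw [hm']
  exact mul_nonneg (by omega) hpos'.le

end Abstract

section Concrete

variable (F₀ : IntermediateField ℚ (LaurentSeries ℚ))

/-- An element of `𝔽_K` whose image in `𝔽_ℚ̄` is a constant is a constant. -/
theorem s34roB_const_of_emb_const (K : IntermediateField ℚ Qb)
    (f : ↥(laurentBaseChange (↥K) F₀)) (c : Qb)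
    (h : s34galEmb F₀ K f = algebraMap Qb ↥(laurentBaseChange Qb F₀) c) :
    ∃ c' : ↥K, f = algebraMap ↥K ↥(laurentBaseChange (↥K) F₀) c' := by
  refine ⟨(f : LaurentSeries ↥K).coeff 0, ?_⟩
  apply s34galEmb_injective F₀ K
  rw [s34galEmb_algebraMap, h]
  have h2 : ((algebraMap Qb ↥(laurentBaseChange Qb F₀) c : ↥(laurentBaseChange Qb F₀)) :
      LaurentSeries Qb).coeff 0 = c := by
    show (algebraMap Qb (LaurentSeries Qb) c).coeff 0 = c
    rw [algebraMap_laurentSeries_eq_single, HahnSeries.coeff_single_same]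
  have h1 : ((s34galEmb F₀ K f : ↥(laurentBaseChange Qb F₀)) : LaurentSeries Qb).coeff 0 =
      algebraMap ↥K Qb ((f : LaurentSeries ↥K).coeff 0) := rfl
  rw [h, h2] at h1
  exact congrArg _ h1

/-- The residue field of `Q` is `K`. -/
theorem s34gal_rational_residue_surj_B
    (hFF : Fermat.Agent.S37.IsFF Qb ↥(laurentBaseChange Qb F₀))
    (K : IntermediateField ℚ Qb) (Q : Place ↥K ↥(laurentBaseChange (↥K) F₀))
    (P : Place Qb ↥(laurentBaseChange Qb F₀))
    (hPQ : ∀ f : ↥(laurentBaseChange (↥K) F₀),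
      f ∈ Q.toValuationSubring ↔ s34galEmb F₀ K f ∈ P.toValuationSubring)
    (hP : s34galRational F₀ K P) (f : ↥(laurentBaseChange (↥K) F₀))
    (hf : f ∈ Q.toValuationSubring) :
    ∃ c : ↥K, f = algebraMap ↥K ↥(laurentBaseChange (↥K) F₀) c ∨
      0 < Q.ord (f - algebraMap ↥K ↥(laurentBaseChange (↥K) F₀) c) := by
  have hmem : s34galEmb F₀ K f ∈ P.toValuationSubring := (hPQ f).1 hf
  obtain ⟨c, hc⟩ := hFF.surjective_algebraMap_residueField P
    (IsLocalRing.residue _ (⟨s34galEmb F₀ K f, hmem⟩ : P.toValuationSubring))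
  have hmax : (⟨s34galEmb F₀ K f, hmem⟩ : P.toValuationSubring) -
      algebraMap Qb P.toValuationSubring c ∈ IsLocalRing.maximalIdeal P.toValuationSubring := by
    rw [← IsLocalRing.residue_eq_zero_iff, map_sub, sub_eq_zero, ← hc]
    exact IsScalarTower.algebraMap_apply Qb P.toValuationSubring P.ResidueField c
  by_cases h0 : s34galEmb F₀ K f = algebraMap Qb ↥(laurentBaseChange Qb F₀) c
  · obtain ⟨c', hc'⟩ := s34roB_const_of_emb_const F₀ K f c h0
    exact ⟨c', Or.inl hc'⟩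
  · have hne : (⟨s34galEmb F₀ K f, hmem⟩ : P.toValuationSubring) -
        algebraMap Qb P.toValuationSubring c ≠ 0 := by
      intro h
      apply h0
      have h1 : s34galEmb F₀ K f - algebraMap Qb ↥(laurentBaseChange Qb F₀) c = 0 :=
        congrArg Subtype.val h
      exact sub_eq_zero.mp h1
    have hpos : 0 < P.ord (s34galEmb F₀ K f - algebraMap Qb ↥(laurentBaseChange Qb F₀) c) :=
      (S24.PlacesBasic.ord_pos_iff_mem_maximalIdeal P hne).2 hmax
    have hcK : c ∈ K := s34galRational_value F₀ hP f hpos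
    refine ⟨⟨c, hcK⟩, Or.inr ?_⟩
    have hemb : s34galEmb F₀ K (algebraMap ↥K ↥(laurentBaseChange (↥K) F₀) ⟨c, hcK⟩) =
        algebraMap Qb ↥(laurentBaseChange Qb F₀) c := s34galEmb_algebraMap F₀ K ⟨c, hcK⟩
    have hne' : f - algebraMap ↥K ↥(laurentBaseChange (↥K) F₀) ⟨c, hcK⟩ ≠ 0 := by
      intro h
      apply h0
      rw [sub_eq_zero.mp h, hemb]
    rw [s34roB_pos_iff (s34galEmb F₀ K) Q P hPQ hne', map_sub, hemb]
    exact hpos

/-- `𝔽_ℚ̄` is the field of fractions of the subring generated by the constants and the image of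
the valuation ring of `Q`. -/
theorem s34roB_frac (K : IntermediateField ℚ Qb) (Q : Place ↥K ↥(laurentBaseChange (↥K) F₀))
    (x : ↥(laurentBaseChange Qb F₀)) :
    ∃ a b : ↥(laurentBaseChange Qb F₀), a ∈ s34roB_T Qb (s34galEmb F₀ K) Q ∧
      b ∈ s34roB_T Qb (s34galEmb F₀ K) Q ∧ b ≠ 0 ∧ x * b = a := by
  obtain ⟨y, hy⟩ := x
  suffices h : ∃ a b : ↥(laurentBaseChange Qb F₀), a ∈ s34roB_T Qb (s34galEmb F₀ K) Q ∧
      b ∈ s34roB_T Qb (s34galEmb F₀ K) Q ∧ b ≠ 0 ∧
      y * (b : LaurentSeries Qb) = (a : LaurentSeries Qb) by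
    obtain ⟨a, b, ha, hb, hb0, hab⟩ := h
    exact ⟨a, b, ha, hb, hb0, Subtype.ext hab⟩
  have hcoe0 : ∀ b : ↥(laurentBaseChange Qb F₀), (b : LaurentSeries Qb) = 0 → b = 0 :=
    fun b h => Subtype.ext h
  rw [mem_laurentBaseChange_iff] at hy
  induction hy using Subfield.closure_induction with
  | mem y hy =>
    rcases hy with ⟨c, rfl⟩ | ⟨z, hz, rfl⟩
    · refine ⟨algebraMap Qb ↥(laurentBaseChange Qb F₀) c, 1,
        Subring.subset_closure (Or.inl ⟨c, rfl⟩), one_mem _, one_ne_zero, ?_⟩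
      show algebraMap Qb (LaurentSeries Qb) c * 1 = algebraMap Qb (LaurentSeries Qb) c
      rw [mul_one]
    · set g : ↥(laurentBaseChange (↥K) F₀) :=
        ⟨coeffEmb (↥K) z, coeffEmb_mem_laurentBaseChange (↥K) hz⟩ with hgdef
      have hg : ((s34galEmb F₀ K g : ↥(laurentBaseChange Qb F₀)) : LaurentSeries Qb) =
          coeffEmb Qb z := s34gal_coeffMap_coeffEmb (algebraMap ↥K Qb) z
      by_cases hmem : g ∈ Q.toValuationSubring
      · refine ⟨s34galEmb F₀ K g, 1, Subring.subset_closure (Or.inr ⟨g, hmem, rfl⟩),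
          one_mem _, one_ne_zero, ?_⟩
        rw [hg]
        show coeffEmb Qb z * 1 = coeffEmb Qb z
        rw [mul_one]
      · have hg0 : g ≠ 0 := fun h => hmem (h ▸ zero_mem _)
        have hinv : g⁻¹ ∈ Q.toValuationSubring :=
          (Q.toValuationSubring.mem_or_inv_mem g).resolve_left hmem
        refine ⟨1, s34galEmb F₀ K g⁻¹, one_mem _,
          Subring.subset_closure (Or.inr ⟨g⁻¹, hinv, rfl⟩),
          (map_ne_zero _).mpr (inv_ne_zero hg0), ?_⟩
        have h1 : s34galEmb F₀ K g * s34galEmb F₀ K g⁻¹ = 1 := by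
          rw [← map_mul, mul_inv_cancel₀ hg0, map_one]
        rw [← hg]
        exact congrArg Subtype.val h1
  | one =>
    refine ⟨1, 1, one_mem _, one_mem _, one_ne_zero, ?_⟩
    show (1 : LaurentSeries Qb) * 1 = 1
    rw [mul_one]
  | add x y _ _ hx hy =>
    obtain ⟨a, b, ha, hb, hb0, hab⟩ := hx
    obtain ⟨a', b', ha', hb', hb0', hab'⟩ := hy
    refine ⟨a * b' + a' * b, b * b', add_mem (mul_mem ha hb') (mul_mem ha' hb), mul_mem hb hb',
      mul_ne_zero hb0 hb0', ?_⟩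
    show (x + y) * ((b : LaurentSeries Qb) * (b' : LaurentSeries Qb)) =
      (a : LaurentSeries Qb) * (b' : LaurentSeries Qb) +
        (a' : LaurentSeries Qb) * (b : LaurentSeries Qb)
    rw [← hab, ← hab']
    ring
  | neg x _ hx =>
    obtain ⟨a, b, ha, hb, hb0, hab⟩ := hx
    refine ⟨-a, b, neg_mem ha, hb, hb0, ?_⟩
    show -x * (b : LaurentSeries Qb) = -(a : LaurentSeries Qb)
    rw [← hab]
    ring
  | inv x _ hx =>
    obtain ⟨a, b, ha, hb, hb0, hab⟩ := hx
    have hb0' : (b : LaurentSeries Qb) ≠ 0 := fun h => hb0 (hcoe0 b h)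
    by_cases hx0 : x = 0
    · refine ⟨0, 1, zero_mem _, one_mem _, one_ne_zero, ?_⟩
      show x⁻¹ * (1 : LaurentSeries Qb) = 0
      rw [hx0, inv_zero, zero_mul]
    · have ha0 : a ≠ 0 := by
        intro h
        have h2 : x * (b : LaurentSeries Qb) = 0 := by rw [hab, h]; rfl
        exact (mul_ne_zero hx0 hb0') h2
      refine ⟨b, a, hb, ha, ha0, ?_⟩
      rw [← hab, ← mul_assoc, inv_mul_cancel₀ hx0, one_mul]
  | mul x y _ _ hx hy =>
    obtain ⟨a, b, ha, hb, hb0, hab⟩ := hx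
    obtain ⟨a', b', ha', hb', hb0', hab'⟩ := hy
    refine ⟨a * a', b * b', mul_mem ha ha', mul_mem hb hb', mul_ne_zero hb0 hb0', ?_⟩
    show (x * y) * ((b : LaurentSeries Qb) * (b' : LaurentSeries Qb)) =
      (a : LaurentSeries Qb) * (a' : LaurentSeries Qb)
    rw [← hab, ← hab']
    ring

/-- The constant field extension is unramified at a rational place. -/
theorem s34gal_ord_emb_of_rational_B
    (hFF : Fermat.Agent.S37.IsFF Qb ↥(laurentBaseChange Qb F₀))
    (K : IntermediateField ℚ Qb) (Q : Place ↥K ↥(laurentBaseChange (↥K) F₀))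
    (P : Place Qb ↥(laurentBaseChange Qb F₀))
    (hPQ : ∀ f : ↥(laurentBaseChange (↥K) F₀),
      f ∈ Q.toValuationSubring ↔ s34galEmb F₀ K f ∈ P.toValuationSubring)
    (hP : s34galRational F₀ K P) (f : ↥(laurentBaseChange (↥K) F₀)) :
    P.ord (s34galEmb F₀ K f) = Q.ord f := by
  obtain ⟨π, hπ⟩ := IsDiscreteValuationRing.exists_irreducible Q.toValuationSubring
  exact s34roB_ord_emb (s34galEmb F₀ K) (algebraMap ↥K Qb) (s34galEmb_algebraMap F₀ K) Q π hπ
    (fun g hg => s34gal_rational_residue_surj_B F₀ hFF K Q P hPQ hP g hg) P hPQ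
    (s34roB_frac F₀ K Q) f

/-- A rational place is the only place over its restriction. -/
theorem s34gal_place_over_unique_B
    (hFF : Fermat.Agent.S37.IsFF Qb ↥(laurentBaseChange Qb F₀))
    (K : IntermediateField ℚ Qb) (Q : Place ↥K ↥(laurentBaseChange (↥K) F₀))
    (P P' : Place Qb ↥(laurentBaseChange Qb F₀))
    (hPQ : ∀ f : ↥(laurentBaseChange (↥K) F₀),
      f ∈ Q.toValuationSubring ↔ s34galEmb F₀ K f ∈ P.toValuationSubring)
    (hP'Q : ∀ f : ↥(laurentBaseChange (↥K) F₀),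
      f ∈ Q.toValuationSubring ↔ s34galEmb F₀ K f ∈ P'.toValuationSubring)
    (hP : s34galRational F₀ K P) : P' = P := by
  obtain ⟨π, hπ⟩ := IsDiscreteValuationRing.exists_irreducible Q.toValuationSubring
  exact s34roB_unique (s34galEmb F₀ K) (algebraMap ↥K Qb) (s34galEmb_algebraMap F₀ K) Q π hπ
    (fun g hg => s34gal_rational_residue_surj_B F₀ hFF K Q P hPQ hP g hg) P P' hPQ hP'Q
    (s34roB_frac F₀ K Q)

end Concrete

end Fermat.Agent.S34
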