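import Mathlib
import Fermat.Agent.S34.GalField
import Fermat.Agent.S34.AbsLP
import Fermat.Agent.S24.PlacesHOS
import Fermat.Agent.S37.HeckeFF
import Fermat.Agent.S34.GalLying
import Fermat.Agent.S34.GalRatOrdB
import Fermat.Agent.S34.DictPoint

/-!
# P19 (S34), block GAL, G3: dictionary between the places of `𝔽_ℚ̄` and the primes of `Bη`

* `s34gal_dict_dvd` : `m ∣ ord_𝔔 u` for every height-one prime `𝔔` of a Dedekind model `Bη` of
  `𝔽_K`, when `m ∣ ord_P (emb u)` at all places `P` of `𝔽_ℚ̄` and the support of `emb u` is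
  `K`-rational.
* `s34gal_dict_residue` : the residue field of a prime `𝔔` in the support of `u` is `K`.
* `s34gal_dict_point` : such a prime through a closed point `𝔪` of an integral model `B` is the
  prime of a `Λ`-point `φ : B →ₐ[Λ] Λ` centred at `𝔪`.
-/

set_option autoImplicit false

namespace Fermat.Agent.S34

open AlgebraicCurve ModularCurve IntermediateField IsDedekindDomain

local notation "Qb" => AlgebraicClosure ℚ

variable (F₀ : IntermediateField ℚ (LaurentSeries ℚ))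

/-- The order of a function at a place over `K` lying under a rational place of `𝔽_ℚ̄`. -/
theorem s34gal_dict_ord_ne_zero (K : IntermediateField ℚ Qb)
    (Q : Place ↥K ↥(laurentBaseChange (↥K) F₀)) (P : Place Qb ↥(laurentBaseChange Qb F₀))
    (hPQ : ∀ f : ↥(laurentBaseChange (↥K) F₀),
      f ∈ Q.toValuationSubring ↔ s34galEmb F₀ K f ∈ P.toValuationSubring)
    {u : ↥(laurentBaseChange (↥K) F₀)} (hu : u ≠ 0) (hQ : Q.ord u ≠ 0) :
    P.ord (s34galEmb F₀ K u) ≠ 0 := by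
  intro h0
  have hu' : s34galEmb F₀ K u ≠ 0 := fun h => hu (s34galEmb_injective F₀ K (by rw [h, map_zero]))
  have h1 : s34galEmb F₀ K u ∈ P.toValuationSubring := by
    rw [Fermat.Agent.S24.PlacesBasic.mem_iff_ord_nonneg P hu', h0]
  have h2 : s34galEmb F₀ K u⁻¹ ∈ P.toValuationSubring := by
    rw [map_inv₀, Fermat.Agent.S24.PlacesBasic.mem_iff_ord_nonneg P (inv_ne_zero hu'), P.ord_inv, h0,
      neg_zero]
  have h3 := (Fermat.Agent.S24.PlacesBasic.mem_iff_ord_nonneg Q hu).mp ((hPQ u).mpr h1)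
  have h4 := (Fermat.Agent.S24.PlacesBasic.mem_iff_ord_nonneg Q (inv_ne_zero hu)).mp
    ((hPQ u⁻¹).mpr h2)
  rw [Q.ord_inv] at h4
  omega

/-- **G3 (a)**: `m ∣ ord_𝔔 u` at every height-one prime of a Dedekind model of `𝔽_K`. -/
theorem s34gal_dict_dvd (hFF : Fermat.Agent.S37.IsFF Qb ↥(laurentBaseChange Qb F₀))
    (K : IntermediateField ℚ Qb)
    {Bη : Type*} [CommRing Bη] [IsDedekindDomain Bη] [Algebra Bη ↥(laurentBaseChange (↥K) F₀)]
    [IsFractionRing Bη ↥(laurentBaseChange (↥K) F₀)] [Algebra ↥K Bη]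
    [IsScalarTower ↥K Bη ↥(laurentBaseChange (↥K) F₀)]
    (m : ℕ) (u : ↥(laurentBaseChange (↥K) F₀)) (hu : u ≠ 0)
    (hdiv : ∀ P : Place Qb ↥(laurentBaseChange Qb F₀), (m : ℤ) ∣ P.ord (s34galEmb F₀ K u))
    (hrat : ∀ P : Place Qb ↥(laurentBaseChange Qb F₀), P.ord (s34galEmb F₀ K u) ≠ 0 →
      s34galRational F₀ K P)
    (𝔔 : HeightOneSpectrum Bη) :
    ∃ n : ℤ, 𝔔.valuation ↥(laurentBaseChange (↥K) F₀) u = WithZero.exp ((m : ℤ) * n) := by
  set Q : Place ↥K ↥(laurentBaseChange (↥K) F₀) := Place.ofHeightOneSpectrum (K := ↥K) 𝔔 with hQ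
  have hord : Q.ord u = -WithZero.log (𝔔.valuation ↥(laurentBaseChange (↥K) F₀) u) :=
    Fermat.Agent.S24.PlacesHOS.ord_ofHeightOneSpectrum 𝔔 hu
  have hne : 𝔔.valuation ↥(laurentBaseChange (↥K) F₀) u ≠ 0 := (Valuation.ne_zero_iff _).mpr hu
  have hexp : 𝔔.valuation ↥(laurentBaseChange (↥K) F₀) u = WithZero.exp (-(Q.ord u)) := by
    rw [hord, neg_neg, WithZero.exp_log hne]
  by_cases h0 : Q.ord u = 0
  · exact ⟨0, by rw [hexp, h0]; simp⟩
  · obtain ⟨P, hPQ⟩ := s34gal_exists_place_over F₀ hFF K Q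
    have hP0 := s34gal_dict_ord_ne_zero F₀ K Q P hPQ hu h0
    have heq := s34gal_ord_emb_of_rational_B F₀ hFF K Q P hPQ (hrat P hP0) u
    obtain ⟨k, hk⟩ := hdiv P
    refine ⟨-k, ?_⟩
    rw [hexp, ← heq, hk]
    congr 1
    ring

/-- **G3 (b), residue field**: the residue field of a prime in the support of `u` is `K`. -/
theorem s34gal_dict_residue (hFF : Fermat.Agent.S37.IsFF Qb ↥(laurentBaseChange Qb F₀))
    (K : IntermediateField ℚ Qb)
    {Bη : Type*} [CommRing Bη] [IsDedekindDomain Bη] [Algebra Bη ↥(laurentBaseChange (↥K) F₀)]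
    [IsFractionRing Bη ↥(laurentBaseChange (↥K) F₀)] [Algebra ↥K Bη]
    [IsScalarTower ↥K Bη ↥(laurentBaseChange (↥K) F₀)]
    (u : ↥(laurentBaseChange (↥K) F₀)) (hu : u ≠ 0)
    (hrat : ∀ P : Place Qb ↥(laurentBaseChange Qb F₀), P.ord (s34galEmb F₀ K u) ≠ 0 →
      s34galRational F₀ K P)
    (𝔔 : HeightOneSpectrum Bη) (h𝔔u : 𝔔.valuation ↥(laurentBaseChange (↥K) F₀) u ≠ 1)
    (y : Bη) : ∃ c : ↥K, y - algebraMap ↥K Bη c ∈ 𝔔.asIdeal := by
  set Q : Place ↥K ↥(laurentBaseChange (↥K) F₀) := Place.ofHeightOneSpectrum (K := ↥K) 𝔔 with hQ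
  have hord : Q.ord u = -WithZero.log (𝔔.valuation ↥(laurentBaseChange (↥K) F₀) u) :=
    Fermat.Agent.S24.PlacesHOS.ord_ofHeightOneSpectrum 𝔔 hu
  have hne : 𝔔.valuation ↥(laurentBaseChange (↥K) F₀) u ≠ 0 := (Valuation.ne_zero_iff _).mpr hu
  have h0 : Q.ord u ≠ 0 := by
    intro h0
    apply h𝔔u
    have h1 : WithZero.log (𝔔.valuation ↥(laurentBaseChange (↥K) F₀) u) = 0 := by
      rw [hord] at h0
      omega
    rw [← WithZero.exp_log hne, h1, WithZero.exp_zero]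
  obtain ⟨P, hPQ⟩ := s34gal_exists_place_over F₀ hFF K Q
  have hP0 := s34gal_dict_ord_ne_zero F₀ K Q P hPQ hu h0
  have hP := hrat P hP0
  have hmem : algebraMap Bη ↥(laurentBaseChange (↥K) F₀) y ∈ Q.toValuationSubring := by
    by_cases hy : algebraMap Bη ↥(laurentBaseChange (↥K) F₀) y = 0
    · rw [hy]
      exact Q.toValuationSubring.zero_mem
    · rw [Fermat.Agent.S24.PlacesBasic.mem_iff_ord_nonneg Q hy]
      exact Fermat.Agent.S24.PlacesHOS.ord_algebraMap_nonneg 𝔔 y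
  obtain ⟨c, hc⟩ := s34gal_rational_residue_surj_B F₀ hFF K Q P hPQ hP _ hmem
  refine ⟨c, ?_⟩
  have hmap : algebraMap Bη ↥(laurentBaseChange (↥K) F₀) (y - algebraMap ↥K Bη c) =
      algebraMap Bη ↥(laurentBaseChange (↥K) F₀) y -
        algebraMap ↥K ↥(laurentBaseChange (↥K) F₀) c := by
    rw [map_sub, ← IsScalarTower.algebraMap_apply]
  by_cases hr : y - algebraMap ↥K Bη c = 0
  · rw [hr]
    exact 𝔔.asIdeal.zero_mem
  · rcases hc with hc | hc
    · exfalso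
      apply hr
      apply IsFractionRing.injective Bη ↥(laurentBaseChange (↥K) F₀)
      rw [hmap, hc, sub_self, map_zero]
    · rw [← hmap] at hc
      exact (Fermat.Agent.S24.PlacesHOS.ord_algebraMap_pos_iff (K := ↥K) 𝔔 hr).mp hc

/-- **G3 (b)**: a prime in the support of `u` through a closed point `𝔪` of the integral model
`B` is the prime of a `Λ`-point of `B` centred at `𝔪`. -/
theorem s34gal_dict_point (hFF : Fermat.Agent.S37.IsFF Qb ↥(laurentBaseChange Qb F₀))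
    (K : IntermediateField ℚ Qb)
    {Bη : Type*} [CommRing Bη] [IsDedekindDomain Bη] [Algebra Bη ↥(laurentBaseChange (↥K) F₀)]
    [IsFractionRing Bη ↥(laurentBaseChange (↥K) F₀)] [Algebra ↥K Bη]
    [IsScalarTower ↥K Bη ↥(laurentBaseChange (↥K) F₀)]
    {Λ B : Type*} [CommRing Λ] [IsDomain Λ] [IsDiscreteValuationRing Λ] [Algebra Λ ↥K]
    [IsFractionRing Λ ↥K] [CommRing B] [Algebra Λ B]
    (ι : B →+* Bη) (hι : ∀ l : Λ, ι (algebraMap Λ B l) = algebraMap ↥K Bη (algebraMap Λ ↥K l))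
    (π : Λ) (hπ : Irreducible π)
    (u : ↥(laurentBaseChange (↥K) F₀)) (hu : u ≠ 0)
    (hrat : ∀ P : Place Qb ↥(laurentBaseChange Qb F₀), P.ord (s34galEmb F₀ K u) ≠ 0 →
      s34galRational F₀ K P)
    (𝔪 : Ideal B) (h𝔪 : 𝔪.IsMaximal) (hπ𝔪 : algebraMap Λ B π ∈ 𝔪)
    (𝔔 : HeightOneSpectrum Bη) (h𝔔 : 𝔔 ∈ absThrough ι 𝔪)
    (h𝔔u : 𝔔.valuation ↥(laurentBaseChange (↥K) F₀) u ≠ 1) :
    ∃ φ : B →ₐ[Λ] Λ, 𝔪 = Ideal.comap (φ : B →+* Λ) (Ideal.span {π}) ∧
      ∀ b : B, ι b ∈ 𝔔.asIdeal ↔ φ b = 0 :=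
  s34dict_point_of_residue ι hι π hπ 𝔪 h𝔪 hπ𝔪 𝔔 h𝔔
    (s34gal_dict_residue F₀ hFF K u hu hrat 𝔔 h𝔔u)

end Fermat.Agent.S34
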