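import Mathlib
import Fermat.Agent.S34.AbsLP
set_option autoImplicit false
namespace Fermat.Agent.S34
open IsDedekindDomain
variable {Bη F : Type*} [CommRing Bη] [IsDedekindDomain Bη] [Field F] [Algebra Bη F]
  [IsFractionRing Bη F]

theorem abs_hr_local {B : Type*} [CommRing B] (ι : B →+* Bη) (𝔪 : Ideal B) [𝔪.IsPrime]
    (f : F) (𝔔 : HeightOneSpectrum Bη) (h𝔔 : 𝔔 ∉ absThrough ι 𝔪) :
    ∃ d : B, d ∉ 𝔪 ∧ 𝔔.valuation F (algebraMap Bη F (ι d) * f) ≤ 1 := by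
  rw [mem_absThrough] at h𝔔
  obtain ⟨b, hb'⟩ := not_forall.1 h𝔔
  obtain ⟨hb, hbm⟩ := Classical.not_imp.1 hb'
  by_cases hf : f = 0
  · exact ⟨b, hbm, by rw [hf, mul_zero, map_zero]; exact zero_le_one⟩
  have hv0 : 𝔔.valuation F f ≠ 0 := (Valuation.ne_zero_iff _).2 hf
  obtain ⟨k, hk⟩ : ∃ k : ℤ, 𝔔.valuation F f = WithZero.exp k :=
    ⟨_, (WithZero.exp_log hv0).symm⟩
  refine ⟨b ^ k.toNat, fun hmem => hbm (Ideal.IsPrime.mem_of_pow_mem inferInstance _ hmem), ?_⟩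
  have h1 : 𝔔.valuation F (algebraMap Bη F (ι b)) ≤ WithZero.exp (-(1 : ℤ)) := by
    rw [HeightOneSpectrum.valuation_of_algebraMap]
    have := (𝔔.intValuation_le_pow_iff_mem (ι b) 1).2 (by simpa using hb)
    simpa using this
  have h2 : 𝔔.valuation F (algebraMap Bη F (ι (b ^ k.toNat)))
      ≤ WithZero.exp (-(k.toNat : ℤ)) := by
    rw [map_pow, map_pow, map_pow]
    refine (pow_le_pow_left₀ zero_le h1 _).trans (le_of_eq ?_)
    rw [← WithZero.exp_nsmul]; simp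
  rw [map_mul, hk]
  refine (mul_le_mul_left h2 _).trans ?_
  rw [← WithZero.exp_add, ← WithZero.exp_zero, WithZero.exp_le_exp]
  have := Int.self_le_toNat k
  omega

theorem abs_hr_of_no_pole {B : Type*} [CommRing B] (ι : B →+* Bη) (𝔪 : Ideal B) [𝔪.IsPrime]
    (f : F) (h : ∀ 𝔔 ∈ absThrough ι 𝔪, 𝔔.valuation F f ≤ 1) :
    ∃ d : B, d ∉ 𝔪 ∧ ∃ y : Bη, algebraMap Bη F y = algebraMap Bη F (ι d) * f := by
  classical
  have hfin : {𝔔 : HeightOneSpectrum Bη | 1 < 𝔔.valuation F f}.Finite :=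
    HeightOneSpectrum.Support.finite Bη f
  have hex : ∀ 𝔔 : HeightOneSpectrum Bη, ∃ d : B, d ∉ 𝔪 ∧
      (1 < 𝔔.valuation F f → 𝔔.valuation F (algebraMap Bη F (ι d) * f) ≤ 1) := by
    intro 𝔔
    by_cases h𝔔 : 1 < 𝔔.valuation F f
    · have hnot : 𝔔 ∉ absThrough ι 𝔪 := fun hmem => absurd (h 𝔔 hmem) (not_le.2 h𝔔)
      obtain ⟨d, hd, hd'⟩ := abs_hr_local ι 𝔪 f 𝔔 hnot
      exact ⟨d, hd, fun _ => hd'⟩
    · exact ⟨1, Ideal.IsPrime.one_notMem inferInstance, fun h' => absurd h' h𝔔⟩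
  choose D hD1 hD2 using hex
  refine ⟨∏ 𝔔 ∈ hfin.toFinset, D 𝔔, ?_, ?_⟩
  · intro hmem
    obtain ⟨𝔔, -, h𝔔⟩ := (Ideal.IsPrime.prod_mem_iff (hp := inferInstance)).1 hmem
    exact hD1 𝔔 h𝔔
  · have hall : ∀ 𝔔 : HeightOneSpectrum Bη,
        𝔔.valuation F (algebraMap Bη F (ι (∏ 𝔔 ∈ hfin.toFinset, D 𝔔)) * f) ≤ 1 := by
      intro 𝔔
      by_cases h𝔔 : 1 < 𝔔.valuation F f
      · have hmemT : 𝔔 ∈ hfin.toFinset := by rw [Set.Finite.mem_toFinset]; exact h𝔔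
        have e : algebraMap Bη F (ι (∏ 𝔔 ∈ hfin.toFinset, D 𝔔)) * f
            = (algebraMap Bη F (ι (D 𝔔)) * f)
              * algebraMap Bη F (ι (∏ x ∈ hfin.toFinset.erase 𝔔, D x)) := by
          rw [← Finset.mul_prod_erase _ _ hmemT, map_mul, map_mul]; ring
        rw [e, map_mul]
        exact mul_le_one' (hD2 𝔔 h𝔔) (𝔔.valuation_le_one _)
      · rw [map_mul]
        exact mul_le_one' (𝔔.valuation_le_one _) (not_lt.1 h𝔔)
    obtain ⟨y, hy⟩ := HeightOneSpectrum.mem_integers_of_valuation_le_one F _ hall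
    exact ⟨y, hy⟩

end Fermat.Agent.S34
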