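import Mathlib
import Fermat.Agent.S34.AbsLP
set_option autoImplicit false
namespace Fermat.Agent.S34
open IsDedekindDomain
variable {Bη F : Type*} [CommRing Bη] [IsDedekindDomain Bη] [Field F] [Algebra Bη F] [IsFractionRing Bη F]

noncomputable def abs_pc_hom (τ : F →+* F)
    (hτ : ∀ y : Bη, ∃ y' : Bη, algebraMap Bη F y' = τ (algebraMap Bη F y)) : Bη →+* Bη where
  toFun y := Classical.choose (hτ y)
  map_one' := by
    apply IsFractionRing.injective Bη F
    rw [Classical.choose_spec (hτ 1)]; simp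
  map_mul' x y := by
    apply IsFractionRing.injective Bη F
    rw [Classical.choose_spec (hτ (x * y)), map_mul, map_mul, map_mul,
      Classical.choose_spec (hτ x), Classical.choose_spec (hτ y)]
  map_zero' := by
    apply IsFractionRing.injective Bη F
    rw [Classical.choose_spec (hτ 0)]; simp
  map_add' x y := by
    apply IsFractionRing.injective Bη F
    rw [Classical.choose_spec (hτ (x + y)), map_add, map_add, map_add,
      Classical.choose_spec (hτ x), Classical.choose_spec (hτ y)]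

omit [IsDedekindDomain Bη] in
theorem abs_pc_hom_spec (τ : F →+* F)
    (hτ : ∀ y : Bη, ∃ y' : Bη, algebraMap Bη F y' = τ (algebraMap Bη F y)) (y : Bη) :
    algebraMap Bη F (abs_pc_hom τ hτ y) = τ (algebraMap Bη F y) :=
  Classical.choose_spec (hτ y)

noncomputable def abs_pc_equiv (τ : F ≃+* F)
    (hτ : ∀ y : Bη, ∃ y' : Bη, algebraMap Bη F y' = τ (algebraMap Bη F y))
    (hτs : ∀ y : Bη, ∃ y' : Bη, algebraMap Bη F y' = τ.symm (algebraMap Bη F y)) : Bη ≃+* Bη :=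
  RingEquiv.ofRingHom (abs_pc_hom (τ : F →+* F) hτ) (abs_pc_hom (τ.symm : F →+* F) hτs)
    (by
      ext y
      apply IsFractionRing.injective Bη F
      simp [abs_pc_hom_spec])
    (by
      ext y
      apply IsFractionRing.injective Bη F
      simp [abs_pc_hom_spec])

omit [IsDedekindDomain Bη] in
theorem abs_pc_equiv_spec (τ : F ≃+* F)
    (hτ : ∀ y : Bη, ∃ y' : Bη, algebraMap Bη F y' = τ (algebraMap Bη F y))
    (hτs : ∀ y : Bη, ∃ y' : Bη, algebraMap Bη F y' = τ.symm (algebraMap Bη F y)) (y : Bη) :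
    algebraMap Bη F (abs_pc_equiv τ hτ hτs y) = τ (algebraMap Bη F y) :=
  abs_pc_hom_spec (τ : F →+* F) hτ y

theorem abs_pc_le (a b : WithZero (Multiplicative ℤ)) (hb : b ≤ 1)
    (h : ∀ n : ℕ, b ≤ WithZero.exp (-(n : ℤ)) → a ≤ WithZero.exp (-(n : ℤ))) : a ≤ b := by
  by_cases hb0 : b = 0
  · subst hb0
    by_contra ha
    have ha0 : a ≠ 0 := fun h0 => ha (h0 ▸ le_rfl)
    obtain ⟨m, hm⟩ : ∃ m : ℤ, a = WithZero.exp m := ⟨WithZero.log a, (WithZero.exp_log ha0).symm⟩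
    have h1 := h (1 - m).toNat zero_le
    rw [hm, WithZero.exp_le_exp] at h1
    omega
  · have h1 : WithZero.log b ≤ 0 := by
      rw [← WithZero.exp_log hb0, ← WithZero.exp_zero, WithZero.exp_le_exp] at hb
      exact hb
    have h2 : b = WithZero.exp (-(((-WithZero.log b).toNat : ℕ) : ℤ)) := by
      conv_lhs => rw [← WithZero.exp_log hb0]
      congr 1
      omega
    have h3 := h (-WithZero.log b).toNat (le_of_eq h2)
    rw [← h2] at h3
    exact h3

noncomputable def abs_pc_place (σ : Bη ≃+* Bη) (𝔔 : HeightOneSpectrum Bη) :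
    HeightOneSpectrum Bη where
  asIdeal := 𝔔.asIdeal.comap (σ : Bη →+* Bη)
  isPrime := Ideal.comap_isPrime _ _
  ne_bot := by
    obtain ⟨x, hx, hx0⟩ := Submodule.exists_mem_ne_zero_of_ne_bot 𝔔.ne_bot
    intro hbot
    have hmem : σ.symm x ∈ 𝔔.asIdeal.comap (σ : Bη →+* Bη) := by
      show σ (σ.symm x) ∈ 𝔔.asIdeal
      simpa using hx
    rw [hbot] at hmem
    have : σ.symm x = 0 := by simpa using hmem
    exact hx0 (by simpa using this)

omit [IsDedekindDomain Bη] in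
theorem abs_pc_mem_pow (σ : Bη ≃+* Bη) (𝔔 : HeightOneSpectrum Bη) (n : ℕ) (r : Bη) :
    r ∈ (abs_pc_place σ 𝔔).asIdeal ^ n ↔ σ r ∈ 𝔔.asIdeal ^ n := by
  have h1 : (abs_pc_place σ 𝔔).asIdeal = 𝔔.asIdeal.map (σ.symm : Bη →+* Bη) := by
    show 𝔔.asIdeal.comap (σ : Bη →+* Bη) = _
    exact (Ideal.map_symm (σ : Bη ≃+* Bη)).symm
  rw [h1, ← Ideal.map_pow]
  have h2 : (𝔔.asIdeal ^ n).map (σ.symm : Bη →+* Bη) = (𝔔.asIdeal ^ n).comap (σ : Bη →+* Bη) :=
    Ideal.map_symm (σ : Bη ≃+* Bη)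
  rw [h2, Ideal.mem_comap]
  rfl

theorem abs_pc_intVal (σ : Bη ≃+* Bη) (𝔔 : HeightOneSpectrum Bη) (r : Bη) :
    (abs_pc_place σ 𝔔).intValuation r = 𝔔.intValuation (σ r) := by
  apply le_antisymm
  · apply abs_pc_le _ _ (𝔔.intValuation_le_one _)
    intro n hn
    rw [HeightOneSpectrum.intValuation_le_pow_iff_mem] at hn ⊢
    exact (abs_pc_mem_pow σ 𝔔 n r).mpr hn
  · apply abs_pc_le _ _ ((abs_pc_place σ 𝔔).intValuation_le_one _)
    intro n hn
    rw [HeightOneSpectrum.intValuation_le_pow_iff_mem] at hn ⊢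
    exact (abs_pc_mem_pow σ 𝔔 n r).mp hn

theorem abs_place_comp (τ : F ≃+* F)
    (hτ : ∀ y : Bη, ∃ y' : Bη, algebraMap Bη F y' = τ (algebraMap Bη F y))
    (hτs : ∀ y : Bη, ∃ y' : Bη, algebraMap Bη F y' = τ.symm (algebraMap Bη F y))
    (𝔔 : HeightOneSpectrum Bη) :
    ∃ 𝔔' : HeightOneSpectrum Bη, ∀ f : F, 𝔔'.valuation F f = 𝔔.valuation F (τ f) := by
  refine ⟨abs_pc_place (abs_pc_equiv τ hτ hτs) 𝔔, fun f => ?_⟩
  obtain ⟨a, b, hb, rfl⟩ := IsFractionRing.div_surjective (A := Bη) f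
  rw [map_div₀, map_div₀, map_div₀, HeightOneSpectrum.valuation_of_algebraMap,
    HeightOneSpectrum.valuation_of_algebraMap, ← abs_pc_equiv_spec τ hτ hτs a,
    ← abs_pc_equiv_spec τ hτ hτs b, HeightOneSpectrum.valuation_of_algebraMap,
    HeightOneSpectrum.valuation_of_algebraMap, abs_pc_intVal, abs_pc_intVal]

end Fermat.Agent.S34
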