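import Mathlib
import Fermat.Agent.S34.AbsLP
import Fermat.Agent.S18.GaussLineK
import Fermat.Agent.S18.UnramPoly
import Fermat.Agent.S34.AbsPlaceComp
import Fermat.Agent.S34.AbsHR

/-!
# P19 (S34), block ABS, leaf ABS-2 (notes 806, 841): LOCF from `τ`-data

* `absSd τ τ' h = τ'τ(h)·h / (τ'(h)·τ(h))` : the second difference.
* `abs_val_sd_eq_one` : formal core (four-place computation).
* `abs_locf_abstract` : (LP″) at `𝔪` implies (LOCF) at `𝔪`, abstract Dedekind form.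
* `abs_isIntegral_of_gauss` : integral over `K[t]` and over the Gauss ring implies integral over
  `Λ[t]` (iterated Lemma K of S18).
-/

set_option autoImplicit false

namespace Fermat.Agent.S34

open IsDedekindDomain

/-- The second difference `τ'τ(h) · h / (τ'(h) · τ(h))`. -/
noncomputable def absSd {F : Type*} [Field F] (τ τ' : F ≃+* F) (h : F) : F :=
  τ' (τ h) * h / (τ' h * τ h)

theorem absSd_ne_zero {F : Type*} [Field F] (τ τ' : F ≃+* F) {h : F} (hh : h ≠ 0) :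
    absSd τ τ' h ≠ 0 := by
  have h1 : τ h ≠ 0 := (map_ne_zero τ).mpr hh
  have h2 : τ' h ≠ 0 := (map_ne_zero τ').mpr hh
  have h3 : τ' (τ h) ≠ 0 := (map_ne_zero τ').mpr h1
  exact div_ne_zero (mul_ne_zero h3 hh) (mul_ne_zero h2 h1)

theorem absSd_div_pow {F : Type*} [Field F] (τ τ' : F ≃+* F) (u h0 : F) (m : ℕ) :
    absSd τ τ' (u / h0 ^ m) = absSd τ τ' u * (absSd τ τ' h0 ^ m)⁻¹ := by
  simp only [absSd, map_div₀, map_pow]
  simp only [div_eq_mul_inv, mul_inv, inv_inv, inv_pow, mul_pow]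
  ring

theorem absSd_inv {F : Type*} [Field F] (τ τ' : F ≃+* F) (h : F) :
    absSd τ τ' h⁻¹ = (absSd τ τ' h)⁻¹ := by
  simp only [absSd, map_inv₀]
  simp only [div_eq_mul_inv, mul_inv, inv_inv]

section Formal

variable {Bη F : Type*} [CommRing Bη] [IsDedekindDomain Bη] [Field F] [Algebra Bη F]
  [IsFractionRing Bη F]

/-- Formal core of ABS-2: if the support of `f` on a `τ`-, `τ'`-stable set `S` of places consists
of `τ`-, `τ'`-fixed places, then the second difference of `f` has no zero or pole on `S`. -/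
theorem abs_val_sd_eq_one (S : Set (HeightOneSpectrum Bη)) (τ τ' : F ≃+* F)
    (hS : ∀ 𝔔 ∈ S, ∃ 𝔔' ∈ S, ∀ f : F, 𝔔'.valuation F f = 𝔔.valuation F (τ f))
    (hS' : ∀ 𝔔 ∈ S, ∃ 𝔔' ∈ S, ∀ f : F, 𝔔'.valuation F f = 𝔔.valuation F (τ' f))
    {f : F} (hf : f ≠ 0)
    (hfix : ∀ 𝔔 ∈ S, 𝔔.valuation F f ≠ 1 →
      (∀ g : F, 𝔔.valuation F (τ g) = 𝔔.valuation F g) ∧
      (∀ g : F, 𝔔.valuation F (τ' g) = 𝔔.valuation F g))
    (𝔔 : HeightOneSpectrum Bη) (h𝔔 : 𝔔 ∈ S) : 𝔔.valuation F (absSd τ τ' f) = 1 := by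
  obtain ⟨Bp, hBpS, hb⟩ := hS 𝔔 h𝔔
  obtain ⟨C, hCS, hc⟩ := hS' 𝔔 h𝔔
  obtain ⟨D, hDS, hd⟩ := hS C hCS
  have hval : 𝔔.valuation F (absSd τ τ' f) =
      D.valuation F f * 𝔔.valuation F f / (C.valuation F f * Bp.valuation F f) := by
    rw [absSd, map_div₀, map_mul, map_mul, hd, hc, hc, hb]
  -- the fixed case
  have hfixed : ((∀ g : F, 𝔔.valuation F (τ g) = 𝔔.valuation F g) ∧
      (∀ g : F, 𝔔.valuation F (τ' g) = 𝔔.valuation F g)) → 𝔔.valuation F (absSd τ τ' f) = 1 := by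
    rintro ⟨h1, h2⟩
    have hv0 : 𝔔.valuation F f ≠ 0 := (Valuation.ne_zero_iff _).mpr hf
    rw [absSd, map_div₀, map_mul, map_mul, h2, h1, h2]
    exact div_self (mul_ne_zero hv0 hv0)
  by_cases hA : 𝔔.valuation F f = 1
  · by_cases hB : Bp.valuation F f = 1
    · by_cases hC : C.valuation F f = 1
      · by_cases hD : D.valuation F f = 1
        · rw [hval, hA, hB, hC, hD]; simp
        · -- `D` is fixed
          obtain ⟨h1, h2⟩ := hfix D hDS hD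
          simp only [hd, hc] at h1 h2
          have k1 : ∀ x : F, 𝔔.valuation F (τ' (τ x)) = 𝔔.valuation F (τ' x) := by
            intro x
            have := h1 (τ.symm x)
            rwa [RingEquiv.apply_symm_apply] at this
          have e2 : ∀ g : F, 𝔔.valuation F (τ' g) = 𝔔.valuation F g := by
            intro g
            have := h2 (τ'.symm g)
            rwa [k1, k1, RingEquiv.apply_symm_apply] at this
          have e3 : ∀ g : F, 𝔔.valuation F (τ g) = 𝔔.valuation F g := by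
            intro g
            have := k1 g
            rwa [e2, e2] at this
          exact hfixed ⟨e3, e2⟩
      · obtain ⟨h1, h2⟩ := hfix C hCS hC
        simp only [hc] at h1 h2
        have e2 : ∀ g : F, 𝔔.valuation F (τ' g) = 𝔔.valuation F g := by
          intro g
          have := h2 (τ'.symm g)
          rwa [RingEquiv.apply_symm_apply] at this
        have e3 : ∀ g : F, 𝔔.valuation F (τ g) = 𝔔.valuation F g := by
          intro g
          have := h1 g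
          rwa [e2, e2] at this
        exact hfixed ⟨e3, e2⟩
    · obtain ⟨h1, h2⟩ := hfix Bp hBpS hB
      simp only [hb] at h1 h2
      have e3 : ∀ g : F, 𝔔.valuation F (τ g) = 𝔔.valuation F g := by
        intro g
        have := h1 (τ.symm g)
        rwa [RingEquiv.apply_symm_apply] at this
      have e2 : ∀ g : F, 𝔔.valuation F (τ' g) = 𝔔.valuation F g := by
        intro g
        have := h2 g
        rwa [e3, e3] at this
      exact hfixed ⟨e3, e2⟩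
  · exact hfixed (hfix 𝔔 h𝔔 hA)

end Formal

section Assembly

variable {Bη F : Type*} [CommRing Bη] [IsDedekindDomain Bη] [Field F] [Algebra Bη F]
  [IsFractionRing Bη F]

/-- The translate by `τ` of a horizontal prime through `𝔪` is again a horizontal prime through
`𝔪`, if `τ` preserves `Bη`, `B` and `𝔪`. -/
theorem abs_through_comp {B : Type*} [CommRing B] [Algebra B F] (ι : B →+* Bη)
    (hι : ∀ b : B, algebraMap Bη F (ι b) = algebraMap B F b) (𝔪 : Ideal B) (τ : F ≃+* F)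
    (hτη : ∀ y : Bη, ∃ y' : Bη, algebraMap Bη F y' = τ (algebraMap Bη F y))
    (hτηs : ∀ y : Bη, ∃ y' : Bη, algebraMap Bη F y' = τ.symm (algebraMap Bη F y))
    (hτ𝔪 : ∀ b : B, ∃ b' : B, algebraMap B F b' = τ (algebraMap B F b) ∧ (b' ∈ 𝔪 → b ∈ 𝔪))
    (𝔔 : HeightOneSpectrum Bη) (h𝔔 : 𝔔 ∈ absThrough ι 𝔪) :
    ∃ 𝔔' ∈ absThrough ι 𝔪, ∀ f : F, 𝔔'.valuation F f = 𝔔.valuation F (τ f) := by
  obtain ⟨𝔔', h𝔔'⟩ := abs_place_comp τ hτη hτηs 𝔔
  refine ⟨𝔔', ?_, h𝔔'⟩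
  intro b hb
  obtain ⟨b', hb', hmem⟩ := hτ𝔪 b
  apply hmem
  apply h𝔔
  show ι b' ∈ 𝔔.asIdeal
  have hb2 : 𝔔'.valuation F (algebraMap Bη F (ι b)) < 1 :=
    (HeightOneSpectrum.valuation_lt_one_iff_mem 𝔔' (ι b)).mpr hb
  have hb3 : 𝔔.valuation F (algebraMap Bη F (ι b')) < 1 := by
    rw [hι, hb', ← hι, ← h𝔔']
    exact hb2
  exact (HeightOneSpectrum.valuation_lt_one_iff_mem 𝔔 (ι b')).mp hb3

/-- **ABS-2** (LOCF from `τ`-data), abstract form.  `Bη` a Dedekind domain with fraction field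
`F`, `B` a subring-like ring with `ι : B → Bη`, `𝔪` a prime of `B`, `V` a subring of `F` with
`B ⊆ int(V)` and `Bη ∩ int(V) ⊆ B` (Lemma K); `τ`, `τ'` automorphisms of `F` preserving `Bη`, `B`,
`𝔪`; (SD): second differences are `V`-integral and `≡ 1` modulo `π`.  Then (LP″) at `𝔪` implies
(LOCF) at `𝔪` for `z = sd(u)`. -/
theorem abs_locf_abstract {Λ B : Type*} [CommRing Λ] [Algebra Λ F] [CommRing B] [Algebra B F]
    (ι : B →+* Bη) (hι : ∀ b : B, algebraMap Bη F (ι b) = algebraMap B F b)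
    (𝔪 : Ideal B) [𝔪.IsPrime] (π : Λ) (V : Subring F)
    (hBV : ∀ b : B, IsIntegral V (algebraMap B F b))
    (hK : ∀ y : Bη, IsIntegral V (algebraMap Bη F y) →
      ∃ b : B, algebraMap B F b = algebraMap Bη F y)
    (τ τ' : F ≃+* F)
    (hτη : ∀ y : Bη, ∃ y' : Bη, algebraMap Bη F y' = τ (algebraMap Bη F y))
    (hτηs : ∀ y : Bη, ∃ y' : Bη, algebraMap Bη F y' = τ.symm (algebraMap Bη F y))
    (hτ'η : ∀ y : Bη, ∃ y' : Bη, algebraMap Bη F y' = τ' (algebraMap Bη F y))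
    (hτ'ηs : ∀ y : Bη, ∃ y' : Bη, algebraMap Bη F y' = τ'.symm (algebraMap Bη F y))
    (hτ𝔪 : ∀ b : B, ∃ b' : B, algebraMap B F b' = τ (algebraMap B F b) ∧ (b' ∈ 𝔪 → b ∈ 𝔪))
    (hτ'𝔪 : ∀ b : B, ∃ b' : B, algebraMap B F b' = τ' (algebraMap B F b) ∧ (b' ∈ 𝔪 → b ∈ 𝔪))
    (hSD : ∀ h : F, h ≠ 0 → IsIntegral V (absSd τ τ' h) ∧
      ∃ δ : F, IsIntegral V δ ∧ absSd τ τ' h - 1 = π • δ)
    (m : ℕ) {u : F} (hu : u ≠ 0)
    (hLP : ∃ h0 : F, h0 ≠ 0 ∧ ∀ 𝔔 ∈ absThrough ι 𝔪, 𝔔.valuation F (u / h0 ^ m) ≠ 1 →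
      (∀ g : F, 𝔔.valuation F (τ g) = 𝔔.valuation F g) ∧
      (∀ g : F, 𝔔.valuation F (τ' g) = 𝔔.valuation F g)) :
    ∃ g : F, g ≠ 0 ∧ IsIntegral V g⁻¹ ∧ (∃ δ : F, IsIntegral V δ ∧ g - 1 = π • δ) ∧
      ∃ c : B, c ∉ 𝔪 ∧ ∃ b : B, algebraMap B F b = algebraMap B F c * absSd τ τ' u * (g ^ m)⁻¹ := by
  obtain ⟨h0, hh0, hfix⟩ := hLP
  have hf : u / h0 ^ m ≠ 0 := div_ne_zero hu (pow_ne_zero m hh0)
  refine ⟨absSd τ τ' h0, absSd_ne_zero τ τ' hh0, ?_, (hSD h0 hh0).2, ?_⟩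
  · rw [← absSd_inv]
    exact (hSD _ (inv_ne_zero hh0)).1
  have hval : ∀ 𝔔 ∈ absThrough ι 𝔪, 𝔔.valuation F (absSd τ τ' (u / h0 ^ m)) ≤ 1 := by
    intro 𝔔 h𝔔
    exact (abs_val_sd_eq_one (absThrough ι 𝔪) τ τ'
      (fun 𝔓 h𝔓 => abs_through_comp ι hι 𝔪 τ hτη hτηs hτ𝔪 𝔓 h𝔓)
      (fun 𝔓 h𝔓 => abs_through_comp ι hι 𝔪 τ' hτ'η hτ'ηs hτ'𝔪 𝔓 h𝔓) hf hfix 𝔔 h𝔔).le
  obtain ⟨d, hd, y, hy⟩ := abs_hr_of_no_pole ι 𝔪 (absSd τ τ' (u / h0 ^ m)) hval
  refine ⟨d, hd, ?_⟩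
  have hyV : IsIntegral V (algebraMap Bη F y) := by
    rw [hy, hι]
    exact (hBV d).mul (hSD _ hf).1
  obtain ⟨b, hb⟩ := hK y hyV
  refine ⟨b, ?_⟩
  rw [hb, hy, hι, absSd_div_pow, mul_assoc]

end Assembly

section LemmaK

variable {Λ K F : Type*} [CommRing Λ] [IsDomain Λ] [IsDiscreteValuationRing Λ] [Field K]
  [Algebra Λ K] [IsFractionRing Λ K] [Field F] [Algebra K F] [Algebra Λ F] [IsScalarTower Λ K F]

/-- `B_η ∩ int(V) ⊆ B_fin`: integral over `K[t]` and over the Gauss ring implies integral over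
`Λ[t]` (iterated Lemma K). -/
theorem abs_isIntegral_of_gauss (π : Λ) (hπ : Irreducible π) {t : F} (ht : Transcendental K t)
    {y : F} (hy : IsIntegral (Algebra.adjoin K {t}) y)
    (hV : IsIntegral (S18.gaussSub π hπ.prime t) y) :
    IsIntegral (Algebra.adjoin Λ {t}) y := by
  have htΛ : Transcendental Λ t := S18.GaussLineK.transcendental_of_fraction ht
  obtain ⟨n, hn⟩ := S18.UnramPoly.isIntegral_pow_smul_of_isIntegral_adjoin π hπ t y hy
  have hpowV : ∀ k : ℕ, IsIntegral (S18.gaussSub π hπ.prime t) (π ^ k • y) := by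
    intro k
    rw [Algebra.smul_def]
    have h1 : IsIntegral (S18.gaussSub π hπ.prime t) (algebraMap Λ F (π ^ k)) :=
      isIntegral_algebraMap (R := S18.gaussSub π hπ.prime t) (A := F)
        (x := ⟨algebraMap Λ F (π ^ k), S18.algebraMap_mem_gaussSub π hπ.prime t (π ^ k)⟩)
    exact h1.mul hV
  induction n with
  | zero => simpa using hn
  | succ k ih =>
    apply ih
    refine S18.GaussLineK.lemmaK_fin π hπ.prime htΛ hn (hpowV k) ?_
    rw [pow_succ', mul_smul]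

end LemmaK

end Fermat.Agent.S34
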