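import Mathlib
import Fermat.Prelude.Def_FLTPrelim_Ramification
import Fermat.Agent.S18.GaussLRing
import Fermat.Agent.S18.NumField
import Fermat.Agent.S42.Cyclo

/-!
# P19 (S34), block GAL, leaf I: inertia acts trivially on residues

For a valuation subring `A` of `ℚ̄` and `τ` in its inertia group over `ℚ`:

* `s34gal_inertia_mem`: `τ` preserves `A`;
* `s34gal_const_secondDiff`: the second difference of a nonzero constant is `≡ 1` modulo the
  maximal ideal of `A`;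
* `s34gal_inertia_lam`, `s34gal_inertia_coeff_lam`: on `Λ = A ∩ K` (`K / ℚ` normal) and on
  Laurent series over `Λ`, `τ` acts trivially modulo the maximal ideal;
* `s34gal_inertia_gaussO`: `τ` preserves the Gauss ring of `K((q))` and acts trivially on the
  Gauss reduction.
-/

set_option autoImplicit false

namespace Fermat.Agent.S34

open ModularCurve IntermediateField

open Fermat.Agent.S18.NumField Fermat.Agent.S18.GaussL

local notation "Qb" => AlgebraicClosure ℚ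

private theorem s34gi_nonunits_mem (A : ValuationSubring Qb) {x : Qb} (hx : x ∈ A.nonunits) :
    x ∈ A := by
  rw [A.mem_nonunits_iff] at hx
  exact (A.valuation_le_one_iff x).mp hx.le

private theorem s34gi_nonunits_add (A : ValuationSubring Qb) {x y : Qb} (hx : x ∈ A.nonunits)
    (hy : y ∈ A.nonunits) : x + y ∈ A.nonunits := by
  rw [A.mem_nonunits_iff] at hx hy ⊢
  exact A.valuation.map_add_lt hx hy

private theorem s34gi_nonunits_mul (A : ValuationSubring Qb) {x y : Qb} (hx : x ∈ A.nonunits)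
    (hy : y ∈ A) : x * y ∈ A.nonunits := by
  rw [A.mem_nonunits_iff] at hx ⊢
  rw [map_mul]
  have hy' := (A.valuation_le_one_iff y).mpr hy
  calc A.valuation x * A.valuation y ≤ A.valuation x * 1 := mul_le_mul_right hy' _
    _ = A.valuation x := mul_one _
    _ < 1 := hx

theorem s34gal_inertia_mem (A : ValuationSubring Qb) {τ : Qb ≃ₐ[ℚ] Qb}
    (hτ : τ ∈ A.inertiaSubgroupIn ℚ) {a : Qb} (ha : a ∈ A) : τ a ∈ A := by
  have h := Fermat.Agent.S42.cy_inertia_sub_mem_nonunits hτ ha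
  have h2 := A.add_mem _ _ (s34gi_nonunits_mem A h) ha
  simpa using h2

private theorem s34gi_inertia_nonunits (A : ValuationSubring Qb) {τ : Qb ≃ₐ[ℚ] Qb}
    (hτ : τ ∈ A.inertiaSubgroupIn ℚ) {y : Qb} (hy : y ∈ A.nonunits) : τ y ∈ A.nonunits := by
  have h := Fermat.Agent.S42.cy_inertia_sub_mem_nonunits hτ (s34gi_nonunits_mem A hy)
  have h2 := s34gi_nonunits_add A h hy
  simpa using h2

private theorem s34gi_pow_nonunits (A : ValuationSubring Qb) {τ : Qb ≃ₐ[ℚ] Qb}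
    (hτ : τ ∈ A.inertiaSubgroupIn ℚ) {y : Qb} (hy : y ∈ A.nonunits) (i : ℕ) :
    (τ ^ i) y ∈ A.nonunits := by
  induction i with
  | zero => simpa using hy
  | succ i ih =>
    rw [pow_succ', AlgEquiv.mul_apply]
    exact s34gi_inertia_nonunits A hτ ih

/-- Some positive power of `τ` fixes a given element of `ℚ̄`. -/
private theorem s34gi_exists_pow_fix (τ : Qb ≃ₐ[ℚ] Qb) (c : Qb) :
    ∃ n : ℕ, 0 < n ∧ (τ ^ n) c = c := by
  have hc : IsIntegral ℚ c := Algebra.IsIntegral.isIntegral c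
  have hfin : ((minpoly ℚ c).rootSet Qb).Finite := Polynomial.rootSet_finite _ _
  have hmem : ∀ i : ℕ, (τ ^ i) c ∈ (minpoly ℚ c).rootSet Qb := by
    intro i
    rw [Polynomial.mem_rootSet]
    refine ⟨minpoly.ne_zero hc, ?_⟩
    have h := Polynomial.aeval_algHom_apply (τ ^ i).toAlgHom c (minpoly ℚ c)
    rw [minpoly.aeval, map_zero] at h
    exact h
  obtain ⟨i, -, j, -, hij, h⟩ := Set.infinite_univ.exists_ne_map_eq_of_mapsTo
    (f := fun i : ℕ => (τ ^ i) c) (fun i _ => hmem i) hfin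
  have h : (τ ^ i) c = (τ ^ j) c := h
  -- wlog `i < j`
  have key : ∀ i j : ℕ, i < j → (τ ^ i) c = (τ ^ j) c → ∃ n : ℕ, 0 < n ∧ (τ ^ n) c = c := by
    intro i j hlt h
    refine ⟨j - i, Nat.sub_pos_of_lt hlt, ?_⟩
    have h2 : (τ ^ i) ((τ ^ (j - i)) c) = (τ ^ i) c := by
      rw [← AlgEquiv.mul_apply, ← pow_add, Nat.add_sub_cancel' hlt.le, h]
    exact (τ ^ i).injective h2
  rcases Nat.lt_or_gt_of_ne hij with hlt | hlt
  · exact key i j hlt h
  · exact key j i hlt h.symm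

private theorem s34gi_prod_telescope (τ : Qb ≃ₐ[ℚ] Qb) {c : Qb} (hc : c ≠ 0) (n : ℕ) :
    ∏ i ∈ Finset.range n, (τ ^ i) (τ c / c) = (τ ^ n) c / c := by
  induction n with
  | zero => simp [hc]
  | succ n ih =>
    rw [Finset.prod_range_succ, ih, map_div₀, ← AlgEquiv.mul_apply, ← pow_succ]
    have h1 : (τ ^ n) c ≠ 0 := fun h => hc ((map_eq_zero_iff (τ ^ n) (τ ^ n).injective).mp h)
    field_simp

private theorem s34gi_div_notMem (A : ValuationSubring Qb) {τ : Qb ≃ₐ[ℚ] Qb}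
    (hτ : τ ∈ A.inertiaSubgroupIn ℚ) {c : Qb} (hc : c ≠ 0) : τ c / c ∉ A.nonunits := by
  intro h
  obtain ⟨n, hn, hfix⟩ := s34gi_exists_pow_fix τ c
  have hprod : ∏ i ∈ Finset.range n, (τ ^ i) (τ c / c) ∈ A.nonunits := by
    obtain ⟨k, rfl⟩ : ∃ k, n = k + 1 := ⟨n - 1, by omega⟩
    rw [Finset.prod_range_succ, mul_comm]
    refine s34gi_nonunits_mul A (s34gi_pow_nonunits A hτ h k) ?_
    refine Subring.prod_mem A.toSubring fun i _ => ?_
    exact s34gi_nonunits_mem A (s34gi_pow_nonunits A hτ h i)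
  rw [s34gi_prod_telescope τ hc, hfix, div_self hc] at hprod
  rw [A.mem_nonunits_iff, map_one] at hprod
  exact lt_irrefl _ hprod

theorem s34gal_const_secondDiff (A : ValuationSubring Qb) {τ τ' : Qb ≃ₐ[ℚ] Qb}
    (hτ : τ ∈ A.inertiaSubgroupIn ℚ) (hτ' : τ' ∈ A.inertiaSubgroupIn ℚ) {c : Qb} (hc : c ≠ 0) :
    τ' (τ c / c) / (τ c / c) - 1 ∈ A.nonunits := by
  have hτc : τ c ≠ 0 := by simpa using hc
  have h1 : τ c / c ∉ A.nonunits := s34gi_div_notMem A hτ hc
  have h2 : (τ c / c)⁻¹ ∉ A.nonunits := by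
    have h := s34gi_div_notMem A hτ (inv_ne_zero hc)
    rwa [map_inv₀, inv_div_inv, ← inv_div] at h
  rw [A.mem_nonunits_iff, not_lt] at h1 h2
  rw [map_inv₀] at h2
  have hne : A.valuation (τ c / c) ≠ 0 := by
    rw [Valuation.ne_zero_iff]
    exact div_ne_zero hτc hc
  have hle : A.valuation (τ c / c) ≤ 1 := by
    by_contra hgt
    rw [not_le] at hgt
    have := inv_lt_one_of_one_lt₀ hgt
    exact absurd h2 (not_le.mpr this)
  have hmem : τ c / c ∈ A := (A.valuation_le_one_iff _).mp hle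
  have hmem' : (τ c / c)⁻¹ ∈ A := by
    rw [← A.valuation_le_one_iff, map_inv₀]
    exact inv_le_one_of_one_le₀ h1
  have h3 := Fermat.Agent.S42.cy_inertia_sub_mem_nonunits hτ' hmem
  have h4 := s34gi_nonunits_mul A h3 hmem'
  have h5 : (τ' (τ c / c) - τ c / c) * (τ c / c)⁻¹ = τ' (τ c / c) / (τ c / c) - 1 := by
    have : τ c / c ≠ 0 := div_ne_zero hτc hc
    field_simp
  rwa [h5] at h4

/-- `τ` restricted to `K`, as a ring endomorphism of `Λ = A ∩ K`. -/
private noncomputable def s34giLamEnd (A : ValuationSubring Qb) (K : IntermediateField ℚ Qb)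
    [Normal ℚ ↥K] {τ : Qb ≃ₐ[ℚ] Qb} (hτ : τ ∈ A.inertiaSubgroupIn ℚ) :
    ↥(lam A K).toSubring →+* ↥(lam A K).toSubring :=
  ((τ.restrictNormal ↥K : ↥K ≃ₐ[ℚ] ↥K) : ↥K →+* ↥K).restrict (lam A K).toSubring
    (lam A K).toSubring (fun x hx => by
      show (τ.restrictNormal ↥K) x ∈ lam A K
      rw [mem_lam_iff]
      have h := AlgEquiv.restrictNormal_commutes τ ↥K x
      rw [show ((τ.restrictNormal ↥K) x : Qb) = algebraMap (↥K) Qb ((τ.restrictNormal ↥K) x)
        from rfl, h]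
      exact s34gal_inertia_mem A hτ (mem_lam_iff.mp hx))

private theorem s34giLamEnd_coe (A : ValuationSubring Qb) (K : IntermediateField ℚ Qb)
    [Normal ℚ ↥K] {τ : Qb ≃ₐ[ℚ] Qb} (hτ : τ ∈ A.inertiaSubgroupIn ℚ)
    (a : ↥(lam A K).toSubring) :
    ((s34giLamEnd A K hτ a : ↥(lam A K).toSubring) : ↥K) = τ.restrictNormal ↥K (a : ↥K) := rfl

private theorem s34giLamEnd_res (A : ValuationSubring Qb) (K : IntermediateField ℚ Qb)
    [Normal ℚ ↥K] {τ : Qb ≃ₐ[ℚ] Qb} (hτ : τ ∈ A.inertiaSubgroupIn ℚ)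
    (a : ↥(lam A K).toSubring) :
    lamRes A K (s34giLamEnd A K hτ a) = lamRes A K a := by
  rw [← sub_eq_zero, ← map_sub, ← lamResA_eq_zero_iff]
  show IsLocalRing.residue A (lamIncl A K (s34giLamEnd A K hτ a - a)) = 0
  rw [IsLocalRing.residue_eq_zero_iff]
  have hnon : ((lamIncl A K (s34giLamEnd A K hτ a - a) : A) : Qb) ∈ A.nonunits := by
    rw [coe_lamIncl]
    have h1 : (((s34giLamEnd A K hτ a - a : ↥(lam A K).toSubring) : ↥K) : Qb)
        = τ ((a : ↥K) : Qb) - ((a : ↥K) : Qb) := by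
      have h := AlgEquiv.restrictNormal_commutes τ ↥K (a : ↥K)
      show algebraMap (↥K) Qb ((τ.restrictNormal ↥K) (a : ↥K) - (a : ↥K)) = _
      rw [map_sub, h]
      rfl
    rw [h1]
    exact Fermat.Agent.S42.cy_inertia_sub_mem_nonunits hτ (mem_lam_iff.mp a.2)
  obtain ⟨ha, hm⟩ := ValuationSubring.mem_nonunits_iff_exists_mem_maximalIdeal.mp hnon
  exact hm

theorem s34gal_inertia_lam (A : ValuationSubring Qb) (K : IntermediateField ℚ Qb) [Normal ℚ ↥K]
    {τ : Qb ≃ₐ[ℚ] Qb} (hτ : τ ∈ A.inertiaSubgroupIn ℚ) (a : ↥(lam A K).toSubring) :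
    ∃ b : ↥(lam A K).toSubring, (b : ↥K) = τ.restrictNormal ↥K (a : ↥K) ∧
      lamRes A K b = lamRes A K a :=
  ⟨s34giLamEnd A K hτ a, s34giLamEnd_coe A K hτ a, s34giLamEnd_res A K hτ a⟩

theorem s34gal_inertia_coeff_lam (A : ValuationSubring Qb) (K : IntermediateField ℚ Qb)
    [Normal ℚ ↥K] {τ : Qb ≃ₐ[ℚ] Qb} (hτ : τ ∈ A.inertiaSubgroupIn ℚ)
    (Y : LaurentSeries ↥(lam A K).toSubring) :
    ∃ Y' : LaurentSeries ↥(lam A K).toSubring,
      coeffMap (lam A K).toSubring.subtype Y' =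
        coeffMap ((τ.restrictNormal ↥K : ↥K ≃ₐ[ℚ] ↥K) : ↥K →+* ↥K)
          (coeffMap (lam A K).toSubring.subtype Y) ∧
      coeffMap (lamRes A K) Y' = coeffMap (lamRes A K) Y := by
  refine ⟨coeffMap (s34giLamEnd A K hτ) Y, ?_, ?_⟩
  · rw [coeffMap_coeffMap, coeffMap_coeffMap]
    exact coeffMap_congr (RingHom.ext fun a => rfl) Y
  · rw [coeffMap_coeffMap]
    exact coeffMap_congr (RingHom.ext fun a => s34giLamEnd_res A K hτ a) Y

theorem s34gal_inertia_gaussO (A : ValuationSubring Qb) (K : IntermediateField ℚ Qb)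
    [Normal ℚ ↥K] {τ : Qb ≃ₐ[ℚ] Qb} (hτ : τ ∈ A.inertiaSubgroupIn ℚ)
    {x : LaurentSeries ↥K} (hx : x ∈ gaussO (lam A K).toSubring (lamRes A K)) :
    ∃ h : coeffMap ((τ.restrictNormal ↥K : ↥K ≃ₐ[ℚ] ↥K) : ↥K →+* ↥K) x ∈
        gaussO (lam A K).toSubring (lamRes A K),
      gaussRedO (lam A K).toSubring (lamRes A K) ⟨_, h⟩ =
        gaussRedO (lam A K).toSubring (lamRes A K) ⟨x, hx⟩ := by
  obtain ⟨a, b, hb, hab⟩ := hx
  obtain ⟨a', ha'1, ha'2⟩ := s34gal_inertia_coeff_lam A K hτ a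
  obtain ⟨b', hb'1, hb'2⟩ := s34gal_inertia_coeff_lam A K hτ b
  have hb' : coeffMap (lamRes A K) b' ≠ 0 := by rw [hb'2]; exact hb
  have hab' : coeffMap ((τ.restrictNormal ↥K : ↥K ≃ₐ[ℚ] ↥K) : ↥K →+* ↥K) x *
      coeffMap (lam A K).toSubring.subtype b' = coeffMap (lam A K).toSubring.subtype a' := by
    rw [hb'1, ha'1, ← map_mul, hab]
  have hmem : coeffMap ((τ.restrictNormal ↥K : ↥K ≃ₐ[ℚ] ↥K) : ↥K →+* ↥K) x ∈
      gaussO (lam A K).toSubring (lamRes A K) := ⟨a', b', hb', hab'⟩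
  refine ⟨hmem, ?_⟩
  have h1 := gaussRedO_mul_eq (res := lamRes A K) ⟨_, hmem⟩ a' b' hab'
  have h2 := gaussRedO_mul_eq (res := lamRes A K) ⟨x, ⟨a, b, hb, hab⟩⟩ a b hab
  rw [ha'2, hb'2] at h1
  exact mul_right_cancel₀ hb (h1.trans h2.symm)

end Fermat.Agent.S34
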