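import Mathlib
import Fermat.Agent.S34.GalPic
import Fermat.Agent.S34.GalField
import Fermat.Agent.S24.Places

/-!
# P19 (S34), block GAL, leaf R2: finitely many places are rational over a finite normal field

`s34gal_exists_rational`: every finite set of places of `𝔽_ℚ̄ = laurentBaseChange ℚ̄ F₀` is fixed
by `Gal(ℚ̄ / L)` for a finite normal extension `L / ℚ`.

Stabiliser argument: a place `P` is a zero of `y = x - c` or of `y = x⁻¹`; the zero fibre of `y`
is separated by a function `f` (`S24.exists_separating`); if `σ` fixes `y` and `f` then `σ P` is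
again a zero of `y` at which `f` vanishes, so `σ P = P`.
-/

set_option autoImplicit false

namespace Fermat.Agent.S34

open AlgebraicCurve ModularCurve IntermediateField

local notation "Qb" => AlgebraicClosure ℚ

variable (F₀ : IntermediateField ℚ (LaurentSeries ℚ))

theorem s34galre_normalQbar : Normal ℚ Qb :=
  @IsAlgClosure.normal ℚ Qb _ _ _ ⟨inferInstance, AlgebraicClosure.isAlgebraic ℚ⟩

/-- A place which is cut out, among the zeros of `y`, by the vanishing of `f`, is rational over a
number field. -/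
theorem s34galre_single_of_sep (P : Place Qb ↥(laurentBaseChange Qb F₀))
    (y f : ↥(laurentBaseChange Qb F₀)) (hy : 0 < P.ord y) (hf : 0 < P.ord f)
    (hsep : ∀ w : Place Qb ↥(laurentBaseChange Qb F₀), 0 < w.ord y → w ≠ P → w.ord f = 0) :
    ∃ L : IntermediateField ℚ Qb, FiniteDimensional ℚ ↥L ∧ s34galRational F₀ L P := by
  obtain ⟨L₁, hL₁, h1⟩ := s34gal_exists_fix F₀ y
  obtain ⟨L₂, hL₂, h2⟩ := s34gal_exists_fix F₀ f
  refine ⟨L₁ ⊔ L₂, IntermediateField.finiteDimensional_sup L₁ L₂, fun σ hσ => ?_⟩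
  have hσ1 : arithmeticGalois F₀ σ • y = y :=
    h1 σ fun a ha => hσ a ((le_sup_left : L₁ ≤ L₁ ⊔ L₂) ha)
  have hσ2 : arithmeticGalois F₀ σ • f = f :=
    h2 σ fun a ha => hσ a ((le_sup_right : L₂ ≤ L₁ ⊔ L₂) ha)
  have e1 : (arithmeticGalois F₀ σ • P).ord y = P.ord y := by
    have h := SemilinearAut.ord_smul (arithmeticGalois F₀ σ) P y
    rwa [hσ1] at h
  have e2 : (arithmeticGalois F₀ σ • P).ord f = P.ord f := by
    have h := SemilinearAut.ord_smul (arithmeticGalois F₀ σ) P f
    rwa [hσ2] at h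
  by_contra hne
  have h3 := hsep (arithmeticGalois F₀ σ • P) (by rw [e1]; exact hy) hne
  rw [e2] at h3
  omega

/-- Every place is rational over a number field. -/
theorem s34galre_single {x : ↥(laurentBaseChange Qb F₀)} (hx : Transcendental Qb x)
    [FiniteDimensional Qb⟮x⟯ ↥(laurentBaseChange Qb F₀)]
    (P : Place Qb ↥(laurentBaseChange Qb F₀)) :
    ∃ L : IntermediateField ℚ Qb, FiniteDimensional ℚ ↥L ∧ s34galRational F₀ L P := by
  rcases S24.place_cases hx P with ⟨c, hc⟩ | hinf
  · have hy : Transcendental Qb (x - algebraMap Qb ↥(laurentBaseChange Qb F₀) c) :=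
      S24.transcendental_sub_algebraMap hx c
    have : FiniteDimensional Qb⟮x - algebraMap Qb ↥(laurentBaseChange Qb F₀) c⟯
        ↥(laurentBaseChange Qb F₀) :=
      S24.finiteDimensional_adjoin_of_transcendental hx hy
    obtain ⟨f, -, hfP, hsep, -⟩ := S24.exists_separating hy hc
    exact s34galre_single_of_sep F₀ P _ f hc hfP hsep
  · have hy : Transcendental Qb x⁻¹ := S24.transcendental_inv hx
    have : FiniteDimensional Qb⟮x⁻¹⟯ ↥(laurentBaseChange Qb F₀) :=
      S24.finiteDimensional_adjoin_of_transcendental hx hy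
    obtain ⟨f, -, hfP, hsep, -⟩ := S24.exists_separating hy hinf
    exact s34galre_single_of_sep F₀ P _ f hinf hfP hsep

/-- Finitely many places are rational over a common number field. -/
theorem s34galre_finite {x : ↥(laurentBaseChange Qb F₀)} (hx : Transcendental Qb x)
    [FiniteDimensional Qb⟮x⟯ ↥(laurentBaseChange Qb F₀)]
    (S : Set (Place Qb ↥(laurentBaseChange Qb F₀))) (hS : S.Finite) :
    ∃ L : IntermediateField ℚ Qb, FiniteDimensional ℚ ↥L ∧ ∀ P ∈ S, s34galRational F₀ L P := by
  induction S, hS using Set.Finite.induction_on with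
  | empty => exact ⟨⊥, inferInstance, fun P hP => absurd hP (Set.notMem_empty P)⟩
  | @insert P S _ _ ih =>
    obtain ⟨L₁, hL₁, h1⟩ := ih
    obtain ⟨L₂, hL₂, h2⟩ := s34galre_single F₀ hx P
    refine ⟨L₁ ⊔ L₂, IntermediateField.finiteDimensional_sup L₁ L₂, fun Q hQ => ?_⟩
    rcases Set.mem_insert_iff.mp hQ with hQ | hQ
    · subst hQ
      exact s34galRational_mono F₀ le_sup_right h2
    · exact s34galRational_mono F₀ le_sup_left (h1 Q hQ)

/-- **Leaf R2.**  Every finite set of places of `𝔽_ℚ̄` is fixed by `Gal(ℚ̄ / L)` for a finite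
normal extension `L / ℚ`. -/
theorem s34gal_exists_rational {x : ↥(laurentBaseChange Qb F₀)} (hx : Transcendental Qb x)
    [FiniteDimensional Qb⟮x⟯ ↥(laurentBaseChange Qb F₀)]
    (S : Set (Place Qb ↥(laurentBaseChange Qb F₀))) (hS : S.Finite) :
    ∃ L : IntermediateField ℚ Qb, FiniteDimensional ℚ ↥L ∧ Normal ℚ ↥L ∧
      ∀ P ∈ S, s34galRational F₀ L P := by
  obtain ⟨L, hL, h⟩ := s34galre_finite F₀ hx S hS
  have hQn : Normal ℚ Qb := s34galre_normalQbar
  refine ⟨IntermediateField.normalClosure ℚ ↥L Qb, normalClosure.is_finiteDimensional ℚ ↥L Qb,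
    normalClosure.normal ℚ ↥L Qb, fun P hP => ?_⟩
  exact s34galRational_mono F₀ (IntermediateField.le_normalClosure L) (h P hP)

end Fermat.Agent.S34
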