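import Mathlib
import Fermat.Agent.S34.GalPic
import Fermat.Agent.S34.GalField
import Fermat.Agent.S34.GalRatExists
import Fermat.Agent.S24.Places
import Fermat.Agent.S24.Analytic

/-!
# P19 (S34), block GAL, G1: Kummer generators over number fields

`s34gal_exists_kummer_field`: for `x ∈ J₀(N)` with `m • x = 0` there are a divisor `D` of class
`x` and a number field `K₀ ⊆ ℚ̄` such that for every `K ⊇ K₀` there is `u ∈ 𝔽_K = K · F_N` with
`div u = m • D` (over `ℚ̄`), all zeros and poles of `u` are `K`-rational (fixed by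
`Gal(ℚ̄ / K)`), and all orders of `u` are divisible by `m`.

`s34gal_ringAut_jL`: the coefficientwise Galois action on `𝔽_K` fixes `j`.
-/

set_option autoImplicit false

namespace Fermat.Agent.S34

open AlgebraicCurve ModularCurve IntermediateField

local notation "Qb" => AlgebraicClosure ℚ

/-- The coefficientwise action of `Gal(K/ℚ)` on `𝔽_K` fixes `j`. -/
theorem s34gal_ringAut_jL (N : ℕ) [NeZero N] {L : Type*} [Field L] [Algebra ℚ L]
    (σ : L ≃ₐ[ℚ] L) :
    arithmeticRingAut (modularFunctionFieldFull N) σ (S24.jL L N) = S24.jL L N :=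
  Subtype.ext (coeffMap_coeffEmb σ jq)

/-- The embedding `𝔽_K → 𝔽_ℚ̄` maps `j` to `j`. -/
theorem s34galEmb_jL (N : ℕ) [NeZero N] (K : IntermediateField ℚ Qb) :
    s34galEmb (modularFunctionFieldFull N) K (S24.jL ↥K N) = S24.jL Qb N :=
  Subtype.ext (s34gal_coeffMap_coeffEmb _ jq)

/-- **G1.** Kummer generators defined over number fields, with rational zeros and poles. -/
theorem s34gal_exists_kummer_field (N : ℕ) [NeZero N] {m : ℕ} (x : JZero N) (hx : m • x = 0) :
    ∃ (D : Divisor.degZero (K := Qb) (F := modularFunctionFieldBar N))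
      (K₀ : IntermediateField ℚ Qb), FiniteDimensional ℚ ↥K₀ ∧ Pic0.mk D = x ∧
      ∀ K : IntermediateField ℚ Qb, K₀ ≤ K →
        ∃ u : ↥(laurentBaseChange (↥K) (modularFunctionFieldFull N)), u ≠ 0 ∧
          (∀ v : Place Qb (modularFunctionFieldBar N),
            (m • (D : Divisor Qb (modularFunctionFieldBar N))) v =
              v.ord (s34galEmb (modularFunctionFieldFull N) K u)) ∧
          (∀ P : Place Qb (modularFunctionFieldBar N),
            P.ord (s34galEmb (modularFunctionFieldFull N) K u) ≠ 0 →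
              s34galRational (modularFunctionFieldFull N) K P) ∧
          (∀ P : Place Qb (modularFunctionFieldBar N),
            (m : ℤ) ∣ P.ord (s34galEmb (modularFunctionFieldFull N) K u)) := by
  obtain ⟨D, U, hD, hU, hdiv⟩ := s34gal_exists_kummer x hx
  obtain ⟨K₁, hK₁, hemb⟩ := s34gal_exists_emb_eq (modularFunctionFieldFull N) U
  have hj : Transcendental Qb (S24.jL Qb N) := S24.transcendental_jL N Qb
  have : FiniteDimensional Qb⟮S24.jL Qb N⟯ ↥(laurentBaseChange Qb (modularFunctionFieldFull N)) :=
    S24.finiteDimensional_jL N Qb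
  have hfin : {P : Place Qb (modularFunctionFieldBar N) | P.ord U ≠ 0}.Finite :=
    S24.finite_setOf_ord_ne_zero hj hU
  obtain ⟨L, hL, -, hrat⟩ := s34gal_exists_rational (modularFunctionFieldFull N) hj _ hfin
  refine ⟨D, K₁ ⊔ L, IntermediateField.finiteDimensional_sup K₁ L, hD, fun K hK => ?_⟩
  obtain ⟨u, hu⟩ := hemb K (le_trans le_sup_left hK)
  refine ⟨u, ?_, ?_, ?_, ?_⟩
  · rintro rfl
    rw [map_zero] at hu
    exact hU hu.symm
  · intro v
    rw [hu]
    exact hdiv v
  · intro P hP
    rw [hu] at hP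
    exact s34galRational_mono _ (le_trans le_sup_right hK) (hrat P hP)
  · intro P
    rw [hu, ← hdiv P]
    exact ⟨(D : Divisor Qb (modularFunctionFieldBar N)) P, by simp⟩

end Fermat.Agent.S34
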