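import Mathlib
import Fermat.Prelude.Def_FLTPrelim_Ramification
import Fermat.Agent.S18.GaussLRing
import Fermat.Agent.S18.NumField
import Fermat.Agent.S34.GalInertia

/-!
# P19 (S34), block GAL, G2 at the Gauss valuation `w_∞`

For a number field `K ⊆ ℚ̄` normal over `ℚ`, `Λ = A ∩ K`, and `τ, τ'` in the inertia group of `A`
acting coefficientwise on `K((q))`: the second difference
`sd h = τ'τ(h) · h / (τ'(h) · τ(h))` of any nonzero `h` in the fraction field `gaussK` of the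
Gauss ring is a principal unit of the Gauss ring: it lies in `gaussO` and reduces to `1`.
-/

set_option autoImplicit false

namespace Fermat.Agent.S34

open ModularCurve IntermediateField

local notation "Qb" => AlgebraicClosure ℚ

open Fermat.Agent.S18.NumField Fermat.Agent.S18.GaussL Fermat.Agent.S28.FreeBasisAbs

section Abstract

variable {K k : Type*} [Field K] [Field k] {Λ : Subring K} {res : ↥Λ →+* k}

/-- `x` is a principal unit of the Gauss ring. -/
def s34galPU (Λ : Subring K) (res : ↥Λ →+* k) (x : LaurentSeries K) : Prop :=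
  ∃ hx : x ∈ gaussO Λ res, gaussRedO Λ res ⟨x, hx⟩ = 1

theorem s34galPU_one : s34galPU Λ res (1 : LaurentSeries K) :=
  ⟨(gaussO Λ res).one_mem, map_one _⟩

theorem s34galPU_mul {x y : LaurentSeries K} (hx : s34galPU Λ res x) (hy : s34galPU Λ res y) :
    s34galPU Λ res (x * y) := by
  obtain ⟨hx, hx1⟩ := hx
  obtain ⟨hy, hy1⟩ := hy
  refine ⟨(gaussO Λ res).mul_mem hx hy, ?_⟩
  have : (⟨x * y, (gaussO Λ res).mul_mem hx hy⟩ : ↥(gaussO Λ res)) = ⟨x, hx⟩ * ⟨y, hy⟩ := rfl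
  rw [this, map_mul, hx1, hy1, one_mul]

theorem s34galPU_inv {x : LaurentSeries K} (hx : s34galPU Λ res x) :
    s34galPU Λ res x⁻¹ := by
  obtain ⟨hx, hx1⟩ := hx
  have hne : gaussRedO Λ res ⟨x, hx⟩ ≠ 0 := by rw [hx1]; exact one_ne_zero
  have hinv := inv_mem_gaussO hx hne
  refine ⟨hinv, ?_⟩
  have hx0 : x ≠ 0 := by
    rintro rfl
    apply hne
    have : (⟨0, hx⟩ : ↥(gaussO Λ res)) = 0 := rfl
    rw [this, map_zero]
  have h1 : (⟨x, hx⟩ : ↥(gaussO Λ res)) * ⟨x⁻¹, hinv⟩ = 1 :=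
    Subtype.ext (mul_inv_cancel₀ hx0)
  have h2 := congrArg (gaussRedO Λ res) h1
  rw [map_mul, hx1, one_mul, map_one] at h2
  exact h2

theorem s34galPU_div {x y : LaurentSeries K} (hx : s34galPU Λ res x) (hy : s34galPU Λ res y) :
    s34galPU Λ res (x / y) := by
  rw [div_eq_mul_inv]
  exact s34galPU_mul hx (s34galPU_inv hy)

theorem s34galPU_pow {x : LaurentSeries K} (hx : s34galPU Λ res x) (n : ℕ) :
    s34galPU Λ res (x ^ n) := by
  induction n with
  | zero => rw [pow_zero]; exact s34galPU_one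
  | succ n ih => rw [pow_succ]; exact s34galPU_mul ih hx

theorem s34galPU_zpow {x : LaurentSeries K} (hx : s34galPU Λ res x) (n : ℤ) :
    s34galPU Λ res (x ^ n) := by
  cases n with
  | ofNat n => rw [Int.ofNat_eq_natCast, zpow_natCast]; exact s34galPU_pow hx n
  | negSucc n => rw [zpow_negSucc]; exact s34galPU_inv (s34galPU_pow hx _)

/-- The second difference with respect to two ring endomorphisms. -/
noncomputable def s34galSd (T T' : LaurentSeries K →+* LaurentSeries K) (h : LaurentSeries K) :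
    LaurentSeries K :=
  T' (T h) * h / (T' h * T h)

theorem s34galSd_mul (T T' : LaurentSeries K →+* LaurentSeries K) (a b : LaurentSeries K) :
    s34galSd T T' (a * b) = s34galSd T T' a * s34galSd T T' b := by
  unfold s34galSd
  simp only [map_mul]
  rw [div_mul_div_comm]
  congr 1 <;> ring

theorem s34galSd_zpow (T T' : LaurentSeries K →+* LaurentSeries K) (a : LaurentSeries K)
    (n : ℤ) : s34galSd T T' (a ^ n) = s34galSd T T' a ^ n := by
  unfold s34galSd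
  rw [map_zpow₀, map_zpow₀, map_zpow₀, ← mul_zpow, ← mul_zpow, ← div_zpow]

/-- If `T`, `T'` preserve `gaussO` and its reduction, second differences of units are principal
units. -/
theorem s34galSd_unit (T T' : LaurentSeries K →+* LaurentSeries K)
    (hT : ∀ (x : LaurentSeries K) (hx : x ∈ gaussO Λ res),
      ∃ h : T x ∈ gaussO Λ res, gaussRedO Λ res ⟨_, h⟩ = gaussRedO Λ res ⟨x, hx⟩)
    (hT' : ∀ (x : LaurentSeries K) (hx : x ∈ gaussO Λ res),
      ∃ h : T' x ∈ gaussO Λ res, gaussRedO Λ res ⟨_, h⟩ = gaussRedO Λ res ⟨x, hx⟩)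
    {u : LaurentSeries K} (hu : u ∈ gaussO Λ res) (hu0 : gaussRedO Λ res ⟨u, hu⟩ ≠ 0) :
    s34galPU Λ res (s34galSd T T' u) := by
  obtain ⟨h1, h1r⟩ := hT u hu
  obtain ⟨h2, h2r⟩ := hT' (T u) h1
  obtain ⟨h3, h3r⟩ := hT' u hu
  set r := gaussRedO Λ res ⟨u, hu⟩ with hr
  have hnum : T' (T u) * u ∈ gaussO Λ res := (gaussO Λ res).mul_mem h2 hu
  have hden : T' u * T u ∈ gaussO Λ res := (gaussO Λ res).mul_mem h3 h1
  have hnumr : gaussRedO Λ res ⟨_, hnum⟩ = r * r := by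
    have : (⟨T' (T u) * u, hnum⟩ : ↥(gaussO Λ res)) = ⟨_, h2⟩ * ⟨u, hu⟩ := rfl
    rw [this, map_mul, h2r, h1r]
  have hdenr : gaussRedO Λ res ⟨_, hden⟩ = r * r := by
    have : (⟨T' u * T u, hden⟩ : ↥(gaussO Λ res)) = ⟨_, h3⟩ * ⟨_, h1⟩ := rfl
    rw [this, map_mul, h3r, h1r]
  have hrr : r * r ≠ 0 := mul_ne_zero hu0 hu0
  have hdeninv : (T' u * T u)⁻¹ ∈ gaussO Λ res := inv_mem_gaussO hden (by rw [hdenr]; exact hrr)
  have hden0 : T' u * T u ≠ 0 := by
    intro h0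
    apply hrr
    rw [← hdenr]
    have : (⟨T' u * T u, hden⟩ : ↥(gaussO Λ res)) = 0 := Subtype.ext h0
    rw [this, map_zero]
  have hmem : s34galSd T T' u ∈ gaussO Λ res := by
    unfold s34galSd
    rw [div_eq_mul_inv]
    exact (gaussO Λ res).mul_mem hnum hdeninv
  refine ⟨hmem, ?_⟩
  have hmul : (⟨s34galSd T T' u, hmem⟩ : ↥(gaussO Λ res)) * ⟨_, hden⟩ = ⟨_, hnum⟩ := by
    apply Subtype.ext
    show s34galSd T T' u * (T' u * T u) = T' (T u) * u
    unfold s34galSd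
    rw [div_mul_cancel₀ _ hden0]
  have h4 := congrArg (gaussRedO Λ res) hmul
  rw [map_mul, hdenr, hnumr] at h4
  exact mul_right_cancel₀ hrr (by rw [h4, one_mul])

end Abstract

section Inertia

variable (A : ValuationSubring Qb) {q : ℕ} [Fact q.Prime]
  (K : IntermediateField ℚ Qb) [FiniteDimensional ℚ ↥K] [Normal ℚ ↥K]

/-- The coefficientwise action of `σ ∈ Gal(ℚ̄/ℚ)` on `K((q))`, `K / ℚ` normal. -/
noncomputable def s34galT (σ : Qb ≃ₐ[ℚ] Qb) : LaurentSeries ↥K →+* LaurentSeries ↥K :=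
  coeffMap ((σ.restrictNormal ↥K : ↥K ≃ₐ[ℚ] ↥K) : ↥K →+* ↥K)

omit [FiniteDimensional ℚ ↥K] in
theorem s34galT_C (σ : Qb ≃ₐ[ℚ] Qb) (c : ↥K) :
    s34galT K σ (HahnSeries.C c) = HahnSeries.C (σ.restrictNormal ↥K c) := by
  unfold s34galT
  rw [coeffMap_C]
  rfl

omit [FiniteDimensional ℚ ↥K] in
/-- second differences of constants of `K` are principal units of `Λ`. -/
theorem s34gal_const_sd_lam {τ τ' : Qb ≃ₐ[ℚ] Qb}
    (hτ : τ ∈ A.inertiaSubgroupIn ℚ) (hτ' : τ' ∈ A.inertiaSubgroupIn ℚ) {c : ↥K} (hc : c ≠ 0) :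
    ∃ s : ↥(lam A K).toSubring,
      (s : ↥K) = τ'.restrictNormal ↥K (τ.restrictNormal ↥K c) * c /
        (τ'.restrictNormal ↥K c * τ.restrictNormal ↥K c) ∧ lamRes A K s = 1 := by
  set s : ↥K := τ'.restrictNormal ↥K (τ.restrictNormal ↥K c) * c /
        (τ'.restrictNormal ↥K c * τ.restrictNormal ↥K c) with hs
  have hc' : ((c : ↥K) : Qb) ≠ 0 := fun h => hc (Subtype.ext h)
  have hτc : τ ((c : ↥K) : Qb) ≠ 0 := by simpa using hc'
  have hτ'c : τ' ((c : ↥K) : Qb) ≠ 0 := by simpa using hc'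
  have hcoe : ((s : ↥K) : Qb) = τ' (τ (c : Qb) / (c : Qb)) / (τ (c : Qb) / (c : Qb)) := by
    have e1 : ∀ (σ : Qb ≃ₐ[ℚ] Qb) (y : ↥K), ((σ.restrictNormal ↥K y : ↥K) : Qb) = σ (y : Qb) :=
      fun σ y => AlgEquiv.restrictNormal_commutes σ ↥K y
    rw [hs]
    push_cast
    simp only [e1]
    rw [map_div₀]
    field_simp
  have hnon := s34gal_const_secondDiff A hτ hτ' hc'
  rw [← hcoe] at hnon
  have hsA : ((s : ↥K) : Qb) ∈ A := by
    have h1 : ((s : ↥K) : Qb) - 1 ∈ A := A.nonunits_subset hnon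
    have := A.add_mem _ _ h1 A.one_mem
    simpa using this
  have hsl : s ∈ lam A K := mem_lam_iff.mpr hsA
  refine ⟨⟨s, hsl⟩, rfl, ?_⟩
  have hsub : lamRes A K (⟨s, hsl⟩ - 1) = 0 := by
    rw [lamRes_eq_zero_iff]
    intro hunit
    have h2 : IsUnit (lamIncl A K (⟨s, hsl⟩ - 1)) := hunit.map (lamIncl A K)
    have h3 : ((lamIncl A K (⟨s, hsl⟩ - 1) : A) : Qb) = ((s : ↥K) : Qb) - 1 := by
      rw [coe_lamIncl]
      push_cast
      rfl
    have h4 : ((lamIncl A K (⟨s, hsl⟩ - 1) : A) : Qb) ∈ A.nonunits := by rw [h3]; exact hnon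
    rw [ValuationSubring.mem_nonunits_iff_exists_mem_maximalIdeal] at h4
    obtain ⟨ha, hmem⟩ := h4
    exact (IsLocalRing.mem_maximalIdeal _).mp hmem h2
  rw [map_sub, map_one, sub_eq_zero] at hsub
  exact hsub

/-- **G2 at `w_∞`.** Second differences under inertia are principal units of the Gauss ring. -/
theorem s34gal_sd_gaussK (hA : A.LiesOverPrime q) {ϖ : lam A K} (hϖ : Irreducible ϖ)
    {τ τ' : Qb ≃ₐ[ℚ] Qb}
    (hτ : τ ∈ A.inertiaSubgroupIn ℚ) (hτ' : τ' ∈ A.inertiaSubgroupIn ℚ)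
    {h : LaurentSeries ↥K} (hh : h ∈ gaussK (isGaussRing_lam hA hϖ)) (hh0 : h ≠ 0) :
    s34galPU (lam A K).toSubring (lamRes A K) (s34galSd (s34galT K τ) (s34galT K τ') h) := by
  have hΛ := isGaussRing_lam hA hϖ
  obtain ⟨n, u, hu, hu0, rfl⟩ := exists_zpow_mul_of_mem_gaussK hΛ hh hh0
  rw [s34galSd_mul, s34galSd_zpow]
  refine s34galPU_mul (s34galPU_zpow ?_ n) ?_
  · -- the constant
    have hϖ0 : (ϖ : ↥K) ≠ 0 := fun h0 => hϖ.ne_zero (Subtype.ext h0)
    obtain ⟨s, hs, hs1⟩ := s34gal_const_sd_lam A K hτ hτ' hϖ0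
    have hC : s34galSd (s34galT K τ) (s34galT K τ') (HahnSeries.C (ϖ : ↥K)) =
        coeffMap (lam A K).toSubring.subtype (HahnSeries.C s) := by
      unfold s34galSd
      rw [s34galT_C, s34galT_C, s34galT_C, coeffMap_C, ← map_mul, ← map_mul, ← map_div₀]
      congr 1
      exact hs.symm
    rw [hC]
    refine ⟨coeffMap_subtype_mem_gaussO _, ?_⟩
    rw [gaussRedO_coeffMap_subtype, coeffMap_C, hs1, map_one]
  · exact s34galSd_unit _ _ (fun x hx => s34gal_inertia_gaussO A K hτ hx)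
      (fun x hx => s34gal_inertia_gaussO A K hτ' hx) hu hu0

end Inertia

end Fermat.Agent.S34
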