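import Mathlib
import Fermat.Agent.S37.ALEmb
import Fermat.Agent.S18.GaussLFull

/-!
# P19 (S34), block KRON: definitions

Level `N = M * q` with `q ∤ M`, over a field `L` of characteristic `0` (a number field in the
application) with a Gauss ring `Λ ⊆ L` (`IsGaussRing Λ π res`, `res : Λ → k`, `char k = q`).

* `F_M = laurentBaseChange L (modularFunctionFieldFull M)`, `F_N` likewise (`S37` convention),
  `α = heckeAlphaBar L M q`, `β = heckeBetaBar L M q`;
* `kronW` : the Atkin–Lehner involution `W` of `F_N` (`W ∘ β = α`, `W ∘ α = β`, `W ∘ W = id`);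
* `V_M = GaussL.gaussV Λ res F_M`, `V_∞ = GaussL.gaussV Λ res F_N` (no new names);
* `kronO Λ res ι M q hcop = V_∞ ∩ W⁻¹ V_∞` (the semi-local ring of the two components), with its
  two reductions `kronRedInf` (`= gaussRed`) and `kronRedZero` (`= gaussRed ∘ W`).
-/

set_option autoImplicit false

namespace Fermat.Agent.S34

open ModularCurve AlgebraicCurve
open Fermat.Agent.S18

noncomputable section

section W

variable (L : Type*) [Field L] [Algebra ℚ L] (ι : L →+* ℂ) (M q : ℕ) [NeZero M] [NeZero q]
  (hcop : Nat.Coprime M q)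

/-- The Atkin–Lehner involution `W` of `F_{Mq}` (a choice; it is unique). -/
def kronW : ↥(laurentBaseChange L (modularFunctionFieldFull (M * q))) ≃ₐ[L]
    ↥(laurentBaseChange L (modularFunctionFieldFull (M * q))) :=
  Classical.choose (Fermat.Agent.S37.exists_alInvolution ι M q hcop)

theorem kronW_beta (g : ↥(laurentBaseChange L (modularFunctionFieldFull M))) :
    kronW L ι M q hcop (heckeBetaBar L M q g) = heckeAlphaBar L M q g :=
  (Classical.choose_spec (Fermat.Agent.S37.exists_alInvolution ι M q hcop)).1 g

theorem kronW_alpha (g : ↥(laurentBaseChange L (modularFunctionFieldFull M))) :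
    kronW L ι M q hcop (heckeAlphaBar L M q g) = heckeBetaBar L M q g :=
  (Classical.choose_spec (Fermat.Agent.S37.exists_alInvolution ι M q hcop)).2.1 g

theorem kronW_kronW (x : ↥(laurentBaseChange L (modularFunctionFieldFull (M * q)))) :
    kronW L ι M q hcop (kronW L ι M q hcop x) = x :=
  (Classical.choose_spec (Fermat.Agent.S37.exists_alInvolution ι M q hcop)).2.2 x

end W

section O

variable {L k : Type*} [Field L] [Algebra ℚ L] [Field k] (Λ : Subring L) (res : ↥Λ →+* k)
  (ι : L →+* ℂ) (M q : ℕ) [NeZero M] [NeZero q] (hcop : Nat.Coprime M q)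

/-- `𝒪 = V_∞ ∩ V_0`, `V_0 = W⁻¹ V_∞`: the elements of `F_{Mq}` integral at both Gauss valuations. -/
def kronO : Subring ↥(laurentBaseChange L (modularFunctionFieldFull (M * q))) :=
  (GaussL.gaussV Λ res (laurentBaseChange L (modularFunctionFieldFull (M * q)))).toSubring ⊓
    (GaussL.gaussV Λ res (laurentBaseChange L (modularFunctionFieldFull (M * q)))).toSubring.comap
      (kronW L ι M q hcop : ↥(laurentBaseChange L (modularFunctionFieldFull (M * q))) →+*
        ↥(laurentBaseChange L (modularFunctionFieldFull (M * q))))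

theorem mem_kronO_iff {z : ↥(laurentBaseChange L (modularFunctionFieldFull (M * q)))} :
    z ∈ kronO Λ res ι M q hcop ↔
      z ∈ GaussL.gaussV Λ res (laurentBaseChange L (modularFunctionFieldFull (M * q))) ∧
        kronW L ι M q hcop z ∈
          GaussL.gaussV Λ res (laurentBaseChange L (modularFunctionFieldFull (M * q))) :=
  Iff.rfl

theorem kronW_mem_kronO {z : ↥(laurentBaseChange L (modularFunctionFieldFull (M * q)))}
    (hz : z ∈ kronO Λ res ι M q hcop) : kronW L ι M q hcop z ∈ kronO Λ res ι M q hcop := by
  rw [mem_kronO_iff] at hz ⊢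
  exact ⟨hz.2, by rw [kronW_kronW]; exact hz.1⟩

/-- Reduction at `w_∞` (the Gauss valuation). -/
def kronRedInf : ↥(kronO Λ res ι M q hcop) →+* LaurentSeries k :=
  (GaussL.gaussRed Λ res (laurentBaseChange L (modularFunctionFieldFull (M * q)))).comp
    (Subring.inclusion (inf_le_left :
      kronO Λ res ι M q hcop ≤
        (GaussL.gaussV Λ res (laurentBaseChange L (modularFunctionFieldFull (M * q)))).toSubring))

/-- Reduction at `w_0 = w_∞ ∘ W`. -/
def kronRedZero : ↥(kronO Λ res ι M q hcop) →+* LaurentSeries k :=
  (GaussL.gaussRed Λ res (laurentBaseChange L (modularFunctionFieldFull (M * q)))).comp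
    (RingHom.codRestrict
      ((kronW L ι M q hcop : ↥(laurentBaseChange L (modularFunctionFieldFull (M * q))) →+*
        ↥(laurentBaseChange L (modularFunctionFieldFull (M * q)))).comp
          (kronO Λ res ι M q hcop).subtype)
      (GaussL.gaussV Λ res (laurentBaseChange L (modularFunctionFieldFull (M * q)))).toSubring
      (fun z => z.2.2))

theorem kronRedInf_apply (z : ↥(kronO Λ res ι M q hcop)) :
    kronRedInf Λ res ι M q hcop z =
      GaussL.gaussRed Λ res (laurentBaseChange L (modularFunctionFieldFull (M * q)))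
        ⟨(z : ↥(laurentBaseChange L (modularFunctionFieldFull (M * q)))), z.2.1⟩ := rfl

theorem kronRedZero_apply (z : ↥(kronO Λ res ι M q hcop)) :
    kronRedZero Λ res ι M q hcop z =
      GaussL.gaussRed Λ res (laurentBaseChange L (modularFunctionFieldFull (M * q)))
        ⟨kronW L ι M q hcop (z : ↥(laurentBaseChange L (modularFunctionFieldFull (M * q)))),
          z.2.2⟩ := rfl

end O

end

end Fermat.Agent.S34
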