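import Mathlib
import Fermat.Agent.S34.KronDefs
import Fermat.Agent.S42.RealDegen
import Fermat.Prelude.Def_ModularCurve_ArithmeticGalois
import Fermat.Prelude.Thm_ModularCurve_coeffMap_qExpand

/-!
# P19 (S34), block KRON, leaf WGAL: the Atkin–Lehner involution and the coefficientwise Galois action

* `kron_alpha_ringAut`, `kron_beta_ringAut` : the degeneracy maps `α`, `β` commute with the
  coefficientwise automorphisms `arithmeticRingAut σ`;
* `kron_alpha_jL` : `α j = j`;
* `kronW_ringAut` : the Atkin–Lehner involution `kronW` commutes with `arithmeticRingAut σ`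
  (for `q` prime: `F_{Mq}` is then generated by `α(F_M) ∪ β(F_M)`, on which `W` is determined by
  `kronW_alpha`, `kronW_beta`).
-/

set_option autoImplicit false

namespace Fermat.Agent.S34

open ModularCurve AlgebraicCurve

section KronWGal

variable {L : Type*} [Field L] [Algebra ℚ L] (ι : L →+* ℂ) (M q : ℕ) [NeZero M] [NeZero q]
  (hcop : Nat.Coprime M q)

/-- `α` commutes with the coefficientwise automorphisms. -/
theorem kron_alpha_ringAut (σ : L ≃ₐ[ℚ] L)
    (g : ↥(laurentBaseChange L (modularFunctionFieldFull M))) :
    heckeAlphaBar L M q (arithmeticRingAut (modularFunctionFieldFull M) σ g) =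
      arithmeticRingAut (modularFunctionFieldFull (M * q)) σ (heckeAlphaBar L M q g) := by
  apply Subtype.ext
  rw [coe_heckeAlphaBar, coe_arithmeticRingAut_apply, coe_arithmeticRingAut_apply,
    coe_heckeAlphaBar]

/-- `β` commutes with the coefficientwise automorphisms. -/
theorem kron_beta_ringAut (σ : L ≃ₐ[ℚ] L)
    (g : ↥(laurentBaseChange L (modularFunctionFieldFull M))) :
    heckeBetaBar L M q (arithmeticRingAut (modularFunctionFieldFull M) σ g) =
      arithmeticRingAut (modularFunctionFieldFull (M * q)) σ (heckeBetaBar L M q g) := by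
  apply Subtype.ext
  rw [coe_heckeBetaBar, coe_arithmeticRingAut_apply, coe_arithmeticRingAut_apply,
    coe_heckeBetaBar, coeffMap_qExpand]

/-- `α j = j`. -/
theorem kron_alpha_jL : heckeAlphaBar L M q (Fermat.Agent.S24.jL L M) =
    Fermat.Agent.S24.jL L (M * q) := by
  apply Subtype.ext
  rw [coe_heckeAlphaBar]
  rfl

/-- The Atkin–Lehner involution commutes with the coefficientwise automorphisms (`q` prime). -/
theorem kronW_ringAut (hq : q.Prime) (σ : L ≃ₐ[ℚ] L)
    (x : ↥(laurentBaseChange L (modularFunctionFieldFull (M * q)))) :
    kronW L ι M q hcop (arithmeticRingAut (modularFunctionFieldFull (M * q)) σ x) =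
      arithmeticRingAut (modularFunctionFieldFull (M * q)) σ (kronW L ι M q hcop x) := by
  have h : ((kronW L ι M q hcop : ↥(laurentBaseChange L (modularFunctionFieldFull (M * q))) →+*
        ↥(laurentBaseChange L (modularFunctionFieldFull (M * q))))).comp
        (arithmeticRingAut (modularFunctionFieldFull (M * q)) σ :
          ↥(laurentBaseChange L (modularFunctionFieldFull (M * q))) →+*
            ↥(laurentBaseChange L (modularFunctionFieldFull (M * q)))) =
      (arithmeticRingAut (modularFunctionFieldFull (M * q)) σ :
          ↥(laurentBaseChange L (modularFunctionFieldFull (M * q))) →+*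
            ↥(laurentBaseChange L (modularFunctionFieldFull (M * q)))).comp
        (kronW L ι M q hcop : ↥(laurentBaseChange L (modularFunctionFieldFull (M * q))) →+*
          ↥(laurentBaseChange L (modularFunctionFieldFull (M * q)))) := by
    refine Fermat.Agent.S24.FFL_ringHom_ext (M * q) L (fun c => ?_) (fun d hd => ?_)
    · show kronW L ι M q hcop (arithmeticRingAut (modularFunctionFieldFull (M * q)) σ
          (algebraMap L _ c)) =
        arithmeticRingAut (modularFunctionFieldFull (M * q)) σ
          (kronW L ι M q hcop (algebraMap L _ c))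
      rw [arithmeticRingAut_algebraMap, AlgEquiv.commutes, AlgEquiv.commutes,
        arithmeticRingAut_algebraMap]
    · show kronW L ι M q hcop (arithmeticRingAut (modularFunctionFieldFull (M * q)) σ
          (Fermat.Agent.S24.jdL (M * q) L d hd)) =
        arithmeticRingAut (modularFunctionFieldFull (M * q)) σ
          (kronW L ι M q hcop (Fermat.Agent.S24.jdL (M * q) L d hd))
      by_cases hqd : q ∣ d
      · obtain ⟨d', rfl⟩ := hqd
        have hd' : d' ∣ M := by
          rw [mul_comm M q] at hd
          exact Nat.dvd_of_mul_dvd_mul_left hq.pos hd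
        have e1 : Fermat.Agent.S24.jdL (M * q) L (q * d') hd =
            heckeBetaBar L M q (Fermat.Agent.S24.jdL M L d' hd') :=
          (Fermat.Agent.S42.RealDegen.heckeBetaBar_jdL M q L d' hd').symm
        rw [e1, ← kron_beta_ringAut, kronW_beta, kronW_beta, kron_alpha_ringAut]
      · have hd' : d ∣ M :=
          Nat.Coprime.dvd_of_dvd_mul_right
            (Nat.Coprime.symm ((Nat.Prime.coprime_iff_not_dvd hq).mpr hqd)) hd
        have e1 : Fermat.Agent.S24.jdL (M * q) L d hd =
            heckeAlphaBar L M q (Fermat.Agent.S24.jdL M L d hd') :=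
          (Fermat.Agent.S42.RealDegen.heckeAlphaBar_jdL M q L d hd').symm
        rw [e1, ← kron_alpha_ringAut, kronW_alpha, kronW_alpha, kron_beta_ringAut]
  exact RingHom.congr_fun h x

end KronWGal

end Fermat.Agent.S34
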