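import Mathlib
import Fermat.Agent.S34.KronDefs
import Fermat.Agent.S34.KronWGal
import Fermat.Agent.S34.GalSd
import Fermat.Agent.S18.Descent

/-!
# P19 (S34), block GAL, G2 in the two-component ring `𝒪 = V_∞ ∩ V_0`

Level `N = M * q`, `K ⊆ ℚ̄` a number field normal over `ℚ`, `Λ = A ∩ K`, `τ, τ'` in the inertia
group of `A`, acting on `F_{N,K}` coefficientwise through their restrictions to `K`.

`s34gal_sd_mem_kronO`: for every `h ≠ 0` in `F_{N,K}` the second difference
`sd h = τ'τ(h) · h / (τ'(h) · τ(h))` lies in `𝒪 = kronO` and reduces to `1` at both components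
(`kronRedInf`, `kronRedZero`).  This is (SD) of ABS-2 in KRON's language.
-/

set_option autoImplicit false
set_option linter.unusedSectionVars false

namespace Fermat.Agent.S34

open ModularCurve AlgebraicCurve IntermediateField

local notation "Qb" => AlgebraicClosure ℚ

open Fermat.Agent.S18 Fermat.Agent.S18.NumField Fermat.Agent.S18.GaussL
  Fermat.Agent.S28.FreeBasisAbs

section

variable (A : ValuationSubring Qb) {p : ℕ} [Fact p.Prime]
  (K : IntermediateField ℚ Qb) [FiniteDimensional ℚ ↥K] [Normal ℚ ↥K]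

omit [FiniteDimensional ℚ ↥K] in
/-- The series of the second difference in `F_{N,K}` is the second difference of the series. -/
theorem s34gal_coe_sd (F₀ : IntermediateField ℚ (LaurentSeries ℚ)) (τ τ' : Qb ≃ₐ[ℚ] Qb)
    (h : ↥(laurentBaseChange (↥K) F₀)) :
    ((arithmeticRingAut F₀ (τ'.restrictNormal ↥K) (arithmeticRingAut F₀ (τ.restrictNormal ↥K) h)
        * h / (arithmeticRingAut F₀ (τ'.restrictNormal ↥K) h *
          arithmeticRingAut F₀ (τ.restrictNormal ↥K) h) : ↥(laurentBaseChange (↥K) F₀)) :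
        LaurentSeries ↥K) =
      s34galSd (s34galT K τ) (s34galT K τ') (h : LaurentSeries ↥K) := rfl

/-- G2 at `w_∞` in `gaussV`-form, for any `F₀` contained in the fraction field of the Gauss
ring. -/
theorem s34gal_sd_mem_gaussV (hA : A.LiesOverPrime p) {ϖ : lam A K} (hϖ : Irreducible ϖ)
    (F₀ : IntermediateField ℚ (LaurentSeries ℚ))
    (hF₀ : laurentBaseChange (↥K) F₀ ≤ gaussK (isGaussRing_lam hA hϖ))
    {τ τ' : Qb ≃ₐ[ℚ] Qb} (hτ : τ ∈ A.inertiaSubgroupIn ℚ) (hτ' : τ' ∈ A.inertiaSubgroupIn ℚ)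
    {h : ↥(laurentBaseChange (↥K) F₀)} (hh : h ≠ 0) :
    ∃ hz : arithmeticRingAut F₀ (τ'.restrictNormal ↥K)
          (arithmeticRingAut F₀ (τ.restrictNormal ↥K) h) * h /
        (arithmeticRingAut F₀ (τ'.restrictNormal ↥K) h *
          arithmeticRingAut F₀ (τ.restrictNormal ↥K) h) ∈
        gaussV (lam A K).toSubring (lamRes A K) (laurentBaseChange (↥K) F₀),
      gaussRed (lam A K).toSubring (lamRes A K) (laurentBaseChange (↥K) F₀) ⟨_, hz⟩ = 1 := by
  have hh' : (h : LaurentSeries ↥K) ≠ 0 := fun h0 => hh (Subtype.ext h0)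
  obtain ⟨hmem, hred⟩ := s34gal_sd_gaussK A K hA hϖ hτ hτ' (hF₀ h.2) hh'
  rw [← s34gal_coe_sd K F₀ τ τ' h] at hmem
  refine ⟨(mem_gaussV_iff _ _).mpr hmem, ?_⟩
  rw [gaussRed_apply]
  exact hred

end

section AbstractW

/-- A ring homomorphism commuting with `T`, `T'` commutes with second differences. -/
theorem s34gal_map_sd {F G : Type*} [Field F] [FunLike G F F] [RingHomClass G F F]
    (T T' : F ≃+* F) (W : G)
    (hT : ∀ x, W (T x) = T (W x)) (hT' : ∀ x, W (T' x) = T' (W x)) (h : F) :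
    W (T' (T h) * h / (T' h * T h)) = T' (T (W h)) * W h / (T' (W h) * T (W h)) := by
  simp only [map_div₀, map_mul, hT, hT']

end AbstractW

section Kron

variable (A : ValuationSubring Qb) {q : ℕ} [Fact q.Prime]
  (K : IntermediateField ℚ Qb) [FiniteDimensional ℚ ↥K] [Normal ℚ ↥K]
  (ι : ↥K →+* ℂ) (M : ℕ) [NeZero M] [NeZero q] (hcop : Nat.Coprime M q)

/-- `F_{N,K}` lies in the fraction field of the Gauss ring. -/
theorem s34gal_full_le_gaussK (hA : A.LiesOverPrime q) {ϖ : lam A K} (hϖ : Irreducible ϖ)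
    (N : ℕ) [NeZero N] :
    laurentBaseChange (↥K) (modularFunctionFieldFull N) ≤ gaussK (isGaussRing_lam hA hϖ) := by
  rw [← Fermat.Agent.S18.Descent.fullC_eq_laurentBaseChange]
  exact full_le_gaussK (isGaussRing_lam hA hϖ) N

set_option maxHeartbeats 4000000 in
/-- **G2 = (SD) in `𝒪`.** Second differences under inertia lie in `𝒪 = V_∞ ∩ V_0` and reduce to
`1` on both components. -/
theorem s34gal_sd_mem_kronO (hA : A.LiesOverPrime q) {ϖ : lam A K} (hϖ : Irreducible ϖ)
    {τ τ' : Qb ≃ₐ[ℚ] Qb} (hτ : τ ∈ A.inertiaSubgroupIn ℚ) (hτ' : τ' ∈ A.inertiaSubgroupIn ℚ)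
    {h : ↥(laurentBaseChange (↥K) (modularFunctionFieldFull (M * q)))} (hh : h ≠ 0) :
    ∃ hz : arithmeticRingAut (modularFunctionFieldFull (M * q)) (τ'.restrictNormal ↥K)
          (arithmeticRingAut (modularFunctionFieldFull (M * q)) (τ.restrictNormal ↥K) h) * h /
        (arithmeticRingAut (modularFunctionFieldFull (M * q)) (τ'.restrictNormal ↥K) h *
          arithmeticRingAut (modularFunctionFieldFull (M * q)) (τ.restrictNormal ↥K) h) ∈
        kronO (lam A K).toSubring (lamRes A K) ι M q hcop,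
      kronRedInf (lam A K).toSubring (lamRes A K) ι M q hcop ⟨_, hz⟩ = 1 ∧
        kronRedZero (lam A K).toSubring (lamRes A K) ι M q hcop ⟨_, hz⟩ = 1 := by
  have hF := s34gal_full_le_gaussK A K hA hϖ (M * q)
  obtain ⟨h1, h1r⟩ := s34gal_sd_mem_gaussV A K hA hϖ (modularFunctionFieldFull (M * q)) hF
    hτ hτ' (h := h) hh
  have hWh : kronW (↥K) ι M q hcop h ≠ 0 :=
    (map_ne_zero_iff _ (kronW (↥K) ι M q hcop).injective).mpr hh
  have h2' := s34gal_sd_mem_gaussV A K hA hϖ (modularFunctionFieldFull (M * q)) hF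
    hτ hτ' (h := kronW (↥K) ι M q hcop h) hWh
  refine Exists.elim h2' fun h2 h2r => ?_
  have hW := s34gal_map_sd
    (arithmeticRingAut (modularFunctionFieldFull (M * q)) (τ.restrictNormal ↥K))
    (arithmeticRingAut (modularFunctionFieldFull (M * q)) (τ'.restrictNormal ↥K))
    (kronW (↥K) ι M q hcop)
    (fun x => kronW_ringAut ι M q hcop Fact.out (τ.restrictNormal ↥K) x)
    (fun x => kronW_ringAut ι M q hcop Fact.out (τ'.restrictNormal ↥K) x) h
  have hmemW : kronW (↥K) ι M q hcop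
      (arithmeticRingAut (modularFunctionFieldFull (M * q)) (τ'.restrictNormal ↥K)
          (arithmeticRingAut (modularFunctionFieldFull (M * q)) (τ.restrictNormal ↥K) h) * h /
        (arithmeticRingAut (modularFunctionFieldFull (M * q)) (τ'.restrictNormal ↥K) h *
          arithmeticRingAut (modularFunctionFieldFull (M * q)) (τ.restrictNormal ↥K) h)) ∈
      gaussV (lam A K).toSubring (lamRes A K)
        (laurentBaseChange (↥K) (modularFunctionFieldFull (M * q))) :=
    hW ▸ h2
  refine ⟨(mem_kronO_iff _ _ ι M q hcop).mpr ⟨h1, hmemW⟩, ?_, ?_⟩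
  · exact h1r
  · refine Eq.trans ?_ h2r
    exact congrArg (gaussRed (lam A K).toSubring (lamRes A K)
      (laurentBaseChange (↥K) (modularFunctionFieldFull (M * q)))) (Subtype.ext hW)

end Kron

end Fermat.Agent.S34
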