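import Mathlib
import Fermat.Agent.S34.KronDefs
import Fermat.Prelude.Def_ModularCurve_ArithmeticGalois

/-!
# P19 (S34), block KRON, leaf GALRED: coefficientwise automorphisms and the Gauss valuation

`L` a field of characteristic `0` with a Gauss ring `Λ ⊆ L` (`res : Λ → k`), `F₀` a subfield of
`ℚ((q))`, `𝔽 = laurentBaseChange L F₀`.  A field automorphism `σ` of `L` preserving `Λ` and
inducing `σbar` on `k` acts coefficientwise on `𝔽` (`arithmeticRingAut F₀ σ`):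

* series level: `s34kf_map_gaussO` (transport of `gaussO` along compatible ring endomorphisms),
  `s34kf_qExpand_gaussO` (`q ↦ q^n`), `s34kf_coeffMap_gaussO` (coefficientwise maps);
* `kron_ringAut_mem_gaussV`, `kron_gaussRed_ringAut`: `σ` preserves the Gauss valuation ring
  `gaussV` and commutes with the reduction `gaussRed`;
* `kron_ringAut_sub_mem`: if `σ` induces the identity on `k` (inertia), then
  `σ f - f ∈ π · gaussV` for every `f ∈ gaussV`.
-/

set_option autoImplicit false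

namespace Fermat.Agent.S34

open ModularCurve AlgebraicCurve
open Fermat.Agent.S18 Fermat.Agent.S28 Fermat.Agent.S28.FreeBasisAbs

section Series

variable {L k : Type*} [Field L] [Field k] {Λ : Subring L} {res : ↥Λ →+* k}

/-- Transport of the Gauss ring along a ring endomorphism `Φ` of `L((q))` which is induced by an
endomorphism `ΦΛ` of `Λ((q))` compatible with an endomorphism `Φk` of `k((q))`. -/
theorem s34kf_map_gaussO (Φ : LaurentSeries L →+* LaurentSeries L)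
    (ΦΛ : LaurentSeries ↥Λ →+* LaurentSeries ↥Λ) (Φk : LaurentSeries k →+* LaurentSeries k)
    (h1 : ∀ a, Φ (coeffMap Λ.subtype a) = coeffMap Λ.subtype (ΦΛ a))
    (h2 : ∀ a, coeffMap res (ΦΛ a) = Φk (coeffMap res a))
    {x : LaurentSeries L} (hx : x ∈ GaussL.gaussO Λ res) :
    ∃ h : Φ x ∈ GaussL.gaussO Λ res,
      GaussL.gaussRedO Λ res ⟨Φ x, h⟩ = Φk (GaussL.gaussRedO Λ res ⟨x, hx⟩) := by
  obtain ⟨a, b, hb, hab⟩ := hx
  have hb' : coeffMap res (ΦΛ b) ≠ 0 := by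
    rw [h2]
    exact (map_ne_zero Φk).mpr hb
  have hab' : Φ x * coeffMap Λ.subtype (ΦΛ b) = coeffMap Λ.subtype (ΦΛ a) := by
    rw [← h1, ← h1, ← map_mul, hab]
  have hmem : Φ x ∈ GaussL.gaussO Λ res := ⟨ΦΛ a, ΦΛ b, hb', hab'⟩
  refine ⟨hmem, ?_⟩
  have e1 := GaussL.gaussRedO_mul_eq (res := res) ⟨Φ x, hmem⟩ (ΦΛ a) (ΦΛ b) hab'
  have e2 := GaussL.gaussRedO_mul_eq (res := res) ⟨x, ⟨a, b, hb, hab⟩⟩ a b hab
  rw [h2, h2, ← e2, map_mul] at e1
  exact mul_right_cancel₀ ((map_ne_zero Φk).mpr hb) e1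

/-- `q ↦ q^n` preserves the Gauss ring and commutes with the reduction. -/
theorem s34kf_qExpand_gaussO (n : ℕ) [NeZero n] {x : LaurentSeries L}
    (hx : x ∈ GaussL.gaussO Λ res) :
    ∃ h : qExpand L n x ∈ GaussL.gaussO Λ res,
      GaussL.gaussRedO Λ res ⟨qExpand L n x, h⟩ =
        qExpand k n (GaussL.gaussRedO Λ res ⟨x, hx⟩) :=
  s34kf_map_gaussO (qExpand L n) (qExpand ↥Λ n) (qExpand k n)
    (fun a => (coeffMap_qExpand Λ.subtype n a).symm) (fun a => coeffMap_qExpand res n a) hx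

/-- A ring endomorphism `σ` of `L` preserving `Λ` and inducing `φ` on `k` acts on the Gauss ring,
compatibly with the reduction. -/
theorem s34kf_coeffMap_gaussO (σ : L →+* L) (hσ : ∀ a ∈ Λ, σ a ∈ Λ) (φ : k →+* k)
    (hres : ∀ a : ↥Λ, res ⟨σ a, hσ a a.2⟩ = φ (res a))
    {x : LaurentSeries L} (hx : x ∈ GaussL.gaussO Λ res) :
    ∃ h : coeffMap σ x ∈ GaussL.gaussO Λ res,
      GaussL.gaussRedO Λ res ⟨coeffMap σ x, h⟩ =
        coeffMap φ (GaussL.gaussRedO Λ res ⟨x, hx⟩) := by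
  let σΛ : ↥Λ →+* ↥Λ := (σ.comp Λ.subtype).codRestrict Λ (fun a => hσ a a.2)
  refine s34kf_map_gaussO (coeffMap σ) (coeffMap σΛ) (coeffMap φ) (fun a => ?_) (fun a => ?_) hx
  · rw [coeffMap_coeffMap, coeffMap_coeffMap]
    exact coeffMap_congr (RingHom.ext fun _ => rfl) a
  · rw [coeffMap_coeffMap, coeffMap_coeffMap]
    exact coeffMap_congr (RingHom.ext fun c => hres c) a

end Series

section GalRed

variable {L k : Type*} [Field L] [Algebra ℚ L] [Field k] {Λ : Subring L} {res : ↥Λ →+* k}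
  (F₀ : IntermediateField ℚ (LaurentSeries ℚ))

/-- A coefficientwise automorphism preserving `Λ` preserves the Gauss valuation ring. -/
theorem kron_ringAut_mem_gaussV (σ : L ≃ₐ[ℚ] L) (hσΛ : ∀ a ∈ Λ, σ a ∈ Λ)
    {f : ↥(laurentBaseChange L F₀)} (hf : f ∈ GaussL.gaussV Λ res (laurentBaseChange L F₀))
    (σbar : k →+* k) (hσ : ∀ a : ↥Λ, res ⟨σ a, hσΛ a a.2⟩ = σbar (res a)) :
    arithmeticRingAut F₀ σ f ∈ GaussL.gaussV Λ res (laurentBaseChange L F₀) :=
  (s34kf_coeffMap_gaussO (σ : L →+* L) hσΛ σbar hσ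
    ((GaussL.mem_gaussV_iff (laurentBaseChange L F₀) f).mp hf)).1

/-- ... and commutes with the reduction. -/
theorem kron_gaussRed_ringAut (σ : L ≃ₐ[ℚ] L) (hσΛ : ∀ a ∈ Λ, σ a ∈ Λ)
    {f : ↥(laurentBaseChange L F₀)} (hf : f ∈ GaussL.gaussV Λ res (laurentBaseChange L F₀))
    (σbar : k →+* k) (hσ : ∀ a : ↥Λ, res ⟨σ a, hσΛ a a.2⟩ = σbar (res a)) :
    GaussL.gaussRed Λ res (laurentBaseChange L F₀)
        ⟨arithmeticRingAut F₀ σ f, kron_ringAut_mem_gaussV F₀ σ hσΛ hf σbar hσ⟩ =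
      coeffMap σbar (GaussL.gaussRed Λ res (laurentBaseChange L F₀) ⟨f, hf⟩) :=
  (s34kf_coeffMap_gaussO (σ : L →+* L) hσΛ σbar hσ
    ((GaussL.mem_gaussV_iff (laurentBaseChange L F₀) f).mp hf)).2

/-- Inertia acts trivially on the residue field of the Gauss valuation: if `σ` induces the
identity on `k`, then `σ f - f ∈ π · gaussV` for `f ∈ gaussV`. -/
theorem kron_ringAut_sub_mem {π : L} (hΛ : IsGaussRing Λ π res)
    (σ : L ≃ₐ[ℚ] L) (hσΛ : ∀ a ∈ Λ, σ a ∈ Λ)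
    (hσ : ∀ a : ↥Λ, res ⟨σ a, hσΛ a a.2⟩ = res a)
    {f : ↥(laurentBaseChange L F₀)} (hf : f ∈ GaussL.gaussV Λ res (laurentBaseChange L F₀)) :
    ∃ g ∈ GaussL.gaussV Λ res (laurentBaseChange L F₀),
      arithmeticRingAut F₀ σ f - f = algebraMap L ↥(laurentBaseChange L F₀) π * g := by
  have hmem := kron_ringAut_mem_gaussV F₀ σ hσΛ hf (RingHom.id k) (fun a => hσ a)
  have hred := kron_gaussRed_ringAut F₀ σ hσΛ hf (RingHom.id k) (fun a => hσ a)
  rw [coeffMap_id] at hred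
  have hsub : arithmeticRingAut F₀ σ f - f ∈ GaussL.gaussV Λ res (laurentBaseChange L F₀) :=
    sub_mem hmem hf
  have h0 : GaussL.gaussRed Λ res (laurentBaseChange L F₀)
      ⟨arithmeticRingAut F₀ σ f - f, hsub⟩ = 0 := by
    have e : (⟨arithmeticRingAut F₀ σ f - f, hsub⟩ :
        ↥(GaussL.gaussV Λ res (laurentBaseChange L F₀))) =
        ⟨arithmeticRingAut F₀ σ f, hmem⟩ - ⟨f, hf⟩ := rfl
    rw [e, map_sub, hred, sub_self]
  obtain ⟨y, hy⟩ := (GaussL.gaussRed_eq_zero_iff (laurentBaseChange L F₀) hΛ _).mp h0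
  exact ⟨y, y.2, hy⟩

end GalRed

end Fermat.Agent.S34
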