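import Mathlib
import Fermat.Agent.S34.KronDefs
import Fermat.Agent.S34.KronGalRed
import Fermat.Agent.S34.KronWGal

/-!
# P19 (S34), block KRON, leaf GALO: Galois and the two reductions

A coefficientwise automorphism `σ` of `L` which preserves `Λ` and induces `σbar` on the residue
field preserves `𝒪 = V_∞ ∩ V_0` and commutes with both reductions `kronRedInf`, `kronRedZero`
(up to `coeffMap σbar`).  Pure assembly of GALRED (`kron_ringAut_mem_gaussV`,
`kron_gaussRed_ringAut`) and WGAL (`kronW_ringAut`, which needs `hq : q.Prime`; the hypothesis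
sits right after `hcop`, as in `S34/KronWGal.lean`).
-/

set_option autoImplicit false

namespace Fermat.Agent.S34

open ModularCurve AlgebraicCurve
open Fermat.Agent.S18 Fermat.Agent.S28 Fermat.Agent.S28.FreeBasisAbs

section Kron
variable {L k : Type*} [Field L] [Algebra ℚ L] [Field k] {Λ : Subring L} {π : L}
  {res : ↥Λ →+* k} (ι : L →+* ℂ) (M q : ℕ) [NeZero M] [NeZero q] (hcop : Nat.Coprime M q)

theorem kronO_ringAut_mem (hq : q.Prime) (σ : L ≃ₐ[ℚ] L) (hσΛ : ∀ a ∈ Λ, σ a ∈ Λ)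
    (σbar : k →+* k) (hσ : ∀ a : ↥Λ, res ⟨σ a, hσΛ a a.2⟩ = σbar (res a))
    {z : ↥(laurentBaseChange L (modularFunctionFieldFull (M * q)))}
    (hz : z ∈ kronO Λ res ι M q hcop) :
    arithmeticRingAut (modularFunctionFieldFull (M * q)) σ z ∈ kronO Λ res ι M q hcop := by
  rw [mem_kronO_iff] at hz ⊢
  refine ⟨kron_ringAut_mem_gaussV (modularFunctionFieldFull (M * q)) σ hσΛ hz.1 σbar hσ, ?_⟩
  rw [kronW_ringAut ι M q hcop hq]
  exact kron_ringAut_mem_gaussV (modularFunctionFieldFull (M * q)) σ hσΛ hz.2 σbar hσ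

theorem kronRedInf_ringAut (hq : q.Prime) (σ : L ≃ₐ[ℚ] L) (hσΛ : ∀ a ∈ Λ, σ a ∈ Λ)
    (σbar : k →+* k) (hσ : ∀ a : ↥Λ, res ⟨σ a, hσΛ a a.2⟩ = σbar (res a))
    {z : ↥(laurentBaseChange L (modularFunctionFieldFull (M * q)))}
    (hz : z ∈ kronO Λ res ι M q hcop) :
    kronRedInf Λ res ι M q hcop ⟨_, kronO_ringAut_mem ι M q hcop hq σ hσΛ σbar hσ hz⟩ =
      coeffMap σbar (kronRedInf Λ res ι M q hcop ⟨z, hz⟩) := by
  rw [kronRedInf_apply, kronRedInf_apply]
  exact kron_gaussRed_ringAut (modularFunctionFieldFull (M * q)) σ hσΛ hz.1 σbar hσ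

theorem kronRedZero_ringAut (hq : q.Prime) (σ : L ≃ₐ[ℚ] L) (hσΛ : ∀ a ∈ Λ, σ a ∈ Λ)
    (σbar : k →+* k) (hσ : ∀ a : ↥Λ, res ⟨σ a, hσΛ a a.2⟩ = σbar (res a))
    {z : ↥(laurentBaseChange L (modularFunctionFieldFull (M * q)))}
    (hz : z ∈ kronO Λ res ι M q hcop) :
    kronRedZero Λ res ι M q hcop ⟨_, kronO_ringAut_mem ι M q hcop hq σ hσΛ σbar hσ hz⟩ =
      coeffMap σbar (kronRedZero Λ res ι M q hcop ⟨z, hz⟩) := by
  have h := kron_gaussRed_ringAut (modularFunctionFieldFull (M * q)) σ hσΛ hz.2 σbar hσ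
  rw [kronRedZero_apply, kronRedZero_apply]
  refine Eq.trans ?_ h
  congr 1
  exact Subtype.ext (kronW_ringAut ι M q hcop hq σ z)

end Kron

end Fermat.Agent.S34
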