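import Fermat.Agent.S37.ALEmb

/-!
# P19 (S34), block KRON: degrees of the modular function fields over arbitrary fields of
characteristic zero (in particular over number fields)

`S37/ALEmb.lean` computes `[F_{Nℓ} : F_N] = ℓ + 1` only over algebraically closed fields.  Here
the same statements are proved over every field `K` of characteristic zero:

* `s34deg_relfinrank_full_eq_psi` : `[F_M : K(j)] = ψ(M)`;
* `s34deg_relfinrank_fullC` : `[F_{Nℓ} : F_N] = ℓ + 1` (`ℓ` prime, `ℓ ∤ N`);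
* `s34deg_finrankAlong_alpha`, `s34deg_finrankAlong_beta` : the degrees of the two degeneracy
  maps `α, β : F_N → F_{Nℓ}`;
* `s34deg_exists_linearCombination_alpha` / `_beta` : any `ℓ + 2` elements of `F_{Nℓ}` are
  linearly dependent over `α(F_N)` (resp. `β(F_N)`), in the elementwise shape used by
  `S34/TwoValK.lean`.
-/

set_option autoImplicit false

namespace Fermat.Agent.S34

open ModularCurve AlgebraicCurve IntermediateField

/-- Monomials in the `j(q^d)`, `d ∣ M`, lie in `F_M`. -/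
theorem s34deg_closure_le_full (K : Type*) [Field K] (M : ℕ) [NeZero M] {x : LaurentSeries K}
    (hx : x ∈ Submonoid.closure (divisorExpansionsC K M)) : x ∈ modularFunctionFieldFullC K M := by
  induction hx using Submonoid.closure_induction with
  | mem x hx => exact IntermediateField.subset_adjoin K _ hx
  | one => exact one_mem _
  | mul x y _ _ hx hy => exact mul_mem hx hy

/-- `[F_M : K(j)] = ψ(M)` over every field of characteristic zero. -/
theorem s34deg_relfinrank_full_eq_psi (K : Type*) [Field K] [CharZero K] (M : ℕ) [NeZero M] :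
    (Fermat.Agent.S28.Kj K).relfinrank (modularFunctionFieldFullC K M) =
      dedekindPsi M := by
  refine le_antisymm (Fermat.Agent.S18.Char0DegK.relfinrank_full_le_psi K M) ?_
  obtain ⟨b, hb, hli⟩ := Fermat.Agent.S28.exists_linearIndependent_monomials K M
    (Nat.cast_ne_zero.mpr (NeZero.ne M))
  have hmem : ∀ i, b i ∈ modularFunctionFieldFullC K M := fun i =>
    s34deg_closure_le_full K M (hb i)
  rw [relfinrank_eq_finrank_of_le (Fermat.Agent.S28.Tower.Kj_le_full K M)]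
  have := Fermat.Agent.S18.Char0DegK.finiteDimensional_full K M
  let g : ↥(extendScalars (Fermat.Agent.S28.Tower.Kj_le_full K M)) →ₗ[↥(Fermat.Agent.S28.Kj K)]
      LaurentSeries K :=
    { toFun := fun x => x.1
      map_add' := fun _ _ => rfl
      map_smul' := fun _ _ => rfl }
  have hli' : LinearIndependent ↥(Fermat.Agent.S28.Kj K)
      (fun i => (⟨b i, hmem i⟩ : ↥(extendScalars (Fermat.Agent.S28.Tower.Kj_le_full K M)))) := by
    refine LinearIndependent.of_comp g ?_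
    exact hli
  have h := hli'.fintype_card_le_finrank
  rwa [Fintype.card_fin] at h

/-- `[F_{Nℓ} : F_N] = ℓ + 1` over every field of characteristic zero. -/
theorem s34deg_relfinrank_fullC (K : Type*) [Field K] [CharZero K] (N ℓ : ℕ) [NeZero N]
    [NeZero ℓ] (hℓ : ℓ.Prime) (hN : ¬ ℓ ∣ N) :
    (modularFunctionFieldFullC K N).relfinrank (modularFunctionFieldFullC K (N * ℓ)) = ℓ + 1 := by
  have h1 := Fermat.Agent.S28.Tower.Kj_le_full K N
  have h2 : modularFunctionFieldFullC K N ≤ modularFunctionFieldFullC K (N * ℓ) :=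
    Fermat.Agent.S28.Tower.full_dvd_le K (Dvd.intro ℓ rfl)
  have h3 := IntermediateField.relfinrank_mul_relfinrank h1 h2
  have hpos := Fermat.Agent.S18.Char0DegK.relfinrank_full_pos_of_charZero K N
  rw [s34deg_relfinrank_full_eq_psi K N] at h3 hpos
  rw [s34deg_relfinrank_full_eq_psi K (N * ℓ),
    Fermat.Agent.S24.ci_psi_mul_of_not_dvd hℓ (NeZero.ne N) hN] at h3
  exact Nat.eq_of_mul_eq_mul_left hpos (by rw [h3, mul_comm])

section Along

variable (L : Type*) [Field L] [Algebra ℚ L]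

/-- `[F_{Nℓ} : α F_N] = ℓ + 1` for a prime `ℓ ∤ N`, over every field containing `ℚ`. -/
theorem s34deg_finrankAlong_alpha (N ℓ : ℕ) [NeZero N] [NeZero ℓ] (hℓ : ℓ.Prime)
    (hN : ¬ ℓ ∣ N) : finrankAlong L (heckeAlphaBar L N ℓ) = ℓ + 1 := by
  have : CharZero L := algebraRat.charZero L
  have hle : laurentBaseChange L (modularFunctionFieldFull N) ≤
      laurentBaseChange L (modularFunctionFieldFull (N * ℓ)) := by
    rw [Fermat.Agent.S37.ALEmb.baseChange_eq_fullC, Fermat.Agent.S37.ALEmb.baseChange_eq_fullC]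
    exact Fermat.Agent.S28.Tower.full_dvd_le L (Dvd.intro ℓ rfl)
  have h := Fermat.Agent.S37.ALEmb.finrank_inclusion hle
  have h2 : (laurentBaseChange L (modularFunctionFieldFull N)).relfinrank
      (laurentBaseChange L (modularFunctionFieldFull (N * ℓ))) = ℓ + 1 := by
    rw [Fermat.Agent.S37.ALEmb.baseChange_eq_fullC, Fermat.Agent.S37.ALEmb.baseChange_eq_fullC]
    exact s34deg_relfinrank_fullC L N ℓ hℓ hN
  rw [h2] at h
  exact h

/-- `[F_{Nℓ} : β F_N] = ℓ + 1` for a prime `ℓ ∤ N`, over every subfield of `ℂ`. -/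
theorem s34deg_finrankAlong_beta (ι : L →+* ℂ) (N ℓ : ℕ) [NeZero N] [NeZero ℓ] (hℓ : ℓ.Prime)
    (hN : ¬ ℓ ∣ N) : finrankAlong L (heckeBetaBar L N ℓ) = ℓ + 1 := by
  have hcop : Nat.Coprime N ℓ := ((Nat.Prime.coprime_iff_not_dvd hℓ).mpr hN).symm
  obtain ⟨w, hβ, -, -⟩ := Fermat.Agent.S37.exists_alInvolution ι N ℓ hcop
  rw [← s34deg_finrankAlong_alpha L N ℓ hℓ hN]
  exact @Algebra.finrank_eq_of_equiv_equiv _ _ _ _ (algebraAlong (heckeBetaBar L N ℓ)) _ _ _ _
    (algebraAlong (heckeAlphaBar L N ℓ)) (RingEquiv.refl _) w.toRingEquiv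
    (RingHom.ext fun g => (hβ g).symm)

end Along

/-- In a field extension `φ : E → F` of degree `d`, any `n > d` elements of `F` are linearly
dependent with coefficients in the image of `E` (elementwise form). -/
theorem s34deg_exists_dependence {E F : Type*} [Field E] [Field F] (φ : E →+* F) (d : ℕ)
    (hd : @Module.finrank E F _ _ φ.toAlgebra.toModule = d) (hpos : 0 < d) (n : ℕ) (hn : d < n)
    (s : Fin n → F) :
    ∃ c : Fin n → F, (∀ i, c i ∈ Set.range φ) ∧ (∃ i, c i ≠ 0) ∧ ∑ i, c i * s i = 0 := by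
  let _ := φ.toAlgebra
  have hfin : Module.Finite E F := Module.finite_of_finrank_pos (by rw [hd]; exact hpos)
  have hnli : ¬ LinearIndependent E s := by
    intro hli
    have h := hli.fintype_card_le_finrank
    rw [Fintype.card_fin, hd] at h
    omega
  rw [Fintype.not_linearIndependent_iff] at hnli
  obtain ⟨g, hg, i, hi⟩ := hnli
  refine ⟨fun i => φ (g i), fun i => ⟨g i, rfl⟩, ⟨i, ?_⟩, ?_⟩
  · exact (map_ne_zero φ).mpr hi
  · rw [← hg]
    exact Finset.sum_congr rfl fun i _ => rfl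

section Dependence

variable (L : Type*) [Field L] [Algebra ℚ L]

/-- Any `n > ℓ + 1` elements of `F_{Nℓ}` are linearly dependent over `α(F_N)`. -/
theorem s34deg_exists_dependence_alpha (N ℓ : ℕ) [NeZero N] [NeZero ℓ] (hℓ : ℓ.Prime)
    (hN : ¬ ℓ ∣ N) (n : ℕ) (hn : ℓ + 1 < n)
    (s : Fin n → ↥(laurentBaseChange L (modularFunctionFieldFull (N * ℓ)))) :
    ∃ c : Fin n → ↥(laurentBaseChange L (modularFunctionFieldFull (N * ℓ))),
      (∀ i, c i ∈ Set.range (heckeAlphaBar L N ℓ)) ∧ (∃ i, c i ≠ 0) ∧ ∑ i, c i * s i = 0 :=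
  s34deg_exists_dependence (heckeAlphaBar L N ℓ).toRingHom (ℓ + 1)
    (s34deg_finrankAlong_alpha L N ℓ hℓ hN) (Nat.succ_pos ℓ) n hn s

/-- Any `n > ℓ + 1` elements of `F_{Nℓ}` are linearly dependent over `β(F_N)`. -/
theorem s34deg_exists_dependence_beta (ι : L →+* ℂ) (N ℓ : ℕ) [NeZero N] [NeZero ℓ]
    (hℓ : ℓ.Prime) (hN : ¬ ℓ ∣ N) (n : ℕ) (hn : ℓ + 1 < n)
    (s : Fin n → ↥(laurentBaseChange L (modularFunctionFieldFull (N * ℓ)))) :
    ∃ c : Fin n → ↥(laurentBaseChange L (modularFunctionFieldFull (N * ℓ))),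
      (∀ i, c i ∈ Set.range (heckeBetaBar L N ℓ)) ∧ (∃ i, c i ≠ 0) ∧ ∑ i, c i * s i = 0 :=
  s34deg_exists_dependence (heckeBetaBar L N ℓ).toRingHom (ℓ + 1)
    (s34deg_finrankAlong_beta L ι N ℓ hℓ hN) (Nat.succ_pos ℓ) n hn s

/-- The shape consumed by `S34/TwoValK.lean` (`d₁ = 1`, `d₂ = ℓ`, `E = α(F_N)` as a subfield). -/
theorem s34deg_hdim (N ℓ : ℕ) [NeZero N] [NeZero ℓ] (hℓ : ℓ.Prime) (hN : ¬ ℓ ∣ N) :
    ∀ s : Fin (1 + ℓ + 1) → ↥(laurentBaseChange L (modularFunctionFieldFull (N * ℓ))),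
      ∃ c : Fin (1 + ℓ + 1) → ↥(laurentBaseChange L (modularFunctionFieldFull (N * ℓ))),
        (∀ i, c i ∈ (heckeAlphaBar L N ℓ).fieldRange.toSubfield) ∧ (∃ i, c i ≠ 0) ∧
          ∑ i, c i * s i = 0 := by
  intro s
  obtain ⟨c, hc, hne, hsum⟩ := s34deg_exists_dependence_alpha L N ℓ hℓ hN (1 + ℓ + 1) (by omega) s
  exact ⟨c, fun i => hc i, hne, hsum⟩

end Dependence

/-- The same in the `modularFunctionFieldFullC` convention: any `n > ℓ + 1` elements of
`F_{Nℓ}(K)` are linearly dependent over `F_N(K)`. -/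
theorem s34deg_exists_dependence_fullC (K : Type*) [Field K] [CharZero K] (N ℓ : ℕ) [NeZero N]
    [NeZero ℓ] (hℓ : ℓ.Prime) (hN : ¬ ℓ ∣ N) (n : ℕ) (hn : ℓ + 1 < n)
    (s : Fin n → ↥(modularFunctionFieldFullC K (N * ℓ))) :
    ∃ c : Fin n → ↥(modularFunctionFieldFullC K (N * ℓ)),
      (∀ i, (c i : LaurentSeries K) ∈ modularFunctionFieldFullC K N) ∧ (∃ i, c i ≠ 0) ∧
        ∑ i, c i * s i = 0 := by
  have hle : modularFunctionFieldFullC K N ≤ modularFunctionFieldFullC K (N * ℓ) :=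
    Fermat.Agent.S28.Tower.full_dvd_le K (Dvd.intro ℓ rfl)
  have h := Fermat.Agent.S37.ALEmb.finrank_inclusion hle
  rw [s34deg_relfinrank_fullC K N ℓ hℓ hN] at h
  obtain ⟨c, hc, hne, hsum⟩ := s34deg_exists_dependence
    (IntermediateField.inclusion hle).toRingHom (ℓ + 1) h (Nat.succ_pos ℓ) n hn s
  refine ⟨c, fun i => ?_, hne, hsum⟩
  obtain ⟨a, ha⟩ := hc i
  rw [← ha]
  exact a.2

/-- `fullC` convention, `Fin (1 + ℓ + 1)` shape. -/
theorem s34deg_hdim_fullC (K : Type*) [Field K] [CharZero K] (N ℓ : ℕ) [NeZero N]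
    [NeZero ℓ] (hℓ : ℓ.Prime) (hN : ¬ ℓ ∣ N) :
    ∀ s : Fin (1 + ℓ + 1) → ↥(modularFunctionFieldFullC K (N * ℓ)),
      ∃ c : Fin (1 + ℓ + 1) → ↥(modularFunctionFieldFullC K (N * ℓ)),
        (∀ i, (c i : LaurentSeries K) ∈ modularFunctionFieldFullC K N) ∧ (∃ i, c i ≠ 0) ∧
          ∑ i, c i * s i = 0 :=
  fun s => s34deg_exists_dependence_fullC K N ℓ hℓ hN (1 + ℓ + 1) (by omega) s

end Fermat.Agent.S34
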