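import Mathlib

/-!
# P19 (S34), block KRON, abstract part: two valuations above a Gauss valuation

`F` a field, `E` a subfield, `V ⊆ F` a subring playing the role of a discrete valuation ring of
`E` with uniformiser `π` (every nonzero element of `E` is `π ^ k * u`, `u` a unit of `V`).
`O₁ ≠ O₂` are valuation rings of `F` containing `V`, in both of which `π` generates the maximal
ideal, and which are `π`-adically archimedean.  If there are `d₁` elements of `O₁` and `d₂`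
elements of `O₂` which are residually independent over `V / π`, and `F` has dimension at most
`d₁ + d₂` over `E`, then

* `s34k2_exists_basis` : `O₁ ∩ O₂` is a free `V`-module on `d₁ + d₂` generators (coefficient
  form);
* `s34k2_isIntegral` : every element of `O₁ ∩ O₂` is integral over `V`;
* `s34k2_isIntegral_iff` : the integral closure of `V` in `F` is exactly `O₁ ∩ O₂` (so there is
  no third valuation of `F` above `V`, and `π (O₁ ∩ O₂) = π O₁ ∩ π O₂`: "Lemma K").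

Everything is stated inside `F` (no algebra instances are needed to apply it); the dimension
hypothesis is the instance-free statement "any `n + 1` elements of `F` are `E`-dependent".
-/

set_option autoImplicit false

namespace Fermat.Agent.S34

section TwoValK

variable {F : Type*} [Field F]

/-- `1 + y` is a unit of `O` when `y ∈ π O`. -/
theorem s34k2_one_add_inv_mem (O : ValuationSubring F) (π : F) (hπ : π⁻¹ ∉ O)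
    (hu : ∀ z ∈ O, z⁻¹ ∉ O → π⁻¹ * z ∈ O) {y : F} (hy : π⁻¹ * y ∈ O) (hy' : y ∈ O) :
    (1 + y)⁻¹ ∈ O := by
  by_contra h
  have h1 : π⁻¹ * (1 + y) ∈ O := hu _ (O.add_mem _ _ O.one_mem hy') h
  have h2 : π⁻¹ = π⁻¹ * (1 + y) - π⁻¹ * y := by ring
  exact hπ (h2 ▸ O.toSubring.sub_mem h1 hy)

/-- Two distinct such valuation rings are incomparable. -/
theorem s34k2_exists_not_mem (O₁ O₂ : ValuationSubring F) (π : F) (hπ2 : π⁻¹ ∉ O₂)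
    (hu1 : ∀ z ∈ O₁, z⁻¹ ∉ O₁ → π⁻¹ * z ∈ O₁) (hne : O₁ ≠ O₂) :
    ∃ u, u ∈ O₁ ∧ u ∉ O₂ := by
  by_contra hcon
  push Not at hcon
  apply hne
  refine le_antisymm (fun z hz => hcon z hz) (fun z hz => ?_)
  by_contra hz1
  have hz0 : z ≠ 0 := fun h => hz1 (h ▸ O₁.zero_mem)
  have h1 : z⁻¹ ∈ O₁ := (O₁.mem_or_inv_mem z).resolve_left hz1
  have h2 : π⁻¹ * z⁻¹ ∈ O₁ := hu1 _ h1 (by rwa [inv_inv])
  have h3 : π⁻¹ * z⁻¹ * z ∈ O₂ := O₂.mul_mem _ _ (hcon _ h2) hz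
  rw [mul_assoc, inv_mul_cancel₀ hz0, mul_one] at h3
  exact hπ2 h3

/-- The separating element: `e ≡ 1` modulo `π O₁` and `e ≡ 0` modulo `π O₂`. -/
theorem s34k2_exists_sep (O₁ O₂ : ValuationSubring F) (π : F)
    (hπ1 : π⁻¹ ∉ O₁) (hπ2 : π⁻¹ ∉ O₂)
    (hu1 : ∀ z ∈ O₁, z⁻¹ ∉ O₁ → π⁻¹ * z ∈ O₁) (hu2 : ∀ z ∈ O₂, z⁻¹ ∉ O₂ → π⁻¹ * z ∈ O₂)
    (hne : O₁ ≠ O₂) :
    ∃ e : F, e ∈ O₁ ∧ π⁻¹ * (e - 1) ∈ O₁ ∧ π⁻¹ * e ∈ O₂ ∧ e ∈ O₂ := by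
  obtain ⟨u, hu, hu'⟩ := s34k2_exists_not_mem O₁ O₂ π hπ2 hu1 hne
  obtain ⟨v, hv, hv'⟩ := s34k2_exists_not_mem O₂ O₁ π hπ1 hu2 (Ne.symm hne)
  have hu0 : u ≠ 0 := fun h => hu' (h ▸ O₂.zero_mem)
  have hv0 : v ≠ 0 := fun h => hv' (h ▸ O₁.zero_mem)
  have hvi : v⁻¹ ∈ O₁ := (O₁.mem_or_inv_mem v).resolve_left hv'
  have hui : u⁻¹ ∈ O₂ := (O₂.mem_or_inv_mem u).resolve_left hu'
  have hvπ : π⁻¹ * v⁻¹ ∈ O₁ := hu1 _ hvi (by rwa [inv_inv])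
  have huπ : π⁻¹ * u⁻¹ ∈ O₂ := hu2 _ hui (by rwa [inv_inv])
  -- `x = u / v`
  have hx1 : π⁻¹ * (u * v⁻¹) ∈ O₁ := by
    have : π⁻¹ * (u * v⁻¹) = u * (π⁻¹ * v⁻¹) := by ring
    rw [this]; exact O₁.mul_mem _ _ hu hvπ
  have hx1' : u * v⁻¹ ∈ O₁ := O₁.mul_mem _ _ hu hvi
  have hy2 : π⁻¹ * (v * u⁻¹) ∈ O₂ := by
    have : π⁻¹ * (v * u⁻¹) = v * (π⁻¹ * u⁻¹) := by ring
    rw [this]; exact O₂.mul_mem _ _ hv huπ
  have hy2' : v * u⁻¹ ∈ O₂ := O₂.mul_mem _ _ hv hui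
  have ha1 : (1 + u * v⁻¹)⁻¹ ∈ O₁ := s34k2_one_add_inv_mem O₁ π hπ1 hu1 hx1 hx1'
  have hb2 : (1 + v * u⁻¹)⁻¹ ∈ O₂ := s34k2_one_add_inv_mem O₂ π hπ2 hu2 hy2 hy2'
  have hne1 : 1 + u * v⁻¹ ≠ 0 := by
    intro h
    have h1 : u * v⁻¹ = -1 := by linear_combination h
    rw [h1] at hx1
    have h2 : π⁻¹ = -(π⁻¹ * -1) := by ring
    exact hπ1 (h2 ▸ O₁.toSubring.neg_mem hx1)
  have hne2 : 1 + v * u⁻¹ ≠ 0 := by
    intro h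
    have h1 : v * u⁻¹ = -1 := by linear_combination h
    rw [h1] at hy2
    have h2 : π⁻¹ = -(π⁻¹ * -1) := by ring
    exact hπ2 (h2 ▸ O₂.toSubring.neg_mem hy2)
  have hxy : u * v⁻¹ * (v * u⁻¹) = 1 := by
    field_simp
  have hw1 : (1 + u * v⁻¹)⁻¹ * (1 + u * v⁻¹) = 1 := inv_mul_cancel₀ hne1
  have hw2 : (1 + v * u⁻¹) * (1 + v * u⁻¹)⁻¹ = 1 := mul_inv_cancel₀ hne2
  have hkey : (1 + u * v⁻¹)⁻¹ = (v * u⁻¹) * (1 + v * u⁻¹)⁻¹ := by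
    symm
    apply eq_inv_of_mul_eq_one_right
    linear_combination hw2 + (1 + v * u⁻¹)⁻¹ * hxy
  refine ⟨(1 + u * v⁻¹)⁻¹, ha1, ?_, ?_, ?_⟩
  · have h1 : π⁻¹ * ((1 + u * v⁻¹)⁻¹ - 1) = -(π⁻¹ * (u * v⁻¹) * (1 + u * v⁻¹)⁻¹) := by
      linear_combination π⁻¹ * hw1
    rw [h1]
    exact O₁.toSubring.neg_mem (O₁.mul_mem _ _ hx1 ha1)
  · have h1 : π⁻¹ * (1 + u * v⁻¹)⁻¹ = π⁻¹ * (v * u⁻¹) * (1 + v * u⁻¹)⁻¹ := by
      rw [hkey]; ring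
    rw [h1]
    exact O₂.mul_mem _ _ hy2 hb2
  · rw [hkey]
    exact O₂.mul_mem _ _ hy2' hb2

/-- Lifting a residue class of `O₁` to `O₁ ∩ π O₂`. -/
theorem s34k2_exists_lift (O₁ O₂ : ValuationSubring F) (π : F) (hπ0 : π ≠ 0)
    (ha2 : ∀ z : F, ∃ k : ℕ, π ^ k * z ∈ O₂)
    {e : F} (he1 : e ∈ O₁) (he1' : π⁻¹ * (e - 1) ∈ O₁) (he2 : π⁻¹ * e ∈ O₂)
    {b : F} (hb : b ∈ O₁) :
    ∃ B : F, B ∈ O₁ ∧ π⁻¹ * (B - b) ∈ O₁ ∧ π⁻¹ * B ∈ O₂ := by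
  obtain ⟨k, hk⟩ := ha2 b
  refine ⟨b * e ^ (k + 1), O₁.mul_mem _ _ hb (O₁.toSubring.pow_mem he1 _), ?_, ?_⟩
  · have h1 : π⁻¹ * (b * e ^ (k + 1) - b) =
        b * (π⁻¹ * (e - 1) * ∑ i ∈ Finset.range (k + 1), e ^ i) := by
      have h2 := mul_geom_sum e (k + 1)
      calc π⁻¹ * (b * e ^ (k + 1) - b) = b * (π⁻¹ * (e ^ (k + 1) - 1)) := by ring
        _ = b * (π⁻¹ * ((e - 1) * ∑ i ∈ Finset.range (k + 1), e ^ i)) := by rw [h2]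
        _ = _ := by ring
    rw [h1]
    refine O₁.mul_mem _ _ hb (O₁.mul_mem _ _ he1' ?_)
    exact O₁.toSubring.sum_mem (fun i _ => O₁.toSubring.pow_mem he1 i)
  · have h1 : π⁻¹ * (b * e ^ (k + 1)) = π ^ k * b * (π⁻¹ * e) ^ (k + 1) := by
      rw [mul_pow, inv_pow, pow_succ π k]
      field_simp
    rw [h1]
    exact O₂.mul_mem _ _ hk (O₂.toSubring.pow_mem he2 _)

/-- Scaling a finite family of elements of `E`, not all zero, into `V` with one unit. -/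
theorem s34k2_exists_scaling (E : Subfield F) (V : Subring F) (π : F) (hπV : π ∈ V)
    (hπ0 : π ≠ 0)
    (hE : ∀ c ∈ E, c ≠ 0 → ∃ (k : ℤ) (u : F), u ∈ V ∧ u⁻¹ ∈ V ∧ c = π ^ k * u)
    {m : ℕ} (c : Fin m → F) (hc : ∀ i, c i ∈ E) (hc0 : ∃ i, c i ≠ 0) :
    ∃ k : ℤ, (∀ i, π ^ k * c i ∈ V) ∧ ∃ i, π ^ k * c i ≠ 0 ∧ (π ^ k * c i)⁻¹ ∈ V := by
  classical
  have hch : ∀ i : Fin m, ∃ (k : ℤ) (u : F), c i ≠ 0 → (u ∈ V ∧ u⁻¹ ∈ V ∧ c i = π ^ k * u) := by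
    intro i
    by_cases h : c i = 0
    · exact ⟨0, 0, fun h' => absurd h h'⟩
    · obtain ⟨k, u, h1⟩ := hE _ (hc i) h
      exact ⟨k, u, fun _ => h1⟩
  choose κ u hκ using hch
  obtain ⟨i₀, hi₀⟩ := hc0
  have hne : (Finset.univ.filter (fun i => c i ≠ 0)).Nonempty :=
    ⟨i₀, Finset.mem_filter.mpr ⟨Finset.mem_univ _, hi₀⟩⟩
  obtain ⟨j, hj, hmin⟩ := Finset.exists_min_image _ κ hne
  have hj0 : c j ≠ 0 := (Finset.mem_filter.mp hj).2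
  obtain ⟨huj, huj', hcj⟩ := hκ j hj0
  have hujne : u j ≠ 0 := by
    intro h
    rw [h, mul_zero] at hcj
    exact hj0 hcj
  refine ⟨-κ j, fun i => ?_, j, ?_, ?_⟩
  · by_cases hi : c i = 0
    · rw [hi, mul_zero]; exact V.zero_mem
    · obtain ⟨hui, -, hci⟩ := hκ i hi
      have hle : κ j ≤ κ i := hmin i (Finset.mem_filter.mpr ⟨Finset.mem_univ _, hi⟩)
      obtain ⟨t, ht⟩ := Int.eq_ofNat_of_zero_le (sub_nonneg.mpr hle)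
      have h1 : π ^ (-κ j) * c i = π ^ t * u i := by
        rw [hci, ← mul_assoc, ← zpow_add₀ hπ0, ← zpow_natCast, ← ht]
        congr 2
        ring
      rw [h1]
      exact V.mul_mem (V.pow_mem hπV t) hui
  · have h1 : π ^ (-κ j) * c j = u j := by
      rw [hcj, ← mul_assoc, ← zpow_add₀ hπ0, neg_add_cancel, zpow_zero, one_mul]
    rw [h1]; exact hujne
  · have h1 : π ^ (-κ j) * c j = u j := by
      rw [hcj, ← mul_assoc, ← zpow_add₀ hπ0, neg_add_cancel, zpow_zero, one_mul]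
    rw [h1]; exact huj'

/-- **Two-valuation Lemma K, basis form.**  See the module docstring. -/
theorem s34k2_exists_basis (E : Subfield F) (V : Subring F) (π : F) (hπV : π ∈ V) (hπ0 : π ≠ 0)
    (hE : ∀ c ∈ E, c ≠ 0 → ∃ (k : ℤ) (u : F), u ∈ V ∧ u⁻¹ ∈ V ∧ c = π ^ k * u)
    (O₁ O₂ : ValuationSubring F) (hV1 : ∀ v ∈ V, v ∈ O₁) (hV2 : ∀ v ∈ V, v ∈ O₂)
    (hπ1 : π⁻¹ ∉ O₁) (hπ2 : π⁻¹ ∉ O₂)
    (hu1 : ∀ z ∈ O₁, z⁻¹ ∉ O₁ → π⁻¹ * z ∈ O₁) (hu2 : ∀ z ∈ O₂, z⁻¹ ∉ O₂ → π⁻¹ * z ∈ O₂)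
    (ha1 : ∀ z : F, ∃ k : ℕ, π ^ k * z ∈ O₁) (ha2 : ∀ z : F, ∃ k : ℕ, π ^ k * z ∈ O₂)
    (hne : O₁ ≠ O₂) (d₁ d₂ : ℕ)
    (hdim : ∀ s : Fin (d₁ + d₂ + 1) → F, ∃ c : Fin (d₁ + d₂ + 1) → F,
      (∀ i, c i ∈ E) ∧ (∃ i, c i ≠ 0) ∧ ∑ i, c i * s i = 0)
    (b : Fin d₁ → F) (hb : ∀ i, b i ∈ O₁)
    (hbi : ∀ c : Fin d₁ → F, (∀ i, c i ∈ V) → π⁻¹ * ∑ i, c i * b i ∈ O₁ → ∀ i, π⁻¹ * c i ∈ V)
    (b' : Fin d₂ → F) (hb' : ∀ i, b' i ∈ O₂)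
    (hbi' : ∀ c : Fin d₂ → F, (∀ i, c i ∈ V) → π⁻¹ * ∑ i, c i * b' i ∈ O₂ →
      ∀ i, π⁻¹ * c i ∈ V) :
    ∃ G : Fin (d₁ + d₂) → F, (∀ i, G i ∈ O₁ ∧ G i ∈ O₂) ∧
      (∀ c : Fin (d₁ + d₂) → F, (∀ i, c i ∈ E) → ∑ i, c i * G i = 0 → ∀ i, c i = 0) ∧
      ∀ z : F, z ∈ O₁ → z ∈ O₂ → ∃ c : Fin (d₁ + d₂) → F, (∀ i, c i ∈ V) ∧ z = ∑ i, c i * G i := by
  classical
  have hπ1m : π ∈ O₁ := hV1 π hπV
  have hπ2m : π ∈ O₂ := hV2 π hπV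
  -- the separating elements
  obtain ⟨e, he1, he1', he2, he2m⟩ := s34k2_exists_sep O₁ O₂ π hπ1 hπ2 hu1 hu2 hne
  have hf2 : (1 - e) ∈ O₂ := O₂.toSubring.sub_mem O₂.one_mem he2m
  have hf2' : π⁻¹ * ((1 - e) - 1) ∈ O₂ := by
    have : π⁻¹ * ((1 - e) - 1) = -(π⁻¹ * e) := by ring
    rw [this]; exact O₂.toSubring.neg_mem he2
  have hf1 : π⁻¹ * (1 - e) ∈ O₁ := by
    have : π⁻¹ * (1 - e) = -(π⁻¹ * (e - 1)) := by ring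
    rw [this]; exact O₁.toSubring.neg_mem he1'
  -- the lifts
  have hB : ∀ i : Fin d₁, ∃ B : F, B ∈ O₁ ∧ π⁻¹ * (B - b i) ∈ O₁ ∧ π⁻¹ * B ∈ O₂ :=
    fun i => s34k2_exists_lift O₁ O₂ π hπ0 ha2 he1 he1' he2 (hb i)
  have hB' : ∀ i : Fin d₂, ∃ B : F, B ∈ O₂ ∧ π⁻¹ * (B - b' i) ∈ O₂ ∧ π⁻¹ * B ∈ O₁ :=
    fun i => s34k2_exists_lift O₂ O₁ π hπ0 ha1 hf2 hf2' hf1 (hb' i)
  choose B hB1 hB2 hB3 using hB
  choose B' hB'1 hB'2 hB'3 using hB'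
  have hmemπ1 : ∀ x : F, π⁻¹ * x ∈ O₁ → x ∈ O₁ := by
    intro x hx
    have : x = π * (π⁻¹ * x) := by field_simp
    rw [this]; exact O₁.mul_mem _ _ hπ1m hx
  have hmemπ2 : ∀ x : F, π⁻¹ * x ∈ O₂ → x ∈ O₂ := by
    intro x hx
    have : x = π * (π⁻¹ * x) := by field_simp
    rw [this]; exact O₂.mul_mem _ _ hπ2m hx
  set G : Fin (d₁ + d₂) → F := Fin.append B B' with hG
  have hGmem : ∀ i, G i ∈ O₁ ∧ G i ∈ O₂ := by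
    intro i
    refine Fin.addCases (fun j => ?_) (fun j => ?_) i
    · rw [hG, Fin.append_left]
      exact ⟨hB1 j, hmemπ2 _ (hB3 j)⟩
    · rw [hG, Fin.append_right]
      exact ⟨hmemπ1 _ (hB'3 j), hB'1 j⟩
  have hsum : ∀ c : Fin (d₁ + d₂) → F, ∑ i, c i * G i =
      ∑ i : Fin d₁, c (Fin.castAdd d₂ i) * B i + ∑ i : Fin d₂, c (Fin.natAdd d₁ i) * B' i := by
    intro c
    rw [Fin.sum_univ_add]
    simp only [hG, Fin.append_left, Fin.append_right]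
  -- residual independence
  have hRI : ∀ c : Fin (d₁ + d₂) → F, (∀ i, c i ∈ V) → π⁻¹ * ∑ i, c i * G i ∈ O₁ →
      π⁻¹ * ∑ i, c i * G i ∈ O₂ → ∀ i, π⁻¹ * c i ∈ V := by
    intro c hc h1 h2
    rw [hsum] at h1 h2
    have hA : ∀ i : Fin d₁, π⁻¹ * c (Fin.castAdd d₂ i) ∈ V := by
      refine hbi (fun i => c (Fin.castAdd d₂ i)) (fun i => hc _) ?_
      have h3 : π⁻¹ * ∑ i : Fin d₁, c (Fin.castAdd d₂ i) * b i =
          π⁻¹ * (∑ i : Fin d₁, c (Fin.castAdd d₂ i) * B i +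
            ∑ i : Fin d₂, c (Fin.natAdd d₁ i) * B' i)
          - ∑ i : Fin d₁, c (Fin.castAdd d₂ i) * (π⁻¹ * (B i - b i))
          - ∑ i : Fin d₂, c (Fin.natAdd d₁ i) * (π⁻¹ * B' i) := by
        simp only [Finset.mul_sum, mul_add, mul_sub, Finset.sum_sub_distrib]
        have e1 : ∀ i : Fin d₂, c (Fin.natAdd d₁ i) * (π⁻¹ * B' i)
            = π⁻¹ * (c (Fin.natAdd d₁ i) * B' i) := fun i => by ring
        have e2 : ∀ i : Fin d₁, c (Fin.castAdd d₂ i) * (π⁻¹ * B i)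
            = π⁻¹ * (c (Fin.castAdd d₂ i) * B i) := fun i => by ring
        have e3 : ∀ i : Fin d₁, c (Fin.castAdd d₂ i) * (π⁻¹ * b i)
            = π⁻¹ * (c (Fin.castAdd d₂ i) * b i) := fun i => by ring
        simp only [e1, e2, e3]
        ring
      rw [h3]
      refine O₁.toSubring.sub_mem (O₁.toSubring.sub_mem h1 ?_) ?_
      · exact O₁.toSubring.sum_mem (fun i _ => O₁.mul_mem _ _ (hV1 _ (hc _)) (hB2 i))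
      · exact O₁.toSubring.sum_mem (fun i _ => O₁.mul_mem _ _ (hV1 _ (hc _)) (hB'3 i))
    have hA' : ∀ i : Fin d₂, π⁻¹ * c (Fin.natAdd d₁ i) ∈ V := by
      refine hbi' (fun i => c (Fin.natAdd d₁ i)) (fun i => hc _) ?_
      have h3 : π⁻¹ * ∑ i : Fin d₂, c (Fin.natAdd d₁ i) * b' i =
          π⁻¹ * (∑ i : Fin d₁, c (Fin.castAdd d₂ i) * B i +
            ∑ i : Fin d₂, c (Fin.natAdd d₁ i) * B' i)
          - ∑ i : Fin d₂, c (Fin.natAdd d₁ i) * (π⁻¹ * (B' i - b' i))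
          - ∑ i : Fin d₁, c (Fin.castAdd d₂ i) * (π⁻¹ * B i) := by
        simp only [Finset.mul_sum, mul_add, mul_sub, Finset.sum_sub_distrib]
        have e1 : ∀ i : Fin d₂, c (Fin.natAdd d₁ i) * (π⁻¹ * B' i)
            = π⁻¹ * (c (Fin.natAdd d₁ i) * B' i) := fun i => by ring
        have e2 : ∀ i : Fin d₁, c (Fin.castAdd d₂ i) * (π⁻¹ * B i)
            = π⁻¹ * (c (Fin.castAdd d₂ i) * B i) := fun i => by ring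
        have e3 : ∀ i : Fin d₂, c (Fin.natAdd d₁ i) * (π⁻¹ * b' i)
            = π⁻¹ * (c (Fin.natAdd d₁ i) * b' i) := fun i => by ring
        simp only [e1, e2, e3]
        ring
      rw [h3]
      refine O₂.toSubring.sub_mem (O₂.toSubring.sub_mem h2 ?_) ?_
      · exact O₂.toSubring.sum_mem (fun i _ => O₂.mul_mem _ _ (hV2 _ (hc _)) (hB'2 i))
      · exact O₂.toSubring.sum_mem (fun i _ => O₂.mul_mem _ _ (hV2 _ (hc _)) (hB3 i))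
    intro i
    exact Fin.addCases (motive := fun i => π⁻¹ * c i ∈ V) hA hA' i
  -- a scaled family with a unit coefficient cannot be residually dependent
  have hcontra : ∀ c : Fin (d₁ + d₂) → F, (∀ i, c i ∈ V) →
      (∃ i, c i ≠ 0 ∧ (c i)⁻¹ ∈ V) → π⁻¹ * ∑ i, c i * G i ∈ O₁ →
      π⁻¹ * ∑ i, c i * G i ∈ O₂ → False := by
    intro c hc ⟨i, hi0, hi⟩ h1 h2
    have h3 := hRI c hc h1 h2 i
    have h4 : π⁻¹ = π⁻¹ * c i * (c i)⁻¹ := by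
      rw [mul_assoc, mul_inv_cancel₀ hi0, mul_one]
    exact hπ1 (hV1 _ (h4 ▸ V.mul_mem h3 hi))
  -- independence over `E`
  have hind : ∀ c : Fin (d₁ + d₂) → F, (∀ i, c i ∈ E) → ∑ i, c i * G i = 0 → ∀ i, c i = 0 := by
    intro c hc hsum0
    by_contra hcon
    push Not at hcon
    obtain ⟨k, hk, hk'⟩ := s34k2_exists_scaling E V π hπV hπ0 hE c hc hcon
    have h0 : ∑ i, (π ^ k * c i) * G i = 0 := by
      have : ∑ i, (π ^ k * c i) * G i = π ^ k * ∑ i, c i * G i := by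
        rw [Finset.mul_sum]
        exact Finset.sum_congr rfl (fun i _ => by ring)
      rw [this, hsum0, mul_zero]
    refine hcontra (fun i => π ^ k * c i) hk hk' ?_ ?_
    · rw [h0, mul_zero]; exact O₁.zero_mem
    · rw [h0, mul_zero]; exact O₂.zero_mem
  refine ⟨G, hGmem, hind, ?_⟩
  intro z hz1 hz2
  -- express `z` over `E`
  obtain ⟨c, hcE, hc0, hrel⟩ := hdim (Fin.cons z G)
  rw [Fin.sum_univ_succ] at hrel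
  simp only [Fin.cons_zero, Fin.cons_succ] at hrel
  have hc00 : c 0 ≠ 0 := by
    intro h0
    rw [h0, zero_mul, zero_add] at hrel
    have h1 := hind (fun i => c i.succ) (fun i => hcE _) hrel
    obtain ⟨i, hi⟩ := hc0
    refine hi ?_
    refine Fin.cases h0 (fun j => h1 j) i
  set γ : Fin (d₁ + d₂) → F := fun i => -(c i.succ) * (c 0)⁻¹ with hγ
  have hγE : ∀ i, γ i ∈ E := fun i => E.mul_mem (E.neg_mem (hcE _)) (E.inv_mem (hcE 0))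
  have hzγ : z = ∑ i, γ i * G i := by
    have h1 : ∑ i, γ i * G i = -(c 0)⁻¹ * ∑ i : Fin (d₁ + d₂), c i.succ * G i := by
      rw [Finset.mul_sum]
      exact Finset.sum_congr rfl (fun i _ => by rw [hγ]; ring)
    rw [h1]
    have h2 : ∑ i : Fin (d₁ + d₂), c i.succ * G i = -(c 0 * z) := by linear_combination hrel
    rw [h2]
    field_simp
  by_cases hall : ∀ i, γ i = 0
  · refine ⟨fun _ => 0, fun _ => V.zero_mem, ?_⟩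
    rw [hzγ]
    simp [hall]
  push Not at hall
  obtain ⟨k, hk, hk'⟩ := s34k2_exists_scaling E V π hπV hπ0 hE γ hγE hall
  rcases le_or_gt k 0 with hk0 | hk0
  · -- the coefficients are already in `V`
    refine ⟨γ, fun i => ?_, hzγ⟩
    obtain ⟨t, ht⟩ := Int.eq_ofNat_of_zero_le (neg_nonneg.mpr hk0)
    have h1 : γ i = π ^ t * (π ^ k * γ i) := by
      rw [← mul_assoc, ← zpow_natCast, ← ht, ← zpow_add₀ hπ0, neg_add_cancel, zpow_zero, one_mul]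
    rw [h1]
    exact V.mul_mem (V.pow_mem hπV t) (hk i)
  · exfalso
    obtain ⟨t, ht⟩ := Int.eq_ofNat_of_zero_le (sub_nonneg.mpr (Int.add_one_le_iff.mpr hk0))
    have h0 : ∑ i, (π ^ k * γ i) * G i = π ^ k * z := by
      rw [hzγ, Finset.mul_sum]
      exact Finset.sum_congr rfl (fun i _ => by ring)
    have h1 : π⁻¹ * (π ^ k * z) = π ^ t * z := by
      rw [← mul_assoc, ← zpow_natCast, ← ht, ← zpow_neg_one, ← zpow_add₀ hπ0]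
      congr 2
      ring
    refine hcontra (fun i => π ^ k * γ i) hk hk' ?_ ?_
    · rw [h0, h1]; exact O₁.mul_mem _ _ (O₁.toSubring.pow_mem hπ1m t) hz1
    · rw [h0, h1]; exact O₂.mul_mem _ _ (O₂.toSubring.pow_mem hπ2m t) hz2

/-- **Two-valuation Lemma K, integrality form**: every element of `O₁ ∩ O₂` is integral over
`V`. -/
theorem s34k2_isIntegral (E : Subfield F) (V : Subring F) (π : F) (hπV : π ∈ V) (hπ0 : π ≠ 0)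
    (hE : ∀ c ∈ E, c ≠ 0 → ∃ (k : ℤ) (u : F), u ∈ V ∧ u⁻¹ ∈ V ∧ c = π ^ k * u)
    (O₁ O₂ : ValuationSubring F) (hV1 : ∀ v ∈ V, v ∈ O₁) (hV2 : ∀ v ∈ V, v ∈ O₂)
    (hπ1 : π⁻¹ ∉ O₁) (hπ2 : π⁻¹ ∉ O₂)
    (hu1 : ∀ z ∈ O₁, z⁻¹ ∉ O₁ → π⁻¹ * z ∈ O₁) (hu2 : ∀ z ∈ O₂, z⁻¹ ∉ O₂ → π⁻¹ * z ∈ O₂)
    (ha1 : ∀ z : F, ∃ k : ℕ, π ^ k * z ∈ O₁) (ha2 : ∀ z : F, ∃ k : ℕ, π ^ k * z ∈ O₂)
    (hne : O₁ ≠ O₂) (d₁ d₂ : ℕ)
    (hdim : ∀ s : Fin (d₁ + d₂ + 1) → F, ∃ c : Fin (d₁ + d₂ + 1) → F,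
      (∀ i, c i ∈ E) ∧ (∃ i, c i ≠ 0) ∧ ∑ i, c i * s i = 0)
    (b : Fin d₁ → F) (hb : ∀ i, b i ∈ O₁)
    (hbi : ∀ c : Fin d₁ → F, (∀ i, c i ∈ V) → π⁻¹ * ∑ i, c i * b i ∈ O₁ → ∀ i, π⁻¹ * c i ∈ V)
    (b' : Fin d₂ → F) (hb' : ∀ i, b' i ∈ O₂)
    (hbi' : ∀ c : Fin d₂ → F, (∀ i, c i ∈ V) → π⁻¹ * ∑ i, c i * b' i ∈ O₂ →
      ∀ i, π⁻¹ * c i ∈ V)
    {z : F} (hz1 : z ∈ O₁) (hz2 : z ∈ O₂) : IsIntegral V z := by
  classical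
  obtain ⟨G, hG, -, hspan⟩ := s34k2_exists_basis E V π hπV hπ0 hE O₁ O₂ hV1 hV2 hπ1 hπ2 hu1 hu2 ha1 ha2 hne d₁ d₂ hdim b hb hbi b' hb' hbi'
  let S : Subalgebra V F :=
    { (O₁.toSubring ⊓ O₂.toSubring).toSubsemiring with
      algebraMap_mem' := fun v => ⟨hV1 _ v.2, hV2 _ v.2⟩ }
  have hmemS : ∀ x : F, x ∈ S ↔ x ∈ O₁ ∧ x ∈ O₂ := fun x => Iff.rfl
  have hfg : (Subalgebra.toSubmodule S).FG := by
    refine ⟨Finset.univ.image G, ?_⟩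
    apply le_antisymm
    · rw [Submodule.span_le]
      intro x hx
      rw [Finset.coe_image, Set.mem_image] at hx
      obtain ⟨i, -, rfl⟩ := hx
      exact (hmemS _).mpr (hG i)
    · intro x hx
      obtain ⟨c, hc, rfl⟩ := hspan x ((hmemS x).mp hx).1 ((hmemS x).mp hx).2
      refine Submodule.sum_mem _ (fun i _ => ?_)
      have h1 : c i * G i = (⟨c i, hc i⟩ : V) • G i := rfl
      rw [h1]
      refine Submodule.smul_mem _ _ (Submodule.subset_span ?_)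
      rw [Finset.coe_image]
      exact ⟨i, Finset.mem_coe.mpr (Finset.mem_univ i), rfl⟩
  exact IsIntegral.of_mem_of_fg S hfg z ((hmemS z).mpr ⟨hz1, hz2⟩)

/-- An element integral over `V` lies in every valuation ring containing `V`. -/
theorem s34k2_mem_of_isIntegral (V : Subring F) (O : ValuationSubring F)
    (hV : ∀ v ∈ V, v ∈ O) {z : F} (hz : IsIntegral V z) : z ∈ O := by
  have h1 : IsIntegral O z := by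
    obtain ⟨p, hp, hpz⟩ := hz
    let φ : V →+* O := (Subring.inclusion (show V ≤ O.toSubring from hV))
    refine ⟨p.map φ, hp.map φ, ?_⟩
    rw [Polynomial.eval₂_map]
    exact hpz
  obtain ⟨y, hy⟩ := (IsIntegrallyClosed.isIntegral_iff (R := O) (K := F)).mp h1
  rw [← hy]
  exact y.2

/-- **The integral closure of `V` in `F` is `O₁ ∩ O₂`.** -/
theorem s34k2_isIntegral_iff (E : Subfield F) (V : Subring F) (π : F) (hπV : π ∈ V) (hπ0 : π ≠ 0)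
    (hE : ∀ c ∈ E, c ≠ 0 → ∃ (k : ℤ) (u : F), u ∈ V ∧ u⁻¹ ∈ V ∧ c = π ^ k * u)
    (O₁ O₂ : ValuationSubring F) (hV1 : ∀ v ∈ V, v ∈ O₁) (hV2 : ∀ v ∈ V, v ∈ O₂)
    (hπ1 : π⁻¹ ∉ O₁) (hπ2 : π⁻¹ ∉ O₂)
    (hu1 : ∀ z ∈ O₁, z⁻¹ ∉ O₁ → π⁻¹ * z ∈ O₁) (hu2 : ∀ z ∈ O₂, z⁻¹ ∉ O₂ → π⁻¹ * z ∈ O₂)
    (ha1 : ∀ z : F, ∃ k : ℕ, π ^ k * z ∈ O₁) (ha2 : ∀ z : F, ∃ k : ℕ, π ^ k * z ∈ O₂)
    (hne : O₁ ≠ O₂) (d₁ d₂ : ℕ)
    (hdim : ∀ s : Fin (d₁ + d₂ + 1) → F, ∃ c : Fin (d₁ + d₂ + 1) → F,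
      (∀ i, c i ∈ E) ∧ (∃ i, c i ≠ 0) ∧ ∑ i, c i * s i = 0)
    (b : Fin d₁ → F) (hb : ∀ i, b i ∈ O₁)
    (hbi : ∀ c : Fin d₁ → F, (∀ i, c i ∈ V) → π⁻¹ * ∑ i, c i * b i ∈ O₁ → ∀ i, π⁻¹ * c i ∈ V)
    (b' : Fin d₂ → F) (hb' : ∀ i, b' i ∈ O₂)
    (hbi' : ∀ c : Fin d₂ → F, (∀ i, c i ∈ V) → π⁻¹ * ∑ i, c i * b' i ∈ O₂ →
      ∀ i, π⁻¹ * c i ∈ V)
    (z : F) : IsIntegral V z ↔ z ∈ O₁ ∧ z ∈ O₂ :=
  ⟨fun h => ⟨s34k2_mem_of_isIntegral V O₁ hV1 h, s34k2_mem_of_isIntegral V O₂ hV2 h⟩,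
    fun h => s34k2_isIntegral E V π hπV hπ0 hE O₁ O₂ hV1 hV2 hπ1 hπ2 hu1 hu2 ha1 ha2 hne d₁ d₂ hdim b hb hbi b' hb' hbi' h.1 h.2⟩

/-- **Lemma K for the two vertical valuations**: an element integral over `V` which lies in
`π O₁ ∩ π O₂` is `π` times an element integral over `V`. -/
theorem s34k2_lemmaK (E : Subfield F) (V : Subring F) (π : F) (hπV : π ∈ V) (hπ0 : π ≠ 0)
    (hE : ∀ c ∈ E, c ≠ 0 → ∃ (k : ℤ) (u : F), u ∈ V ∧ u⁻¹ ∈ V ∧ c = π ^ k * u)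
    (O₁ O₂ : ValuationSubring F) (hV1 : ∀ v ∈ V, v ∈ O₁) (hV2 : ∀ v ∈ V, v ∈ O₂)
    (hπ1 : π⁻¹ ∉ O₁) (hπ2 : π⁻¹ ∉ O₂)
    (hu1 : ∀ z ∈ O₁, z⁻¹ ∉ O₁ → π⁻¹ * z ∈ O₁) (hu2 : ∀ z ∈ O₂, z⁻¹ ∉ O₂ → π⁻¹ * z ∈ O₂)
    (ha1 : ∀ z : F, ∃ k : ℕ, π ^ k * z ∈ O₁) (ha2 : ∀ z : F, ∃ k : ℕ, π ^ k * z ∈ O₂)
    (hne : O₁ ≠ O₂) (d₁ d₂ : ℕ)
    (hdim : ∀ s : Fin (d₁ + d₂ + 1) → F, ∃ c : Fin (d₁ + d₂ + 1) → F,
      (∀ i, c i ∈ E) ∧ (∃ i, c i ≠ 0) ∧ ∑ i, c i * s i = 0)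
    (b : Fin d₁ → F) (hb : ∀ i, b i ∈ O₁)
    (hbi : ∀ c : Fin d₁ → F, (∀ i, c i ∈ V) → π⁻¹ * ∑ i, c i * b i ∈ O₁ → ∀ i, π⁻¹ * c i ∈ V)
    (b' : Fin d₂ → F) (hb' : ∀ i, b' i ∈ O₂)
    (hbi' : ∀ c : Fin d₂ → F, (∀ i, c i ∈ V) → π⁻¹ * ∑ i, c i * b' i ∈ O₂ →
      ∀ i, π⁻¹ * c i ∈ V)
    {z : F} (hz1 : π⁻¹ * z ∈ O₁) (hz2 : π⁻¹ * z ∈ O₂) : IsIntegral V (π⁻¹ * z) :=
  s34k2_isIntegral E V π hπV hπ0 hE O₁ O₂ hV1 hV2 hπ1 hπ2 hu1 hu2 ha1 ha2 hne d₁ d₂ hdim b hb hbi b' hb' hbi' hz1 hz2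

end TwoValK

end Fermat.Agent.S34
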