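import Fermat.Agent.S34.TwoValK

/-!
# P19 (S34), block KRON, abstract part: residue fields of the two valuations

Complement to `S34/TwoValK.lean` (same hypotheses, see there).  Because the count
`d₁ + d₂ ≥ [F : E]` is sharp, the residue classes of the `b i` SPAN `O₁ / π O₁` over `V / π`, and
those of the `b' i` span `O₂ / π O₂`:

* `s34k2_exists_basis_res` : the basis of `O₁ ∩ O₂` with explicit residues;
* `s34k2_exists_residue₁`, `s34k2_exists_residue₂` : every element of `O₁` (resp. `O₂`) is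
  congruent modulo `π` to a `V`-combination of the `b i` (resp. `b' i`).  For `d₁ = 1`,
  `b = ![1]` this says that the residue field of `O₁` equals that of `V` ("K4").
-/

set_option autoImplicit false

namespace Fermat.Agent.S34

section TwoValRes

variable {F : Type*} [Field F]

/-- **Two-valuation Lemma K, basis form with explicit residues.**  The basis of `O₁ ∩ O₂` over
`V` consists of lifts `B i ≡ b i` modulo `π O₁`, `B i ∈ π O₂`, and `B' i ≡ b' i` modulo `π O₂`,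
`B' i ∈ π O₁`. -/
theorem s34k2_exists_basis_res (E : Subfield F) (V : Subring F) (π : F) (hπV : π ∈ V) (hπ0 : π ≠ 0)
    (hE : ∀ c ∈ E, c ≠ 0 → ∃ (k : ℤ) (u : F), u ∈ V ∧ u⁻¹ ∈ V ∧ c = π ^ k * u)
    (O₁ O₂ : ValuationSubring F) (hV1 : ∀ v ∈ V, v ∈ O₁) (hV2 : ∀ v ∈ V, v ∈ O₂)
    (hπ1 : π⁻¹ ∉ O₁) (hπ2 : π⁻¹ ∉ O₂)
    (hu1 : ∀ z ∈ O₁, z⁻¹ ∉ O₁ → π⁻¹ * z ∈ O₁) (hu2 : ∀ z ∈ O₂, z⁻¹ ∉ O₂ → π⁻¹ * z ∈ O₂)
    (ha1 : ∀ z : F, ∃ k : ℕ, π ^ k * z ∈ O₁) (ha2 : ∀ z : F, ∃ k : ℕ, π ^ k * z ∈ O₂)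
    (hne : O₁ ≠ O₂) (d₁ d₂ : ℕ)
    (hdim : ∀ s : Fin (d₁ + d₂ + 1) → F, ∃ c : Fin (d₁ + d₂ + 1) → F,
      (∀ i, c i ∈ E) ∧ (∃ i, c i ≠ 0) ∧ ∑ i, c i * s i = 0)
    (b : Fin d₁ → F) (hb : ∀ i, b i ∈ O₁)
    (hbi : ∀ c : Fin d₁ → F, (∀ i, c i ∈ V) → π⁻¹ * ∑ i, c i * b i ∈ O₁ → ∀ i, π⁻¹ * c i ∈ V)
    (b' : Fin d₂ → F) (hb' : ∀ i, b' i ∈ O₂)
    (hbi' : ∀ c : Fin d₂ → F, (∀ i, c i ∈ V) → π⁻¹ * ∑ i, c i * b' i ∈ O₂ →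
      ∀ i, π⁻¹ * c i ∈ V) :
    ∃ (B : Fin d₁ → F) (B' : Fin d₂ → F),
      (∀ i, B i ∈ O₁) ∧ (∀ i, π⁻¹ * (B i - b i) ∈ O₁) ∧ (∀ i, π⁻¹ * B i ∈ O₂) ∧
      (∀ i, B' i ∈ O₂) ∧ (∀ i, π⁻¹ * (B' i - b' i) ∈ O₂) ∧ (∀ i, π⁻¹ * B' i ∈ O₁) ∧
      ∀ z : F, z ∈ O₁ → z ∈ O₂ → ∃ (c : Fin d₁ → F) (c' : Fin d₂ → F),
        (∀ i, c i ∈ V) ∧ (∀ i, c' i ∈ V) ∧ z = ∑ i, c i * B i + ∑ i, c' i * B' i := by
  classical
  have hπ1m : π ∈ O₁ := hV1 π hπV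
  have hπ2m : π ∈ O₂ := hV2 π hπV
  -- the separating elements
  obtain ⟨e, he1, he1', he2, he2m⟩ := s34k2_exists_sep O₁ O₂ π hπ1 hπ2 hu1 hu2 hne
  have hf2 : (1 - e) ∈ O₂ := O₂.toSubring.sub_mem O₂.one_mem he2m
  have hf2' : π⁻¹ * ((1 - e) - 1) ∈ O₂ := by
    have : π⁻¹ * ((1 - e) - 1) = -(π⁻¹ * e) := by ring
    rw [this]; exact O₂.toSubring.neg_mem he2
  have hf1 : π⁻¹ * (1 - e) ∈ O₁ := by
    have : π⁻¹ * (1 - e) = -(π⁻¹ * (e - 1)) := by ring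
    rw [this]; exact O₁.toSubring.neg_mem he1'
  -- the lifts
  have hB : ∀ i : Fin d₁, ∃ B : F, B ∈ O₁ ∧ π⁻¹ * (B - b i) ∈ O₁ ∧ π⁻¹ * B ∈ O₂ :=
    fun i => s34k2_exists_lift O₁ O₂ π hπ0 ha2 he1 he1' he2 (hb i)
  have hB' : ∀ i : Fin d₂, ∃ B : F, B ∈ O₂ ∧ π⁻¹ * (B - b' i) ∈ O₂ ∧ π⁻¹ * B ∈ O₁ :=
    fun i => s34k2_exists_lift O₂ O₁ π hπ0 ha1 hf2 hf2' hf1 (hb' i)
  choose B hB1 hB2 hB3 using hB
  choose B' hB'1 hB'2 hB'3 using hB'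
  have hmemπ1 : ∀ x : F, π⁻¹ * x ∈ O₁ → x ∈ O₁ := by
    intro x hx
    have : x = π * (π⁻¹ * x) := by field_simp
    rw [this]; exact O₁.mul_mem _ _ hπ1m hx
  have hmemπ2 : ∀ x : F, π⁻¹ * x ∈ O₂ → x ∈ O₂ := by
    intro x hx
    have : x = π * (π⁻¹ * x) := by field_simp
    rw [this]; exact O₂.mul_mem _ _ hπ2m hx
  set G : Fin (d₁ + d₂) → F := Fin.append B B' with hG
  have hGmem : ∀ i, G i ∈ O₁ ∧ G i ∈ O₂ := by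
    intro i
    refine Fin.addCases (fun j => ?_) (fun j => ?_) i
    · rw [hG, Fin.append_left]
      exact ⟨hB1 j, hmemπ2 _ (hB3 j)⟩
    · rw [hG, Fin.append_right]
      exact ⟨hmemπ1 _ (hB'3 j), hB'1 j⟩
  have hsum : ∀ c : Fin (d₁ + d₂) → F, ∑ i, c i * G i =
      ∑ i : Fin d₁, c (Fin.castAdd d₂ i) * B i + ∑ i : Fin d₂, c (Fin.natAdd d₁ i) * B' i := by
    intro c
    rw [Fin.sum_univ_add]
    simp only [hG, Fin.append_left, Fin.append_right]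
  -- residual independence
  have hRI : ∀ c : Fin (d₁ + d₂) → F, (∀ i, c i ∈ V) → π⁻¹ * ∑ i, c i * G i ∈ O₁ →
      π⁻¹ * ∑ i, c i * G i ∈ O₂ → ∀ i, π⁻¹ * c i ∈ V := by
    intro c hc h1 h2
    rw [hsum] at h1 h2
    have hA : ∀ i : Fin d₁, π⁻¹ * c (Fin.castAdd d₂ i) ∈ V := by
      refine hbi (fun i => c (Fin.castAdd d₂ i)) (fun i => hc _) ?_
      have h3 : π⁻¹ * ∑ i : Fin d₁, c (Fin.castAdd d₂ i) * b i =
          π⁻¹ * (∑ i : Fin d₁, c (Fin.castAdd d₂ i) * B i +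
            ∑ i : Fin d₂, c (Fin.natAdd d₁ i) * B' i)
          - ∑ i : Fin d₁, c (Fin.castAdd d₂ i) * (π⁻¹ * (B i - b i))
          - ∑ i : Fin d₂, c (Fin.natAdd d₁ i) * (π⁻¹ * B' i) := by
        simp only [Finset.mul_sum, mul_add, mul_sub, Finset.sum_sub_distrib]
        have e1 : ∀ i : Fin d₂, c (Fin.natAdd d₁ i) * (π⁻¹ * B' i)
            = π⁻¹ * (c (Fin.natAdd d₁ i) * B' i) := fun i => by ring
        have e2 : ∀ i : Fin d₁, c (Fin.castAdd d₂ i) * (π⁻¹ * B i)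
            = π⁻¹ * (c (Fin.castAdd d₂ i) * B i) := fun i => by ring
        have e3 : ∀ i : Fin d₁, c (Fin.castAdd d₂ i) * (π⁻¹ * b i)
            = π⁻¹ * (c (Fin.castAdd d₂ i) * b i) := fun i => by ring
        simp only [e1, e2, e3]
        ring
      rw [h3]
      refine O₁.toSubring.sub_mem (O₁.toSubring.sub_mem h1 ?_) ?_
      · exact O₁.toSubring.sum_mem (fun i _ => O₁.mul_mem _ _ (hV1 _ (hc _)) (hB2 i))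
      · exact O₁.toSubring.sum_mem (fun i _ => O₁.mul_mem _ _ (hV1 _ (hc _)) (hB'3 i))
    have hA' : ∀ i : Fin d₂, π⁻¹ * c (Fin.natAdd d₁ i) ∈ V := by
      refine hbi' (fun i => c (Fin.natAdd d₁ i)) (fun i => hc _) ?_
      have h3 : π⁻¹ * ∑ i : Fin d₂, c (Fin.natAdd d₁ i) * b' i =
          π⁻¹ * (∑ i : Fin d₁, c (Fin.castAdd d₂ i) * B i +
            ∑ i : Fin d₂, c (Fin.natAdd d₁ i) * B' i)
          - ∑ i : Fin d₂, c (Fin.natAdd d₁ i) * (π⁻¹ * (B' i - b' i))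
          - ∑ i : Fin d₁, c (Fin.castAdd d₂ i) * (π⁻¹ * B i) := by
        simp only [Finset.mul_sum, mul_add, mul_sub, Finset.sum_sub_distrib]
        have e1 : ∀ i : Fin d₂, c (Fin.natAdd d₁ i) * (π⁻¹ * B' i)
            = π⁻¹ * (c (Fin.natAdd d₁ i) * B' i) := fun i => by ring
        have e2 : ∀ i : Fin d₁, c (Fin.castAdd d₂ i) * (π⁻¹ * B i)
            = π⁻¹ * (c (Fin.castAdd d₂ i) * B i) := fun i => by ring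
        have e3 : ∀ i : Fin d₂, c (Fin.natAdd d₁ i) * (π⁻¹ * b' i)
            = π⁻¹ * (c (Fin.natAdd d₁ i) * b' i) := fun i => by ring
        simp only [e1, e2, e3]
        ring
      rw [h3]
      refine O₂.toSubring.sub_mem (O₂.toSubring.sub_mem h2 ?_) ?_
      · exact O₂.toSubring.sum_mem (fun i _ => O₂.mul_mem _ _ (hV2 _ (hc _)) (hB'2 i))
      · exact O₂.toSubring.sum_mem (fun i _ => O₂.mul_mem _ _ (hV2 _ (hc _)) (hB3 i))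
    intro i
    exact Fin.addCases (motive := fun i => π⁻¹ * c i ∈ V) hA hA' i
  -- a scaled family with a unit coefficient cannot be residually dependent
  have hcontra : ∀ c : Fin (d₁ + d₂) → F, (∀ i, c i ∈ V) →
      (∃ i, c i ≠ 0 ∧ (c i)⁻¹ ∈ V) → π⁻¹ * ∑ i, c i * G i ∈ O₁ →
      π⁻¹ * ∑ i, c i * G i ∈ O₂ → False := by
    intro c hc ⟨i, hi0, hi⟩ h1 h2
    have h3 := hRI c hc h1 h2 i
    have h4 : π⁻¹ = π⁻¹ * c i * (c i)⁻¹ := by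
      rw [mul_assoc, mul_inv_cancel₀ hi0, mul_one]
    exact hπ1 (hV1 _ (h4 ▸ V.mul_mem h3 hi))
  -- independence over `E`
  have hind : ∀ c : Fin (d₁ + d₂) → F, (∀ i, c i ∈ E) → ∑ i, c i * G i = 0 → ∀ i, c i = 0 := by
    intro c hc hsum0
    by_contra hcon
    push Not at hcon
    obtain ⟨k, hk, hk'⟩ := s34k2_exists_scaling E V π hπV hπ0 hE c hc hcon
    have h0 : ∑ i, (π ^ k * c i) * G i = 0 := by
      have : ∑ i, (π ^ k * c i) * G i = π ^ k * ∑ i, c i * G i := by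
        rw [Finset.mul_sum]
        exact Finset.sum_congr rfl (fun i _ => by ring)
      rw [this, hsum0, mul_zero]
    refine hcontra (fun i => π ^ k * c i) hk hk' ?_ ?_
    · rw [h0, mul_zero]; exact O₁.zero_mem
    · rw [h0, mul_zero]; exact O₂.zero_mem
  refine ⟨B, B', hB1, hB2, hB3, hB'1, hB'2, hB'3, ?_⟩
  intro z hz1 hz2
  suffices hsuff : ∃ c : Fin (d₁ + d₂) → F, (∀ i, c i ∈ V) ∧ z = ∑ i, c i * G i by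
    obtain ⟨c, hc, hz⟩ := hsuff
    refine ⟨fun i => c (Fin.castAdd d₂ i), fun i => c (Fin.natAdd d₁ i), fun i => hc _,
      fun i => hc _, ?_⟩
    rw [hz, hsum]
  -- express `z` over `E`
  obtain ⟨c, hcE, hc0, hrel⟩ := hdim (Fin.cons z G)
  rw [Fin.sum_univ_succ] at hrel
  simp only [Fin.cons_zero, Fin.cons_succ] at hrel
  have hc00 : c 0 ≠ 0 := by
    intro h0
    rw [h0, zero_mul, zero_add] at hrel
    have h1 := hind (fun i => c i.succ) (fun i => hcE _) hrel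
    obtain ⟨i, hi⟩ := hc0
    refine hi ?_
    refine Fin.cases h0 (fun j => h1 j) i
  set γ : Fin (d₁ + d₂) → F := fun i => -(c i.succ) * (c 0)⁻¹ with hγ
  have hγE : ∀ i, γ i ∈ E := fun i => E.mul_mem (E.neg_mem (hcE _)) (E.inv_mem (hcE 0))
  have hzγ : z = ∑ i, γ i * G i := by
    have h1 : ∑ i, γ i * G i = -(c 0)⁻¹ * ∑ i : Fin (d₁ + d₂), c i.succ * G i := by
      rw [Finset.mul_sum]
      exact Finset.sum_congr rfl (fun i _ => by rw [hγ]; ring)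
    rw [h1]
    have h2 : ∑ i : Fin (d₁ + d₂), c i.succ * G i = -(c 0 * z) := by linear_combination hrel
    rw [h2]
    field_simp
  by_cases hall : ∀ i, γ i = 0
  · refine ⟨fun _ => 0, fun _ => V.zero_mem, ?_⟩
    rw [hzγ]
    simp [hall]
  push Not at hall
  obtain ⟨k, hk, hk'⟩ := s34k2_exists_scaling E V π hπV hπ0 hE γ hγE hall
  rcases le_or_gt k 0 with hk0 | hk0
  · -- the coefficients are already in `V`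
    refine ⟨γ, fun i => ?_, hzγ⟩
    obtain ⟨t, ht⟩ := Int.eq_ofNat_of_zero_le (neg_nonneg.mpr hk0)
    have h1 : γ i = π ^ t * (π ^ k * γ i) := by
      rw [← mul_assoc, ← zpow_natCast, ← ht, ← zpow_add₀ hπ0, neg_add_cancel, zpow_zero, one_mul]
    rw [h1]
    exact V.mul_mem (V.pow_mem hπV t) (hk i)
  · exfalso
    obtain ⟨t, ht⟩ := Int.eq_ofNat_of_zero_le (sub_nonneg.mpr (Int.add_one_le_iff.mpr hk0))
    have h0 : ∑ i, (π ^ k * γ i) * G i = π ^ k * z := by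
      rw [hzγ, Finset.mul_sum]
      exact Finset.sum_congr rfl (fun i _ => by ring)
    have h1 : π⁻¹ * (π ^ k * z) = π ^ t * z := by
      rw [← mul_assoc, ← zpow_natCast, ← ht, ← zpow_neg_one, ← zpow_add₀ hπ0]
      congr 2
      ring
    refine hcontra (fun i => π ^ k * γ i) hk hk' ?_ ?_
    · rw [h0, h1]; exact O₁.mul_mem _ _ (O₁.toSubring.pow_mem hπ1m t) hz1
    · rw [h0, h1]; exact O₂.mul_mem _ _ (O₂.toSubring.pow_mem hπ2m t) hz2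


/-- The residue classes of the `b i` span `O₁ / π O₁` over `V / π`. -/
theorem s34k2_exists_residue₁ (E : Subfield F) (V : Subring F) (π : F) (hπV : π ∈ V) (hπ0 : π ≠ 0)
    (hE : ∀ c ∈ E, c ≠ 0 → ∃ (k : ℤ) (u : F), u ∈ V ∧ u⁻¹ ∈ V ∧ c = π ^ k * u)
    (O₁ O₂ : ValuationSubring F) (hV1 : ∀ v ∈ V, v ∈ O₁) (hV2 : ∀ v ∈ V, v ∈ O₂)
    (hπ1 : π⁻¹ ∉ O₁) (hπ2 : π⁻¹ ∉ O₂)
    (hu1 : ∀ z ∈ O₁, z⁻¹ ∉ O₁ → π⁻¹ * z ∈ O₁) (hu2 : ∀ z ∈ O₂, z⁻¹ ∉ O₂ → π⁻¹ * z ∈ O₂)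
    (ha1 : ∀ z : F, ∃ k : ℕ, π ^ k * z ∈ O₁) (ha2 : ∀ z : F, ∃ k : ℕ, π ^ k * z ∈ O₂)
    (hne : O₁ ≠ O₂) (d₁ d₂ : ℕ)
    (hdim : ∀ s : Fin (d₁ + d₂ + 1) → F, ∃ c : Fin (d₁ + d₂ + 1) → F,
      (∀ i, c i ∈ E) ∧ (∃ i, c i ≠ 0) ∧ ∑ i, c i * s i = 0)
    (b : Fin d₁ → F) (hb : ∀ i, b i ∈ O₁)
    (hbi : ∀ c : Fin d₁ → F, (∀ i, c i ∈ V) → π⁻¹ * ∑ i, c i * b i ∈ O₁ → ∀ i, π⁻¹ * c i ∈ V)
    (b' : Fin d₂ → F) (hb' : ∀ i, b' i ∈ O₂)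
    (hbi' : ∀ c : Fin d₂ → F, (∀ i, c i ∈ V) → π⁻¹ * ∑ i, c i * b' i ∈ O₂ →
      ∀ i, π⁻¹ * c i ∈ V)
    {a : F} (ha : a ∈ O₁) :
    ∃ c : Fin d₁ → F, (∀ i, c i ∈ V) ∧ π⁻¹ * (a - ∑ i, c i * b i) ∈ O₁ := by
  obtain ⟨B, B', hB1, hB2, hB3, hB'1, hB'2, hB'3, hspan⟩ := s34k2_exists_basis_res E V π hπV hπ0 hE O₁ O₂ hV1 hV2 hπ1 hπ2 hu1 hu2 ha1 ha2 hne d₁ d₂ hdim b hb hbi b' hb' hbi'
  obtain ⟨e, he1, he1', he2, -⟩ := s34k2_exists_sep O₁ O₂ π hπ1 hπ2 hu1 hu2 hne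
  obtain ⟨a', ha'1, ha'2, ha'3⟩ := s34k2_exists_lift O₁ O₂ π hπ0 ha2 he1 he1' he2 ha
  have ha'm : a' ∈ O₂ := by
    have : a' = π * (π⁻¹ * a') := by field_simp
    rw [this]; exact O₂.mul_mem _ _ (hV2 π hπV) ha'3
  obtain ⟨c, c', hc, hc', hz⟩ := hspan a' ha'1 ha'm
  refine ⟨c, hc, ?_⟩
  have h1 : π⁻¹ * (a - ∑ i, c i * b i) = -(π⁻¹ * (a' - a))
      + ∑ i, c i * (π⁻¹ * (B i - b i)) + ∑ i, c' i * (π⁻¹ * B' i) := by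
    rw [hz]
    simp only [Finset.mul_sum, mul_add, mul_sub, Finset.sum_sub_distrib]
    have e1 : ∀ i : Fin d₂, c' i * (π⁻¹ * B' i) = π⁻¹ * (c' i * B' i) := fun i => by ring
    have e2 : ∀ i : Fin d₁, c i * (π⁻¹ * B i) = π⁻¹ * (c i * B i) := fun i => by ring
    have e3 : ∀ i : Fin d₁, c i * (π⁻¹ * b i) = π⁻¹ * (c i * b i) := fun i => by ring
    simp only [e1, e2, e3]
    ring
  rw [h1]
  refine O₁.add_mem _ _ (O₁.add_mem _ _ (O₁.toSubring.neg_mem ha'2) ?_) ?_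
  · exact O₁.toSubring.sum_mem (fun i _ => O₁.mul_mem _ _ (hV1 _ (hc i)) (hB2 i))
  · exact O₁.toSubring.sum_mem (fun i _ => O₁.mul_mem _ _ (hV1 _ (hc' i)) (hB'3 i))

/-- The residue classes of the `b' i` span `O₂ / π O₂` over `V / π`. -/
theorem s34k2_exists_residue₂ (E : Subfield F) (V : Subring F) (π : F) (hπV : π ∈ V) (hπ0 : π ≠ 0)
    (hE : ∀ c ∈ E, c ≠ 0 → ∃ (k : ℤ) (u : F), u ∈ V ∧ u⁻¹ ∈ V ∧ c = π ^ k * u)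
    (O₁ O₂ : ValuationSubring F) (hV1 : ∀ v ∈ V, v ∈ O₁) (hV2 : ∀ v ∈ V, v ∈ O₂)
    (hπ1 : π⁻¹ ∉ O₁) (hπ2 : π⁻¹ ∉ O₂)
    (hu1 : ∀ z ∈ O₁, z⁻¹ ∉ O₁ → π⁻¹ * z ∈ O₁) (hu2 : ∀ z ∈ O₂, z⁻¹ ∉ O₂ → π⁻¹ * z ∈ O₂)
    (ha1 : ∀ z : F, ∃ k : ℕ, π ^ k * z ∈ O₁) (ha2 : ∀ z : F, ∃ k : ℕ, π ^ k * z ∈ O₂)
    (hne : O₁ ≠ O₂) (d₁ d₂ : ℕ)
    (hdim : ∀ s : Fin (d₁ + d₂ + 1) → F, ∃ c : Fin (d₁ + d₂ + 1) → F,
      (∀ i, c i ∈ E) ∧ (∃ i, c i ≠ 0) ∧ ∑ i, c i * s i = 0)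
    (b : Fin d₁ → F) (hb : ∀ i, b i ∈ O₁)
    (hbi : ∀ c : Fin d₁ → F, (∀ i, c i ∈ V) → π⁻¹ * ∑ i, c i * b i ∈ O₁ → ∀ i, π⁻¹ * c i ∈ V)
    (b' : Fin d₂ → F) (hb' : ∀ i, b' i ∈ O₂)
    (hbi' : ∀ c : Fin d₂ → F, (∀ i, c i ∈ V) → π⁻¹ * ∑ i, c i * b' i ∈ O₂ →
      ∀ i, π⁻¹ * c i ∈ V)
    {a : F} (ha : a ∈ O₂) :
    ∃ c : Fin d₂ → F, (∀ i, c i ∈ V) ∧ π⁻¹ * (a - ∑ i, c i * b' i) ∈ O₂ := by
  obtain ⟨B, B', hB1, hB2, hB3, hB'1, hB'2, hB'3, hspan⟩ := s34k2_exists_basis_res E V π hπV hπ0 hE O₁ O₂ hV1 hV2 hπ1 hπ2 hu1 hu2 ha1 ha2 hne d₁ d₂ hdim b hb hbi b' hb' hbi'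
  obtain ⟨e, he1, he1', he2, -⟩ := s34k2_exists_sep O₂ O₁ π hπ2 hπ1 hu2 hu1 (Ne.symm hne)
  obtain ⟨a', ha'1, ha'2, ha'3⟩ := s34k2_exists_lift O₂ O₁ π hπ0 ha1 he1 he1' he2 ha
  have ha'm : a' ∈ O₁ := by
    have : a' = π * (π⁻¹ * a') := by field_simp
    rw [this]; exact O₁.mul_mem _ _ (hV1 π hπV) ha'3
  obtain ⟨c, c', hc, hc', hz⟩ := hspan a' ha'm ha'1
  refine ⟨c', hc', ?_⟩
  have h1 : π⁻¹ * (a - ∑ i, c' i * b' i) = -(π⁻¹ * (a' - a))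
      + ∑ i, c' i * (π⁻¹ * (B' i - b' i)) + ∑ i, c i * (π⁻¹ * B i) := by
    rw [hz]
    simp only [Finset.mul_sum, mul_add, mul_sub, Finset.sum_sub_distrib]
    have e1 : ∀ i : Fin d₂, c' i * (π⁻¹ * B' i) = π⁻¹ * (c' i * B' i) := fun i => by ring
    have e2 : ∀ i : Fin d₁, c i * (π⁻¹ * B i) = π⁻¹ * (c i * B i) := fun i => by ring
    have e3 : ∀ i : Fin d₂, c' i * (π⁻¹ * b' i) = π⁻¹ * (c' i * b' i) := fun i => by ring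
    simp only [e1, e2, e3]
    ring
  rw [h1]
  refine O₂.add_mem _ _ (O₂.add_mem _ _ (O₂.toSubring.neg_mem ha'2) ?_) ?_
  · exact O₂.toSubring.sum_mem (fun i _ => O₂.mul_mem _ _ (hV2 _ (hc' i)) (hB'2 i))
  · exact O₂.toSubring.sum_mem (fun i _ => O₂.mul_mem _ _ (hV2 _ (hc i)) (hB3 i))

end TwoValRes

end Fermat.Agent.S34
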