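import Mathlib
import Fermat.Agent.S34.TwoValK
import Fermat.Agent.S34.DegK
import Fermat.Agent.S34.TwoValRes
import Fermat.Agent.S34.KronDefs
import Fermat.Agent.S18.GaussOut
import Fermat.Agent.S18.GaussLineA
import Fermat.Agent.S18.Char0DegK
import Fermat.Agent.S24.LaurentOrder
import Fermat.Agent.S28.TowerKT
import Fermat.Agent.S37.Kronecker
import Fermat.Agent.S37.KronCore
import Fermat.Prelude.Thm_ModularCurve_coeffMap_qExpand

/-!
# P19 (S34), block KRON, K2 (concrete part): the two vertical valuations at level `M q`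

`K` a field of characteristic zero with an abstract discrete valuation datum
`(Λ ⊂ K, π, res : Λ →+* k)`, `char k = q`, `q ∤ M`, `M ≠ 0` in `k`.
`F = F_{Mq}(K) = modularFunctionFieldFullC K (M * q) ⊂ K((T))`, `w_∞` the Gauss valuation of the
coefficients (`gaussV`), `W` an involution of `F` with `W f = f(T^q)` for `f ∈ F_M(K)`
(Atkin–Lehner), `w_0 = w_∞ ∘ W`.

Main results (`ktv_isIntegral_iff`, `ktv_lemmaK`): the integral closure of the Gauss ring
`gaussSub π j` of the `j`-line in `F` is `{z : w_∞(z) ≥ 0 ∧ w_0(z) ≥ 0}`, and an element with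
`w_∞(z) > 0`, `w_0(z) > 0` is `π` times an integral element.
-/

set_option autoImplicit false
set_option linter.unusedSectionVars false
set_option linter.style.haveILetI false

namespace Fermat.Agent.S34

open ModularCurve Fermat.Agent.S28 Fermat.Agent.S28.FreeBasisAbs Fermat.Agent.S18
open Fermat.Agent.S18.GaussL

section Series

variable {K k : Type*} [Field K] [Field k] {Λ : Subring K} {res : ↥Λ →+* k}

/-- `gaussO` is stable under `T ↦ T ^ n`. -/
theorem ktv_qExpand_mem_gaussO (n : ℕ) [NeZero n] {s : LaurentSeries K}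
    (hs : s ∈ gaussO Λ res) : qExpand K n s ∈ gaussO Λ res := by
  obtain ⟨a, b, hb, h⟩ := hs
  refine ⟨qExpand ↥Λ n a, qExpand ↥Λ n b, ?_, ?_⟩
  · rw [coeffMap_qExpand]
    exact fun h0 => hb (qExpand_injective n (h0.trans (map_zero _).symm))
  · rw [coeffMap_qExpand, coeffMap_qExpand, ← map_mul, h]

/-- Reduction commutes with `T ↦ T ^ n`. -/
theorem ktv_gaussRedO_qExpand (n : ℕ) [NeZero n] {s : LaurentSeries K}
    (hs : s ∈ gaussO Λ res) :
    gaussRedO Λ res ⟨qExpand K n s, ktv_qExpand_mem_gaussO n hs⟩ =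
      qExpand k n (gaussRedO Λ res ⟨s, hs⟩) := by
  obtain ⟨a, b, hb, h⟩ := hs
  have h1 := gaussRedO_mul_eq (res := res) ⟨s, ⟨a, b, hb, h⟩⟩ a b h
  have h2 : qExpand K n s * coeffMap Λ.subtype (qExpand ↥Λ n b) =
      coeffMap Λ.subtype (qExpand ↥Λ n a) := by
    rw [coeffMap_qExpand, coeffMap_qExpand, ← map_mul, h]
  have h3 := gaussRedO_mul_eq (res := res)
    ⟨qExpand K n s, ktv_qExpand_mem_gaussO n ⟨a, b, hb, h⟩⟩ _ _ h2
  rw [coeffMap_qExpand, coeffMap_qExpand, ← h1, map_mul] at h3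
  have hb' : qExpand k n (coeffMap res b) ≠ 0 :=
    fun h0 => hb (qExpand_injective n (h0.trans (map_zero _).symm))
  exact mul_right_cancel₀ hb' h3

/-- **Order argument.** If `Σ_{i<q} g_i(T^q) u^i = 0` with `ord u = -1`, then all `g_i = 0`. -/
theorem ktv_sum_qExpand_mul_pow (q : ℕ) [NeZero q] (u : LaurentSeries k) (hu : u.order = -1)
    (g : Fin q → LaurentSeries k)
    (h : ∑ i, qExpand k q (g i) * u ^ (i : ℕ) = 0) : ∀ i, g i = 0 := by
  classical
  by_contra hne
  push Not at hne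
  have hu0 : u ≠ 0 := by
    rintro rfl
    rw [HahnSeries.order_zero] at hu
    omega
  let o : Fin q → ℤ := fun i => (q : ℤ) * (g i).order - (i : ℕ)
  have hS : (Finset.univ.filter fun i => g i ≠ 0).Nonempty := by
    obtain ⟨i, hi⟩ := hne
    exact ⟨i, Finset.mem_filter.mpr ⟨Finset.mem_univ _, hi⟩⟩
  obtain ⟨i₀, hi₀, hmin⟩ := Finset.exists_min_image _ o hS
  rw [Finset.mem_filter] at hi₀
  have hterm : ∀ i, g i ≠ 0 → (qExpand k q (g i) * u ^ (i : ℕ)) ≠ 0 ∧
      (qExpand k q (g i) * u ^ (i : ℕ)).order = o i := by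
    intro i hi
    have h1 : qExpand k q (g i) ≠ 0 :=
      fun h0 => hi (qExpand_injective q (h0.trans (map_zero _).symm))
    have h2 : u ^ (i : ℕ) ≠ 0 := pow_ne_zero _ hu0
    refine ⟨mul_ne_zero h1 h2, ?_⟩
    rw [HahnSeries.order_mul h1 h2, Fermat.Agent.S24.order_qExpand, HahnSeries.order_pow, hu]
    simp only [o, nsmul_eq_mul, mul_neg, mul_one]
    ring
  have hc := congrArg (fun x : LaurentSeries k => x.coeff (o i₀)) h
  simp only [HahnSeries.coeff_sum, HahnSeries.coeff_zero] at hc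
  rw [Finset.sum_eq_single i₀] at hc
  · have h1 := (hterm i₀ hi₀.2).2
    have h2 := HahnSeries.coeff_order_eq_zero.not.mpr (hterm i₀ hi₀.2).1
    rw [h1] at h2
    exact h2 hc
  · intro i _ hi
    by_cases hgi : g i = 0
    · rw [hgi, map_zero, zero_mul, HahnSeries.coeff_zero]
    · apply HahnSeries.coeff_eq_zero_of_lt_order
      rw [(hterm i hgi).2]
      have hle := hmin i (Finset.mem_filter.mpr ⟨Finset.mem_univ _, hgi⟩)
      refine lt_of_le_of_ne hle ?_
      intro heq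
      apply hi
      simp only [o] at heq
      have h3 : (q : ℤ) ∣ ((i : ℕ) : ℤ) - ((i₀ : ℕ) : ℤ) :=
        ⟨(g i).order - (g i₀).order, by linarith⟩
      have hi1 := i.2
      have hi2 := i₀.2
      have h4 : ((i : ℕ) : ℤ) - ((i₀ : ℕ) : ℤ) = 0 := by
        apply Int.eq_zero_of_abs_lt_dvd h3
        rw [abs_lt]
        constructor <;> omega
      exact Fin.ext (by omega)
  · intro h0
    exact absurd (Finset.mem_univ _) h0

end Series

section Concrete

variable {K k : Type*} [Field K] [Field k] {Λ : Subring K} {π : K} {res : ↥Λ →+* k}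

/-- The subfield `F_M(K)` of `F_{Mq}(K)`. -/
noncomputable def ktvE (K : Type*) [Field K] (M q : ℕ) [NeZero M] [NeZero q] :
    Subfield ↥(modularFunctionFieldFullC K (M * q)) :=
  Subfield.comap (modularFunctionFieldFullC K (M * q)).val.toRingHom
    (modularFunctionFieldFullC K M).toSubfield

theorem ktv_mem_E {M q : ℕ} [NeZero M] [NeZero q]
    {c : ↥(modularFunctionFieldFullC K (M * q))} :
    c ∈ ktvE K M q ↔ (c : LaurentSeries K) ∈ modularFunctionFieldFullC K M := Iff.rfl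

/-- The Gauss ring of `F_M(K)` inside `F_{Mq}(K)`. -/
noncomputable def ktvV (Λ : Subring K) (res : ↥Λ →+* k) (M q : ℕ) [NeZero M] [NeZero q] :
    Subring ↥(modularFunctionFieldFullC K (M * q)) :=
  (gaussV Λ res (modularFunctionFieldFullC K (M * q))).toSubring ⊓ (ktvE K M q).toSubring

theorem ktv_mem_V {M q : ℕ} [NeZero M] [NeZero q]
    {c : ↥(modularFunctionFieldFullC K (M * q))} :
    c ∈ ktvV Λ res M q ↔ c ∈ gaussV Λ res (modularFunctionFieldFullC K (M * q)) ∧
      (c : LaurentSeries K) ∈ modularFunctionFieldFullC K M := Iff.rfl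

/-- The valuation ring of `w_∞`. -/
noncomputable def ktvO₁ (hΛ : IsGaussRing Λ π res) (M q : ℕ) [NeZero M] [NeZero q] :
    ValuationSubring ↥(modularFunctionFieldFullC K (M * q)) :=
  (isGaussRing_full hΛ (M * q)).valuationSubring

theorem ktv_mem_O₁ (hΛ : IsGaussRing Λ π res) {M q : ℕ} [NeZero M] [NeZero q]
    {z : ↥(modularFunctionFieldFullC K (M * q))} :
    z ∈ ktvO₁ hΛ M q ↔ z ∈ gaussV Λ res (modularFunctionFieldFullC K (M * q)) := Iff.rfl

/-- The valuation ring of `w_0 = w_∞ ∘ W`. -/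
noncomputable def ktvO₂ (hΛ : IsGaussRing Λ π res) (M q : ℕ) [NeZero M] [NeZero q]
    (W : ↥(modularFunctionFieldFullC K (M * q)) ≃ₐ[K] ↥(modularFunctionFieldFullC K (M * q))) :
    ValuationSubring ↥(modularFunctionFieldFullC K (M * q)) :=
  (ktvO₁ hΛ M q).comap (W : ↥(modularFunctionFieldFullC K (M * q)) →+*
    ↥(modularFunctionFieldFullC K (M * q)))

theorem ktv_mem_O₂ (hΛ : IsGaussRing Λ π res) {M q : ℕ} [NeZero M] [NeZero q]
    {W : ↥(modularFunctionFieldFullC K (M * q)) ≃ₐ[K] ↥(modularFunctionFieldFullC K (M * q))}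
    {z : ↥(modularFunctionFieldFullC K (M * q))} :
    z ∈ ktvO₂ hΛ M q W ↔ W z ∈ gaussV Λ res (modularFunctionFieldFullC K (M * q)) := Iff.rfl

variable (hΛ : IsGaussRing Λ π res) (M q : ℕ) [NeZero M] [NeZero q]

theorem ktv_pi_mem_E :
    algebraMap K ↥(modularFunctionFieldFullC K (M * q)) π ∈ ktvE K M q :=
  (modularFunctionFieldFullC K M).algebraMap_mem π

include hΛ in
theorem ktv_hE (c : ↥(modularFunctionFieldFullC K (M * q))) (hc : c ∈ ktvE K M q)
    (hc0 : c ≠ 0) :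
    ∃ (n : ℤ) (u : ↥(modularFunctionFieldFullC K (M * q))), u ∈ ktvV Λ res M q ∧
      u⁻¹ ∈ ktvV Λ res M q ∧
      c = (algebraMap K ↥(modularFunctionFieldFullC K (M * q)) π) ^ n * u := by
  have hG := isGaussRing_full hΛ (M * q)
  obtain ⟨n, u, hu, hu', hcu⟩ := hG.unit c hc0
  have hπE := ktv_pi_mem_E (K := K) (π := π) M q
  have hπ0 := hG.pi_ne_zero
  have huE : u ∈ ktvE K M q := by
    have h1 : u = (algebraMap K ↥(modularFunctionFieldFullC K (M * q)) π ^ n)⁻¹ * c := by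
      rw [hcu, ← mul_assoc, inv_mul_cancel₀ (zpow_ne_zero n hπ0), one_mul]
    rw [h1]
    exact (ktvE K M q).mul_mem ((ktvE K M q).inv_mem (zpow_mem hπE n)) hc
  exact ⟨n, u, ⟨hu, huE⟩, ⟨hu', (ktvE K M q).inv_mem huE⟩, hcu⟩

include hΛ in
theorem ktv_pi_inv_not_mem :
    (algebraMap K ↥(modularFunctionFieldFullC K (M * q)) π)⁻¹ ∉
      gaussV Λ res (modularFunctionFieldFullC K (M * q)) := by
  intro h
  have hG := isGaussRing_full hΛ (M * q)
  exact hG.red_ne_zero_of_unit hG.pi_mem h hG.pi_ne_zero (hG.red_pi hG.pi_mem)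

include hΛ in
theorem ktv_hu1 {z : ↥(modularFunctionFieldFullC K (M * q))}
    (hz : z ∈ gaussV Λ res (modularFunctionFieldFullC K (M * q)))
    (hz' : z⁻¹ ∉ gaussV Λ res (modularFunctionFieldFullC K (M * q))) :
    (algebraMap K ↥(modularFunctionFieldFullC K (M * q)) π)⁻¹ * z ∈
      gaussV Λ res (modularFunctionFieldFullC K (M * q)) := by
  have hG := isGaussRing_full hΛ (M * q)
  have hred : gaussRed Λ res (modularFunctionFieldFullC K (M * q)) ⟨z, hz⟩ = 0 := by
    by_contra h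
    exact hz' (inv_mem_gaussV _ hz h)
  obtain ⟨y, hy⟩ := hG.ker ⟨z, hz⟩ hred
  have h1 : (algebraMap K ↥(modularFunctionFieldFullC K (M * q)) π)⁻¹ * z = y := by
    rw [show z = algebraMap K ↥(modularFunctionFieldFullC K (M * q)) π * y from hy,
      ← mul_assoc, inv_mul_cancel₀ hG.pi_ne_zero, one_mul]
  rw [h1]
  exact y.2

include hΛ in
theorem ktv_ha1 (z : ↥(modularFunctionFieldFullC K (M * q))) :
    ∃ n : ℕ, (algebraMap K ↥(modularFunctionFieldFullC K (M * q)) π) ^ n * z ∈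
      gaussV Λ res (modularFunctionFieldFullC K (M * q)) := by
  have hG := isGaussRing_full hΛ (M * q)
  by_cases hz : z = 0
  · exact ⟨0, by rw [hz, mul_zero]; exact zero_mem _⟩
  obtain ⟨n, u, hu, -, rfl⟩ := hG.unit z hz
  refine ⟨(-n).toNat, ?_⟩
  rw [← zpow_natCast, ← mul_assoc, ← zpow_add₀ hG.pi_ne_zero]
  exact mul_mem (hG.zpow_mem (by omega)) hu

section W

variable (W : ↥(modularFunctionFieldFullC K (M * q)) ≃ₐ[K] ↥(modularFunctionFieldFullC K (M * q)))
  (hWα : ∀ y : ↥(modularFunctionFieldFullC K (M * q)),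
    (y : LaurentSeries K) ∈ modularFunctionFieldFullC K M →
      ((W y : ↥(modularFunctionFieldFullC K (M * q))) : LaurentSeries K) =
        qExpand K q (y : LaurentSeries K))

include hWα in
/-- `W` maps the Gauss ring of `F_M` into the Gauss ring of `F_{Mq}`. -/
theorem ktv_W_mem {v : ↥(modularFunctionFieldFullC K (M * q))} (hv : v ∈ ktvV Λ res M q) :
    W v ∈ gaussV Λ res (modularFunctionFieldFullC K (M * q)) := by
  rw [GaussL.mem_gaussV_iff, hWα v hv.2]
  exact ktv_qExpand_mem_gaussO q ((GaussL.mem_gaussV_iff _ v).mp hv.1)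

include hWα in
theorem ktv_gaussRed_W {v : ↥(modularFunctionFieldFullC K (M * q))}
    (hv : v ∈ ktvV Λ res M q) :
    gaussRed Λ res (modularFunctionFieldFullC K (M * q)) ⟨W v, ktv_W_mem M q W hWα hv⟩ =
      qExpand k q (gaussRed Λ res (modularFunctionFieldFullC K (M * q)) ⟨v, hv.1⟩) := by
  rw [gaussRed_mk _ (ktv_W_mem M q W hWα hv)
    (ktv_qExpand_mem_gaussO q ((GaussL.mem_gaussV_iff _ v).mp hv.1)) (hWα v hv.2),
    ktv_gaussRedO_qExpand]
  rfl

theorem ktv_W_pi :
    W (algebraMap K ↥(modularFunctionFieldFullC K (M * q)) π) =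
      algebraMap K ↥(modularFunctionFieldFullC K (M * q)) π := W.commutes π

include hWα in
theorem ktv_W_j :
    W (jC K (M * q)) = jdC K (M * q) q (dvd_mul_left q M) := by
  apply Subtype.ext
  rw [hWα _ (jqModC_mem_full K M)]
  rfl

end W

section Kron

variable [Fact q.Prime] [CharP k q]

/-- In characteristic `q`: `j(T^q) = j(T)^q`. -/
theorem ktv_qExpand_jqModC : qExpand k q (jqModC k) = jqModC k ^ q := by
  rw [Fermat.Agent.S37.Kronecker.pow_char q, coeffMap_jqModC]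

omit [NeZero q] [Fact q.Prime] [CharP k q] in
theorem ktv_order_jqModC : (jqModC k).order = -1 :=
  Fermat.Agent.S24.laurent_order_eq_of_coeff (by rw [coeff_jqModC_neg_one]; exact one_ne_zero)
    (fun _ hm => coeff_jqModC_of_lt k hm)

include hΛ in
/-- Kronecker congruence for `j`: `j(T^q) - j^q ∈ π • V_∞`. -/
theorem ktv_kron_mem :
    (algebraMap K ↥(modularFunctionFieldFullC K (M * q)) π)⁻¹ *
        (jdC K (M * q) q (dvd_mul_left q M) - jC K (M * q) ^ q) ∈
      gaussV Λ res (modularFunctionFieldFullC K (M * q)) := by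
  have hG := isGaussRing_full hΛ (M * q)
  have h1 := jdC_mem_gaussV Λ res (M * q) q (dvd_mul_left q M)
  have h2 := jC_mem_gaussV (K := K) Λ res (M * q)
  have hmem : jdC K (M * q) q (dvd_mul_left q M) - jC K (M * q) ^ q ∈
      gaussV Λ res (modularFunctionFieldFullC K (M * q)) := sub_mem h1 (pow_mem h2 q)
  have hred : gaussRed Λ res (modularFunctionFieldFullC K (M * q)) ⟨_, hmem⟩ = 0 := by
    have h3 : (⟨_, hmem⟩ : ↥(gaussV Λ res (modularFunctionFieldFullC K (M * q)))) =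
        ⟨_, h1⟩ - ⟨_, h2⟩ ^ q := rfl
    rw [h3, map_sub, map_pow, gaussRed_jdC, gaussRed_jC, ktv_qExpand_jqModC, sub_self]
  obtain ⟨y, hy⟩ := hG.ker ⟨_, hmem⟩ hred
  have h3 : (algebraMap K ↥(modularFunctionFieldFullC K (M * q)) π)⁻¹ *
      (jdC K (M * q) q (dvd_mul_left q M) - jC K (M * q) ^ q) = y := by
    rw [show jdC K (M * q) q (dvd_mul_left q M) - jC K (M * q) ^ q =
      algebraMap K ↥(modularFunctionFieldFullC K (M * q)) π * y from hy,
      ← mul_assoc, inv_mul_cancel₀ hG.pi_ne_zero, one_mul]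
  rw [h3]
  exact y.2

section W

variable (W : ↥(modularFunctionFieldFullC K (M * q)) ≃ₐ[K] ↥(modularFunctionFieldFullC K (M * q)))
  (hWα : ∀ y : ↥(modularFunctionFieldFullC K (M * q)),
    (y : LaurentSeries K) ∈ modularFunctionFieldFullC K M →
      ((W y : ↥(modularFunctionFieldFullC K (M * q))) : LaurentSeries K) =
        qExpand K q (y : LaurentSeries K))
  (hWW : ∀ y, W (W y) = y)

include hΛ hWα hWW in
theorem ktv_kron_not_mem :
    W ((algebraMap K ↥(modularFunctionFieldFullC K (M * q)) π)⁻¹ *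
        (jdC K (M * q) q (dvd_mul_left q M) - jC K (M * q) ^ q)) ∉
      gaussV Λ res (modularFunctionFieldFullC K (M * q)) := by
  intro h
  have hG := isGaussRing_full hΛ (M * q)
  have hWj := ktv_W_j M q W hWα
  have hWjq : W (jdC K (M * q) q (dvd_mul_left q M)) = jC K (M * q) := by rw [← hWj, hWW]
  rw [map_mul, map_inv₀, ktv_W_pi, map_sub, map_pow, hWjq, hWj] at h
  have h1 := jdC_mem_gaussV Λ res (M * q) q (dvd_mul_left q M)
  have h2 := jC_mem_gaussV (K := K) Λ res (M * q)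
  have hmem : jC K (M * q) - jdC K (M * q) q (dvd_mul_left q M) ^ q ∈
      gaussV Λ res (modularFunctionFieldFullC K (M * q)) := sub_mem h2 (pow_mem h1 q)
  have heq : algebraMap K ↥(modularFunctionFieldFullC K (M * q)) π *
      ((algebraMap K ↥(modularFunctionFieldFullC K (M * q)) π)⁻¹ *
        (jC K (M * q) - jdC K (M * q) q (dvd_mul_left q M) ^ q)) =
      jC K (M * q) - jdC K (M * q) q (dvd_mul_left q M) ^ q := by
    rw [← mul_assoc, mul_inv_cancel₀ hG.pi_ne_zero, one_mul]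
  have hred : gaussRed Λ res (modularFunctionFieldFullC K (M * q)) ⟨_, hmem⟩ = 0 := by
    have h3 := hG.red_pi_mul h (by rw [heq]; exact hmem)
    rw [← h3]
    congr 1
    exact Subtype.ext heq.symm
  have h3 : (⟨_, hmem⟩ : ↥(gaussV Λ res (modularFunctionFieldFullC K (M * q)))) =
      ⟨_, h2⟩ - ⟨_, h1⟩ ^ q := rfl
  rw [h3, map_sub, map_pow, gaussRed_jC, gaussRed_jdC, sub_eq_zero] at hred
  have ho := congrArg HahnSeries.order hred
  rw [ktv_order_jqModC, HahnSeries.order_pow, Fermat.Agent.S24.order_qExpand,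
    ktv_order_jqModC] at ho
  have hq2 : 2 ≤ q := (Fact.out : q.Prime).two_le
  have hq2' : (2 : ℤ) ≤ q := by exact_mod_cast hq2
  simp only [nsmul_eq_mul, mul_neg, mul_one] at ho
  nlinarith

omit [Fact q.Prime] [CharP k q] in
include hΛ in
theorem ktv_hbi (c : Fin 1 → ↥(modularFunctionFieldFullC K (M * q)))
    (hc : ∀ i, c i ∈ ktvV Λ res M q)
    (h : (algebraMap K ↥(modularFunctionFieldFullC K (M * q)) π)⁻¹ *
      ∑ i, c i * (fun _ : Fin 1 => (1 : ↥(modularFunctionFieldFullC K (M * q)))) i ∈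
        ktvO₁ hΛ M q) :
    ∀ i, (algebraMap K ↥(modularFunctionFieldFullC K (M * q)) π)⁻¹ * c i ∈ ktvV Λ res M q := by
  intro i
  have hi : i = 0 := Subsingleton.elim _ _
  subst hi
  rw [Fin.sum_univ_one, mul_one] at h
  exact ⟨h, (ktvE K M q).mul_mem ((ktvE K M q).inv_mem (ktv_pi_mem_E M q)) (hc 0).2⟩

omit [Fact q.Prime] [CharP k q] in
include hΛ hWα hWW in
theorem ktv_hbi' (c : Fin q → ↥(modularFunctionFieldFullC K (M * q)))
    (hc : ∀ i, c i ∈ ktvV Λ res M q)
    (h : (algebraMap K ↥(modularFunctionFieldFullC K (M * q)) π)⁻¹ *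
      ∑ i, c i * (fun i : Fin q => jdC K (M * q) q (dvd_mul_left q M) ^ (i : ℕ)) i ∈
        ktvO₂ hΛ M q W) :
    ∀ i, (algebraMap K ↥(modularFunctionFieldFullC K (M * q)) π)⁻¹ * c i ∈ ktvV Λ res M q := by
  have hG := isGaussRing_full hΛ (M * q)
  have hWj := ktv_W_j M q W hWα
  have hWjq : W (jdC K (M * q) q (dvd_mul_left q M)) = jC K (M * q) := by rw [← hWj, hWW]
  have h' : W ((algebraMap K ↥(modularFunctionFieldFullC K (M * q)) π)⁻¹ *
      ∑ i : Fin q, c i * jdC K (M * q) q (dvd_mul_left q M) ^ (i : ℕ)) ∈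
      gaussV Λ res (modularFunctionFieldFullC K (M * q)) := h
  rw [map_mul, map_inv₀, ktv_W_pi, map_sum] at h'
  simp only [map_mul, map_pow, hWjq] at h'
  have h2 := jC_mem_gaussV (K := K) Λ res (M * q)
  let S' : ↥(gaussV Λ res (modularFunctionFieldFullC K (M * q))) :=
    ∑ i : Fin q, (⟨W (c i), ktv_W_mem M q W hWα (hc i)⟩ :
      ↥(gaussV Λ res (modularFunctionFieldFullC K (M * q)))) * ⟨jC K (M * q), h2⟩ ^ (i : ℕ)
  have hS' : ((S' : ↥(gaussV Λ res (modularFunctionFieldFullC K (M * q)))) :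
      ↥(modularFunctionFieldFullC K (M * q))) = ∑ i : Fin q, W (c i) * jC K (M * q) ^ (i : ℕ) := by
    show (gaussV Λ res (modularFunctionFieldFullC K (M * q))).val S' = _
    rw [map_sum]
    rfl
  have heq : algebraMap K ↥(modularFunctionFieldFullC K (M * q)) π *
      ((algebraMap K ↥(modularFunctionFieldFullC K (M * q)) π)⁻¹ *
        ∑ i : Fin q, W (c i) * jC K (M * q) ^ (i : ℕ)) = S' := by
    rw [← mul_assoc, mul_inv_cancel₀ hG.pi_ne_zero, one_mul, hS']
  have hred : gaussRed Λ res (modularFunctionFieldFullC K (M * q)) S' = 0 := by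
    have h3 := hG.red_pi_mul h' (by rw [heq]; exact S'.2)
    rw [← h3]
    congr 1
    exact Subtype.ext heq.symm
  simp only [S', map_sum, map_mul, map_pow] at hred
  have hred' : ∑ i : Fin q, qExpand k q
      (gaussRed Λ res (modularFunctionFieldFullC K (M * q)) ⟨c i, (hc i).1⟩) *
        jqModC k ^ (i : ℕ) = 0 := by
    rw [← hred]
    refine Finset.sum_congr rfl (fun i _ => ?_)
    rw [ktv_gaussRed_W M q W hWα (hc i), gaussRed_jC]
  have hz := ktv_sum_qExpand_mul_pow q (jqModC k) ktv_order_jqModC _ hred'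
  intro i
  obtain ⟨y, hy⟩ := hG.ker ⟨c i, (hc i).1⟩ (hz i)
  have h3 : (algebraMap K ↥(modularFunctionFieldFullC K (M * q)) π)⁻¹ * c i = y := by
    rw [show c i = algebraMap K ↥(modularFunctionFieldFullC K (M * q)) π * y from hy,
      ← mul_assoc, inv_mul_cancel₀ hG.pi_ne_zero, one_mul]
  refine ⟨?_, (ktvE K M q).mul_mem ((ktvE K M q).inv_mem (ktv_pi_mem_E M q)) (hc i).2⟩
  rw [h3]
  exact y.2

omit [Fact q.Prime] [CharP k q] in
include hΛ in
theorem ktv_pi_inv_not_mem_O₂ :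
    (algebraMap K ↥(modularFunctionFieldFullC K (M * q)) π)⁻¹ ∉ ktvO₂ hΛ M q W := by
  rw [ktv_mem_O₂, map_inv₀, ktv_W_pi]
  exact ktv_pi_inv_not_mem hΛ M q

omit [Fact q.Prime] [CharP k q] in
include hΛ in
theorem ktv_hu2 (z : ↥(modularFunctionFieldFullC K (M * q))) (hz : z ∈ ktvO₂ hΛ M q W)
    (hz' : z⁻¹ ∉ ktvO₂ hΛ M q W) :
    (algebraMap K ↥(modularFunctionFieldFullC K (M * q)) π)⁻¹ * z ∈ ktvO₂ hΛ M q W := by
  rw [ktv_mem_O₂] at hz hz' ⊢
  rw [map_inv₀] at hz'
  rw [map_mul, map_inv₀, ktv_W_pi]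
  exact ktv_hu1 hΛ M q hz hz'

omit [Fact q.Prime] [CharP k q] in
include hΛ in
theorem ktv_ha2 (z : ↥(modularFunctionFieldFullC K (M * q))) :
    ∃ n : ℕ, (algebraMap K ↥(modularFunctionFieldFullC K (M * q)) π) ^ n * z ∈
      ktvO₂ hΛ M q W := by
  obtain ⟨n, hn⟩ := ktv_ha1 hΛ M q (W z)
  refine ⟨n, ?_⟩
  rw [ktv_mem_O₂, map_mul, map_pow, ktv_W_pi]
  exact hn

include hΛ hWα hWW in
theorem ktv_O₁_ne_O₂ : ktvO₁ hΛ M q ≠ ktvO₂ hΛ M q W := by
  intro heq
  have h1 : (algebraMap K ↥(modularFunctionFieldFullC K (M * q)) π)⁻¹ *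
      (jdC K (M * q) q (dvd_mul_left q M) - jC K (M * q) ^ q) ∈ ktvO₁ hΛ M q :=
    ktv_kron_mem hΛ M q
  rw [heq] at h1
  exact ktv_kron_not_mem hΛ M q W hWα hWW h1

omit [Fact q.Prime] [CharP k q] in
include hWα hWW in
theorem ktv_hb' (i : Fin q) :
    (fun i : Fin q => jdC K (M * q) q (dvd_mul_left q M) ^ (i : ℕ)) i ∈ ktvO₂ hΛ M q W := by
  have hWj := ktv_W_j M q W hWα
  have hWjq : W (jdC K (M * q) q (dvd_mul_left q M)) = jC K (M * q) := by rw [← hWj, hWW]
  rw [ktv_mem_O₂]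
  show W (jdC K (M * q) q (dvd_mul_left q M) ^ (i : ℕ)) ∈ _
  rw [map_pow, hWjq]
  exact pow_mem (jC_mem_gaussV (K := K) Λ res (M * q)) _

include hΛ hWα hWW in
/-- **K2, `V`-form**: the integral closure in `F_{Mq}` of the Gauss ring `V_M` of `F_M` is
`{z : w_∞(z) ≥ 0 ∧ w_0(z) ≥ 0}`. -/
theorem ktv_isIntegral_V_iff [CharZero K] (hqM : ¬ q ∣ M)
    (z : ↥(modularFunctionFieldFullC K (M * q))) :
    IsIntegral (ktvV Λ res M q) z ↔
      z ∈ gaussV Λ res (modularFunctionFieldFullC K (M * q)) ∧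
        W z ∈ gaussV Λ res (modularFunctionFieldFullC K (M * q)) :=
  s34k2_isIntegral_iff (ktvE K M q) (ktvV Λ res M q)
    (algebraMap K ↥(modularFunctionFieldFullC K (M * q)) π)
    ⟨(isGaussRing_full hΛ (M * q)).pi_mem, ktv_pi_mem_E M q⟩
    (isGaussRing_full hΛ (M * q)).pi_ne_zero (ktv_hE hΛ M q)
    (ktvO₁ hΛ M q) (ktvO₂ hΛ M q W) (fun _ hv => hv.1) (fun _ hv => ktv_W_mem M q W hWα hv)
    (ktv_pi_inv_not_mem hΛ M q) (ktv_pi_inv_not_mem_O₂ hΛ M q W)
    (fun _ hz hz' => ktv_hu1 hΛ M q hz hz') (ktv_hu2 hΛ M q W)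
    (ktv_ha1 hΛ M q) (ktv_ha2 hΛ M q W) (ktv_O₁_ne_O₂ hΛ M q W hWα hWW) 1 q
    (s34deg_hdim_fullC K M q (Fact.out : q.Prime) hqM)
    (fun _ => 1) (fun _ => one_mem _) (ktv_hbi hΛ M q)
    (fun i : Fin q => jdC K (M * q) q (dvd_mul_left q M) ^ (i : ℕ))
    (ktv_hb' hΛ M q W hWα hWW) (ktv_hbi' hΛ M q W hWα hWW) z

omit [Fact q.Prime] [CharP k q] [NeZero q] in
set_option synthInstance.maxHeartbeats 400000 in
include hΛ in
/-- Every element of the Gauss ring `V_M` of `F_M` (inside `F_{Mq}`) is integral over the Gauss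
ring of the `j`-line. -/
theorem ktv_isIntegral_of_mem_V [NeZero q] [CharZero K] (hM : (M : k) ≠ 0)
    {v : ↥(modularFunctionFieldFullC K (M * q))} (hv : v ∈ ktvV Λ res M q) :
    IsIntegral (gaussSub (piL hΛ) (prime_piL hΛ) (jC K (M * q))) v := by
  let v' : ↥(modularFunctionFieldFullC K M) := ⟨(v : LaurentSeries K), hv.2⟩
  have hv' : v' ∈ gaussV Λ res (modularFunctionFieldFullC K M) :=
    (GaussL.mem_gaussV_iff _ v').mpr ((GaussL.mem_gaussV_iff _ v).mp hv.1)
  have h2 := GaussOut.isIntegral_gaussSub hΛ M hM hv'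
  let φ : ↥(modularFunctionFieldFullC K M) →+* ↥(modularFunctionFieldFullC K (M * q)) :=
    (IntermediateField.inclusion (Tower.full_dvd_le K (Dvd.intro q rfl))).toRingHom
  have h3 := GaussLineK.isIntegral_map_gaussSub' (piL hΛ) (prime_piL hΛ) φ (fun c => rfl) h2
  have e1 : φ (jC K M) = jC K (M * q) := rfl
  have e2 : φ v' = v := rfl
  rwa [e1, e2] at h3

omit [Fact q.Prime] [CharP k q] [NeZero M] in
set_option synthInstance.maxHeartbeats 400000 in
include hΛ in
/-- The Gauss ring of the `j`-line lies in the Gauss ring `V_M` of `F_M`. -/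
theorem ktv_gaussSub_le [NeZero M] :
    gaussSub (piL hΛ) (prime_piL hΛ) (jC K (M * q)) ≤ ktvV Λ res M q := by
  intro c hc
  obtain ⟨h1, h2⟩ := (GaussOut.mem_gaussSub_iff hΛ (M * q) c).mp hc
  refine ⟨h1, ?_⟩
  have h3 : (c : LaurentSeries K) ∈
      (IntermediateField.adjoin K {jC K (M * q)}).map
        (modularFunctionFieldFullC K (M * q)).val := ⟨c, h2, rfl⟩
  rw [Char0DegK.map_adjoin_jC] at h3
  exact Tower.Kj_le_full K M h3

set_option synthInstance.maxHeartbeats 400000 in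
include hΛ hWα hWW in
/-- **K2** (two-valuation Lemma K, integral closure form): an element of `F_{Mq}(K)` is
integral over the Gauss ring `gaussSub π j` of the `j`-line iff `w_∞(z) ≥ 0` and
`w_0(z) = w_∞(W z) ≥ 0`. -/
theorem ktv_isIntegral_iff [CharZero K] (hM : (M : k) ≠ 0) (hqM : ¬ q ∣ M)
    (z : ↥(modularFunctionFieldFullC K (M * q))) :
    IsIntegral (gaussSub (piL hΛ) (prime_piL hΛ) (jC K (M * q))) z ↔
      z ∈ gaussV Λ res (modularFunctionFieldFullC K (M * q)) ∧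
        W z ∈ gaussV Λ res (modularFunctionFieldFullC K (M * q)) := by
  constructor
  · intro h
    exact (ktv_isIntegral_V_iff hΛ M q W hWα hWW hqM z).mp
      (Fermat.Agent.S37.KronCore.isIntegral_of_le (ktv_gaussSub_le hΛ M q) h)
  · intro h
    have h1 := (ktv_isIntegral_V_iff hΛ M q W hWα hWW hqM z).mpr h
    exact Fermat.Agent.S37.KronCore.isIntegral_of_forall_isIntegral _ _
      (fun v hv => ktv_isIntegral_of_mem_V hΛ M q hM hv) h1

set_option synthInstance.maxHeartbeats 400000 in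
include hΛ hWα hWW in
/-- **K2** (`e = 1`): if `w_∞(z) > 0` and `w_0(z) > 0` then `z = π • δ` with `δ` integral over
the Gauss ring of the `j`-line. -/
theorem ktv_lemmaK [CharZero K] (hM : (M : k) ≠ 0) (hqM : ¬ q ∣ M)
    {z : ↥(modularFunctionFieldFullC K (M * q))}
    (hz : z ∈ gaussV Λ res (modularFunctionFieldFullC K (M * q)))
    (hWz : W z ∈ gaussV Λ res (modularFunctionFieldFullC K (M * q)))
    (h1 : gaussRed Λ res (modularFunctionFieldFullC K (M * q)) ⟨z, hz⟩ = 0)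
    (h2 : gaussRed Λ res (modularFunctionFieldFullC K (M * q)) ⟨W z, hWz⟩ = 0) :
    ∃ δ : ↥(modularFunctionFieldFullC K (M * q)),
      IsIntegral (gaussSub (piL hΛ) (prime_piL hΛ) (jC K (M * q))) δ ∧ z = piL hΛ • δ := by
  have hG := isGaussRing_full hΛ (M * q)
  obtain ⟨y, hy⟩ := hG.ker ⟨z, hz⟩ h1
  obtain ⟨y', hy'⟩ := hG.ker ⟨W z, hWz⟩ h2
  have hy1 : z = algebraMap K ↥(modularFunctionFieldFullC K (M * q)) π * y := hy
  have hy2 : W z = algebraMap K ↥(modularFunctionFieldFullC K (M * q)) π * y' := hy'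
  have hWy : W (y : ↥(modularFunctionFieldFullC K (M * q))) = y' := by
    rw [hy1, map_mul, ktv_W_pi] at hy2
    exact mul_left_cancel₀ hG.pi_ne_zero hy2
  refine ⟨y, (ktv_isIntegral_iff hΛ M q W hWα hWW hM hqM _).mpr ⟨y.2, ?_⟩, ?_⟩
  · rw [hWy]
    exact y'.2
  · rw [hy1, Algebra.smul_def]
    rfl

include hΛ hWα hWW in
/-- **K4 / RES**, `fullC` form: every element of `V_∞ ⊂ F_{Mq}` is congruent modulo `π` to an
element of the Gauss ring of `F_M`. -/
theorem ktv_exists_residue [CharZero K] (hqM : ¬ q ∣ M)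
    {a : ↥(modularFunctionFieldFullC K (M * q))}
    (ha : a ∈ gaussV Λ res (modularFunctionFieldFullC K (M * q))) :
    ∃ c : ↥(modularFunctionFieldFullC K (M * q)), c ∈ ktvV Λ res M q ∧
      (algebraMap K ↥(modularFunctionFieldFullC K (M * q)) π)⁻¹ * (a - c) ∈
        gaussV Λ res (modularFunctionFieldFullC K (M * q)) := by
  obtain ⟨c, hc, h⟩ := s34k2_exists_residue₁ (ktvE K M q) (ktvV Λ res M q)
    (algebraMap K ↥(modularFunctionFieldFullC K (M * q)) π)
    ⟨(isGaussRing_full hΛ (M * q)).pi_mem, ktv_pi_mem_E M q⟩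
    (isGaussRing_full hΛ (M * q)).pi_ne_zero (ktv_hE hΛ M q)
    (ktvO₁ hΛ M q) (ktvO₂ hΛ M q W) (fun _ hv => hv.1) (fun _ hv => ktv_W_mem M q W hWα hv)
    (ktv_pi_inv_not_mem hΛ M q) (ktv_pi_inv_not_mem_O₂ hΛ M q W)
    (fun _ hz hz' => ktv_hu1 hΛ M q hz hz') (ktv_hu2 hΛ M q W)
    (ktv_ha1 hΛ M q) (ktv_ha2 hΛ M q W) (ktv_O₁_ne_O₂ hΛ M q W hWα hWW) 1 q
    (s34deg_hdim_fullC K M q (Fact.out : q.Prime) hqM)
    (fun _ => 1) (fun _ => one_mem _) (ktv_hbi hΛ M q)
    (fun i : Fin q => jdC K (M * q) q (dvd_mul_left q M) ^ (i : ℕ))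
    (ktv_hb' hΛ M q W hWα hWW) (ktv_hbi' hΛ M q W hWα hWW) (a := a) ha
  refine ⟨c 0, hc 0, ?_⟩
  rw [Fin.sum_univ_one, mul_one] at h
  exact h

include hΛ hWα hWW in
/-- **K4 / RES**, reduction form. -/
theorem ktv_exists_gaussRed_eq [CharZero K] (hqM : ¬ q ∣ M)
    (z : ↥(gaussV Λ res (modularFunctionFieldFullC K (M * q)))) :
    ∃ c : ↥(gaussV Λ res (modularFunctionFieldFullC K M)),
      gaussRed Λ res (modularFunctionFieldFullC K (M * q)) z =
        gaussRed Λ res (modularFunctionFieldFullC K M) c := by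
  have hG := isGaussRing_full hΛ (M * q)
  obtain ⟨c, hc, h⟩ := ktv_exists_residue hΛ M q W hWα hWW hqM z.2
  have hc' : (⟨(c : LaurentSeries K), hc.2⟩ : ↥(modularFunctionFieldFullC K M)) ∈
      gaussV Λ res (modularFunctionFieldFullC K M) :=
    (GaussL.mem_gaussV_iff _ _).mpr ((GaussL.mem_gaussV_iff _ c).mp hc.1)
  refine ⟨⟨_, hc'⟩, ?_⟩
  have heq : algebraMap K ↥(modularFunctionFieldFullC K (M * q)) π *
      ((algebraMap K ↥(modularFunctionFieldFullC K (M * q)) π)⁻¹ *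
        ((z : ↥(modularFunctionFieldFullC K (M * q))) - c)) =
      (z : ↥(modularFunctionFieldFullC K (M * q))) - c := by
    rw [← mul_assoc, mul_inv_cancel₀ hG.pi_ne_zero, one_mul]
  have hmem : (z : ↥(modularFunctionFieldFullC K (M * q))) - c ∈
      gaussV Λ res (modularFunctionFieldFullC K (M * q)) := sub_mem z.2 hc.1
  have hred : gaussRed Λ res (modularFunctionFieldFullC K (M * q)) ⟨_, hmem⟩ = 0 := by
    have h3 := hG.red_pi_mul h (by rw [heq]; exact hmem)
    rw [← h3]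
    congr 1
    exact Subtype.ext heq.symm
  have h4 : (⟨_, hmem⟩ : ↥(gaussV Λ res (modularFunctionFieldFullC K (M * q)))) =
      z - ⟨c, hc.1⟩ := rfl
  rw [h4, map_sub, sub_eq_zero] at hred
  rw [hred]
  rfl

end W

end Kron

end Concrete


/-! ### Convention-free forms

`𝔉` is any name for the field `F_{Mq}(K) ⊂ K((T))` (e.g. `modularFunctionFieldFullC K (M * q)` or
`laurentBaseChange K (modularFunctionFieldFull (M * q))`), `j : 𝔉` any name for `j`. -/

section Generic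

variable {K k : Type*} [Field K] [Field k] {Λ : Subring K} {π : K} {res : ↥Λ →+* k}
variable (hΛ : IsGaussRing Λ π res) (M q : ℕ) [NeZero M] [NeZero q] [Fact q.Prime] [CharP k q]

set_option synthInstance.maxHeartbeats 400000 in
include hΛ in
/-- **K2**, convention-free form. -/
theorem ktv_isIntegral_iff_of_eq [CharZero K] (hM : (M : k) ≠ 0) (hqM : ¬ q ∣ M)
    (𝔉 : IntermediateField K (LaurentSeries K))
    (h𝔉 : 𝔉 = modularFunctionFieldFullC K (M * q))
    (W : ↥𝔉 ≃ₐ[K] ↥𝔉)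
    (hWα : ∀ y : ↥𝔉, (y : LaurentSeries K) ∈ modularFunctionFieldFullC K M →
      ((W y : ↥𝔉) : LaurentSeries K) = qExpand K q (y : LaurentSeries K))
    (hWW : ∀ y, W (W y) = y) (j : ↥𝔉) (hj : (j : LaurentSeries K) = jqModC K) (z : ↥𝔉) :
    IsIntegral (gaussSub (piL hΛ) (prime_piL hΛ) j) z ↔
      z ∈ gaussV Λ res 𝔉 ∧ W z ∈ gaussV Λ res 𝔉 := by
  subst h𝔉
  have hj' : j = jC K (M * q) := Subtype.ext hj
  subst hj'
  exact ktv_isIntegral_iff hΛ M q W hWα hWW hM hqM z

set_option synthInstance.maxHeartbeats 400000 in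
include hΛ in
/-- **K2** (`e = 1`), convention-free form. -/
theorem ktv_lemmaK_of_eq [CharZero K] (hM : (M : k) ≠ 0) (hqM : ¬ q ∣ M)
    (𝔉 : IntermediateField K (LaurentSeries K))
    (h𝔉 : 𝔉 = modularFunctionFieldFullC K (M * q))
    (W : ↥𝔉 ≃ₐ[K] ↥𝔉)
    (hWα : ∀ y : ↥𝔉, (y : LaurentSeries K) ∈ modularFunctionFieldFullC K M →
      ((W y : ↥𝔉) : LaurentSeries K) = qExpand K q (y : LaurentSeries K))
    (hWW : ∀ y, W (W y) = y) (j : ↥𝔉) (hj : (j : LaurentSeries K) = jqModC K) {z : ↥𝔉}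
    (hz : z ∈ gaussV Λ res 𝔉) (hWz : W z ∈ gaussV Λ res 𝔉)
    (h1 : gaussRed Λ res 𝔉 ⟨z, hz⟩ = 0) (h2 : gaussRed Λ res 𝔉 ⟨W z, hWz⟩ = 0) :
    ∃ δ : ↥𝔉, IsIntegral (gaussSub (piL hΛ) (prime_piL hΛ) j) δ ∧ z = piL hΛ • δ := by
  subst h𝔉
  have hj' : j = jC K (M * q) := Subtype.ext hj
  subst hj'
  exact ktv_lemmaK hΛ M q W hWα hWW hM hqM hz hWz h1 h2

omit [Fact q.Prime] [CharP k q] in
/-- The hypothesis `hWα` from the `S37` form `w ∘ α = β` of the Atkin–Lehner involution. -/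
theorem ktv_hWα_of_alpha [Algebra ℚ K]
    (w : ↥(laurentBaseChange K (modularFunctionFieldFull (M * q))) ≃ₐ[K]
      ↥(laurentBaseChange K (modularFunctionFieldFull (M * q))))
    (hα : ∀ g : ↥(laurentBaseChange K (modularFunctionFieldFull M)),
      w (heckeAlphaBar K M q g) = heckeBetaBar K M q g)
    (y : ↥(laurentBaseChange K (modularFunctionFieldFull (M * q))))
    (hy : (y : LaurentSeries K) ∈ modularFunctionFieldFullC K M) :
    ((w y : ↥(laurentBaseChange K (modularFunctionFieldFull (M * q)))) : LaurentSeries K) =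
      qExpand K q (y : LaurentSeries K) := by
  rw [← Fermat.Agent.S37.ALEmb.baseChange_eq_fullC K M] at hy
  have h1 : heckeAlphaBar K M q ⟨(y : LaurentSeries K), hy⟩ = y :=
    Subtype.ext (coe_heckeAlphaBar M q _)
  rw [← h1, hα, coe_heckeBetaBar, coe_heckeAlphaBar]

set_option synthInstance.maxHeartbeats 400000 in
include hΛ in
/-- **K2** in the `S37` convention: `F = laurentBaseChange K (modularFunctionFieldFull (M * q))`,
`w` the Atkin–Lehner involution of `S37/ALEmb.exists_alInvolution`. -/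
theorem ktv_isIntegral_iff_bar [Algebra ℚ K] (hM : (M : k) ≠ 0) (hqM : ¬ q ∣ M)
    (w : ↥(laurentBaseChange K (modularFunctionFieldFull (M * q))) ≃ₐ[K]
      ↥(laurentBaseChange K (modularFunctionFieldFull (M * q))))
    (hα : ∀ g : ↥(laurentBaseChange K (modularFunctionFieldFull M)),
      w (heckeAlphaBar K M q g) = heckeBetaBar K M q g)
    (hww : ∀ x, w (w x) = x)
    (j : ↥(laurentBaseChange K (modularFunctionFieldFull (M * q))))
    (hj : (j : LaurentSeries K) = jqModC K)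
    (z : ↥(laurentBaseChange K (modularFunctionFieldFull (M * q)))) :
    IsIntegral (gaussSub (piL hΛ) (prime_piL hΛ) j) z ↔
      z ∈ gaussV Λ res (laurentBaseChange K (modularFunctionFieldFull (M * q))) ∧
        w z ∈ gaussV Λ res (laurentBaseChange K (modularFunctionFieldFull (M * q))) :=
  haveI : CharZero K := algebraRat.charZero K
  ktv_isIntegral_iff_of_eq hΛ M q hM hqM _
    (Fermat.Agent.S37.ALEmb.baseChange_eq_fullC K (M * q)) w (ktv_hWα_of_alpha M q w hα) hww j hj z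

set_option synthInstance.maxHeartbeats 400000 in
include hΛ in
/-- **K2** (`e = 1`) in the `S37` convention. -/
theorem ktv_lemmaK_bar [Algebra ℚ K] (hM : (M : k) ≠ 0) (hqM : ¬ q ∣ M)
    (w : ↥(laurentBaseChange K (modularFunctionFieldFull (M * q))) ≃ₐ[K]
      ↥(laurentBaseChange K (modularFunctionFieldFull (M * q))))
    (hα : ∀ g : ↥(laurentBaseChange K (modularFunctionFieldFull M)),
      w (heckeAlphaBar K M q g) = heckeBetaBar K M q g)
    (hww : ∀ x, w (w x) = x)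
    (j : ↥(laurentBaseChange K (modularFunctionFieldFull (M * q))))
    (hj : (j : LaurentSeries K) = jqModC K)
    {z : ↥(laurentBaseChange K (modularFunctionFieldFull (M * q)))}
    (hz : z ∈ gaussV Λ res (laurentBaseChange K (modularFunctionFieldFull (M * q))))
    (hWz : w z ∈ gaussV Λ res (laurentBaseChange K (modularFunctionFieldFull (M * q))))
    (h1 : gaussRed Λ res (laurentBaseChange K (modularFunctionFieldFull (M * q))) ⟨z, hz⟩ = 0)
    (h2 : gaussRed Λ res (laurentBaseChange K (modularFunctionFieldFull (M * q))) ⟨w z, hWz⟩ = 0) :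
    ∃ δ : ↥(laurentBaseChange K (modularFunctionFieldFull (M * q))),
      IsIntegral (gaussSub (piL hΛ) (prime_piL hΛ) j) δ ∧ z = piL hΛ • δ :=
  haveI : CharZero K := algebraRat.charZero K
  ktv_lemmaK_of_eq hΛ M q hM hqM _
    (Fermat.Agent.S37.ALEmb.baseChange_eq_fullC K (M * q)) w (ktv_hWα_of_alpha M q w hα) hww j hj
    hz hWz h1 h2

include hΛ in
/-- **K4 / RES**, convention-free form. -/
theorem ktv_exists_gaussRed_eq_of_eq [CharZero K] (hqM : ¬ q ∣ M)
    (𝔉 𝔈 : IntermediateField K (LaurentSeries K))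
    (h𝔉 : 𝔉 = modularFunctionFieldFullC K (M * q)) (h𝔈 : 𝔈 = modularFunctionFieldFullC K M)
    (W : ↥𝔉 ≃ₐ[K] ↥𝔉)
    (hWα : ∀ y : ↥𝔉, (y : LaurentSeries K) ∈ modularFunctionFieldFullC K M →
      ((W y : ↥𝔉) : LaurentSeries K) = qExpand K q (y : LaurentSeries K))
    (hWW : ∀ y, W (W y) = y) (z : ↥(gaussV Λ res 𝔉)) :
    ∃ c : ↥(gaussV Λ res 𝔈), gaussRed Λ res 𝔉 z = gaussRed Λ res 𝔈 c := by
  subst h𝔉
  subst h𝔈
  exact ktv_exists_gaussRed_eq hΛ M q W hWα hWW hqM z

end Generic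

/-! ### The pinned statements of leaf TWOVAL (note 837, `S37` convention, `kronO`) -/

section Kron

variable {L k : Type*} [Field L] [Algebra ℚ L] [Field k] {Λ : Subring L} {π : L}
  {res : ↥Λ →+* k} (ι : L →+* ℂ) (M q : ℕ) [NeZero M] [NeZero q] (hcop : Nat.Coprime M q)

omit [NeZero M] [NeZero q] in
include hcop in
theorem ktv_not_dvd_of_coprime (hq : q.Prime) : ¬ q ∣ M := fun h =>
  hq.one_lt.ne' (Nat.Coprime.eq_one_of_dvd hcop.symm h)

omit [NeZero M] [NeZero q] in
include hcop in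
theorem ktv_natCast_ne_zero_of_coprime (hq : q.Prime) [CharP k q] : (M : k) ≠ 0 := fun h =>
  ktv_not_dvd_of_coprime M q hcop hq ((CharP.cast_eq_zero_iff k q M).mp h)

theorem ktv_coe_jL (N : ℕ) [NeZero N] :
    ((Fermat.Agent.S24.jL L N : ↥(laurentBaseChange L (modularFunctionFieldFull N))) :
      LaurentSeries L) = jqModC L := by
  show coeffEmb L jq = jqModC L
  rw [coeffEmb, ← jqModC_rat, coeffMap_jqModC]

set_option synthInstance.maxHeartbeats 400000 in
/-- TWO: `𝒪 = V_∞ ∩ V_0` is the integral closure of the Gauss ring `V_j` of `L(j)`. -/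
theorem kronO_isIntegral [CharZero L] (hΛ : IsGaussRing Λ π res) (hq : q.Prime) [CharP k q]
    {z : ↥(laurentBaseChange L (modularFunctionFieldFull (M * q)))}
    (hz : z ∈ kronO Λ res ι M q hcop) :
    IsIntegral (gaussSub (GaussL.piL hΛ) (GaussL.prime_piL hΛ) (Fermat.Agent.S24.jL L (M * q)))
      z :=
  haveI : Fact q.Prime := ⟨hq⟩
  (ktv_isIntegral_iff_bar hΛ M q (ktv_natCast_ne_zero_of_coprime M q hcop hq)
    (ktv_not_dvd_of_coprime M q hcop hq) (kronW L ι M q hcop) (kronW_alpha L ι M q hcop)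
    (kronW_kronW L ι M q hcop) (Fermat.Agent.S24.jL L (M * q)) (ktv_coe_jL (M * q)) z).mpr
    ((mem_kronO_iff Λ res ι M q hcop).mp hz)

set_option synthInstance.maxHeartbeats 400000 in
theorem mem_kronO_of_isIntegral [CharZero L] (hΛ : IsGaussRing Λ π res) (hq : q.Prime)
    [CharP k q]
    {z : ↥(laurentBaseChange L (modularFunctionFieldFull (M * q)))}
    (hz : IsIntegral (gaussSub (GaussL.piL hΛ) (GaussL.prime_piL hΛ)
      (Fermat.Agent.S24.jL L (M * q))) z) :
    z ∈ kronO Λ res ι M q hcop :=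
  haveI : Fact q.Prime := ⟨hq⟩
  (mem_kronO_iff Λ res ι M q hcop).mpr
    ((ktv_isIntegral_iff_bar hΛ M q (ktv_natCast_ne_zero_of_coprime M q hcop hq)
      (ktv_not_dvd_of_coprime M q hcop hq) (kronW L ι M q hcop) (kronW_alpha L ι M q hcop)
      (kronW_kronW L ι M q hcop) (Fermat.Agent.S24.jL L (M * q)) (ktv_coe_jL (M * q)) z).mp hz)

include ι hcop in
/-- RES: the residue field of `w_∞` is that of the Gauss valuation of `F_M`. -/
theorem kron_exists_gaussRed_eq [CharZero L] (hΛ : IsGaussRing Λ π res) (hq : q.Prime)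
    [CharP k q]
    (z : ↥(GaussL.gaussV Λ res (laurentBaseChange L (modularFunctionFieldFull (M * q))))) :
    ∃ c : ↥(GaussL.gaussV Λ res (laurentBaseChange L (modularFunctionFieldFull M))),
      GaussL.gaussRed Λ res (laurentBaseChange L (modularFunctionFieldFull (M * q))) z =
        GaussL.gaussRed Λ res (laurentBaseChange L (modularFunctionFieldFull M)) c :=
  haveI : Fact q.Prime := ⟨hq⟩
  ktv_exists_gaussRed_eq_of_eq hΛ M q (ktv_not_dvd_of_coprime M q hcop hq) _ _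
    (Fermat.Agent.S37.ALEmb.baseChange_eq_fullC L (M * q))
    (Fermat.Agent.S37.ALEmb.baseChange_eq_fullC L M) (kronW L ι M q hcop)
    (ktv_hWα_of_alpha M q (kronW L ι M q hcop) (kronW_alpha L ι M q hcop))
    (kronW_kronW L ι M q hcop) z

set_option synthInstance.maxHeartbeats 400000 in
/-- `e = 1` for the two vertical valuations: an element of `𝒪` with both reductions zero is
`π` times an element integral over the Gauss ring of the `j`-line. -/
theorem kronO_lemmaK [CharZero L] (hΛ : IsGaussRing Λ π res) (hq : q.Prime) [CharP k q]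
    (z : ↥(kronO Λ res ι M q hcop))
    (h1 : kronRedInf Λ res ι M q hcop z = 0) (h2 : kronRedZero Λ res ι M q hcop z = 0) :
    ∃ δ : ↥(laurentBaseChange L (modularFunctionFieldFull (M * q))),
      IsIntegral (gaussSub (GaussL.piL hΛ) (GaussL.prime_piL hΛ)
        (Fermat.Agent.S24.jL L (M * q))) δ ∧
      (z : ↥(laurentBaseChange L (modularFunctionFieldFull (M * q)))) = GaussL.piL hΛ • δ :=
  haveI : Fact q.Prime := ⟨hq⟩
  ktv_lemmaK_bar hΛ M q (ktv_natCast_ne_zero_of_coprime M q hcop hq)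
    (ktv_not_dvd_of_coprime M q hcop hq) (kronW L ι M q hcop) (kronW_alpha L ι M q hcop)
    (kronW_kronW L ι M q hcop) (Fermat.Agent.S24.jL L (M * q)) (ktv_coe_jL (M * q))
    z.2.1 z.2.2 h1 h2

end Kron

end Fermat.Agent.S34
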