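import Mathlib
import Fermat.Agent.S34.GalSdO
import Fermat.Agent.S34.KronGalO
import Fermat.Agent.S34.KronTwoVal
import Fermat.Agent.S34.GalInertia
import Fermat.Agent.S34.GalKummerField
import Fermat.Agent.S34.AbsLocf
import Fermat.Agent.S18.GaussLineK

/-!
# P19 (S34), block GAL, G2 final: (SD) and (TRIV) for inertia at level `M * q`

Setting: `K ⊆ ℚ̄` a number field normal over `ℚ`, `Λ = A ∩ K`, `F = F_{Mq,K}`,
`j = S24.jL K (M * q)`, `V = gaussSub π _ j` the Gauss ring of `Λ(j)`, and for `σ` in the inertia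
group of `A` the automorphism `T_σ = arithmeticRingAut _ (σ.restrictNormal K)` of `F`.

* `s34gal_stable_K`, `s34gal_stable_lam` : `T_σ` preserves integrality over `K[t]` and `Λ[t]`,
  `t = j` or `t = j⁻¹`;
* `s34gal_sd_V` : (SD) second differences are `V`-integral and `≡ 1 mod π`;
* `s34gal_triv_V`, `s34gal_triv_chart` : (TRIV) `T_σ b ≡ b mod π` on the integral closure of `V`
  and on the integral closures of `Λ[j]`, `Λ[j⁻¹]`.
-/

set_option autoImplicit false
set_option linter.unusedSectionVars false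
set_option linter.style.haveILetI false

namespace Fermat.Agent.S34

open ModularCurve AlgebraicCurve IntermediateField

local notation "Qb" => AlgebraicClosure ℚ

open Fermat.Agent.S18 Fermat.Agent.S18.NumField Fermat.Agent.S18.GaussL
  Fermat.Agent.S28.FreeBasisAbs

section Abstract

/-- A ring automorphism fixing `t` and preserving the image of `R` preserves `R[t]`. -/
theorem s34st_mem_adjoin {R F : Type*} [CommRing R] [Field F] [Algebra R F]
    (T : F ≃+* F) (t : F) (hTt : T t = t)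
    (hTR : ∀ r : R, ∃ r' : R, T (algebraMap R F r) = algebraMap R F r')
    {s : F} (hs : s ∈ Algebra.adjoin R {t}) : T s ∈ Algebra.adjoin R {t} := by
  induction hs using Algebra.adjoin_induction with
  | mem x hx =>
    rw [Set.mem_singleton_iff.mp hx, hTt]
    exact Algebra.subset_adjoin rfl
  | algebraMap r =>
    obtain ⟨r', hr'⟩ := hTR r
    rw [hr']
    exact Subalgebra.algebraMap_mem _ r'
  | add x y _ _ hx hy => rw [map_add]; exact add_mem hx hy
  | mul x y _ _ hx hy => rw [map_mul]; exact mul_mem hx hy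

/-- A ring automorphism fixing `t` and preserving the image of `R` preserves integrality over
`R[t]`. -/
theorem s34st_isIntegral_adjoin {R F : Type*} [CommRing R] [Field F] [Algebra R F]
    (T : F ≃+* F) (t : F) (hTt : T t = t)
    (hTR : ∀ r : R, ∃ r' : R, T (algebraMap R F r) = algebraMap R F r')
    {y : F} (hy : IsIntegral (Algebra.adjoin R {t}) y) :
    IsIntegral (Algebra.adjoin R {t}) (T y) := by
  let φ : ↥(Algebra.adjoin R {t}) →+* ↥(Algebra.adjoin R {t}) :=
    ((T : F →+* F).comp (Algebra.adjoin R {t}).toSubring.subtype).codRestrict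
      (Algebra.adjoin R {t}).toSubring (fun s => s34st_mem_adjoin T t hTt hTR s.2)
  exact IsIntegral.map_of_comp_eq φ (T : F →+* F) (RingHom.ext fun s => rfl) hy

/-- Integrality over a ring whose image lies in the subring `V` implies integrality over `V`. -/
theorem s34st_isIntegral_subring {S F : Type*} [CommRing S] [Field F] [Algebra S F]
    (V : Subring F) (h : ∀ s : S, algebraMap S F s ∈ V) {y : F} (hy : IsIntegral S y) :
    IsIntegral V y := by
  have h1 := IsIntegral.map_of_comp_eq ((algebraMap S F).codRestrict V h) (RingHom.id F)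
    (RingHom.ext fun s => rfl) hy
  simpa using h1

end Abstract

section Concrete

variable (A : ValuationSubring Qb) {q : ℕ} [Fact q.Prime]
  (K : IntermediateField ℚ Qb) [FiniteDimensional ℚ ↥K] [Normal ℚ ↥K]
  (ι : ↥K →+* ℂ) (M : ℕ) [NeZero M] [NeZero q] (hcop : Nat.Coprime M q)

/-- The inverse of the coefficientwise action is the coefficientwise action of the inverse. -/
theorem s34gal_ringAut_symm (F₀ : IntermediateField ℚ (LaurentSeries ℚ)) (σ : Qb ≃ₐ[ℚ] Qb)
    (x : ↥(laurentBaseChange (↥K) F₀)) :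
    (arithmeticRingAut F₀ (σ.restrictNormal ↥K)).symm x =
      arithmeticRingAut F₀ ((σ⁻¹ : Qb ≃ₐ[ℚ] Qb).restrictNormal ↥K) x := by
  have hpt : ∀ a : ↥K, (σ.restrictNormal ↥K).symm a = (σ⁻¹ : Qb ≃ₐ[ℚ] Qb).restrictNormal ↥K a := by
    intro a
    apply (σ.restrictNormal ↥K).injective
    rw [AlgEquiv.apply_symm_apply]
    apply (algebraMap ↥K Qb).injective
    rw [AlgEquiv.restrictNormal_commutes, AlgEquiv.restrictNormal_commutes]
    exact (AlgEquiv.apply_symm_apply σ _).symm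
  refine Subtype.ext ?_
  show coeffMap ((σ.restrictNormal ↥K).symm : ↥K →+* ↥K) (x : LaurentSeries ↥K) =
    coeffMap (((σ⁻¹ : Qb ≃ₐ[ℚ] Qb).restrictNormal ↥K : ↥K ≃ₐ[ℚ] ↥K) : ↥K →+* ↥K)
      (x : LaurentSeries ↥K)
  exact coeffMap_congr (RingHom.ext hpt) _

/-- Inertia preserves `Λ = A ∩ K`. -/
theorem s34gal_restrict_mem_lam {σ : Qb ≃ₐ[ℚ] Qb} (hσ : σ ∈ A.inertiaSubgroupIn ℚ)
    (a : ↥K) (ha : a ∈ (lam A K).toSubring) : σ.restrictNormal ↥K a ∈ (lam A K).toSubring := by
  obtain ⟨b, hb, -⟩ := s34gal_inertia_lam A K hσ ⟨a, ha⟩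
  rw [← hb]
  exact b.2

/-- Inertia acts trivially on the residue field of `Λ`. -/
theorem s34gal_restrict_res {σ : Qb ≃ₐ[ℚ] Qb} (hσ : σ ∈ A.inertiaSubgroupIn ℚ)
    (a : ↥(lam A K).toSubring) :
    lamRes A K ⟨σ.restrictNormal ↥K (a : ↥K), s34gal_restrict_mem_lam A K hσ a a.2⟩ =
      RingHom.id _ (lamRes A K a) := by
  obtain ⟨b, hb, hb2⟩ := s34gal_inertia_lam A K hσ a
  have h : (⟨σ.restrictNormal ↥K (a : ↥K), s34gal_restrict_mem_lam A K hσ a a.2⟩ :
      ↥(lam A K).toSubring) = b := Subtype.ext hb.symm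
  rw [h, hb2]
  rfl

set_option synthInstance.maxHeartbeats 400000 in
/-- (a) `T_σ` maps the constants `Λ` into `Λ`. -/
theorem s34gal_T_lam (F₀ : IntermediateField ℚ (LaurentSeries ℚ)) {σ : Qb ≃ₐ[ℚ] Qb}
    (hσ : σ ∈ A.inertiaSubgroupIn ℚ) (c : ↥(lam A K).toSubring) :
    ∃ c' : ↥(lam A K).toSubring,
      arithmeticRingAut F₀ (σ.restrictNormal ↥K)
        (algebraMap ↥(lam A K).toSubring ↥(laurentBaseChange (↥K) F₀) c) =
      algebraMap ↥(lam A K).toSubring ↥(laurentBaseChange (↥K) F₀) c' := by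
  refine ⟨⟨σ.restrictNormal ↥K (c : ↥K), s34gal_restrict_mem_lam A K hσ c c.2⟩, ?_⟩
  exact arithmeticRingAut_algebraMap F₀ (σ.restrictNormal ↥K) (c : ↥K)

set_option synthInstance.maxHeartbeats 400000 in
/-- (a′) `T_σ⁻¹` maps the constants `Λ` into `Λ`. -/
theorem s34gal_T_symm_lam (F₀ : IntermediateField ℚ (LaurentSeries ℚ)) {σ : Qb ≃ₐ[ℚ] Qb}
    (hσ : σ ∈ A.inertiaSubgroupIn ℚ) (c : ↥(lam A K).toSubring) :
    ∃ c' : ↥(lam A K).toSubring,
      (arithmeticRingAut F₀ (σ.restrictNormal ↥K)).symm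
        (algebraMap ↥(lam A K).toSubring ↥(laurentBaseChange (↥K) F₀) c) =
      algebraMap ↥(lam A K).toSubring ↥(laurentBaseChange (↥K) F₀) c' := by
  obtain ⟨c', hc'⟩ := s34gal_T_lam A K F₀ (inv_mem hσ) c
  exact ⟨c', (s34gal_ringAut_symm K F₀ σ _).trans hc'⟩

/-- A prime element of `Λ` (as a subring) is irreducible in `Λ` (as a valuation subring). -/
theorem s34gal_irreducible_of_prime {ϖ : ↥(lam A K).toSubring} (hϖ : Prime ϖ) :
    Irreducible (show ↥(lam A K) from ϖ) :=
  hϖ.irreducible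

include ι hcop in
set_option synthInstance.maxHeartbeats 400000 in
set_option maxHeartbeats 1000000 in
/-- (b) **(TRIV)** at the Gauss ring: inertia acts trivially modulo `ϖ` on the integral closure of
`V = gaussSub ϖ _ j`. -/
theorem s34gal_triv_V (hA : A.LiesOverPrime q) {ϖ : ↥(lam A K).toSubring} (hϖ : Prime ϖ)
    {σ : Qb ≃ₐ[ℚ] Qb} (hσ : σ ∈ A.inertiaSubgroupIn ℚ)
    (b : ↥(laurentBaseChange (↥K) (modularFunctionFieldFull (M * q))))
    (hb : IsIntegral (gaussSub ϖ hϖ (Fermat.Agent.S24.jL ↥K (M * q))) b) :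
    ∃ δ : ↥(laurentBaseChange (↥K) (modularFunctionFieldFull (M * q))),
      IsIntegral (gaussSub ϖ hϖ (Fermat.Agent.S24.jL ↥K (M * q))) δ ∧
      arithmeticRingAut (modularFunctionFieldFull (M * q)) (σ.restrictNormal ↥K) b - b = ϖ • δ := by
  have hΛ := isGaussRing_lam hA (s34gal_irreducible_of_prime A K hϖ)
  haveI : CharP (IsLocalRing.ResidueField (lam A K)) q := charP_residueField_lam K hA
  have hq : q.Prime := Fact.out
  have hb' : b ∈ kronO (lam A K).toSubring (lamRes A K) ι M q hcop :=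
    mem_kronO_of_isIntegral ι M q hcop hΛ hq hb
  have hTb := kronO_ringAut_mem ι M q hcop hq (σ.restrictNormal ↥K)
    (s34gal_restrict_mem_lam A K hσ) (RingHom.id _) (s34gal_restrict_res A K hσ) hb'
  have h1 := kronRedInf_ringAut ι M q hcop hq (σ.restrictNormal ↥K)
    (s34gal_restrict_mem_lam A K hσ) (RingHom.id _) (s34gal_restrict_res A K hσ) hb'
  have h2 := kronRedZero_ringAut ι M q hcop hq (σ.restrictNormal ↥K)
    (s34gal_restrict_mem_lam A K hσ) (RingHom.id _) (s34gal_restrict_res A K hσ) hb'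
  rw [coeffMap_id] at h1 h2
  have hsub : arithmeticRingAut (modularFunctionFieldFull (M * q)) (σ.restrictNormal ↥K) b - b ∈
      kronO (lam A K).toSubring (lamRes A K) ι M q hcop := sub_mem hTb hb'
  have hr1 : kronRedInf (lam A K).toSubring (lamRes A K) ι M q hcop ⟨_, hsub⟩ = 0 := by
    have : (⟨_, hsub⟩ : ↥(kronO (lam A K).toSubring (lamRes A K) ι M q hcop)) =
        ⟨_, hTb⟩ - ⟨b, hb'⟩ := rfl
    rw [this, map_sub, h1, sub_self]
  have hr2 : kronRedZero (lam A K).toSubring (lamRes A K) ι M q hcop ⟨_, hsub⟩ = 0 := by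
    have : (⟨_, hsub⟩ : ↥(kronO (lam A K).toSubring (lamRes A K) ι M q hcop)) =
        ⟨_, hTb⟩ - ⟨b, hb'⟩ := rfl
    rw [this, map_sub, h2, sub_self]
  exact kronO_lemmaK ι M q hcop hΛ hq ⟨_, hsub⟩ hr1 hr2

include ι hcop in
set_option synthInstance.maxHeartbeats 400000 in
set_option maxHeartbeats 1000000 in
/-- (c) **(SD)** at the Gauss ring: second differences under inertia are integral over
`V = gaussSub ϖ _ j` and `≡ 1` modulo `ϖ`. -/
theorem s34gal_sd_V (hA : A.LiesOverPrime q) {ϖ : ↥(lam A K).toSubring} (hϖ : Prime ϖ)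
    {τ τ' : Qb ≃ₐ[ℚ] Qb} (hτ : τ ∈ A.inertiaSubgroupIn ℚ) (hτ' : τ' ∈ A.inertiaSubgroupIn ℚ)
    (h : ↥(laurentBaseChange (↥K) (modularFunctionFieldFull (M * q)))) (hh : h ≠ 0) :
    IsIntegral (gaussSub ϖ hϖ (Fermat.Agent.S24.jL ↥K (M * q)))
        (absSd (arithmeticRingAut (modularFunctionFieldFull (M * q)) (τ.restrictNormal ↥K))
          (arithmeticRingAut (modularFunctionFieldFull (M * q)) (τ'.restrictNormal ↥K)) h) ∧
      ∃ δ : ↥(laurentBaseChange (↥K) (modularFunctionFieldFull (M * q))),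
        IsIntegral (gaussSub ϖ hϖ (Fermat.Agent.S24.jL ↥K (M * q))) δ ∧
        absSd (arithmeticRingAut (modularFunctionFieldFull (M * q)) (τ.restrictNormal ↥K))
          (arithmeticRingAut (modularFunctionFieldFull (M * q)) (τ'.restrictNormal ↥K)) h - 1 =
          ϖ • δ := by
  have hΛ := isGaussRing_lam hA (s34gal_irreducible_of_prime A K hϖ)
  haveI : CharP (IsLocalRing.ResidueField (lam A K)) q := charP_residueField_lam K hA
  have hq : q.Prime := Fact.out
  obtain ⟨hz, hz1, hz2⟩ := s34gal_sd_mem_kronO A K ι M hcop hA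
    (s34gal_irreducible_of_prime A K hϖ) hτ hτ' hh
  refine ⟨kronO_isIntegral ι M q hcop hΛ hq hz, ?_⟩
  have hsub : absSd (arithmeticRingAut (modularFunctionFieldFull (M * q)) (τ.restrictNormal ↥K))
      (arithmeticRingAut (modularFunctionFieldFull (M * q)) (τ'.restrictNormal ↥K)) h - 1 ∈
      kronO (lam A K).toSubring (lamRes A K) ι M q hcop := sub_mem hz (one_mem _)
  have hr1 : kronRedInf (lam A K).toSubring (lamRes A K) ι M q hcop ⟨_, hsub⟩ = 0 := by
    have : (⟨_, hsub⟩ : ↥(kronO (lam A K).toSubring (lamRes A K) ι M q hcop)) =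
        ⟨_, hz⟩ - 1 := rfl
    rw [this, map_sub, hz1, map_one, sub_self]
  have hr2 : kronRedZero (lam A K).toSubring (lamRes A K) ι M q hcop ⟨_, hsub⟩ = 0 := by
    have : (⟨_, hsub⟩ : ↥(kronO (lam A K).toSubring (lamRes A K) ι M q hcop)) =
        ⟨_, hz⟩ - 1 := rfl
    rw [this, map_sub, hz2, map_one, sub_self]
  exact kronO_lemmaK ι M q hcop hΛ hq ⟨_, hsub⟩ hr1 hr2

end Concrete

end Fermat.Agent.S34
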