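import Mathlib
import Fermat.Agent.S18.Basic

/-!
# P19 (S34), block ABS, sub-lemmas of the Kummer engine: conjugates and lifts

* `abs_kummer_exists_conj`: a root `w` of `X ^ m - z` which is not in `F` has a conjugate
  `ζ ^ c * w` with `ζ ^ c ≠ 1`.
* `abs_kummer_isIntegral_conj`: integrality over `Vj ⊆ F` of a polynomial expression in `w`
  transfers to every root `w'` of the minimal polynomial of `w`.
* `abs_kummer_gauss_lift`: the Gauss ring of `Λ(j) ⊆ 𝔽` with `j ∈ F` lies in `F`.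
-/

set_option autoImplicit false

namespace Fermat.Agent.S34

open Polynomial

theorem abs_kummer_exists_conj {F 𝔽 : Type*} [Field F] [Field 𝔽] [Algebra F 𝔽] (m : ℕ) (hm : 0 < m) (ζ : 𝔽) (hζ : IsPrimitiveRoot ζ m) (z : F) (w : 𝔽)
    (hw : w ^ m = algebraMap F 𝔽 z) (hwF : w ∉ (algebraMap F 𝔽).range) :
    ∃ c : ℕ, c < m ∧ ζ ^ c ≠ 1 ∧ aeval (ζ ^ c * w) (minpoly F w) = 0 := by
  classical
  have hroot : aeval w (X ^ m - C z : F[X]) = 0 := by
    rw [map_sub, map_pow, aeval_X, aeval_C, hw, sub_self]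
  have hwint : IsIntegral F w := ⟨X ^ m - C z, monic_X_pow_sub_C z hm.ne', hroot⟩
  have hdvd : minpoly F w ∣ X ^ m - C z := minpoly.dvd F w hroot
  have hdeg : 2 ≤ (minpoly F w).natDegree := (minpoly.two_le_natDegree_iff hwint).mpr hwF
  by_contra hcon
  have hcon' : ∀ c : ℕ, c < m → ζ ^ c ≠ 1 → aeval (ζ ^ c * w) (minpoly F w) ≠ 0 := by
    intro c hc hc1 h0
    exact hcon ⟨c, hc, hc1, h0⟩
  set Pm : 𝔽[X] := (minpoly F w).map (algebraMap F 𝔽) with hPm
  have hdvd' : Pm ∣ ∏ i ∈ Finset.range m, (X - C (ζ ^ i * w)) := by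
    rw [← X_pow_sub_C_eq_prod hζ hm hw]
    have h1 := Polynomial.map_dvd (algebraMap F 𝔽) hdvd
    rwa [Polynomial.map_sub, Polynomial.map_pow, map_X, map_C] at h1
  have h0mem : 0 ∈ Finset.range m := Finset.mem_range.mpr hm
  rw [← Finset.mul_prod_erase _ _ h0mem] at hdvd'
  have hcop : IsCoprime Pm (∏ i ∈ (Finset.range m).erase 0, (X - C (ζ ^ i * w))) := by
    refine IsCoprime.prod_right fun i hi => ?_
    have hi0 : i ≠ 0 := Finset.ne_of_mem_erase hi
    have him : i < m := Finset.mem_range.mp (Finset.mem_of_mem_erase hi)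
    have hζi : ζ ^ i ≠ 1 := hζ.pow_ne_one_of_pos_of_lt hi0 him
    refine IsCoprime.symm (((irreducible_X_sub_C (ζ ^ i * w)).coprime_iff_not_dvd).mpr ?_)
    rw [dvd_iff_isRoot, IsRoot.def, hPm, eval_map_algebraMap]
    exact hcon' i him hζi
  have hdvd1 : Pm ∣ X - C (ζ ^ 0 * w) := hcop.dvd_of_dvd_mul_right hdvd'
  have hle : Pm.natDegree ≤ 1 := by
    have h1 := natDegree_le_of_dvd hdvd1 (X_sub_C_ne_zero _)
    rwa [natDegree_X_sub_C] at h1
  rw [hPm, natDegree_map] at hle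
  omega

set_option linter.unusedVariables false in
theorem abs_kummer_isIntegral_conj {F 𝔽 : Type*} [Field F] [Field 𝔽] [Algebra F 𝔽] (Vj : Subring 𝔽) (φ : Vj →+* F) (hφ : ∀ v : Vj, algebraMap F 𝔽 (φ v) = v)
    (w w' : 𝔽) (hwint : IsIntegral F w) (hw' : aeval w' (minpoly F w) = 0) (N : F[X]) (h : IsIntegral Vj (aeval w N)) : IsIntegral Vj (aeval w' N) := by
  obtain ⟨G, hG, hG0⟩ := h
  have hcomp : (algebraMap F 𝔽).comp φ = algebraMap Vj 𝔽 := RingHom.ext fun v => hφ v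
  have key : ∀ x : 𝔽, aeval x ((G.map φ).comp N) = eval₂ (algebraMap Vj 𝔽) (aeval x N) G := by
    intro x
    rw [aeval_comp, aeval_def, eval₂_map, hcomp]
  have h0 : aeval w ((G.map φ).comp N) = 0 := by rw [key, hG0]
  obtain ⟨H, hH⟩ := minpoly.dvd F w h0
  refine ⟨G, hG, ?_⟩
  rw [← key, hH, map_mul, hw', zero_mul]

theorem abs_kummer_gauss_lift {Λ F 𝔽 : Type*} [CommRing Λ] [IsDomain Λ] [Field F] [Field 𝔽] [Algebra Λ F] [Algebra Λ 𝔽] [Algebra F 𝔽] [IsScalarTower Λ F 𝔽] (π : Λ) (hπ : Prime π) (j : F) (hj : Transcendental Λ j) :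
    ∃ φ : ↥(Fermat.Agent.S18.gaussSub π hπ (algebraMap F 𝔽 j)) →+* F, ∀ v : ↥(Fermat.Agent.S18.gaussSub π hπ (algebraMap F 𝔽 j)), algebraMap F 𝔽 (φ v) = v := by
  have hex : ∀ v : ↥(Fermat.Agent.S18.gaussSub π hπ (algebraMap F 𝔽 j)),
      ∃ u : F, algebraMap F 𝔽 u = v := by
    rintro ⟨v, a, b, hb, hab⟩
    have hb0 : b ≠ 0 := by
      rintro rfl
      exact hb (dvd_zero _)
    have hB : aeval j b ≠ 0 := fun h0 => hb0 ((transcendental_iff.mp hj) b h0)
    have hB' : algebraMap F 𝔽 (aeval j b) ≠ 0 := by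
      rwa [Ne, map_eq_zero]
    refine ⟨aeval j a / aeval j b, ?_⟩
    rw [aeval_algebraMap_apply, aeval_algebraMap_apply] at hab
    rw [map_div₀, div_eq_iff hB']
    exact hab.symm
  choose φ₀ hφ₀ using hex
  have hinj : Function.Injective (algebraMap F 𝔽) := (algebraMap F 𝔽).injective
  refine ⟨{ toFun := φ₀
            map_one' := hinj (by rw [hφ₀, map_one]; rfl)
            map_mul' := fun a b => hinj (by rw [hφ₀, map_mul, hφ₀, hφ₀]; rfl)
            map_zero' := hinj (by rw [hφ₀, map_zero]; rfl)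
            map_add' := fun a b => hinj (by rw [hφ₀, map_add, hφ₀, hφ₀]; rfl) }, hφ₀⟩

end Fermat.Agent.S34
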