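import Mathlib

/-!
P19 (S34), block ABS, sub-lemmas of the Kummer engine (ABS-1'): the Kummer idempotent
`e(T) = n' * ∑_{l < m} T ^ l` (`n' = 1 / m`) and its elementary identities.
-/

set_option autoImplicit false

namespace Fermat.Agent.S34

open Finset

/-- The Kummer idempotent `n' * ∑_{l < m} T ^ l`. -/
def absKummerE {R : Type*} [CommRing R] (m : ℕ) (n' T : R) : R := n' * ∑ l ∈ range m, T ^ l

/-- `∑_{l < m} T ^ l - m = (∑_{l < m} ∑_{k < l} T ^ k) * (T - 1)`. -/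
theorem akI_sum_sub {R : Type*} [CommRing R] (m : ℕ) (T : R) :
    ∑ l ∈ range m, T ^ l - (m : R) = (∑ l ∈ range m, ∑ k ∈ range l, T ^ k) * (T - 1) := by
  rw [sum_mul]
  have h : ∀ l ∈ range m, (∑ k ∈ range l, T ^ k) * (T - 1) = T ^ l - 1 := fun l _ =>
    geom_sum_mul T l
  rw [sum_congr rfl h, sum_sub_distrib, sum_const, card_range, nsmul_eq_mul, mul_one]

theorem abs_kummer_idem {R : Type*} [CommRing R] (m : ℕ) (n' T : R) (hn : (m : R) * n' = 1) :
    absKummerE m n' T ^ 2 - absKummerE m n' T =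
      (T ^ m - 1) * (n' ^ 2 * ∑ l ∈ range m, ∑ k ∈ range l, T ^ k) := by
  have hs := geom_sum_mul T m
  have hD := akI_sum_sub m T
  unfold absKummerE
  linear_combination (n' * ∑ l ∈ range m, T ^ l) * hn +
    (n' ^ 2 * ∑ l ∈ range m, ∑ k ∈ range l, T ^ k) * hs +
    (n' ^ 2 * ∑ l ∈ range m, T ^ l) * hD

theorem abs_kummer_mul {R : Type*} [CommRing R] (m : ℕ) (n' T : R) :
    T * absKummerE m n' T = absKummerE m n' T + n' * (T ^ m - 1) := by
  have hs := geom_sum_mul T m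
  unfold absKummerE
  linear_combination n' * hs

theorem abs_kummer_sum {R : Type*} [CommRing R] [IsDomain R] (m : ℕ) (n' T η : R)
    (hn : (m : R) * n' = 1) (hη : IsPrimitiveRoot η m) :
    ∑ i ∈ range m, absKummerE m n' (T * η ^ i) = 1 := by
  have hm0 : m ≠ 0 := by
    rintro rfl
    rw [Nat.cast_zero, zero_mul] at hn
    exact zero_ne_one hn
  unfold absKummerE
  rw [← mul_sum, sum_comm]
  have key : ∀ l ∈ range m,
      ∑ i ∈ range m, (T * η ^ i) ^ l = if l = 0 then (m : R) else 0 := by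
    intro l hl
    split_ifs with h0
    · subst h0
      simp
    · have hξ : η ^ l ≠ 1 := hη.pow_ne_one_of_pos_of_lt h0 (mem_range.mp hl)
      have h1 : (∑ i ∈ range m, (η ^ l) ^ i) * (η ^ l - 1) = 0 := by
        rw [geom_sum_mul, ← pow_mul, mul_comm, pow_mul, hη.pow_eq_one, one_pow, sub_self]
      have h2 : ∑ i ∈ range m, (η ^ l) ^ i = 0 :=
        (mul_eq_zero.mp h1).resolve_right (sub_ne_zero.mpr hξ)
      calc ∑ i ∈ range m, (T * η ^ i) ^ l = T ^ l * ∑ i ∈ range m, (η ^ l) ^ i := by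
            rw [mul_sum]
            refine sum_congr rfl fun i _ => ?_
            rw [mul_pow, ← pow_mul, ← pow_mul, mul_comm i l]
        _ = 0 := by rw [h2, mul_zero]
  rw [sum_congr rfl key, sum_ite_eq', if_pos (mem_range.mpr (Nat.pos_of_ne_zero hm0)), mul_comm]
  exact hn

theorem abs_kummer_isUnit_one_sub {Λ : Type*} [CommRing Λ] [IsDomain Λ] (m : ℕ) (ζ : Λ)
    (hζ : IsPrimitiveRoot ζ m) (hm : IsUnit (m : Λ)) (c : ℕ) (hc0 : c ≠ 0) (hc : c < m) :
    IsUnit (1 - ζ ^ c) := by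
  obtain ⟨n, rfl⟩ : ∃ n, m = n + 1 := ⟨m - 1, by omega⟩
  obtain ⟨k, rfl⟩ : ∃ k, c = k + 1 := ⟨c - 1, by omega⟩
  have hprod := hζ.prod_one_sub_pow_eq_order
  have hu : IsUnit (∏ k ∈ range n, (1 - ζ ^ (k + 1))) := by
    rw [hprod]
    exact_mod_cast hm
  exact isUnit_of_dvd_unit
    (dvd_prod_of_mem (fun k => 1 - ζ ^ (k + 1)) (mem_range.mpr (by omega : k < n))) hu

theorem abs_kummer_sub {R : Type*} [CommRing R] (m : ℕ) (n' T g : R) :
    absKummerE m n' (T * g) - absKummerE m n' T =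
      (g - 1) * (n' * ∑ l ∈ range m, T ^ l * ∑ k ∈ range l, g ^ k) := by
  unfold absKummerE
  have h : ∀ l ∈ range m, (T * g) ^ l - T ^ l = (g - 1) * (T ^ l * ∑ k ∈ range l, g ^ k) := by
    intro l _
    have h1 := geom_sum_mul g l
    rw [mul_pow]
    linear_combination (-(T ^ l)) * h1
  rw [← mul_sub, ← sum_sub_distrib, sum_congr rfl h, ← mul_sum]
  ring

theorem abs_kummer_scale {R : Type*} [CommRing R] (m : ℕ) (n' T c θ : R) (hθ : θ = c * T) :
    c ^ (m - 1) * absKummerE m n' T = n' * ∑ l ∈ range m, c ^ (m - 1 - l) * θ ^ l := by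
  subst hθ
  unfold absKummerE
  rw [mul_left_comm, mul_sum]
  congr 1
  refine sum_congr rfl fun l hl => ?_
  have hl' := mem_range.mp hl
  rw [mul_pow, ← mul_assoc, ← pow_add]
  congr 2
  omega

end Fermat.Agent.S34
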