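import Fermat.Agent.S34.EngineEps
import Fermat.Agent.S18.Final
import Fermat.Agent.S34.AbsKummerIdem
import Fermat.Agent.S34.AbsKummerConj

/-!
P19 (S34), block ABS, leaf ABS-1′ (note 819): the **Kummer engine**.

Setting: `Λ` a discrete valuation ring with uniformiser `π` and fraction field `K`; `F` a function
field over `K` with a transcendental coordinate `j`; `𝔽 ⊇ F` a finite extension of `K(j)` in which
`K` is algebraically closed; `w ∈ 𝔽` an `m`-th root of `z ∈ F`, where `m` is a unit of `Λ` and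
`Λ ∋ ζ` a primitive `m`-th root of unity; `z ≡ 1 (mod π)` integrally over the Gauss ring of `j`;
and at every closed point of the special fibre of the two charts (`j`, `j⁻¹`) of the normal model
of `F` the element `z` is, up to a unit at that point, an `m`-th power of some `g ≡ 1 (mod π)`.
Then `w ∈ F`.

Proof.  The Lagrange elements `ε i = m⁻¹ ∑ l < m, (w ζ ^ i) ^ l` are idempotent modulo `π`, sum to
`1` and satisfy `(w ζ ^ i - 1) ε i ≡ 0`.  They lift locally (the ideal of denominators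
`{b | ∃ e ∈ S, b ε ≡ e}` is not contained in any maximal ideal of the chart, by the local
hypothesis), hence are trivial modulo `π` by the global step of the engine
(`s34_eq_zero_or_one_of_lift`); so some `ε a ≡ 1`, i.e. `w ζ ^ a ≡ 1 (mod π)`.  If `w ∉ F`, a
conjugate `ζ ^ c w` (`ζ ^ c ≠ 1`) satisfies the same congruence, whence `π ∣ ζ ^ c - 1`, which is
a unit.
-/

set_option autoImplicit false

namespace Fermat.Agent.S34

open Fermat.Agent.S18 Polynomial IntermediateField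

section Transport

variable {Λ F 𝔽 : Type*} [CommRing Λ] [Field F] [Field 𝔽] [Algebra Λ F] [Algebra Λ 𝔽]
  [Algebra F 𝔽] [IsScalarTower Λ F 𝔽]

/-- The Gauss ring of `j` maps into the Gauss ring of the image of `j`. -/
theorem s34ke_mem_gaussSub_map (π : Λ) (hπ : Prime π) (j : F) {v : F}
    (hv : v ∈ gaussSub π hπ j) : algebraMap F 𝔽 v ∈ gaussSub π hπ (algebraMap F 𝔽 j) := by
  obtain ⟨a, b, hb, h⟩ := hv
  refine ⟨a, b, hb, ?_⟩
  rw [aeval_algebraMap_apply, aeval_algebraMap_apply, ← map_mul, h]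

/-- Integrality over the Gauss ring is preserved by the field embedding. -/
theorem s34ke_isIntegral_gaussSub_map (π : Λ) (hπ : Prime π) (j : F) {δ : F}
    (hδ : IsIntegral (gaussSub π hπ j) δ) :
    IsIntegral (gaussSub π hπ (algebraMap F 𝔽 j)) (algebraMap F 𝔽 δ) := by
  let φ : ↥(gaussSub π hπ j) →+* ↥(gaussSub π hπ (algebraMap F 𝔽 j)) :=
    ((algebraMap F 𝔽).comp (gaussSub π hπ j).subtype).codRestrict
      (gaussSub π hπ (algebraMap F 𝔽 j)) (fun v => s34ke_mem_gaussSub_map π hπ j v.2)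
  exact IsIntegral.map_of_comp_eq (R := ↥(gaussSub π hπ j)) (S := F)
    (T := ↥(gaussSub π hπ (algebraMap F 𝔽 j))) (U := 𝔽) φ (algebraMap F 𝔽) (by ext x; rfl) hδ

/-- Integrality over `Λ[t]` is preserved by the field embedding. -/
theorem s34ke_isIntegral_adjoin_map (t : F) {b : F} (hb : IsIntegral (Algebra.adjoin Λ {t}) b) :
    IsIntegral (Algebra.adjoin Λ {algebraMap F 𝔽 t}) (algebraMap F 𝔽 b) := by
  have hmem : ∀ v ∈ Algebra.adjoin Λ {t},
      algebraMap F 𝔽 v ∈ Algebra.adjoin Λ {algebraMap F 𝔽 t} := by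
    intro v hv
    have h : (IsScalarTower.toAlgHom Λ F 𝔽) v ∈
        (Algebra.adjoin Λ {t}).map (IsScalarTower.toAlgHom Λ F 𝔽) := ⟨v, hv, rfl⟩
    rw [AlgHom.map_adjoin, Set.image_singleton] at h
    exact h
  let φ : ↥(Algebra.adjoin Λ {t}) →+* ↥(Algebra.adjoin Λ {algebraMap F 𝔽 t}) :=
    ((algebraMap F 𝔽).comp ((Algebra.adjoin Λ {t}).val : ↥(Algebra.adjoin Λ {t}) →+* F)).codRestrict
      (Algebra.adjoin Λ {algebraMap F 𝔽 t}) (fun v => hmem v.1 v.2)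
  exact IsIntegral.map_of_comp_eq (R := ↥(Algebra.adjoin Λ {t})) (S := F)
    (T := ↥(Algebra.adjoin Λ {algebraMap F 𝔽 t})) (U := 𝔽) φ (algebraMap F 𝔽) (by ext x; rfl) hb

end Transport

/-- **Local lifting of the Lagrange element** in one chart `Λ[t]` (the ideal trick). -/
theorem s34ke_lift
    {Λ F 𝔽 : Type*} [CommRing Λ] [IsDomain Λ] [Field F] [Field 𝔽] [Algebra Λ F] [Algebra Λ 𝔽]
    [Algebra F 𝔽] [IsScalarTower Λ F 𝔽]
    (π : Λ) (VF : Subring F) (V : Subring 𝔽)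
    (hVF : ∀ δ : F, IsIntegral VF δ → IsIntegral V (algebraMap F 𝔽 δ))
    (t : F)
    (hSV : ∀ s : 𝔽, IsIntegral (Algebra.adjoin Λ {algebraMap F 𝔽 t}) s → IsIntegral V s)
    (m : ℕ) (hm : 0 < m) (n' : Λ) (z : F) (T : 𝔽) (hT : T ^ m = algebraMap F 𝔽 z)
    (hTV : IsIntegral V T)
    (hloc : ∀ 𝔪 : Ideal ↥(integralClosure (Algebra.adjoin Λ {t}) F), 𝔪.IsMaximal →
      algebraMap Λ ↥(integralClosure (Algebra.adjoin Λ {t}) F) π ∈ 𝔪 →
      ∃ g : F, g ≠ 0 ∧ IsIntegral VF g⁻¹ ∧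
        (∃ δ : F, IsIntegral VF δ ∧ g - 1 = π • δ) ∧
        ∃ c : ↥(integralClosure (Algebra.adjoin Λ {t}) F), c ∉ 𝔪 ∧
          IsIntegral (Algebra.adjoin Λ {t}) ((c : F) * z * (g ^ m)⁻¹)) :
    ∃ e : 𝔽, IsIntegral (Algebra.adjoin Λ {algebraMap F 𝔽 t}) e ∧
      ∃ δ : 𝔽, IsIntegral V δ ∧ absKummerE m (algebraMap Λ 𝔽 n') T - e = π • δ := by
  classical
  have hΛA' : ∀ l : Λ, IsIntegral (Algebra.adjoin Λ {algebraMap F 𝔽 t}) (algebraMap Λ 𝔽 l) :=
    fun l => isIntegral_algebraMap (R := ↥(Algebra.adjoin Λ {algebraMap F 𝔽 t})) (A := 𝔽)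
      (x := ⟨algebraMap Λ 𝔽 l, Subalgebra.algebraMap_mem _ l⟩)
  have hΛV : ∀ l : Λ, IsIntegral V (algebraMap Λ 𝔽 l) := fun l => hSV _ (hΛA' l)
  have hεV : IsIntegral V (absKummerE m (algebraMap Λ 𝔽 n') T) :=
    (hΛV n').mul (IsIntegral.sum _ fun l _ => hTV.pow l)
  have hBA' : ∀ b : ↥(integralClosure (Algebra.adjoin Λ {t}) F),
      IsIntegral (Algebra.adjoin Λ {algebraMap F 𝔽 t}) (algebraMap F 𝔽 (b : F)) :=
    fun b => s34ke_isIntegral_adjoin_map t b.2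
  -- the ideal of denominators
  let I : Ideal ↥(integralClosure (Algebra.adjoin Λ {t}) F) :=
    { carrier := {b | ∃ e : 𝔽, IsIntegral (Algebra.adjoin Λ {algebraMap F 𝔽 t}) e ∧
        Final.IDvd V (algebraMap Λ 𝔽 π)
          (algebraMap F 𝔽 (b : F) * absKummerE m (algebraMap Λ 𝔽 n') T - e)}
      add_mem' := by
        rintro b b' ⟨e, he, h⟩ ⟨e', he', h'⟩
        refine ⟨e + e', he.add he', ?_⟩
        have hrw : algebraMap F 𝔽 ((b + b' : ↥(integralClosure (Algebra.adjoin Λ {t}) F)) : F) *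
            absKummerE m (algebraMap Λ 𝔽 n') T - (e + e') =
            (algebraMap F 𝔽 (b : F) * absKummerE m (algebraMap Λ 𝔽 n') T - e) +
            (algebraMap F 𝔽 (b' : F) * absKummerE m (algebraMap Λ 𝔽 n') T - e') := by
          rw [Subalgebra.coe_add, map_add]
          ring
        rw [hrw]
        exact h.add h'
      zero_mem' := ⟨0, isIntegral_zero, by simpa using (Final.IDvd.zero : Final.IDvd V _ 0)⟩
      smul_mem' := by
        rintro r b ⟨e, he, h⟩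
        refine ⟨algebraMap F 𝔽 (r : F) * e, (hBA' r).mul he, ?_⟩
        have hrw : algebraMap F 𝔽 ((r • b : ↥(integralClosure (Algebra.adjoin Λ {t}) F)) : F) *
            absKummerE m (algebraMap Λ 𝔽 n') T - algebraMap F 𝔽 (r : F) * e =
            algebraMap F 𝔽 (r : F) *
              (algebraMap F 𝔽 (b : F) * absKummerE m (algebraMap Λ 𝔽 n') T - e) := by
          rw [smul_eq_mul, Subalgebra.coe_mul, map_mul]
          ring
        rw [hrw]
        exact h.mul_left (hSV _ (hBA' r)) }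
  have hI : ∀ b : ↥(integralClosure (Algebra.adjoin Λ {t}) F), b ∈ I ↔
      ∃ e : 𝔽, IsIntegral (Algebra.adjoin Λ {algebraMap F 𝔽 t}) e ∧
        Final.IDvd V (algebraMap Λ 𝔽 π)
          (algebraMap F 𝔽 (b : F) * absKummerE m (algebraMap Λ 𝔽 n') T - e) := fun b => Iff.rfl
  have hπI : algebraMap Λ ↥(integralClosure (Algebra.adjoin Λ {t}) F) π ∈ I := by
    rw [hI]
    refine ⟨0, isIntegral_zero, absKummerE m (algebraMap Λ 𝔽 n') T, hεV, ?_⟩
    rw [sub_zero]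
    congr 1
    exact (IsScalarTower.algebraMap_apply Λ F 𝔽 π).symm
  have htop : I = ⊤ := by
    by_contra hne
    obtain ⟨𝔪, h𝔪, hI𝔪⟩ := Ideal.exists_le_maximal I hne
    obtain ⟨g, hg0, hginv, ⟨δ, hδ, hgδ⟩, c, hc𝔪, hcz⟩ := hloc 𝔪 h𝔪 (hI𝔪 hπI)
    apply hc𝔪
    have hcm : c ^ (m - 1) ∈ I := by
      rw [hI]
      have hG0 : algebraMap F 𝔽 g ≠ 0 := (_root_.map_ne_zero _).mpr hg0
      have hGinvV : IsIntegral V (algebraMap F 𝔽 g)⁻¹ := by
        rw [← map_inv₀]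
        exact hVF _ hginv
      have hG1 : Final.IDvd V (algebraMap Λ 𝔽 π) (algebraMap F 𝔽 g - 1) :=
        ⟨algebraMap F 𝔽 δ, hVF _ hδ, by
          rw [← map_one (algebraMap F 𝔽), ← map_sub, hgδ, Algebra.smul_def, map_mul,
            ← IsScalarTower.algebraMap_apply]⟩
      have hCA' : IsIntegral (Algebra.adjoin Λ {algebraMap F 𝔽 t}) (algebraMap F 𝔽 (c : F)) :=
        hBA' c
      have hCV : IsIntegral V (algebraMap F 𝔽 (c : F)) := hSV _ hCA'
      obtain ⟨θ, hθ⟩ : ∃ θ : 𝔽, θ = algebraMap F 𝔽 (c : F) * (T * (algebraMap F 𝔽 g)⁻¹) :=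
        ⟨_, rfl⟩
      have hθm : θ ^ m = algebraMap F 𝔽 (c : F) ^ (m - 1) *
          algebraMap F 𝔽 ((c : F) * z * (g ^ m)⁻¹) := by
        have hpow : algebraMap F 𝔽 (c : F) ^ m =
            algebraMap F 𝔽 (c : F) ^ (m - 1) * algebraMap F 𝔽 (c : F) := by
          rw [← pow_succ, Nat.sub_add_cancel hm]
        rw [hθ, mul_pow, mul_pow, hT, map_mul, map_mul, map_inv₀, map_pow, inv_pow, hpow]
        ring
      have hθA' : IsIntegral (Algebra.adjoin Λ {algebraMap F 𝔽 t}) θ :=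
        IsIntegral.of_pow hm (by
          rw [hθm]
          exact (hCA'.pow _).mul (s34ke_isIntegral_adjoin_map t hcz))
      refine ⟨algebraMap Λ 𝔽 n' * ∑ l ∈ Finset.range m,
          algebraMap F 𝔽 (c : F) ^ (m - 1 - l) * θ ^ l,
        (hΛA' n').mul (IsIntegral.sum _ fun l _ => (hCA'.pow _).mul (hθA'.pow l)), ?_⟩
      rw [← abs_kummer_scale m (algebraMap Λ 𝔽 n') (T * (algebraMap F 𝔽 g)⁻¹)
        (algebraMap F 𝔽 (c : F)) θ hθ]
      have hrw : algebraMap F 𝔽 ((c ^ (m - 1) : ↥(integralClosure (Algebra.adjoin Λ {t}) F)) : F) *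
          absKummerE m (algebraMap Λ 𝔽 n') T -
          algebraMap F 𝔽 (c : F) ^ (m - 1) *
            absKummerE m (algebraMap Λ 𝔽 n') (T * (algebraMap F 𝔽 g)⁻¹) =
          (-(algebraMap F 𝔽 (c : F) ^ (m - 1))) *
            (absKummerE m (algebraMap Λ 𝔽 n') (T * (algebraMap F 𝔽 g)⁻¹) -
              absKummerE m (algebraMap Λ 𝔽 n') T) := by
        rw [Subalgebra.coe_pow, map_pow]
        ring
      rw [hrw, abs_kummer_sub]
      have hGi1 : Final.IDvd V (algebraMap Λ 𝔽 π) ((algebraMap F 𝔽 g)⁻¹ - 1) := by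
        have h : (algebraMap F 𝔽 g)⁻¹ - 1 = (algebraMap F 𝔽 g - 1) * (-(algebraMap F 𝔽 g)⁻¹) := by
          field_simp
          ring
        rw [h]
        exact hG1.mul_right hGinvV.neg
      exact (hGi1.mul_right ((hΛV n').mul (IsIntegral.sum _ fun l _ =>
        (hTV.pow l).mul (IsIntegral.sum _ fun k _ => hGinvV.pow k)))).mul_left (hCV.pow _).neg
    exact h𝔪.isPrime.mem_of_pow_mem _ (hI𝔪 hcm)
  have h1 : (1 : ↥(integralClosure (Algebra.adjoin Λ {t}) F)) ∈ I := by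
    rw [htop]
    trivial
  rw [hI] at h1
  obtain ⟨e, he, δ, hδ, h⟩ := h1
  refine ⟨e, he, δ, hδ, ?_⟩
  rw [Algebra.smul_def, ← h]
  simp

set_option linter.unusedVariables false in
/-- **ABS-1′ (Kummer engine).**  (The hypothesis `hz'` is not used.) -/
theorem s34_kummer_engine
    {Λ K F 𝔽 : Type*} [CommRing Λ] [IsDomain Λ] [IsDiscreteValuationRing Λ]
    [Field K] [CharZero K] [Algebra Λ K] [IsFractionRing Λ K]
    [Field F] [Algebra K F] [Algebra Λ F] [IsScalarTower Λ K F]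
    [Field 𝔽] [Algebra K 𝔽] [Algebra Λ 𝔽] [IsScalarTower Λ K 𝔽]
    [Algebra F 𝔽] [IsScalarTower K F 𝔽] [IsScalarTower Λ F 𝔽]
    (π : Λ) (hπ : Irreducible π) (j : F) (hj : Transcendental K j)
    [FiniteDimensional K⟮algebraMap F 𝔽 j⟯ 𝔽]
    (hclosed : ∀ y : 𝔽, IsAlgebraic K y → y ∈ (algebraMap K 𝔽).range)
    (m : ℕ) (hm : IsUnit (m : Λ)) (ζ : Λ) (hζ : IsPrimitiveRoot ζ m)
    (z : F) (w : 𝔽) (hw : w ^ m = algebraMap F 𝔽 z)
    (hz : IsIntegral (gaussSub π hπ.prime j) z) (hz' : IsIntegral (gaussSub π hπ.prime j) z⁻¹)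
    (hz1 : ∃ δ : F, IsIntegral (gaussSub π hπ.prime j) δ ∧ z - 1 = π • δ)
    (hfin : ∀ 𝔪 : Ideal ↥(integralClosure (Algebra.adjoin Λ {j}) F), 𝔪.IsMaximal →
      algebraMap Λ ↥(integralClosure (Algebra.adjoin Λ {j}) F) π ∈ 𝔪 →
      ∃ g : F, g ≠ 0 ∧ IsIntegral (gaussSub π hπ.prime j) g⁻¹ ∧
        (∃ δ : F, IsIntegral (gaussSub π hπ.prime j) δ ∧ g - 1 = π • δ) ∧
        ∃ c : ↥(integralClosure (Algebra.adjoin Λ {j}) F), c ∉ 𝔪 ∧
          IsIntegral (Algebra.adjoin Λ {j}) ((c : F) * z * (g ^ m)⁻¹))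
    (hinf : ∀ 𝔪 : Ideal ↥(integralClosure (Algebra.adjoin Λ {j⁻¹}) F), 𝔪.IsMaximal →
      algebraMap Λ ↥(integralClosure (Algebra.adjoin Λ {j⁻¹}) F) π ∈ 𝔪 →
      ∃ g : F, g ≠ 0 ∧ IsIntegral (gaussSub π hπ.prime j) g⁻¹ ∧
        (∃ δ : F, IsIntegral (gaussSub π hπ.prime j) δ ∧ g - 1 = π • δ) ∧
        ∃ c : ↥(integralClosure (Algebra.adjoin Λ {j⁻¹}) F), c ∉ 𝔪 ∧
          IsIntegral (Algebra.adjoin Λ {j⁻¹}) ((c : F) * z * (g ^ m)⁻¹)) :
    ∃ y : F, algebraMap F 𝔽 y = w := by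
  classical
  have hinjK : Function.Injective (algebraMap Λ K) := IsFractionRing.injective Λ K
  have hJ : Transcendental K (algebraMap F 𝔽 j) :=
    (transcendental_algebraMap_iff (algebraMap F 𝔽).injective).mpr hj
  have ht : Transcendental Λ (algebraMap F 𝔽 j) := GaussLineK.transcendental_of_fraction hJ
  have htj : Transcendental Λ j := GaussLineK.transcendental_of_fraction hj
  have hxx : algebraMap F 𝔽 j * (algebraMap F 𝔽 j)⁻¹ = 1 :=
    mul_inv_cancel₀ (GaussLineK.ne_zero_of_transcendental ht)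
  have hcl : ∀ y : 𝔽, IsIntegral Λ y → ∃ c : Λ, y = algebraMap Λ 𝔽 c := fun y hy =>
    CechAux.exists_algebraMap_eq_of_isIntegral (K := K)
      (fun y hy => by
        obtain ⟨c, hc⟩ := hclosed y hy.isAlgebraic
        exact ⟨c, hc.symm⟩) hy
  have : Module.Finite (Algebra.adjoin Λ {algebraMap F 𝔽 j})
      (integralClosure (Algebra.adjoin Λ {algebraMap F 𝔽 j}) 𝔽) :=
    GaussLineK.finite_integralClosure hJ
  have hfinV : ∀ s : 𝔽, IsIntegral (Algebra.adjoin Λ {algebraMap F 𝔽 j}) s →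
      IsIntegral (gaussSub π hπ.prime (algebraMap F 𝔽 j)) s :=
    fun s hs => GaussLineK.isIntegral_of_isIntegral_adjoin π hπ.prime ht (by simp) hs
  have hinfV : ∀ s : 𝔽, IsIntegral (Algebra.adjoin Λ {(algebraMap F 𝔽 j)⁻¹}) s →
      IsIntegral (gaussSub π hπ.prime (algebraMap F 𝔽 j)) s :=
    fun s hs => GaussLineK.isIntegral_of_isIntegral_adjoin π hπ.prime ht (by simp) hs
  have hVF : ∀ δ : F, IsIntegral (gaussSub π hπ.prime j) δ →
      IsIntegral (gaussSub π hπ.prime (algebraMap F 𝔽 j)) (algebraMap F 𝔽 δ) :=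
    fun δ hδ => s34ke_isIntegral_gaussSub_map π hπ.prime j hδ
  have hΛV : ∀ l : Λ, IsIntegral (gaussSub π hπ.prime (algebraMap F 𝔽 j)) (algebraMap Λ 𝔽 l) :=
    fun l => Final.isIntegral_of_mem (algebraMap_mem_gaussSub π hπ.prime _ l)
  have hinj : Function.Injective (algebraMap Λ 𝔽) :=
    GaussLineK.algebraMap_injective_of_transcendental ht
  have hπ0 : algebraMap Λ 𝔽 π ≠ 0 := fun h => hπ.ne_zero (hinj (by rw [h, map_zero]))
  -- `m` is positive and invertible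
  have hm0 : 0 < m := by
    rcases Nat.eq_zero_or_pos m with h | h
    · subst h
      simp at hm
    · exact h
  obtain ⟨n0, hn0⟩ := hm.exists_right_inv
  have hn : (m : 𝔽) * algebraMap Λ 𝔽 n0 = 1 := by
    rw [← map_natCast (algebraMap Λ 𝔽) m, ← map_mul, hn0, map_one]
  have hζ' : IsPrimitiveRoot (algebraMap Λ 𝔽 ζ) m := hζ.map_of_injective hinj
  -- `w` is integral
  have hwV : IsIntegral (gaussSub π hπ.prime (algebraMap F 𝔽 j)) w :=
    IsIntegral.of_pow hm0 (by rw [hw]; exact hVF z hz)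
  have hz1' : Final.IDvd (gaussSub π hπ.prime (algebraMap F 𝔽 j)) (algebraMap Λ 𝔽 π)
      (algebraMap F 𝔽 z - 1) := by
    obtain ⟨δ, hδ, hzδ⟩ := hz1
    refine ⟨algebraMap F 𝔽 δ, hVF δ hδ, ?_⟩
    rw [← map_one (algebraMap F 𝔽), ← map_sub, hzδ, Algebra.smul_def, map_mul,
      ← IsScalarTower.algebraMap_apply]
  -- the conjugates of `w` and the Lagrange elements
  have hTm : ∀ i : ℕ, (w * algebraMap Λ 𝔽 ζ ^ i) ^ m = algebraMap F 𝔽 z := by
    intro i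
    rw [mul_pow, ← pow_mul, mul_comm i m, pow_mul, hζ'.pow_eq_one, one_pow, mul_one, hw]
  have hTV : ∀ i : ℕ, IsIntegral (gaussSub π hπ.prime (algebraMap F 𝔽 j))
      (w * algebraMap Λ 𝔽 ζ ^ i) := fun i => hwV.mul ((hΛV ζ).pow i)
  have hεV : ∀ i : ℕ, IsIntegral (gaussSub π hπ.prime (algebraMap F 𝔽 j))
      (absKummerE m (algebraMap Λ 𝔽 n0) (w * algebraMap Λ 𝔽 ζ ^ i)) := fun i =>
    (hΛV n0).mul (IsIntegral.sum _ fun l _ => (hTV i).pow l)
  have hε2 : ∀ i : ℕ, Final.IDvd (gaussSub π hπ.prime (algebraMap F 𝔽 j)) (algebraMap Λ 𝔽 π)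
      (absKummerE m (algebraMap Λ 𝔽 n0) (w * algebraMap Λ 𝔽 ζ ^ i) ^ 2 -
        absKummerE m (algebraMap Λ 𝔽 n0) (w * algebraMap Λ 𝔽 ζ ^ i)) := by
    intro i
    rw [abs_kummer_idem m _ _ hn, hTm]
    exact hz1'.mul_right (((hΛV n0).pow 2).mul (IsIntegral.sum _ fun l _ =>
      IsIntegral.sum _ fun k _ => (hTV i).pow k))
  have hsum : ∑ i ∈ Finset.range m,
      absKummerE m (algebraMap Λ 𝔽 n0) (w * algebraMap Λ 𝔽 ζ ^ i) = 1 :=
    abs_kummer_sum m (algebraMap Λ 𝔽 n0) w (algebraMap Λ 𝔽 ζ) hn hζ'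
  have hmulε : ∀ i : ℕ, Final.IDvd (gaussSub π hπ.prime (algebraMap F 𝔽 j)) (algebraMap Λ 𝔽 π)
      ((w * algebraMap Λ 𝔽 ζ ^ i - 1) *
        absKummerE m (algebraMap Λ 𝔽 n0) (w * algebraMap Λ 𝔽 ζ ^ i)) := by
    intro i
    have h : (w * algebraMap Λ 𝔽 ζ ^ i - 1) *
        absKummerE m (algebraMap Λ 𝔽 n0) (w * algebraMap Λ 𝔽 ζ ^ i) =
        algebraMap Λ 𝔽 n0 * (algebraMap F 𝔽 z - 1) := by
      rw [sub_mul, one_mul, abs_kummer_mul, hTm]
      ring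
    rw [h]
    exact hz1'.mul_left (hΛV n0)
  -- the local lifts
  have hL1 : ∀ i : ℕ, ∃ e : 𝔽, IsIntegral (Algebra.adjoin Λ {algebraMap F 𝔽 j}) e ∧
      ∃ δ : 𝔽, IsIntegral (gaussSub π hπ.prime (algebraMap F 𝔽 j)) δ ∧
        absKummerE m (algebraMap Λ 𝔽 n0) (w * algebraMap Λ 𝔽 ζ ^ i) - e = π • δ :=
    fun i => s34ke_lift π (gaussSub π hπ.prime j) (gaussSub π hπ.prime (algebraMap F 𝔽 j)) hVF j
      hfinV m hm0 n0 z _ (hTm i) (hTV i) hfin
  have hL2 : ∀ i : ℕ, ∃ e : 𝔽, IsIntegral (Algebra.adjoin Λ {(algebraMap F 𝔽 j)⁻¹}) e ∧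
      ∃ δ : 𝔽, IsIntegral (gaussSub π hπ.prime (algebraMap F 𝔽 j)) δ ∧
        absKummerE m (algebraMap Λ 𝔽 n0) (w * algebraMap Λ 𝔽 ζ ^ i) - e = π • δ := by
    intro i
    have h := s34ke_lift π (gaussSub π hπ.prime j) (gaussSub π hπ.prime (algebraMap F 𝔽 j)) hVF
      j⁻¹ (by rw [map_inv₀]; exact hinfV) m hm0 n0 z _ (hTm i) (hTV i) hinf
    rwa [map_inv₀] at h
  -- the Lagrange elements are trivial modulo `π`
  have htriv : ∀ i : ℕ,
      Final.IDvd (gaussSub π hπ.prime (algebraMap F 𝔽 j)) (algebraMap Λ 𝔽 π)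
        (absKummerE m (algebraMap Λ 𝔽 n0) (w * algebraMap Λ 𝔽 ζ ^ i)) ∨
      Final.IDvd (gaussSub π hπ.prime (algebraMap F 𝔽 j)) (algebraMap Λ 𝔽 π)
        (absKummerE m (algebraMap Λ 𝔽 n0) (w * algebraMap Λ 𝔽 ζ ^ i) - 1) := by
    intro i
    have h := s34_eq_zero_or_one_of_lift π (EngineGlobal.isMaximal_span_of_irreducible π hπ) hxx
      (gaussSub π hπ.prime (algebraMap F 𝔽 j)) hcl hfinV hinfV
      (fun z δ hz hδ h => GaussLineK.lemmaK_fin π hπ.prime ht hz hδ h)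
      (fun z δ hz hδ h => GaussLineK.lemmaK_inv π hπ.prime ht hz hδ h)
      (fun z δ hz hδ h => GaussLineK.lemmaK_mid π hπ.prime ht hz hδ h)
      (hεV i) ((Final.dvd_iff_smul π _).mp (hε2 i)) (hL1 i) (hL2 i)
    simpa only [Final.dvd_iff_smul] using h
  -- `1` is not divisible by `π`
  have h1 : ¬ Final.IDvd (gaussSub π hπ.prime (algebraMap F 𝔽 j)) (algebraMap Λ 𝔽 π) 1 := by
    rintro ⟨δ, hδ, hδ1⟩
    have hπK0 : algebraMap Λ K π ≠ 0 := fun h => hπ.ne_zero (hinjK (by rw [h, map_zero]))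
    have hδeq : δ = algebraMap K 𝔽 (algebraMap Λ K π)⁻¹ := by
      rw [map_inv₀, ← IsScalarTower.algebraMap_apply Λ K 𝔽]
      exact eq_inv_of_mul_eq_one_right hδ1.symm
    rw [hδeq] at hδ
    obtain ⟨l, hl⟩ := GaussLineK.mem_of_isIntegral_algebraMap π hπ.prime hJ _ hδ
    have h : algebraMap Λ K (π * l) = algebraMap Λ K 1 := by
      rw [map_mul, hl, map_one, mul_inv_cancel₀ hπK0]
    exact hπ.not_isUnit (IsUnit.of_mul_eq_one _ (hinjK h))
  -- some Lagrange element is `≡ 1`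
  obtain ⟨a, ha⟩ : ∃ a : ℕ,
      Final.IDvd (gaussSub π hπ.prime (algebraMap F 𝔽 j)) (algebraMap Λ 𝔽 π)
        (absKummerE m (algebraMap Λ 𝔽 n0) (w * algebraMap Λ 𝔽 ζ ^ a) - 1) := by
    by_contra hne
    push Not at hne
    apply h1
    rw [← hsum]
    exact Final.IDvd.sum _ _ fun i _ => (htriv i).resolve_right (hne i)
  -- hence `w ζ ^ a ≡ 1`
  have hcong : Final.IDvd (gaussSub π hπ.prime (algebraMap F 𝔽 j)) (algebraMap Λ 𝔽 π)
      (w * algebraMap Λ 𝔽 ζ ^ a - 1) := by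
    have h : w * algebraMap Λ 𝔽 ζ ^ a - 1 =
        (w * algebraMap Λ 𝔽 ζ ^ a - 1) *
          absKummerE m (algebraMap Λ 𝔽 n0) (w * algebraMap Λ 𝔽 ζ ^ a) -
        (w * algebraMap Λ 𝔽 ζ ^ a - 1) *
          (absKummerE m (algebraMap Λ 𝔽 n0) (w * algebraMap Λ 𝔽 ζ ^ a) - 1) := by
      ring
    rw [h]
    exact (hmulε a).sub (ha.mul_left ((hTV a).sub isIntegral_one))
  obtain ⟨δ, hδV, hδ⟩ := hcong
  -- conclusion by conjugation
  by_contra hwF
  have hwF' : w ∉ (algebraMap F 𝔽).range := fun ⟨y, hy⟩ => hwF ⟨y, hy⟩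
  obtain ⟨c, hcm, hc1, hroot⟩ :=
    abs_kummer_exists_conj m hm0 (algebraMap Λ 𝔽 ζ) hζ' z w hw hwF'
  obtain ⟨φ, hφ⟩ := abs_kummer_gauss_lift (𝔽 := 𝔽) π hπ.prime j htj
  have hwint : IsIntegral F w :=
    IsIntegral.of_pow hm0 (by rw [hw]; exact isIntegral_algebraMap)
  obtain ⟨N, hN⟩ : ∃ N : F[X],
      N = C (algebraMap Λ F π)⁻¹ * (C (algebraMap Λ F (ζ ^ a)) * X - 1) := ⟨_, rfl⟩
  have hNeval : ∀ x : 𝔽, aeval x N =
      (algebraMap Λ 𝔽 π)⁻¹ * (algebraMap Λ 𝔽 ζ ^ a * x - 1) := by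
    intro x
    rw [hN]
    simp only [map_mul, map_sub, aeval_C, aeval_X, map_one, map_inv₀, map_pow]
    rw [← IsScalarTower.algebraMap_apply, ← IsScalarTower.algebraMap_apply]
  have hδN : aeval w N = δ := by
    rw [hNeval]
    have h : algebraMap Λ 𝔽 ζ ^ a * w - 1 = w * algebraMap Λ 𝔽 ζ ^ a - 1 := by ring
    rw [h, hδ, inv_mul_cancel_left₀ hπ0]
  have hconj : IsIntegral (gaussSub π hπ.prime (algebraMap F 𝔽 j))
      (aeval (algebraMap Λ 𝔽 ζ ^ c * w) N) :=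
    abs_kummer_isIntegral_conj _ φ hφ w (algebraMap Λ 𝔽 ζ ^ c * w) hwint hroot N
      (by rw [hδN]; exact hδV)
  have hdiff : IsIntegral (gaussSub π hπ.prime (algebraMap F 𝔽 j))
      (aeval (algebraMap Λ 𝔽 ζ ^ c * w) N - algebraMap Λ 𝔽 ζ ^ c * δ) :=
    hconj.sub (((hΛV ζ).pow c).mul hδV)
  have hdiffeq : aeval (algebraMap Λ 𝔽 ζ ^ c * w) N - algebraMap Λ 𝔽 ζ ^ c * δ =
      (algebraMap Λ 𝔽 π)⁻¹ * (algebraMap Λ 𝔽 ζ ^ c - 1) := by
    rw [← hδN, hNeval, hNeval]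
    ring
  rw [hdiffeq] at hdiff
  have hc0 : c ≠ 0 := by
    rintro rfl
    exact hc1 (pow_zero _)
  obtain ⟨u0, hu0⟩ := (abs_kummer_isUnit_one_sub m ζ hζ hm c hc0 hcm).exists_right_inv
  have hu0' : (1 - algebraMap Λ 𝔽 ζ ^ c) * algebraMap Λ 𝔽 u0 = 1 := by
    rw [← map_pow, ← map_one (algebraMap Λ 𝔽), ← map_sub, ← map_mul, hu0]
  apply h1
  refine ⟨(algebraMap Λ 𝔽 π)⁻¹ * (algebraMap Λ 𝔽 ζ ^ c - 1) * (-algebraMap Λ 𝔽 u0),
    hdiff.mul (hΛV u0).neg, ?_⟩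
  rw [← mul_assoc, mul_inv_cancel_left₀ hπ0]
  linear_combination -hu0'

end Fermat.Agent.S34
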