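import Fermat.Agent.S34.AbsChart
import Fermat.Agent.S34.KummerEngine

/-!
P19 (S34), block ABS: the Kummer engine `s34_kummer_engine` with the local hypothesis of the
second chart `B_inf` required only at the closed points where `j⁻¹` vanishes (the cusps).  The
other closed points of `B_inf` are covered by the first chart (`abs_locf_inf_of_fin`).
-/

set_option autoImplicit false

namespace Fermat.Agent.S34

open Fermat.Agent.S18 Polynomial IntermediateField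

/-- **Kummer engine, cusp form.**  Same as `s34_kummer_engine`, but the local datum on the chart
`B_inf` is only required at maximal ideals containing `j⁻¹`. -/
theorem s34_kummer_engine_cusp
    {Λ K F 𝔽 : Type*} [CommRing Λ] [IsDomain Λ] [IsDiscreteValuationRing Λ]
    [Field K] [CharZero K] [Algebra Λ K] [IsFractionRing Λ K]
    [Field F] [Algebra K F] [Algebra Λ F] [IsScalarTower Λ K F]
    [Field 𝔽] [Algebra K 𝔽] [Algebra Λ 𝔽] [IsScalarTower Λ K 𝔽]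
    [Algebra F 𝔽] [IsScalarTower K F 𝔽] [IsScalarTower Λ F 𝔽]
    (π : Λ) (hπ : Irreducible π) (j : F) (hj : Transcendental K j)
    [FiniteDimensional K⟮algebraMap F 𝔽 j⟯ 𝔽]
    (hclosed : ∀ y : 𝔽, IsAlgebraic K y → y ∈ (algebraMap K 𝔽).range)
    (m : ℕ) (hm : IsUnit (m : Λ)) (ζ : Λ) (hζ : IsPrimitiveRoot ζ m)
    (z : F) (w : 𝔽) (hw : w ^ m = algebraMap F 𝔽 z)
    (hz : IsIntegral (gaussSub π hπ.prime j) z) (hz' : IsIntegral (gaussSub π hπ.prime j) z⁻¹)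
    (hz1 : ∃ δ : F, IsIntegral (gaussSub π hπ.prime j) δ ∧ z - 1 = π • δ)
    (hfin : ∀ 𝔪 : Ideal ↥(integralClosure (Algebra.adjoin Λ {j}) F), 𝔪.IsMaximal →
      algebraMap Λ ↥(integralClosure (Algebra.adjoin Λ {j}) F) π ∈ 𝔪 →
      ∃ g : F, g ≠ 0 ∧ IsIntegral (gaussSub π hπ.prime j) g⁻¹ ∧
        (∃ δ : F, IsIntegral (gaussSub π hπ.prime j) δ ∧ g - 1 = π • δ) ∧
        ∃ c : ↥(integralClosure (Algebra.adjoin Λ {j}) F), c ∉ 𝔪 ∧
          IsIntegral (Algebra.adjoin Λ {j}) ((c : F) * z * (g ^ m)⁻¹))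
    (hinf : ∀ 𝔪 : Ideal ↥(integralClosure (Algebra.adjoin Λ {j⁻¹}) F), 𝔪.IsMaximal →
      algebraMap Λ ↥(integralClosure (Algebra.adjoin Λ {j⁻¹}) F) π ∈ 𝔪 →
      (∃ a : ↥(integralClosure (Algebra.adjoin Λ {j⁻¹}) F), (a : F) = j⁻¹ ∧ a ∈ 𝔪) →
      ∃ g : F, g ≠ 0 ∧ IsIntegral (gaussSub π hπ.prime j) g⁻¹ ∧
        (∃ δ : F, IsIntegral (gaussSub π hπ.prime j) δ ∧ g - 1 = π • δ) ∧
        ∃ c : ↥(integralClosure (Algebra.adjoin Λ {j⁻¹}) F), c ∉ 𝔪 ∧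
          IsIntegral (Algebra.adjoin Λ {j⁻¹}) ((c : F) * z * (g ^ m)⁻¹)) :
    ∃ y : F, algebraMap F 𝔽 y = w := by
  classical
  have hj0 : j ≠ 0 := fun h => hj (h ▸ isAlgebraic_zero)
  refine s34_kummer_engine π hπ j hj hclosed m hm ζ hζ z w hw hz hz' hz1 hfin ?_
  intro 𝔪 h𝔪 hπ𝔪
  by_cases hc : ∃ a : ↥(integralClosure (Algebra.adjoin Λ {j⁻¹}) F), (a : F) = j⁻¹ ∧ a ∈ 𝔪
  · exact hinf 𝔪 h𝔪 hπ𝔪 hc
  · exact abs_locf_inf_of_fin π hπ.prime j hj0 m z hfin 𝔪 h𝔪 hπ𝔪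
      (fun a ha ha' => hc ⟨a, ha, ha'⟩)

end Fermat.Agent.S34
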