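import Mathlib
import Fermat.Agent.S34.AbsLP
import Fermat.Agent.S18.UnramPoly

/-!
# P19 (S34), block ABS: instantiation of `AbsLP` for the two integral closures

`Λ` a ring with `K` a field over it, `F` a field over `K`, `t : F`.
`B := integralClosure (Algebra.adjoin Λ {t}) F`, `Bη := integralClosure (Algebra.adjoin K {t}) F`.

* `absIncl Λ K t : B →+* Bη` : the inclusion (defined by `codRestrict`, so that no kernel check ever
  compares the two subtypes);
* `coe_absIncl`, `algebraMap_absIncl`, `absIncl_injective`, `absIncl_algebraMap`;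
* `abs_isUnit_incl`, `abs_incl_loc` : the two hypotheses `hπu`, `hloc` of `abs_lp_place` /
  `abs_lp_of_points` when `Λ` is a discrete valuation ring with uniformiser `π` and `K = Frac Λ`.
-/

set_option autoImplicit false

namespace Fermat.Agent.S34

section

variable (Λ K : Type*) {F : Type*} [CommRing Λ] [Field K] [Algebra Λ K]
  [Field F] [Algebra K F] [Algebra Λ F] [IsScalarTower Λ K F] (t : F)

/-- The inclusion of the integral closure of `Λ[t]` into the integral closure of `K[t]`. -/
noncomputable def absIncl : ↥(integralClosure (Algebra.adjoin Λ {t}) F) →+*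
    ↥(integralClosure (Algebra.adjoin K {t}) F) :=
  (algebraMap ↥(integralClosure (Algebra.adjoin Λ {t}) F) F).codRestrict
    (integralClosure (Algebra.adjoin K {t}) F)
    (fun b => S18.UnramPoly.isIntegral_adjoin_of_isIntegral_adjoin t _ b.2)

theorem absIncl_val (x : ↥(integralClosure (Algebra.adjoin Λ {t}) F)) :
    ((absIncl Λ K t x : ↥(integralClosure (Algebra.adjoin K {t}) F)) : F) =
      algebraMap ↥(integralClosure (Algebra.adjoin Λ {t}) F) F x := rfl

theorem coe_absIncl (x : ↥(integralClosure (Algebra.adjoin Λ {t}) F)) :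
    ((absIncl Λ K t x : ↥(integralClosure (Algebra.adjoin K {t}) F)) : F) = (x : F) :=
  (absIncl_val Λ K t x).trans rfl

theorem algebraMap_absIncl (x : ↥(integralClosure (Algebra.adjoin Λ {t}) F)) :
    algebraMap ↥(integralClosure (Algebra.adjoin K {t}) F) F (absIncl Λ K t x) = (x : F) :=
  coe_absIncl Λ K t x

theorem absIncl_injective : Function.Injective (absIncl Λ K t) := by
  intro x y h
  have h1 : ((absIncl Λ K t x : ↥(integralClosure (Algebra.adjoin K {t}) F)) : F) =
      ((absIncl Λ K t y : ↥(integralClosure (Algebra.adjoin K {t}) F)) : F) := by rw [h]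
  rw [coe_absIncl, coe_absIncl] at h1
  exact Subtype.ext h1

/-- The image of a constant. -/
theorem coe_absIncl_algebraMap (l : Λ) :
    ((absIncl Λ K t (algebraMap Λ ↥(integralClosure (Algebra.adjoin Λ {t}) F) l) :
      ↥(integralClosure (Algebra.adjoin K {t}) F)) : F) = algebraMap Λ F l :=
  (coe_absIncl Λ K t _).trans rfl

theorem absIncl_algebraMap (l : Λ) :
    absIncl Λ K t (algebraMap Λ ↥(integralClosure (Algebra.adjoin Λ {t}) F) l) =
      algebraMap K ↥(integralClosure (Algebra.adjoin K {t}) F) (algebraMap Λ K l) := by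
  apply Subtype.ext
  rw [coe_absIncl_algebraMap, IsScalarTower.algebraMap_apply Λ K F]
  rfl

variable [IsFractionRing Λ K]

/-- `hπu`: a nonzero constant of `Λ` is a unit of `Bη`. -/
theorem abs_isUnit_incl (π : Λ) (hπ : π ≠ 0) :
    IsUnit (absIncl Λ K t (algebraMap Λ ↥(integralClosure (Algebra.adjoin Λ {t}) F) π)) := by
  have hK : algebraMap Λ K π ≠ 0 := by
    intro h
    exact hπ (IsFractionRing.injective Λ K (by rw [h, map_zero]))
  rw [absIncl_algebraMap]
  exact (IsUnit.mk0 _ hK).map (algebraMap K ↥(integralClosure (Algebra.adjoin K {t}) F))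

variable [IsDomain Λ] [IsDiscreteValuationRing Λ]

/-- `hloc`: `Bη = B[1/π]`. -/
theorem abs_incl_loc (π : Λ) (hπ : Irreducible π) :
    ∀ y : ↥(integralClosure (Algebra.adjoin K {t}) F),
      ∃ (n : ℕ) (b : ↥(integralClosure (Algebra.adjoin Λ {t}) F)),
        absIncl Λ K t (algebraMap Λ ↥(integralClosure (Algebra.adjoin Λ {t}) F) π) ^ n * y =
          absIncl Λ K t b := by
  intro y
  obtain ⟨n, hn⟩ := S18.UnramPoly.isIntegral_pow_smul_of_isIntegral_adjoin π hπ t (y : F) y.2
  refine ⟨n, ⟨π ^ n • (y : F), hn⟩, ?_⟩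
  apply Subtype.ext
  rw [Subalgebra.coe_mul, Subalgebra.coe_pow, coe_absIncl_algebraMap, coe_absIncl]
  show _ = π ^ n • (y : F)
  rw [Algebra.smul_def, map_pow]

end

end Fermat.Agent.S34
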