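import Mathlib
import Fermat.Agent.S34.AbsLocf
import Fermat.Agent.S34.AbsChartEngine
import Fermat.Agent.S34.AbsLPInst

/-!
# P19 (S34), block ABS: the main theorem `abs_main` (notes 806, 841, 872)

* `abs_isIntegral_map_adjoin`, `abs_map_frac` : stability of `R[t]`-integrality under a ring
  endomorphism fixing `t` and preserving `R`.
* `abs_locf_chart` : (LOCF) at a closed point of one chart, from the divisibility of the orders of
  the Kummer generator and the closed-point data (ABS-2 ∘ ABS-3 ∘ ABS-4, concrete rings).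
* `abs_main` : the Kummer engine (ABS-1′) fed with `abs_locf_chart` on both charts.
-/

set_option autoImplicit false

namespace Fermat.Agent.S34

open IsDedekindDomain

section Stab

variable {R F : Type*} [CommRing R] [Field F] [Algebra R F]

/-- A ring endomorphism of `F` fixing `t` and preserving the image of `R` preserves `R[t]`. -/
theorem abs_map_mem_adjoin (τ : F →+* F) {t : F} (ht : τ t = t)
    (hR : ∀ c : R, ∃ c' : R, τ (algebraMap R F c) = algebraMap R F c') {a : F}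
    (ha : a ∈ Algebra.adjoin R {t}) : τ a ∈ Algebra.adjoin R {t} := by
  induction ha using Algebra.adjoin_induction with
  | mem x hx =>
    rw [Set.mem_singleton_iff] at hx
    rw [hx, ht]
    exact Algebra.self_mem_adjoin_singleton R t
  | algebraMap r =>
    obtain ⟨c', hc'⟩ := hR r
    rw [hc']
    exact Subalgebra.algebraMap_mem _ c'
  | add x y _ _ hx hy => rw [map_add]; exact Subalgebra.add_mem _ hx hy
  | mul x y _ _ hx hy => rw [map_mul]; exact Subalgebra.mul_mem _ hx hy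

/-- A ring endomorphism of `F` fixing `t` and preserving the image of `R` preserves integrality
over `R[t]`. -/
theorem abs_isIntegral_map_adjoin (τ : F →+* F) {t : F} (ht : τ t = t)
    (hR : ∀ c : R, ∃ c' : R, τ (algebraMap R F c) = algebraMap R F c') {y : F}
    (hy : IsIntegral (Algebra.adjoin R {t}) y) : IsIntegral (Algebra.adjoin R {t}) (τ y) := by
  let φ : ↥(Algebra.adjoin R {t}) →+* ↥(Algebra.adjoin R {t}) :=
    (τ.comp (algebraMap ↥(Algebra.adjoin R {t}) F)).codRestrict (Algebra.adjoin R {t})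
      (fun a => abs_map_mem_adjoin τ ht hR a.2)
  exact IsIntegral.map_of_comp_eq (R := ↥(Algebra.adjoin R {t})) (S := F)
    (T := ↥(Algebra.adjoin R {t})) (U := F) φ τ (by ext x; rfl) hy

end Stab

section Frac

variable {Λ K F : Type*} [CommRing Λ] [Field K] [Algebra Λ K] [IsFractionRing Λ K]
  [Field F] [Algebra K F] [Algebra Λ F] [IsScalarTower Λ K F]

/-- A ring endomorphism of `F` preserving `Λ` preserves `K = Frac Λ`. -/
theorem abs_map_frac (τ : F →+* F)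
    (hΛ : ∀ c : Λ, ∃ c' : Λ, τ (algebraMap Λ F c) = algebraMap Λ F c') (c : K) :
    ∃ c' : K, τ (algebraMap K F c) = algebraMap K F c' := by
  obtain ⟨a, b, -, rfl⟩ := IsFractionRing.div_surjective (A := Λ) c
  obtain ⟨a', ha'⟩ := hΛ a
  obtain ⟨b', hb'⟩ := hΛ b
  refine ⟨algebraMap Λ K a' / algebraMap Λ K b', ?_⟩
  rw [map_div₀, map_div₀, map_div₀, ← IsScalarTower.algebraMap_apply Λ K F,
    ← IsScalarTower.algebraMap_apply Λ K F, ← IsScalarTower.algebraMap_apply Λ K F,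
    ← IsScalarTower.algebraMap_apply Λ K F, ha', hb']

end Frac

section Chart

variable {Λ K F : Type*} [CommRing Λ] [IsDomain Λ] [IsDiscreteValuationRing Λ] [Field K]
  [Algebra Λ K] [IsFractionRing Λ K] [Field F] [Algebra K F] [Algebra Λ F] [IsScalarTower Λ K F]

/-- **ABS, one chart**: (LOCF) at a maximal ideal `𝔪 ∋ π` of the integral closure of `Λ[t]`, from
the divisibility of the orders of `u` and the closed-point data at `𝔪` (conclusions of the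
localisation-free node lemmas), for `τ`, `τ'` fixing `t`, preserving `Λ`, trivial modulo `π` on
the Gauss ring, with second differences `≡ 1` modulo `π`. -/
theorem abs_locf_chart (π : Λ) (hπ : Irreducible π) {t : F} (ht : Transcendental K t)
    [IsDedekindDomain ↥(integralClosure (Algebra.adjoin K {t}) F)]
    [IsFractionRing ↥(integralClosure (Algebra.adjoin K {t}) F) F]
    (τ τ' : F ≃+* F) (hτt : τ t = t) (hτ't : τ' t = t)
    (hτΛ : ∀ c : Λ, ∃ c' : Λ, τ (algebraMap Λ F c) = algebraMap Λ F c')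
    (hτΛs : ∀ c : Λ, ∃ c' : Λ, τ.symm (algebraMap Λ F c) = algebraMap Λ F c')
    (hτ'Λ : ∀ c : Λ, ∃ c' : Λ, τ' (algebraMap Λ F c) = algebraMap Λ F c')
    (hτ'Λs : ∀ c : Λ, ∃ c' : Λ, τ'.symm (algebraMap Λ F c) = algebraMap Λ F c')
    (hTRIV : ∀ b : F, IsIntegral (S18.gaussSub π hπ.prime t) b →
      ∃ δ : F, IsIntegral (S18.gaussSub π hπ.prime t) δ ∧ τ b - b = π • δ)
    (hTRIV' : ∀ b : F, IsIntegral (S18.gaussSub π hπ.prime t) b →
      ∃ δ : F, IsIntegral (S18.gaussSub π hπ.prime t) δ ∧ τ' b - b = π • δ)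
    (hSD : ∀ h : F, h ≠ 0 → IsIntegral (S18.gaussSub π hπ.prime t) (absSd τ τ' h) ∧
      ∃ δ : F, IsIntegral (S18.gaussSub π hπ.prime t) δ ∧ absSd τ τ' h - 1 = π • δ)
    (m : ℕ) {u : F} (hu : u ≠ 0)
    (𝔪 : Ideal ↥(integralClosure (Algebra.adjoin Λ {t}) F)) (h𝔪 : 𝔪.IsMaximal)
    (hπ𝔪 : algebraMap Λ ↥(integralClosure (Algebra.adjoin Λ {t}) F) π ∈ 𝔪)
    (hdiv : ∀ 𝔔 ∈ absThrough (absIncl Λ K t) 𝔪,
      ∃ n : ℤ, 𝔔.valuation F u = WithZero.exp ((m : ℤ) * n))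
    (hpt : ∀ 𝔔 ∈ absThrough (absIncl Λ K t) 𝔪, 𝔔.valuation F u ≠ 1 →
      (∃ φ : ↥(integralClosure (Algebra.adjoin Λ {t}) F) →ₐ[Λ] Λ,
        𝔪 = Ideal.comap (φ : ↥(integralClosure (Algebra.adjoin Λ {t}) F) →+* Λ)
          (Ideal.span {π}) ∧
        (∀ b : ↥(integralClosure (Algebra.adjoin Λ {t}) F),
          absIncl Λ K t b ∈ 𝔔.asIdeal ↔ φ b = 0) ∧
        ∃ h : ↥(integralClosure (Algebra.adjoin Λ {t}) F), φ h = 0 ∧
          ∃ s : ↥(integralClosure (Algebra.adjoin Λ {t}) F), ¬ π ∣ φ s ∧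
            ∀ b : ↥(integralClosure (Algebra.adjoin Λ {t}) F), φ b = 0 → h ∣ s * b) ∨
      (∃ φ : ↥(integralClosure (Algebra.adjoin Λ {t}) F) →ₐ[Λ] Λ,
        𝔪 = Ideal.comap (φ : ↥(integralClosure (Algebra.adjoin Λ {t}) F) →+* Λ)
          (Ideal.span {π}) ∧
        (∀ b : ↥(integralClosure (Algebra.adjoin Λ {t}) F),
          absIncl Λ K t b ∈ 𝔔.asIdeal ↔ φ b = 0) ∧
        ∃ h : ↥(integralClosure (Algebra.adjoin Λ {t}) F), φ h = 0 ∧
          ∃ (k : ℕ) (s : ↥(integralClosure (Algebra.adjoin Λ {t}) F)), ¬ π ∣ φ s ∧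
            ∀ b : ↥(integralClosure (Algebra.adjoin Λ {t}) F), φ b = 0 →
              h ∣ algebraMap Λ ↥(integralClosure (Algebra.adjoin Λ {t}) F) (π ^ k) * (s * b)) ∨
      ((∀ g : F, 𝔔.valuation F (τ g) = 𝔔.valuation F g) ∧
        (∀ g : F, 𝔔.valuation F (τ' g) = 𝔔.valuation F g))) :
    ∃ g : F, g ≠ 0 ∧ IsIntegral (S18.gaussSub π hπ.prime t) g⁻¹ ∧
      (∃ δ : F, IsIntegral (S18.gaussSub π hπ.prime t) δ ∧ g - 1 = π • δ) ∧
      ∃ c : ↥(integralClosure (Algebra.adjoin Λ {t}) F), c ∉ 𝔪 ∧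
        IsIntegral (Algebra.adjoin Λ {t}) ((c : F) * absSd τ τ' u * (g ^ m)⁻¹) := by
  have : 𝔪.IsPrime := h𝔪.isPrime
  have htΛ : Transcendental Λ t := S18.GaussLineK.transcendental_of_fraction ht
  have hτst : τ.symm t = t := by rw [← hτt, RingEquiv.symm_apply_apply, hτt]
  have hτ'st : τ'.symm t = t := by rw [← hτ't, RingEquiv.symm_apply_apply, hτ't]
  -- (LP″)
  have hLP := abs_lp_of_points (absIncl Λ K t) π (abs_isUnit_incl Λ K t π hπ.ne_zero) (abs_incl_loc Λ K t π hπ) 𝔪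
    (fun 𝔔 => (∀ g : F, 𝔔.valuation F (τ g) = 𝔔.valuation F g) ∧
      (∀ g : F, 𝔔.valuation F (τ' g) = 𝔔.valuation F g)) m u hu hdiv hpt
  -- stability of `Bη`
  have hη : ∀ σ : F ≃+* F, σ t = t →
      (∀ c : Λ, ∃ c' : Λ, σ (algebraMap Λ F c) = algebraMap Λ F c') →
      ∀ y : ↥(integralClosure (Algebra.adjoin K {t}) F),
        ∃ y' : ↥(integralClosure (Algebra.adjoin K {t}) F),
          algebraMap ↥(integralClosure (Algebra.adjoin K {t}) F) F y' =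
            σ (algebraMap ↥(integralClosure (Algebra.adjoin K {t}) F) F y) := by
    intro σ hσt hσΛ y
    exact ⟨⟨σ (y : F), abs_isIntegral_map_adjoin (σ : F →+* F) hσt
      (abs_map_frac (σ : F →+* F) hσΛ) y.2⟩, rfl⟩
  -- stability of `B` and of `𝔪` (TRIV + Lemma K)
  have hB : ∀ σ : F ≃+* F, σ t = t →
      (∀ c : Λ, ∃ c' : Λ, σ (algebraMap Λ F c) = algebraMap Λ F c') →
      (∀ b : F, IsIntegral (S18.gaussSub π hπ.prime t) b →
        ∃ δ : F, IsIntegral (S18.gaussSub π hπ.prime t) δ ∧ σ b - b = π • δ) →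
      ∀ b : ↥(integralClosure (Algebra.adjoin Λ {t}) F),
        ∃ b' : ↥(integralClosure (Algebra.adjoin Λ {t}) F),
          algebraMap ↥(integralClosure (Algebra.adjoin Λ {t}) F) F b' =
            σ (algebraMap ↥(integralClosure (Algebra.adjoin Λ {t}) F) F b) ∧
          (b' ∈ 𝔪 → b ∈ 𝔪) := by
    intro σ hσt hσΛ hσT b
    have hσb : IsIntegral (Algebra.adjoin Λ {t}) (σ (b : F)) :=
      abs_isIntegral_map_adjoin (σ : F →+* F) hσt hσΛ b.2
    refine ⟨⟨σ (b : F), hσb⟩, rfl, ?_⟩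
    intro hb'
    have hbV : IsIntegral (S18.gaussSub π hπ.prime t) (b : F) :=
      S18.GaussLineK.isIntegral_of_isIntegral_adjoin π hπ.prime htΛ (s := {t}) (by simp) b.2
    obtain ⟨δ, hδV, hδ⟩ := hσT (b : F) hbV
    have hδB : IsIntegral (Algebra.adjoin Λ {t}) δ :=
      S18.GaussLineK.lemmaK_fin π hπ.prime htΛ (hσb.sub b.2) hδV hδ
    have hsub : (⟨σ (b : F), hσb⟩ : ↥(integralClosure (Algebra.adjoin Λ {t}) F)) - b =
        algebraMap Λ ↥(integralClosure (Algebra.adjoin Λ {t}) F) π * ⟨δ, hδB⟩ := by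
      apply Subtype.ext
      rw [Subalgebra.coe_sub, Subalgebra.coe_mul]
      exact hδ.trans (Algebra.smul_def π δ)
    have hmem : (⟨σ (b : F), hσb⟩ : ↥(integralClosure (Algebra.adjoin Λ {t}) F)) - b ∈ 𝔪 := by
      rw [hsub]
      exact 𝔪.mul_mem_right _ hπ𝔪
    have := 𝔪.sub_mem hb' hmem
    rwa [sub_sub_cancel] at this
  obtain ⟨g, hg0, hgi, hg1, c, hc, b, hb⟩ :=
    abs_locf_abstract (absIncl Λ K t) (algebraMap_absIncl Λ K t) 𝔪 π (S18.gaussSub π hπ.prime t)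
      (fun b => S18.GaussLineK.isIntegral_of_isIntegral_adjoin π hπ.prime htΛ (s := {t})
        (by simp) b.2)
      (fun y hy => ⟨⟨(y : F), abs_isIntegral_of_gauss π hπ ht y.2 hy⟩, rfl⟩)
      τ τ' (hη τ hτt hτΛ) (hη τ.symm hτst hτΛs) (hη τ' hτ't hτ'Λ) (hη τ'.symm hτ'st hτ'Λs)
      (hB τ hτt hτΛ hTRIV) (hB τ' hτ't hτ'Λ hTRIV') hSD m hu hLP
  refine ⟨g, hg0, hgi, hg1, c, hc, ?_⟩
  have h := b.2
  have hb2 : (b : F) = (c : F) * absSd τ τ' u * (g ^ m)⁻¹ := hb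
  rw [← hb2]
  exact h

end Chart

section Main

open IntermediateField

/-- **ABS, main theorem** (blocks ABS-1′, ABS-2, ABS-3, ABS-4 and the chart overlap combined).
`z = sd(u)` has an `m`-th root `w` in an ambient field `𝔽 ⊇ F` with constant field `K`; `τ`, `τ'`
fix `j`, preserve `Λ`, are trivial modulo `π` on the Gauss ring and have second differences
`≡ 1` modulo `π`; the orders of `u` are divisible by `m` on both charts; at every closed point of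
the special fibre (chart `j`: all of them; chart `j⁻¹`: those with `j⁻¹ = 0`) every horizontal
prime in the support of `u` is either the prime of a `Λ`-point with a local equation (conclusion
of `node_lp_global_smooth` / `node_lp_global_cross_B`) or is fixed by `τ` and `τ'`.
Then `w ∈ F`. -/
theorem abs_main
    {Λ K F 𝔽 : Type*} [CommRing Λ] [IsDomain Λ] [IsDiscreteValuationRing Λ]
    [Field K] [CharZero K] [Algebra Λ K] [IsFractionRing Λ K]
    [Field F] [Algebra K F] [Algebra Λ F] [IsScalarTower Λ K F]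
    [Field 𝔽] [Algebra K 𝔽] [Algebra Λ 𝔽] [IsScalarTower Λ K 𝔽]
    [Algebra F 𝔽] [IsScalarTower K F 𝔽] [IsScalarTower Λ F 𝔽]
    (π : Λ) (hπ : Irreducible π) (j : F) (hj : Transcendental K j)
    [FiniteDimensional K⟮algebraMap F 𝔽 j⟯ 𝔽]
    (hclosed : ∀ y : 𝔽, IsAlgebraic K y → y ∈ (algebraMap K 𝔽).range)
    (m : ℕ) (hm : IsUnit (m : Λ)) (ζ : Λ) (hζ : IsPrimitiveRoot ζ m)
    [IsDedekindDomain ↥(integralClosure (Algebra.adjoin K {j}) F)]
    [IsFractionRing ↥(integralClosure (Algebra.adjoin K {j}) F) F]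
    [IsDedekindDomain ↥(integralClosure (Algebra.adjoin K {j⁻¹}) F)]
    [IsFractionRing ↥(integralClosure (Algebra.adjoin K {j⁻¹}) F) F]
    (τ τ' : F ≃+* F) (hτj : τ j = j) (hτ'j : τ' j = j)
    (hτΛ : ∀ c : Λ, ∃ c' : Λ, τ (algebraMap Λ F c) = algebraMap Λ F c')
    (hτΛs : ∀ c : Λ, ∃ c' : Λ, τ.symm (algebraMap Λ F c) = algebraMap Λ F c')
    (hτ'Λ : ∀ c : Λ, ∃ c' : Λ, τ' (algebraMap Λ F c) = algebraMap Λ F c')
    (hτ'Λs : ∀ c : Λ, ∃ c' : Λ, τ'.symm (algebraMap Λ F c) = algebraMap Λ F c')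
    (hTRIV : ∀ b : F, IsIntegral (S18.gaussSub π hπ.prime j) b →
      ∃ δ : F, IsIntegral (S18.gaussSub π hπ.prime j) δ ∧ τ b - b = π • δ)
    (hTRIV' : ∀ b : F, IsIntegral (S18.gaussSub π hπ.prime j) b →
      ∃ δ : F, IsIntegral (S18.gaussSub π hπ.prime j) δ ∧ τ' b - b = π • δ)
    (hSD : ∀ h : F, h ≠ 0 → IsIntegral (S18.gaussSub π hπ.prime j) (absSd τ τ' h) ∧
      ∃ δ : F, IsIntegral (S18.gaussSub π hπ.prime j) δ ∧ absSd τ τ' h - 1 = π • δ)
    (u : F) (hu : u ≠ 0) (w : 𝔽) (hw : w ^ m = algebraMap F 𝔽 (absSd τ τ' u))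
    (hdiv_fin : ∀ 𝔔 : HeightOneSpectrum ↥(integralClosure (Algebra.adjoin K {j}) F),
      ∃ n : ℤ, 𝔔.valuation F u = WithZero.exp ((m : ℤ) * n))
    (hdiv_inf : ∀ 𝔔 : HeightOneSpectrum ↥(integralClosure (Algebra.adjoin K {j⁻¹}) F),
      ∃ n : ℤ, 𝔔.valuation F u = WithZero.exp ((m : ℤ) * n))
    (hpt_fin : ∀ 𝔪 : Ideal ↥(integralClosure (Algebra.adjoin Λ {j}) F), 𝔪.IsMaximal →
      algebraMap Λ ↥(integralClosure (Algebra.adjoin Λ {j}) F) π ∈ 𝔪 →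
      ∀ 𝔔 ∈ absThrough (absIncl Λ K j) 𝔪, 𝔔.valuation F u ≠ 1 →
      (∃ φ : ↥(integralClosure (Algebra.adjoin Λ {j}) F) →ₐ[Λ] Λ,
        𝔪 = Ideal.comap (φ : ↥(integralClosure (Algebra.adjoin Λ {j}) F) →+* Λ)
          (Ideal.span {π}) ∧
        (∀ b : ↥(integralClosure (Algebra.adjoin Λ {j}) F),
          absIncl Λ K j b ∈ 𝔔.asIdeal ↔ φ b = 0) ∧
        ∃ h : ↥(integralClosure (Algebra.adjoin Λ {j}) F), φ h = 0 ∧
          ∃ s : ↥(integralClosure (Algebra.adjoin Λ {j}) F), ¬ π ∣ φ s ∧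
            ∀ b : ↥(integralClosure (Algebra.adjoin Λ {j}) F), φ b = 0 → h ∣ s * b) ∨
      (∃ φ : ↥(integralClosure (Algebra.adjoin Λ {j}) F) →ₐ[Λ] Λ,
        𝔪 = Ideal.comap (φ : ↥(integralClosure (Algebra.adjoin Λ {j}) F) →+* Λ)
          (Ideal.span {π}) ∧
        (∀ b : ↥(integralClosure (Algebra.adjoin Λ {j}) F),
          absIncl Λ K j b ∈ 𝔔.asIdeal ↔ φ b = 0) ∧
        ∃ h : ↥(integralClosure (Algebra.adjoin Λ {j}) F), φ h = 0 ∧
          ∃ (k : ℕ) (s : ↥(integralClosure (Algebra.adjoin Λ {j}) F)), ¬ π ∣ φ s ∧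
            ∀ b : ↥(integralClosure (Algebra.adjoin Λ {j}) F), φ b = 0 →
              h ∣ algebraMap Λ ↥(integralClosure (Algebra.adjoin Λ {j}) F) (π ^ k) * (s * b)) ∨
      ((∀ g : F, 𝔔.valuation F (τ g) = 𝔔.valuation F g) ∧
        (∀ g : F, 𝔔.valuation F (τ' g) = 𝔔.valuation F g)))
    (hpt_inf : ∀ 𝔪 : Ideal ↥(integralClosure (Algebra.adjoin Λ {j⁻¹}) F), 𝔪.IsMaximal →
      algebraMap Λ ↥(integralClosure (Algebra.adjoin Λ {j⁻¹}) F) π ∈ 𝔪 →
      (∃ a : ↥(integralClosure (Algebra.adjoin Λ {j⁻¹}) F), (a : F) = j⁻¹ ∧ a ∈ 𝔪) →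
      ∀ 𝔔 ∈ absThrough (absIncl Λ K j⁻¹) 𝔪, 𝔔.valuation F u ≠ 1 →
      (∃ φ : ↥(integralClosure (Algebra.adjoin Λ {j⁻¹}) F) →ₐ[Λ] Λ,
        𝔪 = Ideal.comap (φ : ↥(integralClosure (Algebra.adjoin Λ {j⁻¹}) F) →+* Λ)
          (Ideal.span {π}) ∧
        (∀ b : ↥(integralClosure (Algebra.adjoin Λ {j⁻¹}) F),
          absIncl Λ K j⁻¹ b ∈ 𝔔.asIdeal ↔ φ b = 0) ∧
        ∃ h : ↥(integralClosure (Algebra.adjoin Λ {j⁻¹}) F), φ h = 0 ∧
          ∃ s : ↥(integralClosure (Algebra.adjoin Λ {j⁻¹}) F), ¬ π ∣ φ s ∧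
            ∀ b : ↥(integralClosure (Algebra.adjoin Λ {j⁻¹}) F), φ b = 0 → h ∣ s * b) ∨
      (∃ φ : ↥(integralClosure (Algebra.adjoin Λ {j⁻¹}) F) →ₐ[Λ] Λ,
        𝔪 = Ideal.comap (φ : ↥(integralClosure (Algebra.adjoin Λ {j⁻¹}) F) →+* Λ)
          (Ideal.span {π}) ∧
        (∀ b : ↥(integralClosure (Algebra.adjoin Λ {j⁻¹}) F),
          absIncl Λ K j⁻¹ b ∈ 𝔔.asIdeal ↔ φ b = 0) ∧
        ∃ h : ↥(integralClosure (Algebra.adjoin Λ {j⁻¹}) F), φ h = 0 ∧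
          ∃ (k : ℕ) (s : ↥(integralClosure (Algebra.adjoin Λ {j⁻¹}) F)), ¬ π ∣ φ s ∧
            ∀ b : ↥(integralClosure (Algebra.adjoin Λ {j⁻¹}) F), φ b = 0 →
              h ∣ algebraMap Λ ↥(integralClosure (Algebra.adjoin Λ {j⁻¹}) F) (π ^ k) * (s * b)) ∨
      ((∀ g : F, 𝔔.valuation F (τ g) = 𝔔.valuation F g) ∧
        (∀ g : F, 𝔔.valuation F (τ' g) = 𝔔.valuation F g))) :
    ∃ y : F, algebraMap F 𝔽 y = w := by
  have hjΛ : Transcendental Λ j := S18.GaussLineK.transcendental_of_fraction hj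
  have hji : Transcendental K j⁻¹ := by
    intro h
    exact hj (by simpa using h.inv)
  have hV : S18.gaussSub π hπ.prime j⁻¹ = S18.gaussSub π hπ.prime j :=
    S18.GaussLineK.gaussSub_inv π hπ.prime hjΛ
  have hτji : τ j⁻¹ = j⁻¹ := by rw [map_inv₀, hτj]
  have hτ'ji : τ' j⁻¹ = j⁻¹ := by rw [map_inv₀, hτ'j]
  refine s34_kummer_engine_cusp π hπ j hj hclosed m hm ζ hζ (absSd τ τ' u) w hw (hSD u hu).1 ?_
    (hSD u hu).2 ?_ ?_
  · rw [← absSd_inv]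
    exact (hSD _ (inv_ne_zero hu)).1
  · intro 𝔪 h𝔪 hπ𝔪
    exact abs_locf_chart π hπ hj τ τ' hτj hτ'j hτΛ hτΛs hτ'Λ hτ'Λs hTRIV hTRIV' hSD m hu 𝔪 h𝔪
      hπ𝔪 (fun 𝔔 _ => hdiv_fin 𝔔) (hpt_fin 𝔪 h𝔪 hπ𝔪)
  · intro 𝔪 h𝔪 hπ𝔪 hcusp
    have h := abs_locf_chart π hπ hji τ τ' hτji hτ'ji hτΛ hτΛs hτ'Λ hτ'Λs
      (by rw [hV]; exact hTRIV) (by rw [hV]; exact hTRIV') (by rw [hV]; exact hSD) m hu 𝔪 h𝔪
      hπ𝔪 (fun 𝔔 _ => hdiv_inf 𝔔) (hpt_inf 𝔪 h𝔪 hπ𝔪 hcusp)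
    rw [hV] at h
    exact h

end Main

end Fermat.Agent.S34
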