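import Mathlib
import Fermat.Prelude.Def_ModularCurve_LaurentCoeff

/-! P19 GAL, leaf ROOT-B: an element of `K((X))` algebraic over `K` is a constant. -/

set_option autoImplicit false

namespace Fermat.Agent.S34

open ModularCurve

/-- An element of `K((X))` algebraic over `K` is a power series. -/
theorem s34rootc_exists_powerSeries {K : Type*} [Field K] (y : LaurentSeries K)
    (hy : IsAlgebraic K y) :
    ∃ p : PowerSeries K, HahnSeries.ofPowerSeries ℤ K p = y := by
  have h1 : IsIntegral K y := hy.isIntegral
  have htower : ∀ x : K, algebraMap K (LaurentSeries K) x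
      = algebraMap (PowerSeries K) (LaurentSeries K) (algebraMap K (PowerSeries K) x) :=
    fun _ => rfl
  have htow :=
    IsScalarTower.of_algebraMap_eq (R := K) (S := PowerSeries K) (A := LaurentSeries K) htower
  have h2 : IsIntegral (PowerSeries K) y := h1.tower_top
  obtain ⟨p, hp⟩ := (IsIntegrallyClosed.isIntegral_iff (R := PowerSeries K)).mp h2
  exact ⟨p, by rw [← hp, LaurentSeries.coe_algebraMap]⟩

/-- A nonzero element of `K((X))` algebraic over `K` has nonzero constant coefficient. -/
theorem s34rootc_coeff_zero_ne_zero {K : Type*} [Field K] (y : LaurentSeries K)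
    (hy : IsAlgebraic K y) (hy0 : y ≠ 0) : y.coeff 0 ≠ 0 := by
  obtain ⟨p, hp⟩ := s34rootc_exists_powerSeries y hy
  obtain ⟨q, hq⟩ := s34rootc_exists_powerSeries y⁻¹ hy.inv
  have h1 : HahnSeries.ofPowerSeries ℤ K (p * q) = HahnSeries.ofPowerSeries ℤ K 1 := by
    rw [map_mul, hp, hq, map_one, mul_inv_cancel₀ hy0]
  have h2 : p * q = 1 := HahnSeries.ofPowerSeries_injective h1
  have h3 : PowerSeries.constantCoeff p * PowerSeries.constantCoeff q = 1 := by
    rw [← map_mul, h2, map_one]
  have h4 : y.coeff 0 = PowerSeries.constantCoeff p := by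
    rw [← hp, ← PowerSeries.coeff_zero_eq_constantCoeff_apply]
    exact_mod_cast PowerSeries.coeff_coe (f := p) 0
  rw [h4]
  exact left_ne_zero_of_mul_eq_one h3

/-- An element of `K((X))` algebraic over `K` is a constant. -/
theorem s34root_const_of_isAlgebraic {K : Type*} [Field K] (y : LaurentSeries K)
    (hy : IsAlgebraic K y) : y ∈ (algebraMap K (LaurentSeries K)).range := by
  refine ⟨y.coeff 0, ?_⟩
  by_contra hne
  have h0 : y - algebraMap K (LaurentSeries K) (y.coeff 0) ≠ 0 := by
    intro h
    exact hne (sub_eq_zero.mp h).symm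
  have halg : IsAlgebraic K (y - algebraMap K (LaurentSeries K) (y.coeff 0)) :=
    hy.sub (isAlgebraic_algebraMap _)
  apply s34rootc_coeff_zero_ne_zero _ halg h0
  rw [HahnSeries.coeff_sub, algebraMap_laurentSeries_eq_single, HahnSeries.coeff_single_same,
    sub_self]

end Fermat.Agent.S34
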