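import Mathlib

/-!
# P19 (S34), block GAL, ROOT-C: the field `E(W)` inside an ambient field

Let `K ⊆ Ω` be fields, `E` an intermediate field, `j ∈ E` with `E` finite over `K(j)`, and
`W ∈ Ω` with `W ^ m ∈ E` (`m > 0`).  Then `𝔽 = E ⊔ K⟮W⟯` is finite over `K(j)`
(`s34root_finiteDimensional`), and if `K` is algebraically closed in `Ω` it is algebraically
closed in `𝔽` (`s34root_closed`).
-/

set_option autoImplicit false

namespace Fermat.Agent.S34

open IntermediateField

section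

variable {K Ω : Type*} [Field K] [Field Ω] [Algebra K Ω]

/-- The compositum `E(W)`. -/
noncomputable def s34rootField (E : IntermediateField K Ω) (W : Ω) : IntermediateField K Ω :=
  E ⊔ K⟮W⟯

theorem s34root_le (E : IntermediateField K Ω) (W : Ω) : E ≤ s34rootField E W := le_sup_left

theorem s34root_mem (E : IntermediateField K Ω) (W : Ω) : W ∈ s34rootField E W :=
  (le_sup_right : K⟮W⟯ ≤ E ⊔ K⟮W⟯) (mem_adjoin_simple_self K W)

/-- The inclusion `E → E(W)`. -/
noncomputable def s34rootIncl (E : IntermediateField K Ω) (W : Ω) :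
    ↥E →ₐ[K] ↥(s34rootField E W) :=
  IntermediateField.inclusion (s34root_le E W)

theorem coe_s34rootIncl (E : IntermediateField K Ω) (W : Ω) (x : ↥E) :
    ((s34rootIncl E W x : ↥(s34rootField E W)) : Ω) = (x : Ω) := rfl

theorem s34rootIncl_mem_adjoin (E : IntermediateField K Ω) (W : Ω) (j : ↥E) {x : ↥E}
    (hx : x ∈ K⟮j⟯) : s34rootIncl E W x ∈ K⟮s34rootIncl E W j⟯ := by
  have h1 : s34rootIncl E W x ∈ (K⟮j⟯).map (s34rootIncl E W) := ⟨x, hx, rfl⟩
  rw [adjoin_map, Set.image_singleton] at h1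
  exact h1

/-- The map `K(j) → K(j')` induced by the inclusion. -/
noncomputable def s34rootPhi (E : IntermediateField K Ω) (W : Ω) (j : ↥E) :
    ↥(K⟮j⟯) →+* ↥(K⟮s34rootIncl E W j⟯) where
  toFun x := ⟨s34rootIncl E W (x : ↥E), s34rootIncl_mem_adjoin E W j x.2⟩
  map_one' := Subtype.ext (map_one (s34rootIncl E W))
  map_mul' x y := Subtype.ext (map_mul (s34rootIncl E W) (x : ↥E) (y : ↥E))
  map_zero' := Subtype.ext (map_zero (s34rootIncl E W))
  map_add' x y := Subtype.ext (map_add (s34rootIncl E W) (x : ↥E) (y : ↥E))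

theorem s34root_isIntegral_incl (E : IntermediateField K Ω) (W : Ω) (j : ↥E) {b : ↥E}
    (hb : IsIntegral ↥(K⟮j⟯) b) : IsIntegral ↥(K⟮s34rootIncl E W j⟯) (s34rootIncl E W b) :=
  IsIntegral.map_of_comp_eq (s34rootPhi E W j) (s34rootIncl E W : ↥E →+* ↥(s34rootField E W))
    (RingHom.ext fun _ => rfl) hb

theorem s34root_adjoin_eq_top (E : IntermediateField K Ω) (W : Ω) (j : ↥E)
    {ι : Type*} [Fintype ι] (b : Module.Basis ι ↥(K⟮j⟯) ↥E) :
    adjoin ↥(K⟮s34rootIncl E W j⟯)
      (Set.range (fun i => s34rootIncl E W (b i)) ∪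
        {(⟨W, s34root_mem E W⟩ : ↥(s34rootField E W))}) = ⊤ := by
  classical
  rw [eq_top_iff]
  intro y _
  have hE : E ≤ IntermediateField.lift ((adjoin ↥(K⟮s34rootIncl E W j⟯)
      (Set.range (fun i => s34rootIncl E W (b i)) ∪
        {(⟨W, s34root_mem E W⟩ : ↥(s34rootField E W))})).restrictScalars K) := by
    intro e he
    have hrepr := b.sum_repr ⟨e, he⟩
    have hfe : s34rootIncl E W ⟨e, he⟩ =
        ∑ i, s34rootIncl E W ((b.repr ⟨e, he⟩ i : ↥(K⟮j⟯)) : ↥E) * s34rootIncl E W (b i) := by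
      conv_lhs => rw [← hrepr]
      rw [map_sum]
      refine Finset.sum_congr rfl fun i _ => ?_
      rw [Algebra.smul_def, map_mul]
      rfl
    have hmem : s34rootIncl E W ⟨e, he⟩ ∈ adjoin ↥(K⟮s34rootIncl E W j⟯)
        (Set.range (fun i => s34rootIncl E W (b i)) ∪
          {(⟨W, s34root_mem E W⟩ : ↥(s34rootField E W))}) := by
      rw [hfe]
      refine sum_mem fun i _ => mul_mem ?_ (subset_adjoin _ _ (Or.inl ⟨i, rfl⟩))
      exact IntermediateField.algebraMap_mem _ (s34rootPhi E W j (b.repr ⟨e, he⟩ i))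
    exact (IntermediateField.mem_lift (s34rootIncl E W ⟨e, he⟩)).mpr
      ((IntermediateField.mem_restrictScalars K).mpr hmem)
  have hW' : K⟮W⟯ ≤ IntermediateField.lift ((adjoin ↥(K⟮s34rootIncl E W j⟯)
      (Set.range (fun i => s34rootIncl E W (b i)) ∪
        {(⟨W, s34root_mem E W⟩ : ↥(s34rootField E W))})).restrictScalars K) := by
    rw [adjoin_simple_le_iff]
    have h0 : (⟨W, s34root_mem E W⟩ : ↥(s34rootField E W)) ∈ adjoin ↥(K⟮s34rootIncl E W j⟯)
        (Set.range (fun i => s34rootIncl E W (b i)) ∪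
          {(⟨W, s34root_mem E W⟩ : ↥(s34rootField E W))}) :=
      subset_adjoin _ _ (Set.mem_union_right _ (Set.mem_singleton _))
    exact (IntermediateField.mem_lift (⟨W, s34root_mem E W⟩ : ↥(s34rootField E W))).mpr
      ((IntermediateField.mem_restrictScalars K).mpr h0)
  have h𝔽 : E ⊔ K⟮W⟯ ≤ IntermediateField.lift ((adjoin ↥(K⟮s34rootIncl E W j⟯)
      (Set.range (fun i => s34rootIncl E W (b i)) ∪
        {(⟨W, s34root_mem E W⟩ : ↥(s34rootField E W))})).restrictScalars K) := sup_le hE hW'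
  have hy : (y : Ω) ∈ E ⊔ K⟮W⟯ := y.2
  exact (IntermediateField.mem_restrictScalars K).mp ((IntermediateField.mem_lift y).mp (h𝔽 hy))

theorem s34root_finiteDimensional_of_basis (E : IntermediateField K Ω) (W : Ω) (j : ↥E)
    {ι : Type*} [Fintype ι] (b : Module.Basis ι ↥(K⟮j⟯) ↥E)
    (hint : ∀ e : ↥E, IsIntegral ↥(K⟮j⟯) e)
    {m : ℕ} (hm : 0 < m) (z : ↥E) (hW : W ^ m = (z : Ω)) :
    FiniteDimensional ↥(K⟮s34rootIncl E W j⟯) ↥(s34rootField E W) := by
  classical
  have hSfin : (Set.range (fun i => s34rootIncl E W (b i)) ∪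
      {(⟨W, s34root_mem E W⟩ : ↥(s34rootField E W))}).Finite :=
    (Set.finite_range _).union (Set.finite_singleton _)
  have : Finite ↥(Set.range (fun i => s34rootIncl E W (b i)) ∪
      {(⟨W, s34root_mem E W⟩ : ↥(s34rootField E W))}) := hSfin.to_subtype
  have hint' : ∀ x ∈ (Set.range (fun i => s34rootIncl E W (b i)) ∪
      {(⟨W, s34root_mem E W⟩ : ↥(s34rootField E W))}),
      IsIntegral ↥(K⟮s34rootIncl E W j⟯) x := by
    rintro x (⟨i, rfl⟩ | hx)
    · exact s34root_isIntegral_incl E W j (hint _)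
    · rw [Set.mem_singleton_iff] at hx
      subst hx
      have hz : IsIntegral ↥(K⟮s34rootIncl E W j⟯) (s34rootIncl E W z) :=
        s34root_isIntegral_incl E W j (hint z)
      have hpow : (⟨W, s34root_mem E W⟩ : ↥(s34rootField E W)) ^ m = s34rootIncl E W z :=
        Subtype.ext hW
      exact IsIntegral.of_pow hm (hpow ▸ hz)
  have hfd := finiteDimensional_adjoin hint'
  rw [s34root_adjoin_eq_top E W j b] at hfd
  exact (topEquiv (F := ↥(K⟮s34rootIncl E W j⟯))
    (E := ↥(s34rootField E W))).toLinearEquiv.finiteDimensional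

set_option synthInstance.maxHeartbeats 200000 in
/-- **ROOT-C (finiteness).** `E(W)` is finite over `K(j)`. -/
theorem s34root_finiteDimensional (E : IntermediateField K Ω) (W : Ω) (j : ↥E)
    [FiniteDimensional ↥(K⟮j⟯) ↥E] {m : ℕ} (hm : 0 < m) (z : ↥E) (hW : W ^ m = (z : Ω)) :
    FiniteDimensional ↥(K⟮s34rootIncl E W j⟯) ↥(s34rootField E W) :=
  s34root_finiteDimensional_of_basis E W j (Module.finBasis ↥(K⟮j⟯) ↥E)
    (fun e => Algebra.IsIntegral.isIntegral e) hm z hW

/-- **ROOT-C (constants).** If `K` is algebraically closed in `Ω`, it is algebraically closed in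
every intermediate field. -/
theorem s34root_closed (hΩ : ∀ y : Ω, IsAlgebraic K y → y ∈ (algebraMap K Ω).range)
    (𝔽 : IntermediateField K Ω) (y : ↥𝔽) (hy : IsAlgebraic K y) :
    y ∈ (algebraMap K ↥𝔽).range := by
  have h1 : IsAlgebraic K (y : Ω) := by
    have := hy.algHom 𝔽.val
    exact this
  obtain ⟨c, hc⟩ := hΩ _ h1
  exact ⟨c, Subtype.ext hc⟩

end

end Fermat.Agent.S34
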