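import Mathlib
import Fermat.Agent.S34.AbsMain
import Fermat.Agent.S34.RootField
import Fermat.Agent.S34.RootConst

/-!
# P19 (S34), ROOT-D: `abs_main` with the root in an ambient field

`abs_main_ambient`: the main theorem of block ABS for a function field `F = ↥E`, `E` an
intermediate field of `Ω / K`, where `K` is algebraically closed in `Ω` and the `m`-th root `W`
of the second difference `sd(u)` is given in `Ω`: then `sd(u)` is an `m`-th power in `E`.  The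
auxiliary field of the engine is `E(W) ⊆ Ω` (`s34rootField`).

`abs_main_laurent`: the case `Ω = K((q))`.
-/

set_option autoImplicit false
set_option linter.style.haveILetI false

open IsDedekindDomain IntermediateField

namespace Fermat.Agent.S34

/-- **ROOT-D**: `abs_main` with the `m`-th root in an ambient field `Ω` in which `K` is
algebraically closed. -/
theorem abs_main_ambient
    {Λ K Ω : Type*} [CommRing Λ] [IsDomain Λ] [IsDiscreteValuationRing Λ]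
    [Field K] [CharZero K] [Algebra Λ K] [IsFractionRing Λ K]
    [Field Ω] [Algebra K Ω]
    (hΩ : ∀ y : Ω, IsAlgebraic K y → y ∈ (algebraMap K Ω).range)
    (E : IntermediateField K Ω) [Algebra Λ ↥E] [IsScalarTower Λ K ↥E]
    (π : Λ) (hπ : Irreducible π) (j : ↥E) (hj : Transcendental K j)
    [FiniteDimensional K⟮j⟯ ↥E]
    (m : ℕ) (hm : IsUnit (m : Λ)) (ζ : Λ) (hζ : IsPrimitiveRoot ζ m)
    [IsDedekindDomain ↥(integralClosure (Algebra.adjoin K {j}) ↥E)]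
    [IsFractionRing ↥(integralClosure (Algebra.adjoin K {j}) ↥E) ↥E]
    [IsDedekindDomain ↥(integralClosure (Algebra.adjoin K {j⁻¹}) ↥E)]
    [IsFractionRing ↥(integralClosure (Algebra.adjoin K {j⁻¹}) ↥E) ↥E]
    (τ τ' : ↥E ≃+* ↥E) (hτj : τ j = j) (hτ'j : τ' j = j)
    (hτΛ : ∀ c : Λ, ∃ c' : Λ, τ (algebraMap Λ ↥E c) = algebraMap Λ ↥E c')
    (hτΛs : ∀ c : Λ, ∃ c' : Λ, τ.symm (algebraMap Λ ↥E c) = algebraMap Λ ↥E c')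
    (hτ'Λ : ∀ c : Λ, ∃ c' : Λ, τ' (algebraMap Λ ↥E c) = algebraMap Λ ↥E c')
    (hτ'Λs : ∀ c : Λ, ∃ c' : Λ, τ'.symm (algebraMap Λ ↥E c) = algebraMap Λ ↥E c')
    (hTRIV : ∀ b : ↥E, IsIntegral (S18.gaussSub π hπ.prime j) b →
      ∃ δ : ↥E, IsIntegral (S18.gaussSub π hπ.prime j) δ ∧ τ b - b = π • δ)
    (hTRIV' : ∀ b : ↥E, IsIntegral (S18.gaussSub π hπ.prime j) b →
      ∃ δ : ↥E, IsIntegral (S18.gaussSub π hπ.prime j) δ ∧ τ' b - b = π • δ)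
    (hSD : ∀ h : ↥E, h ≠ 0 → IsIntegral (S18.gaussSub π hπ.prime j) (absSd τ τ' h) ∧
      ∃ δ : ↥E, IsIntegral (S18.gaussSub π hπ.prime j) δ ∧ absSd τ τ' h - 1 = π • δ)
    (u : ↥E) (hu : u ≠ 0) (W : Ω) (hW : W ^ m = ((absSd τ τ' u : ↥E) : Ω))
    (hdiv_fin : ∀ 𝔔 : HeightOneSpectrum ↥(integralClosure (Algebra.adjoin K {j}) ↥E),
      ∃ n : ℤ, 𝔔.valuation ↥E u = WithZero.exp ((m : ℤ) * n))
    (hdiv_inf : ∀ 𝔔 : HeightOneSpectrum ↥(integralClosure (Algebra.adjoin K {j⁻¹}) ↥E),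
      ∃ n : ℤ, 𝔔.valuation ↥E u = WithZero.exp ((m : ℤ) * n))
    (hpt_fin : ∀ 𝔪 : Ideal ↥(integralClosure (Algebra.adjoin Λ {j}) ↥E), 𝔪.IsMaximal →
      algebraMap Λ ↥(integralClosure (Algebra.adjoin Λ {j}) ↥E) π ∈ 𝔪 →
      ∀ 𝔔 ∈ absThrough (absIncl Λ K j) 𝔪, 𝔔.valuation ↥E u ≠ 1 →
      (∃ φ : ↥(integralClosure (Algebra.adjoin Λ {j}) ↥E) →ₐ[Λ] Λ,
        𝔪 = Ideal.comap (φ : ↥(integralClosure (Algebra.adjoin Λ {j}) ↥E) →+* Λ)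
          (Ideal.span {π}) ∧
        (∀ b : ↥(integralClosure (Algebra.adjoin Λ {j}) ↥E),
          absIncl Λ K j b ∈ 𝔔.asIdeal ↔ φ b = 0) ∧
        ∃ h : ↥(integralClosure (Algebra.adjoin Λ {j}) ↥E), φ h = 0 ∧
          ∃ s : ↥(integralClosure (Algebra.adjoin Λ {j}) ↥E), ¬ π ∣ φ s ∧
            ∀ b : ↥(integralClosure (Algebra.adjoin Λ {j}) ↥E), φ b = 0 → h ∣ s * b) ∨
      (∃ φ : ↥(integralClosure (Algebra.adjoin Λ {j}) ↥E) →ₐ[Λ] Λ,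
        𝔪 = Ideal.comap (φ : ↥(integralClosure (Algebra.adjoin Λ {j}) ↥E) →+* Λ)
          (Ideal.span {π}) ∧
        (∀ b : ↥(integralClosure (Algebra.adjoin Λ {j}) ↥E),
          absIncl Λ K j b ∈ 𝔔.asIdeal ↔ φ b = 0) ∧
        ∃ h : ↥(integralClosure (Algebra.adjoin Λ {j}) ↥E), φ h = 0 ∧
          ∃ (k : ℕ) (s : ↥(integralClosure (Algebra.adjoin Λ {j}) ↥E)), ¬ π ∣ φ s ∧
            ∀ b : ↥(integralClosure (Algebra.adjoin Λ {j}) ↥E), φ b = 0 →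
              h ∣ algebraMap Λ ↥(integralClosure (Algebra.adjoin Λ {j}) ↥E) (π ^ k) * (s * b)) ∨
      ((∀ g : ↥E, 𝔔.valuation ↥E (τ g) = 𝔔.valuation ↥E g) ∧
        (∀ g : ↥E, 𝔔.valuation ↥E (τ' g) = 𝔔.valuation ↥E g)))
    (hpt_inf : ∀ 𝔪 : Ideal ↥(integralClosure (Algebra.adjoin Λ {j⁻¹}) ↥E), 𝔪.IsMaximal →
      algebraMap Λ ↥(integralClosure (Algebra.adjoin Λ {j⁻¹}) ↥E) π ∈ 𝔪 →
      (∃ a : ↥(integralClosure (Algebra.adjoin Λ {j⁻¹}) ↥E), (a : ↥E) = j⁻¹ ∧ a ∈ 𝔪) →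
      ∀ 𝔔 ∈ absThrough (absIncl Λ K j⁻¹) 𝔪, 𝔔.valuation ↥E u ≠ 1 →
      (∃ φ : ↥(integralClosure (Algebra.adjoin Λ {j⁻¹}) ↥E) →ₐ[Λ] Λ,
        𝔪 = Ideal.comap (φ : ↥(integralClosure (Algebra.adjoin Λ {j⁻¹}) ↥E) →+* Λ)
          (Ideal.span {π}) ∧
        (∀ b : ↥(integralClosure (Algebra.adjoin Λ {j⁻¹}) ↥E),
          absIncl Λ K j⁻¹ b ∈ 𝔔.asIdeal ↔ φ b = 0) ∧
        ∃ h : ↥(integralClosure (Algebra.adjoin Λ {j⁻¹}) ↥E), φ h = 0 ∧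
          ∃ s : ↥(integralClosure (Algebra.adjoin Λ {j⁻¹}) ↥E), ¬ π ∣ φ s ∧
            ∀ b : ↥(integralClosure (Algebra.adjoin Λ {j⁻¹}) ↥E), φ b = 0 → h ∣ s * b) ∨
      (∃ φ : ↥(integralClosure (Algebra.adjoin Λ {j⁻¹}) ↥E) →ₐ[Λ] Λ,
        𝔪 = Ideal.comap (φ : ↥(integralClosure (Algebra.adjoin Λ {j⁻¹}) ↥E) →+* Λ)
          (Ideal.span {π}) ∧
        (∀ b : ↥(integralClosure (Algebra.adjoin Λ {j⁻¹}) ↥E),
          absIncl Λ K j⁻¹ b ∈ 𝔔.asIdeal ↔ φ b = 0) ∧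
        ∃ h : ↥(integralClosure (Algebra.adjoin Λ {j⁻¹}) ↥E), φ h = 0 ∧
          ∃ (k : ℕ) (s : ↥(integralClosure (Algebra.adjoin Λ {j⁻¹}) ↥E)), ¬ π ∣ φ s ∧
            ∀ b : ↥(integralClosure (Algebra.adjoin Λ {j⁻¹}) ↥E), φ b = 0 →
              h ∣ algebraMap Λ ↥(integralClosure (Algebra.adjoin Λ {j⁻¹}) ↥E) (π ^ k) * (s * b)) ∨
      ((∀ g : ↥E, 𝔔.valuation ↥E (τ g) = 𝔔.valuation ↥E g) ∧
        (∀ g : ↥E, 𝔔.valuation ↥E (τ' g) = 𝔔.valuation ↥E g))) :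
    ∃ y : ↥E, y ^ m = absSd τ τ' u := by
  have hm0 : 0 < m := by
    rcases Nat.eq_zero_or_pos m with rfl | h
    · rw [Nat.cast_zero] at hm
      exact absurd hm not_isUnit_zero
    · exact h
  letI : Algebra Λ ↥(s34rootField E W) :=
    ((algebraMap K ↥(s34rootField E W)).comp (algebraMap Λ K)).toAlgebra
  haveI : IsScalarTower Λ K ↥(s34rootField E W) := IsScalarTower.of_algebraMap_eq fun _ => rfl
  letI : Algebra ↥E ↥(s34rootField E W) := (s34rootIncl E W).toRingHom.toAlgebra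
  haveI : IsScalarTower K ↥E ↥(s34rootField E W) :=
    IsScalarTower.of_algebraMap_eq fun c => ((s34rootIncl E W).commutes c).symm
  haveI : IsScalarTower Λ ↥E ↥(s34rootField E W) := IsScalarTower.of_algebraMap_eq fun a => by
    show algebraMap K ↥(s34rootField E W) (algebraMap Λ K a) =
      s34rootIncl E W (algebraMap Λ ↥E a)
    rw [IsScalarTower.algebraMap_apply Λ K ↥E, AlgHom.commutes]
  haveI : FiniteDimensional ↥(K⟮algebraMap ↥E ↥(s34rootField E W) j⟯) ↥(s34rootField E W) :=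
    s34root_finiteDimensional E W j hm0 (absSd τ τ' u) hW
  obtain ⟨y, hy⟩ := abs_main (𝔽 := ↥(s34rootField E W)) π hπ j hj
    (s34root_closed hΩ (s34rootField E W)) m hm ζ hζ τ τ' hτj hτ'j hτΛ hτΛs hτ'Λ hτ'Λs
    hTRIV hTRIV' hSD u hu ⟨W, s34root_mem E W⟩ (Subtype.ext hW) hdiv_fin hdiv_inf hpt_fin hpt_inf
  refine ⟨y, Subtype.ext ?_⟩
  have h1 : ((y : ↥E) : Ω) = W := congrArg Subtype.val hy
  rw [← hW, ← h1]
  rfl

/-- **ROOT-D**, the case `Ω = K((q))`. -/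
theorem abs_main_laurent
    {Λ K : Type*} [CommRing Λ] [IsDomain Λ] [IsDiscreteValuationRing Λ]
    [Field K] [CharZero K] [Algebra Λ K] [IsFractionRing Λ K]
    (E : IntermediateField K (LaurentSeries K)) [Algebra Λ ↥E] [IsScalarTower Λ K ↥E]
    (π : Λ) (hπ : Irreducible π) (j : ↥E) (hj : Transcendental K j)
    [FiniteDimensional K⟮j⟯ ↥E]
    (m : ℕ) (hm : IsUnit (m : Λ)) (ζ : Λ) (hζ : IsPrimitiveRoot ζ m)
    [IsDedekindDomain ↥(integralClosure (Algebra.adjoin K {j}) ↥E)]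
    [IsFractionRing ↥(integralClosure (Algebra.adjoin K {j}) ↥E) ↥E]
    [IsDedekindDomain ↥(integralClosure (Algebra.adjoin K {j⁻¹}) ↥E)]
    [IsFractionRing ↥(integralClosure (Algebra.adjoin K {j⁻¹}) ↥E) ↥E]
    (τ τ' : ↥E ≃+* ↥E) (hτj : τ j = j) (hτ'j : τ' j = j)
    (hτΛ : ∀ c : Λ, ∃ c' : Λ, τ (algebraMap Λ ↥E c) = algebraMap Λ ↥E c')
    (hτΛs : ∀ c : Λ, ∃ c' : Λ, τ.symm (algebraMap Λ ↥E c) = algebraMap Λ ↥E c')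
    (hτ'Λ : ∀ c : Λ, ∃ c' : Λ, τ' (algebraMap Λ ↥E c) = algebraMap Λ ↥E c')
    (hτ'Λs : ∀ c : Λ, ∃ c' : Λ, τ'.symm (algebraMap Λ ↥E c) = algebraMap Λ ↥E c')
    (hTRIV : ∀ b : ↥E, IsIntegral (S18.gaussSub π hπ.prime j) b →
      ∃ δ : ↥E, IsIntegral (S18.gaussSub π hπ.prime j) δ ∧ τ b - b = π • δ)
    (hTRIV' : ∀ b : ↥E, IsIntegral (S18.gaussSub π hπ.prime j) b →
      ∃ δ : ↥E, IsIntegral (S18.gaussSub π hπ.prime j) δ ∧ τ' b - b = π • δ)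
    (hSD : ∀ h : ↥E, h ≠ 0 → IsIntegral (S18.gaussSub π hπ.prime j) (absSd τ τ' h) ∧
      ∃ δ : ↥E, IsIntegral (S18.gaussSub π hπ.prime j) δ ∧ absSd τ τ' h - 1 = π • δ)
    (u : ↥E) (hu : u ≠ 0) (W : LaurentSeries K)
    (hW : W ^ m = ((absSd τ τ' u : ↥E) : LaurentSeries K))
    (hdiv_fin : ∀ 𝔔 : HeightOneSpectrum ↥(integralClosure (Algebra.adjoin K {j}) ↥E),
      ∃ n : ℤ, 𝔔.valuation ↥E u = WithZero.exp ((m : ℤ) * n))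
    (hdiv_inf : ∀ 𝔔 : HeightOneSpectrum ↥(integralClosure (Algebra.adjoin K {j⁻¹}) ↥E),
      ∃ n : ℤ, 𝔔.valuation ↥E u = WithZero.exp ((m : ℤ) * n))
    (hpt_fin : ∀ 𝔪 : Ideal ↥(integralClosure (Algebra.adjoin Λ {j}) ↥E), 𝔪.IsMaximal →
      algebraMap Λ ↥(integralClosure (Algebra.adjoin Λ {j}) ↥E) π ∈ 𝔪 →
      ∀ 𝔔 ∈ absThrough (absIncl Λ K j) 𝔪, 𝔔.valuation ↥E u ≠ 1 →
      (∃ φ : ↥(integralClosure (Algebra.adjoin Λ {j}) ↥E) →ₐ[Λ] Λ,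
        𝔪 = Ideal.comap (φ : ↥(integralClosure (Algebra.adjoin Λ {j}) ↥E) →+* Λ)
          (Ideal.span {π}) ∧
        (∀ b : ↥(integralClosure (Algebra.adjoin Λ {j}) ↥E),
          absIncl Λ K j b ∈ 𝔔.asIdeal ↔ φ b = 0) ∧
        ∃ h : ↥(integralClosure (Algebra.adjoin Λ {j}) ↥E), φ h = 0 ∧
          ∃ s : ↥(integralClosure (Algebra.adjoin Λ {j}) ↥E), ¬ π ∣ φ s ∧
            ∀ b : ↥(integralClosure (Algebra.adjoin Λ {j}) ↥E), φ b = 0 → h ∣ s * b) ∨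
      (∃ φ : ↥(integralClosure (Algebra.adjoin Λ {j}) ↥E) →ₐ[Λ] Λ,
        𝔪 = Ideal.comap (φ : ↥(integralClosure (Algebra.adjoin Λ {j}) ↥E) →+* Λ)
          (Ideal.span {π}) ∧
        (∀ b : ↥(integralClosure (Algebra.adjoin Λ {j}) ↥E),
          absIncl Λ K j b ∈ 𝔔.asIdeal ↔ φ b = 0) ∧
        ∃ h : ↥(integralClosure (Algebra.adjoin Λ {j}) ↥E), φ h = 0 ∧
          ∃ (k : ℕ) (s : ↥(integralClosure (Algebra.adjoin Λ {j}) ↥E)), ¬ π ∣ φ s ∧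
            ∀ b : ↥(integralClosure (Algebra.adjoin Λ {j}) ↥E), φ b = 0 →
              h ∣ algebraMap Λ ↥(integralClosure (Algebra.adjoin Λ {j}) ↥E) (π ^ k) * (s * b)) ∨
      ((∀ g : ↥E, 𝔔.valuation ↥E (τ g) = 𝔔.valuation ↥E g) ∧
        (∀ g : ↥E, 𝔔.valuation ↥E (τ' g) = 𝔔.valuation ↥E g)))
    (hpt_inf : ∀ 𝔪 : Ideal ↥(integralClosure (Algebra.adjoin Λ {j⁻¹}) ↥E), 𝔪.IsMaximal →
      algebraMap Λ ↥(integralClosure (Algebra.adjoin Λ {j⁻¹}) ↥E) π ∈ 𝔪 →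
      (∃ a : ↥(integralClosure (Algebra.adjoin Λ {j⁻¹}) ↥E), (a : ↥E) = j⁻¹ ∧ a ∈ 𝔪) →
      ∀ 𝔔 ∈ absThrough (absIncl Λ K j⁻¹) 𝔪, 𝔔.valuation ↥E u ≠ 1 →
      (∃ φ : ↥(integralClosure (Algebra.adjoin Λ {j⁻¹}) ↥E) →ₐ[Λ] Λ,
        𝔪 = Ideal.comap (φ : ↥(integralClosure (Algebra.adjoin Λ {j⁻¹}) ↥E) →+* Λ)
          (Ideal.span {π}) ∧
        (∀ b : ↥(integralClosure (Algebra.adjoin Λ {j⁻¹}) ↥E),
          absIncl Λ K j⁻¹ b ∈ 𝔔.asIdeal ↔ φ b = 0) ∧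
        ∃ h : ↥(integralClosure (Algebra.adjoin Λ {j⁻¹}) ↥E), φ h = 0 ∧
          ∃ s : ↥(integralClosure (Algebra.adjoin Λ {j⁻¹}) ↥E), ¬ π ∣ φ s ∧
            ∀ b : ↥(integralClosure (Algebra.adjoin Λ {j⁻¹}) ↥E), φ b = 0 → h ∣ s * b) ∨
      (∃ φ : ↥(integralClosure (Algebra.adjoin Λ {j⁻¹}) ↥E) →ₐ[Λ] Λ,
        𝔪 = Ideal.comap (φ : ↥(integralClosure (Algebra.adjoin Λ {j⁻¹}) ↥E) →+* Λ)
          (Ideal.span {π}) ∧
        (∀ b : ↥(integralClosure (Algebra.adjoin Λ {j⁻¹}) ↥E),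
          absIncl Λ K j⁻¹ b ∈ 𝔔.asIdeal ↔ φ b = 0) ∧
        ∃ h : ↥(integralClosure (Algebra.adjoin Λ {j⁻¹}) ↥E), φ h = 0 ∧
          ∃ (k : ℕ) (s : ↥(integralClosure (Algebra.adjoin Λ {j⁻¹}) ↥E)), ¬ π ∣ φ s ∧
            ∀ b : ↥(integralClosure (Algebra.adjoin Λ {j⁻¹}) ↥E), φ b = 0 →
              h ∣ algebraMap Λ ↥(integralClosure (Algebra.adjoin Λ {j⁻¹}) ↥E) (π ^ k) * (s * b)) ∨
      ((∀ g : ↥E, 𝔔.valuation ↥E (τ g) = 𝔔.valuation ↥E g) ∧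
        (∀ g : ↥E, 𝔔.valuation ↥E (τ' g) = 𝔔.valuation ↥E g))) :
    ∃ y : ↥E, y ^ m = absSd τ τ' u :=
  abs_main_ambient (fun y hy => s34root_const_of_isAlgebraic y hy) E π hπ j hj m hm ζ hζ τ τ'
    hτj hτ'j hτΛ hτΛs hτ'Λ hτ'Λs hTRIV hTRIV' hSD u hu W hW hdiv_fin hdiv_inf hpt_fin hpt_inf

end Fermat.Agent.S34
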