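import Mathlib
import Fermat.Agent.S34.AbsMain

/-!
# P19 (S34), block ABS: chart-level `τ`-data from the chart-free hypotheses of `abs_main`

For `t ∈ {j, j⁻¹}` and a field automorphism `τ` with `τ t = t` preserving `Λ`:

* `abs_tau_eta` : `τ` preserves the integral closure of `K[t]`;
* `abs_tau_fin` : `τ` preserves the integral closure of `Λ[t]`;
* `abs_tau_triv` : chart (TRIV) `τ b = b + π c` on the integral closure of `Λ[t]`, from (TRIV) at
  the Gauss ring (Lemma K);
* `abs_symm_fix`, `abs_inv_fix` : bookkeeping.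

These are the elementwise hypotheses `hτη`, `hτB`, `htriv` of `abs_locf_abstract` and of
`s34dict_pt`, for the concrete chart rings.
-/

set_option autoImplicit false

namespace Fermat.Agent.S34

section

variable {Λ K F : Type*} [CommRing Λ] [IsDomain Λ] [IsDiscreteValuationRing Λ] [Field K]
  [Algebra Λ K] [IsFractionRing Λ K] [Field F] [Algebra K F] [Algebra Λ F] [IsScalarTower Λ K F]

omit [IsDomain Λ] [IsDiscreteValuationRing Λ] [Field K] [Algebra Λ K] [IsFractionRing Λ K]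
  [Algebra K F] [IsScalarTower Λ K F] [CommRing Λ] [Algebra Λ F] in
theorem abs_symm_fix (τ : F ≃+* F) {t : F} (hτt : τ t = t) : τ.symm t = t := by
  rw [← hτt, RingEquiv.symm_apply_apply, hτt]

omit [IsDomain Λ] [IsDiscreteValuationRing Λ] [Field K] [Algebra Λ K] [IsFractionRing Λ K]
  [Algebra K F] [IsScalarTower Λ K F] [CommRing Λ] [Algebra Λ F] in
theorem abs_inv_fix (τ : F ≃+* F) {t : F} (hτt : τ t = t) : τ t⁻¹ = t⁻¹ := by
  rw [map_inv₀, hτt]

omit [IsDiscreteValuationRing Λ] [IsDomain Λ] in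
/-- `τ` preserves the integral closure of `K[t]`. -/
theorem abs_tau_eta (τ : F ≃+* F) {t : F} (hτt : τ t = t)
    (hτΛ : ∀ c : Λ, ∃ c' : Λ, τ (algebraMap Λ F c) = algebraMap Λ F c')
    (y : ↥(integralClosure (Algebra.adjoin K {t}) F)) :
    ∃ y' : ↥(integralClosure (Algebra.adjoin K {t}) F),
      algebraMap ↥(integralClosure (Algebra.adjoin K {t}) F) F y' =
        τ (algebraMap ↥(integralClosure (Algebra.adjoin K {t}) F) F y) :=
  ⟨⟨τ (y : F), abs_isIntegral_map_adjoin (τ : F →+* F) hτt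
    (abs_map_frac (τ : F →+* F) hτΛ) y.2⟩, rfl⟩

omit [IsDomain Λ] [IsDiscreteValuationRing Λ] [Field K] [Algebra Λ K] [IsFractionRing Λ K]
  [Algebra K F] [IsScalarTower Λ K F] in
/-- `τ` preserves the integral closure of `Λ[t]`. -/
theorem abs_tau_fin (τ : F ≃+* F) {t : F} (hτt : τ t = t)
    (hτΛ : ∀ c : Λ, ∃ c' : Λ, τ (algebraMap Λ F c) = algebraMap Λ F c')
    (b : ↥(integralClosure (Algebra.adjoin Λ {t}) F)) :
    ∃ b' : ↥(integralClosure (Algebra.adjoin Λ {t}) F),
      algebraMap ↥(integralClosure (Algebra.adjoin Λ {t}) F) F b' =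
        τ (algebraMap ↥(integralClosure (Algebra.adjoin Λ {t}) F) F b) :=
  ⟨⟨τ (b : F), abs_isIntegral_map_adjoin (τ : F →+* F) hτt hτΛ b.2⟩, rfl⟩

/-- Chart (TRIV) from (TRIV) at the Gauss ring: `τ b = b + π c` on the integral closure of
`Λ[t]`. -/
theorem abs_tau_triv (π : Λ) (hπ : Irreducible π) {t : F} (ht : Transcendental K t)
    (τ : F ≃+* F) (hτt : τ t = t)
    (hτΛ : ∀ c : Λ, ∃ c' : Λ, τ (algebraMap Λ F c) = algebraMap Λ F c')
    (hTRIV : ∀ b : F, IsIntegral (S18.gaussSub π hπ.prime t) b →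
      ∃ δ : F, IsIntegral (S18.gaussSub π hπ.prime t) δ ∧ τ b - b = π • δ)
    (b : ↥(integralClosure (Algebra.adjoin Λ {t}) F)) :
    ∃ c : ↥(integralClosure (Algebra.adjoin Λ {t}) F),
      τ (algebraMap ↥(integralClosure (Algebra.adjoin Λ {t}) F) F b) =
        algebraMap ↥(integralClosure (Algebra.adjoin Λ {t}) F) F
          (b + algebraMap Λ ↥(integralClosure (Algebra.adjoin Λ {t}) F) π * c) := by
  have htΛ : Transcendental Λ t := S18.GaussLineK.transcendental_of_fraction ht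
  have hσb : IsIntegral (Algebra.adjoin Λ {t}) (τ (b : F)) :=
    abs_isIntegral_map_adjoin (τ : F →+* F) hτt hτΛ b.2
  have hbV : IsIntegral (S18.gaussSub π hπ.prime t) (b : F) :=
    S18.GaussLineK.isIntegral_of_isIntegral_adjoin π hπ.prime htΛ (s := {t}) (by simp) b.2
  obtain ⟨δ, hδV, hδ⟩ := hTRIV (b : F) hbV
  have hδB : IsIntegral (Algebra.adjoin Λ {t}) δ :=
    S18.GaussLineK.lemmaK_fin π hπ.prime htΛ (hσb.sub b.2) hδV hδ
  refine ⟨⟨δ, hδB⟩, ?_⟩
  have h1 : τ (b : F) = (b : F) + algebraMap Λ F π * δ := by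
    rw [← Algebra.smul_def, ← hδ]; ring
  have h2 : ((b + algebraMap Λ ↥(integralClosure (Algebra.adjoin Λ {t}) F) π * ⟨δ, hδB⟩ :
      ↥(integralClosure (Algebra.adjoin Λ {t}) F)) : F) = (b : F) + algebraMap Λ F π * δ := by
    rw [Subalgebra.coe_add, Subalgebra.coe_mul]
    rfl
  exact h1.trans h2.symm

end

end Fermat.Agent.S34
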