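import Mathlib

/-!
# P19 (S34): pure algebra at a crossing point of a two-component special fibre

`R` is (a localisation of) the normal model, `q` the uniformiser of the unramified base `W`,
`x`, `y` the two "Kronecker" functions with `x * y ∈ q R` and `𝔪 = (q, x, y)`.

* `node_iter`: for every `K` there are `X ≡ x`, `Y ≡ y (mod q)` with
  `X * Y = q * (c + q ^ K * H)`, `c` a constant.
-/

set_option autoImplicit false

namespace Fermat.Agent.S34

theorem node_span_eq {R : Type*} [CommRing R] (q x y X Y : R)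
    (hX : X - x ∈ Ideal.span {q}) (hY : Y - y ∈ Ideal.span {q}) :
    Ideal.span {q, x, y} = Ideal.span {q, X, Y} := by
  obtain ⟨a, ha⟩ := Ideal.mem_span_singleton'.mp hX
  obtain ⟨b, hb⟩ := Ideal.mem_span_singleton'.mp hY
  have hXe : X = x + a * q := by linear_combination -ha
  have hYe : Y = y + b * q := by linear_combination -hb
  apply le_antisymm
  · rw [Ideal.span_le]
    intro z hz
    simp only [Set.mem_insert_iff, Set.mem_singleton_iff] at hz
    have hq : q ∈ Ideal.span {q, X, Y} := Ideal.subset_span (by simp)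
    have hXm : X ∈ Ideal.span {q, X, Y} := Ideal.subset_span (by simp)
    have hYm : Y ∈ Ideal.span {q, X, Y} := Ideal.subset_span (by simp)
    rcases hz with rfl | rfl | rfl
    · exact hq
    · have : z = X - a * q := by rw [hXe]; ring
      rw [this]
      exact Ideal.sub_mem _ hXm (Ideal.mul_mem_left _ _ hq)
    · have : z = Y - b * q := by rw [hYe]; ring
      rw [this]
      exact Ideal.sub_mem _ hYm (Ideal.mul_mem_left _ _ hq)
  · rw [Ideal.span_le]
    intro z hz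
    simp only [Set.mem_insert_iff, Set.mem_singleton_iff] at hz
    have hq : q ∈ Ideal.span {q, x, y} := Ideal.subset_span (by simp)
    have hxm : x ∈ Ideal.span {q, x, y} := Ideal.subset_span (by simp)
    have hym : y ∈ Ideal.span {q, x, y} := Ideal.subset_span (by simp)
    rcases hz with rfl | rfl | rfl
    · exact hq
    · rw [hXe]
      exact Ideal.add_mem _ hxm (Ideal.mul_mem_left _ _ hq)
    · rw [hYe]
      exact Ideal.add_mem _ hym (Ideal.mul_mem_left _ _ hq)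

/-- **Iteration at a node.** If `𝔪 = (q, x, y)`, every element is a constant (from `W`) modulo
`𝔪`, and `x * y = q * G`, then for every `K` there are `X ≡ x`, `Y ≡ y` modulo `q`, a constant
`c` and `H` with `X * Y = q * (c + q ^ K * H)`. -/
theorem node_iter {R : Type*} [CommRing R] (W : Subring R) (q x y G : R) (hq : q ∈ W)
    (hm : ∀ r : R, ∃ c ∈ W, r - c ∈ Ideal.span {q, x, y})
    (hxy : x * y = q * G) (K : ℕ) :
    ∃ X Y H : R, ∃ c ∈ W, X - x ∈ Ideal.span {q} ∧ Y - y ∈ Ideal.span {q} ∧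
      X * Y = q * (c + q ^ K * H) := by
  induction K with
  | zero =>
    refine ⟨x, y, G, 0, W.zero_mem, by simp, by simp, ?_⟩
    rw [hxy]; ring
  | succ K ih =>
    obtain ⟨X, Y, H, c, hc, hX, hY, hXY⟩ := ih
    obtain ⟨h, hh, hH⟩ := hm H
    rw [node_span_eq q x y X Y hX hY] at hH
    obtain ⟨a, z₁, hz₁, e₁⟩ := Ideal.mem_span_insert.mp hH
    obtain ⟨b, z₂, hz₂, e₂⟩ := Ideal.mem_span_insert.mp hz₁
    obtain ⟨d, e₃⟩ := Ideal.mem_span_singleton'.mp hz₂
    have hHe : H = h + a * q + b * X + d * Y := by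
      linear_combination e₁ + e₂ - e₃
    obtain ⟨u, hu⟩ := Ideal.mem_span_singleton'.mp hX
    obtain ⟨v, hv⟩ := Ideal.mem_span_singleton'.mp hY
    refine ⟨X - q ^ (K + 1) * d, Y - q ^ (K + 1) * b, a + q ^ K * (b * d), c + q ^ K * h,
      W.add_mem hc (W.mul_mem (W.pow_mem hq K) hh), ?_, ?_, ?_⟩
    · apply Ideal.mem_span_singleton'.mpr
      exact ⟨u - q ^ K * d, by linear_combination hu⟩
    · apply Ideal.mem_span_singleton'.mpr
      exact ⟨v - q ^ K * b, by linear_combination hv⟩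
    · have e1 : (X - q ^ (K + 1) * d) * (Y - q ^ (K + 1) * b) =
          X * Y - q ^ (K + 1) * (b * X + d * Y) + q ^ (2 * K + 2) * (b * d) := by ring
      rw [e1, hXY, hHe]
      ring

/-- **Kernel of an integral point.** `R` noetherian local over `Λ`, `R = Λ + 𝔪`,
`𝔪 ≤ (π) + (s)` and an evaluation `ev : R → Λ` with `π ∣ ev g` for all `g ∈ s`.  Then
`ker ev` is generated by the `g - ev g`, `g ∈ s`. -/
theorem node_ker_eval {Λ R : Type*} [CommRing Λ] [CommRing R] [IsLocalRing R]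
    [IsNoetherianRing R] [Algebra Λ R] (ev : R →ₐ[Λ] Λ) (π : Λ)
    (hπ : algebraMap Λ R π ∈ IsLocalRing.maximalIdeal R) (s : Set R)
    (hm : IsLocalRing.maximalIdeal R ≤ Ideal.span (insert (algebraMap Λ R π) s))
    (hres : ∀ r : R, ∃ c : Λ, r - algebraMap Λ R c ∈ IsLocalRing.maximalIdeal R)
    (hs : ∀ g ∈ s, π ∣ ev g) :
    RingHom.ker (ev : R →+* Λ) =
      Ideal.span ((fun g => g - algebraMap Λ R (ev g)) '' s) := by
  set J : Ideal R := Ideal.span ((fun g => g - algebraMap Λ R (ev g)) '' s) with hJ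
  have hJker : J ≤ RingHom.ker (ev : R →+* Λ) := by
    rw [hJ, Ideal.span_le]
    rintro _ ⟨g, -, rfl⟩
    simp only [SetLike.mem_coe, RingHom.mem_ker, RingHom.coe_coe, map_sub, AlgHom.commutes]
    simp
  apply le_antisymm _ hJker
  -- `𝔪 ≤ π R + J`
  have hmJ : IsLocalRing.maximalIdeal R ≤ Ideal.span {algebraMap Λ R π} ⊔ J := by
    refine hm.trans ?_
    rw [Ideal.span_le]
    intro z hz
    rcases hz with rfl | hz
    · exact Ideal.mem_sup_left (Ideal.mem_span_singleton_self _)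
    · obtain ⟨a, ha⟩ := hs z hz
      have h1 : z = algebraMap Λ R a * algebraMap Λ R π + (z - algebraMap Λ R (ev z)) := by
        rw [ha, map_mul]; ring
      rw [SetLike.mem_coe, h1]
      exact Ideal.add_mem _
        (Ideal.mem_sup_left (Ideal.mul_mem_left _ _ (Ideal.mem_span_singleton_self _)))
        (Ideal.mem_sup_right (Ideal.subset_span ⟨z, hz, rfl⟩))
  -- every element is `c + π r' + j`
  have hdec : ∀ r : R, ∃ (c : Λ) (r' : R),
      r - (algebraMap Λ R c + algebraMap Λ R π * r') ∈ J := by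
    intro r
    obtain ⟨c, hc⟩ := hres r
    obtain ⟨u, hu, j, hj, huj⟩ := Submodule.mem_sup.mp (hmJ hc)
    obtain ⟨r', hr'⟩ := Ideal.mem_span_singleton'.mp hu
    refine ⟨c, r', ?_⟩
    have : r - (algebraMap Λ R c + algebraMap Λ R π * r') = j := by
      linear_combination -huj - hr'
    rw [this]; exact hj
  -- every element is `c + π^n r' + j`
  have hpow : ∀ n : ℕ, ∀ r : R, ∃ (c : Λ) (r' : R),
      r - (algebraMap Λ R c + algebraMap Λ R π ^ n * r') ∈ J := by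
    intro n
    induction n with
    | zero => intro r; exact ⟨0, r, by simp⟩
    | succ n ih =>
      intro r
      obtain ⟨c, r₁, h₁⟩ := ih r
      obtain ⟨c', r₂, h₂⟩ := hdec r₁
      refine ⟨c + π ^ n * c', r₂, ?_⟩
      have : r - (algebraMap Λ R (c + π ^ n * c') + algebraMap Λ R π ^ (n + 1) * r₂) =
          (r - (algebraMap Λ R c + algebraMap Λ R π ^ n * r₁)) +
            algebraMap Λ R π ^ n * (r₁ - (algebraMap Λ R c' + algebraMap Λ R π * r₂)) := by
        simp only [map_add, map_mul, map_pow]; ring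
      rw [this]
      exact Ideal.add_mem _ h₁ (Ideal.mul_mem_left _ _ h₂)
  intro r hr
  rw [RingHom.mem_ker, RingHom.coe_coe] at hr
  -- `r ∈ J + 𝔪^n` for all `n`, conclude by Krull's intersection theorem in `R ⧸ J`
  have hmem : ∀ n : ℕ, Ideal.Quotient.mk J r ∈
      (IsLocalRing.maximalIdeal R ^ n • ⊤ : Submodule R (R ⧸ J)) := by
    intro n
    obtain ⟨c, r', h⟩ := hpow n r
    have e1 : ev (r - (algebraMap Λ R c + algebraMap Λ R π ^ n * r')) = 0 := hJker h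
    simp only [map_sub, map_add, map_mul, map_pow, AlgHom.commutes, Algebra.algebraMap_self,
      RingHom.id_apply, hr, zero_sub, neg_eq_zero] at e1
    have e2 : c = -(π ^ n * ev r') := by linear_combination e1
    have e3 : r - algebraMap Λ R π ^ n * (r' - algebraMap Λ R (ev r')) ∈ J := by
      have : r - algebraMap Λ R π ^ n * (r' - algebraMap Λ R (ev r')) =
          r - (algebraMap Λ R c + algebraMap Λ R π ^ n * r') := by
        rw [e2]; simp only [map_neg, map_mul, map_pow]; ring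
      rw [this]; exact h
    have e4 : Ideal.Quotient.mk J r =
        (algebraMap Λ R π ^ n) • Ideal.Quotient.mk J (r' - algebraMap Λ R (ev r')) := by
      rw [Algebra.smul_def, Ideal.Quotient.algebraMap_eq, ← map_mul, Ideal.Quotient.eq]
      exact e3
    rw [e4]
    exact Submodule.smul_mem_smul (Ideal.pow_mem_pow hπ n) Submodule.mem_top
  have hbot := Ideal.iInf_pow_smul_eq_bot_of_isLocalRing (R := R) (M := R ⧸ J)
    (IsLocalRing.maximalIdeal R) (Ideal.IsPrime.ne_top inferInstance)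
  have h0 : Ideal.Quotient.mk J r ∈ (⊥ : Submodule R (R ⧸ J)) := by
    rw [← hbot]
    exact (Submodule.mem_iInf _).mpr hmem
  exact Ideal.Quotient.eq_zero_iff_mem.mp ((Submodule.mem_bot R).mp h0)

/-- `node_ker_eval` for a smooth point: `𝔪 = (π, t)`. -/
theorem node_ker_eval_single {Λ R : Type*} [CommRing Λ] [CommRing R] [IsLocalRing R]
    [IsNoetherianRing R] [Algebra Λ R] (ev : R →ₐ[Λ] Λ) (π : Λ)
    (hπ : algebraMap Λ R π ∈ IsLocalRing.maximalIdeal R) (t : R)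
    (hm : IsLocalRing.maximalIdeal R ≤ Ideal.span {algebraMap Λ R π, t})
    (hres : ∀ r : R, ∃ c : Λ, r - algebraMap Λ R c ∈ IsLocalRing.maximalIdeal R)
    (ht : π ∣ ev t) :
    RingHom.ker (ev : R →+* Λ) = Ideal.span {t - algebraMap Λ R (ev t)} := by
  have h := node_ker_eval ev π hπ {t} hm hres (by simpa using ht)
  rw [h, Set.image_singleton]

/-- `node_ker_eval` for a crossing point: `𝔪 = (π, X, Y)`. -/
theorem node_ker_eval_pair {Λ R : Type*} [CommRing Λ] [CommRing R] [IsLocalRing R]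
    [IsNoetherianRing R] [Algebra Λ R] (ev : R →ₐ[Λ] Λ) (π : Λ)
    (hπ : algebraMap Λ R π ∈ IsLocalRing.maximalIdeal R) (X Y : R)
    (hm : IsLocalRing.maximalIdeal R ≤ Ideal.span {algebraMap Λ R π, X, Y})
    (hres : ∀ r : R, ∃ c : Λ, r - algebraMap Λ R c ∈ IsLocalRing.maximalIdeal R)
    (hX : π ∣ ev X) (hY : π ∣ ev Y) :
    RingHom.ker (ev : R →+* Λ) =
      Ideal.span {X - algebraMap Λ R (ev X), Y - algebraMap Λ R (ev Y)} := by
  have h := node_ker_eval ev π hπ {X, Y} hm hres (by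
    intro g hg
    rcases hg with rfl | rfl
    · exact hX
    · exact hY)
  rw [h, Set.image_pair]

/-- **LP-APPROX at a crossing point.** `𝔪 = (π, X, Y)`, `X * Y = d + Q * H` (`d`, `Q` constants;
in the application `d = q c_K`, `Q = q ^ (K + 1)`), and the integral point `ev` has
`Q = ev X * μ` with `π ∣ μ` (i.e. `v(X(P)) < v(Q)`).  Then
* `X(P) * (Y - Y(P))` is a multiple of `X - X(P)`: the function `X - X(P)` generates `ker ev`
  wherever the constant `X(P)` is invertible;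
* `X * Y = X(P) * ν` with `ν ∈ π R` (so `X / X(P)` is small wherever `Y` is a unit). -/
theorem node_lp {Λ R : Type*} [CommRing Λ] [CommRing R] [IsLocalRing R]
    [IsNoetherianRing R] [Algebra Λ R] (ev : R →ₐ[Λ] Λ) (π : Λ)
    (hπ : algebraMap Λ R π ∈ IsLocalRing.maximalIdeal R) (X Y H : R)
    (hm : IsLocalRing.maximalIdeal R ≤ Ideal.span {algebraMap Λ R π, X, Y})
    (hres : ∀ r : R, ∃ c : Λ, r - algebraMap Λ R c ∈ IsLocalRing.maximalIdeal R)
    (hX : π ∣ ev X) (hY : π ∣ ev Y) (d Q μ : Λ)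
    (hXY : X * Y = algebraMap Λ R d + algebraMap Λ R Q * H)
    (hQ : Q = ev X * μ) (hμ : π ∣ μ) :
    (∃ t : R, algebraMap Λ R (ev X) * (Y - algebraMap Λ R (ev Y)) =
        t * (X - algebraMap Λ R (ev X))) ∧
      (∃ ν ∈ Ideal.span {algebraMap Λ R π}, X * Y = algebraMap Λ R (ev X) * ν) := by
  have hker := node_ker_eval_pair ev π hπ X Y hm hres hX hY
  have hHmem : H - algebraMap Λ R (ev H) ∈ RingHom.ker (ev : R →+* Λ) := by
    rw [RingHom.mem_ker, RingHom.coe_coe, map_sub, AlgHom.commutes]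
    simp
  rw [hker] at hHmem
  obtain ⟨α, β, hαβ⟩ := Ideal.mem_span_pair.mp hHmem
  -- evaluate the relation
  have hev : ev X * ev Y = d + Q * ev H := by
    have := congrArg ev hXY
    simpa only [map_mul, map_add, AlgHom.commutes, Algebra.algebraMap_self, RingHom.id_apply]
      using this
  have hd : algebraMap Λ R d = algebraMap Λ R (ev X) * algebraMap Λ R (ev Y) -
      algebraMap Λ R Q * algebraMap Λ R (ev H) := by
    have h3 := congrArg (algebraMap Λ R) hev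
    simp only [map_mul, map_add] at h3
    linear_combination -h3
  have hQR : algebraMap Λ R Q = algebraMap Λ R (ev X) * algebraMap Λ R μ := by
    rw [← map_mul, hQ]
  obtain ⟨μ', hμ'⟩ := hμ
  obtain ⟨b', hb'⟩ := hY
  constructor
  · -- `1 - μ β` is a unit
    have hmem : algebraMap Λ R μ * β ∈ IsLocalRing.maximalIdeal R := by
      rw [hμ', map_mul, mul_assoc]
      exact Ideal.mul_mem_right _ _ hπ
    have hu : IsUnit (1 - algebraMap Λ R μ * β) := by
      have h1 : (1 - algebraMap Λ R μ * β) ∉ IsLocalRing.maximalIdeal R := by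
        intro h
        have : (1 : R) ∈ IsLocalRing.maximalIdeal R := by
          have h3 := Ideal.add_mem _ h hmem
          rw [sub_add_cancel] at h3
          exact h3
        exact (Ideal.ne_top_iff_one _).mp (Ideal.IsPrime.ne_top inferInstance) this
      simpa [IsLocalRing.mem_maximalIdeal, mem_nonunits_iff] using h1
    obtain ⟨u, hu⟩ := hu
    refine ⟨(↑u⁻¹ : R) * (algebraMap Λ R Q * α - Y), ?_⟩
    have key : (1 - algebraMap Λ R μ * β) * (algebraMap Λ R (ev X) *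
        (Y - algebraMap Λ R (ev Y))) =
        (algebraMap Λ R Q * α - Y) * (X - algebraMap Λ R (ev X)) := by
      linear_combination hXY + hd - (algebraMap Λ R Q) * hαβ +
        (β * (Y - algebraMap Λ R (ev Y))) * hQR
    have h2 : algebraMap Λ R (ev X) * (Y - algebraMap Λ R (ev Y)) =
        (↑u⁻¹ : R) * ((1 - algebraMap Λ R μ * β) * (algebraMap Λ R (ev X) *
        (Y - algebraMap Λ R (ev Y)))) := by
      rw [← hu, ← mul_assoc, Units.inv_mul, one_mul]
    rw [h2, key]; ring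
  · refine ⟨algebraMap Λ R (ev Y) + algebraMap Λ R μ * (H - algebraMap Λ R (ev H)), ?_, ?_⟩
    · apply Ideal.mem_span_singleton'.mpr
      refine ⟨algebraMap Λ R b' + algebraMap Λ R μ' * (H - algebraMap Λ R (ev H)), ?_⟩
      rw [hb', hμ']
      simp only [map_mul]
      ring
    · linear_combination hXY + hd + (H - algebraMap Λ R (ev H)) * hQR

/-- Consequence of `node_lp`: a prime containing `X - X(P)` but not the constant `X(P)` contains
`ker ev`. -/
theorem node_lp_prime {Λ R : Type*} [CommRing Λ] [CommRing R] [IsLocalRing R]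
    [IsNoetherianRing R] [Algebra Λ R] (ev : R →ₐ[Λ] Λ) (π : Λ)
    (hπ : algebraMap Λ R π ∈ IsLocalRing.maximalIdeal R) (X Y H : R)
    (hm : IsLocalRing.maximalIdeal R ≤ Ideal.span {algebraMap Λ R π, X, Y})
    (hres : ∀ r : R, ∃ c : Λ, r - algebraMap Λ R c ∈ IsLocalRing.maximalIdeal R)
    (hX : π ∣ ev X) (hY : π ∣ ev Y) (d Q μ : Λ)
    (hXY : X * Y = algebraMap Λ R d + algebraMap Λ R Q * H)
    (hQ : Q = ev X * μ) (hμ : π ∣ μ) (𝔔 : Ideal R) [𝔔.IsPrime]
    (h1 : X - algebraMap Λ R (ev X) ∈ 𝔔) (h2 : algebraMap Λ R (ev X) ∉ 𝔔) :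
    RingHom.ker (ev : R →+* Λ) ≤ 𝔔 := by
  obtain ⟨⟨t, ht⟩, -⟩ := node_lp ev π hπ X Y H hm hres hX hY d Q μ hXY hQ hμ
  rw [node_ker_eval_pair ev π hπ X Y hm hres hX hY, Ideal.span_le]
  intro z hz
  rcases hz with rfl | rfl
  · exact h1
  · have : algebraMap Λ R (ev X) * (Y - algebraMap Λ R (ev Y)) ∈ 𝔔 := by
      rw [ht]; exact Ideal.mul_mem_left _ _ h1
    exact (Ideal.IsPrime.mem_or_mem inferInstance this).resolve_left h2

/-- **Uniqueness of the bad place.** Two integral points at which all `X K`, `Y K` are divisible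
by `q ^ (K + 1)` coincide. -/
theorem node_bad_unique {Λ R : Type*} [CommRing Λ] [CommRing R] [IsLocalRing R]
    [IsNoetherianRing R] [Algebra Λ R] (ev ev' : R →ₐ[Λ] Λ) (π q : Λ)
    (hπ : algebraMap Λ R π ∈ IsLocalRing.maximalIdeal R) (hq : π ∣ q)
    (hΛ : ∀ c : Λ, (∀ K : ℕ, q ^ (K + 1) ∣ c) → c = 0)
    (X Y : ℕ → R)
    (hm : ∀ K, IsLocalRing.maximalIdeal R ≤ Ideal.span {algebraMap Λ R π, X K, Y K})
    (hres : ∀ r : R, ∃ c : Λ, r - algebraMap Λ R c ∈ IsLocalRing.maximalIdeal R)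
    (h1 : ∀ K, q ^ (K + 1) ∣ ev (X K)) (h2 : ∀ K, q ^ (K + 1) ∣ ev (Y K))
    (h1' : ∀ K, q ^ (K + 1) ∣ ev' (X K)) (h2' : ∀ K, q ^ (K + 1) ∣ ev' (Y K)) :
    ev = ev' := by
  have hπq : ∀ K : ℕ, π ∣ q ^ (K + 1) := fun K => hq.trans (dvd_pow_self q (Nat.succ_ne_zero K))
  apply AlgHom.ext
  intro r
  have hr0 : r - algebraMap Λ R (ev r) ∈ RingHom.ker (ev : R →+* Λ) := by
    rw [RingHom.mem_ker, RingHom.coe_coe, map_sub, AlgHom.commutes]
    simp
  have hz : ev' (r - algebraMap Λ R (ev r)) = 0 := by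
    apply hΛ
    intro K
    have hker := node_ker_eval_pair ev π hπ (X K) (Y K) (hm K) hres
      ((hπq K).trans (h1 K)) ((hπq K).trans (h2 K))
    rw [hker] at hr0
    obtain ⟨a, b, hab⟩ := Ideal.mem_span_pair.mp hr0
    rw [← hab]
    simp only [map_add, map_mul, map_sub, AlgHom.commutes, Algebra.algebraMap_self,
      RingHom.id_apply]
    exact dvd_add (Dvd.dvd.mul_left (dvd_sub (h1' K) (h1 K)) _)
      (Dvd.dvd.mul_left (dvd_sub (h2' K) (h2 K)) _)
  rw [map_sub, AlgHom.commutes] at hz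
  simp only [Algebra.algebraMap_self, RingHom.id_apply] at hz
  exact (sub_eq_zero.mp hz).symm

/-- **Comaximal CRT.** If no maximal ideal contains both a `𝔮 i`, `i ∈ U`, and a `𝔮 j`,
`j ∈ U'`, there is `e` with `e ≡ 1` modulo the `𝔮 i` (`i ∈ U`) and `e ≡ 0` modulo the `𝔮 j`
(`j ∈ U'`). -/
theorem node_crt {S ι : Type*} [CommRing S] (U U' : Finset ι) (𝔮 : ι → Ideal S)
    (h : ∀ 𝔪 : Ideal S, 𝔪.IsMaximal → ∀ i ∈ U, ∀ j ∈ U', ¬ (𝔮 i ≤ 𝔪 ∧ 𝔮 j ≤ 𝔪)) :
    ∃ e : S, (∀ i ∈ U, e - 1 ∈ 𝔮 i) ∧ (∀ j ∈ U', e ∈ 𝔮 j) := by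
  have htop : U.inf 𝔮 ⊔ U'.inf 𝔮 = ⊤ := by
    by_contra hne
    obtain ⟨𝔪, h𝔪, hle⟩ := Ideal.exists_le_maximal _ hne
    obtain ⟨i, hi, hi'⟩ := (Ideal.IsPrime.inf_le' h𝔪.isPrime).mp (le_sup_left.trans hle)
    obtain ⟨j, hj, hj'⟩ := (Ideal.IsPrime.inf_le' h𝔪.isPrime).mp (le_sup_right.trans hle)
    exact h 𝔪 h𝔪 i hi j hj ⟨hi', hj'⟩
  have h1 : (1 : S) ∈ U.inf 𝔮 ⊔ U'.inf 𝔮 := by rw [htop]; exact Submodule.mem_top
  obtain ⟨a, ha, b, hb, hab⟩ := Submodule.mem_sup.mp h1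
  refine ⟨b, fun i hi => ?_, fun j hj => ?_⟩
  · have : b - 1 = -a := by linear_combination hab
    rw [this]
    exact neg_mem ((Finset.inf_le hi : U.inf 𝔮 ≤ 𝔮 i) ha)
  · exact (Finset.inf_le hj : U'.inf 𝔮 ≤ 𝔮 j) hb

/-- Distinct powers of a primitive `m`-th root of unity stay distinct modulo a prime not
containing `m`. -/
theorem node_root_pow_inj {S : Type*} [CommRing S] [IsDomain S] (ζ : S) (m : ℕ)
    (hζ : IsPrimitiveRoot ζ m) (𝔪 : Ideal S) [𝔪.IsPrime] (hm : (m : S) ∉ 𝔪) (i j : ℕ)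
    (hi : i < m) (hj : j < m) (h : ζ ^ i - ζ ^ j ∈ 𝔪) : i = j := by
  -- auxiliary: the case `i < j`
  have aux : ∀ i j : ℕ, i < j → j < m → ζ ^ i - ζ ^ j ∈ 𝔪 → False := by
    intro i j hij hj h
    obtain ⟨n, rfl⟩ : ∃ n, m = n + 1 := ⟨m - 1, by omega⟩
    have hζi : ζ ^ i ∉ 𝔪 := by
      intro hmem
      have h1 : ζ ^ (n + 1) ∈ 𝔪 := by
        have : ζ ^ (n + 1) = ζ ^ i * ζ ^ (n + 1 - i) := by
          rw [← pow_add]; congr 1; omega
        rw [this]; exact Ideal.mul_mem_right _ _ hmem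
      rw [hζ.pow_eq_one] at h1
      exact (Ideal.ne_top_iff_one _).mp (Ideal.IsPrime.ne_top inferInstance) h1
    have hfac : ζ ^ i - ζ ^ j = ζ ^ i * (1 - ζ ^ (j - i)) := by
      have : ζ ^ j = ζ ^ i * ζ ^ (j - i) := by rw [← pow_add]; congr 1; omega
      rw [this]; ring
    rw [hfac] at h
    have h1 : 1 - ζ ^ (j - i) ∈ 𝔪 := (Ideal.IsPrime.mem_or_mem inferInstance h).resolve_left hζi
    have hprod := IsPrimitiveRoot.prod_one_sub_pow_eq_order hζ
    have hdvd : (1 - ζ ^ (j - i)) ∣ ((n : S) + 1) := by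
      rw [← hprod]
      have hmem : j - i - 1 ∈ Finset.range n := by
        rw [Finset.mem_range]; omega
      have := Finset.dvd_prod_of_mem (fun k => (1 - ζ ^ (k + 1))) hmem
      have e : j - i - 1 + 1 = j - i := by omega
      simpa [e] using this
    apply hm
    obtain ⟨c, hc⟩ := hdvd
    push_cast
    rw [hc]
    exact Ideal.mul_mem_right _ _ h1
  rcases lt_trichotomy i j with hlt | heq | hgt
  · exact (aux i j hlt hj h).elim
  · exact heq
  · have h' : ζ ^ j - ζ ^ i ∈ 𝔪 := by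
      have : ζ ^ j - ζ ^ i = -(ζ ^ i - ζ ^ j) := by ring
      rw [this]; exact neg_mem h
    exact (aux j i hgt hi h').elim

/-- **Label agreement.** If `t ≡ ζ ^ i` modulo `𝔮₁` and `t ≡ ζ ^ j` modulo `𝔮₂`, and both
`𝔮₁`, `𝔮₂` lie in one prime `𝔪` not containing `m`, then `i = j`. -/
theorem node_label_eq {S : Type*} [CommRing S] [IsDomain S] (ζ : S) (m : ℕ)
    (hζ : IsPrimitiveRoot ζ m) (𝔪 : Ideal S) [𝔪.IsPrime] (hm : (m : S) ∉ 𝔪)
    (𝔮₁ 𝔮₂ : Ideal S) (h₁ : 𝔮₁ ≤ 𝔪) (h₂ : 𝔮₂ ≤ 𝔪) (t : S) (i j : ℕ) (hi : i < m) (hj : j < m)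
    (ht₁ : t - ζ ^ i ∈ 𝔮₁) (ht₂ : t - ζ ^ j ∈ 𝔮₂) : i = j := by
  apply node_root_pow_inj ζ m hζ 𝔪 hm i j hi hj
  have : ζ ^ i - ζ ^ j = (t - ζ ^ j) - (t - ζ ^ i) := by ring
  rw [this]
  exact Ideal.sub_mem _ (h₂ ht₂) (h₁ ht₁)

/-- `node_iter` in algebra form: constants come from a base ring `W₀` (`q ∈ W₀`). -/
theorem node_iter_alg {W₀ R : Type*} [CommRing W₀] [CommRing R] [Algebra W₀ R] (q : W₀)
    (x y G : R)
    (hm : ∀ r : R, ∃ c : W₀, r - algebraMap W₀ R c ∈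
      Ideal.span {algebraMap W₀ R q, x, y})
    (hxy : x * y = algebraMap W₀ R q * G) (K : ℕ) :
    ∃ X Y H : R, ∃ c : W₀, X - x ∈ Ideal.span {algebraMap W₀ R q} ∧
      Y - y ∈ Ideal.span {algebraMap W₀ R q} ∧
      X * Y = algebraMap W₀ R (q * c) + algebraMap W₀ R (q ^ (K + 1)) * H := by
  obtain ⟨X, Y, H, c, ⟨c₀, rfl⟩, hX, hY, hXY⟩ :=
    node_iter (algebraMap W₀ R).range (algebraMap W₀ R q) x y G ⟨q, rfl⟩
      (fun r => by
        obtain ⟨c, hc⟩ := hm r
        exact ⟨algebraMap W₀ R c, ⟨c, rfl⟩, hc⟩) hxy K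
  refine ⟨X, Y, H, c₀, hX, hY, ?_⟩
  rw [hXY]
  simp only [map_mul, map_pow]
  ring

/-- The maximal ideal at a crossing point: if `𝔭₁ ∩ 𝔭₂ ≤ (π)`, `x ∈ 𝔪`, `y ∈ 𝔭₂`, `𝔪 ≤ 𝔭₂ + (x)`
(`x` is a uniformiser of the branch `R ⧸ 𝔭₂`) and `𝔪 ≤ 𝔭₁ + (y)` (`y` is a uniformiser of the
branch `R ⧸ 𝔭₁`), then `𝔪 ≤ (π, x, y)`. -/
theorem node_maximal_le {R : Type*} [CommRing R] (𝔪 𝔭₁ 𝔭₂ : Ideal R) (π x y : R)
    (hint : 𝔭₁ ⊓ 𝔭₂ ≤ Ideal.span {π}) (hx : x ∈ 𝔪) (hy : y ∈ 𝔭₂)
    (h₂ : 𝔪 ≤ 𝔭₂ ⊔ Ideal.span {x}) (h₁ : 𝔪 ≤ 𝔭₁ ⊔ Ideal.span {y}) :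
    𝔪 ≤ Ideal.span {π, x, y} := by
  intro r hr
  obtain ⟨p₂, hp₂, u, hu, e₁⟩ := Submodule.mem_sup.mp (h₂ hr)
  obtain ⟨a, rfl⟩ := Ideal.mem_span_singleton'.mp hu
  have hp₂m : p₂ ∈ 𝔪 := by
    have : p₂ = r - a * x := by linear_combination e₁
    rw [this]
    exact Ideal.sub_mem _ hr (Ideal.mul_mem_left _ _ hx)
  obtain ⟨p₁, hp₁, w, hw, e₂⟩ := Submodule.mem_sup.mp (h₁ hp₂m)
  obtain ⟨b, rfl⟩ := Ideal.mem_span_singleton'.mp hw
  have hp₁₂ : p₁ ∈ 𝔭₂ := by
    have : p₁ = p₂ - b * y := by linear_combination e₂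
    rw [this]
    exact Ideal.sub_mem _ hp₂ (Ideal.mul_mem_left _ _ hy)
  obtain ⟨c, hc⟩ := Ideal.mem_span_singleton'.mp (hint ⟨hp₁, hp₁₂⟩)
  have hr' : r = c * π + a * x + b * y := by linear_combination -e₁ - e₂ - hc
  rw [hr']
  have hπ : π ∈ Ideal.span {π, x, y} := Ideal.subset_span (by simp)
  have hxm : x ∈ Ideal.span {π, x, y} := Ideal.subset_span (by simp)
  have hym : y ∈ Ideal.span {π, x, y} := Ideal.subset_span (by simp)
  exact Ideal.add_mem _ (Ideal.add_mem _ (Ideal.mul_mem_left _ _ hπ)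
    (Ideal.mul_mem_left _ _ hxm)) (Ideal.mul_mem_left _ _ hym)

/-- In a discrete valuation ring: if `Q` does not divide `A`, then `Q = A * μ` with `μ` divisible
by the uniformiser. -/
theorem node_dvr_dichotomy {Λ : Type*} [CommRing Λ] [IsDomain Λ] [IsDiscreteValuationRing Λ]
    (π : Λ) (hπ : Irreducible π) (A Q : Λ) (h : ¬ Q ∣ A) : ∃ μ : Λ, Q = A * μ ∧ π ∣ μ := by
  have hA : A ∣ Q := by
    rcases ValuationRing.dvd_total A Q with h1 | h1
    · exact h1
    · exact absurd h1 h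
  obtain ⟨μ, hμ⟩ := hA
  refine ⟨μ, hμ, ?_⟩
  have hnu : ¬ IsUnit μ := by
    intro hu
    apply h
    obtain ⟨u, rfl⟩ := hu
    exact ⟨(↑u⁻¹ : Λ), by rw [hμ, mul_assoc, Units.mul_inv, mul_one]⟩
  have hmem : μ ∈ IsLocalRing.maximalIdeal Λ := by
    rwa [IsLocalRing.mem_maximalIdeal, mem_nonunits_iff]
  rw [hπ.maximalIdeal_eq] at hmem
  exact Ideal.mem_span_singleton.mp hmem

end Fermat.Agent.S34
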