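import Mathlib

/-!
# P19 (S34), block ALG: bad integral points at a crossing point (localisation-free definition)

`Bb` is the base model (over `Λb`, uniformiser `πb`), `x`, `y ∈ Bb` the two branch functions at
a crossing point, `B` the model over a bigger discrete valuation ring `Λ` (uniformiser `π`),
`f : Bb →+* B` the natural map and `φ : B →ₐ[Λ] Λ` an integral point centred at the crossing
point.
-/

set_option autoImplicit false

namespace Fermat.Agent.S34

/-- The integral point `φ : B → Λ` is *bad* with respect to the branch functions `x`, `y`: for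
every `K` and every pair of fractions `X / σ ≡ x`, `Y / σ ≡ y (mod πb)` (`σ` a unit at the
centre of `φ`) with `(X / σ) * (Y / σ) = πb c + πb ^ (K + 1) H / σ ^ 2`, both `φ X` and `φ Y`
are divisible by `πb ^ (K + 1)`. -/
def NodeBadG {Λb Λ Bb B : Type*} [CommRing Λb] [CommRing Λ] [CommRing Bb] [CommRing B]
    [Algebra Λb Bb] [Algebra Λb Λ] [Algebra Λ B] (πb : Λb) (π : Λ) (x y : Bb) (f : Bb →+* B)
    (φ : B →ₐ[Λ] Λ) : Prop :=
  ∀ (K : ℕ) (X Y H σ : Bb) (c : Λb), ¬ π ∣ φ (f σ) →
    X - σ * x ∈ Ideal.span {algebraMap Λb Bb πb} →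
    Y - σ * y ∈ Ideal.span {algebraMap Λb Bb πb} →
    X * Y = σ ^ 2 * algebraMap Λb Bb (πb * c) + algebraMap Λb Bb (πb ^ (K + 1)) * H →
    algebraMap Λb Λ (πb ^ (K + 1)) ∣ φ (f X) ∧ algebraMap Λb Λ (πb ^ (K + 1)) ∣ φ (f Y)

end Fermat.Agent.S34
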