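import Mathlib
import Fermat.Agent.S34.NodeAlg
import Fermat.Agent.S34.NodeGlobalDefs

/-!
# P19 (S34), block ALG2: two bad integral points with the same centre are equal (second team)

Localisation-free form of `node_bad_unique`: the iteration `node_iter_alg` is performed in the
local ring of the base model `Bb` at the centre, the resulting fractions are written with a
common denominator over `Bb`, fed into `NodeBadG` for both points, and `node_bad_unique` is
applied in the local ring of `B` at the common centre.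
-/

set_option autoImplicit false

namespace Fermat.Agent.S34

/-- In a discrete valuation ring, membership in the maximal ideal is divisibility by a
uniformiser. -/
theorem ngbB_mem_maximalIdeal_iff {Λ : Type*} [CommRing Λ] [IsDomain Λ]
    [IsDiscreteValuationRing Λ] {π : Λ} (hπ : Irreducible π) {a : Λ} :
    a ∈ IsLocalRing.maximalIdeal Λ ↔ π ∣ a := by
  rw [hπ.maximalIdeal_eq, Ideal.mem_span_singleton]

theorem ngbB_isUnit_of_not_dvd {Λ : Type*} [CommRing Λ] [IsDomain Λ]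
    [IsDiscreteValuationRing Λ] {π : Λ} (hπ : Irreducible π) {a : Λ} (h : ¬ π ∣ a) :
    IsUnit a := by
  by_contra hu
  exact h ((ngbB_mem_maximalIdeal_iff hπ).mp ((IsLocalRing.mem_maximalIdeal a).mpr hu))

/-- Krull intersection in a discrete valuation ring. -/
theorem ngbB_krull {Λ : Type*} [CommRing Λ] [IsDomain Λ] [IsDiscreteValuationRing Λ] {π : Λ}
    (hπ : Irreducible π) {q : Λ} (hq : π ∣ q) (c : Λ) (h : ∀ K : ℕ, q ^ (K + 1) ∣ c) :
    c = 0 := by
  by_contra hc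
  obtain ⟨n, hn⟩ := FiniteMultiplicity.of_not_isUnit hπ.not_isUnit hc
  exact hn ((pow_dvd_pow_of_dvd hq (n + 1)).trans (h n))

/-- Base step: the iteration in the local ring `Rb` of `Bb` at the centre, with the fractions
written over `Bb` with a common denominator. -/
theorem ngbB_base_aux {Λb Λ Bb : Type*} [CommRing Λb] [CommRing Λ] [CommRing Bb]
    [Algebra Λb Bb] [IsDomain Bb] (πb : Λb) (π : Λ) (x y G : Bb)
    (hxy : x * y = algebraMap Λb Bb πb * G) (ψ : Bb →+* Λ)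
    (𝔪b : Ideal Bb) [𝔪b.IsPrime] (hmem : ∀ z : Bb, z ∈ 𝔪b ↔ π ∣ ψ z)
    (Rb : Type*) [CommRing Rb] [Algebra Bb Rb] [IsLocalization.AtPrime Rb 𝔪b] [Algebra Λb Rb]
    [IsScalarTower Λb Bb Rb]
    (hgen_b : ∀ z : Bb, π ∣ ψ z → ∃ a : Bb, ¬ π ∣ ψ a ∧
      a * z ∈ Ideal.span {algebraMap Λb Bb πb, x, y})
    (hres_b : ∀ r s : Bb, ¬ π ∣ ψ s → ∃ c : Λb, π ∣ ψ (r - algebraMap Λb Bb c * s)) (K : ℕ) :
    ∃ (X Y H σ : Bb) (c : Λb), ¬ π ∣ ψ σ ∧
      X - σ * x ∈ Ideal.span {algebraMap Λb Bb πb} ∧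
      Y - σ * y ∈ Ideal.span {algebraMap Λb Bb πb} ∧
      X * Y = σ ^ 2 * algebraMap Λb Bb (πb * c) + algebraMap Λb Bb (πb ^ (K + 1)) * H := by
  have hι : Function.Injective (algebraMap Bb Rb) :=
    IsLocalization.injective Rb (Ideal.primeCompl_le_nonZeroDivisors 𝔪b)
  have hunit : ∀ s : Bb, s ∉ 𝔪b → IsUnit (algebraMap Bb Rb s) := fun s hs =>
    IsLocalization.map_units Rb (⟨s, hs⟩ : 𝔪b.primeCompl)
  have htower : ∀ c : Λb, algebraMap Λb Rb c = algebraMap Bb Rb (algebraMap Λb Bb c) :=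
    fun c => IsScalarTower.algebraMap_apply Λb Bb Rb c
  have hm : ∀ r : Rb, ∃ c : Λb, r - algebraMap Λb Rb c ∈
      Ideal.span {algebraMap Λb Rb πb, algebraMap Bb Rb x, algebraMap Bb Rb y} := by
    intro r
    obtain ⟨r₀, s, rfl⟩ := IsLocalization.exists_mk'_eq 𝔪b.primeCompl r
    have hs : ¬ π ∣ ψ (s : Bb) := fun h => s.2 ((hmem _).mpr h)
    obtain ⟨c, hc⟩ := hres_b r₀ s hs
    obtain ⟨a, ha, haz⟩ := hgen_b _ hc
    refine ⟨c, ?_⟩
    have h1 : (IsLocalization.mk' Rb r₀ s - algebraMap Λb Rb c) * algebraMap Bb Rb (a * s) =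
        algebraMap Bb Rb (a * (r₀ - algebraMap Λb Bb c * s)) := by
      have h0 := IsLocalization.mk'_spec Rb r₀ s
      rw [htower]
      simp only [map_mul, map_sub]
      linear_combination algebraMap Bb Rb a * h0
    have h2 : algebraMap Bb Rb (a * (r₀ - algebraMap Λb Bb c * s)) ∈
        Ideal.span {algebraMap Λb Rb πb, algebraMap Bb Rb x, algebraMap Bb Rb y} := by
      have h3 := Ideal.mem_map_of_mem (algebraMap Bb Rb) haz
      rw [Ideal.map_span] at h3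
      simp only [Set.image_insert_eq, Set.image_singleton] at h3
      rw [htower]
      exact h3
    have hu : IsUnit (algebraMap Bb Rb (a * s)) := by
      apply hunit
      intro h
      rcases (Ideal.IsPrime.mem_or_mem inferInstance h) with h4 | h4
      · exact ha ((hmem _).mp h4)
      · exact s.2 h4
    rw [← h1] at h2
    exact (Ideal.mul_unit_mem_iff_mem _ hu).mp h2
  have hxy' : algebraMap Bb Rb x * algebraMap Bb Rb y =
      algebraMap Λb Rb πb * algebraMap Bb Rb G := by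
    rw [htower, ← map_mul, ← map_mul, hxy]
  obtain ⟨X', Y', H', c, hX', hY', hXY'⟩ := node_iter_alg πb (algebraMap Bb Rb x)
    (algebraMap Bb Rb y) (algebraMap Bb Rb G) hm hxy' K
  obtain ⟨u', hu'⟩ := Ideal.mem_span_singleton'.mp hX'
  obtain ⟨v', hv'⟩ := Ideal.mem_span_singleton'.mp hY'
  obtain ⟨u, τ₁, rfl⟩ := IsLocalization.exists_mk'_eq 𝔪b.primeCompl u'
  obtain ⟨v, τ₂, rfl⟩ := IsLocalization.exists_mk'_eq 𝔪b.primeCompl v'
  obtain ⟨H₁, τ₃, rfl⟩ := IsLocalization.exists_mk'_eq 𝔪b.primeCompl H'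
  have e1 := IsLocalization.mk'_spec Rb u τ₁
  have e2 := IsLocalization.mk'_spec Rb v τ₂
  have e3 := IsLocalization.mk'_spec Rb H₁ τ₃
  refine ⟨(τ₁ * τ₂ * τ₃ : Bb) * x + algebraMap Λb Bb πb * (u * τ₂ * τ₃),
    (τ₁ * τ₂ * τ₃ : Bb) * y + algebraMap Λb Bb πb * (v * τ₁ * τ₃),
    H₁ * (τ₁ : Bb) ^ 2 * (τ₂ : Bb) ^ 2 * τ₃, τ₁ * τ₂ * τ₃, c, ?_, ?_, ?_, ?_⟩
  · intro h
    exact (τ₁ * τ₂ * τ₃).2 ((hmem _).mpr h)
  · rw [add_sub_cancel_left]
    exact Ideal.mul_mem_right _ _ (Ideal.mem_span_singleton_self _)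
  · rw [add_sub_cancel_left]
    exact Ideal.mul_mem_right _ _ (Ideal.mem_span_singleton_self _)
  · apply hι
    simp only [map_mul, map_add, map_pow, ← htower]
    rw [← e1, ← e2, ← e3]
    have hX'' : X' = algebraMap Bb Rb x +
        IsLocalization.mk' Rb u τ₁ * algebraMap Λb Rb πb := by rw [hu']; ring
    have hY'' : Y' = algebraMap Bb Rb y +
        IsLocalization.mk' Rb v τ₂ * algebraMap Λb Rb πb := by rw [hv']; ring
    rw [hX'', hY'', map_mul, map_pow] at hXY'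
    linear_combination (algebraMap Bb Rb τ₁ * algebraMap Bb Rb τ₂ * algebraMap Bb Rb τ₃) ^ 2 * hXY'

/-- Top step: `node_bad_unique` in the local ring `R` of `B` at the common centre. -/
theorem ngbB_top_aux {Λb Λ Bb B : Type*} [CommRing Λb] [CommRing Λ] [CommRing Bb]
    [CommRing B] [Algebra Λb Bb] [Algebra Λb Λ] [Algebra Λ B] [IsDomain Λ]
    [IsDiscreteValuationRing Λ] [IsNoetherianRing B]
    (πb : Λb) (π : Λ) (hπ : Irreducible π) (hπb : π ∣ algebraMap Λb Λ πb)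
    (x y : Bb) (f : Bb →+* B)
    (hf : ∀ c : Λb, f (algebraMap Λb Bb c) = algebraMap Λ B (algebraMap Λb Λ c))
    (φ φ' : B →ₐ[Λ] Λ) (hcentre : ∀ z : B, π ∣ φ z ↔ π ∣ φ' z)
    (hgen : ∀ z : B, π ∣ φ z → ∃ a : B, ¬ π ∣ φ a ∧
      a * z ∈ Ideal.span {algebraMap Λ B π, f x, f y})
    (𝔪 : Ideal B) [𝔪.IsPrime] (hmem : ∀ z : B, z ∈ 𝔪 ↔ π ∣ φ z)
    (R : Type*) [CommRing R] [Algebra B R] [IsLocalization.AtPrime R 𝔪] [Algebra Λ R]
    [IsScalarTower Λ B R]
    (X Y σ : ℕ → Bb) (hσ : ∀ K, ¬ π ∣ φ (f (σ K)))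
    (hX : ∀ K, X K - σ K * x ∈ Ideal.span {algebraMap Λb Bb πb})
    (hY : ∀ K, Y K - σ K * y ∈ Ideal.span {algebraMap Λb Bb πb})
    (h1 : ∀ K, algebraMap Λb Λ (πb ^ (K + 1)) ∣ φ (f (X K)))
    (h2 : ∀ K, algebraMap Λb Λ (πb ^ (K + 1)) ∣ φ (f (Y K)))
    (h1' : ∀ K, algebraMap Λb Λ (πb ^ (K + 1)) ∣ φ' (f (X K)))
    (h2' : ∀ K, algebraMap Λb Λ (πb ^ (K + 1)) ∣ φ' (f (Y K))) : φ = φ' := by
  have : IsLocalRing R := IsLocalization.AtPrime.isLocalRing R 𝔪
  have : IsNoetherianRing R := IsLocalization.isNoetherianRing 𝔪.primeCompl R inferInstance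
  have htower : ∀ c : Λ, algebraMap Λ R c = algebraMap B R (algebraMap Λ B c) :=
    fun c => IsScalarTower.algebraMap_apply Λ B R c
  have hunitR : ∀ s : B, s ∉ 𝔪 → IsUnit (algebraMap B R s) := fun s hs =>
    IsLocalization.map_units R (⟨s, hs⟩ : 𝔪.primeCompl)
  have hu : ∀ y : 𝔪.primeCompl, IsUnit (φ y) := fun y =>
    ngbB_isUnit_of_not_dvd hπ (fun h => y.2 ((hmem _).mpr h))
  have hu' : ∀ y : 𝔪.primeCompl, IsUnit (φ' y) := fun y =>
    ngbB_isUnit_of_not_dvd hπ (fun h => y.2 ((hmem _).mpr ((hcentre _).mpr h)))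
  obtain ⟨ev, hev⟩ : ∃ ev : R →ₐ[Λ] Λ, ∀ b : B, ev (algebraMap B R b) = φ b :=
    ⟨IsLocalization.liftAlgHom (M := 𝔪.primeCompl) (S := R) (f := φ) hu,
      fun b => IsLocalization.lift_eq _ b⟩
  obtain ⟨ev', hev'⟩ : ∃ ev' : R →ₐ[Λ] Λ, ∀ b : B, ev' (algebraMap B R b) = φ' b :=
    ⟨IsLocalization.liftAlgHom (M := 𝔪.primeCompl) (S := R) (f := φ') hu',
      fun b => IsLocalization.lift_eq _ b⟩
  have hσ𝔪 : ∀ K, f (σ K) ∉ 𝔪 := fun K h => hσ K ((hmem _).mp h)
  have hXR : ∀ K, ∃ r : R, r * algebraMap B R (f (σ K)) = algebraMap B R (f (X K)) := fun K =>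
    ⟨IsLocalization.mk' R (f (X K)) (⟨f (σ K), hσ𝔪 K⟩ : 𝔪.primeCompl),
      IsLocalization.mk'_spec R _ _⟩
  have hYR : ∀ K, ∃ r : R, r * algebraMap B R (f (σ K)) = algebraMap B R (f (Y K)) := fun K =>
    ⟨IsLocalization.mk' R (f (Y K)) (⟨f (σ K), hσ𝔪 K⟩ : 𝔪.primeCompl),
      IsLocalization.mk'_spec R _ _⟩
  choose XR hXR using hXR
  choose YR hYR using hYR
  -- divisibility transfers to the evaluations
  have key : ∀ (e : R →ₐ[Λ] Λ) (ψ : B →ₐ[Λ] Λ), (∀ b : B, e (algebraMap B R b) = ψ b) →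
      ∀ (r : R) (a s : B), r * algebraMap B R s = algebraMap B R a → IsUnit (ψ s) →
      ∀ d : Λ, d ∣ ψ a → d ∣ e r := by
    intro e ψ he r a s hr hs d hd
    have h3 := congrArg e hr
    rw [map_mul, he, he] at h3
    rw [← h3] at hd
    exact (IsUnit.dvd_mul_right hs).mp hd
  have hσu : ∀ K, IsUnit (φ (f (σ K))) := fun K => ngbB_isUnit_of_not_dvd hπ (hσ K)
  have hσu' : ∀ K, IsUnit (φ' (f (σ K))) := fun K =>
    ngbB_isUnit_of_not_dvd hπ (fun h => hσ K ((hcentre _).mpr h))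
  have hpow : ∀ K : ℕ, algebraMap Λb Λ (πb ^ (K + 1)) = algebraMap Λb Λ πb ^ (K + 1) :=
    fun K => map_pow _ _ _
  -- the maximal ideal of `R`
  have hmax0 : IsLocalRing.maximalIdeal R ≤
      Ideal.span {algebraMap Λ R π, algebraMap B R (f x), algebraMap B R (f y)} := by
    intro r hr
    obtain ⟨z, s, rfl⟩ := IsLocalization.exists_mk'_eq 𝔪.primeCompl r
    have hz : z ∈ 𝔪 := (IsLocalization.AtPrime.mk'_mem_maximal_iff R 𝔪 z s).mp hr
    obtain ⟨a, ha, haz⟩ := hgen z ((hmem z).mp hz)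
    have h3 : algebraMap B R (a * z) ∈
        Ideal.span {algebraMap Λ R π, algebraMap B R (f x), algebraMap B R (f y)} := by
      have h4 := Ideal.mem_map_of_mem (algebraMap B R) haz
      rw [Ideal.map_span] at h4
      simp only [Set.image_insert_eq, Set.image_singleton] at h4
      rw [htower]
      exact h4
    have h5 : IsLocalization.mk' R z s * algebraMap B R (a * s) = algebraMap B R (a * z) := by
      have h0 := IsLocalization.mk'_spec R z s
      simp only [map_mul]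
      linear_combination algebraMap B R a * h0
    have h6 : IsUnit (algebraMap B R (a * s)) := by
      apply hunitR
      intro h
      rcases (Ideal.IsPrime.mem_or_mem inferInstance h) with h7 | h7
      · exact ha ((hmem _).mp h7)
      · exact s.2 h7
    rw [← h5] at h3
    exact (Ideal.mul_unit_mem_iff_mem _ h6).mp h3
  have hspan : ∀ (Z : ℕ → Bb) (ZR : ℕ → R) (z : Bb),
      (∀ K, Z K - σ K * z ∈ Ideal.span {algebraMap Λb Bb πb}) →
      (∀ K, ZR K * algebraMap B R (f (σ K)) = algebraMap B R (f (Z K))) →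
      ∀ K, ZR K - algebraMap B R (f z) ∈ Ideal.span {algebraMap Λ R π} := by
    intro Z ZR z hZ hZR K
    obtain ⟨w, hw⟩ := Ideal.mem_span_singleton'.mp (hZ K)
    obtain ⟨e, he⟩ := hπb
    have h3 := congrArg (fun t => algebraMap B R (f t)) hw
    simp only [map_mul, map_sub, hf, he] at h3
    rw [← htower, ← htower] at h3
    have h4 : (ZR K - algebraMap B R (f z)) * algebraMap B R (f (σ K)) =
        algebraMap B R (f w) * algebraMap Λ R e * algebraMap Λ R π := by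
      linear_combination hZR K - h3
    have h5 : (ZR K - algebraMap B R (f z)) * algebraMap B R (f (σ K)) ∈
        Ideal.span {algebraMap Λ R π} := by
      rw [h4]
      exact Ideal.mul_mem_left _ _ (Ideal.mem_span_singleton_self _)
    exact (Ideal.mul_unit_mem_iff_mem _ (hunitR _ (hσ𝔪 K))).mp h5
  have hm : ∀ K, IsLocalRing.maximalIdeal R ≤
      Ideal.span {algebraMap Λ R π, XR K, YR K} := by
    intro K
    rw [← node_span_eq (algebraMap Λ R π) (algebraMap B R (f x)) (algebraMap B R (f y))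
      (XR K) (YR K) (hspan X XR x hX hXR K) (hspan Y YR y hY hYR K)]
    exact hmax0
  have hπR : algebraMap Λ R π ∈ IsLocalRing.maximalIdeal R := by
    rw [htower, IsLocalization.AtPrime.to_map_mem_maximal_iff R 𝔪, hmem, AlgHom.commutes]
    exact dvd_rfl
  have hres : ∀ r : R, ∃ c : Λ, r - algebraMap Λ R c ∈ IsLocalRing.maximalIdeal R := by
    intro r
    refine ⟨ev r, IsLocalRing.le_maximalIdeal (RingHom.ker_ne_top (ev : R →+* Λ)) ?_⟩
    rw [RingHom.mem_ker]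
    show ev (r - algebraMap Λ R (ev r)) = 0
    rw [map_sub, AlgHom.commutes]
    exact sub_self _
  have hfin : ev = ev' :=
    node_bad_unique ev ev' π (algebraMap Λb Λ πb) hπR hπb (ngbB_krull hπ hπb) XR YR hm hres
      (fun K => key ev φ hev _ _ _ (hXR K) (hσu K) _ (hpow K ▸ h1 K))
      (fun K => key ev φ hev _ _ _ (hYR K) (hσu K) _ (hpow K ▸ h2 K))
      (fun K => key ev' φ' hev' _ _ _ (hXR K) (hσu' K) _ (hpow K ▸ h1' K))
      (fun K => key ev' φ' hev' _ _ _ (hYR K) (hσu' K) _ (hpow K ▸ h2' K))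
  refine AlgHom.ext fun b => ?_
  rw [← hev, ← hev', hfin]

/-- **Second team.**  Two bad points with the same centre are equal. -/
theorem node_bad_global_eq_B {Λb Λ Bb B : Type*} [CommRing Λb] [CommRing Λ] [CommRing Bb]
    [CommRing B] [Algebra Λb Bb] [Algebra Λb Λ] [Algebra Λ B] [IsDomain Λ]
    [IsDiscreteValuationRing Λ] [IsNoetherianRing B] [IsDomain Bb]
    (πb : Λb) (π : Λ) (hπ : Irreducible π) (hπb : π ∣ algebraMap Λb Λ πb)
    (x y G : Bb) (hxy : x * y = algebraMap Λb Bb πb * G) (f : Bb →+* B)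
    (hf : ∀ c : Λb, f (algebraMap Λb Bb c) = algebraMap Λ B (algebraMap Λb Λ c))
    (φ φ' : B →ₐ[Λ] Λ) (hcentre : ∀ z : B, π ∣ φ z ↔ π ∣ φ' z)
    (hgen_b : ∀ z : Bb, π ∣ φ (f z) → ∃ a : Bb, ¬ π ∣ φ (f a) ∧
      a * z ∈ Ideal.span {algebraMap Λb Bb πb, x, y})
    (hres_b : ∀ r s : Bb, ¬ π ∣ φ (f s) → ∃ c : Λb, π ∣ φ (f (r - algebraMap Λb Bb c * s)))
    (hgen : ∀ z : B, π ∣ φ z → ∃ a : B, ¬ π ∣ φ a ∧
      a * z ∈ Ideal.span {algebraMap Λ B π, f x, f y})
    (hb : NodeBadG πb π x y f φ) (hb' : NodeBadG πb π x y f φ') : φ = φ' := by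
  have hbase := fun K : ℕ => ngbB_base_aux πb π x y G hxy ((φ : B →+* Λ).comp f)
    (Ideal.comap ((φ : B →+* Λ).comp f) (IsLocalRing.maximalIdeal Λ))
    (fun z => ngbB_mem_maximalIdeal_iff hπ)
    (Localization.AtPrime (Ideal.comap ((φ : B →+* Λ).comp f) (IsLocalRing.maximalIdeal Λ)))
    hgen_b hres_b K
  choose X Y H σ c hσ hX hY hXY using hbase
  have h := fun K : ℕ => hb K (X K) (Y K) (H K) (σ K) (c K) (hσ K) (hX K) (hY K) (hXY K)
  have h' := fun K : ℕ => hb' K (X K) (Y K) (H K) (σ K) (c K)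
    (fun hd => hσ K ((hcentre _).mpr hd)) (hX K) (hY K) (hXY K)
  exact ngbB_top_aux πb π hπ hπb x y f hf φ φ' hcentre hgen
    (Ideal.comap (φ : B →+* Λ) (IsLocalRing.maximalIdeal Λ))
    (fun z => ngbB_mem_maximalIdeal_iff hπ)
    (Localization.AtPrime (Ideal.comap (φ : B →+* Λ) (IsLocalRing.maximalIdeal Λ)))
    X Y σ hσ hX hY (fun K => (h K).1) (fun K => (h K).2) (fun K => (h' K).1)
    (fun K => (h' K).2)

end Fermat.Agent.S34
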