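import Mathlib
import Fermat.Agent.S34.NodeGlobalDefs
import Fermat.Agent.S34.NodeGlobalBadB

/-!
# P19 (S34), G3 dictionary, slice T1: a bad point is stable under a semilinear automorphism

`τ` is a ring automorphism of the function field `F` stabilising the model `B` and the discrete
valuation ring `Λ`, trivial modulo `π` on `B`.  Then a bad `Λ`-point `φ` (`NodeBadG`) equals its
twist `θ ∘ φ ∘ ρ`, where `ρ`, `θ` are the restrictions of `τ⁻¹` to `B` and of `τ` to `Λ`
(uniqueness of the bad point with a given centre: `node_bad_global_eq_B`); hence the kernel of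
`φ` is `τ`-stable.

* `s34dict_bad_ker_stable`: the pinned statement (no base model: `Bb = B`, `f = id`);
* `s34db_bad_ker_stable_of_fixed`: the earlier variant with a base model fixed by `τ`.
-/

set_option autoImplicit false

namespace Fermat.Agent.S34

/-- Lifting a ring homomorphism through an injective ring homomorphism whose image contains
its image. -/
theorem s34db_exists_lift {R S F : Type*} [CommRing R] [CommRing S] [CommRing F] (i : S →+* F)
    (hi : Function.Injective i) (g : R →+* F) (h : ∀ r : R, ∃ s : S, i s = g r) :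
    ∃ h' : R →+* S, ∀ r, i (h' r) = g r := by
  choose s hs using h
  refine ⟨{ toFun := s, map_one' := ?_, map_mul' := ?_, map_zero' := ?_, map_add' := ?_ }, hs⟩
  · apply hi
    rw [hs, map_one, map_one]
  · intro a b
    apply hi
    rw [hs, map_mul, map_mul, hs, hs]
  · apply hi
    rw [hs, map_zero, map_zero]
  · intro a b
    apply hi
    rw [hs, map_add, map_add, hs, hs]

/-- Variant with a base model `f : Bb → B` fixed pointwise by `τ`. -/
theorem s34db_bad_ker_stable_of_fixed {Λb Λ Bb B F : Type*} [CommRing Λb] [CommRing Λ] [CommRing Bb]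
    [CommRing B] [Algebra Λb Bb] [Algebra Λb Λ] [Algebra Λ B] [IsDomain Λ]
    [IsDiscreteValuationRing Λ] [IsNoetherianRing B] [IsDomain Bb]
    [Field F] [Algebra B F] [Algebra Λ F] [IsScalarTower Λ B F]
    (hBF : Function.Injective (algebraMap B F))
    (πb : Λb) (π : Λ) (hπ : Irreducible π) (hπb : π ∣ algebraMap Λb Λ πb)
    (x y G : Bb) (hxy : x * y = algebraMap Λb Bb πb * G) (f : Bb →+* B)
    (hf : ∀ c : Λb, f (algebraMap Λb Bb c) = algebraMap Λ B (algebraMap Λb Λ c))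
    (τ : F ≃+* F)
    (hτB : ∀ b : B, ∃ b' : B, algebraMap B F b' = τ (algebraMap B F b))
    (hτBs : ∀ b : B, ∃ b' : B, algebraMap B F b' = τ.symm (algebraMap B F b))
    (hτΛ : ∀ l : Λ, ∃ l' : Λ, algebraMap Λ F l' = τ (algebraMap Λ F l))
    (hτΛs : ∀ l : Λ, ∃ l' : Λ, algebraMap Λ F l' = τ.symm (algebraMap Λ F l))
    (hτf : ∀ X : Bb, τ (algebraMap B F (f X)) = algebraMap B F (f X))
    (htriv : ∀ b : B, ∃ c : B,
      τ (algebraMap B F b) = algebraMap B F (b + algebraMap Λ B π * c))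
    (φ : B →ₐ[Λ] Λ)
    (hgen_b : ∀ z : Bb, π ∣ φ (f z) → ∃ a : Bb, ¬ π ∣ φ (f a) ∧
      a * z ∈ Ideal.span {algebraMap Λb Bb πb, x, y})
    (hres_b : ∀ r s : Bb, ¬ π ∣ φ (f s) → ∃ c : Λb, π ∣ φ (f (r - algebraMap Λb Bb c * s)))
    (hgen : ∀ z : B, π ∣ φ z → ∃ a : B, ¬ π ∣ φ a ∧
      a * z ∈ Ideal.span {algebraMap Λ B π, f x, f y})
    (hb : NodeBadG πb π x y f φ) :
    ∀ b b' : B, algebraMap B F b' = τ (algebraMap B F b) → (φ b' = 0 ↔ φ b = 0) := by
  -- `hτB` is part of the interface but not needed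
  have _ := hτB
  -- injectivity of the structure maps
  have hφΛ : ∀ l : Λ, φ (algebraMap Λ B l) = l := fun l => φ.commutes l
  have hΛB : Function.Injective (algebraMap Λ B) := by
    intro a b hab
    have h := congrArg φ hab
    rwa [hφΛ, hφΛ] at h
  have hΛF : Function.Injective (algebraMap Λ F) := by
    rw [IsScalarTower.algebraMap_eq Λ B F]
    exact hBF.comp hΛB
  have hΛBF : ∀ l : Λ, algebraMap B F (algebraMap Λ B l) = algebraMap Λ F l := fun l =>
    (IsScalarTower.algebraMap_apply Λ B F l).symm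
  -- the restrictions of `τ⁻¹` to `B` and of `τ`, `τ⁻¹` to `Λ`
  obtain ⟨σB, hσB⟩ := s34db_exists_lift (algebraMap B F) hBF
    ((τ.symm : F →+* F).comp (algebraMap B F)) (fun b => hτBs b)
  obtain ⟨θ, hθ⟩ := s34db_exists_lift (algebraMap Λ F) hΛF
    ((τ : F →+* F).comp (algebraMap Λ F)) (fun l => hτΛ l)
  obtain ⟨θs, hθs⟩ := s34db_exists_lift (algebraMap Λ F) hΛF
    ((τ.symm : F →+* F).comp (algebraMap Λ F)) (fun l => hτΛs l)
  have hσB' : ∀ b : B, algebraMap B F (σB b) = τ.symm (algebraMap B F b) := hσB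
  have hθ' : ∀ l : Λ, algebraMap Λ F (θ l) = τ (algebraMap Λ F l) := hθ
  have hθs' : ∀ l : Λ, algebraMap Λ F (θs l) = τ.symm (algebraMap Λ F l) := hθs
  have hθθs : ∀ l : Λ, θ (θs l) = l := fun l =>
    hΛF (by rw [hθ', hθs', τ.apply_symm_apply])
  have hθsθ : ∀ l : Λ, θs (θ l) = l := fun l =>
    hΛF (by rw [hθs', hθ', τ.symm_apply_apply])
  have hσΛ : ∀ l : Λ, σB (algebraMap Λ B l) = algebraMap Λ B (θs l) := fun l =>
    hBF (by rw [hσB', hΛBF, hΛBF, hθs'])
  -- `θ` preserves divisibility by `π`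
  let e : Λ ≃+* Λ := RingEquiv.ofRingHom θ θs (RingHom.ext hθθs) (RingHom.ext hθsθ)
  have hirr : Irreducible (e π) := (MulEquiv.irreducible_iff e).mpr hπ
  have hassoc : Associated (e π) π :=
    IsDiscreteValuationRing.associated_of_irreducible Λ hirr hπ
  have hdvd : ∀ a : Λ, π ∣ θ a ↔ π ∣ a := by
    intro a
    have h1 : e π ∣ e a ↔ π ∣ a := map_dvd_iff e
    have h2 : e π ∣ e a ↔ π ∣ e a := hassoc.dvd_iff_dvd_left
    exact h2.symm.trans h1
  -- the twist of `φ`
  let φ' : B →ₐ[Λ] Λ :=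
    { toRingHom := θ.comp ((φ : B →+* Λ).comp σB)
      commutes' := fun l => by
        show θ (φ (σB (algebraMap Λ B l))) = l
        rw [hσΛ, hφΛ, hθθs] }
  have hφ' : ∀ z : B, φ' z = θ (φ (σB z)) := fun z => rfl
  -- the twist is bad
  have hσf : ∀ X : Bb, σB (f X) = f X := fun X =>
    hBF (by rw [hσB', τ.symm_apply_eq, hτf])
  have hθb : ∀ c : Λb, θ (algebraMap Λb Λ c) = algebraMap Λb Λ c := fun c =>
    hΛF (by rw [hθ', ← hΛBF, ← hf, hτf])
  have hφ'f : ∀ X : Bb, φ' (f X) = θ (φ (f X)) := fun X => by rw [hφ', hσf]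
  have hb' : NodeBadG πb π x y f φ' := by
    intro K X Y H σ c hσ hX hY hXY
    have hσ0 : ¬ π ∣ φ (f σ) := fun h => hσ (by rw [hφ'f, hdvd]; exact h)
    obtain ⟨h1, h2⟩ := hb K X Y H σ c hσ0 hX hY hXY
    constructor
    · rw [hφ'f, ← hθb]
      exact map_dvd θ h1
    · rw [hφ'f, ← hθb]
      exact map_dvd θ h2
  -- the twist has the same centre
  have hcentre : ∀ z : B, π ∣ φ z ↔ π ∣ φ' z := by
    intro z
    rw [hφ', hdvd]
    obtain ⟨c, hc⟩ := htriv (σB z)
    rw [hσB', τ.apply_symm_apply] at hc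
    have hz : z = σB z + algebraMap Λ B π * c := hBF hc
    have h1 : φ z = φ (σB z) + π * φ c := by
      conv_lhs => rw [hz]
      rw [map_add, map_mul, hφΛ]
    rw [h1]
    exact dvd_add_left (dvd_mul_right π _)
  -- uniqueness of the bad point
  have heq : φ = φ' :=
    node_bad_global_eq_B πb π hπ hπb x y G hxy f hf φ φ' hcentre hgen_b hres_b hgen hb hb'
  intro b b' hbb'
  have h1 : σB b' = b := hBF (by rw [hσB', hbb', τ.symm_apply_apply])
  have h2 : φ b' = θ (φ b) := by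
    have h3 : φ b' = φ' b' := congrArg (fun ψ : B →ₐ[Λ] Λ => ψ b') heq
    rw [h3, hφ', h1]
  have hθinj : Function.Injective θ := Function.LeftInverse.injective hθsθ
  rw [h2]
  exact map_eq_zero_iff θ hθinj

/-- **Slice T1.**  A bad `Λ`-point is stable under a semilinear automorphism `τ` of the function
field which stabilises the model `B` and `Λ` and is trivial modulo `π` on `B`. -/
theorem s34dict_bad_ker_stable {Λ B F : Type*} [CommRing Λ] [CommRing B] [Algebra Λ B]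
    [IsDomain Λ] [IsDiscreteValuationRing Λ] [IsNoetherianRing B] [IsDomain B]
    [Field F] [Algebra B F] [Algebra Λ F] [IsScalarTower Λ B F]
    (hBF : Function.Injective (algebraMap B F))
    (π : Λ) (hπ : Irreducible π)
    (x y G : B) (hxy : x * y = algebraMap Λ B π * G)
    (τ : F ≃+* F)
    (hτB : ∀ b : B, ∃ b' : B, algebraMap B F b' = τ (algebraMap B F b))
    (hτBs : ∀ b : B, ∃ b' : B, algebraMap B F b' = τ.symm (algebraMap B F b))
    (hτΛ : ∀ l : Λ, ∃ l' : Λ, algebraMap Λ F l' = τ (algebraMap Λ F l))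
    (hτΛs : ∀ l : Λ, ∃ l' : Λ, algebraMap Λ F l' = τ.symm (algebraMap Λ F l))
    (htriv : ∀ b : B, ∃ c : B,
      τ (algebraMap B F b) = algebraMap B F (b + algebraMap Λ B π * c))
    (φ : B →ₐ[Λ] Λ)
    (hgen : ∀ z : B, π ∣ φ z → ∃ a : B, ¬ π ∣ φ a ∧
      a * z ∈ Ideal.span {algebraMap Λ B π, x, y})
    (hb : NodeBadG π π x y (RingHom.id B) φ) :
    ∀ b b' : B, algebraMap B F b' = τ (algebraMap B F b) → (φ b' = 0 ↔ φ b = 0) := by
  -- `hτB` is part of the interface but not needed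
  have _ := hτB
  -- injectivity of the structure maps
  have hφΛ : ∀ l : Λ, φ (algebraMap Λ B l) = l := fun l => φ.commutes l
  have hΛB : Function.Injective (algebraMap Λ B) := by
    intro a b hab
    have h := congrArg φ hab
    rwa [hφΛ, hφΛ] at h
  have hΛF : Function.Injective (algebraMap Λ F) := by
    rw [IsScalarTower.algebraMap_eq Λ B F]
    exact hBF.comp hΛB
  have hΛBF : ∀ l : Λ, algebraMap B F (algebraMap Λ B l) = algebraMap Λ F l := fun l =>
    (IsScalarTower.algebraMap_apply Λ B F l).symm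
  -- the restrictions of `τ⁻¹` to `B` and of `τ`, `τ⁻¹` to `Λ`
  obtain ⟨ρ, hρ⟩ := s34db_exists_lift (algebraMap B F) hBF
    ((τ.symm : F →+* F).comp (algebraMap B F)) (fun b => hτBs b)
  obtain ⟨θ, hθ⟩ := s34db_exists_lift (algebraMap Λ F) hΛF
    ((τ : F →+* F).comp (algebraMap Λ F)) (fun l => hτΛ l)
  obtain ⟨θs, hθs⟩ := s34db_exists_lift (algebraMap Λ F) hΛF
    ((τ.symm : F →+* F).comp (algebraMap Λ F)) (fun l => hτΛs l)
  have hρ' : ∀ b : B, algebraMap B F (ρ b) = τ.symm (algebraMap B F b) := hρ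
  have hθ' : ∀ l : Λ, algebraMap Λ F (θ l) = τ (algebraMap Λ F l) := hθ
  have hθs' : ∀ l : Λ, algebraMap Λ F (θs l) = τ.symm (algebraMap Λ F l) := hθs
  have hθθs : ∀ l : Λ, θ (θs l) = l := fun l =>
    hΛF (by rw [hθ', hθs', τ.apply_symm_apply])
  have hθsθ : ∀ l : Λ, θs (θ l) = l := fun l =>
    hΛF (by rw [hθs', hθ', τ.symm_apply_apply])
  have hρΛ : ∀ l : Λ, ρ (algebraMap Λ B l) = algebraMap Λ B (θs l) := fun l =>
    hBF (by rw [hρ', hΛBF, hΛBF, hθs'])
  -- `θ` and `θs` preserve `π` up to a unit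
  let e : Λ ≃+* Λ := RingEquiv.ofRingHom θ θs (RingHom.ext hθθs) (RingHom.ext hθsθ)
  have hirr : Irreducible (e π) := (MulEquiv.irreducible_iff e).mpr hπ
  have hassoc : Associated (θ π) π :=
    IsDiscreteValuationRing.associated_of_irreducible Λ hirr hπ
  have hirr_s : Irreducible (e.symm π) := (MulEquiv.irreducible_iff e.symm).mpr hπ
  obtain ⟨u, hu⟩ : Associated π (θs π) :=
    IsDiscreteValuationRing.associated_of_irreducible Λ hπ hirr_s
  have hθsπ : θs π = π * (u : Λ) := hu.symm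
  have hdvd : ∀ a : Λ, π ∣ θ a ↔ π ∣ a := by
    intro a
    have h1 : e π ∣ e a ↔ π ∣ a := map_dvd_iff e
    have h2 : e π ∣ e a ↔ π ∣ e a := hassoc.dvd_iff_dvd_left
    exact h2.symm.trans h1
  -- the twist of `φ`
  let φ' : B →ₐ[Λ] Λ :=
    { toRingHom := θ.comp ((φ : B →+* Λ).comp ρ)
      commutes' := fun l => by
        show θ (φ (ρ (algebraMap Λ B l))) = l
        rw [hρΛ, hφΛ, hθθs] }
  have hφ' : ∀ z : B, φ' z = θ (φ (ρ z)) := fun z => rfl
  -- `ρ` is trivial modulo `π`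
  have hρπ : ρ (algebraMap Λ B π) = algebraMap Λ B π * algebraMap Λ B (u : Λ) := by
    rw [hρΛ, hθsπ, map_mul]
  have hρ_triv : ∀ z : B, ∃ c : B, z = ρ z + algebraMap Λ B π * c := by
    intro z
    obtain ⟨c, hc⟩ := htriv (ρ z)
    rw [hρ', τ.apply_symm_apply] at hc
    exact ⟨c, hBF hc⟩
  -- the twist is bad
  have hb' : NodeBadG π π x y (RingHom.id B) φ' := by
    intro K X Y H σ c hσ hX hY hXY
    rw [Ideal.mem_span_singleton] at hX hY
    obtain ⟨dX, hdX⟩ := hX
    obtain ⟨dY, hdY⟩ := hY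
    obtain ⟨cx, hcx⟩ := hρ_triv x
    obtain ⟨cy, hcy⟩ := hρ_triv y
    have hσ1 : ¬ π ∣ φ ((RingHom.id B) (ρ σ)) := fun h => hσ (by
      show π ∣ φ' σ
      rw [hφ', hdvd]
      exact h)
    have hX1 : ρ X - ρ σ * x ∈ Ideal.span {algebraMap Λ B π} := by
      rw [Ideal.mem_span_singleton]
      refine ⟨algebraMap Λ B (u : Λ) * ρ dX - ρ σ * cx, ?_⟩
      have h1 : ρ X - ρ σ * ρ x = algebraMap Λ B π * algebraMap Λ B (u : Λ) * ρ dX := by
        rw [← map_mul ρ σ x, ← map_sub ρ X (σ * x), hdX, map_mul ρ, hρπ]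
      linear_combination h1 - ρ σ * hcx
    have hY1 : ρ Y - ρ σ * y ∈ Ideal.span {algebraMap Λ B π} := by
      rw [Ideal.mem_span_singleton]
      refine ⟨algebraMap Λ B (u : Λ) * ρ dY - ρ σ * cy, ?_⟩
      have h1 : ρ Y - ρ σ * ρ y = algebraMap Λ B π * algebraMap Λ B (u : Λ) * ρ dY := by
        rw [← map_mul ρ σ y, ← map_sub ρ Y (σ * y), hdY, map_mul ρ, hρπ]
      linear_combination h1 - ρ σ * hcy
    have hXY1 : ρ X * ρ Y = ρ σ ^ 2 * algebraMap Λ B (π * ((u : Λ) * θs c)) +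
        algebraMap Λ B (π ^ (K + 1)) * (algebraMap Λ B ((u : Λ) ^ (K + 1)) * ρ H) := by
      have h1 := congrArg ρ hXY
      rw [map_mul ρ X Y, map_add ρ, map_mul ρ (σ ^ 2), map_pow ρ σ 2,
        map_mul ρ (algebraMap Λ B (π ^ (K + 1))) H, hρΛ, hρΛ, map_mul θs, map_pow θs,
        hθsπ] at h1
      have e1 : π * (u : Λ) * θs c = π * ((u : Λ) * θs c) := mul_assoc _ _ _
      have e2 : algebraMap Λ B ((π * (u : Λ)) ^ (K + 1)) * ρ H =
          algebraMap Λ B (π ^ (K + 1)) * (algebraMap Λ B ((u : Λ) ^ (K + 1)) * ρ H) := by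
        rw [mul_pow, map_mul, mul_assoc]
      rw [h1, e1, e2]
    obtain ⟨h1, h2⟩ := hb K (ρ X) (ρ Y) (algebraMap Λ B ((u : Λ) ^ (K + 1)) * ρ H) (ρ σ)
      ((u : Λ) * θs c) hσ1 hX1 hY1 hXY1
    have hpow : Associated (θ (π ^ (K + 1))) (π ^ (K + 1)) := by
      rw [map_pow]
      exact hassoc.pow_pow
    constructor
    · show π ^ (K + 1) ∣ θ (φ (ρ X))
      exact hpow.dvd_iff_dvd_left.mp (map_dvd θ h1)
    · show π ^ (K + 1) ∣ θ (φ (ρ Y))
      exact hpow.dvd_iff_dvd_left.mp (map_dvd θ h2)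
  -- the twist has the same centre
  have hcentre : ∀ z : B, π ∣ φ z ↔ π ∣ φ' z := by
    intro z
    rw [hφ', hdvd]
    obtain ⟨c, hz⟩ := hρ_triv z
    have h1 : φ z = φ (ρ z) + π * φ c := by
      conv_lhs => rw [hz]
      rw [map_add, map_mul, hφΛ]
    rw [h1]
    exact dvd_add_left (dvd_mul_right π _)
  -- residues at the centre
  have hres_b : ∀ r s : B, ¬ π ∣ φ ((RingHom.id B) s) →
      ∃ c : Λ, π ∣ φ ((RingHom.id B) (r - algebraMap Λ B c * s)) := by
    intro r s hs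
    have hunit : IsUnit (φ s) := by
      by_contra hnu
      apply hs
      have hmem : φ s ∈ IsLocalRing.maximalIdeal Λ := (IsLocalRing.mem_maximalIdeal _).mpr hnu
      rw [hπ.maximalIdeal_eq, Ideal.mem_span_singleton] at hmem
      exact hmem
    obtain ⟨v, hv⟩ := hunit
    refine ⟨φ r * ((v⁻¹ : Λˣ) : Λ), ?_⟩
    have h0 : φ (r - algebraMap Λ B (φ r * ((v⁻¹ : Λˣ) : Λ)) * s) = 0 := by
      rw [map_sub, map_mul, hφΛ, ← hv, mul_assoc, Units.inv_mul, mul_one, sub_self]
    show π ∣ φ (r - algebraMap Λ B (φ r * ((v⁻¹ : Λˣ) : Λ)) * s)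
    rw [h0]
    exact dvd_zero π
  -- uniqueness of the bad point
  have heq : φ = φ' :=
    node_bad_global_eq_B (Λb := Λ) (Bb := B) π π hπ (dvd_refl π) x y G hxy (RingHom.id B)
      (fun c => rfl) φ φ' hcentre hgen hres_b hgen hb hb'
  intro b b' hbb'
  have h1 : ρ b' = b := hBF (by rw [hρ', hbb', τ.symm_apply_apply])
  have h2 : φ b' = θ (φ b) := by
    have h3 : φ b' = φ' b' := congrArg (fun ψ : B →ₐ[Λ] Λ => ψ b') heq
    rw [h3, hφ', h1]
  have hθinj : Function.Injective θ := Function.LeftInverse.injective hθsθ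
  rw [h2]
  exact map_eq_zero_iff θ hθinj

end Fermat.Agent.S34
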