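import Mathlib
import Fermat.Agent.S34.AbsLP
import Fermat.Agent.S34.AbsPlaceComp

/-!
# S34, G3 dictionary: a prime whose point has a `τ`-stable kernel has a `τ`-invariant valuation

`s34dict_val_of_ker_stable`: let `𝔔` be a prime of the Dedekind domain `Bη` cut out on the chart
`B` by the kernel of a point `φ : B →ₐ[Λ] Λ`. If the field automorphism `τ` preserves `Bη` and `B`
and the kernel of `φ`, then the valuation of `𝔔` is `τ`-invariant.
-/

set_option autoImplicit false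

namespace Fermat.Agent.S34

open IsDedekindDomain

theorem s34dict_val_of_ker_stable {Λ B Bη F : Type*} [CommRing Λ] [CommRing B] [Algebra Λ B]
    [CommRing Bη] [IsDedekindDomain Bη] [Field F] [Algebra Bη F] [IsFractionRing Bη F]
    [Algebra B F]
    (ι : B →+* Bη) (hι : ∀ b : B, algebraMap Bη F (ι b) = algebraMap B F b) (π : Λ)
    (hπu : IsUnit (ι (algebraMap Λ B π)))
    (hloc : ∀ y : Bη, ∃ (n : ℕ) (b : B), ι (algebraMap Λ B π) ^ n * y = ι b)
    (τ : F ≃+* F)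
    (hτη : ∀ y : Bη, ∃ y' : Bη, algebraMap Bη F y' = τ (algebraMap Bη F y))
    (hτηs : ∀ y : Bη, ∃ y' : Bη, algebraMap Bη F y' = τ.symm (algebraMap Bη F y))
    (hτB : ∀ b : B, ∃ b' : B, algebraMap B F b' = τ (algebraMap B F b))
    (hτBs : ∀ b : B, ∃ b' : B, algebraMap B F b' = τ.symm (algebraMap B F b))
    (φ : B →ₐ[Λ] Λ) (𝔔 : HeightOneSpectrum Bη) (h𝔔 : ∀ b : B, ι b ∈ 𝔔.asIdeal ↔ φ b = 0)
    (hker : ∀ b b' : B, algebraMap B F b' = τ (algebraMap B F b) → (φ b' = 0 ↔ φ b = 0)) :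
    ∀ g : F, 𝔔.valuation F (τ g) = 𝔔.valuation F g := by
  have hinj : Function.Injective (algebraMap Bη F) := IsFractionRing.injective Bη F
  -- the automorphism of `Bη` induced by `τ`
  obtain ⟨σ, hσspec⟩ : ∃ σ : Bη ≃+* Bη,
      ∀ y : Bη, algebraMap Bη F (σ y) = τ (algebraMap Bη F y) :=
    ⟨abs_pc_equiv τ hτη hτηs, abs_pc_equiv_spec τ hτη hτηs⟩
  -- on the chart, `σ` preserves membership in `𝔔`
  have hA : ∀ b : B, σ (ι b) ∈ 𝔔.asIdeal ↔ ι b ∈ 𝔔.asIdeal := by
    intro b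
    obtain ⟨b', hb'⟩ := hτB b
    have h1 : ι b' = σ (ι b) := by
      apply hinj
      rw [hι, hb', hσspec, hι]
    rw [← h1, h𝔔, h𝔔]
    exact hker b b' hb'
  -- units do not matter for membership in a prime
  have hunit : ∀ u y : Bη, IsUnit u → (u * y ∈ 𝔔.asIdeal ↔ y ∈ 𝔔.asIdeal) := by
    intro u y hu
    constructor
    · intro h
      rcases 𝔔.isPrime.mem_or_mem h with h1 | h1
      · exact absurd (𝔔.asIdeal.eq_top_of_isUnit_mem h1 hu) 𝔔.isPrime.ne_top
      · exact h1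
    · intro h
      exact 𝔔.asIdeal.mul_mem_left u h
  have hmem : ∀ y : Bη, σ y ∈ 𝔔.asIdeal ↔ y ∈ 𝔔.asIdeal := by
    intro y
    obtain ⟨n, b, hnb⟩ := hloc y
    have hpu : IsUnit (ι (algebraMap Λ B π) ^ n) := hπu.pow n
    have hσpu : IsUnit (σ (ι (algebraMap Λ B π) ^ n)) := hpu.map σ
    rw [← hunit _ y hpu, hnb, ← hA b, ← hnb, map_mul, hunit _ _ hσpu]
  have hplace : abs_pc_place σ 𝔔 = 𝔔 := by
    apply HeightOneSpectrum.ext
    apply Ideal.ext
    intro y
    show σ y ∈ 𝔔.asIdeal ↔ y ∈ 𝔔.asIdeal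
    exact hmem y
  have hval : ∀ f : F, (abs_pc_place σ 𝔔).valuation F f = 𝔔.valuation F (τ f) := by
    intro f
    obtain ⟨a, b, hb, rfl⟩ := IsFractionRing.div_surjective (A := Bη) f
    rw [map_div₀, map_div₀, map_div₀, HeightOneSpectrum.valuation_of_algebraMap,
      HeightOneSpectrum.valuation_of_algebraMap, ← hσspec a, ← hσspec b,
      HeightOneSpectrum.valuation_of_algebraMap, HeightOneSpectrum.valuation_of_algebraMap,
      abs_pc_intVal, abs_pc_intVal]
  intro g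
  rw [← hval g, hplace]

end Fermat.Agent.S34
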