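import Mathlib

/-!
P19 (S34), block MODEL: the basic predicate.

`ModelLocGen 𝔞 𝔐 u` : `u ∈ 𝔐` and `𝔐` is generated by `𝔞` and `u` locally at `𝔐`
(`𝔐 A_𝔐 = (𝔞, u) A_𝔐`), in division-free elementwise form.  For `𝔞 = (π)` and `𝔐` a closed
point of the special fibre this says that `u` is a uniformiser of the special fibre at `𝔐`.
-/

set_option autoImplicit false

namespace Fermat.Agent.S34

/-- `u ∈ 𝔐` and `𝔐` is generated by `𝔞` and `u` locally at `𝔐`. -/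
def ModelLocGen {A : Type*} [CommRing A] (𝔞 𝔐 : Ideal A) (u : A) : Prop :=
  u ∈ 𝔐 ∧ ∀ z ∈ 𝔐, ∃ a : A, a ∉ 𝔐 ∧ a * z ∈ 𝔞 ⊔ Ideal.span {u}

theorem ModelLocGen.mem {A : Type*} [CommRing A] {𝔞 𝔐 : Ideal A} {u : A}
    (h : ModelLocGen 𝔞 𝔐 u) : u ∈ 𝔐 := h.1

/-- unfolded form: `a * z = c + u * d` with `c ∈ 𝔞`. -/
theorem ModelLocGen.exists_eq {A : Type*} [CommRing A] {𝔞 𝔐 : Ideal A} {u : A}
    (h : ModelLocGen 𝔞 𝔐 u) {z : A} (hz : z ∈ 𝔐) :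
    ∃ a c d : A, a ∉ 𝔐 ∧ c ∈ 𝔞 ∧ a * z = c + u * d := by
  obtain ⟨a, ha, haz⟩ := h.2 z hz
  obtain ⟨c, hc, w, hw, hcw⟩ := Submodule.mem_sup.mp haz
  obtain ⟨d, rfl⟩ := Ideal.mem_span_singleton'.mp hw
  exact ⟨a, c, d, ha, hc, by rw [← hcw]; ring⟩

/-- folded form. -/
theorem modelLocGen_of_exists_eq {A : Type*} [CommRing A] {𝔞 𝔐 : Ideal A} {u : A}
    (hu : u ∈ 𝔐) (h : ∀ z ∈ 𝔐, ∃ a c d : A, a ∉ 𝔐 ∧ c ∈ 𝔞 ∧ a * z = c + u * d) :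
    ModelLocGen 𝔞 𝔐 u := by
  refine ⟨hu, fun z hz => ?_⟩
  obtain ⟨a, c, d, ha, hc, h1⟩ := h z hz
  refine ⟨a, ha, ?_⟩
  rw [h1]
  exact Submodule.add_mem_sup hc (Ideal.mem_span_singleton'.mpr ⟨d, by ring⟩)

end Fermat.Agent.S34
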