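import Mathlib
import Fermat.Agent.S34.NodeAlg
import Fermat.Agent.S34.NodeGlobalDefs

/-!
# P19 (S34), block ALG2: (LP') at a crossing point, for a point which is not bad (second team)

`node_lp_global_cross_B`: localisation-free form of `node_lp` at a crossing point of the model
`B` over the discrete valuation ring `Λ`, for an integral point `φ : B →ₐ[Λ] Λ` which is not bad
(`NodeBadG`).  The proof localises `B` at the centre `𝔪 = φ⁻¹(π)` of `φ`, applies
`node_ker_eval_pair` / `node_lp` / `node_dvr_dichotomy` there and clears denominators.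
-/

set_option autoImplicit false
set_option linter.unusedSectionVars false

namespace Fermat.Agent.S34

section ngcB

variable {Λ B : Type*} [CommRing Λ] [IsDomain Λ] [IsDiscreteValuationRing Λ] [CommRing B]
  [Algebra Λ B]

/-- In a discrete valuation ring, an element not divisible by the uniformiser is a unit. -/
theorem ngcB_isUnit_of_not_dvd (π : Λ) (hπ : Irreducible π) {a : Λ} (ha : ¬ π ∣ a) :
    IsUnit a := by
  by_contra hu
  have hmax := (IsDiscreteValuationRing.irreducible_iff_uniformizer π).mp hπ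
  have hmem : a ∈ IsLocalRing.maximalIdeal Λ := (IsLocalRing.mem_maximalIdeal a).mpr hu
  rw [hmax, Ideal.mem_span_singleton] at hmem
  exact ha hmem

/-- A local divisibility statement on `ker φ` with denominators prime to the centre can be made
uniform (`ker φ` is finitely generated). -/
theorem ngcB_uniform [IsNoetherianRing B] (π : Λ) (hπ : Irreducible π) (φ : B →ₐ[Λ] Λ)
    (h p : B)
    (hloc : ∀ b : B, φ b = 0 → ∃ s : B, ¬ π ∣ φ s ∧ h ∣ p * (s * b)) :
    ∃ s : B, ¬ π ∣ φ s ∧ ∀ b : B, φ b = 0 → h ∣ p * (s * b) := by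
  classical
  obtain ⟨T, hT⟩ := (isNoetherianRing_iff_ideal_fg B).mp inferInstance
    (RingHom.ker (φ : B →+* Λ))
  have hTker : ∀ b ∈ T, φ b = 0 := by
    intro b hb
    have h1 : b ∈ RingHom.ker (φ : B →+* Λ) := by
      rw [← hT]
      exact Ideal.subset_span hb
    exact h1
  choose! s hs1 hs2 using hloc
  refine ⟨∏ b ∈ T, s b, ?_, ?_⟩
  · rw [map_prod]
    intro hdvd
    obtain ⟨b, hb, hb'⟩ := (hπ.prime.dvd_finsetProd_iff _).mp hdvd
    exact hs1 b (hTker b hb) hb'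
  · intro b hb
    have hb' : b ∈ Ideal.span (T : Set B) := by
      rw [hT]
      exact hb
    clear hb
    induction hb' using Submodule.span_induction with
    | mem x hx =>
      have h1 : h ∣ p * (s x * x) := hs2 x (hTker x hx)
      rw [← Finset.mul_prod_erase T s hx]
      have h2 : p * ((s x * ∏ b ∈ T.erase x, s b) * x)
          = (p * (s x * x)) * ∏ b ∈ T.erase x, s b := by
        ring
      rw [h2]
      exact Dvd.dvd.mul_right h1 _
    | zero =>
      rw [mul_zero, mul_zero]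
      exact dvd_zero _
    | add x y _ _ hx hy =>
      rw [mul_add, mul_add]
      exact dvd_add hx hy
    | smul a x _ hx =>
      have h2 : p * ((∏ b ∈ T, s b) * (a • x)) = (p * ((∏ b ∈ T, s b) * x)) * a := by
        rw [smul_eq_mul]
        ring
      rw [h2]
      exact Dvd.dvd.mul_right hx _

section Loc

variable (π : Λ) (hπ : Irreducible π) (φ : B →ₐ[Λ] Λ) (𝔪 : Ideal B) [𝔪.IsPrime]
  (h𝔪 : ∀ z : B, z ∈ 𝔪 ↔ π ∣ φ z)

include hπ h𝔪 in
/-- The evaluation on the local ring at the centre. -/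
theorem ngcB_exists_ev : ∃ ev : Localization.AtPrime 𝔪 →ₐ[Λ] Λ,
    ∀ b : B, ev (algebraMap B (Localization.AtPrime 𝔪) b) = φ b := by
  have hunit : ∀ y : 𝔪.primeCompl, IsUnit (φ y) := fun y =>
    ngcB_isUnit_of_not_dvd π hπ (fun h => y.2 ((h𝔪 _).mpr h))
  exact ⟨IsLocalization.liftAlgHom (M := 𝔪.primeCompl) (f := φ) hunit,
    fun b => IsLocalization.lift_eq _ b⟩

include hπ h𝔪 in
theorem ngcB_mem_maximal_iff (ev : Localization.AtPrime 𝔪 →ₐ[Λ] Λ)
    (hev : ∀ b : B, ev (algebraMap B (Localization.AtPrime 𝔪) b) = φ b)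
    (r : Localization.AtPrime 𝔪) :
    r ∈ IsLocalRing.maximalIdeal (Localization.AtPrime 𝔪) ↔ π ∣ ev r := by
  obtain ⟨⟨b, s⟩, hbs⟩ := IsLocalization.surj 𝔪.primeCompl r
  dsimp only at hbs
  have hsu : IsUnit (algebraMap B (Localization.AtPrime 𝔪) (s : B)) :=
    IsLocalization.map_units _ s
  have hφs : IsUnit (φ s) := ngcB_isUnit_of_not_dvd π hπ (fun h => s.2 ((h𝔪 _).mpr h))
  have h1 : ev r * φ s = φ b := by rw [← hev, ← hev, ← map_mul, hbs]
  rw [← Ideal.mul_unit_mem_iff_mem _ hsu, hbs,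
    IsLocalization.AtPrime.to_map_mem_maximal_iff (Localization.AtPrime 𝔪) 𝔪 b, h𝔪, ← h1,
    hφs.dvd_mul_right]

include h𝔪 in
theorem ngcB_maximal_le (x y : B)
    (hgen : ∀ z : B, π ∣ φ z → ∃ a : B, ¬ π ∣ φ a ∧
      a * z ∈ Ideal.span {algebraMap Λ B π, x, y}) :
    IsLocalRing.maximalIdeal (Localization.AtPrime 𝔪) ≤
      Ideal.span {algebraMap Λ (Localization.AtPrime 𝔪) π,
        algebraMap B (Localization.AtPrime 𝔪) x, algebraMap B (Localization.AtPrime 𝔪) y} := by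
  intro r hr
  obtain ⟨⟨b, s⟩, hbs⟩ := IsLocalization.surj 𝔪.primeCompl r
  dsimp only at hbs
  have hsu : IsUnit (algebraMap B (Localization.AtPrime 𝔪) (s : B)) :=
    IsLocalization.map_units _ s
  have hb : b ∈ 𝔪 := by
    rw [← IsLocalization.AtPrime.to_map_mem_maximal_iff (Localization.AtPrime 𝔪) 𝔪 b, ← hbs]
    exact Ideal.mul_mem_right _ _ hr
  obtain ⟨a, ha, haz⟩ := hgen b ((h𝔪 b).mp hb)
  have hau : IsUnit (algebraMap B (Localization.AtPrime 𝔪) a) :=
    IsLocalization.map_units (Localization.AtPrime 𝔪)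
      (⟨a, fun h => ha ((h𝔪 a).mp h)⟩ : 𝔪.primeCompl)
  have h1 : algebraMap B (Localization.AtPrime 𝔪) (a * b) ∈
      Ideal.span {algebraMap Λ (Localization.AtPrime 𝔪) π,
        algebraMap B (Localization.AtPrime 𝔪) x, algebraMap B (Localization.AtPrime 𝔪) y} := by
    have h2 := Ideal.mem_map_of_mem (algebraMap B (Localization.AtPrime 𝔪)) haz
    rw [Ideal.map_span] at h2
    simp only [Set.image_insert_eq, Set.image_singleton] at h2
    rwa [← IsScalarTower.algebraMap_apply] at h2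
  rw [← Ideal.mul_unit_mem_iff_mem _ hsu, ← Ideal.mul_unit_mem_iff_mem _ hau, hbs, mul_comm,
    ← map_mul]
  exact h1

end Loc

/-- Core statement, everything in `B`: if `X / σ ≡ x`, `Y / σ ≡ y (mod π)`,
`(X / σ) (Y / σ) = d + Q H / σ ^ 2` and `Q ∤ φ X`, then (LP') holds with `h ~ X - (φ X / φ σ) σ`. -/
theorem ngcB_core [IsNoetherianRing B] (π : Λ) (hπ : Irreducible π) (φ : B →ₐ[Λ] Λ)
    (x y X Y H σ : B) (d Q : Λ) (hσ : ¬ π ∣ φ σ)
    (hX : X - σ * x ∈ Ideal.span {algebraMap Λ B π})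
    (hY : Y - σ * y ∈ Ideal.span {algebraMap Λ B π})
    (hXY : X * Y = σ ^ 2 * algebraMap Λ B d + algebraMap Λ B Q * H)
    (hx : π ∣ φ x) (hy : π ∣ φ y)
    (hgen : ∀ z : B, π ∣ φ z → ∃ a : B, ¬ π ∣ φ a ∧
      a * z ∈ Ideal.span {algebraMap Λ B π, x, y})
    (hQ : ¬ Q ∣ φ X) :
    ∃ h : B, φ h = 0 ∧ ∃ (k : ℕ) (s : B), ¬ π ∣ φ s ∧
      ∀ b : B, φ b = 0 → h ∣ algebraMap Λ B (π ^ k) * (s * b) := by
  -- the centre
  have hspan : (Ideal.span {π}).IsPrime :=
    (Ideal.span_singleton_prime hπ.ne_zero).mpr hπ.prime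
  set 𝔪 : Ideal B := Ideal.comap (φ : B →+* Λ) (Ideal.span {π}) with h𝔪def
  have h𝔪prime : 𝔪.IsPrime := Ideal.comap_isPrime _ _
  have h𝔪 : ∀ z : B, z ∈ 𝔪 ↔ π ∣ φ z := fun z => by
    rw [h𝔪def, Ideal.mem_comap, Ideal.mem_span_singleton]
    rfl
  have hnoeth : IsNoetherianRing (Localization.AtPrime 𝔪) :=
    IsLocalization.isNoetherianRing 𝔪.primeCompl _ inferInstance
  obtain ⟨ev, hev⟩ := ngcB_exists_ev π hπ φ 𝔪 h𝔪
  -- abbreviations
  set ι : B →+* Localization.AtPrime 𝔪 := algebraMap B (Localization.AtPrime 𝔪) with hι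
  have hιΛ : ∀ c : Λ, ι (algebraMap Λ B c) = algebraMap Λ (Localization.AtPrime 𝔪) c :=
    fun c => (IsScalarTower.algebraMap_apply Λ B (Localization.AtPrime 𝔪) c).symm
  have hunitι : ∀ a : B, ¬ π ∣ φ a → IsUnit (ι a) := fun a ha =>
    IsLocalization.map_units (Localization.AtPrime 𝔪)
      (⟨a, fun h => ha ((h𝔪 a).mp h)⟩ : 𝔪.primeCompl)
  have hmemmax := ngcB_mem_maximal_iff π hπ φ 𝔪 h𝔪 ev hev
  have hπR : algebraMap Λ (Localization.AtPrime 𝔪) π ∈
      IsLocalRing.maximalIdeal (Localization.AtPrime 𝔪) := by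
    rw [hmemmax, AlgHom.commutes]
    exact dvd_refl π
  have hres : ∀ r : Localization.AtPrime 𝔪, ∃ c : Λ,
      r - algebraMap Λ (Localization.AtPrime 𝔪) c ∈
        IsLocalRing.maximalIdeal (Localization.AtPrime 𝔪) := by
    intro r
    refine ⟨ev r, ?_⟩
    rw [hmemmax, map_sub, AlgHom.commutes, Algebra.algebraMap_self_apply, sub_self]
    exact dvd_zero π
  -- the inverse of `σ`
  obtain ⟨u, hu⟩ := (hunitι σ hσ).exists_right_inv
  have hφu : φ σ * ev u = 1 := by rw [← hev, ← map_mul, hu, map_one]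
  -- the elements `X_R`, `Y_R`, `H_R`
  obtain ⟨w₁, hw₁⟩ := Ideal.mem_span_singleton'.mp hX
  obtain ⟨w₂, hw₂⟩ := Ideal.mem_span_singleton'.mp hY
  have E1 : ι w₁ * algebraMap Λ (Localization.AtPrime 𝔪) π = ι X - ι σ * ι x := by
    rw [← hιΛ, ← map_mul, hw₁, map_sub, map_mul]
  have E1' : ι w₂ * algebraMap Λ (Localization.AtPrime 𝔪) π = ι Y - ι σ * ι y := by
    rw [← hιΛ, ← map_mul, hw₂, map_sub, map_mul]
  have E3 : ι X * ι Y = ι σ ^ 2 * algebraMap Λ (Localization.AtPrime 𝔪) d +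
      algebraMap Λ (Localization.AtPrime 𝔪) Q * ι H := by
    rw [← map_mul, hXY, map_add, map_mul, map_mul, map_pow, hιΛ, hιΛ]
  have hXR : ι X * u - ι x = (ι w₁ * u) * algebraMap Λ (Localization.AtPrime 𝔪) π := by
    linear_combination (-u) * E1 + ι x * hu
  have hYR : ι Y * u - ι y = (ι w₂ * u) * algebraMap Λ (Localization.AtPrime 𝔪) π := by
    linear_combination (-u) * E1' + ι y * hu
  have hXYR : (ι X * u) * (ι Y * u) = algebraMap Λ (Localization.AtPrime 𝔪) d +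
      algebraMap Λ (Localization.AtPrime 𝔪) Q * (ι H * u ^ 2) := by
    linear_combination u ^ 2 * E3 +
      algebraMap Λ (Localization.AtPrime 𝔪) d * (ι σ * u + 1) * hu
  have hm : IsLocalRing.maximalIdeal (Localization.AtPrime 𝔪) ≤
      Ideal.span {algebraMap Λ (Localization.AtPrime 𝔪) π, ι X * u, ι Y * u} := by
    rw [← node_span_eq (algebraMap Λ (Localization.AtPrime 𝔪) π) (ι x) (ι y) (ι X * u) (ι Y * u)
      (Ideal.mem_span_singleton'.mpr ⟨_, hXR.symm⟩) (Ideal.mem_span_singleton'.mpr ⟨_, hYR.symm⟩)]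
    exact ngcB_maximal_le π φ 𝔪 h𝔪 x y hgen
  have hevX : π ∣ ev (ι X * u) := by
    have h1 : ι X * u = ι x + (ι w₁ * u) * algebraMap Λ (Localization.AtPrime 𝔪) π := by
      rw [← hXR]; ring
    rw [h1, map_add, map_mul, AlgHom.commutes, hev]
    exact dvd_add hx (dvd_mul_left π _)
  have hevY : π ∣ ev (ι Y * u) := by
    have h1 : ι Y * u = ι y + (ι w₂ * u) * algebraMap Λ (Localization.AtPrime 𝔪) π := by
      rw [← hYR]; ring
    rw [h1, map_add, map_mul, AlgHom.commutes, hev]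
    exact dvd_add hy (dvd_mul_left π _)
  have hQ' : ¬ Q ∣ ev (ι X * u) := by
    intro hdvd
    apply hQ
    have h1 : φ X = ev (ι X * u) * φ σ := by
      rw [map_mul, hev, mul_assoc, mul_comm (ev u), hφu, mul_one]
    rw [h1]
    exact Dvd.dvd.mul_right hdvd _
  obtain ⟨μ, hQμ, hμ⟩ := node_dvr_dichotomy π hπ (ev (ι X * u)) Q hQ'
  have hker := node_ker_eval_pair ev π hπR (ι X * u) (ι Y * u) hm hres hevX hevY
  obtain ⟨⟨t, ht⟩, -⟩ := node_lp ev π hπR (ι X * u) (ι Y * u) (ι H * u ^ 2) hm hres hevX hevY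
    d Q μ hXYR hQμ hμ
  -- `A = ev X_R` is a unit times a power of `π`
  have hA0 : ev (ι X * u) ≠ 0 := fun h0 => hQ' (h0 ▸ dvd_zero Q)
  obtain ⟨k, v, hv⟩ := IsDiscreteValuationRing.associated_pow_irreducible hA0 hπ
  set g : Localization.AtPrime 𝔪 :=
    ι X * u - algebraMap Λ (Localization.AtPrime 𝔪) (ev (ι X * u)) with hg
  have hevg : ev g = 0 := by
    rw [hg, map_sub, AlgHom.commutes, Algebra.algebraMap_self_apply, sub_self]
  have hkey : ∀ r : Localization.AtPrime 𝔪, ev r = 0 →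
      ∃ w : Localization.AtPrime 𝔪,
        algebraMap Λ (Localization.AtPrime 𝔪) (π ^ k) * r = w * g := by
    intro r hr
    have hr' : r ∈ RingHom.ker (ev : Localization.AtPrime 𝔪 →+* Λ) := hr
    rw [hker, Ideal.mem_span_pair] at hr'
    obtain ⟨a, b, hab⟩ := hr'
    refine ⟨algebraMap Λ (Localization.AtPrime 𝔪) (v : Λ) *
      (algebraMap Λ (Localization.AtPrime 𝔪) (ev (ι X * u)) * a + b * t), ?_⟩
    rw [← hv, map_mul, ← hab]
    linear_combination (algebraMap Λ (Localization.AtPrime 𝔪) (v : Λ) * b) * ht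
  -- back to `B`
  obtain ⟨⟨h₀, s₀⟩, hh₀⟩ := IsLocalization.surj 𝔪.primeCompl g
  dsimp only at hh₀
  have hφs₀ : ¬ π ∣ φ (s₀ : B) := fun h => s₀.2 ((h𝔪 _).mpr h)
  have hφh₀ : φ h₀ = 0 := by
    rw [← hev, ← hh₀, map_mul, hevg, zero_mul]
  refine ⟨h₀, hφh₀, k, ?_⟩
  refine ngcB_uniform π hπ φ h₀ (algebraMap Λ B (π ^ k)) ?_
  intro b hb
  obtain ⟨w, hw⟩ := hkey (ι b) (by rw [hι, hev, hb])
  obtain ⟨⟨w₀, s₁⟩, hw₀⟩ := IsLocalization.surj 𝔪.primeCompl w
  dsimp only at hw₀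
  have h1 : ι (algebraMap Λ B (π ^ k) * b * s₀ * s₁) = ι (w₀ * h₀) := by
    rw [map_mul, map_mul, map_mul, map_mul, hιΛ, hw, ← hw₀, ← hh₀]
    ring
  obtain ⟨c, hc⟩ := (IsLocalization.eq_iff_exists 𝔪.primeCompl (Localization.AtPrime 𝔪)).mp h1
  refine ⟨c * s₀ * s₁, ?_, ?_⟩
  · have hmem : ((c * s₀ * s₁ : 𝔪.primeCompl) : B) ∉ 𝔪 := (c * s₀ * s₁).2
    intro hdvd
    apply hmem
    rw [h𝔪]
    simpa using hdvd
  · refine ⟨c * w₀, ?_⟩
    linear_combination hc

end ngcB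

/-- **File S34/NodeGlobalCrossB.lean.**  (LP') at a crossing point, for a point which is not
bad. -/
theorem node_lp_global_cross_B {Λb Λ Bb B : Type*} [CommRing Λb] [CommRing Λ] [CommRing Bb]
    [CommRing B] [Algebra Λb Bb] [Algebra Λb Λ] [Algebra Λ B] [IsDomain Λ]
    [IsDiscreteValuationRing Λ] [IsNoetherianRing B]
    (πb : Λb) (π : Λ) (hπ : Irreducible π) (hπb : π ∣ algebraMap Λb Λ πb)
    (x y : Bb) (f : Bb →+* B)
    (hf : ∀ c : Λb, f (algebraMap Λb Bb c) = algebraMap Λ B (algebraMap Λb Λ c))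
    (φ : B →ₐ[Λ] Λ) (hx : π ∣ φ (f x)) (hy : π ∣ φ (f y))
    (hgen : ∀ z : B, π ∣ φ z → ∃ a : B, ¬ π ∣ φ a ∧
      a * z ∈ Ideal.span {algebraMap Λ B π, f x, f y})
    (hnb : ¬ NodeBadG πb π x y f φ) :
    ∃ h : B, φ h = 0 ∧ ∃ (k : ℕ) (s : B), ¬ π ∣ φ s ∧
      ∀ b : B, φ b = 0 → h ∣ algebraMap Λ B (π ^ k) * (s * b) := by
  unfold NodeBadG at hnb
  push Not at hnb
  obtain ⟨K, X, Y, H, σ, c, hσ, hX, hY, hXY, hdiv⟩ := hnb
  -- transport of the congruences along `f`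
  have htrans : ∀ Z z : Bb, Z - σ * z ∈ Ideal.span {algebraMap Λb Bb πb} →
      f Z - f σ * f z ∈ Ideal.span {algebraMap Λ B π} := by
    intro Z z hZ
    obtain ⟨w, hw⟩ := Ideal.mem_span_singleton'.mp hZ
    obtain ⟨q', hq'⟩ := hπb
    refine Ideal.mem_span_singleton'.mpr ⟨f w * algebraMap Λ B q', ?_⟩
    rw [← map_mul, ← map_sub, ← hw, map_mul, hf, hq', map_mul]
    ring
  have hX' := htrans X x hX
  have hY' := htrans Y y hY
  have hXY' : f X * f Y = f σ ^ 2 * algebraMap Λ B (algebraMap Λb Λ (πb * c)) +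
      algebraMap Λ B (algebraMap Λb Λ (πb ^ (K + 1))) * f H := by
    rw [← map_mul, hXY, RingHom.map_add f, RingHom.map_mul f, RingHom.map_mul f,
      RingHom.map_pow f, hf, hf]
  by_cases hQX : algebraMap Λb Λ (πb ^ (K + 1)) ∣ φ (f X)
  · -- the roles of `X` and `Y` are exchanged
    have hQY : ¬ algebraMap Λb Λ (πb ^ (K + 1)) ∣ φ (f Y) := hdiv hQX
    have hgen' : ∀ z : B, π ∣ φ z → ∃ a : B, ¬ π ∣ φ a ∧
        a * z ∈ Ideal.span {algebraMap Λ B π, f y, f x} := by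
      intro z hz
      obtain ⟨a, ha, haz⟩ := hgen z hz
      refine ⟨a, ha, ?_⟩
      rw [Set.pair_comm (f y) (f x)]
      exact haz
    exact ngcB_core π hπ φ (f y) (f x) (f Y) (f X) (f H) (f σ) _ _ hσ hY' hX'
      (by rw [mul_comm]; exact hXY') hy hx hgen' hQY
  · exact ngcB_core π hπ φ (f x) (f y) (f X) (f Y) (f H) (f σ) _ _ hσ hX' hY' hXY' hx hy hgen hQX

end Fermat.Agent.S34
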