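import Mathlib
import Fermat.Agent.S34.ModelDefs
import Fermat.Agent.S34.NodeAlg

/-!
P19 (S34), block ALG2: (LP') at a closed point lying on one component of the special fibre, in
localisation-free form (`node_lp_global_smooth`).
-/

set_option autoImplicit false

namespace Fermat.Agent.S34

open IsLocalRing

/-- In a discrete valuation ring with uniformiser `π`, an element not divisible by `π` is a
unit. -/
theorem ngs_isUnit_of_not_dvd {Λ : Type*} [CommRing Λ] [IsDomain Λ] [IsDiscreteValuationRing Λ]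
    {π : Λ} (hπ : Irreducible π) {a : Λ} (ha : ¬ π ∣ a) : IsUnit a := by
  rw [← IsLocalRing.notMem_maximalIdeal, hπ.maximalIdeal_eq, Ideal.mem_span_singleton]
  exact ha

/-- Uniform denominators over a finitely generated ideal. -/
theorem ngs_uniform {B : Type*} [CommRing B] (𝔪 : Ideal B) [h𝔪 : 𝔪.IsPrime] (h : B)
    (S : Finset B) (hS : ∀ a ∈ S, ∃ s : B, s ∉ 𝔪 ∧ h ∣ s * a) :
    ∃ s : B, s ∉ 𝔪 ∧ ∀ b ∈ Ideal.span (S : Set B), h ∣ s * b := by
  classical
  induction S using Finset.induction_on with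
  | empty =>
    refine ⟨1, (Ideal.ne_top_iff_one 𝔪).mp h𝔪.ne_top, fun b hb => ?_⟩
    rw [Finset.coe_empty, Ideal.span_empty, Ideal.mem_bot] at hb
    rw [hb, mul_zero]
    exact dvd_zero h
  | insert a S ha ih =>
    obtain ⟨s₁, hs₁, h₁⟩ := hS a (Finset.mem_insert_self a S)
    obtain ⟨s₂, hs₂, h₂⟩ := ih (fun a' ha' => hS a' (Finset.mem_insert_of_mem ha'))
    refine ⟨s₁ * s₂, ?_, ?_⟩
    · intro hmem
      rcases h𝔪.mem_or_mem hmem with h' | h'
      · exact hs₁ h'
      · exact hs₂ h'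
    · intro b hb
      rw [Finset.coe_insert, Ideal.mem_span_insert] at hb
      obtain ⟨c, b', hb', rfl⟩ := hb
      have e : s₁ * s₂ * (c * a + b') = (s₂ * c) * (s₁ * a) + s₁ * (s₂ * b') := by ring
      rw [e]
      exact dvd_add (Dvd.dvd.mul_left h₁ _) (Dvd.dvd.mul_left (h₂ b' hb') _)

/-- The evaluation `ev : B_𝔪 → Λ` extending an integral point `φ : B → Λ` with centre `𝔪`, and
the two standing hypotheses of the local lemmas of `NodeAlg`. -/
theorem ngs_exists_ev {Λ B : Type*} [CommRing Λ] [IsDomain Λ] [IsDiscreteValuationRing Λ]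
    [CommRing B] [Algebra Λ B] (π : Λ) (hπ : Irreducible π) (φ : B →ₐ[Λ] Λ) (𝔪 : Ideal B)
    [𝔪.IsPrime] (h𝔪 : ∀ z, z ∈ 𝔪 ↔ π ∣ φ z) :
    ∃ ev : Localization.AtPrime 𝔪 →ₐ[Λ] Λ,
      (∀ b : B, ev (algebraMap B (Localization.AtPrime 𝔪) b) = φ b) ∧
      algebraMap Λ (Localization.AtPrime 𝔪) π ∈ maximalIdeal (Localization.AtPrime 𝔪) ∧
      ∀ r : Localization.AtPrime 𝔪, ∃ c : Λ,
        r - algebraMap Λ (Localization.AtPrime 𝔪) c ∈ maximalIdeal (Localization.AtPrime 𝔪) := by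
  have hunit : ∀ y : 𝔪.primeCompl, IsUnit (φ y) := fun y =>
    ngs_isUnit_of_not_dvd hπ (fun hd => y.2 ((h𝔪 _).mpr hd))
  refine ⟨IsLocalization.liftAlgHom (M := 𝔪.primeCompl) (f := φ) hunit,
    fun b => IsLocalization.lift_eq _ b, ?_, ?_⟩
  · rw [IsScalarTower.algebraMap_apply Λ B (Localization.AtPrime 𝔪),
      IsLocalization.AtPrime.to_map_mem_maximal_iff _ 𝔪, h𝔪, AlgHom.commutes]
    exact dvd_rfl
  · intro r
    refine ⟨IsLocalization.liftAlgHom (M := 𝔪.primeCompl) (f := φ) hunit r, ?_⟩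
    apply IsLocalRing.le_maximalIdeal (J := RingHom.ker
      ((IsLocalization.liftAlgHom (M := 𝔪.primeCompl) (f := φ) hunit :
        Localization.AtPrime 𝔪 →ₐ[Λ] Λ) : Localization.AtPrime 𝔪 →+* Λ))
      (RingHom.ker_ne_top _)
    rw [RingHom.mem_ker, map_sub, RingHom.coe_coe, AlgHom.commutes]
    exact sub_self _

/-- **File S34/NodeGlobalSmooth.lean.**  (LP') at a closed point on ONE component: `t` is a
uniformiser of the special fibre at the centre `𝔪 = φ⁻¹(π)` of `φ`. -/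
theorem node_lp_global_smooth {Λ B : Type*} [CommRing Λ] [IsDomain Λ]
    [IsDiscreteValuationRing Λ] [CommRing B] [IsNoetherianRing B] [Algebra Λ B]
    (π : Λ) (hπ : Irreducible π) (φ : B →ₐ[Λ] Λ) (t : B)
    (ht : ModelLocGen (Ideal.span {algebraMap Λ B π})
      (Ideal.comap (φ : B →+* Λ) (Ideal.span {π})) t) :
    ∃ h : B, φ h = 0 ∧ ∃ s : B, ¬ π ∣ φ s ∧ ∀ b : B, φ b = 0 → h ∣ s * b := by
  have hπp : Prime π := hπ.prime
  have h𝔪 : (Ideal.comap (φ : B →+* Λ) (Ideal.span {π})).IsPrime := by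
    have : (Ideal.span {π} : Ideal Λ).IsPrime := (Ideal.span_singleton_prime hπ.ne_zero).mpr hπp
    exact Ideal.comap_isPrime _ _
  have hmem : ∀ z : B, z ∈ Ideal.comap (φ : B →+* Λ) (Ideal.span {π}) ↔ π ∣ φ z := fun z => by
    rw [Ideal.mem_comap, Ideal.mem_span_singleton]
    rfl
  generalize Ideal.comap (φ : B →+* Λ) (Ideal.span {π}) = 𝔪 at ht h𝔪 hmem
  obtain ⟨ev, hev, hπm, hres⟩ := ngs_exists_ev π hπ φ 𝔪 hmem
  have hm : maximalIdeal (Localization.AtPrime 𝔪) ≤
      Ideal.span {algebraMap Λ (Localization.AtPrime 𝔪) π,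
        algebraMap B (Localization.AtPrime 𝔪) t} := by
    rw [← IsLocalization.AtPrime.map_eq_maximalIdeal 𝔪 (Localization.AtPrime 𝔪),
      Ideal.map_le_iff_le_comap]
    intro z hz
    obtain ⟨a, ha, haz⟩ := ht.2 z hz
    rw [Ideal.mem_comap]
    have h1 := Ideal.mem_map_of_mem (algebraMap B (Localization.AtPrime 𝔪)) haz
    rw [Ideal.map_sup, Ideal.map_span, Ideal.map_span, Set.image_singleton, Set.image_singleton,
      ← Ideal.span_union, Set.singleton_union, ← IsScalarTower.algebraMap_apply, map_mul] at h1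
    have hu : IsUnit (algebraMap B (Localization.AtPrime 𝔪) a) :=
      (IsLocalization.AtPrime.isUnit_to_map_iff _ 𝔪 a).mpr ha
    exact (Ideal.unit_mul_mem_iff_mem _ hu).mp h1
  have hker := node_ker_eval_single ev π hπm (algebraMap B (Localization.AtPrime 𝔪) t) hm hres
    (by rw [hev]; exact (hmem t).mp ht.1)
  rw [hev] at hker
  refine ⟨t - algebraMap Λ B (φ t), by rw [map_sub, AlgHom.commutes]; exact sub_self _, ?_⟩
  have hloc : ∀ b : B, φ b = 0 → ∃ s : B, s ∉ 𝔪 ∧ (t - algebraMap Λ B (φ t)) ∣ s * b := by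
    intro b hb
    have hbk : algebraMap B (Localization.AtPrime 𝔪) b ∈
        RingHom.ker (ev : Localization.AtPrime 𝔪 →+* Λ) := by
      rw [RingHom.mem_ker]
      exact (hev b).trans hb
    rw [hker, Ideal.mem_span_singleton'] at hbk
    obtain ⟨y, hy⟩ := hbk
    obtain ⟨⟨r, s⟩, rfl⟩ := IsLocalization.mk'_surjective 𝔪.primeCompl y
    have h1 : algebraMap B (Localization.AtPrime 𝔪) (s * b) =
        algebraMap B (Localization.AtPrime 𝔪) (r * (t - algebraMap Λ B (φ t))) := by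
      rw [map_mul, map_mul, ← hy, map_sub, ← IsScalarTower.algebraMap_apply,
        ← IsLocalization.mk'_spec (Localization.AtPrime 𝔪) r s]
      ring
    obtain ⟨c, hc⟩ := (IsLocalization.eq_iff_exists 𝔪.primeCompl (Localization.AtPrime 𝔪)).mp h1
    refine ⟨c * s, (c * s).2, ?_⟩
    rw [mul_assoc, hc, ← mul_assoc]
    exact Dvd.intro_left _ rfl
  obtain ⟨S, hS⟩ := (isNoetherianRing_iff_ideal_fg B).mp inferInstance
    (RingHom.ker (φ : B →+* Λ))
  obtain ⟨s, hs, hsb⟩ := ngs_uniform 𝔪 (t - algebraMap Λ B (φ t)) S (fun a ha => hloc a (by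
    have h2 : a ∈ RingHom.ker (φ : B →+* Λ) := hS ▸ Ideal.subset_span ha
    exact h2))
  refine ⟨s, fun hd => hs ((hmem s).mpr hd), fun b hb => hsb b ?_⟩
  rw [hS]
  exact hb

end Fermat.Agent.S34
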