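import Mathlib
import Fermat.Agent.S34.AbsLP
import Fermat.Agent.S34.ModelDefs
import Fermat.Agent.S34.NodeGlobalDefs
import Fermat.Agent.S34.NodeGlobalSmooth
import Fermat.Agent.S34.NodeGlobalCrossB
import Fermat.Agent.S34.DictFixed
import Fermat.Agent.S34.DictBad

/-!
# P19 (S34), block GAL, G3: the per-place alternative (iv) of `abs_lp_of_points`

`s34dict_pt` : at a closed point `𝔪` of the model `B` which is either a one-component point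
(`ModelLocGen (π) 𝔪 t`) or a crossing point (`𝔪` locally generated by `π, x, y` with
`x * y ∈ (π)`), every `Λ`-point `φ` centred at `𝔪` with prime `𝔔` satisfies the alternative
consumed by `abs_lp_of_points`: the conclusion of `node_lp_global_smooth`, or that of
`node_lp_global_cross_B`, or `𝔔` is fixed by `τ` and `τ'` (the bad point).
-/

set_option autoImplicit false

namespace Fermat.Agent.S34

open IsDedekindDomain

/-- The closed-point structure at `𝔪` delivered by MODEL-N: a one-component point or a crossing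
point. -/
def DictClosedPoint {Λ B : Type*} [CommRing Λ] [CommRing B] [Algebra Λ B] (π : Λ)
    (𝔪 : Ideal B) : Prop :=
  (∃ t : B, ModelLocGen (Ideal.span {algebraMap Λ B π}) 𝔪 t) ∨
  (∃ x y G : B, x * y = algebraMap Λ B π * G ∧ x ∈ 𝔪 ∧ y ∈ 𝔪 ∧
    ∀ z ∈ 𝔪, ∃ a : B, a ∉ 𝔪 ∧ a * z ∈ Ideal.span {algebraMap Λ B π, x, y})

/-- **(iv) PT, abstract form.** -/
theorem s34dict_pt {Λ B Bη F : Type*} [CommRing Λ] [IsDomain Λ] [IsDiscreteValuationRing Λ]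
    [CommRing B] [IsDomain B] [IsNoetherianRing B] [Algebra Λ B]
    [CommRing Bη] [IsDedekindDomain Bη] [Field F] [Algebra Bη F] [IsFractionRing Bη F]
    [Algebra B F] [Algebra Λ F] [IsScalarTower Λ B F]
    (hBF : Function.Injective (algebraMap B F))
    (ι : B →+* Bη) (hι : ∀ b : B, algebraMap Bη F (ι b) = algebraMap B F b)
    (π : Λ) (hπ : Irreducible π)
    (hπu : IsUnit (ι (algebraMap Λ B π)))
    (hloc : ∀ y : Bη, ∃ (n : ℕ) (b : B), ι (algebraMap Λ B π) ^ n * y = ι b)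
    (τ τ' : F ≃+* F)
    (hτη : ∀ y : Bη, ∃ y' : Bη, algebraMap Bη F y' = τ (algebraMap Bη F y))
    (hτηs : ∀ y : Bη, ∃ y' : Bη, algebraMap Bη F y' = τ.symm (algebraMap Bη F y))
    (hτ'η : ∀ y : Bη, ∃ y' : Bη, algebraMap Bη F y' = τ' (algebraMap Bη F y))
    (hτ'ηs : ∀ y : Bη, ∃ y' : Bη, algebraMap Bη F y' = τ'.symm (algebraMap Bη F y))
    (hτB : ∀ b : B, ∃ b' : B, algebraMap B F b' = τ (algebraMap B F b))
    (hτBs : ∀ b : B, ∃ b' : B, algebraMap B F b' = τ.symm (algebraMap B F b))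
    (hτ'B : ∀ b : B, ∃ b' : B, algebraMap B F b' = τ' (algebraMap B F b))
    (hτ'Bs : ∀ b : B, ∃ b' : B, algebraMap B F b' = τ'.symm (algebraMap B F b))
    (hτΛ : ∀ l : Λ, ∃ l' : Λ, algebraMap Λ F l' = τ (algebraMap Λ F l))
    (hτΛs : ∀ l : Λ, ∃ l' : Λ, algebraMap Λ F l' = τ.symm (algebraMap Λ F l))
    (hτ'Λ : ∀ l : Λ, ∃ l' : Λ, algebraMap Λ F l' = τ' (algebraMap Λ F l))
    (hτ'Λs : ∀ l : Λ, ∃ l' : Λ, algebraMap Λ F l' = τ'.symm (algebraMap Λ F l))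
    (htriv : ∀ b : B, ∃ c : B,
      τ (algebraMap B F b) = algebraMap B F (b + algebraMap Λ B π * c))
    (htriv' : ∀ b : B, ∃ c : B,
      τ' (algebraMap B F b) = algebraMap B F (b + algebraMap Λ B π * c))
    (𝔪 : Ideal B) (hcp : DictClosedPoint π 𝔪)
    (φ : B →ₐ[Λ] Λ) (h𝔪 : 𝔪 = Ideal.comap (φ : B →+* Λ) (Ideal.span {π}))
    (𝔔 : HeightOneSpectrum Bη) (h𝔔 : ∀ b : B, ι b ∈ 𝔔.asIdeal ↔ φ b = 0) :
    (∃ φ : B →ₐ[Λ] Λ, 𝔪 = Ideal.comap (φ : B →+* Λ) (Ideal.span {π}) ∧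
        (∀ b : B, ι b ∈ 𝔔.asIdeal ↔ φ b = 0) ∧
        ∃ h : B, φ h = 0 ∧ ∃ s : B, ¬ π ∣ φ s ∧ ∀ b : B, φ b = 0 → h ∣ s * b) ∨
      (∃ φ : B →ₐ[Λ] Λ, 𝔪 = Ideal.comap (φ : B →+* Λ) (Ideal.span {π}) ∧
        (∀ b : B, ι b ∈ 𝔔.asIdeal ↔ φ b = 0) ∧
        ∃ h : B, φ h = 0 ∧ ∃ (k : ℕ) (s : B), ¬ π ∣ φ s ∧
          ∀ b : B, φ b = 0 → h ∣ algebraMap Λ B (π ^ k) * (s * b)) ∨
      ((∀ g : F, 𝔔.valuation F (τ g) = 𝔔.valuation F g) ∧
        (∀ g : F, 𝔔.valuation F (τ' g) = 𝔔.valuation F g)) := by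
  have hmem : ∀ z : B, z ∈ 𝔪 ↔ π ∣ φ z := fun z => by
    rw [h𝔪, Ideal.mem_comap, Ideal.mem_span_singleton]
    rfl
  rcases hcp with ⟨t, ht⟩ | ⟨x, y, G, hxy, hx, hy, hgen⟩
  · left
    refine ⟨φ, h𝔪, h𝔔, ?_⟩
    exact node_lp_global_smooth π hπ φ t (h𝔪 ▸ ht)
  · have hgen' : ∀ z : B, π ∣ φ z → ∃ a : B, ¬ π ∣ φ a ∧
        a * z ∈ Ideal.span {algebraMap Λ B π, x, y} := fun z hz => by
      obtain ⟨a, ha, haz⟩ := hgen z ((hmem z).mpr hz)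
      exact ⟨a, fun h => ha ((hmem a).mpr h), haz⟩
    by_cases hbad : NodeBadG π π x y (RingHom.id B) φ
    · right; right
      constructor
      · exact s34dict_val_of_ker_stable ι hι π hπu hloc τ hτη hτηs hτB hτBs φ 𝔔 h𝔔
          (s34dict_bad_ker_stable hBF π hπ x y G hxy τ hτB hτBs hτΛ hτΛs htriv φ hgen' hbad)
      · exact s34dict_val_of_ker_stable ι hι π hπu hloc τ' hτ'η hτ'ηs hτ'B hτ'Bs φ 𝔔 h𝔔
          (s34dict_bad_ker_stable hBF π hπ x y G hxy τ' hτ'B hτ'Bs hτ'Λ hτ'Λs htriv' φ hgen'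
            hbad)
    · right; left
      refine ⟨φ, h𝔪, h𝔔, ?_⟩
      exact node_lp_global_cross_B (Λb := Λ) (Bb := B) π π hπ (dvd_refl π) x y (RingHom.id B)
        (fun c => rfl) φ ((hmem x).mp hx) ((hmem y).mp hy) hgen' hbad

end Fermat.Agent.S34
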