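import Mathlib
import Fermat.Agent.S34.DictPT
import Fermat.Agent.S34.AbsLPInst
import Fermat.Agent.S34.DictPoint

/-!
# P19 (S34), block GAL, G3: the per-place alternative (iv) for a chart, abstract fields

`Λ` a discrete valuation ring with fraction field `K`, `F` a field over `K`, `t : F` a chart
coordinate, `B = integralClosure Λ[t] F`, `Bη = integralClosure K[t] F`, `ι = absIncl Λ K t`:

* `DictTau Λ K π t τ` : the `τ`-data of the chart (`τ` and `τ⁻¹` preserve integrality over `K[t]`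
  and over `Λ[t]`, map the constants `Λ` to `Λ`, and `τ b − b ∈ π B` for `b ∈ B`);
* `s34dict_hpt_of_point` : the alternative (iv) of `abs_main` from a `Λ`-point;
* `s34dict_hpt_chart` : the same from "the residue field of `𝔔` is `K`".
-/

set_option autoImplicit false

namespace Fermat.Agent.S34

open IsDedekindDomain

/-- The `τ`-data of the chart `t`: `τ` and `τ⁻¹` preserve integrality over `K[t]` and over
`Λ[t]`, map the constants `Λ` into `Λ`, and `τ` is trivial modulo `π` on the integral closure of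
`Λ[t]`. -/
def DictTau (Λ K : Type*) {F : Type*} [CommRing Λ] [Field K] [Field F] [Algebra K F]
    [Algebra Λ F] (π : Λ) (t : F) (τ : F ≃+* F) : Prop :=
  (∀ b : F, IsIntegral (Algebra.adjoin K {t}) b → IsIntegral (Algebra.adjoin K {t}) (τ b)) ∧
  (∀ b : F, IsIntegral (Algebra.adjoin K {t}) b → IsIntegral (Algebra.adjoin K {t}) (τ.symm b)) ∧
  (∀ b : F, IsIntegral (Algebra.adjoin Λ {t}) b → IsIntegral (Algebra.adjoin Λ {t}) (τ b)) ∧
  (∀ b : F, IsIntegral (Algebra.adjoin Λ {t}) b → IsIntegral (Algebra.adjoin Λ {t}) (τ.symm b)) ∧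
  (∀ l : Λ, ∃ l' : Λ, algebraMap Λ F l' = τ (algebraMap Λ F l)) ∧
  (∀ l : Λ, ∃ l' : Λ, algebraMap Λ F l' = τ.symm (algebraMap Λ F l)) ∧
  (∀ b : F, IsIntegral (Algebra.adjoin Λ {t}) b →
    ∃ c : F, IsIntegral (Algebra.adjoin Λ {t}) c ∧ τ b = b + algebraMap Λ F π * c)

theorem DictTau.intro {Λ K : Type*} {F : Type*} [CommRing Λ] [Field K] [Field F] [Algebra K F]
    [Algebra Λ F] {π : Λ} {t : F} {τ : F ≃+* F}
    (h1 : ∀ b : F, IsIntegral (Algebra.adjoin K {t}) b → IsIntegral (Algebra.adjoin K {t}) (τ b))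
    (h2 : ∀ b : F, IsIntegral (Algebra.adjoin K {t}) b →
      IsIntegral (Algebra.adjoin K {t}) (τ.symm b))
    (h3 : ∀ b : F, IsIntegral (Algebra.adjoin Λ {t}) b → IsIntegral (Algebra.adjoin Λ {t}) (τ b))
    (h4 : ∀ b : F, IsIntegral (Algebra.adjoin Λ {t}) b →
      IsIntegral (Algebra.adjoin Λ {t}) (τ.symm b))
    (h5 : ∀ l : Λ, ∃ l' : Λ, algebraMap Λ F l' = τ (algebraMap Λ F l))
    (h6 : ∀ l : Λ, ∃ l' : Λ, algebraMap Λ F l' = τ.symm (algebraMap Λ F l))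
    (h7 : ∀ b : F, IsIntegral (Algebra.adjoin Λ {t}) b →
      ∃ c : F, IsIntegral (Algebra.adjoin Λ {t}) c ∧ τ b = b + algebraMap Λ F π * c) :
    DictTau Λ K π t τ :=
  ⟨h1, h2, h3, h4, h5, h6, h7⟩

section Abstract

variable {Λ K F : Type*} [CommRing Λ] [IsDomain Λ] [IsDiscreteValuationRing Λ] [Field K]
  [Algebra Λ K] [IsFractionRing Λ K] [Field F] [Algebra K F] [Algebra Λ F] [IsScalarTower Λ K F]

/-- **(iv) PT for the chart `t`, given the `Λ`-point**: abstract fields. -/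
theorem s34dict_hpt_of_point (π : Λ) (hπ : Irreducible π) (t : F)
    [IsDedekindDomain ↥(integralClosure (Algebra.adjoin K {t}) F)]
    [IsFractionRing ↥(integralClosure (Algebra.adjoin K {t}) F) F]
    [IsNoetherianRing ↥(integralClosure (Algebra.adjoin Λ {t}) F)]
    (τ τ' : F ≃+* F) (hτ : DictTau Λ K π t τ) (hτ' : DictTau Λ K π t τ')
    (𝔪 : Ideal ↥(integralClosure (Algebra.adjoin Λ {t}) F)) (hcp : DictClosedPoint π 𝔪)
    (φ : ↥(integralClosure (Algebra.adjoin Λ {t}) F) →ₐ[Λ] Λ)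
    (h𝔪 : 𝔪 = Ideal.comap (φ : ↥(integralClosure (Algebra.adjoin Λ {t}) F) →+* Λ)
      (Ideal.span {π}))
    (𝔔 : HeightOneSpectrum ↥(integralClosure (Algebra.adjoin K {t}) F))
    (h𝔔 : ∀ b : ↥(integralClosure (Algebra.adjoin Λ {t}) F),
      absIncl Λ K t b ∈ 𝔔.asIdeal ↔ φ b = 0) :
    (∃ φ : ↥(integralClosure (Algebra.adjoin Λ {t}) F) →ₐ[Λ] Λ,
        𝔪 = Ideal.comap (φ : ↥(integralClosure (Algebra.adjoin Λ {t}) F) →+* Λ)
          (Ideal.span {π}) ∧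
        (∀ b : ↥(integralClosure (Algebra.adjoin Λ {t}) F),
          absIncl Λ K t b ∈ 𝔔.asIdeal ↔ φ b = 0) ∧
        ∃ h : ↥(integralClosure (Algebra.adjoin Λ {t}) F), φ h = 0 ∧
          ∃ s : ↥(integralClosure (Algebra.adjoin Λ {t}) F), ¬ π ∣ φ s ∧
            ∀ b : ↥(integralClosure (Algebra.adjoin Λ {t}) F), φ b = 0 → h ∣ s * b) ∨
      (∃ φ : ↥(integralClosure (Algebra.adjoin Λ {t}) F) →ₐ[Λ] Λ,
        𝔪 = Ideal.comap (φ : ↥(integralClosure (Algebra.adjoin Λ {t}) F) →+* Λ)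
          (Ideal.span {π}) ∧
        (∀ b : ↥(integralClosure (Algebra.adjoin Λ {t}) F),
          absIncl Λ K t b ∈ 𝔔.asIdeal ↔ φ b = 0) ∧
        ∃ h : ↥(integralClosure (Algebra.adjoin Λ {t}) F), φ h = 0 ∧
          ∃ (k : ℕ) (s : ↥(integralClosure (Algebra.adjoin Λ {t}) F)), ¬ π ∣ φ s ∧
            ∀ b : ↥(integralClosure (Algebra.adjoin Λ {t}) F), φ b = 0 →
              h ∣ algebraMap Λ ↥(integralClosure (Algebra.adjoin Λ {t}) F) (π ^ k) * (s * b)) ∨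
      ((∀ g : F, 𝔔.valuation F (τ g) = 𝔔.valuation F g) ∧
        (∀ g : F, 𝔔.valuation F (τ' g) = 𝔔.valuation F g)) := by
  obtain ⟨h1, h2, h3, h4, h5, h6, h7⟩ := hτ
  obtain ⟨h1', h2', h3', h4', h5', h6', h7'⟩ := hτ'
  have hBF : Function.Injective
      (algebraMap ↥(integralClosure (Algebra.adjoin Λ {t}) F) F) := Subtype.val_injective
  have htr : ∀ (σ : F ≃+* F),
      (∀ b : F, IsIntegral (Algebra.adjoin Λ {t}) b →
        ∃ c : F, IsIntegral (Algebra.adjoin Λ {t}) c ∧ σ b = b + algebraMap Λ F π * c) →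
      ∀ b : ↥(integralClosure (Algebra.adjoin Λ {t}) F),
        ∃ c : ↥(integralClosure (Algebra.adjoin Λ {t}) F),
          σ (algebraMap ↥(integralClosure (Algebra.adjoin Λ {t}) F) F b) =
            algebraMap ↥(integralClosure (Algebra.adjoin Λ {t}) F) F
              (b + algebraMap Λ ↥(integralClosure (Algebra.adjoin Λ {t}) F) π * c) := by
    intro σ h b
    obtain ⟨c, hc, hcb⟩ := h (b : F) b.2
    refine ⟨⟨c, hc⟩, ?_⟩
    rw [map_add, map_mul, ← IsScalarTower.algebraMap_apply Λ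
      ↥(integralClosure (Algebra.adjoin Λ {t}) F) F]
    exact hcb
  exact s34dict_pt hBF (absIncl Λ K t) (algebraMap_absIncl Λ K t) π hπ
    (abs_isUnit_incl Λ K t π hπ.ne_zero) (abs_incl_loc Λ K t π hπ) τ τ'
    (fun y => ⟨⟨τ (y : F), h1 _ y.2⟩, rfl⟩) (fun y => ⟨⟨τ.symm (y : F), h2 _ y.2⟩, rfl⟩)
    (fun y => ⟨⟨τ' (y : F), h1' _ y.2⟩, rfl⟩) (fun y => ⟨⟨τ'.symm (y : F), h2' _ y.2⟩, rfl⟩)
    (fun b => ⟨⟨τ (b : F), h3 _ b.2⟩, rfl⟩) (fun b => ⟨⟨τ.symm (b : F), h4 _ b.2⟩, rfl⟩)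
    (fun b => ⟨⟨τ' (b : F), h3' _ b.2⟩, rfl⟩) (fun b => ⟨⟨τ'.symm (b : F), h4' _ b.2⟩, rfl⟩)
    h5 h6 h5' h6' (htr τ h7) (htr τ' h7') 𝔪 hcp φ h𝔪 𝔔 h𝔔

/-- **(iv) PT for the chart `t`**, from "the residue field of `𝔔` is `K`". -/
theorem s34dict_hpt_chart (π : Λ) (hπ : Irreducible π) (t : F)
    [IsDedekindDomain ↥(integralClosure (Algebra.adjoin K {t}) F)]
    [IsFractionRing ↥(integralClosure (Algebra.adjoin K {t}) F) F]
    [IsNoetherianRing ↥(integralClosure (Algebra.adjoin Λ {t}) F)]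
    (τ τ' : F ≃+* F) (hτ : DictTau Λ K π t τ) (hτ' : DictTau Λ K π t τ')
    (𝔪 : Ideal ↥(integralClosure (Algebra.adjoin Λ {t}) F)) (h𝔪 : 𝔪.IsMaximal)
    (hπ𝔪 : algebraMap Λ ↥(integralClosure (Algebra.adjoin Λ {t}) F) π ∈ 𝔪)
    (hcp : DictClosedPoint π 𝔪)
    (𝔔 : HeightOneSpectrum ↥(integralClosure (Algebra.adjoin K {t}) F))
    (h𝔔 : 𝔔 ∈ absThrough (absIncl Λ K t) 𝔪)
    (hres : ∀ y : ↥(integralClosure (Algebra.adjoin K {t}) F),
      ∃ c : K, y - algebraMap K ↥(integralClosure (Algebra.adjoin K {t}) F) c ∈ 𝔔.asIdeal) :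
    (∃ φ : ↥(integralClosure (Algebra.adjoin Λ {t}) F) →ₐ[Λ] Λ,
        𝔪 = Ideal.comap (φ : ↥(integralClosure (Algebra.adjoin Λ {t}) F) →+* Λ)
          (Ideal.span {π}) ∧
        (∀ b : ↥(integralClosure (Algebra.adjoin Λ {t}) F),
          absIncl Λ K t b ∈ 𝔔.asIdeal ↔ φ b = 0) ∧
        ∃ h : ↥(integralClosure (Algebra.adjoin Λ {t}) F), φ h = 0 ∧
          ∃ s : ↥(integralClosure (Algebra.adjoin Λ {t}) F), ¬ π ∣ φ s ∧
            ∀ b : ↥(integralClosure (Algebra.adjoin Λ {t}) F), φ b = 0 → h ∣ s * b) ∨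
      (∃ φ : ↥(integralClosure (Algebra.adjoin Λ {t}) F) →ₐ[Λ] Λ,
        𝔪 = Ideal.comap (φ : ↥(integralClosure (Algebra.adjoin Λ {t}) F) →+* Λ)
          (Ideal.span {π}) ∧
        (∀ b : ↥(integralClosure (Algebra.adjoin Λ {t}) F),
          absIncl Λ K t b ∈ 𝔔.asIdeal ↔ φ b = 0) ∧
        ∃ h : ↥(integralClosure (Algebra.adjoin Λ {t}) F), φ h = 0 ∧
          ∃ (k : ℕ) (s : ↥(integralClosure (Algebra.adjoin Λ {t}) F)), ¬ π ∣ φ s ∧
            ∀ b : ↥(integralClosure (Algebra.adjoin Λ {t}) F), φ b = 0 →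
              h ∣ algebraMap Λ ↥(integralClosure (Algebra.adjoin Λ {t}) F) (π ^ k) * (s * b)) ∨
      ((∀ g : F, 𝔔.valuation F (τ g) = 𝔔.valuation F g) ∧
        (∀ g : F, 𝔔.valuation F (τ' g) = 𝔔.valuation F g)) := by
  obtain ⟨φ, h𝔪φ, hφ⟩ := s34dict_point_of_residue (absIncl Λ K t) (absIncl_algebraMap Λ K t) π hπ
    𝔪 h𝔪 hπ𝔪 𝔔 h𝔔 hres
  exact s34dict_hpt_of_point π hπ t τ τ' hτ hτ' 𝔪 hcp φ h𝔪φ 𝔔 hφ

omit [IsDomain Λ] [IsDiscreteValuationRing Λ] in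
/-- `DictClosedPoint` at the centre of a `Λ`-point `ψ`, from the closed-point structure in the
shape exported by INST (memberships written as divisibilities `π ∣ ψ z`). -/
theorem dictClosedPoint_of_point {B : Type*} [CommRing B] [Algebra Λ B] (π : Λ)
    (ψ : B →ₐ[Λ] Λ)
    (h : (∃ t : B, ModelLocGen (Ideal.span {algebraMap Λ B π})
        (Ideal.comap (ψ : B →+* Λ) (Ideal.span {π})) t) ∨
      (∃ x y G : B, x * y = algebraMap Λ B π * G ∧ π ∣ ψ x ∧ π ∣ ψ y ∧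
        ∀ z : B, π ∣ ψ z → ∃ a : B, ¬ π ∣ ψ a ∧
          a * z ∈ Ideal.span {algebraMap Λ B π, x, y})) :
    DictClosedPoint π (Ideal.comap (ψ : B →+* Λ) (Ideal.span {π})) := by
  have hmem : ∀ z : B, z ∈ Ideal.comap (ψ : B →+* Λ) (Ideal.span {π}) ↔ π ∣ ψ z := fun z => by
    rw [Ideal.mem_comap, Ideal.mem_span_singleton]
    rfl
  rcases h with h | ⟨x, y, G, hxy, hx, hy, hgen⟩
  · exact Or.inl h
  · refine Or.inr ⟨x, y, G, hxy, (hmem x).mpr hx, (hmem y).mpr hy, fun z hz => ?_⟩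
    obtain ⟨a, ha, haz⟩ := hgen z ((hmem z).mp hz)
    exact ⟨a, fun h => ha ((hmem a).mp h), haz⟩

/-- **(iv) PT for the chart `t`**, from "the residue field of `𝔔` is `K`" and the closed-point
structure at the `Λ`-points centred at `𝔪` in the shape exported by INST. -/
theorem s34dict_hpt_chart_inst (π : Λ) (hπ : Irreducible π) (t : F)
    [IsDedekindDomain ↥(integralClosure (Algebra.adjoin K {t}) F)]
    [IsFractionRing ↥(integralClosure (Algebra.adjoin K {t}) F) F]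
    [IsNoetherianRing ↥(integralClosure (Algebra.adjoin Λ {t}) F)]
    (τ τ' : F ≃+* F) (hτ : DictTau Λ K π t τ) (hτ' : DictTau Λ K π t τ')
    (𝔪 : Ideal ↥(integralClosure (Algebra.adjoin Λ {t}) F)) (h𝔪 : 𝔪.IsMaximal)
    (hπ𝔪 : algebraMap Λ ↥(integralClosure (Algebra.adjoin Λ {t}) F) π ∈ 𝔪)
    (hinst : ∀ ψ : ↥(integralClosure (Algebra.adjoin Λ {t}) F) →ₐ[Λ] Λ,
      𝔪 = Ideal.comap (ψ : ↥(integralClosure (Algebra.adjoin Λ {t}) F) →+* Λ)
        (Ideal.span {π}) →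
      (∃ u : ↥(integralClosure (Algebra.adjoin Λ {t}) F),
        ModelLocGen (Ideal.span {algebraMap Λ ↥(integralClosure (Algebra.adjoin Λ {t}) F) π})
          (Ideal.comap (ψ : ↥(integralClosure (Algebra.adjoin Λ {t}) F) →+* Λ)
            (Ideal.span {π})) u) ∨
      (∃ x y G : ↥(integralClosure (Algebra.adjoin Λ {t}) F),
        x * y = algebraMap Λ ↥(integralClosure (Algebra.adjoin Λ {t}) F) π * G ∧
        π ∣ ψ x ∧ π ∣ ψ y ∧
        ∀ z : ↥(integralClosure (Algebra.adjoin Λ {t}) F), π ∣ ψ z →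
          ∃ a : ↥(integralClosure (Algebra.adjoin Λ {t}) F), ¬ π ∣ ψ a ∧
            a * z ∈ Ideal.span
              {algebraMap Λ ↥(integralClosure (Algebra.adjoin Λ {t}) F) π, x, y}))
    (𝔔 : HeightOneSpectrum ↥(integralClosure (Algebra.adjoin K {t}) F))
    (h𝔔 : 𝔔 ∈ absThrough (absIncl Λ K t) 𝔪)
    (hres : ∀ y : ↥(integralClosure (Algebra.adjoin K {t}) F),
      ∃ c : K, y - algebraMap K ↥(integralClosure (Algebra.adjoin K {t}) F) c ∈ 𝔔.asIdeal) :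
    (∃ φ : ↥(integralClosure (Algebra.adjoin Λ {t}) F) →ₐ[Λ] Λ,
        𝔪 = Ideal.comap (φ : ↥(integralClosure (Algebra.adjoin Λ {t}) F) →+* Λ)
          (Ideal.span {π}) ∧
        (∀ b : ↥(integralClosure (Algebra.adjoin Λ {t}) F),
          absIncl Λ K t b ∈ 𝔔.asIdeal ↔ φ b = 0) ∧
        ∃ h : ↥(integralClosure (Algebra.adjoin Λ {t}) F), φ h = 0 ∧
          ∃ s : ↥(integralClosure (Algebra.adjoin Λ {t}) F), ¬ π ∣ φ s ∧
            ∀ b : ↥(integralClosure (Algebra.adjoin Λ {t}) F), φ b = 0 → h ∣ s * b) ∨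
      (∃ φ : ↥(integralClosure (Algebra.adjoin Λ {t}) F) →ₐ[Λ] Λ,
        𝔪 = Ideal.comap (φ : ↥(integralClosure (Algebra.adjoin Λ {t}) F) →+* Λ)
          (Ideal.span {π}) ∧
        (∀ b : ↥(integralClosure (Algebra.adjoin Λ {t}) F),
          absIncl Λ K t b ∈ 𝔔.asIdeal ↔ φ b = 0) ∧
        ∃ h : ↥(integralClosure (Algebra.adjoin Λ {t}) F), φ h = 0 ∧
          ∃ (k : ℕ) (s : ↥(integralClosure (Algebra.adjoin Λ {t}) F)), ¬ π ∣ φ s ∧
            ∀ b : ↥(integralClosure (Algebra.adjoin Λ {t}) F), φ b = 0 →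
              h ∣ algebraMap Λ ↥(integralClosure (Algebra.adjoin Λ {t}) F) (π ^ k) * (s * b)) ∨
      ((∀ g : F, 𝔔.valuation F (τ g) = 𝔔.valuation F g) ∧
        (∀ g : F, 𝔔.valuation F (τ' g) = 𝔔.valuation F g)) := by
  obtain ⟨φ, h𝔪φ, hφ⟩ := s34dict_point_of_residue (absIncl Λ K t) (absIncl_algebraMap Λ K t) π hπ
    𝔪 h𝔪 hπ𝔪 𝔔 h𝔔 hres
  have hcp : DictClosedPoint π 𝔪 := by
    have h := dictClosedPoint_of_point π φ (hinst φ h𝔪φ)
    rw [← h𝔪φ] at h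
    exact h
  exact s34dict_hpt_of_point π hπ t τ τ' hτ hτ' 𝔪 hcp φ h𝔪φ 𝔔 hφ

end Abstract

end Fermat.Agent.S34
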