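import Mathlib
import Fermat.Agent.S34.AbsMain
import Fermat.Agent.S34.AbsTau
import Fermat.Agent.S34.DictPT
import Fermat.Agent.S34.DictChart

/-!
# P19 (S34): the PT glue over the concrete chart rings

For `t ∈ {j, j⁻¹}`, `B = ` integral closure of `Λ[t]` in `F`, `Bη = ` integral closure of `K[t]`,
`ι = absIncl Λ K t`:

* `abs_dictClosedPoint_of_inst`, `abs_dictClosedPoint_of_gen` : the two output shapes of INST
  (chart package / `kron_inst_gen`) give `DictClosedPoint π (φ⁻¹(π))`;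
* `abs_hpt_of_inst` : if every horizontal prime through `𝔪` in the support of `u` is the prime of
  a `Λ`-point centred at `𝔪` (P), and every `Λ`-point centred at `𝔪` sees a closed point of the
  special fibre of the shape `DictClosedPoint` (I), then the three-way alternative `hpt` of
  `abs_locf_chart` / `abs_main` holds at `𝔪` — with the `τ`-data in the chart-free form of
  `abs_main`.
-/

set_option autoImplicit false

namespace Fermat.Agent.S34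

open IsDedekindDomain

section Convert

variable {Λ B : Type*} [CommRing Λ] [CommRing B] [Algebra Λ B]

/-- INST output, chart-package shape (`π ∣ φ x` form) ⟹ `DictClosedPoint`. -/
theorem abs_dictClosedPoint_of_inst (π : Λ) (φ : B →ₐ[Λ] Λ)
    (h : (∃ t : B, ModelLocGen (Ideal.span {algebraMap Λ B π})
        (Ideal.comap (φ : B →+* Λ) (Ideal.span {π})) t) ∨
      (∃ x y G : B, x * y = algebraMap Λ B π * G ∧ π ∣ φ x ∧ π ∣ φ y ∧
        ∀ z : B, π ∣ φ z → ∃ a : B, ¬ π ∣ φ a ∧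
          a * z ∈ Ideal.span {algebraMap Λ B π, x, y})) :
    DictClosedPoint π (Ideal.comap (φ : B →+* Λ) (Ideal.span {π})) := by
  have hmem : ∀ z : B, z ∈ Ideal.comap (φ : B →+* Λ) (Ideal.span {π}) ↔ π ∣ φ z := fun z => by
    rw [Ideal.mem_comap, Ideal.mem_span_singleton]
    rfl
  rcases h with h | ⟨x, y, G, hxy, hx, hy, hgen⟩
  · exact Or.inl h
  · refine Or.inr ⟨x, y, G, hxy, (hmem x).mpr hx, (hmem y).mpr hy, fun z hz => ?_⟩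
    obtain ⟨a, ha, haz⟩ := hgen z ((hmem z).mp hz)
    exact ⟨a, fun h => ha ((hmem a).mp h), haz⟩

/-- INST output, `kron_inst_gen` shape (ideal-membership form, `x * y ∈ (π)`) ⟹
`DictClosedPoint`. -/
theorem abs_dictClosedPoint_of_gen (π : Λ) (φ : B →ₐ[Λ] Λ)
    (h : (∃ t : B, ModelLocGen (Ideal.span {algebraMap Λ B π})
        (Ideal.comap (φ : B →+* Λ) (Ideal.span {π})) t) ∨
      (∃ x y : B, (φ : B →+* Λ) x ∈ Ideal.span {π} ∧ (φ : B →+* Λ) y ∈ Ideal.span {π} ∧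
        x * y ∈ Ideal.span {algebraMap Λ B π} ∧
        ∀ z : B, (φ : B →+* Λ) z ∈ Ideal.span {π} → ∃ b : B,
          (φ : B →+* Λ) b ∉ Ideal.span {π} ∧
            b * z ∈ Ideal.span {algebraMap Λ B π, x, y})) :
    DictClosedPoint π (Ideal.comap (φ : B →+* Λ) (Ideal.span {π})) := by
  rcases h with h | ⟨x, y, hx, hy, hxy, hgen⟩
  · exact Or.inl h
  · obtain ⟨G, hG⟩ := Ideal.mem_span_singleton'.mp hxy
    refine Or.inr ⟨x, y, G, by rw [← hG, mul_comm], hx, hy, fun z hz => ?_⟩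
    obtain ⟨a, ha, haz⟩ := hgen z hz
    exact ⟨a, ha, haz⟩

end Convert

section Glue

variable {Λ K F : Type*} [CommRing Λ] [IsDomain Λ] [IsDiscreteValuationRing Λ] [Field K]
  [Algebra Λ K] [IsFractionRing Λ K] [Field F] [Algebra K F] [Algebra Λ F] [IsScalarTower Λ K F]

/-- **PT glue**, `DictClosedPoint` form of (I). -/
theorem abs_hpt_of_dict (π : Λ) (hπ : Irreducible π) {t : F} (ht : Transcendental K t)
    [IsDedekindDomain ↥(integralClosure (Algebra.adjoin K {t}) F)]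
    [IsFractionRing ↥(integralClosure (Algebra.adjoin K {t}) F) F]
    [IsNoetherianRing ↥(integralClosure (Algebra.adjoin Λ {t}) F)]
    (τ τ' : F ≃+* F) (hτt : τ t = t) (hτ't : τ' t = t)
    (hτΛ : ∀ c : Λ, ∃ c' : Λ, τ (algebraMap Λ F c) = algebraMap Λ F c')
    (hτΛs : ∀ c : Λ, ∃ c' : Λ, τ.symm (algebraMap Λ F c) = algebraMap Λ F c')
    (hτ'Λ : ∀ c : Λ, ∃ c' : Λ, τ' (algebraMap Λ F c) = algebraMap Λ F c')
    (hτ'Λs : ∀ c : Λ, ∃ c' : Λ, τ'.symm (algebraMap Λ F c) = algebraMap Λ F c')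
    (hTRIV : ∀ b : F, IsIntegral (S18.gaussSub π hπ.prime t) b →
      ∃ δ : F, IsIntegral (S18.gaussSub π hπ.prime t) δ ∧ τ b - b = π • δ)
    (hTRIV' : ∀ b : F, IsIntegral (S18.gaussSub π hπ.prime t) b →
      ∃ δ : F, IsIntegral (S18.gaussSub π hπ.prime t) δ ∧ τ' b - b = π • δ)
    (u : F)
    (𝔪 : Ideal ↥(integralClosure (Algebra.adjoin Λ {t}) F))
    (hP : ∀ 𝔔 ∈ absThrough (absIncl Λ K t) 𝔪, 𝔔.valuation F u ≠ 1 →
      ∃ φ : ↥(integralClosure (Algebra.adjoin Λ {t}) F) →ₐ[Λ] Λ,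
        𝔪 = Ideal.comap (φ : ↥(integralClosure (Algebra.adjoin Λ {t}) F) →+* Λ)
          (Ideal.span {π}) ∧
        ∀ b : ↥(integralClosure (Algebra.adjoin Λ {t}) F),
          absIncl Λ K t b ∈ 𝔔.asIdeal ↔ φ b = 0)
    (hI : ∀ φ : ↥(integralClosure (Algebra.adjoin Λ {t}) F) →ₐ[Λ] Λ,
      𝔪 = Ideal.comap (φ : ↥(integralClosure (Algebra.adjoin Λ {t}) F) →+* Λ)
        (Ideal.span {π}) → DictClosedPoint π 𝔪) :
    ∀ 𝔔 ∈ absThrough (absIncl Λ K t) 𝔪, 𝔔.valuation F u ≠ 1 →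
      (∃ φ : ↥(integralClosure (Algebra.adjoin Λ {t}) F) →ₐ[Λ] Λ,
        𝔪 = Ideal.comap (φ : ↥(integralClosure (Algebra.adjoin Λ {t}) F) →+* Λ)
          (Ideal.span {π}) ∧
        (∀ b : ↥(integralClosure (Algebra.adjoin Λ {t}) F),
          absIncl Λ K t b ∈ 𝔔.asIdeal ↔ φ b = 0) ∧
        ∃ h : ↥(integralClosure (Algebra.adjoin Λ {t}) F), φ h = 0 ∧
          ∃ s : ↥(integralClosure (Algebra.adjoin Λ {t}) F), ¬ π ∣ φ s ∧
            ∀ b : ↥(integralClosure (Algebra.adjoin Λ {t}) F), φ b = 0 → h ∣ s * b) ∨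
      (∃ φ : ↥(integralClosure (Algebra.adjoin Λ {t}) F) →ₐ[Λ] Λ,
        𝔪 = Ideal.comap (φ : ↥(integralClosure (Algebra.adjoin Λ {t}) F) →+* Λ)
          (Ideal.span {π}) ∧
        (∀ b : ↥(integralClosure (Algebra.adjoin Λ {t}) F),
          absIncl Λ K t b ∈ 𝔔.asIdeal ↔ φ b = 0) ∧
        ∃ h : ↥(integralClosure (Algebra.adjoin Λ {t}) F), φ h = 0 ∧
          ∃ (k : ℕ) (s : ↥(integralClosure (Algebra.adjoin Λ {t}) F)), ¬ π ∣ φ s ∧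
            ∀ b : ↥(integralClosure (Algebra.adjoin Λ {t}) F), φ b = 0 →
              h ∣ algebraMap Λ ↥(integralClosure (Algebra.adjoin Λ {t}) F) (π ^ k) * (s * b)) ∨
      ((∀ g : F, 𝔔.valuation F (τ g) = 𝔔.valuation F g) ∧
        (∀ g : F, 𝔔.valuation F (τ' g) = 𝔔.valuation F g)) := by
  intro 𝔔 h𝔔 h𝔔u
  obtain ⟨φ, h𝔪φ, hφ𝔔⟩ := hP 𝔔 h𝔔 h𝔔u
  have hcp := hI φ h𝔪φ
  have hτst : τ.symm t = t := abs_symm_fix τ hτt
  have hτ'st : τ'.symm t = t := abs_symm_fix τ' hτ't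
  have hBF : Function.Injective
      (algebraMap ↥(integralClosure (Algebra.adjoin Λ {t}) F) F) := Subtype.val_injective
  have hflip : ∀ σ : F ≃+* F,
      (∀ c : Λ, ∃ c' : Λ, σ (algebraMap Λ F c) = algebraMap Λ F c') →
      ∀ l : Λ, ∃ l' : Λ, algebraMap Λ F l' = σ (algebraMap Λ F l) :=
    fun σ h l => let ⟨l', hl'⟩ := h l; ⟨l', hl'.symm⟩
  exact s34dict_pt hBF (absIncl Λ K t) (algebraMap_absIncl Λ K t) π hπ
    (abs_isUnit_incl Λ K t π hπ.ne_zero) (abs_incl_loc Λ K t π hπ) τ τ'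
    (abs_tau_eta τ hτt hτΛ) (abs_tau_eta τ.symm hτst hτΛs)
    (abs_tau_eta τ' hτ't hτ'Λ) (abs_tau_eta τ'.symm hτ'st hτ'Λs)
    (abs_tau_fin τ hτt hτΛ) (abs_tau_fin τ.symm hτst hτΛs)
    (abs_tau_fin τ' hτ't hτ'Λ) (abs_tau_fin τ'.symm hτ'st hτ'Λs)
    (hflip τ hτΛ) (hflip τ.symm hτΛs) (hflip τ' hτ'Λ) (hflip τ'.symm hτ'Λs)
    (abs_tau_triv π hπ ht τ hτt hτΛ hTRIV) (abs_tau_triv π hπ ht τ' hτ't hτ'Λ hTRIV')
    𝔪 hcp φ h𝔪φ 𝔔 hφ𝔔

/-- **PT glue** at a closed point `𝔪` of the chart `t`: (P) + (I) + the chart-free `τ`-data of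
`abs_main` ⟹ the alternative `hpt` of `abs_locf_chart` / `abs_main` at `𝔪`. -/
theorem abs_hpt_of_inst (π : Λ) (hπ : Irreducible π) {t : F} (ht : Transcendental K t)
    [IsDedekindDomain ↥(integralClosure (Algebra.adjoin K {t}) F)]
    [IsFractionRing ↥(integralClosure (Algebra.adjoin K {t}) F) F]
    [IsNoetherianRing ↥(integralClosure (Algebra.adjoin Λ {t}) F)]
    (τ τ' : F ≃+* F) (hτt : τ t = t) (hτ't : τ' t = t)
    (hτΛ : ∀ c : Λ, ∃ c' : Λ, τ (algebraMap Λ F c) = algebraMap Λ F c')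
    (hτΛs : ∀ c : Λ, ∃ c' : Λ, τ.symm (algebraMap Λ F c) = algebraMap Λ F c')
    (hτ'Λ : ∀ c : Λ, ∃ c' : Λ, τ' (algebraMap Λ F c) = algebraMap Λ F c')
    (hτ'Λs : ∀ c : Λ, ∃ c' : Λ, τ'.symm (algebraMap Λ F c) = algebraMap Λ F c')
    (hTRIV : ∀ b : F, IsIntegral (S18.gaussSub π hπ.prime t) b →
      ∃ δ : F, IsIntegral (S18.gaussSub π hπ.prime t) δ ∧ τ b - b = π • δ)
    (hTRIV' : ∀ b : F, IsIntegral (S18.gaussSub π hπ.prime t) b →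
      ∃ δ : F, IsIntegral (S18.gaussSub π hπ.prime t) δ ∧ τ' b - b = π • δ)
    (u : F)
    (𝔪 : Ideal ↥(integralClosure (Algebra.adjoin Λ {t}) F))
    (hP : ∀ 𝔔 ∈ absThrough (absIncl Λ K t) 𝔪, 𝔔.valuation F u ≠ 1 →
      ∃ φ : ↥(integralClosure (Algebra.adjoin Λ {t}) F) →ₐ[Λ] Λ,
        𝔪 = Ideal.comap (φ : ↥(integralClosure (Algebra.adjoin Λ {t}) F) →+* Λ)
          (Ideal.span {π}) ∧
        ∀ b : ↥(integralClosure (Algebra.adjoin Λ {t}) F),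
          absIncl Λ K t b ∈ 𝔔.asIdeal ↔ φ b = 0)
    (hI : ∀ φ : ↥(integralClosure (Algebra.adjoin Λ {t}) F) →ₐ[Λ] Λ,
      𝔪 = Ideal.comap (φ : ↥(integralClosure (Algebra.adjoin Λ {t}) F) →+* Λ)
        (Ideal.span {π}) →
      (∃ t' : ↥(integralClosure (Algebra.adjoin Λ {t}) F),
        ModelLocGen (Ideal.span {algebraMap Λ ↥(integralClosure (Algebra.adjoin Λ {t}) F) π})
          (Ideal.comap (φ : ↥(integralClosure (Algebra.adjoin Λ {t}) F) →+* Λ)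
            (Ideal.span {π})) t') ∨
      (∃ x y G : ↥(integralClosure (Algebra.adjoin Λ {t}) F),
        x * y = algebraMap Λ ↥(integralClosure (Algebra.adjoin Λ {t}) F) π * G ∧
        π ∣ φ x ∧ π ∣ φ y ∧
        ∀ z : ↥(integralClosure (Algebra.adjoin Λ {t}) F), π ∣ φ z →
          ∃ a : ↥(integralClosure (Algebra.adjoin Λ {t}) F), ¬ π ∣ φ a ∧
            a * z ∈ Ideal.span
              {algebraMap Λ ↥(integralClosure (Algebra.adjoin Λ {t}) F) π, x, y})) :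
    ∀ 𝔔 ∈ absThrough (absIncl Λ K t) 𝔪, 𝔔.valuation F u ≠ 1 →
      (∃ φ : ↥(integralClosure (Algebra.adjoin Λ {t}) F) →ₐ[Λ] Λ,
        𝔪 = Ideal.comap (φ : ↥(integralClosure (Algebra.adjoin Λ {t}) F) →+* Λ)
          (Ideal.span {π}) ∧
        (∀ b : ↥(integralClosure (Algebra.adjoin Λ {t}) F),
          absIncl Λ K t b ∈ 𝔔.asIdeal ↔ φ b = 0) ∧
        ∃ h : ↥(integralClosure (Algebra.adjoin Λ {t}) F), φ h = 0 ∧
          ∃ s : ↥(integralClosure (Algebra.adjoin Λ {t}) F), ¬ π ∣ φ s ∧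
            ∀ b : ↥(integralClosure (Algebra.adjoin Λ {t}) F), φ b = 0 → h ∣ s * b) ∨
      (∃ φ : ↥(integralClosure (Algebra.adjoin Λ {t}) F) →ₐ[Λ] Λ,
        𝔪 = Ideal.comap (φ : ↥(integralClosure (Algebra.adjoin Λ {t}) F) →+* Λ)
          (Ideal.span {π}) ∧
        (∀ b : ↥(integralClosure (Algebra.adjoin Λ {t}) F),
          absIncl Λ K t b ∈ 𝔔.asIdeal ↔ φ b = 0) ∧
        ∃ h : ↥(integralClosure (Algebra.adjoin Λ {t}) F), φ h = 0 ∧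
          ∃ (k : ℕ) (s : ↥(integralClosure (Algebra.adjoin Λ {t}) F)), ¬ π ∣ φ s ∧
            ∀ b : ↥(integralClosure (Algebra.adjoin Λ {t}) F), φ b = 0 →
              h ∣ algebraMap Λ ↥(integralClosure (Algebra.adjoin Λ {t}) F) (π ^ k) * (s * b)) ∨
      ((∀ g : F, 𝔔.valuation F (τ g) = 𝔔.valuation F g) ∧
        (∀ g : F, 𝔔.valuation F (τ' g) = 𝔔.valuation F g)) :=
  abs_hpt_of_dict π hπ ht τ τ' hτt hτ't hτΛ hτΛs hτ'Λ hτ'Λs hTRIV hTRIV' u 𝔪 hP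
    (fun φ h𝔪φ => by
      have h := abs_dictClosedPoint_of_inst π φ (hI φ h𝔪φ)
      rw [← h𝔪φ] at h
      exact h)

/-- **`hpt_fin` of `abs_main`** from (P) (output of `s34gal_dict_point`) and (I) (INST export) on
the chart `j`. -/
theorem abs_hpt_fin (π : Λ) (hπ : Irreducible π) {j : F} (hj : Transcendental K j)
    [IsDedekindDomain ↥(integralClosure (Algebra.adjoin K {j}) F)]
    [IsFractionRing ↥(integralClosure (Algebra.adjoin K {j}) F) F]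
    [IsNoetherianRing ↥(integralClosure (Algebra.adjoin Λ {j}) F)]
    (τ τ' : F ≃+* F) (hτj : τ j = j) (hτ'j : τ' j = j)
    (hτΛ : ∀ c : Λ, ∃ c' : Λ, τ (algebraMap Λ F c) = algebraMap Λ F c')
    (hτΛs : ∀ c : Λ, ∃ c' : Λ, τ.symm (algebraMap Λ F c) = algebraMap Λ F c')
    (hτ'Λ : ∀ c : Λ, ∃ c' : Λ, τ' (algebraMap Λ F c) = algebraMap Λ F c')
    (hτ'Λs : ∀ c : Λ, ∃ c' : Λ, τ'.symm (algebraMap Λ F c) = algebraMap Λ F c')
    (hTRIV : ∀ b : F, IsIntegral (S18.gaussSub π hπ.prime j) b →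
      ∃ δ : F, IsIntegral (S18.gaussSub π hπ.prime j) δ ∧ τ b - b = π • δ)
    (hTRIV' : ∀ b : F, IsIntegral (S18.gaussSub π hπ.prime j) b →
      ∃ δ : F, IsIntegral (S18.gaussSub π hπ.prime j) δ ∧ τ' b - b = π • δ)
    (u : F)
    (hP : ∀ 𝔪 : Ideal ↥(integralClosure (Algebra.adjoin Λ {j}) F), 𝔪.IsMaximal →
      algebraMap Λ ↥(integralClosure (Algebra.adjoin Λ {j}) F) π ∈ 𝔪 →
      ∀ 𝔔 ∈ absThrough (absIncl Λ K j) 𝔪, 𝔔.valuation F u ≠ 1 →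
      ∃ φ : ↥(integralClosure (Algebra.adjoin Λ {j}) F) →ₐ[Λ] Λ,
        𝔪 = Ideal.comap (φ : ↥(integralClosure (Algebra.adjoin Λ {j}) F) →+* Λ) (Ideal.span {π}) ∧
        ∀ b : ↥(integralClosure (Algebra.adjoin Λ {j}) F), absIncl Λ K j b ∈ 𝔔.asIdeal ↔ φ b = 0)
    (hI : ∀ 𝔪 : Ideal ↥(integralClosure (Algebra.adjoin Λ {j}) F), 𝔪.IsMaximal →
      algebraMap Λ ↥(integralClosure (Algebra.adjoin Λ {j}) F) π ∈ 𝔪 →
      ∀ φ : ↥(integralClosure (Algebra.adjoin Λ {j}) F) →ₐ[Λ] Λ,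
      𝔪 = Ideal.comap (φ : ↥(integralClosure (Algebra.adjoin Λ {j}) F) →+* Λ) (Ideal.span {π}) →
      (∃ t' : ↥(integralClosure (Algebra.adjoin Λ {j}) F),
        ModelLocGen (Ideal.span {algebraMap Λ ↥(integralClosure (Algebra.adjoin Λ {j}) F) π})
          (Ideal.comap (φ : ↥(integralClosure (Algebra.adjoin Λ {j}) F) →+* Λ) (Ideal.span {π})) t') ∨
      (∃ x y G : ↥(integralClosure (Algebra.adjoin Λ {j}) F),
        x * y = algebraMap Λ ↥(integralClosure (Algebra.adjoin Λ {j}) F) π * G ∧ π ∣ φ x ∧ π ∣ φ y ∧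
        ∀ z : ↥(integralClosure (Algebra.adjoin Λ {j}) F), π ∣ φ z →
          ∃ a : ↥(integralClosure (Algebra.adjoin Λ {j}) F), ¬ π ∣ φ a ∧
            a * z ∈ Ideal.span {algebraMap Λ ↥(integralClosure (Algebra.adjoin Λ {j}) F) π, x, y})) :
    ∀ 𝔪 : Ideal ↥(integralClosure (Algebra.adjoin Λ {j}) F), 𝔪.IsMaximal →
      algebraMap Λ ↥(integralClosure (Algebra.adjoin Λ {j}) F) π ∈ 𝔪 →
      ∀ 𝔔 ∈ absThrough (absIncl Λ K j) 𝔪, 𝔔.valuation F u ≠ 1 →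
      (∃ φ : ↥(integralClosure (Algebra.adjoin Λ {j}) F) →ₐ[Λ] Λ,
        𝔪 = Ideal.comap (φ : ↥(integralClosure (Algebra.adjoin Λ {j}) F) →+* Λ)
          (Ideal.span {π}) ∧
        (∀ b : ↥(integralClosure (Algebra.adjoin Λ {j}) F),
          absIncl Λ K j b ∈ 𝔔.asIdeal ↔ φ b = 0) ∧
        ∃ h : ↥(integralClosure (Algebra.adjoin Λ {j}) F), φ h = 0 ∧
          ∃ s : ↥(integralClosure (Algebra.adjoin Λ {j}) F), ¬ π ∣ φ s ∧
            ∀ b : ↥(integralClosure (Algebra.adjoin Λ {j}) F), φ b = 0 → h ∣ s * b) ∨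
      (∃ φ : ↥(integralClosure (Algebra.adjoin Λ {j}) F) →ₐ[Λ] Λ,
        𝔪 = Ideal.comap (φ : ↥(integralClosure (Algebra.adjoin Λ {j}) F) →+* Λ)
          (Ideal.span {π}) ∧
        (∀ b : ↥(integralClosure (Algebra.adjoin Λ {j}) F),
          absIncl Λ K j b ∈ 𝔔.asIdeal ↔ φ b = 0) ∧
        ∃ h : ↥(integralClosure (Algebra.adjoin Λ {j}) F), φ h = 0 ∧
          ∃ (k : ℕ) (s : ↥(integralClosure (Algebra.adjoin Λ {j}) F)), ¬ π ∣ φ s ∧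
            ∀ b : ↥(integralClosure (Algebra.adjoin Λ {j}) F), φ b = 0 →
              h ∣ algebraMap Λ ↥(integralClosure (Algebra.adjoin Λ {j}) F) (π ^ k) * (s * b)) ∨
      ((∀ g : F, 𝔔.valuation F (τ g) = 𝔔.valuation F g) ∧
        (∀ g : F, 𝔔.valuation F (τ' g) = 𝔔.valuation F g)) :=
  fun 𝔪 h𝔪 hπ𝔪 =>
    abs_hpt_of_inst π hπ hj τ τ' hτj hτ'j hτΛ hτΛs hτ'Λ hτ'Λs hTRIV hTRIV' u 𝔪
      (hP 𝔪 h𝔪 hπ𝔪) (hI 𝔪 h𝔪 hπ𝔪)

/-- **`hpt_inf` of `abs_main`** from (P) and (I) on the chart `j⁻¹` at the cusps. -/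
theorem abs_hpt_inf (π : Λ) (hπ : Irreducible π) {j : F} (hj : Transcendental K j)
    [IsDedekindDomain ↥(integralClosure (Algebra.adjoin K {j⁻¹}) F)]
    [IsFractionRing ↥(integralClosure (Algebra.adjoin K {j⁻¹}) F) F]
    [IsNoetherianRing ↥(integralClosure (Algebra.adjoin Λ {j⁻¹}) F)]
    (τ τ' : F ≃+* F) (hτj : τ j = j) (hτ'j : τ' j = j)
    (hτΛ : ∀ c : Λ, ∃ c' : Λ, τ (algebraMap Λ F c) = algebraMap Λ F c')
    (hτΛs : ∀ c : Λ, ∃ c' : Λ, τ.symm (algebraMap Λ F c) = algebraMap Λ F c')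
    (hτ'Λ : ∀ c : Λ, ∃ c' : Λ, τ' (algebraMap Λ F c) = algebraMap Λ F c')
    (hτ'Λs : ∀ c : Λ, ∃ c' : Λ, τ'.symm (algebraMap Λ F c) = algebraMap Λ F c')
    (hTRIV : ∀ b : F, IsIntegral (S18.gaussSub π hπ.prime j) b →
      ∃ δ : F, IsIntegral (S18.gaussSub π hπ.prime j) δ ∧ τ b - b = π • δ)
    (hTRIV' : ∀ b : F, IsIntegral (S18.gaussSub π hπ.prime j) b →
      ∃ δ : F, IsIntegral (S18.gaussSub π hπ.prime j) δ ∧ τ' b - b = π • δ)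
    (u : F)
    (hP : ∀ 𝔪 : Ideal ↥(integralClosure (Algebra.adjoin Λ {j⁻¹}) F), 𝔪.IsMaximal →
      algebraMap Λ ↥(integralClosure (Algebra.adjoin Λ {j⁻¹}) F) π ∈ 𝔪 →
      (∃ a : ↥(integralClosure (Algebra.adjoin Λ {j⁻¹}) F), (a : F) = j⁻¹ ∧ a ∈ 𝔪) →
      ∀ 𝔔 ∈ absThrough (absIncl Λ K j⁻¹) 𝔪, 𝔔.valuation F u ≠ 1 →
      ∃ φ : ↥(integralClosure (Algebra.adjoin Λ {j⁻¹}) F) →ₐ[Λ] Λ,
        𝔪 = Ideal.comap (φ : ↥(integralClosure (Algebra.adjoin Λ {j⁻¹}) F) →+* Λ) (Ideal.span {π}) ∧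
        ∀ b : ↥(integralClosure (Algebra.adjoin Λ {j⁻¹}) F), absIncl Λ K j⁻¹ b ∈ 𝔔.asIdeal ↔ φ b = 0)
    (hI : ∀ 𝔪 : Ideal ↥(integralClosure (Algebra.adjoin Λ {j⁻¹}) F), 𝔪.IsMaximal →
      algebraMap Λ ↥(integralClosure (Algebra.adjoin Λ {j⁻¹}) F) π ∈ 𝔪 →
      (∃ a : ↥(integralClosure (Algebra.adjoin Λ {j⁻¹}) F), (a : F) = j⁻¹ ∧ a ∈ 𝔪) →
      ∀ φ : ↥(integralClosure (Algebra.adjoin Λ {j⁻¹}) F) →ₐ[Λ] Λ,
      𝔪 = Ideal.comap (φ : ↥(integralClosure (Algebra.adjoin Λ {j⁻¹}) F) →+* Λ) (Ideal.span {π}) →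
      (∃ t' : ↥(integralClosure (Algebra.adjoin Λ {j⁻¹}) F),
        ModelLocGen (Ideal.span {algebraMap Λ ↥(integralClosure (Algebra.adjoin Λ {j⁻¹}) F) π})
          (Ideal.comap (φ : ↥(integralClosure (Algebra.adjoin Λ {j⁻¹}) F) →+* Λ) (Ideal.span {π})) t') ∨
      (∃ x y G : ↥(integralClosure (Algebra.adjoin Λ {j⁻¹}) F),
        x * y = algebraMap Λ ↥(integralClosure (Algebra.adjoin Λ {j⁻¹}) F) π * G ∧ π ∣ φ x ∧ π ∣ φ y ∧
        ∀ z : ↥(integralClosure (Algebra.adjoin Λ {j⁻¹}) F), π ∣ φ z →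
          ∃ a : ↥(integralClosure (Algebra.adjoin Λ {j⁻¹}) F), ¬ π ∣ φ a ∧
            a * z ∈ Ideal.span {algebraMap Λ ↥(integralClosure (Algebra.adjoin Λ {j⁻¹}) F) π, x, y})) :
    ∀ 𝔪 : Ideal ↥(integralClosure (Algebra.adjoin Λ {j⁻¹}) F), 𝔪.IsMaximal →
      algebraMap Λ ↥(integralClosure (Algebra.adjoin Λ {j⁻¹}) F) π ∈ 𝔪 →
      (∃ a : ↥(integralClosure (Algebra.adjoin Λ {j⁻¹}) F), (a : F) = j⁻¹ ∧ a ∈ 𝔪) →
      ∀ 𝔔 ∈ absThrough (absIncl Λ K j⁻¹) 𝔪, 𝔔.valuation F u ≠ 1 →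
      (∃ φ : ↥(integralClosure (Algebra.adjoin Λ {j⁻¹}) F) →ₐ[Λ] Λ,
        𝔪 = Ideal.comap (φ : ↥(integralClosure (Algebra.adjoin Λ {j⁻¹}) F) →+* Λ)
          (Ideal.span {π}) ∧
        (∀ b : ↥(integralClosure (Algebra.adjoin Λ {j⁻¹}) F),
          absIncl Λ K j⁻¹ b ∈ 𝔔.asIdeal ↔ φ b = 0) ∧
        ∃ h : ↥(integralClosure (Algebra.adjoin Λ {j⁻¹}) F), φ h = 0 ∧
          ∃ s : ↥(integralClosure (Algebra.adjoin Λ {j⁻¹}) F), ¬ π ∣ φ s ∧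
            ∀ b : ↥(integralClosure (Algebra.adjoin Λ {j⁻¹}) F), φ b = 0 → h ∣ s * b) ∨
      (∃ φ : ↥(integralClosure (Algebra.adjoin Λ {j⁻¹}) F) →ₐ[Λ] Λ,
        𝔪 = Ideal.comap (φ : ↥(integralClosure (Algebra.adjoin Λ {j⁻¹}) F) →+* Λ)
          (Ideal.span {π}) ∧
        (∀ b : ↥(integralClosure (Algebra.adjoin Λ {j⁻¹}) F),
          absIncl Λ K j⁻¹ b ∈ 𝔔.asIdeal ↔ φ b = 0) ∧
        ∃ h : ↥(integralClosure (Algebra.adjoin Λ {j⁻¹}) F), φ h = 0 ∧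
          ∃ (k : ℕ) (s : ↥(integralClosure (Algebra.adjoin Λ {j⁻¹}) F)), ¬ π ∣ φ s ∧
            ∀ b : ↥(integralClosure (Algebra.adjoin Λ {j⁻¹}) F), φ b = 0 →
              h ∣ algebraMap Λ ↥(integralClosure (Algebra.adjoin Λ {j⁻¹}) F) (π ^ k) * (s * b)) ∨
      ((∀ g : F, 𝔔.valuation F (τ g) = 𝔔.valuation F g) ∧
        (∀ g : F, 𝔔.valuation F (τ' g) = 𝔔.valuation F g)) := by
  have hjΛ : Transcendental Λ j := S18.GaussLineK.transcendental_of_fraction hj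
  have hji : Transcendental K j⁻¹ := by
    intro h
    exact hj (by simpa using h.inv)
  have hV : S18.gaussSub π hπ.prime j⁻¹ = S18.gaussSub π hπ.prime j :=
    S18.GaussLineK.gaussSub_inv π hπ.prime hjΛ
  intro 𝔪 h𝔪 hπ𝔪 hcusp
  exact abs_hpt_of_inst π hπ hji τ τ' (abs_inv_fix τ hτj) (abs_inv_fix τ' hτ'j) hτΛ hτΛs hτ'Λ
    hτ'Λs (by rw [hV]; exact hTRIV) (by rw [hV]; exact hTRIV') u 𝔪 (hP 𝔪 h𝔪 hπ𝔪 hcusp)
    (hI 𝔪 h𝔪 hπ𝔪 hcusp)

/-- The `τ`-package `DictTau` of `DictChart` from the chart-free `τ`-data of `abs_main`. -/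
theorem dictTau_of_abs (π : Λ) (hπ : Irreducible π) {t : F} (ht : Transcendental K t)
    (τ : F ≃+* F) (hτt : τ t = t)
    (hτΛ : ∀ c : Λ, ∃ c' : Λ, τ (algebraMap Λ F c) = algebraMap Λ F c')
    (hτΛs : ∀ c : Λ, ∃ c' : Λ, τ.symm (algebraMap Λ F c) = algebraMap Λ F c')
    (hTRIV : ∀ b : F, IsIntegral (S18.gaussSub π hπ.prime t) b →
      ∃ δ : F, IsIntegral (S18.gaussSub π hπ.prime t) δ ∧ τ b - b = π • δ) :
    DictTau Λ K π t τ := by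
  have htΛ : Transcendental Λ t := S18.GaussLineK.transcendental_of_fraction ht
  have hτst : τ.symm t = t := abs_symm_fix τ hτt
  refine DictTau.intro
    (fun b hb => abs_isIntegral_map_adjoin (τ : F →+* F) hτt (abs_map_frac (τ : F →+* F) hτΛ) hb)
    (fun b hb => abs_isIntegral_map_adjoin (τ.symm : F →+* F) hτst
      (abs_map_frac (τ.symm : F →+* F) hτΛs) hb)
    (fun b hb => abs_isIntegral_map_adjoin (τ : F →+* F) hτt hτΛ hb)
    (fun b hb => abs_isIntegral_map_adjoin (τ.symm : F →+* F) hτst hτΛs hb)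
    (fun l => let ⟨l', hl'⟩ := hτΛ l; ⟨l', hl'.symm⟩)
    (fun l => let ⟨l', hl'⟩ := hτΛs l; ⟨l', hl'.symm⟩) ?_
  intro b hb
  have hσb : IsIntegral (Algebra.adjoin Λ {t}) (τ b) :=
    abs_isIntegral_map_adjoin (τ : F →+* F) hτt hτΛ hb
  have hbV : IsIntegral (S18.gaussSub π hπ.prime t) b :=
    S18.GaussLineK.isIntegral_of_isIntegral_adjoin π hπ.prime htΛ (s := {t}) (by simp) hb
  obtain ⟨δ, hδV, hδ⟩ := hTRIV b hbV
  have hδB : IsIntegral (Algebra.adjoin Λ {t}) δ :=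
    S18.GaussLineK.lemmaK_fin π hπ.prime htΛ (hσb.sub hb) hδV hδ
  refine ⟨δ, hδB, ?_⟩
  rw [← Algebra.smul_def, ← hδ]
  ring

/-- `DictTau` on the chart `j⁻¹` from the `j`-form hypotheses of `abs_main`. -/
theorem dictTau_of_abs_inv (π : Λ) (hπ : Irreducible π) {j : F} (hj : Transcendental K j)
    (τ : F ≃+* F) (hτj : τ j = j)
    (hτΛ : ∀ c : Λ, ∃ c' : Λ, τ (algebraMap Λ F c) = algebraMap Λ F c')
    (hτΛs : ∀ c : Λ, ∃ c' : Λ, τ.symm (algebraMap Λ F c) = algebraMap Λ F c')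
    (hTRIV : ∀ b : F, IsIntegral (S18.gaussSub π hπ.prime j) b →
      ∃ δ : F, IsIntegral (S18.gaussSub π hπ.prime j) δ ∧ τ b - b = π • δ) :
    DictTau Λ K π j⁻¹ τ := by
  have hjΛ : Transcendental Λ j := S18.GaussLineK.transcendental_of_fraction hj
  have hji : Transcendental K j⁻¹ := by
    intro h
    exact hj (by simpa using h.inv)
  have hV : S18.gaussSub π hπ.prime j⁻¹ = S18.gaussSub π hπ.prime j :=
    S18.GaussLineK.gaussSub_inv π hπ.prime hjΛ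
  exact dictTau_of_abs π hπ hji τ (abs_inv_fix τ hτj) hτΛ hτΛs (by rw [hV]; exact hTRIV)

end Glue

end Fermat.Agent.S34
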