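import Mathlib
import Fermat.Prelude.Def_ModularCurve_ArithmeticGalois
import Fermat.Agent.S34.GalPic
import Fermat.Agent.S34.GalField

/-!
# P19 (S34), block GAL, G4: GEO from an `m`-th root over a number field

`s34gal_geo_of_pow_field`: let `K ⊆ ℚ̄` be normal over `ℚ`, `u ∈ 𝔽_K = laurentBaseChange K F_N`
a Kummer generator of `x = [D]` (`m • D = div u` over `ℚ̄`), and let `τ, τ'` act on `𝔽_K`
coefficientwise through their restrictions to `K`.  If the second difference
`τ'τ(u) · u / (τ'(u) · τ(u))` is an `m`-th power in `𝔽_K`, then `τ'τx − τ'x − τx + x = 0`.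
-/

set_option autoImplicit false

namespace Fermat.Agent.S34

open AlgebraicCurve ModularCurve IntermediateField

local notation "Qb" => AlgebraicClosure ℚ

section Generic

variable (F₀ : IntermediateField ℚ (LaurentSeries ℚ))

/-- The embedding intertwines the ring automorphism of `𝔽_K` with the semilinear action. -/
theorem s34galEmb_arithmeticRingAut (K : IntermediateField ℚ Qb) [Normal ℚ ↥K] (σ : Qb ≃ₐ[ℚ] Qb)
    (f : ↥(laurentBaseChange (↥K) F₀)) :
    s34galEmb F₀ K (arithmeticRingAut F₀ (σ.restrictNormal ↥K) f) =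
      arithmeticGalois F₀ σ • s34galEmb F₀ K f :=
  s34gal_emb_smul F₀ K σ f

theorem s34gal_sd_eq_secondDiff {K₁ F₁ : Type*} [Field K₁] [Field F₁] [Algebra K₁ F₁]
    (g g' : SemilinearAut K₁ F₁) (U : F₁) :
    g' • (g • U) * U / (g' • U * g • U) = s34galSecondDiff g g' U := by
  unfold s34galSecondDiff
  rw [smul_div₀']
  by_cases hu : U = 0
  · simp [hu]
  have h1 : g • U ≠ 0 := s34gal_smul_ne_zero _ hu
  have h2 : g' • U ≠ 0 := s34gal_smul_ne_zero _ hu
  field_simp

/-- The embedding of the second difference over `K` is the second difference over `ℚ̄`. -/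
theorem s34galEmb_sd (K : IntermediateField ℚ Qb) [Normal ℚ ↥K] (τ τ' : Qb ≃ₐ[ℚ] Qb)
    (u : ↥(laurentBaseChange (↥K) F₀)) :
    s34galEmb F₀ K
        (arithmeticRingAut F₀ (τ'.restrictNormal ↥K) (arithmeticRingAut F₀ (τ.restrictNormal ↥K) u)
          * u / (arithmeticRingAut F₀ (τ'.restrictNormal ↥K) u *
            arithmeticRingAut F₀ (τ.restrictNormal ↥K) u)) =
      s34galSecondDiff (arithmeticGalois F₀ τ) (arithmeticGalois F₀ τ') (s34galEmb F₀ K u) := by
  have e1 : s34galEmb F₀ K (arithmeticRingAut F₀ (τ'.restrictNormal ↥K)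
      (arithmeticRingAut F₀ (τ.restrictNormal ↥K) u)) =
      arithmeticGalois F₀ τ' • (arithmeticGalois F₀ τ • s34galEmb F₀ K u) :=
    (s34galEmb_arithmeticRingAut F₀ K τ' _).trans
      (congrArg (fun t => arithmeticGalois F₀ τ' • t) (s34galEmb_arithmeticRingAut F₀ K τ u))
  have e2 := s34galEmb_arithmeticRingAut F₀ K τ' u
  have e3 := s34galEmb_arithmeticRingAut F₀ K τ u
  have e4 : ∀ a b c d : ↥(laurentBaseChange (↥K) F₀),
      s34galEmb F₀ K (a * b / (c * d)) =
        s34galEmb F₀ K a * s34galEmb F₀ K b / (s34galEmb F₀ K c * s34galEmb F₀ K d) := by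
    intro a b c d
    rw [map_div₀, map_mul, map_mul]
  refine (e4 _ _ _ _).trans ?_
  refine Eq.trans ?_ (s34gal_sd_eq_secondDiff (arithmeticGalois F₀ τ) (arithmeticGalois F₀ τ')
    (s34galEmb F₀ K u))
  exact congrArg₂ (fun a b => a / b) (congrArg (fun t => t * s34galEmb F₀ K u) e1)
    (congrArg₂ (fun a b => a * b) e2 e3)

end Generic

/-- **G4.** GEO from an `m`-th root of the second difference of a Kummer generator over a normal
number field. -/
theorem s34gal_geo_of_pow_field (N : ℕ) {m : ℕ} (hm : m ≠ 0) (τ τ' : Qb ≃ₐ[ℚ] Qb)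
    (x : JZero N) (K : IntermediateField ℚ Qb) [Normal ℚ ↥K]
    (D : Divisor.degZero (K := Qb) (F := modularFunctionFieldBar N))
    (u y : ↥(laurentBaseChange (↥K) (modularFunctionFieldFull N)))
    (hD : Pic0.mk D = x) (hu : u ≠ 0)
    (hdiv : ∀ v : Place Qb (modularFunctionFieldBar N),
      (m • (D : Divisor Qb (modularFunctionFieldBar N))) v =
        v.ord (s34galEmb (modularFunctionFieldFull N) K u))
    (hy : y ^ m =
      arithmeticRingAut (modularFunctionFieldFull N) (τ'.restrictNormal ↥K)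
          (arithmeticRingAut (modularFunctionFieldFull N) (τ.restrictNormal ↥K) u) * u /
        (arithmeticRingAut (modularFunctionFieldFull N) (τ'.restrictNormal ↥K) u *
          arithmeticRingAut (modularFunctionFieldFull N) (τ.restrictNormal ↥K) u)) :
    τ' • τ • x - τ' • x - τ • x + x = 0 := by
  refine s34gal_geo_of_pow N hm τ τ' x
    ⟨D, s34galEmb (modularFunctionFieldFull N) K u, s34galEmb (modularFunctionFieldFull N) K y, 1,
      hD, ?_, hdiv, ?_⟩
  · exact fun h => hu (s34galEmb_injective _ K (by rw [h, map_zero]))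
  · rw [← s34galEmb_sd, ← hy, map_pow, map_one, one_mul]

end Fermat.Agent.S34
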