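import Mathlib
import Fermat.Prelude.Def_ModularCurve_LaurentCoeff

/-!
# P19 GAL leaf ROOT-A: `m`-th roots in `K⟦X⟧` and of the second difference in `K((q))`

* `s34root_exists_pow`: a power series with constant coefficient `1` over a field of
  characteristic zero has an `m`-th root with constant coefficient `1` (binomial series
  `(1 + X) ^ (1/m)` substituted at `p - 1`).
* `s34root_leadingCoeff_div`: normalising a nonzero Laurent series to leading coefficient `1`.
* `s34root_exists_pow_sd`: the second difference of a Laurent series with leading coefficient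
  `1` has an `m`-th root in `K((q))`.
-/

set_option autoImplicit false

noncomputable section

namespace Fermat.Agent.S34

open ModularCurve

/-- Powers of the binomial series: `((1 + X) ^ r) ^ n = (1 + X) ^ (n • r)`. -/
theorem s34root_binomialSeries_pow {K : Type*} [Field K] [CharZero K] (r : ℚ) (n : ℕ) :
    (PowerSeries.binomialSeries K r) ^ n = PowerSeries.binomialSeries K ((n : ℚ) * r) := by
  induction n with
  | zero => simp
  | succ n ih =>
    rw [pow_succ, ih, ← PowerSeries.binomialSeries_add]
    congr 1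
    push_cast
    ring

/-- The binomial series `(1 + X) ^ (1/m)` is an `m`-th root of `1 + X`. -/
theorem s34root_binomialSeries_inv_pow {K : Type*} [Field K] [CharZero K] {m : ℕ} (hm : m ≠ 0) :
    (PowerSeries.binomialSeries K ((1 : ℚ) / m)) ^ m = 1 + PowerSeries.X := by
  rw [s34root_binomialSeries_pow]
  have h1 : (m : ℚ) * ((1 : ℚ) / m) = ((1 : ℕ) : ℚ) := by
    have : (m : ℚ) ≠ 0 := Nat.cast_ne_zero.mpr hm
    field_simp
    simp
  rw [h1, PowerSeries.binomialSeries_nat, pow_one]

theorem s34root_exists_pow {K : Type*} [Field K] [CharZero K] {m : ℕ} (hm : m ≠ 0)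
    (p : PowerSeries K) (hp : PowerSeries.constantCoeff p = 1) :
    ∃ w : PowerSeries K, w ^ m = p ∧ PowerSeries.constantCoeff w = 1 := by
  have hc : PowerSeries.constantCoeff (p - 1) = 0 := by simp [hp]
  have ha : PowerSeries.HasSubst (p - 1) := PowerSeries.HasSubst.of_constantCoeff_zero' hc
  refine ⟨(PowerSeries.binomialSeries K ((1 : ℚ) / m)).subst (p - 1), ?_, ?_⟩
  · rw [← PowerSeries.subst_pow ha, s34root_binomialSeries_inv_pow hm, PowerSeries.subst_add ha,
      PowerSeries.subst_X ha]
    have h1 : (1 : PowerSeries K).subst (p - 1) = (1 : PowerSeries K) := by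
      have := PowerSeries.subst_C (a := (p - 1 : PowerSeries K)) (1 : K)
      simpa using this
    rw [h1]
    ring
  · have h0 := PowerSeries.constantCoeff_subst_eq_zero (a := (p - 1 : PowerSeries K)) hc
      (PowerSeries.binomialSeries K ((1 : ℚ) / m) - 1) (by simp)
    have h1 : (1 : PowerSeries K).subst (p - 1) = (1 : PowerSeries K) := by
      have := PowerSeries.subst_C (a := (p - 1 : PowerSeries K)) (1 : K)
      simpa using this
    rw [PowerSeries.subst_sub ha, h1] at h0
    have h2 : PowerSeries.constantCoeff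
        ((PowerSeries.binomialSeries K ((1 : ℚ) / m)).subst (p - 1) - 1) = 0 := h0
    rw [map_sub, map_one, sub_eq_zero] at h2
    exact h2

theorem s34root_leadingCoeff_div {K : Type*} [Field K] (u : LaurentSeries K) (hu : u ≠ 0) :
    (u * (HahnSeries.C (u.leadingCoeff))⁻¹).leadingCoeff = 1 := by
  have hl : u.leadingCoeff ≠ 0 := HahnSeries.leadingCoeff_ne_zero.mpr hu
  have hC : (HahnSeries.C (u.leadingCoeff) : LaurentSeries K)⁻¹
      = HahnSeries.C ((u.leadingCoeff)⁻¹) := by
    rw [← map_inv₀]
  rw [hC, HahnSeries.leadingCoeff_mul]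
  have : (HahnSeries.C ((u.leadingCoeff)⁻¹) : LaurentSeries K).leadingCoeff
      = (u.leadingCoeff)⁻¹ := by
    rw [HahnSeries.C_apply, HahnSeries.leadingCoeff_of_single]
  rw [this, mul_inv_cancel₀ hl]

/-- `coeffMap` on the image of a power series. -/
theorem s34root_coeffMap_ofPowerSeries {K : Type*} [Field K] (τ : K →+* K) (p : PowerSeries K) :
    coeffMap τ (HahnSeries.ofPowerSeries ℤ K p)
      = HahnSeries.ofPowerSeries ℤ K (p.map τ) := by
  ext k
  rw [coeffMap_coeff]
  have h1 := PowerSeries.coeff_coe (R := K) p k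
  have h2 := PowerSeries.coeff_coe (R := K) (p.map τ) k
  rw [show (HahnSeries.ofPowerSeries ℤ K p).coeff k = _ from h1,
    show (HahnSeries.ofPowerSeries ℤ K (p.map τ)).coeff k = _ from h2]
  split_ifs <;> simp

theorem s34root_exists_pow_sd {K : Type*} [Field K] [CharZero K] (σ σ' : K →+* K)
    {m : ℕ} (hm : m ≠ 0) (u : LaurentSeries K) (hu : u.leadingCoeff = 1) :
    ∃ w : LaurentSeries K,
      w ^ m = coeffMap σ' (coeffMap σ u) * u / (coeffMap σ' u * coeffMap σ u) := by
  obtain ⟨n, p, hnp, hc⟩ : ∃ (n : ℤ) (p : PowerSeries K),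
      u = HahnSeries.single n 1 * HahnSeries.ofPowerSeries ℤ K p ∧
        PowerSeries.constantCoeff p = 1 := by
    refine ⟨u.order, u.powerSeriesPart, (LaurentSeries.single_order_mul_powerSeriesPart u).symm, ?_⟩
    have h := LaurentSeries.powerSeriesPart_coeff u 0
    rw [PowerSeries.coeff_zero_eq_constantCoeff_apply] at h
    rw [h, Nat.cast_zero, add_zero, ← HahnSeries.leadingCoeff_eq, hu]
  have key : ∀ τ : K →+* K, coeffMap τ u
      = HahnSeries.single n 1 * HahnSeries.ofPowerSeries ℤ K (p.map τ) := by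
    intro τ
    rw [hnp, map_mul, coeffMap_single, map_one, s34root_coeffMap_ofPowerSeries]
  have hroot : ∀ τ : K →+* K, ∃ w : PowerSeries K, w ^ m = p.map τ := fun τ =>
    (s34root_exists_pow hm (p.map τ) (by
      rw [← PowerSeries.coeff_zero_eq_constantCoeff_apply, PowerSeries.coeff_map,
        PowerSeries.coeff_zero_eq_constantCoeff_apply, hc, map_one])).imp fun w h => h.1
  obtain ⟨w0, h0⟩ := hroot (RingHom.id K)
  obtain ⟨w1, h1⟩ := hroot σ
  obtain ⟨w2, h2⟩ := hroot σ'
  obtain ⟨w12, h12⟩ := hroot (σ'.comp σ)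
  have hid : u = HahnSeries.single n 1 * HahnSeries.ofPowerSeries ℤ K (p.map (RingHom.id K)) := by
    have := key (RingHom.id K)
    rwa [coeffMap_id] at this
  have hs : (HahnSeries.single n (1 : K) : LaurentSeries K) ≠ 0 := by
    simp
  refine ⟨HahnSeries.ofPowerSeries ℤ K w12 * HahnSeries.ofPowerSeries ℤ K w0 /
    (HahnSeries.ofPowerSeries ℤ K w2 * HahnSeries.ofPowerSeries ℤ K w1), ?_⟩
  rw [coeffMap_coeffMap, key (σ'.comp σ), key σ, key σ']
  conv_rhs => rw [hid]
  rw [div_pow, mul_pow, mul_pow, ← map_pow, ← map_pow, ← map_pow, ← map_pow, h0, h1, h2, h12]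
  have gen : ∀ (s a b c d : LaurentSeries K), s ≠ 0 →
      a * b / (c * d) = s * a * (s * b) / (s * c * (s * d)) := by
    intro s a b c d hs
    rw [mul_mul_mul_comm s a s b, mul_mul_mul_comm s c s d,
      mul_div_mul_left _ _ (mul_ne_zero hs hs)]
  exact gen _ _ _ _ _ hs

end Fermat.Agent.S34

end
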