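import Mathlib
import Fermat.Agent.S34.GalKummerField
import Fermat.Agent.S34.GalGeo
import Fermat.Agent.S34.GalSdO
import Fermat.Agent.S34.RootSd
import Fermat.Agent.S34.AbsLocf
import Fermat.Agent.S24.Places

/-!
# P19 (S34), block GAL: the normalised Kummer generator and the ROOT input of `abs_main`

* `s34gal_exists_kummer_field_monic` : G1 with a generator `u ∈ 𝔽_K` whose `q`-expansion has
  leading coefficient `1`;
* `s34gal_exists_root_series` : for such `u` the second difference `absSd (T τ) (T τ') u` has an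
  `m`-th root in `K((q))` (the `(W, hW)` of `abs_main_laurent`);
* `s34gal_geo_of_pow_absSd` : G4 restated with `absSd`.
-/

set_option autoImplicit false

namespace Fermat.Agent.S34

open AlgebraicCurve ModularCurve IntermediateField

local notation "Qb" => AlgebraicClosure ℚ

/-- The series of a constant of `𝔽_L`. -/
theorem s34gal_coe_algebraMap_eq_C (F₀ : IntermediateField ℚ (LaurentSeries ℚ))
    {L : Type*} [Field L] [Algebra ℚ L] (c : L) :
    ((algebraMap L ↥(laurentBaseChange L F₀) c : ↥(laurentBaseChange L F₀)) : LaurentSeries L) =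
      HahnSeries.C c := by
  show algebraMap L (LaurentSeries L) c = HahnSeries.C c
  rw [algebraMap_laurentSeries_eq_single]
  rfl

/-- Multiplying by the inverse of a nonzero constant does not change the orders. -/
theorem s34gal_ord_mul_const_inv (F₀ : IntermediateField ℚ (LaurentSeries ℚ))
    (K : IntermediateField ℚ Qb) (u : ↥(laurentBaseChange (↥K) F₀)) (hu : u ≠ 0) {c : ↥K}
    (hc : c ≠ 0) (P : Place Qb ↥(laurentBaseChange Qb F₀)) :
    P.ord (s34galEmb F₀ K (u * (algebraMap ↥K ↥(laurentBaseChange (↥K) F₀) c)⁻¹)) =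
      P.ord (s34galEmb F₀ K u) := by
  have hU : s34galEmb F₀ K u ≠ 0 := fun h => hu (s34galEmb_injective F₀ K (by rw [h, map_zero]))
  have hcQ : algebraMap Qb ↥(laurentBaseChange Qb F₀) (c : Qb) ≠ 0 := by
    intro h
    apply hc
    have h2 := (algebraMap Qb ↥(laurentBaseChange Qb F₀)).injective (h.trans (map_zero _).symm)
    exact Subtype.ext h2
  rw [map_mul, map_inv₀, s34galEmb_algebraMap, Place.ord_mul P hU (inv_ne_zero hcQ), Place.ord_inv,
    Fermat.Agent.S24.ord_algebraMap, neg_zero, add_zero]

/-- **G1, normalised.** Kummer generators over number fields with rational zeros and poles, whose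
`q`-expansion has leading coefficient `1`. -/
theorem s34gal_exists_kummer_field_monic (N : ℕ) [NeZero N] {m : ℕ} (x : JZero N)
    (hx : m • x = 0) :
    ∃ (D : Divisor.degZero (K := Qb) (F := modularFunctionFieldBar N))
      (K₀ : IntermediateField ℚ Qb), FiniteDimensional ℚ ↥K₀ ∧ Pic0.mk D = x ∧
      ∀ K : IntermediateField ℚ Qb, K₀ ≤ K →
        ∃ u : ↥(laurentBaseChange (↥K) (modularFunctionFieldFull N)), u ≠ 0 ∧
          ((u : ↥(laurentBaseChange (↥K) (modularFunctionFieldFull N))) :
            LaurentSeries ↥K).leadingCoeff = 1 ∧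
          (∀ v : Place Qb (modularFunctionFieldBar N),
            (m • (D : Divisor Qb (modularFunctionFieldBar N))) v =
              v.ord (s34galEmb (modularFunctionFieldFull N) K u)) ∧
          (∀ P : Place Qb (modularFunctionFieldBar N),
            P.ord (s34galEmb (modularFunctionFieldFull N) K u) ≠ 0 →
              s34galRational (modularFunctionFieldFull N) K P) ∧
          (∀ P : Place Qb (modularFunctionFieldBar N),
            (m : ℤ) ∣ P.ord (s34galEmb (modularFunctionFieldFull N) K u)) := by
  obtain ⟨D, K₀, hK₀, hD, h⟩ := s34gal_exists_kummer_field N x hx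
  refine ⟨D, K₀, hK₀, hD, fun K hK => ?_⟩
  obtain ⟨u, hu, h1, h2, h3⟩ := h K hK
  have hu' : (u : LaurentSeries ↥K) ≠ 0 := fun h0 => hu (Subtype.ext h0)
  have hc : (u : LaurentSeries ↥K).leadingCoeff ≠ 0 := HahnSeries.leadingCoeff_ne_zero.mpr hu'
  have hord := s34gal_ord_mul_const_inv (modularFunctionFieldFull N) K u hu hc
  refine ⟨u * (algebraMap ↥K ↥(laurentBaseChange (↥K) (modularFunctionFieldFull N))
    (u : LaurentSeries ↥K).leadingCoeff)⁻¹, ?_, ?_, ?_, ?_, ?_⟩
  · refine mul_ne_zero hu (inv_ne_zero ?_)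
    intro h0
    exact hc ((algebraMap ↥K ↥(laurentBaseChange (↥K) (modularFunctionFieldFull N))).injective
      (h0.trans (map_zero _).symm))
  · have hcoe : ((u * (algebraMap ↥K ↥(laurentBaseChange (↥K) (modularFunctionFieldFull N))
        (u : LaurentSeries ↥K).leadingCoeff)⁻¹ :
        ↥(laurentBaseChange (↥K) (modularFunctionFieldFull N))) : LaurentSeries ↥K) =
        (u : LaurentSeries ↥K) * (HahnSeries.C ((u : LaurentSeries ↥K).leadingCoeff))⁻¹ := by
      rw [IntermediateField.coe_mul, IntermediateField.coe_inv, s34gal_coe_algebraMap_eq_C]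
    rw [hcoe]
    exact s34root_leadingCoeff_div (u : LaurentSeries ↥K) hu'
  · intro v
    rw [hord v]
    exact h1 v
  · intro P hP
    rw [hord P] at hP
    exact h2 P hP
  · intro P
    rw [hord P]
    exact h3 P

/-- **ROOT input.** For `u ∈ 𝔽_K` with leading coefficient `1`, the second difference of `u`
under coefficientwise automorphisms has an `m`-th root in `K((q))`. -/
theorem s34gal_exists_root_series (F₀ : IntermediateField ℚ (LaurentSeries ℚ))
    {L : Type*} [Field L] [Algebra ℚ L] [CharZero L] (σ σ' : L ≃ₐ[ℚ] L) {m : ℕ} (hm : m ≠ 0)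
    (u : ↥(laurentBaseChange L F₀)) (hu : (u : LaurentSeries L).leadingCoeff = 1) :
    ∃ W : LaurentSeries L,
      W ^ m = ((absSd (arithmeticRingAut F₀ σ) (arithmeticRingAut F₀ σ') u :
        ↥(laurentBaseChange L F₀)) : LaurentSeries L) :=
  s34root_exists_pow_sd (σ : L →+* L) (σ' : L →+* L) hm (u : LaurentSeries L) hu

/-- **G4 with `absSd`.** GEO from an `m`-th root of the second difference of a Kummer generator
over a normal number field. -/
theorem s34gal_geo_of_pow_absSd (N : ℕ) {m : ℕ} (hm : m ≠ 0) (τ τ' : Qb ≃ₐ[ℚ] Qb)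
    (x : JZero N) (K : IntermediateField ℚ Qb) [Normal ℚ ↥K]
    (D : Divisor.degZero (K := Qb) (F := modularFunctionFieldBar N))
    (u y : ↥(laurentBaseChange (↥K) (modularFunctionFieldFull N)))
    (hD : Pic0.mk D = x) (hu : u ≠ 0)
    (hdiv : ∀ v : Place Qb (modularFunctionFieldBar N),
      (m • (D : Divisor Qb (modularFunctionFieldBar N))) v =
        v.ord (s34galEmb (modularFunctionFieldFull N) K u))
    (hy : y ^ m =
      absSd (arithmeticRingAut (modularFunctionFieldFull N) (τ.restrictNormal ↥K))
        (arithmeticRingAut (modularFunctionFieldFull N) (τ'.restrictNormal ↥K)) u) :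
    τ' • τ • x - τ' • x - τ • x + x = 0 :=
  s34gal_geo_of_pow_field N hm τ τ' x K D u y hD hu hdiv hy

end Fermat.Agent.S34
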