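import Mathlib
import Fermat.Agent.S18.GaussLFull
import Fermat.Agent.S18.GaussLineF
import Fermat.Agent.S18.Char0DegK
import Fermat.Agent.S37.ALEmb
import Fermat.Agent.S24.FFLAlg
import Fermat.Agent.S24.PlacesDeg

/-!
# P19 (S34), block INST, leaf N: the chart rings are noetherian

`Λ ⊆ L` an abstract Gauss ring (`IsGaussRing Λ π res`), `F_N = L(j(q^d) : d ∣ N) ⊆ L((q))`.

* `inst_isMaximal_span_piL` (N2): `(π)` is a maximal ideal of `Λ` (`Λ` is a discrete valuation
  ring: `s34icn_isDiscreteValuationRing`, with fraction field `L`: `s34icn_isFractionRing`);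
* `inst_isNoetherianRing_fin`, `inst_isNoetherianRing_inv` (N1, N1'): the integral closures of
  `Λ[j]` and of `Λ[j⁻¹]` in `F_N` are noetherian rings (finite over `Λ[j^{±1}]`);
* `inst_isNoetherianRing_of_chart` (N3): the same in abstract presentation.
-/

set_option autoImplicit false

namespace Fermat.Agent.S34

open ModularCurve AlgebraicCurve Polynomial IntermediateField
open Fermat.Agent.S18 Fermat.Agent.S28 Fermat.Agent.S28.FreeBasisAbs

section Coeff

variable {L k : Type*} [Field L] [Field k] {Λ : Subring L} {π : L} {res : ↥Λ →+* k}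

/-- An element of `Λ` with nonzero reduction is a unit. -/
theorem s34icn_isUnit_of_res_ne_zero (hΛ : IsGaussRing Λ π res) {u : ↥Λ} (hu : res u ≠ 0) :
    IsUnit u := by
  have hu0 : (u : L) ≠ 0 := fun h => hu (by rw [show u = 0 from Subtype.ext h, map_zero])
  obtain ⟨n, v, hv, hv', huv⟩ := hΛ.unit ((u : L)⁻¹) (inv_ne_zero hu0)
  rcases le_or_gt 0 n with hn | hn
  · have hmem : (u : L)⁻¹ ∈ Λ := by
      rw [huv]
      exact mul_mem (hΛ.zpow_mem hn) hv
    exact IsUnit.of_mul_eq_one (⟨(u : L)⁻¹, hmem⟩ : ↥Λ) (Subtype.ext (mul_inv_cancel₀ hu0))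
  · exfalso
    apply hu
    obtain ⟨m, hm⟩ : ∃ m : ℕ, -n = m + 1 := ⟨(-n - 1).toNat, by omega⟩
    have h1 : (u : L) = π * (π ^ m * v⁻¹) := by
      have h2 : (u : L) = ((u : L)⁻¹)⁻¹ := (inv_inv _).symm
      rw [h2, huv, mul_inv, ← zpow_neg, hm, ← mul_assoc, ← pow_succ']
      norm_cast
    have h3 : u = GaussL.piL hΛ * (GaussL.piL hΛ ^ m * ⟨v⁻¹, hv'⟩) := Subtype.ext h1
    rw [h3, map_mul, GaussL.res_piL, zero_mul]

/-- `Λ` is a discrete valuation ring. -/
theorem s34icn_isDiscreteValuationRing (hΛ : IsGaussRing Λ π res) :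
    IsDiscreteValuationRing ↥Λ := by
  refine IsDiscreteValuationRing.ofHasUnitMulPowIrreducibleFactorization
    ⟨GaussL.piL hΛ, (GaussL.prime_piL hΛ).irreducible, fun {x} hx => ?_⟩
  obtain ⟨n, u, hu, rfl⟩ := GaussL.exists_pow_mul_res_ne_zero hΛ x hx
  obtain ⟨u', rfl⟩ := s34icn_isUnit_of_res_ne_zero hΛ hu
  exact ⟨n, u', rfl⟩

/-- `L` is the fraction field of `Λ`. -/
theorem s34icn_isFractionRing (hΛ : IsGaussRing Λ π res) : IsFractionRing ↥Λ L := by
  refine IsFractionRing.of_field ↥Λ L fun z => ?_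
  obtain ⟨a, b, hb, hab⟩ := GaussL.exists_mul_eq hΛ z
  have hb0 : (b : L) ≠ 0 := fun h => hb (Subtype.ext h)
  refine ⟨a, b, ?_⟩
  show z = (a : L) / (b : L)
  rw [← hab, mul_div_assoc, div_self hb0, mul_one]

/-- (N2) `(π)` is a maximal ideal of `Λ`. -/
theorem inst_isMaximal_span_piL (hΛ : IsGaussRing Λ π res) :
    (Ideal.span {GaussL.piL hΛ}).IsMaximal := by
  have := s34icn_isDiscreteValuationRing hΛ
  exact PrincipalIdealRing.isMaximal_of_irreducible (GaussL.prime_piL hΛ).irreducible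

end Coeff

section Generic

/-- The integral closure of `Λ[x]` (`Λ` a DVR with fraction field `K` of characteristic zero,
`x` transcendental) in a finite extension of `K(x)` is a noetherian ring. -/
theorem s34icn_isNoetherianRing_integralClosure {Λ K 𝔽 : Type*} [CommRing Λ] [IsDomain Λ]
    [IsDiscreteValuationRing Λ] [Field K] [Algebra Λ K] [IsFractionRing Λ K] [Field 𝔽]
    [Algebra K 𝔽] [Algebra Λ 𝔽] [IsScalarTower Λ K 𝔽] [CharZero K] {x : 𝔽}
    (hx : Transcendental K x) [FiniteDimensional K⟮x⟯ 𝔽] :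
    IsNoetherianRing ↥(integralClosure (Algebra.adjoin Λ {x}) 𝔽) := by
  have hfin : Module.Finite (Algebra.adjoin Λ {x}) (integralClosure (Algebra.adjoin Λ {x}) 𝔽) :=
    GaussLineK.finite_integralClosure (Λ := Λ) (K := K) hx
  have hft : Algebra.FiniteType Λ (Algebra.adjoin Λ ({x} : Set 𝔽)) :=
    (Subalgebra.fg_iff_finiteType _).mp ⟨{x}, by rw [Finset.coe_singleton]⟩
  have hR : IsNoetherianRing ↥(Algebra.adjoin Λ ({x} : Set 𝔽)) :=
    Algebra.FiniteType.isNoetherianRing Λ _
  exact IsNoetherianRing.of_finite (Algebra.adjoin Λ ({x} : Set 𝔽)) _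

end Generic

section Chart

variable {L k : Type*} [Field L] [Algebra ℚ L] [Field k] {Λ : Subring L} {π : L}
  {res : ↥Λ →+* k}

omit [Algebra ℚ L] in
/-- `F_N(L)` is finite over `L(j)` (characteristic zero, no embedding into `ℂ` needed). -/
theorem s34icn_finiteDimensional_of_eq [CharZero L] (N : ℕ) [NeZero N]
    (𝔉 : IntermediateField L (LaurentSeries L)) (h𝔉 : 𝔉 = modularFunctionFieldFullC L N)
    (j : ↥𝔉) (hj : (j : LaurentSeries L) = jqModC L) :
    FiniteDimensional ↥(L⟮j⟯) ↥𝔉 := by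
  subst h𝔉
  have hj' : j = GaussL.jC L N := Subtype.ext hj
  rw [hj']
  exact (Char0DegK.finrank_adjoin_jC_le L N).1

theorem s34icn_coe_jL (N : ℕ) [NeZero N] :
    ((Fermat.Agent.S24.jL L N : ↥(laurentBaseChange L (modularFunctionFieldFull N))) :
      LaurentSeries L) = jqModC L := by
  show coeffEmb L jq = jqModC L
  rw [coeffEmb, ← jqModC_rat, coeffMap_jqModC]

theorem s34icn_finiteDimensional_jL [CharZero L] (N : ℕ) [NeZero N] :
    FiniteDimensional ↥(L⟮Fermat.Agent.S24.jL L N⟯)
      ↥(laurentBaseChange L (modularFunctionFieldFull N)) :=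
  s34icn_finiteDimensional_of_eq N _ (Fermat.Agent.S37.ALEmb.baseChange_eq_fullC L N) _
    (s34icn_coe_jL N)

/-- (N1) the integral closure of `Λ[j]` in `F_N` is noetherian. -/
theorem inst_isNoetherianRing_fin [CharZero L] (hΛ : IsGaussRing Λ π res) (N : ℕ) [NeZero N] :
    IsNoetherianRing ↥(integralClosure (Algebra.adjoin ↥Λ {Fermat.Agent.S24.jL L N})
      ↥(laurentBaseChange L (modularFunctionFieldFull N))) := by
  have := s34icn_isDiscreteValuationRing hΛ
  have := s34icn_isFractionRing hΛ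
  have := s34icn_finiteDimensional_jL (L := L) N
  exact s34icn_isNoetherianRing_integralClosure (Λ := ↥Λ) (K := L)
    (Fermat.Agent.S24.transcendental_jL N L)

/-- (N1') the integral closure of `Λ[j⁻¹]` in `F_N` is noetherian. -/
theorem inst_isNoetherianRing_inv [CharZero L] (hΛ : IsGaussRing Λ π res) (N : ℕ) [NeZero N] :
    IsNoetherianRing ↥(integralClosure (Algebra.adjoin ↥Λ {(Fermat.Agent.S24.jL L N)⁻¹})
      ↥(laurentBaseChange L (modularFunctionFieldFull N))) := by
  have := s34icn_isDiscreteValuationRing hΛ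
  have := s34icn_isFractionRing hΛ
  have hfd := s34icn_finiteDimensional_jL (L := L) N
  have hx : Transcendental L (Fermat.Agent.S24.jL L N) := Fermat.Agent.S24.transcendental_jL N L
  have hx' : Transcendental L (Fermat.Agent.S24.jL L N)⁻¹ :=
    Fermat.Agent.S24.PlacesDeg.transcendental_inv hx
  have := Fermat.Agent.S24.PlacesDeg.finiteDimensional_adjoin_of_transcendental hx hx'
  exact s34icn_isNoetherianRing_integralClosure (Λ := ↥Λ) (K := L) hx'

/-- (N3) noetherianity in abstract presentation. -/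
theorem inst_isNoetherianRing_of_chart [CharZero L] (hΛ : IsGaussRing Λ π res) (N : ℕ) [NeZero N]
    (t : ↥(laurentBaseChange L (modularFunctionFieldFull N)))
    (ht : t = Fermat.Agent.S24.jL L N ∨ t = (Fermat.Agent.S24.jL L N)⁻¹)
    {A : Type*} [CommRing A] (iA : A →+* ↥(laurentBaseChange L (modularFunctionFieldFull N)))
    (hiA : Function.Injective iA)
    (hA : ∀ z, (∃ a, iA a = z) ↔ IsIntegral (Algebra.adjoin ↥Λ {t}) z) :
    IsNoetherianRing A := by
  have hC : IsNoetherianRing ↥(integralClosure (Algebra.adjoin ↥Λ {t})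
      ↥(laurentBaseChange L (modularFunctionFieldFull N))) := by
    rcases ht with rfl | rfl
    · exact inst_isNoetherianRing_fin hΛ N
    · exact inst_isNoetherianRing_inv hΛ N
  let f : A →+* ↥(integralClosure (Algebra.adjoin ↥Λ {t})
      ↥(laurentBaseChange L (modularFunctionFieldFull N))) :=
    iA.codRestrict _ (fun a => (hA (iA a)).mp ⟨a, rfl⟩)
  have hf : Function.Bijective f := by
    refine ⟨fun a b hab => hiA (congrArg Subtype.val hab), fun z => ?_⟩
    obtain ⟨a, ha⟩ := (hA (z : ↥(laurentBaseChange L (modularFunctionFieldFull N)))).mpr z.2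
    exact ⟨a, Subtype.ext ha⟩
  exact isNoetherianRing_of_ringEquiv _ (RingEquiv.ofBijective f hf).symm

end Chart

end Fermat.Agent.S34
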