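import Mathlib
import Fermat.Agent.S34.KronTwoVal

/-!
# P19 (S34), block INST, chart package, leaf FRAC (V4, V4')

`V_M` (the Gauss valuation ring of `F_M`) is the chart ring (integral closure of `Λ[j]`, resp.
`Λ[j⁻¹]`) localised at the Gauss prime: every `c ∈ V_M` has a denominator `a'` integral over
`Λ[j]` (in fact `a' ∈ Λ[j]`) with nonzero reduction such that `a' * c` is integral over `Λ[j]`.
-/

set_option autoImplicit false
set_option linter.unusedSectionVars false
set_option linter.style.haveILetI false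

namespace Fermat.Agent.S34

open ModularCurve AlgebraicCurve Polynomial
open Fermat.Agent.S18 Fermat.Agent.S28 Fermat.Agent.S28.FreeBasisAbs

section Abstract

variable {Λ 𝔽 : Type*} [CommRing Λ] [Field 𝔽] [Algebra Λ 𝔽]

/-- common denominator for finitely many elements of the Gauss ring. -/
theorem s34icf_common_den (π : Λ) (hπ : Prime π) (t : 𝔽) (f : ℕ → 𝔽)
    (hf : ∀ i, f i ∈ gaussSub π hπ t) (s : Finset ℕ) :
    ∃ b : Λ[X], ¬ C π ∣ b ∧ ∀ i ∈ s, aeval t b * f i ∈ Algebra.adjoin Λ {t} := by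
  classical
  induction s using Finset.induction_on with
  | empty => exact ⟨1, not_C_dvd_one hπ, fun i hi => absurd hi (Finset.notMem_empty i)⟩
  | insert i s _ ih =>
    obtain ⟨b, hb, h⟩ := ih
    obtain ⟨a₁, b₁, hb₁, h₁⟩ := hf i
    refine ⟨b * b₁, not_C_dvd_mul hπ hb hb₁, fun i' hi' => ?_⟩
    rcases Finset.mem_insert.mp hi' with rfl | hi'
    · have e : aeval t (b * b₁) * f i' = aeval t (b * a₁) := by
        rw [map_mul, map_mul, ← h₁]; ring
      rw [e]
      exact aeval_mem_adjoin_singleton Λ t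
    · have e : aeval t (b * b₁) * f i' = aeval t b * f i' * aeval t b₁ := by
        rw [map_mul]; ring
      rw [e]
      exact mul_mem (h i' hi') (aeval_mem_adjoin_singleton Λ t)

/-- an element integral over the Gauss ring of `Λ(t)` becomes integral over `Λ[t]` after
multiplication by some `b(t)`, `π ∤ b`. -/
theorem s34icf_exists_mul_isIntegral (π : Λ) (hπ : Prime π) (t c : 𝔽)
    (hc : IsIntegral (gaussSub π hπ t) c) :
    ∃ b : Λ[X], ¬ C π ∣ b ∧ IsIntegral (Algebra.adjoin Λ {t}) (aeval t b * c) := by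
  obtain ⟨p, hp, hpc⟩ := hc
  obtain ⟨b, hb, hbs⟩ := s34icf_common_den π hπ t
    (fun i => ((p.coeff i : ↥(gaussSub π hπ t)) : 𝔽)) (fun i => (p.coeff i).2)
    (Finset.range p.natDegree)
  refine ⟨b, hb, ?_⟩
  set P : 𝔽[X] := p.map (algebraMap ↥(gaussSub π hπ t) 𝔽) with hP
  have hPm : P.Monic := hp.map _
  have hPdeg : P.natDegree = p.natDegree := hp.natDegree_map _
  have hPc : aeval c P = 0 := by
    rw [hP, aeval_def, eval₂_map]
    exact hpc
  have hQ0 : aeval (aeval t b * c) (scaleRoots P (aeval t b)) = 0 := by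
    have h := scaleRoots_aeval_eq_zero (p := P) (a := c) (r := aeval t b) hPc
    simpa using h
  have hQm : (scaleRoots P (aeval t b)).Monic := (monic_scaleRoots_iff _).mpr hPm
  have hQl : scaleRoots P (aeval t b) ∈ lifts (algebraMap ↥(Algebra.adjoin Λ {t}) 𝔽) := by
    rw [lifts_iff_coeff_lifts]
    intro n
    rw [coeff_scaleRoots, hPdeg]
    rcases lt_trichotomy n p.natDegree with hn | hn | hn
    · have hmem := hbs n (Finset.mem_range.mpr hn)
      have e : P.coeff n * aeval t b ^ (p.natDegree - n) =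
          aeval t b * ((p.coeff n : ↥(gaussSub π hπ t)) : 𝔽) *
            aeval t b ^ (p.natDegree - n - 1) := by
        have h1 : p.natDegree - n = (p.natDegree - n - 1) + 1 := by omega
        rw [hP, coeff_map]
        conv_lhs => rw [h1, pow_succ]
        have : algebraMap ↥(gaussSub π hπ t) 𝔽 (p.coeff n) =
            ((p.coeff n : ↥(gaussSub π hπ t)) : 𝔽) := rfl
        rw [this]; ring
      rw [e]
      exact ⟨⟨_, mul_mem hmem (pow_mem (aeval_mem_adjoin_singleton Λ t) _)⟩, rfl⟩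
    · subst hn
      have : P.coeff p.natDegree = 1 := by rw [← hPdeg]; exact hPm.coeff_natDegree
      rw [this, Nat.sub_self, pow_zero, mul_one]
      exact ⟨1, map_one _⟩
    · have : P.coeff n = 0 := coeff_eq_zero_of_natDegree_lt (by rw [hPdeg]; exact hn)
      rw [this, zero_mul]
      exact ⟨0, map_zero _⟩
  obtain ⟨Q, hQ, -, hQmonic⟩ := lifts_and_natDegree_eq_and_monic hQl hQm
  refine ⟨Q, hQmonic, ?_⟩
  rw [← eval_map, hQ]
  exact hQ0

end Abstract

section Concrete

open Fermat.Agent.S18.GaussL IntermediateField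

variable {K k : Type*} [Field K] [Field k] {Λ : Subring K} {π : K} {res : ↥Λ →+* k}

/-- the reduction of a polynomial over `Λ` in an element of the Gauss valuation ring. -/
theorem s34icf_gaussRed_aeval (E : IntermediateField K (LaurentSeries K))
    (y : ↥(gaussV Λ res E)) (a : (↥Λ)[X]) :
    gaussRed Λ res E (aeval y a) = aeval (gaussRed Λ res E y) (a.map res) := by
  have hcomp : (gaussRed Λ res E).comp (algebraMap ↥Λ ↥(gaussV Λ res E)) =
      (algebraMap k (LaurentSeries k)).comp res := by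
    ext a : 1
    rw [RingHom.comp_apply, GaussL.gaussRed_algebraMap, RingHom.comp_apply,
      GaussL.algebraMap_eq_C (res a)]
  rw [aeval_def, hom_eval₂, aeval_def, eval₂_map, hcomp]

/-- core: `t ∈ V_E` with transcendental reduction, `c` integral over the Gauss ring of `Λ(t)`. -/
theorem s34icf_core (hΛ : IsGaussRing Λ π res) (E : IntermediateField K (LaurentSeries K))
    (t : ↥E) (ht : t ∈ gaussV Λ res E)
    (htr : Transcendental k (gaussRed Λ res E ⟨t, ht⟩))
    {c : ↥E} (hc : IsIntegral (gaussSub (piL hΛ) (prime_piL hΛ) t) c) :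
    ∃ a' : ↥E, IsIntegral (Algebra.adjoin ↥Λ {t}) a' ∧
      IsIntegral (Algebra.adjoin ↥Λ {t}) (a' * c) ∧
      ∃ ha' : a' ∈ gaussV Λ res E, gaussRed Λ res E ⟨a', ha'⟩ ≠ 0 := by
  obtain ⟨b, hb, hint⟩ := s34icf_exists_mul_isIntegral (piL hΛ) (prime_piL hΛ) t c hc
  have hb' : b.map res ≠ 0 := fun h0 => hb ((C_piL_dvd_iff hΛ b).2 h0)
  have hcoe : ((aeval (⟨t, ht⟩ : ↥(gaussV Λ res E)) b : ↥(gaussV Λ res E)) : ↥E) = aeval t b :=
    aeval_subalgebra_coe b (gaussV Λ res E) ⟨t, ht⟩
  have hmem : aeval t b ∈ gaussV Λ res E := by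
    rw [← hcoe]
    exact (aeval (⟨t, ht⟩ : ↥(gaussV Λ res E)) b).2
  refine ⟨aeval t b, ?_, hint, hmem, ?_⟩
  · exact isIntegral_algebraMap
      (x := (⟨aeval t b, aeval_mem_adjoin_singleton ↥Λ t⟩ : ↥(Algebra.adjoin ↥Λ {t})))
  · have e : (⟨aeval t b, hmem⟩ : ↥(gaussV Λ res E)) =
        aeval (⟨t, ht⟩ : ↥(gaussV Λ res E)) b := Subtype.ext hcoe.symm
    rw [e, s34icf_gaussRed_aeval]
    exact fun h0 => hb' (transcendental_iff.mp htr _ h0)

end Concrete

section Full

open Fermat.Agent.S18.GaussL IntermediateField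

variable {K k : Type*} [Field K] [Field k] {Λ : Subring K} {π : K} {res : ↥Λ →+* k}

theorem s34icf_transcendental_jqModC (k : Type*) [Field k] : Transcendental k (jqModC k) :=
  transcendental_iff.mpr fun _ hp =>
    by_contra fun h => Fermat.Agent.S28.FreeBasisRed.aeval_jqModC_ne_zero k h hp

theorem s34icf_transcendental_jqModC_inv (k : Type*) [Field k] :
    Transcendental k (jqModC k)⁻¹ := fun h =>
  s34icf_transcendental_jqModC k (by simpa using h.inv)

set_option synthInstance.maxHeartbeats 400000 in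
/-- FRAC, convention-free form, chart `j`. -/
theorem s34icf_fin_of_eq [CharZero K] (hΛ : IsGaussRing Λ π res) (N : ℕ) [NeZero N]
    (hN : (N : k) ≠ 0)
    (𝔉 : IntermediateField K (LaurentSeries K)) (h𝔉 : 𝔉 = modularFunctionFieldFullC K N)
    (j : ↥𝔉) (hj : (j : LaurentSeries K) = jqModC K)
    {c : ↥𝔉} (hc : c ∈ gaussV Λ res 𝔉) :
    ∃ a' : ↥𝔉, IsIntegral (Algebra.adjoin ↥Λ {j}) a' ∧
      IsIntegral (Algebra.adjoin ↥Λ {j}) (a' * c) ∧
      ∃ ha' : a' ∈ gaussV Λ res 𝔉, gaussRed Λ res 𝔉 ⟨a', ha'⟩ ≠ 0 := by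
  subst h𝔉
  have hj' : j = jC K N := Subtype.ext hj
  subst hj'
  refine s34icf_core hΛ _ (jC K N) (jC_mem_gaussV Λ res N) ?_
    (GaussOut.isIntegral_gaussSub hΛ N hN hc)
  rw [gaussRed_jC]
  exact s34icf_transcendental_jqModC k

set_option synthInstance.maxHeartbeats 400000 in
/-- FRAC, convention-free form, chart `j⁻¹`. -/
theorem s34icf_inv_of_eq [CharZero K] (hΛ : IsGaussRing Λ π res) (N : ℕ) [NeZero N]
    (hN : (N : k) ≠ 0)
    (𝔉 : IntermediateField K (LaurentSeries K)) (h𝔉 : 𝔉 = modularFunctionFieldFullC K N)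
    (j : ↥𝔉) (hj : (j : LaurentSeries K) = jqModC K)
    {c : ↥𝔉} (hc : c ∈ gaussV Λ res 𝔉) :
    ∃ a' : ↥𝔉, IsIntegral (Algebra.adjoin ↥Λ {j⁻¹}) a' ∧
      IsIntegral (Algebra.adjoin ↥Λ {j⁻¹}) (a' * c) ∧
      ∃ ha' : a' ∈ gaussV Λ res 𝔉, gaussRed Λ res 𝔉 ⟨a', ha'⟩ ≠ 0 := by
  subst h𝔉
  have hj' : j = jC K N := Subtype.ext hj
  subst hj'
  have htK : Transcendental K (jC K N) := fun h =>
    s34icf_transcendental_jqModC K (h.algHom (modularFunctionFieldFullC K N).val)
  have ht : Transcendental ↥Λ (jC K N) :=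
    htK.restrictScalars (R := ↥Λ) Subtype.val_injective
  have hint := GaussOut.isIntegral_gaussSub hΛ N hN hc
  rw [← GaussLineK.gaussSub_inv (piL hΛ) (prime_piL hΛ) ht] at hint
  refine s34icf_core hΛ _ (jC K N)⁻¹ (jC_inv_mem_gaussV Λ res N) ?_ hint
  rw [gaussRed_jC_inv]
  exact s34icf_transcendental_jqModC_inv k

end Full

section Final

variable {L k : Type*} [Field L] [Algebra ℚ L] [Field k] {Λ : Subring L} {π : L}
  {res : ↥Λ →+* k} (M q : ℕ) [NeZero M] [NeZero q]

set_option synthInstance.maxHeartbeats 400000 in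
/-- **FRAC, chart `j`**: `V_M` is the integral closure of `Λ[j]` in `F_M`
localised at the Gauss prime. -/
theorem inst_frac_fin [CharZero L] (hΛ : IsGaussRing Λ π res) (hq : q.Prime) [CharP k q]
    (hcop : Nat.Coprime M q)
    {c : ↥(laurentBaseChange L (modularFunctionFieldFull M))}
    (hc : c ∈ GaussL.gaussV Λ res (laurentBaseChange L (modularFunctionFieldFull M))) :
    ∃ a' : ↥(laurentBaseChange L (modularFunctionFieldFull M)),
      IsIntegral (Algebra.adjoin ↥Λ {Fermat.Agent.S24.jL L M}) a' ∧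
      IsIntegral (Algebra.adjoin ↥Λ {Fermat.Agent.S24.jL L M}) (a' * c) ∧
      ∃ ha' : a' ∈ GaussL.gaussV Λ res (laurentBaseChange L (modularFunctionFieldFull M)),
        GaussL.gaussRed Λ res (laurentBaseChange L (modularFunctionFieldFull M)) ⟨a', ha'⟩ ≠ 0 :=
  s34icf_fin_of_eq hΛ M (ktv_natCast_ne_zero_of_coprime M q hcop hq) _
    (Fermat.Agent.S37.ALEmb.baseChange_eq_fullC L M) (Fermat.Agent.S24.jL L M) (ktv_coe_jL M) hc

set_option synthInstance.maxHeartbeats 400000 in
/-- **FRAC, chart `j⁻¹`**. -/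
theorem inst_frac_inv [CharZero L] (hΛ : IsGaussRing Λ π res) (hq : q.Prime) [CharP k q]
    (hcop : Nat.Coprime M q)
    {c : ↥(laurentBaseChange L (modularFunctionFieldFull M))}
    (hc : c ∈ GaussL.gaussV Λ res (laurentBaseChange L (modularFunctionFieldFull M))) :
    ∃ a' : ↥(laurentBaseChange L (modularFunctionFieldFull M)),
      IsIntegral (Algebra.adjoin ↥Λ {(Fermat.Agent.S24.jL L M)⁻¹}) a' ∧
      IsIntegral (Algebra.adjoin ↥Λ {(Fermat.Agent.S24.jL L M)⁻¹}) (a' * c) ∧
      ∃ ha' : a' ∈ GaussL.gaussV Λ res (laurentBaseChange L (modularFunctionFieldFull M)),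
        GaussL.gaussRed Λ res (laurentBaseChange L (modularFunctionFieldFull M)) ⟨a', ha'⟩ ≠ 0 :=
  s34icf_inv_of_eq hΛ M (ktv_natCast_ne_zero_of_coprime M q hcop hq) _
    (Fermat.Agent.S37.ALEmb.baseChange_eq_fullC L M) (Fermat.Agent.S24.jL L M) (ktv_coe_jL M) hc

end Final

end Fermat.Agent.S34
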