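import Mathlib
import Fermat.Agent.S34.KronDefs
import Fermat.Agent.S18.GaussOut
import Fermat.Agent.S37.KronModEq
import Fermat.Agent.S28.Subst

/-!
# P19 (S34), block KRON, leaf INT: integrality statements from the modular equation

Level `N = M * q`, `q` prime, over a field `L` with a subring `Λ` containing a primitive `q`-th
root of unity.  Inside `F_N = laurentBaseChange L (modularFunctionFieldFull (M * q))`:

* `kron_isIntegral_beta_j` : `j(qz)` is integral over `Λ[j]`;
* `kron_isIntegral_j_beta` : `j` is integral over `Λ[j(qz)]`;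
* `kron_exists_inf_j`      : the cusp chart: `s(1/j(qz)) / j` is integral over `Λ[1/j(qz)]` for some
  `s ∈ Λ[V]` with `s(0) = 1`;
* `kron_exists_inf_beta`   : the same with `j` and `j(qz)` exchanged (apply the Atkin-Lehner
  involution `kronW`).

All of them are transported from `Fermat/Agent/S37/KronModEq.lean` (statements about Laurent
series over the subring `serRing`).
-/

set_option autoImplicit false
set_option linter.style.haveILetI false
set_option linter.unusedVariables false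

namespace Fermat.Agent.S34

open ModularCurve AlgebraicCurve Polynomial
open Fermat.Agent.S18 Fermat.Agent.S28 Fermat.Agent.S28.FreeBasisAbs

namespace KronInt

/-- An element integral over a subring is a root of a monic polynomial with coefficients in the
subring. -/
theorem exists_poly_of_isIntegral_subring {B : Type*} [CommRing B] (T : Subring B) {y : B}
    (h : IsIntegral T y) :
    ∃ P : B[X], P.Monic ∧ (∀ i, P.coeff i ∈ T) ∧ P.eval y = 0 := by
  obtain ⟨p, hp, hpy⟩ := h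
  refine ⟨p.map T.subtype, hp.map _, fun i => ?_, ?_⟩
  · rw [coeff_map]
    exact (p.coeff i).2
  · rw [eval_map]
    exact hpy

/-- An element integral over a subalgebra is a root of a monic polynomial with coefficients in
the subalgebra. -/
theorem exists_poly_of_isIntegral_subalgebra {R₀ A : Type*} [CommRing R₀] [CommRing A]
    [Algebra R₀ A] (S : Subalgebra R₀ A) {x : A} (h : IsIntegral S x) :
    ∃ P : A[X], P.Monic ∧ (∀ i, P.coeff i ∈ S) ∧ P.eval x = 0 := by
  obtain ⟨p, hp, hpx⟩ := h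
  refine ⟨p.map (algebraMap S A), hp.map _, fun i => ?_, ?_⟩
  · rw [coeff_map]
    exact (p.coeff i).2
  · rw [eval_map]
    exact hpx

/-- A root of a monic polynomial with coefficients in a subalgebra is integral over it. -/
theorem isIntegral_subalgebra_of_poly {R₀ A : Type*} [CommRing R₀] [CommRing A]
    [Algebra R₀ A] (S : Subalgebra R₀ A) {x : A} (P : A[X]) (hP : P.Monic)
    (hc : ∀ i, P.coeff i ∈ S) (hx : P.eval x = 0) : IsIntegral S x := by
  have hl : P ∈ Polynomial.lifts (algebraMap S A) := by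
    rw [lifts_iff_coeff_lifts]
    intro n
    exact ⟨⟨P.coeff n, hc n⟩, rfl⟩
  obtain ⟨r, hr, -, hrm⟩ := lifts_and_natDegree_eq_and_monic hl hP
  refine ⟨r, hrm, ?_⟩
  rw [← eval_map, hr]
  exact hx

/-- Transport of integrality along an injective ring homomorphism `f : A → B`: if `f x` is
integral over a subring `T` of `B` contained in the image of the subalgebra `S` of `A`, then `x`
is integral over `S`. -/
theorem isIntegral_of_map_le {R₀ A B : Type*} [CommRing R₀] [CommRing A] [CommRing B]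
    [Algebra R₀ A] (f : A →+* B) (hf : Function.Injective f) (S : Subalgebra R₀ A)
    (T : Subring B) (hTS : ∀ y ∈ T, ∃ s ∈ S, f s = y) (x : A) (hx : IsIntegral T (f x)) :
    IsIntegral S x := by
  obtain ⟨P, hP, hPc, hPx⟩ := exists_poly_of_isIntegral_subring T hx
  have hl : P ∈ Polynomial.lifts (f.comp (algebraMap S A)) := by
    rw [lifts_iff_coeff_lifts]
    intro n
    obtain ⟨s, hs, hsf⟩ := hTS _ (hPc n)
    exact ⟨⟨s, hs⟩, hsf⟩
  obtain ⟨r, hr, -, hrm⟩ := lifts_and_natDegree_eq_and_monic hl hP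
  refine ⟨r, hrm, hf ?_⟩
  rw [map_zero, hom_eval₂, ← eval_map, hr]
  exact hPx

/-- Transport of integrality along a ring homomorphism `w : A → A` mapping the subalgebra `S₁`
into the subalgebra `S₂`. -/
theorem isIntegral_map_of_le {R₀ A : Type*} [CommRing R₀] [CommRing A] [Algebra R₀ A]
    (w : A →+* A) (S₁ S₂ : Subalgebra R₀ A) (h12 : ∀ c ∈ S₁, w c ∈ S₂) {x : A}
    (hx : IsIntegral S₁ x) : IsIntegral S₂ (w x) := by
  obtain ⟨P, hP, hPc, hPx⟩ := exists_poly_of_isIntegral_subalgebra S₁ hx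
  refine isIntegral_subalgebra_of_poly S₂ (P.map w) (hP.map w) (fun i => ?_) ?_
  · rw [coeff_map]
    exact h12 _ (hPc i)
  · rw [eval_map, eval₂_at_apply, hPx, map_zero]

/-- Clearing denominators: if `x` is integral over a subring `T` every element of which becomes
an element of the subring `R₀` after multiplication by a power of `σ ∈ R₀`, then `σ ^ k * x` is
integral over `R₀` for some `k`. -/
theorem exists_pow_mul_isIntegral {B : Type*} [CommRing B] (R₀ T : Subring B) (σ : B)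
    (hσ : σ ∈ R₀) (hT : ∀ z ∈ T, ∃ k : ℕ, σ ^ k * z ∈ R₀) {x : B} (hx : IsIntegral T x) :
    ∃ k : ℕ, IsIntegral R₀ (σ ^ k * x) := by
  classical
  obtain ⟨P, hP, hPc, hPx⟩ := exists_poly_of_isIntegral_subring T hx
  choose k hk using fun i => hT _ (hPc i)
  set K : ℕ := ∑ i ∈ Finset.range (P.natDegree + 1), k i with hK
  have hKi : ∀ i, σ ^ K * P.coeff i ∈ R₀ := by
    intro i
    by_cases hi : i ∈ Finset.range (P.natDegree + 1)
    · have hle : k i ≤ K := Finset.single_le_sum (f := k) (fun _ _ => Nat.zero_le _) hi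
      obtain ⟨d, hd⟩ := Nat.exists_eq_add_of_le hle
      rw [hd, pow_add, mul_comm (σ ^ k i), mul_assoc]
      exact R₀.mul_mem (R₀.pow_mem hσ d) (hk i)
    · rw [Finset.mem_range, not_lt] at hi
      rw [coeff_eq_zero_of_natDegree_lt (by omega), mul_zero]
      exact R₀.zero_mem
  refine ⟨K, Fermat.Agent.S37.KronModEq.isIntegral_of_monic_of_coeff_mem R₀
    (scaleRoots P (σ ^ K)) ((monic_scaleRoots_iff (σ ^ K)).mpr hP) (fun i => ?_) _ ?_⟩
  · rw [coeff_scaleRoots]
    by_cases hi : i < P.natDegree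
    · obtain ⟨d, hd⟩ := Nat.exists_eq_add_of_lt hi
      have h1 : P.natDegree - i = d + 1 := by omega
      rw [h1, pow_succ, ← mul_assoc, mul_comm (P.coeff i), mul_assoc, mul_comm (P.coeff i)]
      exact R₀.mul_mem (R₀.pow_mem (R₀.pow_mem hσ K) d) (hKi i)
    · rcases Nat.eq_or_lt_of_le (not_lt.mp hi) with h | h
      · rw [← h, Nat.sub_self, pow_zero, mul_one, coeff_natDegree, hP.leadingCoeff]
        exact R₀.one_mem
      · rw [coeff_eq_zero_of_natDegree_lt h, zero_mul]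
        exact R₀.zero_mem
  · have h0 : eval₂ (RingHom.id B) x P = 0 := by
      rw [eval₂_id]
      exact hPx
    have h1 := scaleRoots_eval₂_mul (f := RingHom.id B) (p := P) (r := x) (s := σ ^ K)
    rw [h0, mul_zero, RingHom.id_apply, eval₂_id] at h1
    exact h1

/-- Subring version of `isIntegral_of_map_le`. -/
theorem isIntegral_subring_of_map_le {A B : Type*} [CommRing A] [CommRing B]
    (f : A →+* B) (hf : Function.Injective f) (S : Subring A)
    (T : Subring B) (hTS : ∀ y ∈ T, ∃ s ∈ S, f s = y) (x : A) (hx : IsIntegral T (f x)) :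
    IsIntegral S x := by
  obtain ⟨P, hP, hPc, hPx⟩ := exists_poly_of_isIntegral_subring T hx
  have hl : P ∈ Polynomial.lifts (f.comp S.subtype) := by
    rw [lifts_iff_coeff_lifts]
    intro n
    obtain ⟨s, hs, hsf⟩ := hTS _ (hPc n)
    exact ⟨⟨s, hs⟩, hsf⟩
  obtain ⟨r, hr, -, hrm⟩ := lifts_and_natDegree_eq_and_monic hl hP
  refine Fermat.Agent.S37.KronModEq.isIntegral_of_monic_of_coeff_mem S (r.map S.subtype)
    (hrm.map _) (fun i => ?_) x (hf ?_)
  · rw [coeff_map]
    exact (r.coeff i).2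
  · rw [map_zero, eval_map, hom_eval₂, ← eval_map, hr]
    exact hPx

section Series

open Fermat.Agent.S37.KronModEq Fermat.Agent.S24

variable {L : Type*} [Field L] (Λ : Subring L)

/-- Every element of `serRing Λ g 1` (for `g` in an intermediate field `F` of `L((q))/L`) is the
image of an element of `Λ[g] ⊆ F`. -/
theorem exists_mem_adjoin_of_mem_serRing (F : IntermediateField L (LaurentSeries L)) (g : ↥F)
    (y : LaurentSeries L) (hy : y ∈ serRing Λ (g : LaurentSeries L) 1) :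
    ∃ c ∈ Algebra.adjoin ↥Λ {g}, ((c : ↥F) : LaurentSeries L) = y := by
  induction hy using Subring.closure_induction with
  | mem z hz =>
    rcases hz with ⟨a, ha, rfl⟩ | hz
    · refine ⟨algebraMap ↥Λ ↥F ⟨a, ha⟩, Subalgebra.algebraMap_mem _ _, ?_⟩
      exact LaurentDeriv.algebraMap_eq_C a
    · rcases hz with rfl | hz
      · exact ⟨g, Algebra.subset_adjoin (Set.mem_singleton g), rfl⟩
      · rw [Set.mem_singleton_iff] at hz
        subst hz
        exact ⟨1, Subalgebra.one_mem _, rfl⟩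
  | zero => exact ⟨0, Subalgebra.zero_mem _, rfl⟩
  | one => exact ⟨1, Subalgebra.one_mem _, rfl⟩
  | add z w _ _ hz hw =>
    obtain ⟨c, hc, rfl⟩ := hz
    obtain ⟨d, hd, rfl⟩ := hw
    exact ⟨c + d, Subalgebra.add_mem _ hc hd, rfl⟩
  | neg z _ hz =>
    obtain ⟨c, hc, rfl⟩ := hz
    exact ⟨-c, Subalgebra.neg_mem _ hc, rfl⟩
  | mul z w _ _ hz hw =>
    obtain ⟨c, hc, rfl⟩ := hz
    obtain ⟨d, hd, rfl⟩ := hw
    exact ⟨c * d, Subalgebra.mul_mem _ hc hd, rfl⟩

/-- From Laurent series to the function field: the affine chart. -/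
theorem isIntegral_adjoin_of_serRing (F : IntermediateField L (LaurentSeries L)) (g h : ↥F)
    (hint : IsIntegral (serRing Λ (g : LaurentSeries L) 1) (h : LaurentSeries L)) :
    IsIntegral (Algebra.adjoin ↥Λ {g}) h :=
  isIntegral_of_map_le (F.val : ↥F →+* LaurentSeries L) Subtype.val_injective
    (Algebra.adjoin ↥Λ {g}) (serRing Λ (g : LaurentSeries L) 1)
    (exists_mem_adjoin_of_mem_serRing Λ F g) h hint

/-- Every element of `serRing Λ V u`, `u = σ⁻¹`, `σ ∈ serRing Λ V 1`, becomes an element of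
`serRing Λ V 1` after multiplication by a power of `σ`. -/
theorem exists_pow_mul_mem_serRing (V σ : LaurentSeries L) (hσ : σ ∈ serRing Λ V 1)
    (z : LaurentSeries L) (hz : z ∈ serRing Λ V σ⁻¹) :
    ∃ k : ℕ, σ ^ k * z ∈ serRing Λ V 1 := by
  induction hz using Subring.closure_induction with
  | mem z hz =>
    rcases hz with ⟨a, ha, rfl⟩ | hz
    · exact ⟨0, by rw [pow_zero, one_mul]; exact C_mem_serRing Λ V 1 ha⟩
    · rcases hz with rfl | hz
      · exact ⟨0, by rw [pow_zero, one_mul]; exact fst_mem_serRing Λ z 1⟩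
      · rw [Set.mem_singleton_iff] at hz
        subst hz
        by_cases h0 : σ = 0
        · exact ⟨0, by rw [h0, inv_zero, mul_zero]; exact Subring.zero_mem _⟩
        · exact ⟨1, by rw [pow_one, mul_inv_cancel₀ h0]; exact Subring.one_mem _⟩
  | zero => exact ⟨0, by rw [mul_zero]; exact Subring.zero_mem _⟩
  | one => exact ⟨0, by rw [pow_zero, one_mul]; exact Subring.one_mem _⟩
  | add z w _ _ hz hw =>
    obtain ⟨a, ha⟩ := hz
    obtain ⟨b, hb⟩ := hw
    refine ⟨a + b, ?_⟩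
    have h1 : σ ^ (a + b) * (z + w) = σ ^ b * (σ ^ a * z) + σ ^ a * (σ ^ b * w) := by ring
    rw [h1]
    exact Subring.add_mem _ (Subring.mul_mem _ (Subring.pow_mem _ hσ b) ha)
      (Subring.mul_mem _ (Subring.pow_mem _ hσ a) hb)
  | neg z _ hz =>
    obtain ⟨a, ha⟩ := hz
    exact ⟨a, by rw [mul_neg]; exact Subring.neg_mem _ ha⟩
  | mul z w _ _ hz hw =>
    obtain ⟨a, ha⟩ := hz
    obtain ⟨b, hb⟩ := hw
    refine ⟨a + b, ?_⟩
    have h1 : σ ^ (a + b) * (z * w) = (σ ^ a * z) * (σ ^ b * w) := by ring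
    rw [h1]
    exact Subring.mul_mem _ ha hb

/-- From Laurent series to the function field: the chart at the cusp. -/
theorem exists_isIntegral_adjoin_inv (F : IntermediateField L (LaurentSeries L)) (g h : ↥F)
    (s : L[X]) (hs : ∀ i, s.coeff i ∈ Λ) (hs0 : s.coeff 0 = 1)
    (hint : IsIntegral (serRing Λ (g : LaurentSeries L)⁻¹
      (aeval (g : LaurentSeries L)⁻¹ s)⁻¹) (h : LaurentSeries L)⁻¹) :
    ∃ s' : (↥Λ)[X], s'.coeff 0 = 1 ∧
      IsIntegral (Algebra.adjoin ↥Λ {g⁻¹}) (aeval g⁻¹ s' * h⁻¹) := by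
  set V : LaurentSeries L := (g : LaurentSeries L)⁻¹ with hV
  set σ : LaurentSeries L := aeval V s with hσdef
  have hσ : σ ∈ serRing Λ V 1 := aeval_mem_serRing Λ V 1 s hs
  obtain ⟨K, hK⟩ := exists_pow_mul_isIntegral (serRing Λ V 1) (serRing Λ V σ⁻¹) σ hσ
    (exists_pow_mul_mem_serRing Λ V σ hσ) hint
  -- the lift of `s` to `Λ[X]`
  have hl : s ∈ Polynomial.lifts Λ.subtype := by
    rw [lifts_iff_coeff_lifts]
    intro n
    exact ⟨⟨s.coeff n, hs n⟩, rfl⟩
  obtain ⟨s₀, hs₀'⟩ := hl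
  have hs₀ : s₀.map Λ.subtype = s := hs₀'
  have hhom : ((F.val : ↥F →+* LaurentSeries L)).comp (algebraMap ↥Λ ↥F)
      = (algebraMap L (LaurentSeries L)).comp Λ.subtype := RingHom.ext fun r => rfl
  have haev : ∀ p : (↥Λ)[X], ((aeval (g⁻¹ : ↥F) p : ↥F) : LaurentSeries L)
      = aeval V (p.map Λ.subtype) := by
    intro p
    rw [aeval_def, aeval_def, eval₂_map, ← hhom]
    exact hom_eval₂ p (algebraMap ↥Λ ↥F) (F.val : ↥F →+* LaurentSeries L) (g⁻¹)
  have hcoe : (((aeval (g⁻¹ : ↥F) (s₀ ^ K) * h⁻¹ : ↥F) : ↥F) : LaurentSeries L)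
      = σ ^ K * (h : LaurentSeries L)⁻¹ := by
    have h1 : (((aeval (g⁻¹ : ↥F) (s₀ ^ K) * h⁻¹ : ↥F) : ↥F) : LaurentSeries L)
        = ((aeval (g⁻¹ : ↥F) (s₀ ^ K) : ↥F) : LaurentSeries L) * (h : LaurentSeries L)⁻¹ := rfl
    rw [h1, haev, Polynomial.map_pow, hs₀, map_pow]
  refine ⟨s₀ ^ K, ?_, ?_⟩
  · have h2 : s₀.coeff 0 = 1 := by
      apply Subtype.ext
      have h3 : (s₀.map Λ.subtype).coeff 0 = 1 := by rw [hs₀]; exact hs0
      rw [coeff_map] at h3
      exact h3
    rw [coeff_zero_eq_eval_zero, eval_pow, ← coeff_zero_eq_eval_zero, h2, one_pow]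
  · have hVg : ((g⁻¹ : ↥F) : LaurentSeries L) = V := rfl
    refine isIntegral_of_map_le (F.val : ↥F →+* LaurentSeries L) Subtype.val_injective
      (Algebra.adjoin ↥Λ {g⁻¹}) (serRing Λ V 1) ?_ _ ?_
    · intro y hy
      exact exists_mem_adjoin_of_mem_serRing Λ F g⁻¹ y hy
    · show IsIntegral _ (((aeval (g⁻¹ : ↥F) (s₀ ^ K) * h⁻¹ : ↥F) : ↥F) : LaurentSeries L)
      rw [hcoe]
      exact hK

/-- A ring endomorphism of `L((q))` fixing the constants maps `serRing Λ t u` onto
`serRing Λ (f t) (f u)`. -/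
theorem exists_mem_serRing_of_mem_map (f : LaurentSeries L →+* LaurentSeries L)
    (hfC : ∀ a : L, f (HahnSeries.C a) = HahnSeries.C a) (t u : LaurentSeries L)
    (y : LaurentSeries L) (hy : y ∈ serRing Λ (f t) (f u)) :
    ∃ c ∈ serRing Λ t u, f c = y := by
  induction hy using Subring.closure_induction with
  | mem z hz =>
    rcases hz with ⟨a, ha, rfl⟩ | hz
    · exact ⟨HahnSeries.C a, C_mem_serRing Λ t u ha, hfC a⟩
    · rcases hz with rfl | hz
      · exact ⟨t, fst_mem_serRing Λ t u, rfl⟩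
      · rw [Set.mem_singleton_iff] at hz
        subst hz
        exact ⟨u, snd_mem_serRing Λ t u, rfl⟩
  | zero => exact ⟨0, Subring.zero_mem _, map_zero f⟩
  | one => exact ⟨1, Subring.one_mem _, map_one f⟩
  | add z w _ _ hz hw =>
    obtain ⟨c, hc, rfl⟩ := hz
    obtain ⟨d, hd, rfl⟩ := hw
    exact ⟨c + d, Subring.add_mem _ hc hd, map_add f c d⟩
  | neg z _ hz =>
    obtain ⟨c, hc, rfl⟩ := hz
    exact ⟨-c, Subring.neg_mem _ hc, map_neg f c⟩
  | mul z w _ _ hz hw =>
    obtain ⟨c, hc, rfl⟩ := hz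
    obtain ⟨d, hd, rfl⟩ := hw
    exact ⟨c * d, Subring.mul_mem _ hc hd, map_mul f c d⟩

/-- Variant of `isIntegral_adjoin_of_serRing` with the coercions named. -/
theorem isIntegral_adjoin_of_serRing' (F : IntermediateField L (LaurentSeries L)) (g h : ↥F)
    (t x : LaurentSeries L) (ht : (g : LaurentSeries L) = t) (hx : (h : LaurentSeries L) = x)
    (hint : IsIntegral (serRing Λ t 1) x) :
    IsIntegral (Algebra.adjoin ↥Λ {g}) h := by
  subst ht hx
  exact isIntegral_adjoin_of_serRing Λ F g h hint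

/-- Variant of `exists_isIntegral_adjoin_inv` with the coercions named. -/
theorem exists_isIntegral_adjoin_inv' (F : IntermediateField L (LaurentSeries L)) (g h : ↥F)
    (t x : LaurentSeries L) (ht : (g : LaurentSeries L) = t) (hx : (h : LaurentSeries L) = x)
    (s : L[X]) (hs : ∀ i, s.coeff i ∈ Λ) (hs0 : s.coeff 0 = 1)
    (hint : IsIntegral (serRing Λ t⁻¹ (aeval t⁻¹ s)⁻¹) x⁻¹) :
    ∃ s' : (↥Λ)[X], s'.coeff 0 = 1 ∧
      IsIntegral (Algebra.adjoin ↥Λ {g⁻¹}) (aeval g⁻¹ s' * h⁻¹) := by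
  subst ht hx
  exact exists_isIntegral_adjoin_inv Λ F g h s hs hs0 hint

end Series

section Coe

variable (L : Type*) [Field L] [Algebra ℚ L] (M q : ℕ) [NeZero M] [NeZero q]

theorem coe_jL_eq (N : ℕ) [NeZero N] :
    ((Fermat.Agent.S24.jL L N : Fermat.Agent.S24.FFL L N) : LaurentSeries L) = jqModC L :=
  Fermat.Agent.S28.coeffEmb_jq L

theorem coe_beta_jL_eq :
    ((heckeBetaBar L M q (Fermat.Agent.S24.jL L M) :
      ↥(laurentBaseChange L (modularFunctionFieldFull (M * q)))) : LaurentSeries L)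
      = qExpand L q (jqModC L) := by
  rw [coe_heckeBetaBar, coe_jL_eq]

end Coe

end KronInt

section Kron
variable {L k : Type*} [Field L] [Algebra ℚ L] [Field k] {Λ : Subring L} {π : L}
  {res : ↥Λ →+* k} (M q : ℕ) [NeZero M] [NeZero q]

open Fermat.Agent.S37.KronModEq in
/-- `j(qz)` is integral over `Λ[j]`. -/
theorem kron_isIntegral_beta_j (hΛ : IsGaussRing Λ π res) (hq : q.Prime)
    (ζ : Lˣ) (hζ : IsPrimitiveRoot ζ q) (hζΛ : (ζ : L) ∈ Λ) :
    IsIntegral (Algebra.adjoin ↥Λ {Fermat.Agent.S24.jL L (M * q)})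
      (heckeBetaBar L M q (Fermat.Agent.S24.jL L M)) := by
  haveI : Fact q.Prime := ⟨hq⟩
  exact KronInt.isIntegral_adjoin_of_serRing' Λ _ _ _ _ _ (KronInt.coe_jL_eq L (M * q))
    (KronInt.coe_beta_jL_eq L M q) (isIntegral_fin_swap q Λ ζ hζ hζΛ)

open Fermat.Agent.S37.KronModEq in
/-- `j` is integral over `Λ[j(qz)]`. -/
theorem kron_isIntegral_j_beta (hΛ : IsGaussRing Λ π res) (hq : q.Prime)
    (ζ : Lˣ) (hζ : IsPrimitiveRoot ζ q) (hζΛ : (ζ : L) ∈ Λ) :
    IsIntegral (Algebra.adjoin ↥Λ {heckeBetaBar L M q (Fermat.Agent.S24.jL L M)})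
      (Fermat.Agent.S24.jL L (M * q)) := by
  haveI : Fact q.Prime := ⟨hq⟩
  have h := isIntegral_fin_rot q Λ ζ hζ hζΛ 0
  rw [pow_zero, Fermat.Agent.S24.laurentRot_one] at h
  exact KronInt.isIntegral_adjoin_of_serRing' Λ _ _ _ _ _ (KronInt.coe_beta_jL_eq L M q)
    (KronInt.coe_jL_eq L (M * q)) h

open Fermat.Agent.S37.KronModEq in
/-- The chart at the cusp, over `Λ[1/j]`. -/
theorem kron_exists_inf_beta (hΛ : IsGaussRing Λ π res) (hq : q.Prime)
    (ζ : Lˣ) (hζ : IsPrimitiveRoot ζ q) (hζΛ : (ζ : L) ∈ Λ) :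
    ∃ s : (↥Λ)[X], s.coeff 0 = 1 ∧
      IsIntegral (Algebra.adjoin ↥Λ {(Fermat.Agent.S24.jL L (M * q))⁻¹})
        (aeval (Fermat.Agent.S24.jL L (M * q))⁻¹ s *
          (heckeBetaBar L M q (Fermat.Agent.S24.jL L M))⁻¹) := by
  haveI : Fact q.Prime := ⟨hq⟩
  obtain ⟨s, hsΛ, hs0, hinf, -⟩ := exists_inf q Λ ζ hζ hζΛ
  refine KronInt.exists_isIntegral_adjoin_inv' Λ _ _ _ _ _ (KronInt.coe_jL_eq L (M * q))
    (KronInt.coe_beta_jL_eq L M q) s hsΛ hs0 ?_
  -- pull back along `q ↦ q ^ q`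
  have hf1 : qExpand L q (jqModC L)⁻¹ = (qExpand L q (jqModC L))⁻¹ := map_inv₀ _ _
  have hcomp : (qExpand L q).comp
      (Polynomial.aeval (jqModC L)⁻¹ : Polynomial L →ₐ[L] LaurentSeries L).toRingHom =
      (Polynomial.aeval (qExpand L q (jqModC L)⁻¹) : Polynomial L →ₐ[L] LaurentSeries L).toRingHom := by
    refine Polynomial.ringHom_ext (fun a => ?_) ?_
    · simp only [RingHom.comp_apply, AlgHom.toRingHom_eq_coe, RingHom.coe_coe, aeval_C]
      exact (qExpandAlgHomC L q).commutes a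
    · simp only [RingHom.comp_apply, AlgHom.toRingHom_eq_coe, RingHom.coe_coe, aeval_X]
  have hf2 : (aeval (qExpand L q (jqModC L)⁻¹) s)⁻¹ = qExpand L q (aeval (jqModC L)⁻¹ s)⁻¹ := by
    rw [map_inv₀ (qExpand L q) (aeval (jqModC L)⁻¹ s)]
    congr 1
    exact (RingHom.congr_fun hcomp s).symm
  refine KronInt.isIntegral_subring_of_map_le (qExpand L q) (qExpand_injective q) _
    (serRing Λ (qExpand L q (jqModC L))⁻¹ (aeval (qExpand L q (jqModC L))⁻¹ s)⁻¹) ?_ _ ?_
  · intro y hy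
    rw [← hf1] at hy
    rw [hf2] at hy
    exact KronInt.exists_mem_serRing_of_mem_map Λ (qExpand L q) (fun a => qExpand_C q a) _ _ y hy
  · rw [map_inv₀, qExpand_qExpand]
    exact hinf

open Fermat.Agent.S37.KronModEq in
/-- The chart at the cusp, over `Λ[1/j(qz)]`. -/
theorem kron_exists_inf_j (hΛ : IsGaussRing Λ π res) (hq : q.Prime)
    (ζ : Lˣ) (hζ : IsPrimitiveRoot ζ q) (hζΛ : (ζ : L) ∈ Λ) :
    ∃ s : (↥Λ)[X], s.coeff 0 = 1 ∧
      IsIntegral (Algebra.adjoin ↥Λ {(heckeBetaBar L M q (Fermat.Agent.S24.jL L M))⁻¹})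
        (aeval (heckeBetaBar L M q (Fermat.Agent.S24.jL L M))⁻¹ s *
          (Fermat.Agent.S24.jL L (M * q))⁻¹) := by
  haveI : Fact q.Prime := ⟨hq⟩
  obtain ⟨s, hsΛ, hs0, -, hrot⟩ := exists_inf q Λ ζ hζ hζΛ
  have h := hrot 0
  rw [pow_zero, Fermat.Agent.S24.laurentRot_one] at h
  exact KronInt.exists_isIntegral_adjoin_inv' Λ _ _ _ _ _ (KronInt.coe_beta_jL_eq L M q)
    (KronInt.coe_jL_eq L (M * q)) s hsΛ hs0 h

end Kron

end Fermat.Agent.S34
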