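import Mathlib
import Fermat.Agent.S34.KronInt
import Fermat.Prelude.Def_ModularCurve_ArithmeticGalois

/-!
# P19 (S34), block INST, leaf T: transport of integrality over `Λ[j]` / `Λ[1/j]`

`F_{N'} = laurentBaseChange L (modularFunctionFieldFull N')`, `j = S24.jL L N'`, `Λ : Subring L`.

* (T1) `inst_alpha_isIntegral`, `inst_alpha_isIntegral_inv` : `α = heckeAlphaBar L M q` maps
  elements integral over `Λ[j_M]` (resp. `Λ[j_M⁻¹]`) to elements integral over `Λ[j_N]`
  (resp. `Λ[j_N⁻¹]`), `N = M * q`;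
* (T2) `inst_beta_isIntegral` : `β = heckeBetaBar L M q` maps elements integral over `Λ[j_M]` to
  elements integral over `Λ[j_N]` (`kron_isIntegral_beta_j` + transitivity);
* (T3) `inst_ringAut_isIntegral`, `inst_ringAut_isIntegral_inv` : the coefficientwise
  automorphism `arithmeticRingAut σ` (`σ Λ ⊆ Λ`) preserves integrality over `Λ[j]` and `Λ[j⁻¹]`.
-/

set_option autoImplicit false
set_option linter.style.haveILetI false
set_option linter.unusedVariables false

namespace Fermat.Agent.S34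

open ModularCurve AlgebraicCurve Polynomial
open Fermat.Agent.S18 Fermat.Agent.S28 Fermat.Agent.S28.FreeBasisAbs

namespace InstChartT

/-- Transport of integrality along a ring homomorphism `w : A → A'` mapping the subalgebra `S₁`
into the subalgebra `S₂`. -/
theorem isIntegral_map_of_le₂ {R₀ R₁ A A' : Type*} [CommRing R₀] [CommRing R₁] [CommRing A]
    [CommRing A'] [Algebra R₀ A] [Algebra R₁ A'] (w : A →+* A') (S₁ : Subalgebra R₀ A)
    (S₂ : Subalgebra R₁ A') (h12 : ∀ c ∈ S₁, w c ∈ S₂) {x : A} (hx : IsIntegral S₁ x) :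
    IsIntegral S₂ (w x) := by
  obtain ⟨P, hP, hPc, hPx⟩ := KronInt.exists_poly_of_isIntegral_subalgebra S₁ hx
  refine KronInt.isIntegral_subalgebra_of_poly S₂ (P.map w) (hP.map w) (fun i => ?_) ?_
  · rw [coeff_map]
    exact h12 _ (hPc i)
  · rw [eval_map, eval₂_at_apply, hPx, map_zero]

/-- A ring homomorphism mapping the constants into `R₁[w t]` maps `R₀[t]` into `R₁[w t]`. -/
theorem map_mem_adjoin {R₀ R₁ A A' : Type*} [CommRing R₀] [CommRing R₁] [CommRing A]
    [CommRing A'] [Algebra R₀ A] [Algebra R₁ A'] (w : A →+* A') (t : A)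
    (hw : ∀ r : R₀, w (algebraMap R₀ A r) ∈ Algebra.adjoin R₁ {w t}) (c : A)
    (hc : c ∈ Algebra.adjoin R₀ {t}) : w c ∈ Algebra.adjoin R₁ {w t} := by
  induction hc using Algebra.adjoin_induction with
  | mem x hx =>
    rw [Set.mem_singleton_iff] at hx
    subst hx
    exact Algebra.subset_adjoin (Set.mem_singleton _)
  | algebraMap r => exact hw r
  | add x y _ _ hx hy =>
    rw [map_add]
    exact Subalgebra.add_mem _ hx hy
  | mul x y _ _ hx hy =>
    rw [map_mul]
    exact Subalgebra.mul_mem _ hx hy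

/-- Transitivity of integrality for subalgebras. -/
theorem isIntegral_trans_subalgebra {R₀ A : Type*} [CommRing R₀] [CommRing A] [Algebra R₀ A]
    (S₁ S₂ : Subalgebra R₀ A) (h : ∀ c ∈ S₁, IsIntegral S₂ c) {x : A} (hx : IsIntegral S₁ x) :
    IsIntegral S₂ x := by
  obtain ⟨P, hP, hPc, hPx⟩ := KronInt.exists_poly_of_isIntegral_subalgebra S₁ hx
  have h1 : IsIntegral (integralClosure (↥S₂) A) x :=
    KronInt.isIntegral_subalgebra_of_poly (integralClosure (↥S₂) A) P hP
      (fun i => h _ (hPc i)) hPx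
  exact isIntegral_trans x h1

/-- Elements of a subalgebra are integral over it. -/
theorem isIntegral_of_mem {R₀ A : Type*} [CommRing R₀] [CommRing A] [Algebra R₀ A]
    (S : Subalgebra R₀ A) {c : A} (hc : c ∈ S) : IsIntegral S c :=
  isIntegral_algebraMap (R := ↥S) (A := A) (x := ⟨c, hc⟩)

/-- If `t` is integral over the subalgebra `S`, so is every element of `R₀[t]`. -/
theorem isIntegral_of_mem_adjoin {R₀ A : Type*} [CommRing R₀] [CommRing A] [Algebra R₀ A]
    (S : Subalgebra R₀ A) {t : A} (ht : IsIntegral S t) (c : A)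
    (hc : c ∈ Algebra.adjoin R₀ {t}) : IsIntegral S c := by
  induction hc using Algebra.adjoin_induction with
  | mem x hx =>
    rw [Set.mem_singleton_iff] at hx
    subst hx
    exact ht
  | algebraMap r => exact isIntegral_of_mem S (Subalgebra.algebraMap_mem S r)
  | add x y _ _ hx hy => exact hx.add hy
  | mul x y _ _ hx hy => exact hx.mul hy

end InstChartT

section T
variable {L k : Type*} [Field L] [Algebra ℚ L] [Field k] {Λ : Subring L} {π : L}
  {res : ↥Λ →+* k} (M q : ℕ) [NeZero M] [NeZero q]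

/-- `α j = j` (restated; `KronWGal.kron_alpha_jL`). -/
theorem inst_alpha_jL : heckeAlphaBar L M q (Fermat.Agent.S24.jL L M) =
    Fermat.Agent.S24.jL L (M * q) := by
  apply Subtype.ext
  rw [coe_heckeAlphaBar]
  rfl

/-- (T1) `α` maps elements integral over `Λ[j_M]` to elements integral over `Λ[j_N]`. -/
theorem inst_alpha_isIntegral {a : ↥(laurentBaseChange L (modularFunctionFieldFull M))}
    (ha : IsIntegral (Algebra.adjoin ↥Λ {Fermat.Agent.S24.jL L M}) a) :
    IsIntegral (Algebra.adjoin ↥Λ {Fermat.Agent.S24.jL L (M * q)}) (heckeAlphaBar L M q a) := by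
  refine InstChartT.isIntegral_map_of_le₂ (heckeAlphaBar L M q).toRingHom _ _ ?_ ha
  intro c hc
  have h := InstChartT.map_mem_adjoin (R₁ := ↥Λ) (heckeAlphaBar L M q).toRingHom
    (Fermat.Agent.S24.jL L M) (fun r => ?_) c hc
  · have e : (heckeAlphaBar L M q).toRingHom (Fermat.Agent.S24.jL L M) =
        Fermat.Agent.S24.jL L (M * q) := inst_alpha_jL M q
    rw [e] at h
    exact h
  · have h1 : (heckeAlphaBar L M q).toRingHom (algebraMap ↥Λ _ r) =
        algebraMap ↥Λ ↥(laurentBaseChange L (modularFunctionFieldFull (M * q))) r :=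
      (heckeAlphaBar L M q).commutes (r : L)
    rw [h1]
    exact Subalgebra.algebraMap_mem _ r

/-- (T1, cusp chart) `α` maps elements integral over `Λ[j_M⁻¹]` to elements integral over
`Λ[j_N⁻¹]`. -/
theorem inst_alpha_isIntegral_inv {a : ↥(laurentBaseChange L (modularFunctionFieldFull M))}
    (ha : IsIntegral (Algebra.adjoin ↥Λ {(Fermat.Agent.S24.jL L M)⁻¹}) a) :
    IsIntegral (Algebra.adjoin ↥Λ {(Fermat.Agent.S24.jL L (M * q))⁻¹})
      (heckeAlphaBar L M q a) := by
  refine InstChartT.isIntegral_map_of_le₂ (heckeAlphaBar L M q).toRingHom _ _ ?_ ha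
  intro c hc
  have h := InstChartT.map_mem_adjoin (R₁ := ↥Λ) (heckeAlphaBar L M q).toRingHom
    (Fermat.Agent.S24.jL L M)⁻¹ (fun r => ?_) c hc
  · have e : (heckeAlphaBar L M q).toRingHom (Fermat.Agent.S24.jL L M)⁻¹ =
        (Fermat.Agent.S24.jL L (M * q))⁻¹ := by
      rw [map_inv₀]
      exact congrArg _ (inst_alpha_jL M q)
    rw [e] at h
    exact h
  · have h1 : (heckeAlphaBar L M q).toRingHom (algebraMap ↥Λ _ r) =
        algebraMap ↥Λ ↥(laurentBaseChange L (modularFunctionFieldFull (M * q))) r :=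
      (heckeAlphaBar L M q).commutes (r : L)
    rw [h1]
    exact Subalgebra.algebraMap_mem _ r

/-- `β` maps `Λ[j_M]` into `Λ[β j_M]`. -/
theorem inst_beta_mem_adjoin (c : ↥(laurentBaseChange L (modularFunctionFieldFull M)))
    (hc : c ∈ Algebra.adjoin ↥Λ {Fermat.Agent.S24.jL L M}) :
    (heckeBetaBar L M q).toRingHom c ∈
      Algebra.adjoin ↥Λ {heckeBetaBar L M q (Fermat.Agent.S24.jL L M)} := by
  induction hc using Algebra.adjoin_induction with
  | mem x hx =>
    rw [Set.mem_singleton_iff] at hx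
    subst hx
    exact Algebra.subset_adjoin (Set.mem_singleton _)
  | algebraMap r =>
    have h2 : (heckeBetaBar L M q).toRingHom (algebraMap ↥Λ _ r) =
        algebraMap ↥Λ ↥(laurentBaseChange L (modularFunctionFieldFull (M * q))) r :=
      (heckeBetaBar L M q).commutes (r : L)
    rw [h2]
    exact Subalgebra.algebraMap_mem _ r
  | add x y _ _ hx hy =>
    rw [map_add]
    exact Subalgebra.add_mem _ hx hy
  | mul x y _ _ hx hy =>
    rw [map_mul]
    exact Subalgebra.mul_mem _ hx hy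

/-- `β` maps elements integral over `Λ[j_M]` to elements integral over `Λ[β j_M]`. -/
theorem inst_beta_isIntegral_aux {a : ↥(laurentBaseChange L (modularFunctionFieldFull M))}
    (ha : IsIntegral (Algebra.adjoin ↥Λ {Fermat.Agent.S24.jL L M}) a) :
    IsIntegral (Algebra.adjoin ↥Λ {heckeBetaBar L M q (Fermat.Agent.S24.jL L M)})
      (heckeBetaBar L M q a) := by
  have h := InstChartT.isIntegral_map_of_le₂ (heckeBetaBar L M q).toRingHom
    (Algebra.adjoin ↥Λ {Fermat.Agent.S24.jL L M})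
    (Algebra.adjoin ↥Λ {heckeBetaBar L M q (Fermat.Agent.S24.jL L M)})
    (inst_beta_mem_adjoin M q) ha
  rw [AlgHom.toRingHom_eq_coe, RingHom.coe_coe] at h
  exact h

/-- (T2) `β` maps elements integral over `Λ[j_M]` to elements integral over `Λ[j_N]`. -/
theorem inst_beta_isIntegral (hΛ : IsGaussRing Λ π res) (hq : q.Prime)
    (ζ : Lˣ) (hζ : IsPrimitiveRoot ζ q) (hζΛ : (ζ : L) ∈ Λ)
    {a : ↥(laurentBaseChange L (modularFunctionFieldFull M))}
    (ha : IsIntegral (Algebra.adjoin ↥Λ {Fermat.Agent.S24.jL L M}) a) :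
    IsIntegral (Algebra.adjoin ↥Λ {Fermat.Agent.S24.jL L (M * q)}) (heckeBetaBar L M q a) := by
  have h1 := inst_beta_isIntegral_aux (Λ := Λ) M q ha
  have h3 : IsIntegral (Algebra.adjoin ↥Λ {Fermat.Agent.S24.jL L (M * q)})
      (heckeBetaBar L M q (Fermat.Agent.S24.jL L M)) :=
    kron_isIntegral_beta_j M q hΛ hq ζ hζ hζΛ
  have h4 : ∀ c ∈ Algebra.adjoin ↥Λ {heckeBetaBar L M q (Fermat.Agent.S24.jL L M)},
      IsIntegral (Algebra.adjoin ↥Λ {Fermat.Agent.S24.jL L (M * q)}) c :=
    InstChartT.isIntegral_of_mem_adjoin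
      (Algebra.adjoin ↥Λ {Fermat.Agent.S24.jL L (M * q)}) h3
  exact InstChartT.isIntegral_trans_subalgebra
    (Algebra.adjoin ↥Λ {heckeBetaBar L M q (Fermat.Agent.S24.jL L M)})
    (Algebra.adjoin ↥Λ {Fermat.Agent.S24.jL L (M * q)}) h4 h1

end T

section T3
variable {L : Type*} [Field L] [Algebra ℚ L] {Λ : Subring L} (N' : ℕ) [NeZero N']

/-- The coefficientwise automorphisms fix `j`. -/
theorem inst_ringAut_jL (σ : L ≃ₐ[ℚ] L) :
    arithmeticRingAut (modularFunctionFieldFull N') σ (Fermat.Agent.S24.jL L N') =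
      Fermat.Agent.S24.jL L N' :=
  Subtype.ext (coeffMap_coeffEmb σ jq)

/-- (T3) `arithmeticRingAut σ` preserves integrality over `Λ[j]` (`σ Λ ⊆ Λ`). -/
theorem inst_ringAut_isIntegral (σ : L ≃ₐ[ℚ] L) (hσΛ : ∀ a ∈ Λ, σ a ∈ Λ)
    {a : ↥(laurentBaseChange L (modularFunctionFieldFull N'))}
    (ha : IsIntegral (Algebra.adjoin ↥Λ {Fermat.Agent.S24.jL L N'}) a) :
    IsIntegral (Algebra.adjoin ↥Λ {Fermat.Agent.S24.jL L N'})
      (arithmeticRingAut (modularFunctionFieldFull N') σ a) := by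
  refine InstChartT.isIntegral_map_of_le₂
    (arithmeticRingAut (modularFunctionFieldFull N') σ).toRingHom _ _ ?_ ha
  intro c hc
  have h := InstChartT.map_mem_adjoin (R₁ := ↥Λ)
    (arithmeticRingAut (modularFunctionFieldFull N') σ).toRingHom
    (Fermat.Agent.S24.jL L N') (fun r => ?_) c hc
  · have e : (arithmeticRingAut (modularFunctionFieldFull N') σ).toRingHom
        (Fermat.Agent.S24.jL L N') = Fermat.Agent.S24.jL L N' := inst_ringAut_jL N' σ
    rw [e] at h
    exact h
  · have h1 : (arithmeticRingAut (modularFunctionFieldFull N') σ).toRingHom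
        (algebraMap ↥Λ _ r) =
        algebraMap ↥Λ ↥(laurentBaseChange L (modularFunctionFieldFull N'))
          ⟨σ (r : L), hσΛ _ r.2⟩ :=
      arithmeticRingAut_algebraMap (modularFunctionFieldFull N') σ (r : L)
    rw [h1]
    exact Subalgebra.algebraMap_mem _ _

/-- (T3, cusp chart) `arithmeticRingAut σ` preserves integrality over `Λ[j⁻¹]` (`σ Λ ⊆ Λ`). -/
theorem inst_ringAut_isIntegral_inv (σ : L ≃ₐ[ℚ] L) (hσΛ : ∀ a ∈ Λ, σ a ∈ Λ)
    {a : ↥(laurentBaseChange L (modularFunctionFieldFull N'))}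
    (ha : IsIntegral (Algebra.adjoin ↥Λ {(Fermat.Agent.S24.jL L N')⁻¹}) a) :
    IsIntegral (Algebra.adjoin ↥Λ {(Fermat.Agent.S24.jL L N')⁻¹})
      (arithmeticRingAut (modularFunctionFieldFull N') σ a) := by
  refine InstChartT.isIntegral_map_of_le₂
    (arithmeticRingAut (modularFunctionFieldFull N') σ).toRingHom _ _ ?_ ha
  intro c hc
  have h := InstChartT.map_mem_adjoin (R₁ := ↥Λ)
    (arithmeticRingAut (modularFunctionFieldFull N') σ).toRingHom
    (Fermat.Agent.S24.jL L N')⁻¹ (fun r => ?_) c hc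
  · have e : (arithmeticRingAut (modularFunctionFieldFull N') σ).toRingHom
        (Fermat.Agent.S24.jL L N')⁻¹ = (Fermat.Agent.S24.jL L N')⁻¹ := by
      rw [map_inv₀]
      exact congrArg _ (inst_ringAut_jL N' σ)
    rw [e] at h
    exact h
  · have h1 : (arithmeticRingAut (modularFunctionFieldFull N') σ).toRingHom
        (algebraMap ↥Λ _ r) =
        algebraMap ↥Λ ↥(laurentBaseChange L (modularFunctionFieldFull N'))
          ⟨σ (r : L), hσΛ _ r.2⟩ :=
      arithmeticRingAut_algebraMap (modularFunctionFieldFull N') σ (r : L)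
    rw [h1]
    exact Subalgebra.algebraMap_mem _ _

end T3

/-! ## The pinned names of note 886 (`P19-INST-CHARTS`), statements verbatim -/

section Pinned

variable {L k : Type*} [Field L] [Algebra ℚ L] [Field k] {Λ : Subring L} {π : L}
  {res : ↥Λ →+* k}

section T
variable (M q : ℕ) [NeZero M] [NeZero q]

/-- (T1) -/
theorem inst_alpha_fin {a : ↥(laurentBaseChange L (modularFunctionFieldFull M))}
    (h : IsIntegral (Algebra.adjoin ↥Λ {Fermat.Agent.S24.jL L M}) a) :
    IsIntegral (Algebra.adjoin ↥Λ {Fermat.Agent.S24.jL L (M * q)}) (heckeAlphaBar L M q a) :=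
  inst_alpha_isIntegral M q h

/-- (T1') -/
theorem inst_alpha_inv {a : ↥(laurentBaseChange L (modularFunctionFieldFull M))}
    (h : IsIntegral (Algebra.adjoin ↥Λ {(Fermat.Agent.S24.jL L M)⁻¹}) a) :
    IsIntegral (Algebra.adjoin ↥Λ {(Fermat.Agent.S24.jL L (M * q))⁻¹})
      (heckeAlphaBar L M q a) :=
  inst_alpha_isIntegral_inv M q h

/-- (T2) -/
theorem inst_beta_fin (hΛ : IsGaussRing Λ π res) (hq : q.Prime)
    (ζ : Lˣ) (hζ : IsPrimitiveRoot ζ q) (hζΛ : (ζ : L) ∈ Λ)
    {a : ↥(laurentBaseChange L (modularFunctionFieldFull M))}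
    (h : IsIntegral (Algebra.adjoin ↥Λ {Fermat.Agent.S24.jL L M}) a) :
    IsIntegral (Algebra.adjoin ↥Λ {Fermat.Agent.S24.jL L (M * q)}) (heckeBetaBar L M q a) :=
  inst_beta_isIntegral M q hΛ hq ζ hζ hζΛ h

/-- (T3) -/
theorem inst_ringAut_fin (N : ℕ) [NeZero N] (σ : L ≃ₐ[ℚ] L) (hσΛ : ∀ a ∈ Λ, σ a ∈ Λ)
    {g : ↥(laurentBaseChange L (modularFunctionFieldFull N))}
    (h : IsIntegral (Algebra.adjoin ↥Λ {Fermat.Agent.S24.jL L N}) g) :
    IsIntegral (Algebra.adjoin ↥Λ {Fermat.Agent.S24.jL L N})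
      (arithmeticRingAut (modularFunctionFieldFull N) σ g) :=
  inst_ringAut_isIntegral N σ hσΛ h

/-- (T3') -/
theorem inst_ringAut_inv (N : ℕ) [NeZero N] (σ : L ≃ₐ[ℚ] L) (hσΛ : ∀ a ∈ Λ, σ a ∈ Λ)
    {g : ↥(laurentBaseChange L (modularFunctionFieldFull N))}
    (h : IsIntegral (Algebra.adjoin ↥Λ {(Fermat.Agent.S24.jL L N)⁻¹}) g) :
    IsIntegral (Algebra.adjoin ↥Λ {(Fermat.Agent.S24.jL L N)⁻¹})
      (arithmeticRingAut (modularFunctionFieldFull N) σ g) :=
  inst_ringAut_isIntegral_inv N σ hσΛ h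

end T

end Pinned

end Fermat.Agent.S34
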