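import Mathlib
import Fermat.Agent.S34.KronDefs
import Fermat.Prelude.Thm_ModularCurve_coeffMap_qExpand

/-!
# P19 (S34), block KRON, leaf BASIC: `α`, `β` and the Gauss rings

`α (V_M)`, `β (V_M) ⊆ 𝒪 = V_∞ ∩ V_0`, the four reduction formulas

  `red_∞ ∘ α = red_M`,  `red_0 ∘ α = qExpand q ∘ red_M`,
  `red_∞ ∘ β = qExpand q ∘ red_M`,  `red_0 ∘ β = red_M`,

and `π 𝒪 = 𝔭_∞ ∩ 𝔭_0` (`kronO_exists_eq_pi_mul`).
-/

set_option autoImplicit false

namespace Fermat.Agent.S34

open ModularCurve AlgebraicCurve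
open Fermat.Agent.S18 Fermat.Agent.S28 Fermat.Agent.S28.FreeBasisAbs

section Kron
variable {L k : Type*} [Field L] [Algebra ℚ L] [Field k] {Λ : Subring L} {π : L}
  {res : ↥Λ →+* k} (ι : L →+* ℂ) (M q : ℕ) [NeZero M] [NeZero q] (hcop : Nat.Coprime M q)

/-- `α c` lies in the Gauss ring of level `M * q`. -/
theorem kron_alpha_mem_gaussV {c : ↥(laurentBaseChange L (modularFunctionFieldFull M))}
    (hc : c ∈ GaussL.gaussV Λ res (laurentBaseChange L (modularFunctionFieldFull M))) :
    heckeAlphaBar L M q c ∈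
      GaussL.gaussV Λ res (laurentBaseChange L (modularFunctionFieldFull (M * q))) := by
  rw [GaussL.mem_gaussV_iff, coe_heckeAlphaBar]
  exact (GaussL.mem_gaussV_iff _ _).mp hc

/-- `β c` lies in the Gauss ring of level `M * q`. -/
theorem kron_beta_mem_gaussV {c : ↥(laurentBaseChange L (modularFunctionFieldFull M))}
    (hc : c ∈ GaussL.gaussV Λ res (laurentBaseChange L (modularFunctionFieldFull M))) :
    heckeBetaBar L M q c ∈
      GaussL.gaussV Λ res (laurentBaseChange L (modularFunctionFieldFull (M * q))) := by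
  rw [GaussL.mem_gaussV_iff, coe_heckeBetaBar]
  obtain ⟨a, b, hb, hab⟩ := (GaussL.mem_gaussV_iff _ _).mp hc
  refine ⟨qExpand ↥Λ q a, qExpand ↥Λ q b, ?_, ?_⟩
  · rw [coeffMap_qExpand]
    intro h
    exact hb (qExpand_injective (R := k) q (by rw [h, map_zero]))
  · rw [coeffMap_qExpand, coeffMap_qExpand, ← hab, map_mul]

/-- The reduction of `α c` is the reduction of `c`. -/
theorem kron_gaussRed_alpha {c : ↥(laurentBaseChange L (modularFunctionFieldFull M))}
    (hc : c ∈ GaussL.gaussV Λ res (laurentBaseChange L (modularFunctionFieldFull M)))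
    (h : heckeAlphaBar L M q c ∈
      GaussL.gaussV Λ res (laurentBaseChange L (modularFunctionFieldFull (M * q)))) :
    GaussL.gaussRed Λ res (laurentBaseChange L (modularFunctionFieldFull (M * q)))
        ⟨heckeAlphaBar L M q c, h⟩ =
      GaussL.gaussRed Λ res (laurentBaseChange L (modularFunctionFieldFull M)) ⟨c, hc⟩ := by
  rw [GaussL.gaussRed_mk _ h ((GaussL.mem_gaussV_iff _ _).mp hc) (coe_heckeAlphaBar M q c)]
  rfl

/-- The reduction of `β c` is `qExpand q` of the reduction of `c`. -/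
theorem kron_gaussRed_beta {c : ↥(laurentBaseChange L (modularFunctionFieldFull M))}
    (hc : c ∈ GaussL.gaussV Λ res (laurentBaseChange L (modularFunctionFieldFull M)))
    (h : heckeBetaBar L M q c ∈
      GaussL.gaussV Λ res (laurentBaseChange L (modularFunctionFieldFull (M * q)))) :
    GaussL.gaussRed Λ res (laurentBaseChange L (modularFunctionFieldFull (M * q)))
        ⟨heckeBetaBar L M q c, h⟩ =
      qExpand k q
        (GaussL.gaussRed Λ res (laurentBaseChange L (modularFunctionFieldFull M)) ⟨c, hc⟩) := by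
  obtain ⟨a, b, hb, hab⟩ := (GaussL.mem_gaussV_iff _ _).mp hc
  have h1 := GaussL.gaussRed_mul_eq (laurentBaseChange L (modularFunctionFieldFull M))
    ⟨c, hc⟩ a b hab
  have h2 := GaussL.gaussRed_mul_eq (laurentBaseChange L (modularFunctionFieldFull (M * q)))
    ⟨heckeBetaBar L M q c, h⟩ (qExpand ↥Λ q a) (qExpand ↥Λ q b)
    (by
      show ((heckeBetaBar L M q c : ↥(laurentBaseChange L (modularFunctionFieldFull (M * q)))) :
        LaurentSeries L) * _ = _
      rw [coe_heckeBetaBar, coeffMap_qExpand, coeffMap_qExpand, ← hab, map_mul])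
  rw [coeffMap_qExpand, coeffMap_qExpand, ← h1, map_mul] at h2
  have hb' : qExpand k q (coeffMap res b) ≠ 0 := by
    intro h0
    exact hb (qExpand_injective (R := k) q (by rw [h0, map_zero]))
  exact mul_right_cancel₀ hb' h2

theorem kron_alpha_mem_kronO {c : ↥(laurentBaseChange L (modularFunctionFieldFull M))}
    (hc : c ∈ GaussL.gaussV Λ res (laurentBaseChange L (modularFunctionFieldFull M))) :
    heckeAlphaBar L M q c ∈ kronO Λ res ι M q hcop := by
  rw [mem_kronO_iff, kronW_alpha]
  exact ⟨kron_alpha_mem_gaussV M q hc, kron_beta_mem_gaussV M q hc⟩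

theorem kron_beta_mem_kronO {c : ↥(laurentBaseChange L (modularFunctionFieldFull M))}
    (hc : c ∈ GaussL.gaussV Λ res (laurentBaseChange L (modularFunctionFieldFull M))) :
    heckeBetaBar L M q c ∈ kronO Λ res ι M q hcop := by
  rw [mem_kronO_iff, kronW_beta]
  exact ⟨kron_beta_mem_gaussV M q hc, kron_alpha_mem_gaussV M q hc⟩

theorem kronRedInf_alpha {c : ↥(laurentBaseChange L (modularFunctionFieldFull M))}
    (hc : c ∈ GaussL.gaussV Λ res (laurentBaseChange L (modularFunctionFieldFull M))) :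
    kronRedInf Λ res ι M q hcop ⟨_, kron_alpha_mem_kronO ι M q hcop hc⟩ =
      GaussL.gaussRed Λ res (laurentBaseChange L (modularFunctionFieldFull M)) ⟨c, hc⟩ := by
  rw [kronRedInf_apply]
  exact kron_gaussRed_alpha M q hc _

theorem kronRedZero_alpha {c : ↥(laurentBaseChange L (modularFunctionFieldFull M))}
    (hc : c ∈ GaussL.gaussV Λ res (laurentBaseChange L (modularFunctionFieldFull M))) :
    kronRedZero Λ res ι M q hcop ⟨_, kron_alpha_mem_kronO ι M q hcop hc⟩ =
      qExpand k q (GaussL.gaussRed Λ res (laurentBaseChange L (modularFunctionFieldFull M))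
        ⟨c, hc⟩) := by
  rw [kronRedZero_apply, ← kron_gaussRed_beta M q hc (kron_beta_mem_gaussV M q hc)]
  congr 1
  exact Subtype.ext (kronW_alpha L ι M q hcop c)

theorem kronRedInf_beta {c : ↥(laurentBaseChange L (modularFunctionFieldFull M))}
    (hc : c ∈ GaussL.gaussV Λ res (laurentBaseChange L (modularFunctionFieldFull M))) :
    kronRedInf Λ res ι M q hcop ⟨_, kron_beta_mem_kronO ι M q hcop hc⟩ =
      qExpand k q (GaussL.gaussRed Λ res (laurentBaseChange L (modularFunctionFieldFull M))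
        ⟨c, hc⟩) := by
  rw [kronRedInf_apply]
  exact kron_gaussRed_beta M q hc _

theorem kronRedZero_beta {c : ↥(laurentBaseChange L (modularFunctionFieldFull M))}
    (hc : c ∈ GaussL.gaussV Λ res (laurentBaseChange L (modularFunctionFieldFull M))) :
    kronRedZero Λ res ι M q hcop ⟨_, kron_beta_mem_kronO ι M q hcop hc⟩ =
      GaussL.gaussRed Λ res (laurentBaseChange L (modularFunctionFieldFull M)) ⟨c, hc⟩ := by
  rw [kronRedZero_apply, ← kron_gaussRed_alpha M q hc (kron_alpha_mem_gaussV M q hc)]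
  congr 1
  exact Subtype.ext (kronW_beta L ι M q hcop c)

/-- `π 𝒪 = 𝔭_∞ ∩ 𝔭_0` (trivial from `gaussRed_eq_zero_iff`). -/
theorem kronO_exists_eq_pi_mul (hΛ : IsGaussRing Λ π res) (z : ↥(kronO Λ res ι M q hcop))
    (h1 : kronRedInf Λ res ι M q hcop z = 0) (h2 : kronRedZero Λ res ι M q hcop z = 0) :
    ∃ y : ↥(kronO Λ res ι M q hcop),
      (z : ↥(laurentBaseChange L (modularFunctionFieldFull (M * q)))) =
        algebraMap L _ π * (y : ↥(laurentBaseChange L (modularFunctionFieldFull (M * q)))) := by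
  rw [kronRedInf_apply] at h1
  rw [kronRedZero_apply] at h2
  obtain ⟨y₁, hy₁⟩ := (GaussL.gaussRed_eq_zero_iff _ hΛ _).mp h1
  obtain ⟨y₂, hy₂⟩ := (GaussL.gaussRed_eq_zero_iff _ hΛ _).mp h2
  have hπ := GaussL.algebraMap_pi_ne_zero
    (laurentBaseChange L (modularFunctionFieldFull (M * q))) hΛ
  have hW : kronW L ι M q hcop (y₁ : ↥(laurentBaseChange L (modularFunctionFieldFull (M * q))))
      = (y₂ : ↥(laurentBaseChange L (modularFunctionFieldFull (M * q)))) := by
    have h3 : kronW L ι M q hcop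
        (z : ↥(laurentBaseChange L (modularFunctionFieldFull (M * q)))) =
        algebraMap L _ π * kronW L ι M q hcop
          (y₁ : ↥(laurentBaseChange L (modularFunctionFieldFull (M * q)))) := by
      have h4 : (z : ↥(laurentBaseChange L (modularFunctionFieldFull (M * q)))) =
          algebraMap L _ π * (y₁ : ↥(laurentBaseChange L (modularFunctionFieldFull (M * q)))) :=
        hy₁
      rw [h4, map_mul, AlgEquiv.commutes]
    have h5 : kronW L ι M q hcop
        (z : ↥(laurentBaseChange L (modularFunctionFieldFull (M * q)))) =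
        algebraMap L _ π * (y₂ : ↥(laurentBaseChange L (modularFunctionFieldFull (M * q)))) :=
      hy₂
    rw [h3] at h5
    exact mul_left_cancel₀ hπ h5
  refine ⟨⟨(y₁ : ↥(laurentBaseChange L (modularFunctionFieldFull (M * q)))), ?_⟩, hy₁⟩
  rw [mem_kronO_iff, hW]
  exact ⟨y₁.2, y₂.2⟩

end Kron

end Fermat.Agent.S34
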