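import Mathlib
import Fermat.Agent.S34.KronDefs
import Fermat.Agent.S34.KronBasic
import Fermat.Agent.S34.KronTwoVal
import Fermat.Agent.S18.GaussLFull
import Fermat.Agent.S18.GaussLineA
import Fermat.Agent.S18.GaussLineK
import Fermat.Agent.S24.FFLAlg
import Fermat.Agent.S37.ALEmb

/-!
# P19 (S34), block INST, fin chart package: leaves V1, V1', V2, V3

`F_N = laurentBaseChange L (modularFunctionFieldFull N)`, `j = jL L N`, `Λ ⊆ L` a Gauss ring
(`IsGaussRing Λ π res`).

* `inst_mem_gaussV_of_isIntegral` (V1), `inst_mem_gaussV_of_isIntegral_inv` (V1'): elements of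
  `F_N` integral over `Λ[j]` (resp. `Λ[j⁻¹]`) lie in the Gauss valuation ring `gaussV`;
* `inst_mem_kronO_of_isIntegral` (V2): at level `M * q`, elements integral over `Λ[j]` lie in
  `kronO = V_∞ ∩ V_0`;
* `inst_sat_fin` (V3): the integral closure of `Λ[j]` is `π`-saturated in `kronO`.
-/

set_option autoImplicit false

namespace Fermat.Agent.S34

open ModularCurve AlgebraicCurve Polynomial
open Fermat.Agent.S18 Fermat.Agent.S28 Fermat.Agent.S28.FreeBasisAbs

/-! ### Generic auxiliaries -/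

section Aux

/-- Integrality over a larger subalgebra. -/
theorem instV_isIntegral_of_le {R A : Type*} [CommRing R] [CommRing A] [Algebra R A]
    {S T : Subalgebra R A} (hle : S ≤ T) {x : A} (hx : IsIntegral S x) : IsIntegral T x :=
  hx.map_of_comp_eq (Subalgebra.inclusion hle).toRingHom (RingHom.id A) (by ext; rfl)

variable {L k : Type*} [Field L] [Field k] {Λ : Subring L} {π : L} {res : ↥Λ →+* k}

/-- Elements of `Λ` with nonzero reduction are units. -/
theorem instV_isUnit_of_res_ne_zero (hΛ : IsGaussRing Λ π res) {u : ↥Λ} (hu : res u ≠ 0) :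
    IsUnit u := by
  have hu0 : (u : L) ≠ 0 := by
    intro h
    apply hu
    have : u = 0 := Subtype.ext h
    rw [this, map_zero]
  obtain ⟨n, v, hv, hv', huv⟩ := hΛ.unit (u : L) hu0
  rcases le_or_gt n 0 with hn | hn
  · have hinv : (u : L)⁻¹ ∈ Λ := by
      rw [huv, mul_inv, ← zpow_neg]
      exact mul_mem (hΛ.zpow_mem (by omega)) hv'
    exact IsUnit.of_mul_eq_one ⟨(u : L)⁻¹, hinv⟩ (Subtype.ext (mul_inv_cancel₀ hu0))
  · exfalso
    apply hu
    obtain ⟨m, hm⟩ : ∃ m : ℕ, n = m + 1 := ⟨(n - 1).toNat, by omega⟩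
    have h1 : (u : L) = π * (π ^ m * v) := by
      rw [huv, hm, zpow_add_one₀ hΛ.pi_ne_zero, zpow_natCast]
      ring
    have hmem : π ^ m * v ∈ Λ := mul_mem (pow_mem hΛ.pi_mem m) hv
    have h2 : u = ⟨π, hΛ.pi_mem⟩ * ⟨π ^ m * v, hmem⟩ := Subtype.ext h1
    rw [h2, map_mul, hΛ.red_pi, zero_mul]

/-- The ring of a Gauss ring datum is a discrete valuation ring. -/
theorem instV_isDiscreteValuationRing (hΛ : IsGaussRing Λ π res) :
    IsDiscreteValuationRing ↥Λ := by
  apply IsDiscreteValuationRing.ofHasUnitMulPowIrreducibleFactorization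
  refine ⟨GaussL.piL hΛ, (GaussL.prime_piL hΛ).irreducible, fun {x} hx => ?_⟩
  obtain ⟨n, u, hu, rfl⟩ := GaussL.exists_pow_mul_res_ne_zero hΛ x hx
  exact ⟨n, associated_mul_unit_right _ _ (instV_isUnit_of_res_ne_zero hΛ hu)⟩

/-- `j` and `j⁻¹` lie in the Gauss ring, convention-free form. -/
theorem instV_mem_gaussV_of_eq (N : ℕ) [NeZero N]
    (𝔉 : IntermediateField L (LaurentSeries L)) (h𝔉 : 𝔉 = modularFunctionFieldFullC L N)
    (j : ↥𝔉) (hj : (j : LaurentSeries L) = jqModC L) :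
    j ∈ GaussL.gaussV Λ res 𝔉 ∧ j⁻¹ ∈ GaussL.gaussV Λ res 𝔉 := by
  subst h𝔉
  have hj' : j = GaussL.jC L N := Subtype.ext hj
  subst hj'
  exact ⟨GaussL.jC_mem_gaussV Λ res N, GaussL.jC_inv_mem_gaussV Λ res N⟩

end Aux

variable {L k : Type*} [Field L] [Algebra ℚ L] [Field k] {Λ : Subring L} {π : L}
  {res : ↥Λ →+* k}

/-! ### `j` and the Gauss ring in the `S37` convention -/

section Bridge

/-- `F_N` lies in the fraction field of the series with coefficients in `Λ`. -/
theorem instV_le_gaussK (hΛ : IsGaussRing Λ π res) (N : ℕ) [NeZero N] :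
    laurentBaseChange L (modularFunctionFieldFull N) ≤ GaussL.gaussK hΛ := by
  rw [Fermat.Agent.S37.ALEmb.baseChange_eq_fullC L N]
  exact GaussL.full_le_gaussK hΛ N

/-- `j` lies in the Gauss ring. -/
theorem instV_jL_mem_gaussV (N : ℕ) [NeZero N] :
    Fermat.Agent.S24.jL L N ∈
      GaussL.gaussV Λ res (laurentBaseChange L (modularFunctionFieldFull N)) :=
  (instV_mem_gaussV_of_eq N _ (Fermat.Agent.S37.ALEmb.baseChange_eq_fullC L N) _
    (ktv_coe_jL N)).1

/-- `j⁻¹` lies in the Gauss ring. -/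
theorem instV_jL_inv_mem_gaussV (N : ℕ) [NeZero N] :
    (Fermat.Agent.S24.jL L N)⁻¹ ∈
      GaussL.gaussV Λ res (laurentBaseChange L (modularFunctionFieldFull N)) :=
  (instV_mem_gaussV_of_eq N _ (Fermat.Agent.S37.ALEmb.baseChange_eq_fullC L N) _
    (ktv_coe_jL N)).2

set_option synthInstance.maxHeartbeats 400000 in
/-- `j` is transcendental over `Λ`. -/
theorem instV_transcendental_jL (N : ℕ) [NeZero N] :
    Transcendental ↥Λ (Fermat.Agent.S24.jL L N) :=
  (Fermat.Agent.S24.transcendental_jL N L).restrictScalars Subtype.val_injective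

end Bridge

/-! ## InstChartV.lean (helper12) -/
section V
variable (ι : L →+* ℂ) (M q : ℕ) [NeZero M] [NeZero q] (hcop : Nat.Coprime M q)

/-- (V1) -/
theorem inst_mem_gaussV_of_isIntegral [CharZero L] (hΛ : IsGaussRing Λ π res) (N : ℕ) [NeZero N]
    {a : ↥(laurentBaseChange L (modularFunctionFieldFull N))}
    (h : IsIntegral (Algebra.adjoin ↥Λ {Fermat.Agent.S24.jL L N}) a) :
    a ∈ GaussL.gaussV Λ res (laurentBaseChange L (modularFunctionFieldFull N)) := by
  have hle : Algebra.adjoin ↥Λ {Fermat.Agent.S24.jL L N} ≤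
      GaussL.gaussV Λ res (laurentBaseChange L (modularFunctionFieldFull N)) :=
    Algebra.adjoin_le (Set.singleton_subset_iff.mpr (instV_jL_mem_gaussV N))
  exact GaussL.mem_gaussV_of_isIntegral _ hΛ (instV_le_gaussK hΛ N)
    (instV_isIntegral_of_le hle h)

/-- (V1') -/
theorem inst_mem_gaussV_of_isIntegral_inv [CharZero L] (hΛ : IsGaussRing Λ π res) (N : ℕ)
    [NeZero N] {a : ↥(laurentBaseChange L (modularFunctionFieldFull N))}
    (h : IsIntegral (Algebra.adjoin ↥Λ {(Fermat.Agent.S24.jL L N)⁻¹}) a) :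
    a ∈ GaussL.gaussV Λ res (laurentBaseChange L (modularFunctionFieldFull N)) := by
  have hle : Algebra.adjoin ↥Λ {(Fermat.Agent.S24.jL L N)⁻¹} ≤
      GaussL.gaussV Λ res (laurentBaseChange L (modularFunctionFieldFull N)) :=
    Algebra.adjoin_le (Set.singleton_subset_iff.mpr (instV_jL_inv_mem_gaussV N))
  exact GaussL.mem_gaussV_of_isIntegral _ hΛ (instV_le_gaussK hΛ N)
    (instV_isIntegral_of_le hle h)

/-- (V2) -/
theorem inst_mem_kronO_of_isIntegral [CharZero L] (hΛ : IsGaussRing Λ π res) (hq : q.Prime)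
    [CharP k q] {b : ↥(laurentBaseChange L (modularFunctionFieldFull (M * q)))}
    (h : IsIntegral (Algebra.adjoin ↥Λ {Fermat.Agent.S24.jL L (M * q)}) b) :
    b ∈ kronO Λ res ι M q hcop := by
  have ht : Transcendental ↥Λ (Fermat.Agent.S24.jL L (M * q)) := instV_transcendental_jL (M * q)
  exact mem_kronO_of_isIntegral ι M q hcop hΛ hq
    (GaussLineK.isIntegral_of_isIntegral_adjoin (GaussL.piL hΛ) (GaussL.prime_piL hΛ) ht
      (Set.singleton_subset_iff.mpr (Set.mem_insert _ _)) h)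

set_option synthInstance.maxHeartbeats 400000 in
/-- (V3) saturation of the fin chart ring in `𝒪`. -/
theorem inst_sat_fin [CharZero L] (hΛ : IsGaussRing Λ π res) (hq : q.Prime) [CharP k q]
    {b δ : ↥(laurentBaseChange L (modularFunctionFieldFull (M * q)))}
    (hb : IsIntegral (Algebra.adjoin ↥Λ {Fermat.Agent.S24.jL L (M * q)}) b)
    (hδ : δ ∈ kronO Λ res ι M q hcop) (h : b = algebraMap L _ π * δ) :
    IsIntegral (Algebra.adjoin ↥Λ {Fermat.Agent.S24.jL L (M * q)}) δ := by
  have hdvr : IsDiscreteValuationRing ↥Λ := instV_isDiscreteValuationRing hΛ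
  have ht : Transcendental ↥Λ (Fermat.Agent.S24.jL L (M * q)) := instV_transcendental_jL (M * q)
  have hδ' := kronO_isIntegral ι M q hcop hΛ hq hδ
  refine GaussLineK.lemmaK_fin (GaussL.piL hΛ) (GaussL.prime_piL hΛ) ht hb hδ' ?_
  rw [h, Algebra.smul_def]
  rfl

end V

end Fermat.Agent.S34
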