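import Mathlib
import Fermat.Agent.S34.KronDefs
import Fermat.Agent.S34.KronBasic
import Fermat.Agent.S34.KronGalRed
import Fermat.Agent.S37.Kronecker
import Fermat.Prelude.Def_ModularCurve_ArithmeticGalois

/-!
# P19 (S34), block KRON, leaf FROB: Kronecker's congruence

Setting of `S34/KronDefs.lean`: `L` a field of characteristic `0` with a Gauss ring `Λ ⊆ L`
(`res : Λ → k`, `char k = q`), level `M * q`, `α`, `β`, `W = kronW`, `𝒪 = kronO`.  Let
`φ : L ≃ₐ[ℚ] L` be a Frobenius lift: `φ⁻¹` preserves `Λ` and `res (φ⁻¹ a) ^ q = res a`.  It acts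
coefficientwise on the function fields (`arithmeticRingAut`).

* `s34kf_frob_series`: for a Gauss-integral series `x`, `x^{φ⁻¹}` is Gauss-integral and
  `red (x^{φ⁻¹}) ^ q = (red x)(q^q)`;
* `kron_frob`: the same for `g ∈ V_M`;
* `kron_kronecker`: with `g₁ = g^{φ⁻¹}`: `(α g₁)^q - β g ∈ 𝒪` reduces to `0` at `w_∞` and
  `α g - (β g₁)^q ∈ 𝒪` reduces to `0` at `w_0` (the hypothesis `hkron` of
  `model_closed_point`).
-/

set_option autoImplicit false
set_option linter.unusedSectionVars false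

namespace Fermat.Agent.S34

open ModularCurve AlgebraicCurve
open Fermat.Agent.S18 Fermat.Agent.S28 Fermat.Agent.S28.FreeBasisAbs

section Series

variable {L k : Type*} [Field L] [Field k] {Λ : Subring L} {res : ↥Λ →+* k}

/-- If `σ` preserves `Λ` and `res (σ a) ^ q = res a` (`σ` an inverse Frobenius lift), then for a
Gauss-integral series `x`: `σ x` is Gauss-integral and `red (σ x) ^ q = (red x)(q^q)`. -/
theorem s34kf_frob_series (q : ℕ) [NeZero q] (hq : q.Prime) [CharP k q] (σ : L →+* L)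
    (hσ : ∀ a ∈ Λ, σ a ∈ Λ) (hres : ∀ a : ↥Λ, res ⟨σ a, hσ a a.2⟩ ^ q = res a)
    {x : LaurentSeries L} (hx : x ∈ GaussL.gaussO Λ res) :
    ∃ h : coeffMap σ x ∈ GaussL.gaussO Λ res,
      GaussL.gaussRedO Λ res ⟨coeffMap σ x, h⟩ ^ q =
        qExpand k q (GaussL.gaussRedO Λ res ⟨x, hx⟩) := by
  have : Fact q.Prime := ⟨hq⟩
  let σΛ : ↥Λ →+* ↥Λ := (σ.comp Λ.subtype).codRestrict Λ (fun a => hσ a a.2)
  have hincl : ∀ a : LaurentSeries ↥Λ,
      coeffMap σ (coeffMap Λ.subtype a) = coeffMap Λ.subtype (coeffMap σΛ a) := by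
    intro a
    rw [coeffMap_coeffMap, coeffMap_coeffMap]
    exact coeffMap_congr (RingHom.ext fun _ => rfl) a
  -- the key identity on `Λ`-series
  have hpow : ∀ a : LaurentSeries ↥Λ,
      coeffMap res (coeffMap σΛ a) ^ q = qExpand k q (coeffMap res a) := by
    intro a
    rw [Fermat.Agent.S37.Kronecker.pow_char q, coeffMap_coeffMap, coeffMap_coeffMap]
    congr 1
    refine coeffMap_congr (RingHom.ext fun c => ?_) a
    show frobenius k q (res (σΛ c)) = res c
    rw [frobenius_def]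
    exact hres c
  obtain ⟨a, b, hb, hab⟩ := hx
  have hqb : qExpand k q (coeffMap res b) ≠ 0 := fun h0 =>
    hb (qExpand_injective (R := k) q (by rw [h0, map_zero]))
  have hb' : coeffMap res (coeffMap σΛ b) ≠ 0 := by
    intro h0
    apply hqb
    rw [← hpow b, h0, zero_pow (NeZero.ne q)]
  have hab' : coeffMap σ x * coeffMap Λ.subtype (coeffMap σΛ b) =
      coeffMap Λ.subtype (coeffMap σΛ a) := by
    rw [← hincl, ← hincl, ← map_mul, hab]
  have hmem : coeffMap σ x ∈ GaussL.gaussO Λ res := ⟨coeffMap σΛ a, coeffMap σΛ b, hb', hab'⟩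
  refine ⟨hmem, ?_⟩
  have e1 := GaussL.gaussRedO_mul_eq (res := res) ⟨coeffMap σ x, hmem⟩ (coeffMap σΛ a)
    (coeffMap σΛ b) hab'
  have e2 := GaussL.gaussRedO_mul_eq (res := res) ⟨x, ⟨a, b, hb, hab⟩⟩ a b hab
  have e3 := congrArg (fun y => y ^ q) e1
  simp only [mul_pow] at e3
  rw [hpow a, hpow b, ← e2, map_mul] at e3
  exact mul_right_cancel₀ hqb e3

end Series

section Kron
variable {L k : Type*} [Field L] [Algebra ℚ L] [Field k] {Λ : Subring L} {π : L}
  {res : ↥Λ →+* k} (ι : L →+* ℂ) (M q : ℕ) [NeZero M] [NeZero q] (hcop : Nat.Coprime M q)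

theorem kron_frob (hq : q.Prime) [CharP k q] (φ : L ≃ₐ[ℚ] L) (hφΛ : ∀ a ∈ Λ, φ.symm a ∈ Λ)
    (hφ : ∀ a : ↥Λ, res ⟨φ.symm a, hφΛ a a.2⟩ ^ q = res a)
    {g : ↥(laurentBaseChange L (modularFunctionFieldFull M))}
    (hg : g ∈ GaussL.gaussV Λ res (laurentBaseChange L (modularFunctionFieldFull M))) :
    ∃ hg₁ : arithmeticRingAut (modularFunctionFieldFull M) φ.symm g ∈
        GaussL.gaussV Λ res (laurentBaseChange L (modularFunctionFieldFull M)),
      GaussL.gaussRed Λ res (laurentBaseChange L (modularFunctionFieldFull M))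
          ⟨arithmeticRingAut (modularFunctionFieldFull M) φ.symm g, hg₁⟩ ^ q =
        qExpand k q (GaussL.gaussRed Λ res (laurentBaseChange L (modularFunctionFieldFull M))
          ⟨g, hg⟩) := by
  obtain ⟨h, e⟩ := s34kf_frob_series q hq (φ.symm : L →+* L) hφΛ hφ
    ((GaussL.mem_gaussV_iff (laurentBaseChange L (modularFunctionFieldFull M)) g).mp hg)
  exact ⟨h, e⟩

/-- Kronecker congruence in the form used by MODEL (`hkron` of `model_closed_point`). -/
theorem kron_kronecker (hq : q.Prime) [CharP k q] (φ : L ≃ₐ[ℚ] L) (hφΛ : ∀ a ∈ Λ, φ.symm a ∈ Λ)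
    (hφ : ∀ a : ↥Λ, res ⟨φ.symm a, hφΛ a a.2⟩ ^ q = res a)
    {g : ↥(laurentBaseChange L (modularFunctionFieldFull M))}
    (hg : g ∈ GaussL.gaussV Λ res (laurentBaseChange L (modularFunctionFieldFull M))) :
    ∃ (h₁ : heckeAlphaBar L M q (arithmeticRingAut (modularFunctionFieldFull M) φ.symm g) ^ q -
          heckeBetaBar L M q g ∈ kronO Λ res ι M q hcop)
      (h₂ : heckeAlphaBar L M q g -
          heckeBetaBar L M q (arithmeticRingAut (modularFunctionFieldFull M) φ.symm g) ^ q ∈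
            kronO Λ res ι M q hcop),
      kronRedInf Λ res ι M q hcop ⟨_, h₁⟩ = 0 ∧ kronRedZero Λ res ι M q hcop ⟨_, h₂⟩ = 0 := by
  obtain ⟨hg₁, e⟩ := kron_frob M q hq φ hφΛ hφ hg
  set g₁ := arithmeticRingAut (modularFunctionFieldFull M) φ.symm g with hg₁def
  have hαg₁ := kron_alpha_mem_kronO (Λ := Λ) (res := res) ι M q hcop hg₁
  have hβg₁ := kron_beta_mem_kronO (Λ := Λ) (res := res) ι M q hcop hg₁
  have hαg := kron_alpha_mem_kronO (Λ := Λ) (res := res) ι M q hcop hg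
  have hβg := kron_beta_mem_kronO (Λ := Λ) (res := res) ι M q hcop hg
  have h₁ : heckeAlphaBar L M q g₁ ^ q - heckeBetaBar L M q g ∈ kronO Λ res ι M q hcop :=
    sub_mem (pow_mem hαg₁ q) hβg
  have h₂ : heckeAlphaBar L M q g - heckeBetaBar L M q g₁ ^ q ∈ kronO Λ res ι M q hcop :=
    sub_mem hαg (pow_mem hβg₁ q)
  refine ⟨h₁, h₂, ?_, ?_⟩
  · have e1 : (⟨heckeAlphaBar L M q g₁ ^ q - heckeBetaBar L M q g, h₁⟩ :
        ↥(kronO Λ res ι M q hcop)) = ⟨_, hαg₁⟩ ^ q - ⟨_, hβg⟩ := rfl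
    have r1 : kronRedInf Λ res ι M q hcop ⟨_, hαg₁⟩ =
        GaussL.gaussRed Λ res (laurentBaseChange L (modularFunctionFieldFull M)) ⟨g₁, hg₁⟩ :=
      kronRedInf_alpha ι M q hcop hg₁
    have r2 : kronRedInf Λ res ι M q hcop ⟨_, hβg⟩ =
        qExpand k q (GaussL.gaussRed Λ res (laurentBaseChange L (modularFunctionFieldFull M))
          ⟨g, hg⟩) :=
      kronRedInf_beta ι M q hcop hg
    rw [e1, map_sub, map_pow, r1, r2, e, sub_self]
  · have e2 : (⟨heckeAlphaBar L M q g - heckeBetaBar L M q g₁ ^ q, h₂⟩ :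
        ↥(kronO Λ res ι M q hcop)) = ⟨_, hαg⟩ - ⟨_, hβg₁⟩ ^ q := rfl
    have r3 : kronRedZero Λ res ι M q hcop ⟨_, hαg⟩ =
        qExpand k q (GaussL.gaussRed Λ res (laurentBaseChange L (modularFunctionFieldFull M))
          ⟨g, hg⟩) :=
      kronRedZero_alpha ι M q hcop hg
    have r4 : kronRedZero Λ res ι M q hcop ⟨_, hβg₁⟩ =
        GaussL.gaussRed Λ res (laurentBaseChange L (modularFunctionFieldFull M)) ⟨g₁, hg₁⟩ :=
      kronRedZero_beta ι M q hcop hg₁
    rw [e2, map_sub, map_pow, r3, r4, e, sub_self]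

end Kron

end Fermat.Agent.S34
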