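import Mathlib
import Fermat.Agent.S34.ModelDefs

/-!
P19 (S34), block MODEL, slice A: elementary algebra of the predicate `ModelLocGen`.

* `modelLocGen_congr`   (A1) `ModelLocGen 𝔞 𝔐 u` only depends on `u` modulo `𝔞`;
* `modelLocGen_perturb` (A2) `s u + h₁ h₂` with `s ∉ 𝔐`, `h₁, h₂ ∈ 𝔐` (Nakayama by hand);
* `modelLocGen_map`     (A3) transport along a ring hom which is locally surjective modulo `𝔭`;
* `modelLocGen_descend` (A4) descent along an injective localisation-like hom;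
* `modelLocGen_common`  (A5) a common local generator at two maximal ideals, inside a subring.
-/

set_option autoImplicit false

namespace Fermat.Agent.S34

/-- (A1) `ModelLocGen` only depends on `u` modulo `𝔞`. -/
theorem modelLocGen_congr {A : Type*} [CommRing A] {𝔞 𝔐 : Ideal A} (h𝔞 : 𝔞 ≤ 𝔐) {u u' : A}
    (huu : u - u' ∈ 𝔞) (h : ModelLocGen 𝔞 𝔐 u) : ModelLocGen 𝔞 𝔐 u' := by
  have hu' : u' ∈ 𝔐 := by
    have h1 : u' = u - (u - u') := by ring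
    rw [h1]
    exact 𝔐.sub_mem h.mem (h𝔞 huu)
  refine modelLocGen_of_exists_eq hu' fun z hz => ?_
  obtain ⟨a, c, d, ha, hc, h1⟩ := h.exists_eq hz
  refine ⟨a, c + (u - u') * d, d, ha, 𝔞.add_mem hc (𝔞.mul_mem_right d huu), ?_⟩
  rw [h1]
  ring

/-- (A2) perturbation (Nakayama by hand): `s u + h h'` with `s ∉ 𝔐`, `h, h' ∈ 𝔐`. -/
theorem modelLocGen_perturb {A : Type*} [CommRing A] {𝔞 𝔐 : Ideal A} [𝔐.IsPrime] {u : A}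
    (h : ModelLocGen 𝔞 𝔐 u) {s h₁ h₂ : A} (hs : s ∉ 𝔐) (h₁m : h₁ ∈ 𝔐) (h₂m : h₂ ∈ 𝔐) :
    ModelLocGen 𝔞 𝔐 (s * u + h₁ * h₂) := by
  have hprime : 𝔐.IsPrime := inferInstance
  have hu' : s * u + h₁ * h₂ ∈ 𝔐 :=
    𝔐.add_mem (𝔐.mul_mem_left s h.mem) (𝔐.mul_mem_left h₁ h₂m)
  obtain ⟨a₁, c₁, d₁, ha₁, hc₁, e₁⟩ := h.exists_eq h₁m
  -- `u * (a₁ s + d₁ h₂) = a₁ (s u + h₁ h₂) - c₁ h₂`
  have he : a₁ * s + d₁ * h₂ ∉ 𝔐 := by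
    intro hmem
    have h2 : a₁ * s ∈ 𝔐 := by
      have h3 : a₁ * s = (a₁ * s + d₁ * h₂) - d₁ * h₂ := by ring
      rw [h3]
      exact 𝔐.sub_mem hmem (𝔐.mul_mem_left d₁ h₂m)
    rcases hprime.mem_or_mem h2 with h4 | h4
    · exact ha₁ h4
    · exact hs h4
  have hkey : u * (a₁ * s + d₁ * h₂) = a₁ * (s * u + h₁ * h₂) - c₁ * h₂ := by
    have h5 : a₁ * (s * u + h₁ * h₂) = a₁ * s * u + (a₁ * h₁) * h₂ := by ring
    rw [h5, e₁]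
    ring
  refine modelLocGen_of_exists_eq hu' fun z hz => ?_
  obtain ⟨a, c, d, ha, hc, h1⟩ := h.exists_eq hz
  refine ⟨(a₁ * s + d₁ * h₂) * a, (a₁ * s + d₁ * h₂) * c - c₁ * h₂ * d, a₁ * d, ?_, ?_, ?_⟩
  · intro hmem
    rcases hprime.mem_or_mem hmem with h4 | h4
    · exact he h4
    · exact ha h4
  · exact 𝔞.sub_mem (𝔞.mul_mem_left _ hc) (𝔞.mul_mem_right d (𝔞.mul_mem_right h₂ hc₁))
  · have h6 : (a₁ * s + d₁ * h₂) * a * z = (a₁ * s + d₁ * h₂) * (a * z) := by ring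
    rw [h6, h1]
    have h7 : (a₁ * s + d₁ * h₂) * (c + u * d)
        = (a₁ * s + d₁ * h₂) * c + (u * (a₁ * s + d₁ * h₂)) * d := by ring
    rw [h7, hkey]
    ring

/-- (A3) transport along a ring hom which is locally surjective modulo `𝔭` at `𝔪`
(covers: branch of the level-`N` model, localisations, the base change `L₀ → L`). -/
theorem modelLocGen_map {A B : Type*} [CommRing A] [CommRing B] (α : A →+* B)
    (𝔞 : Ideal A) (𝔭 𝔪 : Ideal B) [𝔪.IsPrime] (h𝔭𝔪 : 𝔭 ≤ 𝔪) (h𝔞 : 𝔞 ≤ 𝔭.comap α)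
    (hsurj : ∀ b : B, ∃ a a' : A, α a' ∉ 𝔪 ∧ α a' * b - α a ∈ 𝔭)
    {u : A} (hu : ModelLocGen 𝔞 (𝔪.comap α) u) : ModelLocGen 𝔭 𝔪 (α u) := by
  have hprime : 𝔪.IsPrime := inferInstance
  refine modelLocGen_of_exists_eq (Ideal.mem_comap.mp hu.mem) fun z hz => ?_
  obtain ⟨a, a', ha', haz⟩ := hsurj z
  have ha : a ∈ 𝔪.comap α := by
    rw [Ideal.mem_comap]
    have h1 : α a = α a' * z - (α a' * z - α a) := by ring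
    rw [h1]
    exact 𝔪.sub_mem (𝔪.mul_mem_left _ hz) (h𝔭𝔪 haz)
  obtain ⟨e, c, d, he, hc, h2⟩ := hu.exists_eq ha
  refine ⟨α e * α a', α e * (α a' * z - α a) + α c, α d, ?_, ?_, ?_⟩
  · intro hmem
    rcases hprime.mem_or_mem hmem with h4 | h4
    · exact he (Ideal.mem_comap.mpr h4)
    · exact ha' h4
  · exact 𝔭.add_mem (𝔭.mul_mem_left _ haz) (h𝔞 hc)
  · have h3 : α e * α a = α c + α u * α d := by
      rw [← map_mul, h2, map_add, map_mul]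
    have h5 : α e * α a' * z = α e * (α a' * z - α a) + α e * α a := by ring
    rw [h5, h3]
    ring

/-- (A4) descent along an injective localisation-like hom `ι : A → S` (denominators outside
`𝔐_S`), with `𝔞_S = 𝔞 S`. -/
theorem modelLocGen_descend {A S : Type*} [CommRing A] [CommRing S] (ι : A →+* S)
    (hι : Function.Injective ι) (𝔞 : Ideal A) (𝔐S : Ideal S) [𝔐S.IsPrime]
    (hloc : ∀ y : S, ∃ s a : A, ι s ∉ 𝔐S ∧ ι s * y = ι a)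
    {uS : S} (hu : ModelLocGen (𝔞.map ι) 𝔐S uS) :
    ∃ u : A, ModelLocGen 𝔞 (𝔐S.comap ι) u := by
  have hprime : 𝔐S.IsPrime := inferInstance
  have hone : (1 : S) ∉ 𝔐S := fun h => hprime.ne_top ((Ideal.eq_top_iff_one _).mpr h)
  -- clearing denominators in `𝔞 S`
  have hclear : ∀ cS ∈ 𝔞.map ι, ∃ s c : A, ι s ∉ 𝔐S ∧ c ∈ 𝔞 ∧ ι s * cS = ι c := by
    intro cS hcS
    refine Submodule.span_induction (p := fun cS _ => ∃ s c : A, ι s ∉ 𝔐S ∧ c ∈ 𝔞 ∧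
      ι s * cS = ι c) ?_ ?_ ?_ ?_ hcS
    · rintro _ ⟨a, ha, rfl⟩
      exact ⟨1, a, by rw [map_one]; exact hone, ha, by rw [map_one, one_mul]⟩
    · exact ⟨1, 0, by rw [map_one]; exact hone, 𝔞.zero_mem, by rw [map_zero, mul_zero]⟩
    · rintro x y _ _ ⟨s₁, c₁, hs₁, hc₁, e₁⟩ ⟨s₂, c₂, hs₂, hc₂, e₂⟩
      refine ⟨s₁ * s₂, s₂ * c₁ + s₁ * c₂, ?_, ?_, ?_⟩
      · rw [map_mul]
        intro hmem
        rcases hprime.mem_or_mem hmem with h4 | h4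
        · exact hs₁ h4
        · exact hs₂ h4
      · exact 𝔞.add_mem (𝔞.mul_mem_left _ hc₁) (𝔞.mul_mem_left _ hc₂)
      · have h1 : ι (s₁ * s₂) * (x + y) = ι s₂ * (ι s₁ * x) + ι s₁ * (ι s₂ * y) := by
          rw [map_mul]
          ring
        rw [h1, e₁, e₂, map_add, map_mul, map_mul]
    · rintro y x _ ⟨s₁, c₁, hs₁, hc₁, e₁⟩
      obtain ⟨t, b, ht, hb⟩ := hloc y
      refine ⟨t * s₁, b * c₁, ?_, 𝔞.mul_mem_left _ hc₁, ?_⟩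
      · rw [map_mul]
        intro hmem
        rcases hprime.mem_or_mem hmem with h4 | h4
        · exact ht h4
        · exact hs₁ h4
      · have h1 : ι (t * s₁) * (y • x) = (ι t * y) * (ι s₁ * x) := by
          rw [map_mul, smul_eq_mul]
          ring
        rw [h1, hb, e₁, map_mul]
  obtain ⟨s₀, u₀, hs₀, hu₀⟩ := hloc uS
  have hu₀m : u₀ ∈ 𝔐S.comap ι := by
    rw [Ideal.mem_comap, ← hu₀]
    exact 𝔐S.mul_mem_left _ hu.mem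
  refine ⟨u₀, modelLocGen_of_exists_eq hu₀m fun z hz => ?_⟩
  obtain ⟨aS, cS, dS, haS, hcS, h1⟩ := hu.exists_eq (Ideal.mem_comap.mp hz)
  obtain ⟨s₁, a₁, hs₁, ha₁⟩ := hloc aS
  obtain ⟨s₂, d₂, hs₂, hd₂⟩ := hloc dS
  obtain ⟨s₃, c₃, hs₃, hc₃, e₃⟩ := hclear cS hcS
  have ha₁m : ι a₁ ∉ 𝔐S := by
    rw [← ha₁]
    intro hmem
    rcases hprime.mem_or_mem hmem with h4 | h4
    · exact hs₁ h4
    · exact haS h4
  refine ⟨s₂ * s₃ * s₀ * a₁, s₁ * s₂ * s₀ * c₃, s₁ * s₃ * d₂, ?_, ?_, ?_⟩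
  · rw [Ideal.mem_comap, map_mul, map_mul, map_mul]
    intro hmem
    rcases hprime.mem_or_mem hmem with h4 | h4
    · rcases hprime.mem_or_mem h4 with h5 | h5
      · rcases hprime.mem_or_mem h5 with h6 | h6
        · exact hs₂ h6
        · exact hs₃ h6
      · exact hs₀ h5
    · exact ha₁m h4
  · exact 𝔞.mul_mem_left _ hc₃
  · apply hι
    have h2 : ι (s₂ * s₃ * s₀ * a₁ * z) = ι s₂ * ι s₃ * ι s₀ * ι s₁ * (aS * ι z) := by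
      simp only [map_mul]
      rw [← ha₁]
      ring
    have h3 : ι (s₁ * s₂ * s₀ * c₃ + u₀ * (s₁ * s₃ * d₂))
        = ι s₁ * ι s₂ * ι s₀ * (ι s₃ * cS) + (ι s₀ * uS) * (ι s₁ * ι s₃ * (ι s₂ * dS)) := by
      simp only [map_add, map_mul]
      rw [← e₃, ← hu₀, ← hd₂]
    rw [h2, h3, h1]
    ring

/-- (A5) a common local generator, inside a subring `A₀` which surjects onto `A ⧸ 𝔞` locally at
`𝔐₁` and `𝔐₂`. -/
theorem modelLocGen_common {A : Type*} [CommRing A] (𝔞 𝔐₁ 𝔐₂ : Ideal A) [𝔐₁.IsMaximal]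
    [𝔐₂.IsMaximal] (h𝔞₁ : 𝔞 ≤ 𝔐₁) (h𝔞₂ : 𝔞 ≤ 𝔐₂) (A₀ : Subring A)
    (hA₁ : ∀ a : A, ∃ a₀ ∈ A₀, ∃ s ∈ A₀, s ∉ 𝔐₁ ∧ s * a - a₀ ∈ 𝔞)
    (hA₂ : ∀ a : A, ∃ a₀ ∈ A₀, ∃ s ∈ A₀, s ∉ 𝔐₂ ∧ s * a - a₀ ∈ 𝔞)
    {u₁ u₂ : A} (hu₁ : ModelLocGen 𝔞 𝔐₁ u₁) (hu₂ : ModelLocGen 𝔞 𝔐₂ u₂) :
    ∃ g ∈ A₀, ModelLocGen 𝔞 𝔐₁ g ∧ ModelLocGen 𝔞 𝔐₂ g := by
  have hmax₁ : 𝔐₁.IsMaximal := inferInstance
  have hmax₂ : 𝔐₂.IsMaximal := inferInstance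
  have hp₁ : 𝔐₁.IsPrime := hmax₁.isPrime
  have hp₂ : 𝔐₂.IsPrime := hmax₂.isPrime
  -- local generators inside `A₀`
  have hmove : ∀ (𝔐 : Ideal A) [𝔐.IsPrime], 𝔞 ≤ 𝔐 →
      (∀ a : A, ∃ a₀ ∈ A₀, ∃ s ∈ A₀, s ∉ 𝔐 ∧ s * a - a₀ ∈ 𝔞) →
      ∀ u : A, ModelLocGen 𝔞 𝔐 u → ∃ v ∈ A₀, ModelLocGen 𝔞 𝔐 v := by
    intro 𝔐 _ h𝔞 hA u hu
    obtain ⟨a₀, ha₀, s, -, hs, hsa⟩ := hA u
    refine ⟨a₀, ha₀, modelLocGen_congr h𝔞 hsa ?_⟩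
    have h1 := modelLocGen_perturb hu hs 𝔐.zero_mem 𝔐.zero_mem
    rw [mul_zero, add_zero] at h1
    exact h1
  obtain ⟨v₁, hv₁, hv₁g⟩ := hmove 𝔐₁ h𝔞₁ hA₁ u₁ hu₁
  obtain ⟨v₂, hv₂, hv₂g⟩ := hmove 𝔐₂ h𝔞₂ hA₂ u₂ hu₂
  by_cases heq : 𝔐₁ = 𝔐₂
  · subst heq
    exact ⟨v₁, hv₁, hv₁g, hv₁g⟩
  · -- separating elements inside `A₀`
    have hsep : ∀ (𝔐 𝔐' : Ideal A), 𝔐.IsMaximal → 𝔐'.IsMaximal → 𝔐 ≠ 𝔐' → 𝔞 ≤ 𝔐 → 𝔞 ≤ 𝔐' →
        (∀ a : A, ∃ a₀ ∈ A₀, ∃ s ∈ A₀, s ∉ 𝔐 ∧ s * a - a₀ ∈ 𝔞) →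
        ∃ e ∈ A₀, e ∈ 𝔐' ∧ e ∉ 𝔐 := by
      intro 𝔐 𝔐' hm hm' hne h𝔞 h𝔞' hA
      have hnle : ¬ 𝔐' ≤ 𝔐 := fun hle => hne (hm'.eq_of_le hm.ne_top hle).symm
      obtain ⟨e, he', he⟩ := SetLike.not_le_iff_exists.mp hnle
      obtain ⟨a₀, ha₀, s, -, hs, hsa⟩ := hA e
      refine ⟨a₀, ha₀, ?_, ?_⟩
      · have h1 : a₀ = s * e - (s * e - a₀) := by ring
        rw [h1]
        exact 𝔐'.sub_mem (𝔐'.mul_mem_left s he') (h𝔞' hsa)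
      · intro hmem
        have h2 : s * e ∈ 𝔐 := by
          have h3 : s * e = (s * e - a₀) + a₀ := by ring
          rw [h3]
          exact 𝔐.add_mem (h𝔞 hsa) hmem
        rcases hm.isPrime.mem_or_mem h2 with h4 | h4
        · exact hs h4
        · exact he h4
    obtain ⟨e, heA, he2, he1⟩ := hsep 𝔐₁ 𝔐₂ hmax₁ hmax₂ heq h𝔞₁ h𝔞₂ hA₁
    obtain ⟨e', he'A, he'1, he'2⟩ := hsep 𝔐₂ 𝔐₁ hmax₂ hmax₁ (Ne.symm heq) h𝔞₂ h𝔞₁ hA₂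
    refine ⟨e * e * v₁ + e' * (e' * v₂), ?_, ?_, ?_⟩
    · exact A₀.add_mem (A₀.mul_mem (A₀.mul_mem heA heA) hv₁)
        (A₀.mul_mem he'A (A₀.mul_mem he'A hv₂))
    · refine modelLocGen_perturb hv₁g ?_ he'1 (𝔐₁.mul_mem_right _ he'1)
      intro hmem
      rcases hp₁.mem_or_mem hmem with h4 | h4
      · exact he1 h4
      · exact he1 h4
    · have h1 : e * e * v₁ + e' * (e' * v₂) = e' * e' * v₂ + e * (e * v₁) := by ring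
      rw [h1]
      refine modelLocGen_perturb hv₂g ?_ he2 (𝔐₂.mul_mem_right _ he2)
      intro hmem
      rcases hp₂.mem_or_mem hmem with h4 | h4
      · exact he'2 h4
      · exact he'2 h4

end Fermat.Agent.S34
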