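import Mathlib
import Fermat.Agent.S34.ModelDefs

/-!
P19 (S34), block MODEL, slice B: the "local valuation" at a closed point of the special fibre.

* `model_exists_pow` (B1): in a noetherian ring, if the maximal ideal `𝔐` is locally generated by
  `𝔞` and `u`, every element is, locally at `𝔐` and modulo `𝔞`, either `0` or a unit times a
  power of `u` (Krull's intersection theorem on the module `A ⧸ 𝔞`).
* `model_frac_local` (B2): generic fractions are local fractions.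
-/

set_option autoImplicit false

namespace Fermat.Agent.S34

/-- Auxiliary for (B1): if `a` is never a unit times a power of `u` locally modulo `𝔞`, then it
is divisible by every power of `u` locally modulo `𝔞`. -/
theorem modelVal_forall_pow {A : Type*} [CommRing A] (𝔞 𝔐 : Ideal A) [𝔐.IsPrime]
    {u : A} (hu : ModelLocGen 𝔞 𝔐 u) (a : A)
    (hex : ∀ (n : ℕ) (s d : A), s ∉ 𝔐 → d ∉ 𝔐 → s * a - d * u ^ n ∉ 𝔞) (n : ℕ) :
    ∃ s d : A, s ∉ 𝔐 ∧ s * a - d * u ^ n ∈ 𝔞 := by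
  induction n with
  | zero =>
    refine ⟨1, a, fun h => (Ideal.IsPrime.ne_top ‹_›) ((Ideal.eq_top_iff_one _).mpr h), ?_⟩
    have : (1 : A) * a - a * u ^ 0 = 0 := by ring
    rw [this]
    exact 𝔞.zero_mem
  | succ n ih =>
    obtain ⟨s, d, hs, hsd⟩ := ih
    have hd : d ∈ 𝔐 := by
      by_contra hd
      exact hex n s d hs hd hsd
    obtain ⟨a₁, c, d', ha₁, hc, h1⟩ := hu.exists_eq hd
    refine ⟨a₁ * s, d', fun h => (Ideal.IsPrime.mem_or_mem ‹_› h).elim ha₁ hs, ?_⟩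
    have h2 : a₁ * s * a - d' * u ^ (n + 1) = a₁ * (s * a - d * u ^ n) + u ^ n * c := by
      linear_combination u ^ n * h1
    rw [h2]
    exact 𝔞.add_mem (𝔞.mul_mem_left _ hsd) (𝔞.mul_mem_left _ hc)

set_option linter.unusedVariables false in
/-- (B1) local valuation: in a noetherian ring, if `𝔐` is maximal and locally generated by `𝔞`
and `u`, every `a` is, locally at `𝔐` and modulo `𝔞`, either `0` or a unit times a power of
`u`. -/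
theorem model_exists_pow {A : Type*} [CommRing A] [IsNoetherianRing A] (𝔞 𝔐 : Ideal A)
    [𝔐.IsMaximal] (h𝔞 : 𝔞 ≤ 𝔐) {u : A} (hu : ModelLocGen 𝔞 𝔐 u) (a : A) :
    (∃ s : A, s ∉ 𝔐 ∧ s * a ∈ 𝔞) ∨
      ∃ (n : ℕ) (s s' : A), s ∉ 𝔐 ∧ s' ∉ 𝔐 ∧ s * a - s' * u ^ n ∈ 𝔞 := by
  classical
  by_cases hex : ∃ (n : ℕ) (s s' : A), s ∉ 𝔐 ∧ s' ∉ 𝔐 ∧ s * a - s' * u ^ n ∈ 𝔞
  · exact Or.inr hex
  left
  have hex' : ∀ (n : ℕ) (s d : A), s ∉ 𝔐 → d ∉ 𝔐 → s * a - d * u ^ n ∉ 𝔞 :=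
    fun n s d hs hd h => hex ⟨n, s, d, hs, hd, h⟩
  have hP := modelVal_forall_pow 𝔞 𝔐 hu a hex'
  -- `a` lies in `𝔞 + 𝔐 ^ n` for all `n`
  have hmem : ∀ n : ℕ, ∃ r ∈ 𝔐 ^ n, a - r ∈ 𝔞 := by
    intro n
    obtain ⟨s, d, hs, hsd⟩ := hP n
    have hsup : Ideal.span {s} ⊔ 𝔐 = ⊤ := by
      by_contra hne
      have hle : 𝔐 ≤ Ideal.span {s} ⊔ 𝔐 := le_sup_right
      have heq := (Ideal.IsMaximal.eq_of_le ‹𝔐.IsMaximal› hne hle)
      exact hs (heq ▸ (Ideal.mem_sup_left (Ideal.subset_span rfl)))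
    have hsupn : Ideal.span {s} ⊔ 𝔐 ^ n = ⊤ := Ideal.sup_pow_eq_top hsup
    have h1 : (1 : A) ∈ Ideal.span {s} ⊔ 𝔐 ^ n := by rw [hsupn]; exact Submodule.mem_top
    obtain ⟨e, he, m, hm, hem⟩ := Submodule.mem_sup.mp h1
    obtain ⟨t, rfl⟩ := Ideal.mem_span_singleton'.mp he
    have hun : u ^ n ∈ 𝔐 ^ n := Ideal.pow_mem_pow hu.1 n
    refine ⟨t * d * u ^ n + m * a, (𝔐 ^ n).add_mem ((𝔐 ^ n).mul_mem_left _ hun)
      ((𝔐 ^ n).mul_mem_right _ hm), ?_⟩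
    have h2 : a - (t * d * u ^ n + m * a) = t * (s * a - d * u ^ n) := by
      linear_combination (-a) * hem
    rw [h2]
    exact 𝔞.mul_mem_left _ hsd
  -- Krull's intersection theorem on the `A`-module `A ⧸ 𝔞`
  have hK : (Ideal.Quotient.mk 𝔞 a : A ⧸ 𝔞) ∈
      (⨅ i : ℕ, 𝔐 ^ i • (⊤ : Submodule A (A ⧸ 𝔞))) := by
    rw [Submodule.mem_iInf]
    intro n
    obtain ⟨r, hr, har⟩ := hmem n
    have h3 : (Ideal.Quotient.mk 𝔞 a : A ⧸ 𝔞) = r • (1 : A ⧸ 𝔞) := by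
      rw [Algebra.smul_def, mul_one]
      exact Ideal.Quotient.eq.mpr har
    rw [h3]
    exact Submodule.smul_mem_smul hr Submodule.mem_top
  obtain ⟨r, hr⟩ := (Ideal.mem_iInf_smul_pow_eq_bot_iff 𝔐 _).mp hK
  refine ⟨1 - (r : A), fun h => ?_, ?_⟩
  · have h1 : (1 : A) ∈ 𝔐 := by
      have := 𝔐.add_mem h r.2
      rwa [sub_add_cancel] at this
    exact (Ideal.IsMaximal.ne_top ‹𝔐.IsMaximal›) ((Ideal.eq_top_iff_one _).mpr h1)
  · rw [Algebra.smul_def] at hr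
    have h4 : (Ideal.Quotient.mk 𝔞 ((r : A) * a) : A ⧸ 𝔞) = Ideal.Quotient.mk 𝔞 a := by
      rw [map_mul]; exact hr
    have h5 := Ideal.Quotient.eq.mp h4
    have h6 : (1 - (r : A)) * a = -((r : A) * a - a) := by ring
    rw [h6]
    exact 𝔞.neg_mem h5

/-- (B2) generic fractions are local fractions (the local ring of a branch is the local ring of
the level-`M` fibre): no integrality needed. -/
theorem model_frac_local {A B : Type*} [CommRing A] [IsNoetherianRing A] [CommRing B]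
    (α : A →+* B) (𝔞 : Ideal A) (𝔭 𝔪 : Ideal B) [𝔭.IsPrime] [𝔪.IsPrime] (h𝔭𝔪 : 𝔭 ≤ 𝔪)
    (h𝔞 : 𝔞 ≤ 𝔭.comap α) (hmax : (𝔪.comap α).IsMaximal)
    {u : A} (hu : ModelLocGen 𝔞 (𝔪.comap α) u)
    (b : B) (hfrac : ∃ a a' : A, α a' ∉ 𝔭 ∧ α a' * b - α a ∈ 𝔭) :
    ∃ a a' : A, α a' ∉ 𝔪 ∧ α a' * b - α a ∈ 𝔭 := by
  classical
  obtain ⟨a, a', ha', hab⟩ := hfrac
  have h𝔞𝔐 : 𝔞 ≤ 𝔪.comap α := fun x hx => h𝔭𝔪 (h𝔞 hx)
  have hα𝔞 : ∀ x ∈ 𝔞, α x ∈ 𝔭 := fun x hx => h𝔞 hx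
  have hnot : ∀ s : A, s ∉ 𝔪.comap α → α s ∉ 𝔪 := fun s hs => hs
  have hnot𝔭 : ∀ s : A, s ∉ 𝔪.comap α → α s ∉ 𝔭 := fun s hs h => hs (h𝔭𝔪 h)
  have huα : α u ∈ 𝔪 := hu.1
  -- the denominator is a unit times a power of `u`
  rcases model_exists_pow 𝔞 (𝔪.comap α) h𝔞𝔐 hu a' with ⟨s, hs, hsa⟩ | ⟨n, s₁, s₁', hs₁, hs₁', h1⟩
  · exfalso
    have h2 : α s * α a' ∈ 𝔭 := by rw [← map_mul]; exact hα𝔞 _ hsa
    exact (Ideal.IsPrime.mem_or_mem ‹𝔭.IsPrime› h2).elim (hnot𝔭 s hs) ha'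
  have h1' : α s₁ * α a' - α s₁' * α u ^ n ∈ 𝔭 := by
    have := hα𝔞 _ h1
    rwa [map_sub, map_mul, map_mul, map_pow] at this
  -- `α u ^ n ∉ 𝔭`
  have hun : α u ^ n ∉ 𝔭 := by
    intro h
    have h2 : α s₁ * α a' ∈ 𝔭 := by
      have h3 : α s₁ * α a' = (α s₁ * α a' - α s₁' * α u ^ n) + α s₁' * α u ^ n := by ring
      rw [h3]
      exact 𝔭.add_mem h1' (𝔭.mul_mem_left _ h)
    exact (Ideal.IsPrime.mem_or_mem ‹𝔭.IsPrime› h2).elim (hnot𝔭 s₁ hs₁) ha'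
  rcases model_exists_pow 𝔞 (𝔪.comap α) h𝔞𝔐 hu a with ⟨s, hs, hsa⟩ | ⟨m, s₂, s₂', hs₂, hs₂', h2⟩
  · -- `b ∈ 𝔭`
    have h3 : α s * α a ∈ 𝔭 := by rw [← map_mul]; exact hα𝔞 _ hsa
    have h4 : α s * α a' * b ∈ 𝔭 := by
      have h5 : α s * α a' * b = α s * (α a' * b - α a) + α s * α a := by ring
      rw [h5]
      exact 𝔭.add_mem (𝔭.mul_mem_left _ hab) h3
    have hb : b ∈ 𝔭 := by
      rcases Ideal.IsPrime.mem_or_mem ‹𝔭.IsPrime› h4 with h6 | h6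
      · exact ((Ideal.IsPrime.mem_or_mem ‹𝔭.IsPrime› h6).elim (hnot𝔭 s hs) ha').elim
      · exact h6
    refine ⟨0, 1, ?_, ?_⟩
    · rw [map_one]
      exact fun h => (Ideal.IsPrime.ne_top ‹𝔪.IsPrime›) ((Ideal.eq_top_iff_one _).mpr h)
    · rw [map_one, map_zero, one_mul, sub_zero]
      exact hb
  have h2' : α s₂ * α a - α s₂' * α u ^ m ∈ 𝔭 := by
    have := hα𝔞 _ h2
    rwa [map_sub, map_mul, map_mul, map_pow] at this
  -- the key congruence: `α(s₂ s₁') u^n b ≡ α(s₁ s₂') u^m` modulo `𝔭`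
  have hkey : α s₂ * α s₁' * α u ^ n * b - α s₁ * α s₂' * α u ^ m ∈ 𝔭 := by
    have h3 : α s₂ * α s₁' * α u ^ n * b - α s₁ * α s₂' * α u ^ m =
        α s₂ * α s₁ * (α a' * b - α a) - α s₂ * b * (α s₁ * α a' - α s₁' * α u ^ n)
          + α s₁ * (α s₂ * α a - α s₂' * α u ^ m) := by ring
    rw [h3]
    exact 𝔭.add_mem (𝔭.sub_mem (𝔭.mul_mem_left _ hab) (𝔭.mul_mem_left _ h1'))
      (𝔭.mul_mem_left _ h2')
  rcases le_or_gt n m with hnm | hmn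
  · -- `n ≤ m`: cancel `u ^ n`
    obtain ⟨k, rfl⟩ := Nat.exists_eq_add_of_le hnm
    have h3 : α u ^ n * (α s₂ * α s₁' * b - α s₁ * α s₂' * α u ^ k) ∈ 𝔭 := by
      have h4 : α u ^ n * (α s₂ * α s₁' * b - α s₁ * α s₂' * α u ^ k) =
          α s₂ * α s₁' * α u ^ n * b - α s₁ * α s₂' * α u ^ (n + k) := by ring
      rw [h4]
      exact hkey
    have h5 := (Ideal.IsPrime.mem_or_mem ‹𝔭.IsPrime› h3).resolve_left hun
    refine ⟨s₁ * s₂' * u ^ k, s₂ * s₁', ?_, ?_⟩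
    · rw [map_mul]
      exact fun h => (Ideal.IsPrime.mem_or_mem ‹𝔪.IsPrime› h).elim (hnot s₂ hs₂) (hnot s₁' hs₁')
    · rw [map_mul, map_mul, map_mul, map_pow]
      exact h5
  · -- `m < n`: impossible
    exfalso
    obtain ⟨k, rfl⟩ := Nat.exists_eq_add_of_lt hmn
    have hum : α u ^ m ∉ 𝔭 := by
      intro h
      apply hun
      rw [show m + k + 1 = m + (k + 1) by ring, pow_add]
      exact 𝔭.mul_mem_right _ h
    have h3 : α u ^ m * (α s₂ * α s₁' * α u ^ (k + 1) * b - α s₁ * α s₂') ∈ 𝔭 := by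
      have h4 : α u ^ m * (α s₂ * α s₁' * α u ^ (k + 1) * b - α s₁ * α s₂') =
          α s₂ * α s₁' * α u ^ (m + k + 1) * b - α s₁ * α s₂' * α u ^ m := by ring
      rw [h4]
      exact hkey
    have h5 := h𝔭𝔪 ((Ideal.IsPrime.mem_or_mem ‹𝔭.IsPrime› h3).resolve_left hum)
    have h6 : α s₂ * α s₁' * α u ^ (k + 1) * b ∈ 𝔪 := by
      have h7 : α s₂ * α s₁' * α u ^ (k + 1) * b = (α s₂ * α s₁' * α u ^ k * b) * α u := by ring
      rw [h7]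
      exact 𝔪.mul_mem_left _ huα
    have h8 : α s₁ * α s₂' ∈ 𝔪 := by
      have h9 : α s₁ * α s₂' = α s₂ * α s₁' * α u ^ (k + 1) * b -
          (α s₂ * α s₁' * α u ^ (k + 1) * b - α s₁ * α s₂') := by ring
      rw [h9]
      exact 𝔪.sub_mem h6 h5
    exact (Ideal.IsPrime.mem_or_mem ‹𝔪.IsPrime› h8).elim (hnot s₁ hs₁) (hnot s₂' hs₂')

end Fermat.Agent.S34
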