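import Mathlib
import Fermat.Agent.S34.ModelAlg
import Fermat.Agent.S34.ModelVal

/-!
P19 (S34), block MODEL, slice C: the closed points of the two-component model.

* `model_node_unif` (C1): at a crossing point the Kronecker elements
  `x = β g - (α g₁)^q` and `y = α g - (β g₁)^q` are local generators of the two branches.
* `model_closed_point` (C2): assembly, for every maximal ideal containing `ϖ`.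
-/

set_option autoImplicit false

namespace Fermat.Agent.S34

theorem modelNode_pow_sub_pow_mem {R : Type*} [CommRing R] (I : Ideal R) {a b : R}
    (h : a - b ∈ I) (n : ℕ) : a ^ n - b ^ n ∈ I := by
  obtain ⟨c, hc⟩ := sub_dvd_pow_sub_pow a b n
  rw [hc]
  exact I.mul_mem_right _ h

/-- (C1) the node: Kronecker elements are local generators of the two branches. -/
theorem model_node_unif {A B : Type*} [CommRing A] [CommRing B] (α β : A →+* B)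
    (𝔞 : Ideal A) (𝔭₁ 𝔭₂ 𝔪 : Ideal B) [𝔪.IsPrime] (h₁ : 𝔭₁ ≤ 𝔪) (h₂ : 𝔭₂ ≤ 𝔪)
    (h𝔞₁ : 𝔞 ≤ 𝔭₁.comap α) (h𝔞₂ : 𝔞 ≤ 𝔭₂.comap β)
    (hsurj₁ : ∀ b : B, ∃ a a' : A, α a' ∉ 𝔪 ∧ α a' * b - α a ∈ 𝔭₁)
    (hsurj₂ : ∀ b : B, ∃ a a' : A, β a' ∉ 𝔪 ∧ β a' * b - β a ∈ 𝔭₂)
    (q : ℕ) (hq : 2 ≤ q) (g g₁ g₂ : A)
    (hk₁ : α g₁ ^ q - β g ∈ 𝔭₁) (hk₂ : α g - β g₁ ^ q ∈ 𝔭₂)
    (hk₁' : α g₂ ^ q - β g₁ ∈ 𝔭₁) (hk₂' : α g₁ - β g₂ ^ q ∈ 𝔭₂)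
    (hgα : ModelLocGen 𝔞 (𝔪.comap α) g) (hgβ : ModelLocGen 𝔞 (𝔪.comap β) g) :
    β g - α g₁ ^ q ∈ 𝔭₁ ∧ α g - β g₁ ^ q ∈ 𝔭₂ ∧
      ModelLocGen 𝔭₂ 𝔪 (β g - α g₁ ^ q) ∧ ModelLocGen 𝔭₁ 𝔪 (α g - β g₁ ^ q) := by
  have h𝔪 : 𝔪.IsPrime := inferInstance
  have hx1 : β g - α g₁ ^ q ∈ 𝔭₁ := by
    have := 𝔭₁.neg_mem hk₁
    rwa [neg_sub] at this
  have hmα : α g ∈ 𝔪 := hgα.1
  have hmβ : β g ∈ 𝔪 := hgβ.1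
  have hαg₁ : α g₁ ∈ 𝔪 := by
    have h : α g₁ ^ q ∈ 𝔪 := by
      have := 𝔪.add_mem (h₁ hk₁) hmβ
      rwa [sub_add_cancel] at this
    exact h𝔪.mem_of_pow_mem q h
  have hβg₂ : β g₂ ∈ 𝔪 := by
    have h : β g₂ ^ q ∈ 𝔪 := by
      have := 𝔪.sub_mem hαg₁ (h₂ hk₂')
      rwa [sub_sub_cancel] at this
    exact h𝔪.mem_of_pow_mem q h
  have hβg₁ : β g₁ ∈ 𝔪 := by
    have h : β g₁ ^ q ∈ 𝔪 := by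
      have := 𝔪.sub_mem hmα (h₂ hk₂)
      rwa [sub_sub_cancel] at this
    exact h𝔪.mem_of_pow_mem q h
  have hαg₂ : α g₂ ∈ 𝔪 := by
    have h : α g₂ ^ q ∈ 𝔪 := by
      have := 𝔪.add_mem (h₁ hk₁') hβg₁
      rwa [sub_add_cancel] at this
    exact h𝔪.mem_of_pow_mem q h
  obtain ⟨k, hk⟩ : ∃ k, q * q = k + 1 :=
    ⟨q * q - 1, by have : 1 ≤ q * q := by nlinarith
                   omega⟩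
  have hk0 : 0 < k := by nlinarith
  have key : ∀ γ : A →+* B, γ g₂ ∈ 𝔪 → ModelLocGen 𝔞 (𝔪.comap γ) g →
      ModelLocGen 𝔞 (𝔪.comap γ) (g - g₂ ^ (q * q)) := by
    intro γ hγ hg
    have hP : (𝔪.comap γ).IsPrime := Ideal.comap_isPrime γ 𝔪
    have h1 : (1 : A) ∉ 𝔪.comap γ := fun h => hP.ne_top ((Ideal.eq_top_iff_one _).mpr h)
    have hm : g₂ ∈ 𝔪.comap γ := hγ
    have h := modelLocGen_perturb hg h1 ((𝔪.comap γ).neg_mem hm)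
      (Ideal.pow_mem_of_mem _ hm k hk0)
    have e : 1 * g + -g₂ * g₂ ^ k = g - g₂ ^ (q * q) := by
      rw [hk, pow_succ]; ring
    rwa [e] at h
  refine ⟨hx1, hk₂, ?_, ?_⟩
  · have h3 := modelLocGen_map β 𝔞 𝔭₂ 𝔪 h₂ h𝔞₂ hsurj₂ (key β hβg₂ hgβ)
    refine modelLocGen_congr h₂ ?_ h3
    have e : β (g - g₂ ^ (q * q)) - (β g - α g₁ ^ q) = α g₁ ^ q - (β g₂ ^ q) ^ q := by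
      rw [map_sub, map_pow, pow_mul]; ring
    rw [e]
    exact modelNode_pow_sub_pow_mem 𝔭₂ hk₂' q
  · have h4 := modelLocGen_map α 𝔞 𝔭₁ 𝔪 h₁ h𝔞₁ hsurj₁ (key α hαg₂ hgα)
    refine modelLocGen_congr h₁ ?_ h4
    have e : α (g - g₂ ^ (q * q)) - (α g - β g₁ ^ q) = -((α g₂ ^ q) ^ q - β g₁ ^ q) := by
      rw [map_sub, map_pow, pow_mul]; ring
    rw [e]
    exact 𝔭₁.neg_mem (modelNode_pow_sub_pow_mem 𝔭₁ hk₁' q)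

/-- one-component points: a local generator of the special fibre pulled back from level `M`. -/
theorem modelNode_one_comp {A B : Type*} [CommRing A] [IsNoetherianRing A] [CommRing B]
    (α : A →+* B) (hα : α.IsIntegral)
    (ϖ : B) (𝔞 : Ideal A) (𝔭₁ 𝔭₂ : Ideal B) [𝔭₁.IsPrime]
    (hint : 𝔭₁ ⊓ 𝔭₂ ≤ Ideal.span {ϖ})
    (h𝔞₁ : 𝔞 ≤ 𝔭₁.comap α)
    (hfrac₁ : ∀ b : B, ∃ a a' : A, α a' ∉ 𝔭₁ ∧ α a' * b - α a ∈ 𝔭₁)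
    (hU : ∀ 𝔐 : Ideal A, 𝔐.IsMaximal → 𝔞 ≤ 𝔐 → ∃ u, ModelLocGen 𝔞 𝔐 u)
    (A₀ : Subring A)
    (hA₀ : ∀ 𝔐 : Ideal A, 𝔐.IsMaximal → 𝔞 ≤ 𝔐 →
      ∀ a : A, ∃ a₀ ∈ A₀, ∃ s ∈ A₀, s ∉ 𝔐 ∧ s * a - a₀ ∈ 𝔞)
    (𝔪 : Ideal B) [𝔪.IsMaximal] (hϖ𝔪 : ϖ ∈ 𝔪) (h2 : ¬ 𝔭₂ ≤ 𝔪) :
    ∃ u ∈ A₀, ModelLocGen (Ideal.span {ϖ}) 𝔪 (α u) := by
  have h𝔪 : 𝔪.IsPrime := Ideal.IsMaximal.isPrime inferInstance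
  have hϖle : Ideal.span {ϖ} ≤ 𝔪 := (Ideal.span_singleton_le_iff_mem 𝔪).mpr hϖ𝔪
  have h1 : 𝔭₁ ≤ 𝔪 := (h𝔪.inf_le.mp (hint.trans hϖle)).resolve_right h2
  have hmax : (𝔪.comap α).IsMaximal := Ideal.isMaximal_comap_of_isIntegral_of_isMaximal' α hα 𝔪
  have h𝔞𝔐 : 𝔞 ≤ 𝔪.comap α := h𝔞₁.trans (Ideal.comap_mono h1)
  obtain ⟨u₀, hu₀⟩ := hU _ hmax h𝔞𝔐
  obtain ⟨u, hu, s, -, hs, hsu⟩ := hA₀ _ hmax h𝔞𝔐 u₀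
  have hP : (𝔪.comap α).IsPrime := hmax.isPrime
  have huM : ModelLocGen 𝔞 (𝔪.comap α) u := by
    have h := modelLocGen_perturb hu₀ hs (Ideal.zero_mem _) (Ideal.zero_mem _)
    refine modelLocGen_congr h𝔞𝔐 ?_ h
    have e : s * u₀ + 0 * 0 - u = s * u₀ - u := by ring
    rw [e]; exact hsu
  have hsurj : ∀ b : B, ∃ a a' : A, α a' ∉ 𝔪 ∧ α a' * b - α a ∈ 𝔭₁ := fun b =>
    model_frac_local α 𝔞 𝔭₁ 𝔪 h1 h𝔞₁ hmax huM b (hfrac₁ b)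
  have hB := modelLocGen_map α 𝔞 𝔭₁ 𝔪 h1 h𝔞₁ hsurj huM
  obtain ⟨e, he2, hem⟩ := Set.not_subset.mp h2
  refine ⟨u, hu, modelLocGen_of_exists_eq hB.1 fun z hz => ?_⟩
  obtain ⟨a, c, d, ha, hc, hacd⟩ := hB.exists_eq hz
  refine ⟨e * a, e * c, e * d, fun h => ?_, hint ⟨𝔭₁.mul_mem_left e hc, 𝔭₂.mul_mem_right c he2⟩, ?_⟩
  · rcases h𝔪.mem_or_mem h with h | h
    · exact hem h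
    · exact ha h
  · rw [mul_assoc, hacd]; ring

/-- (C2) **closed points of the two-component model** (abstract form of note 794 (3), (4a)). -/
theorem model_closed_point {A B : Type*} [CommRing A] [IsNoetherianRing A] [CommRing B]
    (α β : A →+* B) (hα : α.IsIntegral) (hβ : β.IsIntegral)
    (ϖ : B) (𝔞 : Ideal A) (𝔭₁ 𝔭₂ : Ideal B) [𝔭₁.IsPrime] [𝔭₂.IsPrime]
    (hint : 𝔭₁ ⊓ 𝔭₂ ≤ Ideal.span {ϖ})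
    (h𝔞₁ : 𝔞 ≤ 𝔭₁.comap α) (h𝔞₂ : 𝔞 ≤ 𝔭₂.comap β)
    (hfrac₁ : ∀ b : B, ∃ a a' : A, α a' ∉ 𝔭₁ ∧ α a' * b - α a ∈ 𝔭₁)
    (hfrac₂ : ∀ b : B, ∃ a a' : A, β a' ∉ 𝔭₂ ∧ β a' * b - β a ∈ 𝔭₂)
    (hU : ∀ 𝔐 : Ideal A, 𝔐.IsMaximal → 𝔞 ≤ 𝔐 → ∃ u, ModelLocGen 𝔞 𝔐 u)
    (A₀ : Subring A)
    (hA₀ : ∀ 𝔐 : Ideal A, 𝔐.IsMaximal → 𝔞 ≤ 𝔐 →
      ∀ a : A, ∃ a₀ ∈ A₀, ∃ s ∈ A₀, s ∉ 𝔐 ∧ s * a - a₀ ∈ 𝔞)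
    (q : ℕ) (hq : 2 ≤ q)
    (hkron : ∀ g ∈ A₀, ∃ g₁ ∈ A₀, α g₁ ^ q - β g ∈ 𝔭₁ ∧ α g - β g₁ ^ q ∈ 𝔭₂)
    (𝔪 : Ideal B) [𝔪.IsMaximal] (hϖ𝔪 : ϖ ∈ 𝔪) :
    (¬ 𝔭₂ ≤ 𝔪 → ∃ u ∈ A₀, ModelLocGen (Ideal.span {ϖ}) 𝔪 (α u)) ∧
    (¬ 𝔭₁ ≤ 𝔪 → ∃ u ∈ A₀, ModelLocGen (Ideal.span {ϖ}) 𝔪 (β u)) ∧
    (𝔭₁ ≤ 𝔪 → 𝔭₂ ≤ 𝔪 → ∃ g ∈ A₀, ∃ g₁ ∈ A₀,
      β g - α g₁ ^ q ∈ 𝔭₁ ∧ α g - β g₁ ^ q ∈ 𝔭₂ ∧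
      ModelLocGen 𝔭₂ 𝔪 (β g - α g₁ ^ q) ∧ ModelLocGen 𝔭₁ 𝔪 (α g - β g₁ ^ q) ∧
      ∀ z ∈ 𝔪, ∃ b : B, b ∉ 𝔪 ∧
        b * z ∈ Ideal.span {ϖ, β g - α g₁ ^ q, α g - β g₁ ^ q}) := by
  have h𝔪 : 𝔪.IsPrime := Ideal.IsMaximal.isPrime inferInstance
  refine ⟨fun h2 => modelNode_one_comp α hα ϖ 𝔞 𝔭₁ 𝔭₂ hint h𝔞₁ hfrac₁ hU A₀ hA₀ 𝔪 hϖ𝔪 h2,
    fun h1 => modelNode_one_comp β hβ ϖ 𝔞 𝔭₂ 𝔭₁ (by rwa [inf_comm]) h𝔞₂ hfrac₂ hU A₀ hA₀ 𝔪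
      hϖ𝔪 h1, fun h1 h2 => ?_⟩
  have hmax₁ : (𝔪.comap α).IsMaximal := Ideal.isMaximal_comap_of_isIntegral_of_isMaximal' α hα 𝔪
  have hmax₂ : (𝔪.comap β).IsMaximal := Ideal.isMaximal_comap_of_isIntegral_of_isMaximal' β hβ 𝔪
  have h𝔞𝔐₁ : 𝔞 ≤ 𝔪.comap α := h𝔞₁.trans (Ideal.comap_mono h1)
  have h𝔞𝔐₂ : 𝔞 ≤ 𝔪.comap β := h𝔞₂.trans (Ideal.comap_mono h2)
  obtain ⟨u₁, hu₁⟩ := hU _ hmax₁ h𝔞𝔐₁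
  obtain ⟨u₂, hu₂⟩ := hU _ hmax₂ h𝔞𝔐₂
  obtain ⟨g, hgA, hgα, hgβ⟩ := modelLocGen_common 𝔞 (𝔪.comap α) (𝔪.comap β) h𝔞𝔐₁ h𝔞𝔐₂ A₀
    (hA₀ _ hmax₁ h𝔞𝔐₁) (hA₀ _ hmax₂ h𝔞𝔐₂) hu₁ hu₂
  obtain ⟨g₁, hg₁A, hk₁, hk₂⟩ := hkron g hgA
  obtain ⟨g₂, -, hk₁', hk₂'⟩ := hkron g₁ hg₁A
  have hsurj₁ : ∀ b : B, ∃ a a' : A, α a' ∉ 𝔪 ∧ α a' * b - α a ∈ 𝔭₁ := fun b =>
    model_frac_local α 𝔞 𝔭₁ 𝔪 h1 h𝔞₁ hmax₁ hgα b (hfrac₁ b)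
  have hsurj₂ : ∀ b : B, ∃ a a' : A, β a' ∉ 𝔪 ∧ β a' * b - β a ∈ 𝔭₂ := fun b =>
    model_frac_local β 𝔞 𝔭₂ 𝔪 h2 h𝔞₂ hmax₂ hgβ b (hfrac₂ b)
  obtain ⟨hx, hy, hGx, hGy⟩ := model_node_unif α β 𝔞 𝔭₁ 𝔭₂ 𝔪 h1 h2 h𝔞₁ h𝔞₂ hsurj₁ hsurj₂ q hq
    g g₁ g₂ hk₁ hk₂ hk₁' hk₂' hgα hgβ
  refine ⟨g, hgA, g₁, hg₁A, hx, hy, hGx, hGy, fun z hz => ?_⟩
  obtain ⟨b, c₂, d, hb, hc₂, hbz⟩ := hGx.exists_eq hz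
  obtain ⟨b', c₁, d', hb', hc₁, hbc⟩ := hGy.exists_eq (h2 hc₂)
  have hc₁2 : c₁ ∈ 𝔭₂ := by
    have e : c₁ = b' * c₂ - (α g - β g₁ ^ q) * d' := by rw [hbc]; ring
    rw [e]
    exact 𝔭₂.sub_mem (𝔭₂.mul_mem_left _ hc₂) (𝔭₂.mul_mem_right _ hy)
  obtain ⟨w, hw⟩ := Ideal.mem_span_singleton'.mp (hint ⟨hc₁, hc₁2⟩)
  refine ⟨b' * b, fun h => ?_, ?_⟩
  · rcases h𝔪.mem_or_mem h with h | h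
    · exact hb' h
    · exact hb h
  · have e : b' * b * z = w * ϖ + (b' * d) * (β g - α g₁ ^ q) + d' * (α g - β g₁ ^ q) := by
      rw [mul_assoc, hbz, mul_add, hbc, hw]; ring
    rw [e]
    refine Ideal.add_mem _ (Ideal.add_mem _ (Ideal.mul_mem_left _ _ (Ideal.subset_span ?_))
      (Ideal.mul_mem_left _ _ (Ideal.subset_span ?_))) (Ideal.mul_mem_left _ _ (Ideal.subset_span ?_))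
    · simp
    · simp
    · simp

end Fermat.Agent.S34
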