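import Mathlib
import Fermat.Agent.S34.ModelNode

/-!
P19 (S34), block MODEL / INST: the closed-point theorem in POINTWISE form.

`model_closed_point_pt` is `model_closed_point` (slice C2) with
* the integrality of `α`, `β` replaced by the maximality of the two contractions `𝔪.comap α`,
  `𝔪.comap β` (all the proof uses),
* `hU` only at these two maximal ideals,
* `A₀ = ⊤`,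
and with the conclusion in the shape consumed by `node_lp_global_smooth` /
`node_lp_global_cross_B`: either a local generator of `𝔪` modulo `ϖ`, or two elements `x`, `y`
of `𝔪` with `x * y ∈ (ϖ)` and `𝔪 = (ϖ, x, y)` locally.
-/

set_option autoImplicit false

namespace Fermat.Agent.S34

/-- one-component points, pointwise form. -/
theorem modelPoint_one_comp {A B : Type*} [CommRing A] [IsNoetherianRing A] [CommRing B]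
    (α : A →+* B) (ϖ : B) (𝔞 : Ideal A) (𝔭₁ 𝔭₂ : Ideal B) [𝔭₁.IsPrime]
    (hint : 𝔭₁ ⊓ 𝔭₂ ≤ Ideal.span {ϖ})
    (h𝔞₁ : 𝔞 ≤ 𝔭₁.comap α)
    (hfrac₁ : ∀ b : B, ∃ a a' : A, α a' ∉ 𝔭₁ ∧ α a' * b - α a ∈ 𝔭₁)
    (𝔪 : Ideal B) [𝔪.IsMaximal] (hmax : (𝔪.comap α).IsMaximal)
    (hU : 𝔞 ≤ 𝔪.comap α → ∃ u, ModelLocGen 𝔞 (𝔪.comap α) u)
    (h1 : 𝔭₁ ≤ 𝔪) (h2 : ¬ 𝔭₂ ≤ 𝔪) :
    ∃ u : A, ModelLocGen (Ideal.span {ϖ}) 𝔪 (α u) := by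
  have h𝔪 : 𝔪.IsPrime := Ideal.IsMaximal.isPrime inferInstance
  have h𝔞𝔐 : 𝔞 ≤ 𝔪.comap α := h𝔞₁.trans (Ideal.comap_mono h1)
  obtain ⟨u, hu⟩ := hU h𝔞𝔐
  have hsurj : ∀ b : B, ∃ a a' : A, α a' ∉ 𝔪 ∧ α a' * b - α a ∈ 𝔭₁ := fun b =>
    model_frac_local α 𝔞 𝔭₁ 𝔪 h1 h𝔞₁ hmax hu b (hfrac₁ b)
  have hB := modelLocGen_map α 𝔞 𝔭₁ 𝔪 h1 h𝔞₁ hsurj hu
  obtain ⟨e, he2, hem⟩ := Set.not_subset.mp h2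
  refine ⟨u, modelLocGen_of_exists_eq hB.1 fun z hz => ?_⟩
  obtain ⟨a, c, d, ha, hc, hacd⟩ := hB.exists_eq hz
  refine ⟨e * a, e * c, e * d, fun h => ?_,
    hint ⟨𝔭₁.mul_mem_left e hc, 𝔭₂.mul_mem_right c he2⟩, ?_⟩
  · rcases h𝔪.mem_or_mem h with h | h
    · exact hem h
    · exact ha h
  · rw [mul_assoc, hacd]; ring

/-- **Closed points of the two-component model, pointwise form.** -/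
theorem model_closed_point_pt {A B : Type*} [CommRing A] [IsNoetherianRing A] [CommRing B]
    (α β : A →+* B)
    (ϖ : B) (𝔞 : Ideal A) (𝔭₁ 𝔭₂ : Ideal B) [𝔭₁.IsPrime] [𝔭₂.IsPrime]
    (hint : 𝔭₁ ⊓ 𝔭₂ ≤ Ideal.span {ϖ})
    (h𝔞₁ : 𝔞 ≤ 𝔭₁.comap α) (h𝔞₂ : 𝔞 ≤ 𝔭₂.comap β)
    (hfrac₁ : ∀ b : B, ∃ a a' : A, α a' ∉ 𝔭₁ ∧ α a' * b - α a ∈ 𝔭₁)
    (hfrac₂ : ∀ b : B, ∃ a a' : A, β a' ∉ 𝔭₂ ∧ β a' * b - β a ∈ 𝔭₂)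
    (q : ℕ) (hq : 2 ≤ q)
    (hkron : ∀ g : A, ∃ g₁ : A, α g₁ ^ q - β g ∈ 𝔭₁ ∧ α g - β g₁ ^ q ∈ 𝔭₂)
    (𝔪 : Ideal B) [𝔪.IsMaximal] (hϖ𝔪 : ϖ ∈ 𝔪)
    (hmax₁ : (𝔪.comap α).IsMaximal) (hmax₂ : (𝔪.comap β).IsMaximal)
    (hU₁ : 𝔞 ≤ 𝔪.comap α → ∃ u, ModelLocGen 𝔞 (𝔪.comap α) u)
    (hU₂ : 𝔞 ≤ 𝔪.comap β → ∃ u, ModelLocGen 𝔞 (𝔪.comap β) u) :
    (∃ t : B, ModelLocGen (Ideal.span {ϖ}) 𝔪 t) ∨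
    (∃ x y : B, x ∈ 𝔪 ∧ y ∈ 𝔪 ∧ x * y ∈ Ideal.span {ϖ} ∧
      ∀ z ∈ 𝔪, ∃ b : B, b ∉ 𝔪 ∧ b * z ∈ Ideal.span {ϖ, x, y}) := by
  have h𝔪 : 𝔪.IsPrime := Ideal.IsMaximal.isPrime inferInstance
  have hϖle : Ideal.span {ϖ} ≤ 𝔪 := (Ideal.span_singleton_le_iff_mem 𝔪).mpr hϖ𝔪
  by_cases h2 : 𝔭₂ ≤ 𝔪
  swap
  · have h1 : 𝔭₁ ≤ 𝔪 := (h𝔪.inf_le.mp (hint.trans hϖle)).resolve_right h2
    obtain ⟨u, hu⟩ := modelPoint_one_comp α ϖ 𝔞 𝔭₁ 𝔭₂ hint h𝔞₁ hfrac₁ 𝔪 hmax₁ hU₁ h1 h2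
    exact Or.inl ⟨α u, hu⟩
  by_cases h1 : 𝔭₁ ≤ 𝔪
  swap
  · obtain ⟨u, hu⟩ := modelPoint_one_comp β ϖ 𝔞 𝔭₂ 𝔭₁ (by rwa [inf_comm]) h𝔞₂ hfrac₂ 𝔪 hmax₂
      hU₂ h2 h1
    exact Or.inl ⟨β u, hu⟩
  right
  have h𝔞𝔐₁ : 𝔞 ≤ 𝔪.comap α := h𝔞₁.trans (Ideal.comap_mono h1)
  have h𝔞𝔐₂ : 𝔞 ≤ 𝔪.comap β := h𝔞₂.trans (Ideal.comap_mono h2)
  obtain ⟨u₁, hu₁⟩ := hU₁ h𝔞𝔐₁
  obtain ⟨u₂, hu₂⟩ := hU₂ h𝔞𝔐₂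
  have := hmax₁
  have := hmax₂
  obtain ⟨g, -, hgα, hgβ⟩ := modelLocGen_common 𝔞 (𝔪.comap α) (𝔪.comap β) h𝔞𝔐₁ h𝔞𝔐₂
    (⊤ : Subring A)
    (fun a => ⟨a, Subring.mem_top _, 1, Subring.mem_top _,
      (Ideal.ne_top_iff_one _).mp hmax₁.ne_top, by simp⟩)
    (fun a => ⟨a, Subring.mem_top _, 1, Subring.mem_top _,
      (Ideal.ne_top_iff_one _).mp hmax₂.ne_top, by simp⟩) hu₁ hu₂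
  obtain ⟨g₁, hk₁, hk₂⟩ := hkron g
  obtain ⟨g₂, hk₁', hk₂'⟩ := hkron g₁
  have hsurj₁ : ∀ b : B, ∃ a a' : A, α a' ∉ 𝔪 ∧ α a' * b - α a ∈ 𝔭₁ := fun b =>
    model_frac_local α 𝔞 𝔭₁ 𝔪 h1 h𝔞₁ hmax₁ hgα b (hfrac₁ b)
  have hsurj₂ : ∀ b : B, ∃ a a' : A, β a' ∉ 𝔪 ∧ β a' * b - β a ∈ 𝔭₂ := fun b =>
    model_frac_local β 𝔞 𝔭₂ 𝔪 h2 h𝔞₂ hmax₂ hgβ b (hfrac₂ b)
  obtain ⟨hx, hy, hGx, hGy⟩ := model_node_unif α β 𝔞 𝔭₁ 𝔭₂ 𝔪 h1 h2 h𝔞₁ h𝔞₂ hsurj₁ hsurj₂ q hq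
    g g₁ g₂ hk₁ hk₂ hk₁' hk₂' hgα hgβ
  refine ⟨β g - α g₁ ^ q, α g - β g₁ ^ q, h1 hx, h2 hy,
    hint ⟨𝔭₁.mul_mem_right _ hx, 𝔭₂.mul_mem_left _ hy⟩, fun z hz => ?_⟩
  obtain ⟨b, c₂, d, hb, hc₂, hbz⟩ := hGx.exists_eq hz
  obtain ⟨b', c₁, d', hb', hc₁, hbc⟩ := hGy.exists_eq (h2 hc₂)
  have hc₁2 : c₁ ∈ 𝔭₂ := by
    have e : c₁ = b' * c₂ - (α g - β g₁ ^ q) * d' := by rw [hbc]; ring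
    rw [e]
    exact 𝔭₂.sub_mem (𝔭₂.mul_mem_left _ hc₂) (𝔭₂.mul_mem_right _ hy)
  obtain ⟨w, hw⟩ := Ideal.mem_span_singleton'.mp (hint ⟨hc₁, hc₁2⟩)
  refine ⟨b' * b, fun h => ?_, ?_⟩
  · rcases h𝔪.mem_or_mem h with h | h
    · exact hb' h
    · exact hb h
  · have e : b' * b * z = w * ϖ + (b' * d) * (β g - α g₁ ^ q) + d' * (α g - β g₁ ^ q) := by
      rw [mul_assoc, hbz, mul_add, hbc, hw]; ring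
    rw [e]
    refine Ideal.add_mem _ (Ideal.add_mem _ (Ideal.mul_mem_left _ _ (Ideal.subset_span ?_))
      (Ideal.mul_mem_left _ _ (Ideal.subset_span ?_))) (Ideal.mul_mem_left _ _ (Ideal.subset_span ?_))
    · simp
    · simp
    · simp

end Fermat.Agent.S34
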