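import Mathlib
import Fermat.Agent.S34.KronDefs
import Fermat.Agent.S34.KronBasic
import Fermat.Agent.S34.KronTwoVal
import Fermat.Agent.S34.KronFrob
import Fermat.Agent.S34.ModelPoint

set_option autoImplicit false

namespace Fermat.Agent.S34

open ModularCurve AlgebraicCurve
open Fermat.Agent.S18 Fermat.Agent.S28 Fermat.Agent.S28.FreeBasisAbs

variable {L k : Type*} [Field L] [Algebra ℚ L] [Field k] {Λ : Subring L} {π : L}
  {res : ↥Λ →+* k} (ι : L →+* ℂ) (M q : ℕ) [NeZero M] [NeZero q] (hcop : Nat.Coprime M q)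

/-- **INST generic theorem (abstract rings, pointwise).**  `A`, `B` rings with embeddings `iA`,
`iB` into `F_M`, `F_{Mq}`; `αA`, `βA : A → B` lift `α`, `β`; `iA A ⊆ V_M`, `iB B ⊆ 𝒪`, `B` is
`π`-saturated in `𝒪`, `V_M` is `A` localised at the Gauss prime, `A` is stable under the inverse
Frobenius lift and noetherian.  For a ring hom `ψ : B → Λ` whose centre `𝔪 = ψ⁻¹(π)` and its two
contractions to `A` are maximal, and such that the special fibre of `A` has a local generator at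
the two contractions: `𝔪` is a smooth point of the special fibre of `B` or a crossing point
`(π, x, y)`, `x * y ∈ (π)`. -/
theorem kron_inst_gen [CharZero L] (hΛ : IsGaussRing Λ π res) (hq : q.Prime) [CharP k q]
    (φ : L ≃ₐ[ℚ] L) (hφΛ : ∀ a ∈ Λ, φ.symm a ∈ Λ)
    (hφ : ∀ a : ↥Λ, res ⟨φ.symm a, hφΛ a a.2⟩ ^ q = res a)
    {A B : Type*} [CommRing A] [IsNoetherianRing A] [CommRing B]
    (iA : A →+* ↥(laurentBaseChange L (modularFunctionFieldFull M)))
    (iB : B →+* ↥(laurentBaseChange L (modularFunctionFieldFull (M * q))))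
    (hiB : Function.Injective iB)
    (αA βA : A →+* B)
    (hαA : ∀ a, iB (αA a) = heckeAlphaBar L M q (iA a))
    (hβA : ∀ a, iB (βA a) = heckeBetaBar L M q (iA a))
    (πA : A) (hπA : iA πA = algebraMap L _ π) (πB : B) (hπB : iB πB = algebraMap L _ π)
    (hAV : ∀ a, iA a ∈ GaussL.gaussV Λ res (laurentBaseChange L (modularFunctionFieldFull M)))
    (hBO : ∀ b, iB b ∈ kronO Λ res ι M q hcop)
    (hsat : ∀ (b : B) (δ : ↥(laurentBaseChange L (modularFunctionFieldFull (M * q)))),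
      δ ∈ kronO Λ res ι M q hcop → iB b = algebraMap L _ π * δ → ∃ b' : B, iB b' = δ)
    (hfrac : ∀ (c : ↥(laurentBaseChange L (modularFunctionFieldFull M)))
      (_ : c ∈ GaussL.gaussV Λ res (laurentBaseChange L (modularFunctionFieldFull M))),
      ∃ a' a : A, iA a = iA a' * c ∧
        ∃ ha' : iA a' ∈ GaussL.gaussV Λ res (laurentBaseChange L (modularFunctionFieldFull M)),
          GaussL.gaussRed Λ res (laurentBaseChange L (modularFunctionFieldFull M))
            ⟨iA a', ha'⟩ ≠ 0)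
    (hfrob : ∀ g : A, ∃ g₁ : A,
      iA g₁ = arithmeticRingAut (modularFunctionFieldFull M) φ.symm (iA g))
    (ψ : B →+* ↥Λ) (hψπ : ψ πB ∈ Ideal.span {GaussL.piL hΛ})
    (hmax : (Ideal.comap ψ (Ideal.span {GaussL.piL hΛ})).IsMaximal)
    (hmaxα : (Ideal.comap (ψ.comp αA) (Ideal.span {GaussL.piL hΛ})).IsMaximal)
    (hmaxβ : (Ideal.comap (ψ.comp βA) (Ideal.span {GaussL.piL hΛ})).IsMaximal)
    (hUα : ∃ u : A, ModelLocGen (Ideal.span {πA})
      (Ideal.comap (ψ.comp αA) (Ideal.span {GaussL.piL hΛ})) u)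
    (hUβ : ∃ u : A, ModelLocGen (Ideal.span {πA})
      (Ideal.comap (ψ.comp βA) (Ideal.span {GaussL.piL hΛ})) u) :
    (∃ t : B, ModelLocGen (Ideal.span {πB}) (Ideal.comap ψ (Ideal.span {GaussL.piL hΛ})) t) ∨
    (∃ x y : B, ψ x ∈ Ideal.span {GaussL.piL hΛ} ∧ ψ y ∈ Ideal.span {GaussL.piL hΛ} ∧
      x * y ∈ Ideal.span {πB} ∧
      ∀ z : B, ψ z ∈ Ideal.span {GaussL.piL hΛ} → ∃ b : B,
        ψ b ∉ Ideal.span {GaussL.piL hΛ} ∧ b * z ∈ Ideal.span {πB, x, y}) := by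
  classical
  -- the two reductions on `B`
  let iO : B →+* ↥(kronO Λ res ι M q hcop) := iB.codRestrict (kronO Λ res ι M q hcop) hBO
  let r₁ : B →+* LaurentSeries k := (kronRedInf Λ res ι M q hcop).comp iO
  let r₂ : B →+* LaurentSeries k := (kronRedZero Λ res ι M q hcop).comp iO
  have hiOα : ∀ a : A, iO (αA a) =
      ⟨heckeAlphaBar L M q (iA a), kron_alpha_mem_kronO ι M q hcop (hAV a)⟩ :=
    fun a => Subtype.ext (hαA a)
  have hiOβ : ∀ a : A, iO (βA a) =
      ⟨heckeBetaBar L M q (iA a), kron_beta_mem_kronO ι M q hcop (hAV a)⟩ :=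
    fun a => Subtype.ext (hβA a)
  have hr₁α : ∀ a : A, r₁ (αA a) =
      GaussL.gaussRed Λ res (laurentBaseChange L (modularFunctionFieldFull M))
        ⟨iA a, hAV a⟩ := by
    intro a
    show kronRedInf Λ res ι M q hcop (iO (αA a)) = _
    rw [hiOα]
    exact kronRedInf_alpha ι M q hcop (hAV a)
  have hr₂β : ∀ a : A, r₂ (βA a) =
      GaussL.gaussRed Λ res (laurentBaseChange L (modularFunctionFieldFull M))
        ⟨iA a, hAV a⟩ := by
    intro a
    show kronRedZero Λ res ι M q hcop (iO (βA a)) = _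
    rw [hiOβ]
    exact kronRedZero_beta ι M q hcop (hAV a)
  have hint : RingHom.ker r₁ ⊓ RingHom.ker r₂ ≤ Ideal.span {πB} := by
    rintro z ⟨h1, h2⟩
    obtain ⟨y, hy⟩ := kronO_exists_eq_pi_mul ι M q hcop hΛ (iO z) (RingHom.mem_ker.mp h1)
      (RingHom.mem_ker.mp h2)
    obtain ⟨b', hb'⟩ := hsat z y y.2 hy
    refine Ideal.mem_span_singleton'.mpr ⟨b', hiB ?_⟩
    rw [map_mul, hb', hπB]
    exact (mul_comm _ _).trans hy.symm
  have hredπ : ∀ a : A, iA a = algebraMap L _ π →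
      GaussL.gaussRed Λ res (laurentBaseChange L (modularFunctionFieldFull M))
        ⟨iA a, hAV a⟩ = 0 := by
    intro a ha
    have e : (⟨iA a, hAV a⟩ :
        ↥(GaussL.gaussV Λ res (laurentBaseChange L (modularFunctionFieldFull M)))) =
        ⟨algebraMap L _ π, GaussL.algebraMap_pi_mem_gaussV _ hΛ⟩ := Subtype.ext ha
    rw [e]
    exact GaussL.gaussRed_algebraMap_pi _ hΛ
  have h𝔞₁ : Ideal.span {πA} ≤ (RingHom.ker r₁).comap αA := by
    rw [Ideal.span_singleton_le_iff_mem, Ideal.mem_comap, RingHom.mem_ker, hr₁α]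
    exact hredπ πA hπA
  have h𝔞₂ : Ideal.span {πA} ≤ (RingHom.ker r₂).comap βA := by
    rw [Ideal.span_singleton_le_iff_mem, Ideal.mem_comap, RingHom.mem_ker, hr₂β]
    exact hredπ πA hπA
  have hfrac₁ : ∀ b : B, ∃ a a' : A, αA a' ∉ RingHom.ker r₁ ∧
      αA a' * b - αA a ∈ RingHom.ker r₁ := by
    intro b
    obtain ⟨c, hc⟩ := kron_exists_gaussRed_eq ι M q hcop hΛ hq ⟨iB b, (hBO b).1⟩
    obtain ⟨a', a, hmul, ha'V, hne⟩ := hfrac c.1 c.2
    refine ⟨a, a', ?_, ?_⟩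
    · rw [RingHom.mem_ker, hr₁α]; exact hne
    · rw [RingHom.mem_ker, map_sub, map_mul, hr₁α, hr₁α]
      have hb : r₁ b = GaussL.gaussRed Λ res _ c := hc
      rw [hb, ← map_mul, sub_eq_zero]
      exact congrArg _ (Subtype.ext hmul.symm)
  have hfrac₂ : ∀ b : B, ∃ a a' : A, βA a' ∉ RingHom.ker r₂ ∧
      βA a' * b - βA a ∈ RingHom.ker r₂ := by
    intro b
    obtain ⟨c, hc⟩ := kron_exists_gaussRed_eq ι M q hcop hΛ hq
      ⟨kronW L ι M q hcop (iB b), (hBO b).2⟩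
    obtain ⟨a', a, hmul, ha'V, hne⟩ := hfrac c.1 c.2
    refine ⟨a, a', ?_, ?_⟩
    · rw [RingHom.mem_ker, hr₂β]; exact hne
    · rw [RingHom.mem_ker, map_sub, map_mul, hr₂β, hr₂β]
      have hb : r₂ b = GaussL.gaussRed Λ res _ c := hc
      rw [hb, ← map_mul, sub_eq_zero]
      exact congrArg _ (Subtype.ext hmul.symm)
  have hkron : ∀ g : A, ∃ g₁ : A,
      αA g₁ ^ q - βA g ∈ RingHom.ker r₁ ∧ αA g - βA g₁ ^ q ∈ RingHom.ker r₂ := by
    intro g
    obtain ⟨g₁, hg₁⟩ := hfrob g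
    obtain ⟨h₁, h₂, e₁, e₂⟩ := kron_kronecker (Λ := Λ) (res := res) ι M q hcop hq φ hφΛ hφ
      (hAV g)
    refine ⟨g₁, ?_, ?_⟩
    · rw [RingHom.mem_ker]
      have e : iO (αA g₁ ^ q - βA g) = ⟨_, h₁⟩ :=
        Subtype.ext (by
          show iB (αA g₁ ^ q - βA g) = _
          rw [map_sub, map_pow, hαA, hβA, hg₁])
      show kronRedInf Λ res ι M q hcop (iO (αA g₁ ^ q - βA g)) = 0
      rw [e]; exact e₁
    · rw [RingHom.mem_ker]
      have e : iO (αA g - βA g₁ ^ q) = ⟨_, h₂⟩ :=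
        Subtype.ext (by
          show iB (αA g - βA g₁ ^ q) = _
          rw [map_sub, map_pow, hαA, hβA, hg₁])
      show kronRedZero Λ res ι M q hcop (iO (αA g - βA g₁ ^ q)) = 0
      rw [e]; exact e₂
  have hp₁ : (RingHom.ker r₁).IsPrime := RingHom.ker_isPrime r₁
  have hp₂ : (RingHom.ker r₂).IsPrime := RingHom.ker_isPrime r₂
  have := hmax
  exact model_closed_point_pt αA βA πB (Ideal.span {πA}) (RingHom.ker r₁) (RingHom.ker r₂)
    hint h𝔞₁ h𝔞₂ hfrac₁ hfrac₂ q hq.two_le hkron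
    (Ideal.comap ψ (Ideal.span {GaussL.piL hΛ})) hψπ hmaxα hmaxβ (fun _ => hUα) (fun _ => hUβ)

end Fermat.Agent.S34
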