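import Mathlib
import Fermat.Agent.S34.InstChartV
import Fermat.Agent.S34.InstChartT
import Fermat.Agent.S34.InstChartFrac
import Fermat.Agent.S34.InstChartN
import Fermat.Agent.S34.KronInstGen
import Fermat.Agent.S34.DictBad

/-!
# P19 (S34), block INST: the FIN chart export `kron_inst_fin`

Abstract presentation of the two chart rings (`A`, `B` with embeddings `iA`, `iB` into `F_M`,
`F_{Mq}` whose images are the integral closures of `Λ[j]`): at every `Λ`-point `ψ` of the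
level-`Mq` chart the closed point is either smooth (a local generator of the special fibre) or a
crossing `x y = π G`.  Assembly of `kron_inst_gen` with the leaves V (InstChartV), T (InstChartT),
FRAC (InstChartFrac), N (InstChartN); statement = note 886.
-/

set_option autoImplicit false

namespace Fermat.Agent.S34

open ModularCurve AlgebraicCurve Polynomial
open Fermat.Agent.S18 Fermat.Agent.S28 Fermat.Agent.S28.FreeBasisAbs

variable {L k : Type*} [Field L] [Algebra ℚ L] [Field k] {Λ : Subring L} {π : L}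
  {res : ↥Λ →+* k}
variable (ι : L →+* ℂ) (M q : ℕ) [NeZero M] [NeZero q] (hcop : Nat.Coprime M q)

include ι hcop in
/-- **INST-FIN, final export** (abstract presentation of the two chart rings). -/
theorem kron_inst_fin [CharZero L] (hΛ : IsGaussRing Λ π res) (hq : q.Prime) [CharP k q]
    (ζ : Lˣ) (hζ : IsPrimitiveRoot ζ q) (hζΛ : (ζ : L) ∈ Λ)
    (φ : L ≃ₐ[ℚ] L) (hφΛ : ∀ a ∈ Λ, φ.symm a ∈ Λ)
    (hφ : ∀ a : ↥Λ, res ⟨φ.symm a, hφΛ a a.2⟩ ^ q = res a)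
    {A B : Type*} [CommRing A] [CommRing B] [Algebra ↥Λ A] [Algebra ↥Λ B]
    (iA : A →+* ↥(laurentBaseChange L (modularFunctionFieldFull M)))
    (iB : B →+* ↥(laurentBaseChange L (modularFunctionFieldFull (M * q))))
    (hiA : Function.Injective iA) (hiB : Function.Injective iB)
    (hiAΛ : ∀ c : ↥Λ, iA (algebraMap ↥Λ A c) = algebraMap L _ (c : L))
    (hiBΛ : ∀ c : ↥Λ, iB (algebraMap ↥Λ B c) = algebraMap L _ (c : L))
    (hA : ∀ z, (∃ a, iA a = z) ↔ IsIntegral (Algebra.adjoin ↥Λ {Fermat.Agent.S24.jL L M}) z)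
    (hB : ∀ z, (∃ b, iB b = z) ↔
      IsIntegral (Algebra.adjoin ↥Λ {Fermat.Agent.S24.jL L (M * q)}) z)
    (hU : ∀ 𝔐 : Ideal A, 𝔐.IsMaximal → algebraMap ↥Λ A (GaussL.piL hΛ) ∈ 𝔐 →
      ∃ u, ModelLocGen (Ideal.span {algebraMap ↥Λ A (GaussL.piL hΛ)}) 𝔐 u)
    (ψ : B →ₐ[↥Λ] ↥Λ) :
    (∃ t : B, ModelLocGen (Ideal.span {algebraMap ↥Λ B (GaussL.piL hΛ)})
      (Ideal.comap (ψ : B →+* ↥Λ) (Ideal.span {GaussL.piL hΛ})) t) ∨
    (∃ x y G : B, x * y = algebraMap ↥Λ B (GaussL.piL hΛ) * G ∧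
      GaussL.piL hΛ ∣ ψ x ∧ GaussL.piL hΛ ∣ ψ y ∧
      ∀ z : B, GaussL.piL hΛ ∣ ψ z → ∃ a : B, ¬ GaussL.piL hΛ ∣ ψ a ∧
        a * z ∈ Ideal.span {algebraMap ↥Λ B (GaussL.piL hΛ), x, y}) := by
  classical
  have : IsNoetherianRing A :=
    inst_isNoetherianRing_of_chart hΛ M (Fermat.Agent.S24.jL L M) (Or.inl rfl) iA hiA hA
  have hπmax : (Ideal.span {GaussL.piL hΛ}).IsMaximal := inst_isMaximal_span_piL hΛ
  -- the lifts of `α`, `β`
  obtain ⟨αA, hαA⟩ := s34db_exists_lift iB hiB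
    ((heckeAlphaBar L M q : ↥(laurentBaseChange L (modularFunctionFieldFull M)) →+*
      ↥(laurentBaseChange L (modularFunctionFieldFull (M * q)))).comp iA)
    (fun a => (hB _).mpr (inst_alpha_fin M q ((hA _).mp ⟨a, rfl⟩)))
  obtain ⟨βA, hβA⟩ := s34db_exists_lift iB hiB
    ((heckeBetaBar L M q : ↥(laurentBaseChange L (modularFunctionFieldFull M)) →+*
      ↥(laurentBaseChange L (modularFunctionFieldFull (M * q)))).comp iA)
    (fun a => (hB _).mpr (inst_beta_fin M q hΛ hq ζ hζ hζΛ ((hA _).mp ⟨a, rfl⟩)))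
  have hαA' : ∀ a, iB (αA a) = heckeAlphaBar L M q (iA a) := hαA
  have hβA' : ∀ a, iB (βA a) = heckeBetaBar L M q (iA a) := hβA
  have hπA : iA (algebraMap ↥Λ A (GaussL.piL hΛ)) = algebraMap L _ π := hiAΛ _
  have hπB : iB (algebraMap ↥Λ B (GaussL.piL hΛ)) = algebraMap L _ π := hiBΛ _
  have hAV : ∀ a, iA a ∈
      GaussL.gaussV Λ res (laurentBaseChange L (modularFunctionFieldFull M)) := fun a =>
    inst_mem_gaussV_of_isIntegral hΛ M ((hA _).mp ⟨a, rfl⟩)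
  have hBO : ∀ b, iB b ∈ kronO Λ res ι M q hcop := fun b =>
    inst_mem_kronO_of_isIntegral ι M q hcop hΛ hq ((hB _).mp ⟨b, rfl⟩)
  have hsat : ∀ (b : B) (δ : ↥(laurentBaseChange L (modularFunctionFieldFull (M * q)))),
      δ ∈ kronO Λ res ι M q hcop → iB b = algebraMap L _ π * δ → ∃ b' : B, iB b' = δ :=
    fun b δ hδ h => (hB _).mpr (inst_sat_fin ι M q hcop hΛ hq ((hB _).mp ⟨b, rfl⟩) hδ h)
  have hfrac : ∀ (c : ↥(laurentBaseChange L (modularFunctionFieldFull M)))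
      (_ : c ∈ GaussL.gaussV Λ res (laurentBaseChange L (modularFunctionFieldFull M))),
      ∃ a' a : A, iA a = iA a' * c ∧
        ∃ ha' : iA a' ∈ GaussL.gaussV Λ res (laurentBaseChange L (modularFunctionFieldFull M)),
          GaussL.gaussRed Λ res (laurentBaseChange L (modularFunctionFieldFull M))
            ⟨iA a', ha'⟩ ≠ 0 := by
    intro c hc
    obtain ⟨a', ha', ha'c, ha'V, hred⟩ := inst_frac_fin M q hΛ hq hcop hc
    obtain ⟨a'₀, rfl⟩ := (hA _).mpr ha'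
    obtain ⟨a₀, ha₀⟩ := (hA _).mpr ha'c
    exact ⟨a'₀, a₀, ha₀, ha'V, hred⟩
  have hfrob : ∀ g : A, ∃ g₁ : A,
      iA g₁ = arithmeticRingAut (modularFunctionFieldFull M) φ.symm (iA g) := fun g =>
    (hA _).mpr (inst_ringAut_fin M φ.symm hφΛ ((hA _).mp ⟨g, rfl⟩))
  -- the point
  have hψΛ : ∀ c : ↥Λ, (ψ : B →+* ↥Λ) (algebraMap ↥Λ B c) = c := fun c => ψ.commutes c
  have hαΛ : ∀ c : ↥Λ, αA (algebraMap ↥Λ A c) = algebraMap ↥Λ B c := fun c =>
    hiB (by rw [hαA', hiAΛ, hiBΛ, AlgHom.commutes])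
  have hβΛ : ∀ c : ↥Λ, βA (algebraMap ↥Λ A c) = algebraMap ↥Λ B c := fun c =>
    hiB (by rw [hβA', hiAΛ, hiBΛ, AlgHom.commutes])
  have hψπ : (ψ : B →+* ↥Λ) (algebraMap ↥Λ B (GaussL.piL hΛ)) ∈
      Ideal.span {GaussL.piL hΛ} := by
    rw [hψΛ]
    exact Ideal.mem_span_singleton_self _
  have hmax : (Ideal.comap (ψ : B →+* ↥Λ) (Ideal.span {GaussL.piL hΛ})).IsMaximal :=
    Ideal.comap_isMaximal_of_surjective _ (fun c => ⟨algebraMap ↥Λ B c, hψΛ c⟩)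
  have hmaxα : (Ideal.comap ((ψ : B →+* ↥Λ).comp αA) (Ideal.span {GaussL.piL hΛ})).IsMaximal :=
    Ideal.comap_isMaximal_of_surjective _ (fun c => ⟨algebraMap ↥Λ A c, by
      rw [RingHom.comp_apply, hαΛ, hψΛ]⟩)
  have hmaxβ : (Ideal.comap ((ψ : B →+* ↥Λ).comp βA) (Ideal.span {GaussL.piL hΛ})).IsMaximal :=
    Ideal.comap_isMaximal_of_surjective _ (fun c => ⟨algebraMap ↥Λ A c, by
      rw [RingHom.comp_apply, hβΛ, hψΛ]⟩)
  have hUα := hU _ hmaxα (by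
    rw [Ideal.mem_comap, RingHom.comp_apply, hαΛ]
    exact hψπ)
  have hUβ := hU _ hmaxβ (by
    rw [Ideal.mem_comap, RingHom.comp_apply, hβΛ]
    exact hψπ)
  rcases kron_inst_gen ι M q hcop hΛ hq φ hφΛ hφ iA iB hiB αA βA hαA' hβA'
    (algebraMap ↥Λ A (GaussL.piL hΛ)) hπA (algebraMap ↥Λ B (GaussL.piL hΛ)) hπB hAV hBO hsat
    hfrac hfrob (ψ : B →+* ↥Λ) hψπ hmax hmaxα hmaxβ hUα hUβ with ⟨t, ht⟩ | ⟨x, y, hx, hy, hxy, hgen⟩
  · exact Or.inl ⟨t, ht⟩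
  · right
    obtain ⟨G, hG⟩ := Ideal.mem_span_singleton'.mp hxy
    refine ⟨x, y, G, by rw [← hG, mul_comm], Ideal.mem_span_singleton.mp hx,
      Ideal.mem_span_singleton.mp hy, fun z hz => ?_⟩
    obtain ⟨b, hb, hbz⟩ := hgen z (Ideal.mem_span_singleton.mpr hz)
    exact ⟨b, fun h => hb (Ideal.mem_span_singleton.mpr h), hbz⟩

end Fermat.Agent.S34
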