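import Mathlib

/-!
P19 (S34), block INST: the semilocal chart ring at `u = 0`.

`s34Sloc Λ u` : the elements `z` of the field `F` such that `a(u) * z` is integral over `Λ[u]`
for some polynomial `a ∈ Λ[X]` with constant coefficient `1` (the localisation of the integral
closure of `Λ[u]` in `F` at the polynomials in `u` with constant coefficient `1`).  For `u = 1/j`
this is the semilocal ring of the cusps of the arithmetic model.
-/

set_option autoImplicit false

namespace Fermat.Agent.S34

open Polynomial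

/-- The semilocal chart ring at `u = 0`. -/
def s34Sloc (Λ : Type*) [CommRing Λ] {F : Type*} [Field F] [Algebra Λ F] (u : F) : Subring F where
  carrier := {z | ∃ a : Λ[X], a.coeff 0 = 1 ∧ IsIntegral (Algebra.adjoin Λ {u}) (aeval u a * z)}
  mul_mem' := by
    rintro z z' ⟨a, ha, h⟩ ⟨a', ha', h'⟩
    refine ⟨a * a', by rw [mul_coeff_zero, ha, ha', one_mul], ?_⟩
    have e : aeval u (a * a') * (z * z') = (aeval u a * z) * (aeval u a' * z') := by
      rw [map_mul]; ring
    rw [e]
    exact h.mul h'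
  one_mem' := ⟨1, by simp, by simpa using isIntegral_one⟩
  add_mem' := by
    rintro z z' ⟨a, ha, h⟩ ⟨a', ha', h'⟩
    refine ⟨a * a', by rw [mul_coeff_zero, ha, ha', one_mul], ?_⟩
    have hmem : ∀ b : Λ[X], IsIntegral (Algebra.adjoin Λ {u}) (aeval u b) := fun b =>
      isIntegral_algebraMap (R := Algebra.adjoin Λ {u})
        (x := ⟨aeval u b, aeval_mem_adjoin_singleton Λ u⟩)
    have e : aeval u (a * a') * (z + z') =
        aeval u a' * (aeval u a * z) + aeval u a * (aeval u a' * z') := by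
      rw [map_mul]; ring
    rw [e]
    exact ((hmem a').mul h).add ((hmem a).mul h')
  zero_mem' := ⟨1, by simp, by simpa using isIntegral_zero⟩
  neg_mem' := by
    rintro z ⟨a, ha, h⟩
    refine ⟨a, ha, ?_⟩
    rw [mul_neg]
    exact h.neg

theorem mem_s34Sloc_iff {Λ : Type*} [CommRing Λ] {F : Type*} [Field F] [Algebra Λ F] {u z : F} :
    z ∈ s34Sloc Λ u ↔
      ∃ a : Λ[X], a.coeff 0 = 1 ∧ IsIntegral (Algebra.adjoin Λ {u}) (aeval u a * z) :=
  Iff.rfl

/-- The chart ring (integral closure of `Λ[u]`) lies in the semilocal ring. -/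
theorem mem_s34Sloc_of_isIntegral {Λ : Type*} [CommRing Λ] {F : Type*} [Field F] [Algebra Λ F]
    {u z : F} (h : IsIntegral (Algebra.adjoin Λ {u}) z) : z ∈ s34Sloc Λ u :=
  ⟨1, by simp, by simpa using h⟩

theorem algebraMap_mem_s34Sloc {Λ : Type*} [CommRing Λ] {F : Type*} [Field F] [Algebra Λ F]
    (u : F) (c : Λ) : algebraMap Λ F c ∈ s34Sloc Λ u :=
  mem_s34Sloc_of_isIntegral (isIntegral_algebraMap (R := Algebra.adjoin Λ {u})
    (x := algebraMap Λ _ c))

theorem aeval_mem_s34Sloc {Λ : Type*} [CommRing Λ] {F : Type*} [Field F] [Algebra Λ F]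
    (u : F) (b : Λ[X]) : aeval u b ∈ s34Sloc Λ u :=
  mem_s34Sloc_of_isIntegral (isIntegral_algebraMap (R := Algebra.adjoin Λ {u})
    (x := ⟨aeval u b, aeval_mem_adjoin_singleton Λ u⟩))

theorem self_mem_s34Sloc {Λ : Type*} [CommRing Λ] {F : Type*} [Field F] [Algebra Λ F]
    (u : F) : u ∈ s34Sloc Λ u := by
  simpa using aeval_mem_s34Sloc (Λ := Λ) u X

end Fermat.Agent.S34
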