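import Mathlib
import Fermat.Agent.S34.SlocDefs
import Fermat.Agent.S34.KronDefs
import Fermat.Agent.S34.KronTwoVal

/-!
P19 (S34), block INST-INF, leaf CO (note 882): the semilocal cusp ring
`s34Sloc Λ j⁻¹` of level `M * q` lies in the Kronecker ring `𝒪 = kronO`.
-/

set_option autoImplicit false

namespace Fermat.Agent.S34

open Polynomial

/-- Abstract core of leaf CO: an element of the semilocal ring at `u = t⁻¹` is integral over the
Gauss ring of `t`. -/
theorem instinfO_isIntegral_gaussSub {Λ F : Type*} [CommRing Λ] [IsDomain Λ] [Field F]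
    [Algebra Λ F] (π : Λ) (hπ : Prime π) {t : F} (ht : Transcendental Λ t) {z : F}
    (hz : z ∈ s34Sloc Λ t⁻¹) :
    IsIntegral (Fermat.Agent.S18.gaussSub π hπ t) z := by
  obtain ⟨a, ha, hint⟩ := hz
  have hti : Transcendental Λ t⁻¹ := Fermat.Agent.S18.GaussLineK.transcendental_inv ht
  -- `π` does not divide `a`
  have hna : ¬ C π ∣ a := by
    intro h
    rw [C_dvd_iff_dvd_coeff] at h
    have h0 := h 0
    rw [ha] at h0
    exact hπ.not_isUnit (isUnit_of_dvd_one h0)
  have ha0 : a ≠ 0 := by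
    rintro rfl
    rw [coeff_zero] at ha
    exact hna (by rw [show (0 : Λ[X]) = C π * 0 by rw [mul_zero]]; exact dvd_mul_right _ _)
  have hne : aeval t⁻¹ a ≠ 0 := Fermat.Agent.S18.GaussLineK.aeval_ne_zero hti ha0
  -- `a(u)⁻¹` lies in the Gauss ring
  have hinv : (aeval t⁻¹ a)⁻¹ ∈ Fermat.Agent.S18.gaussSub π hπ t := by
    have h := Fermat.Agent.S18.GaussLineK.inv_aeval_mem π hπ hti a hna
    rwa [Fermat.Agent.S18.GaussLineK.gaussSub_inv π hπ ht] at h
  -- `a(u) z` is integral over the Gauss ring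
  have h1 : IsIntegral (Fermat.Agent.S18.gaussSub π hπ t) (aeval t⁻¹ a * z) :=
    Fermat.Agent.S18.GaussLineK.isIntegral_of_isIntegral_adjoin π hπ ht
      (s := {t⁻¹}) (by intro x hx; exact Or.inr hx) hint
  have h2 : IsIntegral (Fermat.Agent.S18.gaussSub π hπ t) ((aeval t⁻¹ a)⁻¹) :=
    isIntegral_algebraMap (R := Fermat.Agent.S18.gaussSub π hπ t)
      (x := ⟨(aeval t⁻¹ a)⁻¹, hinv⟩)
  have h3 : z = (aeval t⁻¹ a)⁻¹ * (aeval t⁻¹ a * z) := by
    rw [← mul_assoc, inv_mul_cancel₀ hne, one_mul]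
  rw [h3]
  exact h2.mul h1

section Concrete

open ModularCurve AlgebraicCurve
open Fermat.Agent.S18 Fermat.Agent.S28 Fermat.Agent.S28.FreeBasisAbs

variable {L k : Type*} [Field L] [Algebra ℚ L] [Field k] {Λ : Subring L} {π : L}
  {res : ↥Λ →+* k} (ι : L →+* ℂ) (M q : ℕ) [NeZero M] [NeZero q] (hcop : Nat.Coprime M q)

/-- `j` is transcendental over the subring `Λ` of the constants. -/
theorem instinfO_transcendental_jL (N : ℕ) [NeZero N] (Λ : Subring L) :
    Transcendental ↥Λ (Fermat.Agent.S24.jL L N) := by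
  rintro ⟨p, hp, hp0⟩
  apply Fermat.Agent.S24.transcendental_jL N L
  refine ⟨p.map Λ.subtype, ?_, ?_⟩
  · intro h
    exact hp ((Polynomial.map_eq_zero_iff Subtype.val_injective).mp h)
  · rw [aeval_def, eval₂_map]
    exact hp0

/-- LEAF CO (`S34/InstInfO.lean`): `hBO` for the semilocal cusp ring. -/
theorem instinf_mem_kronO [CharZero L] (hΛ : IsGaussRing Λ π res) (hq : q.Prime) [CharP k q]
    {z : ↥(laurentBaseChange L (modularFunctionFieldFull (M * q)))}
    (hz : z ∈ s34Sloc ↥Λ (Fermat.Agent.S24.jL L (M * q))⁻¹) :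
    z ∈ kronO Λ res ι M q hcop :=
  mem_kronO_of_isIntegral ι M q hcop hΛ hq
    (instinfO_isIntegral_gaussSub (GaussL.piL hΛ) (GaussL.prime_piL hΛ)
      (instinfO_transcendental_jL (M * q) Λ) hz)

end Concrete

end Fermat.Agent.S34
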