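import Mathlib
import Fermat.Agent.S34.SlocDefs
import Fermat.Agent.S34.KronDefs
import Fermat.Agent.S34.KronTwoVal
import Fermat.Agent.S18.GaussLineK
import Fermat.Agent.S24.FFLAlg

/-!
# P19 (S34), block INST-INF, leaf CS: `π`-saturation of the semilocal cusp ring in `𝒪`

`instinf_sat`: if `b = π * δ` with `b` in the semilocal ring `s34Sloc Λ j⁻¹` of the cusp chart
at level `M * q` and `δ ∈ 𝒪 = V_∞ ∩ V_0`, then `δ` lies in the semilocal ring.

Proof: `a(u) * b` is integral over `Λ[u]` (`u = j⁻¹`, `a(0) = 1`); `a(u) * δ ∈ 𝒪` is integral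
over the Gauss ring `gaussSub π j` (`kronO_isIntegral`), and Lemma K for `Λ[j⁻¹]`
(`S18.lemmaK_inv`) gives the integrality of `a(u) * δ` over `Λ[u]`.
-/

set_option autoImplicit false
set_option synthInstance.maxHeartbeats 400000

namespace Fermat.Agent.S34

open Polynomial
open ModularCurve AlgebraicCurve
open Fermat.Agent.S18 Fermat.Agent.S28 Fermat.Agent.S28.FreeBasisAbs

variable {L k : Type*} [Field L] [Algebra ℚ L] [Field k] {Λ : Subring L} {π : L}
  {res : ↥Λ →+* k} (ι : L →+* ℂ) (M q : ℕ) [NeZero M] [NeZero q] (hcop : Nat.Coprime M q)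

/-- The `q`-series of `j` is transcendental over the subring `Λ`. -/
theorem instinfS_transcendental (N : ℕ) [NeZero N] :
    Transcendental ↥Λ (Fermat.Agent.S24.jL L N) :=
  (Fermat.Agent.S24.transcendental_jL (L := L) (N := N)).restrictScalars
    (R := ↥Λ) Subtype.val_injective

/-- Polynomials in `u = j⁻¹` with coefficients in `Λ` lie in `𝒪`. -/
theorem instinfS_aeval_mem_kronO [CharZero L] (hΛ : IsGaussRing Λ π res) (hq : q.Prime)
    [CharP k q] (a : (↥Λ)[X]) :
    aeval (Fermat.Agent.S24.jL L (M * q))⁻¹ a ∈ kronO Λ res ι M q hcop := by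
  have ht : Transcendental ↥Λ (Fermat.Agent.S24.jL L (M * q)) := instinfS_transcendental (M * q)
  have h1 : aeval (Fermat.Agent.S24.jL L (M * q))⁻¹ a ∈
      gaussSub (GaussL.piL hΛ) (GaussL.prime_piL hΛ) (Fermat.Agent.S24.jL L (M * q)) := by
    rw [← GaussLineK.gaussSub_inv (GaussL.piL hΛ) (GaussL.prime_piL hΛ) ht]
    exact aeval_mem_gaussSub _ _ _ a
  have h2 : IsIntegral (gaussSub (GaussL.piL hΛ) (GaussL.prime_piL hΛ)
      (Fermat.Agent.S24.jL L (M * q))) (aeval (Fermat.Agent.S24.jL L (M * q))⁻¹ a) :=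
    isIntegral_algebraMap (R := gaussSub (GaussL.piL hΛ) (GaussL.prime_piL hΛ)
      (Fermat.Agent.S24.jL L (M * q))) (x := ⟨_, h1⟩)
  exact mem_kronO_of_isIntegral ι M q hcop hΛ hq h2

/-- LEAF CS: `hsat` for the semilocal cusp ring. -/
theorem instinf_sat [CharZero L] [IsDiscreteValuationRing ↥Λ] (hΛ : IsGaussRing Λ π res)
    (hq : q.Prime) [CharP k q]
    {b δ : ↥(laurentBaseChange L (modularFunctionFieldFull (M * q)))}
    (hb : b ∈ s34Sloc ↥Λ (Fermat.Agent.S24.jL L (M * q))⁻¹)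
    (hδ : δ ∈ kronO Λ res ι M q hcop)
    (h : b = algebraMap L ↥(laurentBaseChange L (modularFunctionFieldFull (M * q))) π * δ) :
    δ ∈ s34Sloc ↥Λ (Fermat.Agent.S24.jL L (M * q))⁻¹ := by
  obtain ⟨a, ha0, hab⟩ := hb
  refine ⟨a, ha0, ?_⟩
  have ht : Transcendental ↥Λ (Fermat.Agent.S24.jL L (M * q)) := instinfS_transcendental (M * q)
  have hmem : aeval (Fermat.Agent.S24.jL L (M * q))⁻¹ a * δ ∈ kronO Λ res ι M q hcop :=
    (kronO Λ res ι M q hcop).mul_mem (instinfS_aeval_mem_kronO ι M q hcop hΛ hq a) hδ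
  have hδint := kronO_isIntegral ι M q hcop hΛ hq hmem
  have heq : aeval (Fermat.Agent.S24.jL L (M * q))⁻¹ a * b =
      GaussL.piL hΛ • (aeval (Fermat.Agent.S24.jL L (M * q))⁻¹ a * δ) := by
    rw [h, Algebra.smul_def]
    have hπ : algebraMap ↥Λ ↥(laurentBaseChange L (modularFunctionFieldFull (M * q)))
        (GaussL.piL hΛ) =
        algebraMap L ↥(laurentBaseChange L (modularFunctionFieldFull (M * q))) π := rfl
    rw [hπ]
    ring
  exact GaussLineK.lemmaK_inv (GaussL.piL hΛ) (GaussL.prime_piL hΛ) ht hab hδint heq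

end Fermat.Agent.S34
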