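import Mathlib
import Fermat.Agent.S34.SlocDefs

/-!
P19 (S34), block INST-INF, leaf SA: the semilocal chart ring `s34Sloc Λ u` is integrally closed
in `F`.
-/

set_option autoImplicit false

namespace Fermat.Agent.S34

open Polynomial

section Abstract

variable {Λ F : Type*} [CommRing Λ] [Field F] [Algebra Λ F]

/-- an element integral over the integral closure of `Λ[u]` is integral over `Λ[u]`. -/
theorem s34slocint_trans {u y : F}
    (hy : IsIntegral ↥(integralClosure (Algebra.adjoin Λ {u}) F) y) :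
    IsIntegral (Algebra.adjoin Λ {u}) y :=
  isIntegral_trans (R := Algebra.adjoin Λ {u})
    (A := ↥(integralClosure (Algebra.adjoin Λ {u}) F)) y hy

/-- values of polynomials at `u` are integral over `Λ[u]`. -/
theorem s34slocint_aeval (u : F) (b : Λ[X]) :
    IsIntegral (Algebra.adjoin Λ {u}) (aeval u b) :=
  isIntegral_algebraMap (R := Algebra.adjoin Λ {u})
    (x := ⟨aeval u b, aeval_mem_adjoin_singleton Λ u⟩)

/-- common denominator for the coefficients of a polynomial over the semilocal ring. -/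
theorem s34slocint_common (u : F) (p : (↥(s34Sloc Λ u))[X]) :
    ∃ A : Λ[X], A.coeff 0 = 1 ∧ ∀ i : ℕ,
      IsIntegral (Algebra.adjoin Λ {u}) (aeval u A * (p.coeff i : F)) := by
  classical
  have hc : ∀ i : ℕ, ∃ a : Λ[X], a.coeff 0 = 1 ∧
      IsIntegral (Algebra.adjoin Λ {u}) (aeval u a * (p.coeff i : F)) := fun i => (p.coeff i).2
  choose a ha0 haint using hc
  refine ⟨∏ i ∈ Finset.range (p.natDegree + 1), a i, ?_, fun i => ?_⟩
  · rw [coeff_zero_prod]
    exact Finset.prod_eq_one (fun i _ => ha0 i)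
  · by_cases hi : i ∈ Finset.range (p.natDegree + 1)
    · rw [← Finset.mul_prod_erase _ _ hi, map_mul]
      have e : aeval u (a i) * aeval u (∏ x ∈ (Finset.range (p.natDegree + 1)).erase i, a x) *
          (p.coeff i : F) = aeval u (∏ x ∈ (Finset.range (p.natDegree + 1)).erase i, a x) *
          (aeval u (a i) * (p.coeff i : F)) := by ring
      rw [e]
      exact (s34slocint_aeval u _).mul (haint i)
    · have h0 : p.coeff i = 0 := by
        apply coeff_eq_zero_of_natDegree_lt
        rw [Finset.mem_range, not_lt] at hi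
        omega
      rw [h0, ZeroMemClass.coe_zero, mul_zero]
      exact isIntegral_zero

/-- LEAF SA (`S34/SlocInt.lean`): the semilocal ring is integrally closed in `F`. -/
theorem s34Sloc_mem_of_isIntegral {u z : F} (hz : IsIntegral ↥(s34Sloc Λ u) z) :
    z ∈ s34Sloc Λ u := by
  classical
  obtain ⟨p, hpm, hpz⟩ := hz
  obtain ⟨A, hA0, hAint⟩ := s34slocint_common u p
  refine ⟨A, hA0, s34slocint_trans ?_⟩
  set e : ↥(s34Sloc Λ u) := ⟨aeval u A, aeval_mem_s34Sloc u A⟩ with he
  have hq : eval₂ (algebraMap ↥(s34Sloc Λ u) F) (algebraMap ↥(s34Sloc Λ u) F e * z)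
      (scaleRoots p e) = 0 := scaleRoots_eval₂_eq_zero _ hpz
  have hqm : (scaleRoots p e).Monic := (monic_scaleRoots_iff e).mpr hpm
  have hlift : (scaleRoots p e).map (algebraMap ↥(s34Sloc Λ u) F) ∈
      Polynomial.lifts (algebraMap ↥(integralClosure (Algebra.adjoin Λ {u}) F) F) := by
    rw [lifts_iff_coeff_lifts]
    intro i
    rw [coeff_map, coeff_scaleRoots]
    have hmem : IsIntegral (Algebra.adjoin Λ {u})
        (algebraMap ↥(s34Sloc Λ u) F (p.coeff i * e ^ (p.natDegree - i))) := by
      rcases Nat.lt_or_ge i p.natDegree with hi | hi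
      · obtain ⟨m, hm⟩ : ∃ m, p.natDegree - i = m + 1 := ⟨p.natDegree - i - 1, by omega⟩
        rw [hm]
        have e1 : algebraMap ↥(s34Sloc Λ u) F (p.coeff i * e ^ (m + 1)) =
            (aeval u A * (p.coeff i : F)) * (aeval u A) ^ m := by
          change (p.coeff i : F) * (aeval u A) ^ (m + 1) = _
          ring
        rw [e1]
        exact (hAint i).mul ((s34slocint_aeval u A).pow m)
      · rcases Nat.eq_or_lt_of_le hi with hi | hi
        · rw [← hi, Nat.sub_self, pow_zero, mul_one]
          have h1 : p.coeff p.natDegree = 1 := hpm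
          rw [h1, map_one]
          exact isIntegral_one
        · rw [coeff_eq_zero_of_natDegree_lt hi, zero_mul, map_zero]
          exact isIntegral_zero
    exact ⟨⟨_, hmem⟩, rfl⟩
  obtain ⟨q', hq'map, -, hq'm⟩ := lifts_and_degree_eq_and_monic hlift (hqm.map _)
  refine ⟨q', hq'm, ?_⟩
  rw [eval₂_eq_eval_map, hq'map, ← eval₂_eq_eval_map]
  exact hq

/-- LEAF SA (`S34/SlocInt.lean`), the form used: integral over `Λ[w]`, `w` in the semilocal
ring. -/
theorem s34Sloc_mem_of_isIntegral_adjoin {u w z : F} (hw : w ∈ s34Sloc Λ u)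
    (hz : IsIntegral (Algebra.adjoin Λ {w}) z) : z ∈ s34Sloc Λ u := by
  have h : ∀ x ∈ Algebra.adjoin Λ {w}, x ∈ s34Sloc Λ u := by
    let Ssub : Subalgebra Λ F :=
      { (s34Sloc Λ u).toSubsemiring with algebraMap_mem' := algebraMap_mem_s34Sloc u }
    have hle : Algebra.adjoin Λ {w} ≤ Ssub := Algebra.adjoin_le (by
      intro x hx
      rw [Set.mem_singleton_iff] at hx
      subst hx
      exact hw)
    exact fun x hx => hle hx
  obtain ⟨p, hpm, hpz⟩ := hz
  apply s34Sloc_mem_of_isIntegral
  refine ⟨p.map ((algebraMap ↥(Algebra.adjoin Λ {w}) F).codRestrict (s34Sloc Λ u)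
    (fun x => h _ x.2)), hpm.map _, ?_⟩
  rw [eval₂_map]
  exact hpz

end Abstract

end Fermat.Agent.S34
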