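import Mathlib
import Fermat.Agent.S34.ModelDefs
import Fermat.Agent.S34.SlocDefs

/-!
P19 (S34), block INST-INF, leaf SC: descent of the smooth-or-cross disjunction from the semilocal
ring `s34Sloc Λ u` to the chart ring (integral closure of `Λ[u]` in `F`) at a `Λ`-point `φ`
centred on `u = 0`.

Every element `s` of the semilocal ring is `e⁻¹ b` with `b` in the chart ring and `e = a(u)`,
`a(0) = 1`; `φ e ≡ 1 (mod π)` is a unit of `Λ` (`s34SlocDesc_clear`).  Clearing the finitely many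
denominators in the local-generation identities gives the statement; all identities are checked
in `F`.
-/

set_option autoImplicit false

namespace Fermat.Agent.S34

open Polynomial

section Abstract

variable {Λ F : Type*} [CommRing Λ] [Field F] [Algebra Λ F]

/-- Clearing the denominator of an element of the semilocal ring: `b = e * s` with `b`, `e` in
the chart ring and `φ e` a unit. -/
theorem s34SlocDesc_clear (π : Λ) (hloc : ∀ c : Λ, π ∣ c - 1 → IsUnit c) (u : F)
    (φ : ↥(integralClosure (Algebra.adjoin Λ {u}) F) →ₐ[Λ] Λ)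
    (hu : ∀ a : ↥(integralClosure (Algebra.adjoin Λ {u}) F), (a : F) = u → π ∣ φ a)
    (ψ : ↥(s34Sloc Λ u) →+* Λ)
    (hψ : ∀ b : ↥(integralClosure (Algebra.adjoin Λ {u}) F),
        ψ ⟨(b : F), mem_s34Sloc_of_isIntegral b.2⟩ = φ b)
    (s : ↥(s34Sloc Λ u)) :
    ∃ e b : ↥(integralClosure (Algebra.adjoin Λ {u}) F),
      IsUnit (φ e) ∧ (b : F) = (e : F) * (s : F) ∧ φ b = φ e * ψ s := by
  obtain ⟨a, ha, hint⟩ := s.2
  let uB : ↥(integralClosure (Algebra.adjoin Λ {u}) F) :=
    ⟨u, isIntegral_algebraMap (R := Algebra.adjoin Λ {u})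
      (x := ⟨u, Algebra.subset_adjoin (Set.mem_singleton u)⟩)⟩
  let valΛ : ↥(integralClosure (Algebra.adjoin Λ {u}) F) →ₐ[Λ] F :=
    { toFun := fun b => (b : F)
      map_one' := rfl
      map_mul' := fun _ _ => rfl
      map_zero' := rfl
      map_add' := fun _ _ => rfl
      commutes' := fun _ => rfl }
  have hcoe : ((aeval uB a : ↥(integralClosure (Algebra.adjoin Λ {u}) F)) : F) = aeval u a :=
    (Polynomial.aeval_algHom_apply valΛ uB a).symm
  have hφe : IsUnit (φ (aeval uB a)) := by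
    apply hloc
    have h1 : φ (aeval uB a) = Polynomial.eval (φ uB) a := by
      rw [← Polynomial.aeval_algHom_apply, Polynomial.coe_aeval_eq_eval]
    have h2 : π ∣ φ uB := hu uB rfl
    have h3 : Polynomial.eval (φ uB) a = Polynomial.eval (φ uB) (Polynomial.divX a) * φ uB + 1 := by
      conv_lhs => rw [← Polynomial.divX_mul_X_add a]
      rw [Polynomial.eval_add, Polynomial.eval_mul, Polynomial.eval_X, Polynomial.eval_C, ha]
    rw [h1, h3, add_sub_cancel_right]
    exact Dvd.dvd.mul_left h2 _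
  refine ⟨aeval uB a, ⟨aeval u a * (s : F), hint⟩, hφe, ?_, ?_⟩
  · rw [hcoe]
  · have h4 : (⟨aeval u a * (s : F), mem_s34Sloc_of_isIntegral hint⟩ : ↥(s34Sloc Λ u)) =
        ⟨((aeval uB a : ↥(integralClosure (Algebra.adjoin Λ {u}) F)) : F),
          mem_s34Sloc_of_isIntegral (aeval uB a).2⟩ * s :=
      Subtype.ext (by rw [Subring.coe_mul, hcoe])
    have h5 := hψ ⟨aeval u a * (s : F), hint⟩
    rw [← h5]
    show ψ ⟨aeval u a * (s : F), mem_s34Sloc_of_isIntegral hint⟩ = _
    rw [h4, map_mul, hψ]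

/-- LEAF SC (`S34/SlocDescent.lean`): descent of the smooth-or-cross disjunction from the
semilocal ring to the chart ring. -/
theorem s34Sloc_descent (π : Λ) (hloc : ∀ c : Λ, π ∣ c - 1 → IsUnit c) (u : F)
    (φ : ↥(integralClosure (Algebra.adjoin Λ {u}) F) →ₐ[Λ] Λ)
    (hu : ∀ a : ↥(integralClosure (Algebra.adjoin Λ {u}) F), (a : F) = u → π ∣ φ a)
    (ψ : ↥(s34Sloc Λ u) →+* Λ)
    (hψ : ∀ b : ↥(integralClosure (Algebra.adjoin Λ {u}) F),
        ψ ⟨(b : F), mem_s34Sloc_of_isIntegral b.2⟩ = φ b)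
    (πS : ↥(s34Sloc Λ u)) (hπS : (πS : F) = algebraMap Λ F π)
    (h : (∃ t : ↥(s34Sloc Λ u),
        ModelLocGen (Ideal.span {πS}) (Ideal.comap ψ (Ideal.span {π})) t) ∨
      (∃ x y : ↥(s34Sloc Λ u), ψ x ∈ Ideal.span {π} ∧ ψ y ∈ Ideal.span {π} ∧
        x * y ∈ Ideal.span {πS} ∧
        ∀ z : ↥(s34Sloc Λ u), ψ z ∈ Ideal.span {π} → ∃ b : ↥(s34Sloc Λ u),
          ψ b ∉ Ideal.span {π} ∧ b * z ∈ Ideal.span {πS, x, y})) :
    (∃ t : ↥(integralClosure (Algebra.adjoin Λ {u}) F),
      ModelLocGen (Ideal.span {algebraMap Λ ↥(integralClosure (Algebra.adjoin Λ {u}) F) π})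
        (Ideal.comap (φ : ↥(integralClosure (Algebra.adjoin Λ {u}) F) →+* Λ)
          (Ideal.span {π})) t) ∨
    (∃ x y G : ↥(integralClosure (Algebra.adjoin Λ {u}) F),
      x * y = algebraMap Λ ↥(integralClosure (Algebra.adjoin Λ {u}) F) π * G ∧
      π ∣ φ x ∧ π ∣ φ y ∧
      ∀ z : ↥(integralClosure (Algebra.adjoin Λ {u}) F), π ∣ φ z →
        ∃ a : ↥(integralClosure (Algebra.adjoin Λ {u}) F), ¬ π ∣ φ a ∧
          a * z ∈ Ideal.span
            {algebraMap Λ ↥(integralClosure (Algebra.adjoin Λ {u}) F) π, x, y}) := by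
  classical
  have hcl := s34SlocDesc_clear π hloc u φ hu ψ hψ
  have hπcoe : ((algebraMap Λ ↥(integralClosure (Algebra.adjoin Λ {u}) F) π :
      ↥(integralClosure (Algebra.adjoin Λ {u}) F)) : F) = algebraMap Λ F π := rfl
  rcases h with ⟨t, ht⟩ | ⟨x, y, hx, hy, hxy, hgen⟩
  · left
    obtain ⟨et, bt, het, hbt, hφbt⟩ := hcl t
    have htψ : ψ t ∈ Ideal.span {π} := ht.1
    refine ⟨bt, modelLocGen_of_exists_eq ?_ ?_⟩
    · show φ bt ∈ Ideal.span {π}
      rw [hφbt]
      exact Ideal.mul_mem_left _ _ htψ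
    · intro z hz
      have hzS : (⟨(z : F), mem_s34Sloc_of_isIntegral z.2⟩ : ↥(s34Sloc Λ u)) ∈
          Ideal.comap ψ (Ideal.span {π}) := by
        rw [Ideal.mem_comap, hψ]; exact hz
      obtain ⟨a, c, d, ha, hc, hacd⟩ := ht.exists_eq hzS
      obtain ⟨c', rfl⟩ := Ideal.mem_span_singleton'.mp hc
      obtain ⟨ea, ba, hea, hba, hφba⟩ := hcl a
      obtain ⟨ec, bc, hec, hbc, hφbc⟩ := hcl c'
      obtain ⟨ed, bd, hed, hbd, hφbd⟩ := hcl d
      refine ⟨ec * ed * et * ba, algebraMap Λ _ π * (ea * ed * et * bc), ea * ec * bd,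
        ?_, ?_, ?_⟩
      · intro hmem
        apply ha
        have h1 : π ∣ φ (ec * ed * et * ba) := Ideal.mem_span_singleton.mp hmem
        rw [map_mul, hφba, ← mul_assoc, ← map_mul] at h1
        have h2 : IsUnit (φ (ec * ed * et * ea)) := by
          rw [map_mul, map_mul, map_mul]
          exact ((hec.mul hed).mul het).mul hea
        exact Ideal.mem_span_singleton.mpr (h2.dvd_mul_left.mp h1)
      · exact Ideal.mul_mem_right _ _ (Ideal.mem_span_singleton_self _)
      · apply Subtype.ext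
        have h1 := congrArg Subtype.val hacd
        simp only [Subring.coe_mul, Subring.coe_add, hπS] at h1
        simp only [Subalgebra.coe_mul, Subalgebra.coe_add, hπcoe]
        rw [hba, hbc, hbd, hbt]
        linear_combination ((ea : F) * ec * ed * et) * h1
  · right
    obtain ⟨g, hg⟩ := Ideal.mem_span_singleton'.mp hxy
    obtain ⟨ex, bx, hex, hbx, hφbx⟩ := hcl x
    obtain ⟨ey, by', hey, hby, hφby⟩ := hcl y
    obtain ⟨eg, bg, heg, hbg, hφbg⟩ := hcl g
    refine ⟨eg * bx, by', ex * ey * bg, ?_, ?_, ?_, ?_⟩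
    · apply Subtype.ext
      have h1 := congrArg Subtype.val hg
      simp only [Subring.coe_mul, hπS] at h1
      simp only [Subalgebra.coe_mul, hπcoe]
      rw [hbx, hby, hbg]
      linear_combination (-((ex : F) * ey * eg)) * h1
    · rw [map_mul, hφbx]
      exact Dvd.dvd.mul_left (Dvd.dvd.mul_left (Ideal.mem_span_singleton.mp hx) _) _
    · rw [hφby]
      exact Dvd.dvd.mul_left (Ideal.mem_span_singleton.mp hy) _
    · intro z hz
      have hzS : ψ ⟨(z : F), mem_s34Sloc_of_isIntegral z.2⟩ ∈ Ideal.span {π} := by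
        rw [hψ]; exact Ideal.mem_span_singleton.mpr hz
      obtain ⟨b, hb, hbz⟩ := hgen _ hzS
      obtain ⟨c₁, w, hw, hbz'⟩ := Ideal.mem_span_insert.mp hbz
      obtain ⟨c₂, c₃, rfl⟩ := Ideal.mem_span_pair.mp hw
      obtain ⟨eb, bb, heb, hbb, hφbb⟩ := hcl b
      obtain ⟨e1, b1, he1, hb1, hφb1⟩ := hcl c₁
      obtain ⟨e2, b2, he2, hb2, hφb2⟩ := hcl c₂
      obtain ⟨e3, b3, he3, hb3, hφb3⟩ := hcl c₃
      refine ⟨e1 * e2 * e3 * ex * eg * ey * bb, ?_, ?_⟩
      · intro hdvd
        apply hb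
        rw [map_mul, hφbb, ← mul_assoc, ← map_mul] at hdvd
        have h2 : IsUnit (φ (e1 * e2 * e3 * ex * eg * ey * eb)) := by
          simp only [map_mul]
          exact (((((he1.mul he2).mul he3).mul hex).mul heg).mul hey).mul heb
        exact Ideal.mem_span_singleton.mpr (h2.dvd_mul_left.mp hdvd)
      · have key : (e1 * e2 * e3 * ex * eg * ey * bb) * z =
            (eb * e2 * e3 * ex * eg * ey * b1) * algebraMap Λ _ π +
              (eb * e1 * e3 * ey * b2) * (eg * bx) + (eb * e1 * e2 * ex * eg * b3) * by' := by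
          apply Subtype.ext
          have h1 := congrArg Subtype.val hbz'
          simp only [Subring.coe_mul, Subring.coe_add, hπS] at h1
          simp only [Subalgebra.coe_mul, Subalgebra.coe_add, hπcoe]
          rw [hbb, hb1, hb2, hb3, hbx, hby]
          linear_combination ((eb : F) * e1 * e2 * e3 * ex * eg * ey) * h1
        rw [key]
        refine Ideal.add_mem _ (Ideal.add_mem _
          (Ideal.mul_mem_left _ _ (Ideal.subset_span (by simp)))
          (Ideal.mul_mem_left _ _ (Ideal.subset_span (by simp))))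
          (Ideal.mul_mem_left _ _ (Ideal.subset_span (by simp)))

end Abstract

end Fermat.Agent.S34
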