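import Mathlib
import Fermat.Agent.S34.ModelDefs
import Fermat.Agent.S34.SlocDefs

/-!
P19 (S34), block INST-INF, leaf SB: a `Λ`-point of the chart ring (integral closure of `Λ[u]`)
centred on `u = 0` extends to the semilocal ring `s34Sloc Λ u`.

The value at `z` is the unique `l` with `φ (a(u) * z) = a(φ u) * l` for the polynomials `a` with
constant coefficient `1` such that `a(u) * z` lies in the chart ring; `a(φ u)` is a unit.
-/

set_option autoImplicit false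

namespace Fermat.Agent.S34

open Polynomial

section Abstract

variable {Λ F : Type*} [CommRing Λ] [Field F] [Algebra Λ F]

/-- the element `u` of the chart ring. -/
noncomputable def s34spt_u (Λ : Type*) {F : Type*} [CommRing Λ] [Field F] [Algebra Λ F] (u : F) :
    ↥(integralClosure (Algebra.adjoin Λ {u}) F) :=
  ⟨u, isIntegral_algebraMap (R := Algebra.adjoin Λ {u})
    (x := ⟨u, Algebra.self_mem_adjoin_singleton Λ u⟩)⟩

theorem s34spt_coe_aeval (u : F) (a : Λ[X]) :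
    ((aeval (s34spt_u Λ u) a : ↥(integralClosure (Algebra.adjoin Λ {u}) F)) : F)
      = aeval u a := by
  have h := Polynomial.aeval_algHom_apply
    ((integralClosure (Algebra.adjoin Λ {u}) F).val.restrictScalars Λ) (s34spt_u Λ u) a
  exact h.symm

theorem s34spt_isUnit (π : Λ) (hloc : ∀ c : Λ, π ∣ c - 1 → IsUnit c) (x : Λ) (hx : π ∣ x)
    (a : Λ[X]) (ha : a.coeff 0 = 1) : IsUnit (aeval x a) := by
  apply hloc
  have h1 : aeval x a = aeval x (divX a) * x + 1 := by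
    conv_lhs => rw [← divX_mul_X_add a]
    simp [ha]
  rw [h1, add_sub_cancel_right]
  exact Dvd.dvd.mul_left hx _

/-- the graph of the extended point. -/
def s34spt_R (u : F) (φ : ↥(integralClosure (Algebra.adjoin Λ {u}) F) →ₐ[Λ] Λ) (z : F)
    (l : Λ) : Prop :=
  ∃ a : Λ[X], a.coeff 0 = 1 ∧ ∃ w : ↥(integralClosure (Algebra.adjoin Λ {u}) F),
    (w : F) = aeval u a * z ∧ φ w = aeval (φ (s34spt_u Λ u)) a * l

theorem s34spt_phi_aeval (u : F) (φ : ↥(integralClosure (Algebra.adjoin Λ {u}) F) →ₐ[Λ] Λ)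
    (a : Λ[X]) : φ (aeval (s34spt_u Λ u) a) = aeval (φ (s34spt_u Λ u)) a :=
  (Polynomial.aeval_algHom_apply φ (s34spt_u Λ u) a).symm

theorem s34spt_R_strong (u : F) (φ : ↥(integralClosure (Algebra.adjoin Λ {u}) F) →ₐ[Λ] Λ)
    (hunit : ∀ a : Λ[X], a.coeff 0 = 1 → IsUnit (aeval (φ (s34spt_u Λ u)) a))
    {z : F} {l : Λ} (h : s34spt_R u φ z l) (a : Λ[X]) (_ha : a.coeff 0 = 1)
    (w : ↥(integralClosure (Algebra.adjoin Λ {u}) F)) (hw : (w : F) = aeval u a * z) :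
    φ w = aeval (φ (s34spt_u Λ u)) a * l := by
  obtain ⟨a₀, ha₀, w₀, hw₀, hφ₀⟩ := h
  have key : aeval (s34spt_u Λ u) a₀ * w = aeval (s34spt_u Λ u) a * w₀ := by
    apply Subtype.ext
    show ((aeval (s34spt_u Λ u) a₀ : ↥(integralClosure (Algebra.adjoin Λ {u}) F)) : F) * (w : F)
      = ((aeval (s34spt_u Λ u) a : ↥(integralClosure (Algebra.adjoin Λ {u}) F)) : F) * (w₀ : F)
    rw [s34spt_coe_aeval, s34spt_coe_aeval, hw, hw₀]
    ring
  have h2 := congrArg φ key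
  rw [map_mul, map_mul, s34spt_phi_aeval, s34spt_phi_aeval, hφ₀] at h2
  apply (hunit a₀ ha₀).mul_left_cancel
  rw [h2]
  ring

theorem s34spt_R_unique (u : F) (φ : ↥(integralClosure (Algebra.adjoin Λ {u}) F) →ₐ[Λ] Λ)
    (hunit : ∀ a : Λ[X], a.coeff 0 = 1 → IsUnit (aeval (φ (s34spt_u Λ u)) a))
    {z : F} {l l' : Λ} (h : s34spt_R u φ z l) (h' : s34spt_R u φ z l') : l = l' := by
  obtain ⟨a₀, ha₀, w₀, hw₀, hφ₀⟩ := h
  have h2 := s34spt_R_strong u φ hunit h' a₀ ha₀ w₀ hw₀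
  rw [hφ₀] at h2
  exact (hunit a₀ ha₀).mul_left_cancel h2

theorem s34spt_R_exists (u : F) (φ : ↥(integralClosure (Algebra.adjoin Λ {u}) F) →ₐ[Λ] Λ)
    (hunit : ∀ a : Λ[X], a.coeff 0 = 1 → IsUnit (aeval (φ (s34spt_u Λ u)) a))
    {z : F} (hz : z ∈ s34Sloc Λ u) : ∃ l : Λ, s34spt_R u φ z l := by
  obtain ⟨a, ha, h⟩ := hz
  obtain ⟨v, hv⟩ := hunit a ha
  refine ⟨↑v⁻¹ * φ ⟨_, h⟩, a, ha, ⟨_, h⟩, rfl, ?_⟩
  rw [← hv, Units.mul_inv_cancel_left]

theorem s34spt_R_of_mem (u : F) (φ : ↥(integralClosure (Algebra.adjoin Λ {u}) F) →ₐ[Λ] Λ)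
    (b : ↥(integralClosure (Algebra.adjoin Λ {u}) F)) : s34spt_R u φ (b : F) (φ b) :=
  ⟨1, by simp, b, by simp, by simp⟩

theorem s34spt_R_mul (u : F) (φ : ↥(integralClosure (Algebra.adjoin Λ {u}) F) →ₐ[Λ] Λ)
    {z z' : F} {l l' : Λ} (h : s34spt_R u φ z l) (h' : s34spt_R u φ z' l') :
    s34spt_R u φ (z * z') (l * l') := by
  obtain ⟨a, ha, w, hw, hφ⟩ := h
  obtain ⟨a', ha', w', hw', hφ'⟩ := h'
  refine ⟨a * a', by rw [mul_coeff_zero, ha, ha', one_mul], w * w', ?_, ?_⟩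
  · show (w : F) * (w' : F) = _
    rw [hw, hw', map_mul]
    ring
  · rw [map_mul, hφ, hφ', map_mul]
    ring

theorem s34spt_R_add (u : F) (φ : ↥(integralClosure (Algebra.adjoin Λ {u}) F) →ₐ[Λ] Λ)
    {z z' : F} {l l' : Λ} (h : s34spt_R u φ z l) (h' : s34spt_R u φ z' l') :
    s34spt_R u φ (z + z') (l + l') := by
  obtain ⟨a, ha, w, hw, hφ⟩ := h
  obtain ⟨a', ha', w', hw', hφ'⟩ := h'
  refine ⟨a * a', by rw [mul_coeff_zero, ha, ha', one_mul],
    aeval (s34spt_u Λ u) a' * w + aeval (s34spt_u Λ u) a * w', ?_, ?_⟩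
  · show ((aeval (s34spt_u Λ u) a' : ↥(integralClosure (Algebra.adjoin Λ {u}) F)) : F) * (w : F)
      + ((aeval (s34spt_u Λ u) a : ↥(integralClosure (Algebra.adjoin Λ {u}) F)) : F) * (w' : F)
      = _
    rw [s34spt_coe_aeval, s34spt_coe_aeval, hw, hw', map_mul]
    ring
  · rw [map_add, map_mul, map_mul, s34spt_phi_aeval, s34spt_phi_aeval, hφ, hφ', map_mul]
    ring

/-- LEAF SB: a `Λ`-point `φ` of the chart ring centred on `u = 0` extends to the semilocal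
ring. -/
theorem s34Sloc_exists_point (π : Λ) (hloc : ∀ c : Λ, π ∣ c - 1 → IsUnit c) (u : F)
    (φ : ↥(integralClosure (Algebra.adjoin Λ {u}) F) →ₐ[Λ] Λ)
    (hu : ∀ a : ↥(integralClosure (Algebra.adjoin Λ {u}) F), (a : F) = u → π ∣ φ a) :
    ∃ ψ : ↥(s34Sloc Λ u) →+* Λ,
      ∀ b : ↥(integralClosure (Algebra.adjoin Λ {u}) F),
        ψ ⟨(b : F), mem_s34Sloc_of_isIntegral b.2⟩ = φ b := by
  have hπ : π ∣ φ (s34spt_u Λ u) := hu _ rfl
  have hunit : ∀ a : Λ[X], a.coeff 0 = 1 → IsUnit (aeval (φ (s34spt_u Λ u)) a) :=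
    fun a ha => s34spt_isUnit π hloc _ hπ a ha
  have hex : ∀ z : F, z ∈ s34Sloc Λ u → ∃ l : Λ, s34spt_R u φ z l :=
    fun z hz => s34spt_R_exists u φ hunit hz
  choose! f hf using hex
  have hval : ∀ z : F, z ∈ s34Sloc Λ u → ∀ l : Λ, s34spt_R u φ z l → f z = l :=
    fun z hz l hl => s34spt_R_unique u φ hunit (hf z hz) hl
  have hone : s34spt_R u φ (1 : F) 1 := by
    have h1 := s34spt_R_of_mem u φ 1
    rwa [map_one] at h1
  have hzero : s34spt_R u φ (0 : F) 0 := by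
    have h1 := s34spt_R_of_mem u φ 0
    rwa [map_zero] at h1
  refine ⟨{ toFun := fun z => f (z : F)
            map_one' := hval _ (1 : ↥(s34Sloc Λ u)).2 1 hone
            map_mul' := fun z z' => hval _ (z * z').2 _ (s34spt_R_mul u φ (hf _ z.2) (hf _ z'.2))
            map_zero' := hval _ (0 : ↥(s34Sloc Λ u)).2 0 hzero
            map_add' := fun z z' =>
              hval _ (z + z').2 _ (s34spt_R_add u φ (hf _ z.2) (hf _ z'.2)) }, ?_⟩
  intro b
  exact hval _ (mem_s34Sloc_of_isIntegral b.2) _ (s34spt_R_of_mem u φ b)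

end Abstract

end Fermat.Agent.S34
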