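import Mathlib
import Fermat.Agent.S34.ModelDefs
import Fermat.Agent.S34.SlocDefs
import Fermat.Agent.S34.SlocPoint
import Fermat.Agent.S34.SlocDescent

/-!
P19 (S34), block INST-INF: the semilocal detour in ABSTRACT PRESENTATION.

`B` is any presentation of the chart ring (a `Λ`-algebra with an injective embedding `iB : B → F`
whose image is the integral closure of `Λ[u]` in `F`), `φ : B →ₐ[Λ] Λ` a `Λ`-point centred on
`u = 0`.  Then `φ` extends to `ψ : s34Sloc Λ u → Λ` (leaf SB, `s34Sloc_exists_point`), and the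
smooth-or-cross disjunction for `ψ` on the semilocal ring descends to the smooth-or-cross
disjunction for `φ` on `B` (leaf SC, `s34Sloc_descent`), transported along the `Λ`-algebra
isomorphism `B ≃ integralClosure (Algebra.adjoin Λ {u}) F` given by `iB`.
-/

set_option autoImplicit false

namespace Fermat.Agent.S34

open Polynomial

section Abstract

variable {Λ F : Type*} [CommRing Λ] [Field F] [Algebra Λ F]

theorem s34Sloc_pres (π : Λ) (hloc : ∀ c : Λ, π ∣ c - 1 → IsUnit c) (u : F)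
    {B : Type*} [CommRing B] [Algebra Λ B] (iB : B →+* F) (hiB : Function.Injective iB)
    (hiBΛ : ∀ c : Λ, iB (algebraMap Λ B c) = algebraMap Λ F c)
    (hB : ∀ z, (∃ b, iB b = z) ↔ IsIntegral (Algebra.adjoin Λ {u}) z)
    (φ : B →ₐ[Λ] Λ) (hu : ∀ b₀ : B, iB b₀ = u → π ∣ φ b₀) :
    ∃ ψ : ↥(s34Sloc Λ u) →+* Λ,
      (∀ (b : B) (hb : iB b ∈ s34Sloc Λ u), ψ ⟨iB b, hb⟩ = φ b) ∧
      ∀ πS : ↥(s34Sloc Λ u), (πS : F) = algebraMap Λ F π →
        ((∃ t : ↥(s34Sloc Λ u),
            ModelLocGen (Ideal.span {πS}) (Ideal.comap ψ (Ideal.span {π})) t) ∨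
          (∃ x y : ↥(s34Sloc Λ u), ψ x ∈ Ideal.span {π} ∧ ψ y ∈ Ideal.span {π} ∧
            x * y ∈ Ideal.span {πS} ∧
            ∀ z : ↥(s34Sloc Λ u), ψ z ∈ Ideal.span {π} → ∃ b : ↥(s34Sloc Λ u),
              ψ b ∉ Ideal.span {π} ∧ b * z ∈ Ideal.span {πS, x, y})) →
        ((∃ t : B, ModelLocGen (Ideal.span {algebraMap Λ B π})
            (Ideal.comap (φ : B →+* Λ) (Ideal.span {π})) t) ∨
          (∃ x y G : B, x * y = algebraMap Λ B π * G ∧ π ∣ φ x ∧ π ∣ φ y ∧
            ∀ z : B, π ∣ φ z → ∃ a : B, ¬ π ∣ φ a ∧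
              a * z ∈ Ideal.span {algebraMap Λ B π, x, y})) := by
  classical
  -- the isomorphism of `B` with the integral closure
  let jB : B →+* ↥(integralClosure (Algebra.adjoin Λ {u}) F) :=
    { toFun := fun b => ⟨iB b, (hB _).mp ⟨b, rfl⟩⟩
      map_one' := Subtype.ext (map_one iB)
      map_mul' := fun a b => Subtype.ext (map_mul iB a b)
      map_zero' := Subtype.ext (map_zero iB)
      map_add' := fun a b => Subtype.ext (map_add iB a b) }
  have hjinj : Function.Injective jB := fun a b hab => hiB (congrArg Subtype.val hab)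
  have hjsurj : Function.Surjective jB := fun z => by
    obtain ⟨b, hb⟩ := (hB (z : F)).mpr z.2
    exact ⟨b, Subtype.ext hb⟩
  let e : B ≃+* ↥(integralClosure (Algebra.adjoin Λ {u}) F) :=
    RingEquiv.ofBijective jB ⟨hjinj, hjsurj⟩
  have hecoe : ∀ b : B, ((e b : ↥(integralClosure (Algebra.adjoin Λ {u}) F)) : F) = iB b :=
    fun _ => rfl
  have heΛ : ∀ c : Λ, e (algebraMap Λ B c) =
      algebraMap Λ ↥(integralClosure (Algebra.adjoin Λ {u}) F) c :=
    fun c => Subtype.ext (hiBΛ c)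
  have hesΛ : ∀ c : Λ, e.symm (algebraMap Λ ↥(integralClosure (Algebra.adjoin Λ {u}) F) c) =
      algebraMap Λ B c := fun c => by rw [← heΛ, e.symm_apply_apply]
  let φ₀ : ↥(integralClosure (Algebra.adjoin Λ {u}) F) →ₐ[Λ] Λ :=
    { toRingHom := (φ : B →+* Λ).comp (e.symm : ↥(integralClosure (Algebra.adjoin Λ {u}) F) →+* B)
      commutes' := fun c => by
        show φ (e.symm (algebraMap Λ ↥(integralClosure (Algebra.adjoin Λ {u}) F) c)) = _
        rw [hesΛ]; exact φ.commutes c }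
  have hφ₀ : ∀ b₀ : ↥(integralClosure (Algebra.adjoin Λ {u}) F), φ₀ b₀ = φ (e.symm b₀) :=
    fun _ => rfl
  have hφ₀e : ∀ b : B, φ₀ (e b) = φ b := fun b => by rw [hφ₀, e.symm_apply_apply]
  have hu₀ : ∀ a : ↥(integralClosure (Algebra.adjoin Λ {u}) F), (a : F) = u → π ∣ φ₀ a := by
    intro a ha
    rw [hφ₀]
    apply hu
    rw [← hecoe, e.apply_symm_apply]
    exact ha
  obtain ⟨ψ, hψ⟩ := s34Sloc_exists_point π hloc u φ₀ hu₀
  refine ⟨ψ, fun b hb => ?_, fun πS hπS h => ?_⟩
  · have h1 := hψ (e b)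
    rw [hφ₀e] at h1
    exact h1
  · rcases s34Sloc_descent π hloc u φ₀ hu₀ ψ hψ πS hπS h with
      ⟨t₀, ht₀⟩ | ⟨x₀, y₀, G₀, hxy, hx, hy, hgen⟩
    · left
      refine ⟨e.symm t₀, modelLocGen_of_exists_eq ?_ ?_⟩
      · show φ (e.symm t₀) ∈ Ideal.span {π}
        exact ht₀.1
      · intro z hz
        have hz₀ : e z ∈ Ideal.comap
            (φ₀ : ↥(integralClosure (Algebra.adjoin Λ {u}) F) →+* Λ) (Ideal.span {π}) := by
          show φ₀ (e z) ∈ Ideal.span {π}
          rw [hφ₀e]; exact hz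
        obtain ⟨a, c, d, ha, hc, hacd⟩ := ht₀.exists_eq hz₀
        obtain ⟨c', rfl⟩ := Ideal.mem_span_singleton'.mp hc
        refine ⟨e.symm a, e.symm c' * algebraMap Λ B π, e.symm d, ha,
          Ideal.mul_mem_left _ _ (Ideal.mem_span_singleton_self _), ?_⟩
        have h2 := congrArg e.symm hacd
        rw [map_mul, map_add, map_mul, map_mul, e.symm_apply_apply, hesΛ] at h2
        exact h2
    · right
      refine ⟨e.symm x₀, e.symm y₀, e.symm G₀, ?_, hx, hy, fun z hz => ?_⟩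
      · have h2 := congrArg e.symm hxy
        rw [map_mul, map_mul, hesΛ] at h2
        exact h2
      · obtain ⟨a₀, ha₀, hmem⟩ := hgen (e z) (by rw [hφ₀e]; exact hz)
        obtain ⟨c₁, w, hw, hbz⟩ := Ideal.mem_span_insert.mp hmem
        obtain ⟨c₂, c₃, rfl⟩ := Ideal.mem_span_pair.mp hw
        refine ⟨e.symm a₀, ha₀, ?_⟩
        have key : e.symm a₀ * z = e.symm c₁ * algebraMap Λ B π +
            e.symm c₂ * e.symm x₀ + e.symm c₃ * e.symm y₀ := by
          have h2 := congrArg e.symm hbz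
          rw [map_mul, e.symm_apply_apply, map_add, map_add, map_mul, map_mul, map_mul,
            hesΛ] at h2
          rw [h2]; ring
        rw [key]
        exact Ideal.add_mem _ (Ideal.add_mem _
          (Ideal.mul_mem_left _ _ (Ideal.subset_span (by simp)))
          (Ideal.mul_mem_left _ _ (Ideal.subset_span (by simp))))
          (Ideal.mul_mem_left _ _ (Ideal.subset_span (by simp)))

end Abstract

end Fermat.Agent.S34
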