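import Mathlib
import Fermat.Agent.S34.KronWGal
import Fermat.Agent.S34.KronInstGen
import Fermat.Agent.S34.SlocInt
import Fermat.Agent.S34.InstInfS
import Fermat.Agent.S34.InstChartFrac
import Fermat.Agent.S34.InstChartT
import Fermat.Agent.S34.InstChartN
import Fermat.Agent.S34.InstInfO
import Fermat.Agent.S34.SlocPres

/-!
# P19 (S34), block INST-INF: the closed-point theorem on the cusp chart

`kron_inst_inf`: for the cusp chart ring `B` (the elements of `F_{Mq}` integral over `Λ[j⁻¹]`,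
in abstract presentation) and a `Λ`-point `ψ` of `B` centred on the cusp divisor
(`π ∣ ψ (j⁻¹)`), the centre `ψ⁻¹(π)` is a smooth point of the special fibre or a crossing point.

Route: `kron_inst_gen` for `A` = the cusp chart ring of level `M` and the semilocal ring
`s34Sloc Λ j⁻¹` of level `M q`, then descent from the semilocal ring to `B` (`s34Sloc_pres`).
-/

set_option autoImplicit false

namespace Fermat.Agent.S34

open Polynomial
open ModularCurve AlgebraicCurve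
open Fermat.Agent.S18 Fermat.Agent.S28 Fermat.Agent.S28.FreeBasisAbs

section Gen

/-- A `Λ`-linear ring homomorphism maps elements integral over `Λ[t]` to elements integral over
`Λ[f t]`. -/
theorem instinf_isIntegral_map {Λ F F' : Type*} [CommRing Λ] [CommRing F] [CommRing F']
    [Algebra Λ F] [Algebra Λ F'] (f : F →+* F')
    (hf : ∀ c : Λ, f (algebraMap Λ F c) = algebraMap Λ F' c) {t a : F}
    (ha : IsIntegral (Algebra.adjoin Λ {t}) a) : IsIntegral (Algebra.adjoin Λ {f t}) (f a) := by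
  let g : F →ₐ[Λ] F' := { f with commutes' := hf }
  obtain ⟨P, hP, hPc, hPx⟩ := KronInt.exists_poly_of_isIntegral_subalgebra _ ha
  refine KronInt.isIntegral_subalgebra_of_poly _ (P.map f) (hP.map _) (fun i => ?_) ?_
  · rw [coeff_map]
    have h1 : g (P.coeff i) ∈ (Algebra.adjoin Λ {t}).map g := ⟨_, hPc i, rfl⟩
    rwa [AlgHom.map_adjoin, Set.image_singleton] at h1
  · rw [eval_map, eval₂_at_apply, hPx, map_zero]

end Gen

section Concrete

variable {L k : Type*} [Field L] [Algebra ℚ L] [Field k] {Λ : Subring L} {π : L}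
  {res : ↥Λ →+* k} (ι : L →+* ℂ) (M q : ℕ) [NeZero M] [NeZero q] (hcop : Nat.Coprime M q)

set_option synthInstance.maxHeartbeats 400000 in
/-- `α` maps the level-`M` cusp chart ring into the semilocal ring. -/
theorem instinf_alpha_mem
    {a : ↥(laurentBaseChange L (modularFunctionFieldFull M))}
    (ha : IsIntegral (Algebra.adjoin ↥Λ {(Fermat.Agent.S24.jL L M)⁻¹}) a) :
    heckeAlphaBar L M q a ∈ s34Sloc ↥Λ (Fermat.Agent.S24.jL L (M * q))⁻¹ := by
  apply mem_s34Sloc_of_isIntegral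
  have h := instinf_isIntegral_map (Λ := ↥Λ)
    (heckeAlphaBar L M q : ↥(laurentBaseChange L (modularFunctionFieldFull M)) →+*
      ↥(laurentBaseChange L (modularFunctionFieldFull (M * q))))
    (fun c => (heckeAlphaBar L M q).commutes (c : L)) ha
  rw [RingHom.coe_coe, map_inv₀, kron_alpha_jL] at h
  exact h

set_option synthInstance.maxHeartbeats 400000 in
/-- `β` maps the level-`M` cusp chart ring into the semilocal ring. -/
theorem instinf_beta_mem (hΛ : IsGaussRing Λ π res) (hq : q.Prime)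
    (ζ : Lˣ) (hζ : IsPrimitiveRoot ζ q) (hζΛ : (ζ : L) ∈ Λ)
    {a : ↥(laurentBaseChange L (modularFunctionFieldFull M))}
    (ha : IsIntegral (Algebra.adjoin ↥Λ {(Fermat.Agent.S24.jL L M)⁻¹}) a) :
    heckeBetaBar L M q a ∈ s34Sloc ↥Λ (Fermat.Agent.S24.jL L (M * q))⁻¹ := by
  have h := instinf_isIntegral_map (Λ := ↥Λ)
    (heckeBetaBar L M q : ↥(laurentBaseChange L (modularFunctionFieldFull M)) →+*
      ↥(laurentBaseChange L (modularFunctionFieldFull (M * q))))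
    (fun c => (heckeBetaBar L M q).commutes (c : L)) ha
  rw [RingHom.coe_coe, map_inv₀] at h
  exact s34Sloc_mem_of_isIntegral_adjoin (kron_exists_inf_beta M q hΛ hq ζ hζ hζΛ) h

include ι hcop in
/-- The level-`M` cusp chart ring lies in the Gauss ring `V_M` (through `α` and `𝒪`). -/
theorem instinf_mem_gaussV [CharZero L] (hΛ : IsGaussRing Λ π res) (hq : q.Prime) [CharP k q]
    {a : ↥(laurentBaseChange L (modularFunctionFieldFull M))}
    (ha : IsIntegral (Algebra.adjoin ↥Λ {(Fermat.Agent.S24.jL L M)⁻¹}) a) :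
    a ∈ GaussL.gaussV Λ res (laurentBaseChange L (modularFunctionFieldFull M)) := by
  have h1 := instinf_mem_kronO ι M q hcop hΛ hq (instinf_alpha_mem (Λ := Λ) M q ha)
  have h2 := ((mem_kronO_iff Λ res ι M q hcop).mp h1).1
  rw [GaussL.mem_gaussV_iff, coe_heckeAlphaBar] at h2
  exact (GaussL.mem_gaussV_iff _ _).mpr h2

include ι hcop in
set_option synthInstance.maxHeartbeats 400000 in
set_option maxHeartbeats 1000000 in
/-- **INST-INF** (abstract presentation): the closed-point theorem on the cusp chart of level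
`M q`.  `A`, `B` are the cusp chart rings of levels `M`, `M q` (elements integral over
`Λ[j⁻¹]`), `hU` is the smoothness of the special fibre of `A`, `ψ` is a `Λ`-point of `B` centred
on the cusps. -/
theorem kron_inst_inf [CharZero L] (hΛ : IsGaussRing Λ π res)
    (hq : q.Prime) [CharP k q]
    (ζ : Lˣ) (hζ : IsPrimitiveRoot ζ q) (hζΛ : (ζ : L) ∈ Λ)
    (φ : L ≃ₐ[ℚ] L) (hφΛ : ∀ a ∈ Λ, φ.symm a ∈ Λ)
    (hφ : ∀ a : ↥Λ, res ⟨φ.symm a, hφΛ a a.2⟩ ^ q = res a)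
    {A B : Type*} [CommRing A] [CommRing B] [Algebra ↥Λ A] [Algebra ↥Λ B]
    (iA : A →+* ↥(laurentBaseChange L (modularFunctionFieldFull M)))
    (iB : B →+* ↥(laurentBaseChange L (modularFunctionFieldFull (M * q))))
    (hiA : Function.Injective iA) (hiB : Function.Injective iB)
    (hiAΛ : ∀ c : ↥Λ, iA (algebraMap ↥Λ A c) = algebraMap L _ (c : L))
    (hiBΛ : ∀ c : ↥Λ, iB (algebraMap ↥Λ B c) = algebraMap L _ (c : L))
    (hA : ∀ z, (∃ a, iA a = z) ↔
      IsIntegral (Algebra.adjoin ↥Λ {(Fermat.Agent.S24.jL L M)⁻¹}) z)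
    (hB : ∀ z, (∃ b, iB b = z) ↔
      IsIntegral (Algebra.adjoin ↥Λ {(Fermat.Agent.S24.jL L (M * q))⁻¹}) z)
    (hU : ∀ 𝔐 : Ideal A, 𝔐.IsMaximal → algebraMap ↥Λ A (GaussL.piL hΛ) ∈ 𝔐 →
      ∃ u, ModelLocGen (Ideal.span {algebraMap ↥Λ A (GaussL.piL hΛ)}) 𝔐 u)
    (ψ : B →ₐ[↥Λ] ↥Λ)
    (hcusp : ∀ b₀ : B, iB b₀ = (Fermat.Agent.S24.jL L (M * q))⁻¹ → GaussL.piL hΛ ∣ ψ b₀) :
    (∃ t : B, ModelLocGen (Ideal.span {algebraMap ↥Λ B (GaussL.piL hΛ)})
      (Ideal.comap (ψ : B →+* ↥Λ) (Ideal.span {GaussL.piL hΛ})) t) ∨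
    (∃ x y G : B, x * y = algebraMap ↥Λ B (GaussL.piL hΛ) * G ∧
      GaussL.piL hΛ ∣ ψ x ∧ GaussL.piL hΛ ∣ ψ y ∧
      ∀ z : B, GaussL.piL hΛ ∣ ψ z → ∃ a : B, ¬ GaussL.piL hΛ ∣ ψ a ∧
        a * z ∈ Ideal.span {algebraMap ↥Λ B (GaussL.piL hΛ), x, y}) := by
  have : IsDiscreteValuationRing ↥Λ := s34icn_isDiscreteValuationRing hΛ
  have hπmax : (Ideal.span {GaussL.piL hΛ}).IsMaximal := inst_isMaximal_span_piL hΛ
  have hπmem : GaussL.piL hΛ ∈ IsLocalRing.maximalIdeal ↥Λ :=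
    (IsLocalRing.mem_maximalIdeal _).mpr (GaussL.prime_piL hΛ).not_isUnit
  have hloc : ∀ c : ↥Λ, GaussL.piL hΛ ∣ c - 1 → IsUnit c := by
    intro c hc
    by_contra hcu
    have h1 : c ∈ IsLocalRing.maximalIdeal ↥Λ := (IsLocalRing.mem_maximalIdeal _).mpr hcu
    have h2 : c - 1 ∈ IsLocalRing.maximalIdeal ↥Λ := by
      obtain ⟨d, hd⟩ := hc
      rw [hd]
      exact Ideal.mul_mem_right _ _ hπmem
    have h3 : (1 : ↥Λ) ∈ IsLocalRing.maximalIdeal ↥Λ := by
      have h4 := Ideal.sub_mem _ h1 h2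
      rwa [sub_sub_cancel] at h4
    exact (IsLocalRing.maximalIdeal.isMaximal ↥Λ).ne_top ((Ideal.eq_top_iff_one _).mpr h3)
  obtain ⟨ψ', hψ', hdesc⟩ := s34Sloc_pres (GaussL.piL hΛ) hloc
    (Fermat.Agent.S24.jL L (M * q))⁻¹ iB hiB (fun c => hiBΛ c) hB ψ hcusp
  -- `Λ` inside the semilocal ring
  have hΛmem : ∀ c : ↥Λ,
      algebraMap L ↥(laurentBaseChange L (modularFunctionFieldFull (M * q))) (c : L) ∈
        s34Sloc ↥Λ (Fermat.Agent.S24.jL L (M * q))⁻¹ := fun c =>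
    algebraMap_mem_s34Sloc (Fermat.Agent.S24.jL L (M * q))⁻¹ c
  have hψ'Λ : ∀ c : ↥Λ, ψ' ⟨_, hΛmem c⟩ = c := by
    intro c
    have h1 := hψ' (algebraMap ↥Λ B c) (by rw [hiBΛ]; exact hΛmem c)
    rw [AlgHom.commutes] at h1
    have h2 : (⟨iB (algebraMap ↥Λ B c), by rw [hiBΛ]; exact hΛmem c⟩ :
        ↥(s34Sloc ↥Λ (Fermat.Agent.S24.jL L (M * q))⁻¹)) = ⟨_, hΛmem c⟩ :=
      Subtype.ext (hiBΛ c)
    rw [← h2, h1]
    rfl
  have hsurj : Function.Surjective ψ' := fun c => ⟨_, hψ'Λ c⟩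
  -- the two maps
  let αA : A →+* ↥(s34Sloc ↥Λ (Fermat.Agent.S24.jL L (M * q))⁻¹) :=
    RingHom.codRestrict
      ((heckeAlphaBar L M q : ↥(laurentBaseChange L (modularFunctionFieldFull M)) →+*
        ↥(laurentBaseChange L (modularFunctionFieldFull (M * q)))).comp iA) _
      (fun a => instinf_alpha_mem M q ((hA _).mp ⟨a, rfl⟩))
  let βA : A →+* ↥(s34Sloc ↥Λ (Fermat.Agent.S24.jL L (M * q))⁻¹) :=
    RingHom.codRestrict
      ((heckeBetaBar L M q : ↥(laurentBaseChange L (modularFunctionFieldFull M)) →+*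
        ↥(laurentBaseChange L (modularFunctionFieldFull (M * q)))).comp iA) _
      (fun a => instinf_beta_mem M q hΛ hq ζ hζ hζΛ ((hA _).mp ⟨a, rfl⟩))
  have hαΛ : ∀ c : ↥Λ, αA (algebraMap ↥Λ A c) = ⟨_, hΛmem c⟩ := fun c =>
    Subtype.ext (by
      show heckeAlphaBar L M q (iA (algebraMap ↥Λ A c)) = _
      rw [hiAΛ, AlgHom.commutes])
  have hβΛ : ∀ c : ↥Λ, βA (algebraMap ↥Λ A c) = ⟨_, hΛmem c⟩ := fun c =>
    Subtype.ext (by
      show heckeBetaBar L M q (iA (algebraMap ↥Λ A c)) = _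
      rw [hiAΛ, AlgHom.commutes])
  have hsurjα : Function.Surjective (ψ'.comp αA) := fun c =>
    ⟨algebraMap ↥Λ A c, by rw [RingHom.comp_apply, hαΛ, hψ'Λ]⟩
  have hsurjβ : Function.Surjective (ψ'.comp βA) := fun c =>
    ⟨algebraMap ↥Λ A c, by rw [RingHom.comp_apply, hβΛ, hψ'Λ]⟩
  have hmax : (Ideal.comap ψ' (Ideal.span {GaussL.piL hΛ})).IsMaximal :=
    Ideal.comap_isMaximal_of_surjective ψ' hsurj
  have hmaxα : (Ideal.comap (ψ'.comp αA) (Ideal.span {GaussL.piL hΛ})).IsMaximal :=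
    Ideal.comap_isMaximal_of_surjective _ hsurjα
  have hmaxβ : (Ideal.comap (ψ'.comp βA) (Ideal.span {GaussL.piL hΛ})).IsMaximal :=
    Ideal.comap_isMaximal_of_surjective _ hsurjβ
  have : IsNoetherianRing A :=
    inst_isNoetherianRing_of_chart hΛ M _ (Or.inr rfl) iA hiA hA
  have key := kron_inst_gen ι M q hcop hΛ hq φ hφΛ hφ iA
    (s34Sloc ↥Λ (Fermat.Agent.S24.jL L (M * q))⁻¹).subtype Subtype.val_injective αA βA
    (fun a => rfl) (fun a => rfl)
    (algebraMap ↥Λ A (GaussL.piL hΛ)) (hiAΛ _) ⟨_, hΛmem (GaussL.piL hΛ)⟩ rfl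
    (fun a => instinf_mem_gaussV ι M q hcop hΛ hq ((hA _).mp ⟨a, rfl⟩))
    (fun b => instinf_mem_kronO ι M q hcop hΛ hq b.2)
    (fun b δ hδ h => ⟨⟨δ, instinf_sat ι M q hcop hΛ hq b.2 hδ h⟩, rfl⟩)
    (fun c hc => by
      obtain ⟨a', h1, h2, ha', hne⟩ := inst_frac_inv M q hΛ hq hcop hc
      obtain ⟨a₁, rfl⟩ := (hA _).mpr h1
      obtain ⟨a₂, ha₂⟩ := (hA _).mpr h2
      exact ⟨a₁, a₂, ha₂, ha', hne⟩)
    (fun g => (hA _).mpr (inst_ringAut_inv M φ.symm hφΛ ((hA _).mp ⟨g, rfl⟩)))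
    ψ' (by rw [hψ'Λ]; exact Ideal.mem_span_singleton_self _) hmax hmaxα hmaxβ
    (hU _ hmaxα (by
      rw [Ideal.mem_comap, RingHom.comp_apply, hαΛ, hψ'Λ]
      exact Ideal.mem_span_singleton_self _))
    (hU _ hmaxβ (by
      rw [Ideal.mem_comap, RingHom.comp_apply, hβΛ, hψ'Λ]
      exact Ideal.mem_span_singleton_self _))
  exact hdesc ⟨_, hΛmem (GaussL.piL hΛ)⟩ rfl key

end Concrete

end Fermat.Agent.S34
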