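import Mathlib
import Fermat.Agent.S34.ModelDefs
import Fermat.Agent.S24.Defs

/-!
P19 (S34), block MODEL-M: the statement (M*) for the coarse level-`M` model, in the generic
(KRON) convention: `L` a field of characteristic `0`, `Λ : Subring L`, `F_M = FFL L M`,
`j = jL L M`, chart rings = integral closures of `Λ[j]` and `Λ[j⁻¹]` in `F_M`.

`S34MstarAt Λ M ϖ` : every maximal ideal `𝔐 ∋ ϖ` of either chart ring has a local generator of
the special fibre (`ModelLocGen (ϖ) 𝔐 u`).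
-/

set_option autoImplicit false

namespace Fermat.Agent.S34

open ModularCurve

/-- (M*) for the chart ring `integralClosure Λ[w]` of `F_M = FFL L M`: every maximal ideal
containing `ϖ` has a local generator modulo `ϖ`. -/
def S34MstarChart {L : Type*} [Field L] [Algebra ℚ L] (Λ : Subring L) (M : ℕ)
    (w : Fermat.Agent.S24.FFL L M) (ϖ : ↥Λ) : Prop :=
  ∀ 𝔐 : Ideal ↥(integralClosure (Algebra.adjoin ↥Λ {w}) (Fermat.Agent.S24.FFL L M)),
    𝔐.IsMaximal → algebraMap ↥Λ _ ϖ ∈ 𝔐 →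
    ∃ u, ModelLocGen (Ideal.span {algebraMap ↥Λ _ ϖ}) 𝔐 u

/-- (M*) for both coarse charts (`w = j` and `w = j⁻¹`) of the level-`M` model over `Λ`. -/
def S34MstarAt {L : Type*} [Field L] [Algebra ℚ L] (Λ : Subring L) (M : ℕ) [NeZero M]
    (ϖ : ↥Λ) : Prop :=
  S34MstarChart Λ M (Fermat.Agent.S24.jL L M) ϖ ∧
    S34MstarChart Λ M (Fermat.Agent.S24.jL L M)⁻¹ ϖ

end Fermat.Agent.S34
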