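import Mathlib
import Fermat.Agent.S34.ModelMDefs
import Fermat.Agent.S34.DictChart
import Fermat.Agent.S34.InstChartN
import Fermat.Agent.S34.InstFin
import Fermat.Agent.S34.InstInf

/-!
# P19 (S34), block GEO: the per-place alternative (iv) of `abs_main` for the concrete charts

Generic (KRON) convention: `L` a field of characteristic `0`, `Λ : Subring L` a Gauss ring,
`F_N = FFL L (M * q)`, `j = jL L (M * q)`.  For a maximal ideal `𝔪 ∋ π` of the chart ring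
`integralClosure Λ[t] F_N` (`t = j`, or `t = j⁻¹` with `j⁻¹ ∈ 𝔪`) and a place `𝔔` of the generic
fibre through `𝔪` with residue field `L`: the three-way alternative `hpt` of `abs_main`
(smooth local principality, crossing local principality up to a power of `π`, or `𝔔` fixed by
`τ`, `τ'`).

Inputs: `kron_inst_fin` / `kron_inst_inf` (closed points of the level-`M q` model at `Λ`-points
are smooth or crossings), `S34MstarAt` (the special fibre of the level-`M` model has local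
generators), `s34dict_hpt_chart_inst` (the dictionary).
-/

set_option autoImplicit false

namespace Fermat.Agent.S34

open ModularCurve AlgebraicCurve Polynomial IsDedekindDomain
open Fermat.Agent.S18 Fermat.Agent.S28 Fermat.Agent.S28.FreeBasisAbs

variable {L k : Type*} [Field L] [Algebra ℚ L] [Field k] {Λ : Subring L} {π : L}
  {res : ↥Λ →+* k}

/-- The tower `Λ → L → F_N` (the default instance search is very slow on it). -/
theorem s34geo_tower_L (Λ : Subring L) (N : ℕ) :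
    IsScalarTower ↥Λ L (Fermat.Agent.S24.FFL L N) :=
  IsScalarTower.of_algebraMap_eq (fun _ => rfl)

/-- **(iv) PT, fin chart** (`t = j`), generic base field. -/
theorem geo_hpt_fin [CharZero L] [IsDiscreteValuationRing ↥Λ] [IsFractionRing ↥Λ L]
    (ι : L →+* ℂ) (M q : ℕ) [NeZero M] [NeZero q] (hcop : Nat.Coprime M q)
    [IsScalarTower ↥Λ L (Fermat.Agent.S24.FFL L (M * q))]
    (hΛ : IsGaussRing Λ π res) (hq : q.Prime) [CharP k q]
    (ζ : Lˣ) (hζ : IsPrimitiveRoot ζ q) (hζΛ : (ζ : L) ∈ Λ)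
    (φ : L ≃ₐ[ℚ] L) (hφΛ : ∀ a ∈ Λ, φ.symm a ∈ Λ)
    (hφ : ∀ a : ↥Λ, res ⟨φ.symm a, hφΛ a a.2⟩ ^ q = res a)
    (hM : S34MstarAt Λ M (GaussL.piL hΛ))
    [IsDedekindDomain ↥(integralClosure (Algebra.adjoin L {Fermat.Agent.S24.jL L (M * q)})
      (Fermat.Agent.S24.FFL L (M * q)))]
    [IsFractionRing ↥(integralClosure (Algebra.adjoin L {Fermat.Agent.S24.jL L (M * q)})
      (Fermat.Agent.S24.FFL L (M * q))) (Fermat.Agent.S24.FFL L (M * q))]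
    (τ τ' : (Fermat.Agent.S24.FFL L (M * q)) ≃+* (Fermat.Agent.S24.FFL L (M * q)))
    (hτ : DictTau ↥Λ L (GaussL.piL hΛ) (Fermat.Agent.S24.jL L (M * q)) τ)
    (hτ' : DictTau ↥Λ L (GaussL.piL hΛ) (Fermat.Agent.S24.jL L (M * q)) τ')
    (𝔪 : Ideal ↥(integralClosure (Algebra.adjoin ↥Λ {Fermat.Agent.S24.jL L (M * q)})
      (Fermat.Agent.S24.FFL L (M * q))))
    (h𝔪 : 𝔪.IsMaximal)
    (hπ𝔪 : algebraMap ↥Λ ↥(integralClosure (Algebra.adjoin ↥Λ {Fermat.Agent.S24.jL L (M * q)})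
      (Fermat.Agent.S24.FFL L (M * q))) (GaussL.piL hΛ) ∈ 𝔪)
    (𝔔 : HeightOneSpectrum ↥(integralClosure (Algebra.adjoin L {Fermat.Agent.S24.jL L (M * q)})
      (Fermat.Agent.S24.FFL L (M * q))))
    (h𝔔 : 𝔔 ∈ absThrough (B := ↥(integralClosure (Algebra.adjoin ↥Λ {Fermat.Agent.S24.jL L (M * q)})
      (Fermat.Agent.S24.FFL L (M * q))))
      (Bη := ↥(integralClosure (Algebra.adjoin L {Fermat.Agent.S24.jL L (M * q)})
      (Fermat.Agent.S24.FFL L (M * q))))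
      (absIncl ↥Λ L (Fermat.Agent.S24.jL L (M * q))) 𝔪)
    (hres : ∀ y : ↥(integralClosure (Algebra.adjoin L {Fermat.Agent.S24.jL L (M * q)})
      (Fermat.Agent.S24.FFL L (M * q))),
      ∃ c : L, y - algebraMap L ↥(integralClosure (Algebra.adjoin L {Fermat.Agent.S24.jL L (M * q)})
      (Fermat.Agent.S24.FFL L (M * q))) c ∈ 𝔔.asIdeal) :
    (∃ φ : ↥(integralClosure (Algebra.adjoin ↥Λ {Fermat.Agent.S24.jL L (M * q)})
      (Fermat.Agent.S24.FFL L (M * q))) →ₐ[↥Λ] ↥Λ,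
        𝔪 = Ideal.comap (φ : ↥(integralClosure (Algebra.adjoin ↥Λ {Fermat.Agent.S24.jL L (M * q)})
      (Fermat.Agent.S24.FFL L (M * q))) →+* ↥Λ)
          (Ideal.span {GaussL.piL hΛ}) ∧
        (∀ b : ↥(integralClosure (Algebra.adjoin ↥Λ {Fermat.Agent.S24.jL L (M * q)})
      (Fermat.Agent.S24.FFL L (M * q))),
          absIncl ↥Λ L (Fermat.Agent.S24.jL L (M * q)) b ∈ 𝔔.asIdeal ↔ φ b = 0) ∧
        ∃ h : ↥(integralClosure (Algebra.adjoin ↥Λ {Fermat.Agent.S24.jL L (M * q)})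
      (Fermat.Agent.S24.FFL L (M * q))), φ h = 0 ∧
          ∃ s : ↥(integralClosure (Algebra.adjoin ↥Λ {Fermat.Agent.S24.jL L (M * q)})
      (Fermat.Agent.S24.FFL L (M * q))), ¬ GaussL.piL hΛ ∣ φ s ∧
            ∀ b : ↥(integralClosure (Algebra.adjoin ↥Λ {Fermat.Agent.S24.jL L (M * q)})
      (Fermat.Agent.S24.FFL L (M * q))), φ b = 0 → h ∣ s * b) ∨
      (∃ φ : ↥(integralClosure (Algebra.adjoin ↥Λ {Fermat.Agent.S24.jL L (M * q)})
      (Fermat.Agent.S24.FFL L (M * q))) →ₐ[↥Λ] ↥Λ,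
        𝔪 = Ideal.comap (φ : ↥(integralClosure (Algebra.adjoin ↥Λ {Fermat.Agent.S24.jL L (M * q)})
      (Fermat.Agent.S24.FFL L (M * q))) →+* ↥Λ)
          (Ideal.span {GaussL.piL hΛ}) ∧
        (∀ b : ↥(integralClosure (Algebra.adjoin ↥Λ {Fermat.Agent.S24.jL L (M * q)})
      (Fermat.Agent.S24.FFL L (M * q))),
          absIncl ↥Λ L (Fermat.Agent.S24.jL L (M * q)) b ∈ 𝔔.asIdeal ↔ φ b = 0) ∧
        ∃ h : ↥(integralClosure (Algebra.adjoin ↥Λ {Fermat.Agent.S24.jL L (M * q)})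
      (Fermat.Agent.S24.FFL L (M * q))), φ h = 0 ∧
          ∃ (n : ℕ) (s : ↥(integralClosure (Algebra.adjoin ↥Λ {Fermat.Agent.S24.jL L (M * q)})
      (Fermat.Agent.S24.FFL L (M * q)))), ¬ GaussL.piL hΛ ∣ φ s ∧
            ∀ b : ↥(integralClosure (Algebra.adjoin ↥Λ {Fermat.Agent.S24.jL L (M * q)})
      (Fermat.Agent.S24.FFL L (M * q))), φ b = 0 →
              h ∣ algebraMap ↥Λ ↥(integralClosure (Algebra.adjoin ↥Λ {Fermat.Agent.S24.jL L (M * q)})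
      (Fermat.Agent.S24.FFL L (M * q)))
                (GaussL.piL hΛ ^ n) * (s * b)) ∨
      ((∀ g : (Fermat.Agent.S24.FFL L (M * q)),
          𝔔.valuation (Fermat.Agent.S24.FFL L (M * q)) (τ g) =
            𝔔.valuation (Fermat.Agent.S24.FFL L (M * q)) g) ∧
        (∀ g : (Fermat.Agent.S24.FFL L (M * q)),
          𝔔.valuation (Fermat.Agent.S24.FFL L (M * q)) (τ' g) =
            𝔔.valuation (Fermat.Agent.S24.FFL L (M * q)) g)) := by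
  haveI : IsNoetherianRing ↥(integralClosure (Algebra.adjoin ↥Λ {Fermat.Agent.S24.jL L (M * q)})
      (Fermat.Agent.S24.FFL L (M * q))) := inst_isNoetherianRing_fin hΛ (M * q)
  refine s34dict_hpt_chart_inst (GaussL.piL hΛ) (GaussL.prime_piL hΛ).irreducible
    (Fermat.Agent.S24.jL L (M * q)) τ τ' hτ hτ' 𝔪 h𝔪 hπ𝔪 (fun ψ _ => ?_) 𝔔 h𝔔 hres
  exact kron_inst_fin ι M q hcop hΛ hq ζ hζ hζΛ φ hφΛ hφ
    (A := ↥(integralClosure (Algebra.adjoin ↥Λ {Fermat.Agent.S24.jL L M})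
      (Fermat.Agent.S24.FFL L M)))
    (B := ↥(integralClosure (Algebra.adjoin ↥Λ {Fermat.Agent.S24.jL L (M * q)})
      (Fermat.Agent.S24.FFL L (M * q))))
    (algebraMap _ _) (algebraMap _ _) Subtype.val_injective Subtype.val_injective
    (fun c => rfl) (fun c => rfl)
    (fun z => ⟨fun ⟨a, ha⟩ => ha ▸ a.2, fun hz => ⟨⟨z, hz⟩, rfl⟩⟩)
    (fun z => ⟨fun ⟨a, ha⟩ => ha ▸ a.2, fun hz => ⟨⟨z, hz⟩, rfl⟩⟩)
    (fun 𝔐 h𝔐 hπ => hM.1 𝔐 h𝔐 hπ) ψ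

/-- **(iv) PT, cusp chart** (`t = j⁻¹`, at the maximal ideals containing `j⁻¹`), generic base
field. -/
theorem geo_hpt_inf [CharZero L] [IsDiscreteValuationRing ↥Λ] [IsFractionRing ↥Λ L]
    (ι : L →+* ℂ) (M q : ℕ) [NeZero M] [NeZero q] (hcop : Nat.Coprime M q)
    [IsScalarTower ↥Λ L (Fermat.Agent.S24.FFL L (M * q))]
    (hΛ : IsGaussRing Λ π res) (hq : q.Prime) [CharP k q]
    (ζ : Lˣ) (hζ : IsPrimitiveRoot ζ q) (hζΛ : (ζ : L) ∈ Λ)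
    (φ : L ≃ₐ[ℚ] L) (hφΛ : ∀ a ∈ Λ, φ.symm a ∈ Λ)
    (hφ : ∀ a : ↥Λ, res ⟨φ.symm a, hφΛ a a.2⟩ ^ q = res a)
    (hM : S34MstarAt Λ M (GaussL.piL hΛ))
    [IsDedekindDomain ↥(integralClosure (Algebra.adjoin L {(Fermat.Agent.S24.jL L (M * q))⁻¹})
      (Fermat.Agent.S24.FFL L (M * q)))]
    [IsFractionRing ↥(integralClosure (Algebra.adjoin L {(Fermat.Agent.S24.jL L (M * q))⁻¹})
      (Fermat.Agent.S24.FFL L (M * q))) (Fermat.Agent.S24.FFL L (M * q))]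
    (τ τ' : (Fermat.Agent.S24.FFL L (M * q)) ≃+* (Fermat.Agent.S24.FFL L (M * q)))
    (hτ : DictTau ↥Λ L (GaussL.piL hΛ) ((Fermat.Agent.S24.jL L (M * q))⁻¹) τ)
    (hτ' : DictTau ↥Λ L (GaussL.piL hΛ) ((Fermat.Agent.S24.jL L (M * q))⁻¹) τ')
    (𝔪 : Ideal ↥(integralClosure (Algebra.adjoin ↥Λ {(Fermat.Agent.S24.jL L (M * q))⁻¹})
      (Fermat.Agent.S24.FFL L (M * q))))
    (h𝔪 : 𝔪.IsMaximal)
    (hπ𝔪 : algebraMap ↥Λ ↥(integralClosure (Algebra.adjoin ↥Λ {(Fermat.Agent.S24.jL L (M * q))⁻¹})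
      (Fermat.Agent.S24.FFL L (M * q))) (GaussL.piL hΛ) ∈ 𝔪)
    (hcusp : ∃ a : ↥(integralClosure (Algebra.adjoin ↥Λ {(Fermat.Agent.S24.jL L (M * q))⁻¹})
      (Fermat.Agent.S24.FFL L (M * q))), (a : (Fermat.Agent.S24.FFL L (M * q))) = (Fermat.Agent.S24.jL L (M * q))⁻¹ ∧ a ∈ 𝔪)
    (𝔔 : HeightOneSpectrum ↥(integralClosure (Algebra.adjoin L {(Fermat.Agent.S24.jL L (M * q))⁻¹})
      (Fermat.Agent.S24.FFL L (M * q))))
    (h𝔔 : 𝔔 ∈ absThrough (B := ↥(integralClosure (Algebra.adjoin ↥Λ {(Fermat.Agent.S24.jL L (M * q))⁻¹})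
      (Fermat.Agent.S24.FFL L (M * q))))
      (Bη := ↥(integralClosure (Algebra.adjoin L {(Fermat.Agent.S24.jL L (M * q))⁻¹})
      (Fermat.Agent.S24.FFL L (M * q))))
      (absIncl ↥Λ L ((Fermat.Agent.S24.jL L (M * q))⁻¹)) 𝔪)
    (hres : ∀ y : ↥(integralClosure (Algebra.adjoin L {(Fermat.Agent.S24.jL L (M * q))⁻¹})
      (Fermat.Agent.S24.FFL L (M * q))),
      ∃ c : L, y - algebraMap L ↥(integralClosure (Algebra.adjoin L {(Fermat.Agent.S24.jL L (M * q))⁻¹})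
      (Fermat.Agent.S24.FFL L (M * q))) c ∈ 𝔔.asIdeal) :
    (∃ φ : ↥(integralClosure (Algebra.adjoin ↥Λ {(Fermat.Agent.S24.jL L (M * q))⁻¹})
      (Fermat.Agent.S24.FFL L (M * q))) →ₐ[↥Λ] ↥Λ,
        𝔪 = Ideal.comap (φ : ↥(integralClosure (Algebra.adjoin ↥Λ {(Fermat.Agent.S24.jL L (M * q))⁻¹})
      (Fermat.Agent.S24.FFL L (M * q))) →+* ↥Λ)
          (Ideal.span {GaussL.piL hΛ}) ∧
        (∀ b : ↥(integralClosure (Algebra.adjoin ↥Λ {(Fermat.Agent.S24.jL L (M * q))⁻¹})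
      (Fermat.Agent.S24.FFL L (M * q))),
          absIncl ↥Λ L ((Fermat.Agent.S24.jL L (M * q))⁻¹) b ∈ 𝔔.asIdeal ↔ φ b = 0) ∧
        ∃ h : ↥(integralClosure (Algebra.adjoin ↥Λ {(Fermat.Agent.S24.jL L (M * q))⁻¹})
      (Fermat.Agent.S24.FFL L (M * q))), φ h = 0 ∧
          ∃ s : ↥(integralClosure (Algebra.adjoin ↥Λ {(Fermat.Agent.S24.jL L (M * q))⁻¹})
      (Fermat.Agent.S24.FFL L (M * q))), ¬ GaussL.piL hΛ ∣ φ s ∧
            ∀ b : ↥(integralClosure (Algebra.adjoin ↥Λ {(Fermat.Agent.S24.jL L (M * q))⁻¹})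
      (Fermat.Agent.S24.FFL L (M * q))), φ b = 0 → h ∣ s * b) ∨
      (∃ φ : ↥(integralClosure (Algebra.adjoin ↥Λ {(Fermat.Agent.S24.jL L (M * q))⁻¹})
      (Fermat.Agent.S24.FFL L (M * q))) →ₐ[↥Λ] ↥Λ,
        𝔪 = Ideal.comap (φ : ↥(integralClosure (Algebra.adjoin ↥Λ {(Fermat.Agent.S24.jL L (M * q))⁻¹})
      (Fermat.Agent.S24.FFL L (M * q))) →+* ↥Λ)
          (Ideal.span {GaussL.piL hΛ}) ∧
        (∀ b : ↥(integralClosure (Algebra.adjoin ↥Λ {(Fermat.Agent.S24.jL L (M * q))⁻¹})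
      (Fermat.Agent.S24.FFL L (M * q))),
          absIncl ↥Λ L ((Fermat.Agent.S24.jL L (M * q))⁻¹) b ∈ 𝔔.asIdeal ↔ φ b = 0) ∧
        ∃ h : ↥(integralClosure (Algebra.adjoin ↥Λ {(Fermat.Agent.S24.jL L (M * q))⁻¹})
      (Fermat.Agent.S24.FFL L (M * q))), φ h = 0 ∧
          ∃ (n : ℕ) (s : ↥(integralClosure (Algebra.adjoin ↥Λ {(Fermat.Agent.S24.jL L (M * q))⁻¹})
      (Fermat.Agent.S24.FFL L (M * q)))), ¬ GaussL.piL hΛ ∣ φ s ∧
            ∀ b : ↥(integralClosure (Algebra.adjoin ↥Λ {(Fermat.Agent.S24.jL L (M * q))⁻¹})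
      (Fermat.Agent.S24.FFL L (M * q))), φ b = 0 →
              h ∣ algebraMap ↥Λ ↥(integralClosure (Algebra.adjoin ↥Λ {(Fermat.Agent.S24.jL L (M * q))⁻¹})
      (Fermat.Agent.S24.FFL L (M * q)))
                (GaussL.piL hΛ ^ n) * (s * b)) ∨
      ((∀ g : (Fermat.Agent.S24.FFL L (M * q)),
          𝔔.valuation (Fermat.Agent.S24.FFL L (M * q)) (τ g) =
            𝔔.valuation (Fermat.Agent.S24.FFL L (M * q)) g) ∧
        (∀ g : (Fermat.Agent.S24.FFL L (M * q)),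
          𝔔.valuation (Fermat.Agent.S24.FFL L (M * q)) (τ' g) =
            𝔔.valuation (Fermat.Agent.S24.FFL L (M * q)) g)) := by
  haveI : IsNoetherianRing ↥(integralClosure (Algebra.adjoin ↥Λ {(Fermat.Agent.S24.jL L (M * q))⁻¹})
      (Fermat.Agent.S24.FFL L (M * q))) := inst_isNoetherianRing_inv hΛ (M * q)
  refine s34dict_hpt_chart_inst (GaussL.piL hΛ) (GaussL.prime_piL hΛ).irreducible
    ((Fermat.Agent.S24.jL L (M * q))⁻¹) τ τ' hτ hτ' 𝔪 h𝔪 hπ𝔪 (fun ψ hψ => ?_) 𝔔 h𝔔 hres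
  refine kron_inst_inf ι M q hcop hΛ hq ζ hζ hζΛ φ hφΛ hφ
    (A := ↥(integralClosure (Algebra.adjoin ↥Λ {(Fermat.Agent.S24.jL L M)⁻¹})
      (Fermat.Agent.S24.FFL L M)))
    (B := ↥(integralClosure (Algebra.adjoin ↥Λ {(Fermat.Agent.S24.jL L (M * q))⁻¹})
      (Fermat.Agent.S24.FFL L (M * q))))
    (algebraMap _ _) (algebraMap _ _) Subtype.val_injective Subtype.val_injective
    (fun c => rfl) (fun c => rfl)
    (fun z => ⟨fun ⟨a, ha⟩ => ha ▸ a.2, fun hz => ⟨⟨z, hz⟩, rfl⟩⟩)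
    (fun z => ⟨fun ⟨a, ha⟩ => ha ▸ a.2, fun hz => ⟨⟨z, hz⟩, rfl⟩⟩)
    (fun 𝔐 h𝔐 hπ => hM.2 𝔐 h𝔐 hπ) ψ ?_
  intro b₀ hb₀
  obtain ⟨a, ha, ha𝔪⟩ := hcusp
  have hab : b₀ = a := Subtype.ext (hb₀.trans ha.symm)
  rw [hab]
  rw [hψ] at ha𝔪
  exact Ideal.mem_span_singleton.mp ha𝔪

end Fermat.Agent.S34
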