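import Fermat.Agent.S34.GeoSetup
import Fermat.Agent.S34.GalKummerMonic
import Fermat.Agent.S34.AbsMainRoot
import Fermat.Agent.S34.AbsPT
import Fermat.Agent.S34.ModelMDefs
import Fermat.Agent.S34.GeoPT

/-!
# P19 (S34), integration: the core of GEO over a generic field (`S34/GeoL.lean`)

`geo_core_L`: in the generic (KRON) setting — `L` a field of characteristic zero, `Λ ⊆ L` a
discrete valuation ring with fraction field `L` which is a Gauss ring (`IsGaussRing Λ π res`),
`F = F_{Mq}(L)`, `σ, σ'` automorphisms of `L` whose coefficientwise actions `T σ, T σ'` on `F`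
satisfy (TRIV) and (SD) — the second difference `sd(u) = T σ'(T σ u) · u / (T σ' u · T σ u)` of a
function `u` with leading coefficient `1`, all of whose orders are divisible by `m` and whose zeros
and poles are `L`-rational, is an `m`-th power in `F`.

This is `abs_main_laurent` (block ABS + ROOT) fed with the point data `geo_hpt_fin`,
`geo_hpt_inf` of `GeoPT` (blocks MODEL, KRON, INST, DICT).
-/

set_option autoImplicit false
set_option linter.style.haveILetI false

namespace Fermat.Agent.S34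

open ModularCurve AlgebraicCurve IntermediateField IsDedekindDomain
open Fermat.Agent.S18 Fermat.Agent.S28.FreeBasisAbs

set_option maxHeartbeats 1000000 in
set_option synthInstance.maxHeartbeats 400000 in
/-- **The core of GEO over a generic field.** -/
theorem geo_core_L {L k : Type*} [Field L] [Algebra ℚ L] [CharZero L] [Field k]
    {Λ : Subring L} {π : L} {res : ↥Λ →+* k}
    [IsDiscreteValuationRing ↥Λ] [IsFractionRing ↥Λ L]
    (ι : L →+* ℂ) (M q : ℕ) [NeZero M] [NeZero q] (hcop : Nat.Coprime M q)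
    (hΛ : IsGaussRing Λ π res) (hq : q.Prime) [CharP k q]
    (ζq : Lˣ) (hζq : IsPrimitiveRoot ζq q) (hζqΛ : (ζq : L) ∈ Λ)
    (φ : L ≃ₐ[ℚ] L) (hφΛ : ∀ a ∈ Λ, φ.symm a ∈ Λ)
    (hφ : ∀ a : ↥Λ, res ⟨φ.symm a, hφΛ a a.2⟩ ^ q = res a)
    (hM : S34MstarAt Λ M (GaussL.piL hΛ))
    [IsDedekindDomain ↥(integralClosure (Algebra.adjoin L {Fermat.Agent.S24.jL L (M * q)})
      ↥(laurentBaseChange L (modularFunctionFieldFull (M * q))))]
    [IsFractionRing ↥(integralClosure (Algebra.adjoin L {Fermat.Agent.S24.jL L (M * q)})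
      ↥(laurentBaseChange L (modularFunctionFieldFull (M * q))))
      ↥(laurentBaseChange L (modularFunctionFieldFull (M * q)))]
    [IsDedekindDomain ↥(integralClosure (Algebra.adjoin L {(Fermat.Agent.S24.jL L (M * q))⁻¹})
      ↥(laurentBaseChange L (modularFunctionFieldFull (M * q))))]
    [IsFractionRing ↥(integralClosure (Algebra.adjoin L {(Fermat.Agent.S24.jL L (M * q))⁻¹})
      ↥(laurentBaseChange L (modularFunctionFieldFull (M * q))))
      ↥(laurentBaseChange L (modularFunctionFieldFull (M * q)))]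
    (m : ℕ) (hm : IsUnit (m : ↥Λ)) (ζ : ↥Λ) (hζ : IsPrimitiveRoot ζ m)
    (σ σ' : L ≃ₐ[ℚ] L)
    (hσΛ : ∀ c : ↥Λ, ∃ c' : ↥Λ,
      arithmeticRingAut (modularFunctionFieldFull (M * q)) σ
        (algebraMap ↥Λ ↥(laurentBaseChange L (modularFunctionFieldFull (M * q))) c) =
      algebraMap ↥Λ ↥(laurentBaseChange L (modularFunctionFieldFull (M * q))) c')
    (hσΛs : ∀ c : ↥Λ, ∃ c' : ↥Λ,
      (arithmeticRingAut (modularFunctionFieldFull (M * q)) σ).symm
        (algebraMap ↥Λ ↥(laurentBaseChange L (modularFunctionFieldFull (M * q))) c) =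
      algebraMap ↥Λ ↥(laurentBaseChange L (modularFunctionFieldFull (M * q))) c')
    (hσ'Λ : ∀ c : ↥Λ, ∃ c' : ↥Λ,
      arithmeticRingAut (modularFunctionFieldFull (M * q)) σ'
        (algebraMap ↥Λ ↥(laurentBaseChange L (modularFunctionFieldFull (M * q))) c) =
      algebraMap ↥Λ ↥(laurentBaseChange L (modularFunctionFieldFull (M * q))) c')
    (hσ'Λs : ∀ c : ↥Λ, ∃ c' : ↥Λ,
      (arithmeticRingAut (modularFunctionFieldFull (M * q)) σ').symm
        (algebraMap ↥Λ ↥(laurentBaseChange L (modularFunctionFieldFull (M * q))) c) =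
      algebraMap ↥Λ ↥(laurentBaseChange L (modularFunctionFieldFull (M * q))) c')
    (hTRIV : ∀ b : ↥(laurentBaseChange L (modularFunctionFieldFull (M * q))),
      IsIntegral (gaussSub (GaussL.piL hΛ) (GaussL.prime_piL hΛ)
        (Fermat.Agent.S24.jL L (M * q))) b →
      ∃ δ : ↥(laurentBaseChange L (modularFunctionFieldFull (M * q))),
        IsIntegral (gaussSub (GaussL.piL hΛ) (GaussL.prime_piL hΛ)
          (Fermat.Agent.S24.jL L (M * q))) δ ∧
        arithmeticRingAut (modularFunctionFieldFull (M * q)) σ b - b = GaussL.piL hΛ • δ)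
    (hTRIV' : ∀ b : ↥(laurentBaseChange L (modularFunctionFieldFull (M * q))),
      IsIntegral (gaussSub (GaussL.piL hΛ) (GaussL.prime_piL hΛ)
        (Fermat.Agent.S24.jL L (M * q))) b →
      ∃ δ : ↥(laurentBaseChange L (modularFunctionFieldFull (M * q))),
        IsIntegral (gaussSub (GaussL.piL hΛ) (GaussL.prime_piL hΛ)
          (Fermat.Agent.S24.jL L (M * q))) δ ∧
        arithmeticRingAut (modularFunctionFieldFull (M * q)) σ' b - b = GaussL.piL hΛ • δ)
    (hSD : ∀ h : ↥(laurentBaseChange L (modularFunctionFieldFull (M * q))), h ≠ 0 →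
      IsIntegral (gaussSub (GaussL.piL hΛ) (GaussL.prime_piL hΛ)
          (Fermat.Agent.S24.jL L (M * q)))
        (absSd (arithmeticRingAut (modularFunctionFieldFull (M * q)) σ)
          (arithmeticRingAut (modularFunctionFieldFull (M * q)) σ') h) ∧
      ∃ δ : ↥(laurentBaseChange L (modularFunctionFieldFull (M * q))),
        IsIntegral (gaussSub (GaussL.piL hΛ) (GaussL.prime_piL hΛ)
          (Fermat.Agent.S24.jL L (M * q))) δ ∧
        absSd (arithmeticRingAut (modularFunctionFieldFull (M * q)) σ)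
          (arithmeticRingAut (modularFunctionFieldFull (M * q)) σ') h - 1 = GaussL.piL hΛ • δ)
    (u : ↥(laurentBaseChange L (modularFunctionFieldFull (M * q)))) (hu : u ≠ 0)
    (hlc : ((u : ↥(laurentBaseChange L (modularFunctionFieldFull (M * q)))) :
      LaurentSeries L).leadingCoeff = 1)
    (hdiv_fin : ∀ 𝔔 : HeightOneSpectrum ↥(integralClosure
        (Algebra.adjoin L {Fermat.Agent.S24.jL L (M * q)})
        ↥(laurentBaseChange L (modularFunctionFieldFull (M * q)))),
      ∃ n : ℤ, 𝔔.valuation ↥(laurentBaseChange L (modularFunctionFieldFull (M * q))) u =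
        WithZero.exp ((m : ℤ) * n))
    (hdiv_inf : ∀ 𝔔 : HeightOneSpectrum ↥(integralClosure
        (Algebra.adjoin L {(Fermat.Agent.S24.jL L (M * q))⁻¹})
        ↥(laurentBaseChange L (modularFunctionFieldFull (M * q)))),
      ∃ n : ℤ, 𝔔.valuation ↥(laurentBaseChange L (modularFunctionFieldFull (M * q))) u =
        WithZero.exp ((m : ℤ) * n))
    (hres_fin : ∀ 𝔔 : HeightOneSpectrum ↥(integralClosure
        (Algebra.adjoin L {Fermat.Agent.S24.jL L (M * q)})
        ↥(laurentBaseChange L (modularFunctionFieldFull (M * q)))),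
      𝔔.valuation ↥(laurentBaseChange L (modularFunctionFieldFull (M * q))) u ≠ 1 →
      ∀ y : ↥(integralClosure (Algebra.adjoin L {Fermat.Agent.S24.jL L (M * q)})
          ↥(laurentBaseChange L (modularFunctionFieldFull (M * q)))),
        ∃ c : L, y - algebraMap L _ c ∈ 𝔔.asIdeal)
    (hres_inf : ∀ 𝔔 : HeightOneSpectrum ↥(integralClosure
        (Algebra.adjoin L {(Fermat.Agent.S24.jL L (M * q))⁻¹})
        ↥(laurentBaseChange L (modularFunctionFieldFull (M * q)))),
      𝔔.valuation ↥(laurentBaseChange L (modularFunctionFieldFull (M * q))) u ≠ 1 →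
      ∀ y : ↥(integralClosure (Algebra.adjoin L {(Fermat.Agent.S24.jL L (M * q))⁻¹})
          ↥(laurentBaseChange L (modularFunctionFieldFull (M * q)))),
        ∃ c : L, y - algebraMap L _ c ∈ 𝔔.asIdeal) :
    ∃ y : ↥(laurentBaseChange L (modularFunctionFieldFull (M * q))), y ^ m =
      absSd (arithmeticRingAut (modularFunctionFieldFull (M * q)) σ)
        (arithmeticRingAut (modularFunctionFieldFull (M * q)) σ') u := by
  have hm0 : m ≠ 0 := by
    rintro rfl
    simp at hm
  have hϖ : Irreducible (GaussL.piL hΛ) := (GaussL.prime_piL hΛ).irreducible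
  haveI : IsScalarTower ↥Λ L ↥(laurentBaseChange L (modularFunctionFieldFull (M * q))) :=
    IsScalarTower.of_algebraMap_eq (fun _ => rfl)
  haveI := s34geo_finiteDimensional_jL L (M * q)
  have hj := Fermat.Agent.S24.transcendental_jL (M * q) L
  obtain ⟨W, hW⟩ := s34gal_exists_root_series (modularFunctionFieldFull (M * q)) σ σ' hm0 u hlc
  exact abs_main_laurent (laurentBaseChange L (modularFunctionFieldFull (M * q)))
    (GaussL.piL hΛ) hϖ (Fermat.Agent.S24.jL L (M * q)) hj m hm ζ hζ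
    (arithmeticRingAut (modularFunctionFieldFull (M * q)) σ)
    (arithmeticRingAut (modularFunctionFieldFull (M * q)) σ')
    (s34gal_ringAut_jL (M * q) σ) (s34gal_ringAut_jL (M * q) σ')
    hσΛ hσΛs hσ'Λ hσ'Λs hTRIV hTRIV' hSD u hu W hW hdiv_fin hdiv_inf
    (fun 𝔪 h𝔪 hπ𝔪 𝔔 h𝔔 h𝔔u =>
      geo_hpt_fin ι M q hcop hΛ hq ζq hζq hζqΛ φ hφΛ hφ hM
        (arithmeticRingAut (modularFunctionFieldFull (M * q)) σ)
        (arithmeticRingAut (modularFunctionFieldFull (M * q)) σ')
        (dictTau_of_abs (GaussL.piL hΛ) hϖ hj _ (s34gal_ringAut_jL (M * q) σ) hσΛ hσΛs hTRIV)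
        (dictTau_of_abs (GaussL.piL hΛ) hϖ hj _ (s34gal_ringAut_jL (M * q) σ') hσ'Λ hσ'Λs
          hTRIV')
        𝔪 h𝔪 hπ𝔪 𝔔 h𝔔 (hres_fin 𝔔 h𝔔u))
    (fun 𝔪 h𝔪 hπ𝔪 hcusp 𝔔 h𝔔 h𝔔u =>
      geo_hpt_inf ι M q hcop hΛ hq ζq hζq hζqΛ φ hφΛ hφ hM
        (arithmeticRingAut (modularFunctionFieldFull (M * q)) σ)
        (arithmeticRingAut (modularFunctionFieldFull (M * q)) σ')
        (dictTau_of_abs_inv (GaussL.piL hΛ) hϖ hj _ (s34gal_ringAut_jL (M * q) σ) hσΛ hσΛs
          hTRIV)
        (dictTau_of_abs_inv (GaussL.piL hΛ) hϖ hj _ (s34gal_ringAut_jL (M * q) σ') hσ'Λ hσ'Λs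
          hTRIV')
        𝔪 h𝔪 hπ𝔪 hcusp 𝔔 h𝔔 (hres_inf 𝔔 h𝔔u))

end Fermat.Agent.S34
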