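import Mathlib
import Fermat.Agent.S18.NumField
import Fermat.Agent.S37.FrobBasic
import Fermat.Agent.S37.FrobRes

/-!
# P19 (S34), block KRON, leaf FROBEX: a Frobenius lift on a Galois number field

For a valuation subring `A` of `ℚ̄` over a prime `q` and a finite normal `K ⊆ ℚ̄` there is
`φ ∈ Gal(K/ℚ)` such that `φ⁻¹` preserves `Λ = A ∩ K` and `res (φ⁻¹ a) ^ q = res a` for `a ∈ Λ`
(the hypotheses of `kron_frob` / `kron_kronecker`).

Proof: restrict a Frobenius element of `A` in `Gal(ℚ̄/ℚ)` (`S37.exists_isFrobeniusAt_of_liesOver`)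
to `K`.
-/

set_option autoImplicit false

namespace Fermat.Agent.S34

open Fermat.Agent.S18.NumField in
theorem kron_exists_frob (A : ValuationSubring (AlgebraicClosure ℚ)) (q : ℕ) (hq : q.Prime)
    (hA : A.LiesOverPrime q)
    (K : IntermediateField ℚ (AlgebraicClosure ℚ)) [FiniteDimensional ℚ ↥K] [Normal ℚ ↥K] :
    ∃ (φ : ↥K ≃ₐ[ℚ] ↥K) (hφΛ : ∀ a ∈ (lam A K).toSubring, φ.symm a ∈ (lam A K).toSubring),
      ∀ a : ↥(lam A K).toSubring, lamRes A K ⟨φ.symm a, hφΛ a a.2⟩ ^ q = lamRes A K a := by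
  obtain ⟨σ, hσ⟩ := Fermat.Agent.S37.exists_isFrobeniusAt_of_liesOver A q hq hA
  have hdec : σ ∈ A.decompositionSubgroup ℚ := hσ.mem_decompositionSubgroup
  have hdec' : σ⁻¹ ∈ A.decompositionSubgroup ℚ := (A.decompositionSubgroup ℚ).inv_mem hdec
  -- `φ⁻¹` is the restriction of `σ⁻¹`
  have hcomm : ∀ a : ↥K, (((σ.restrictNormal ↥K).symm a : ↥K) : AlgebraicClosure ℚ) =
      σ.symm (a : AlgebraicClosure ℚ) := by
    intro a
    have h := AlgEquiv.restrictNormal_commutes σ ↥K ((σ.restrictNormal ↥K).symm a)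
    rw [AlgEquiv.apply_symm_apply] at h
    exact (σ.symm_apply_eq.mpr h).symm
  have hmem : ∀ a ∈ (lam A K).toSubring, (σ.restrictNormal ↥K).symm a ∈ (lam A K).toSubring := by
    intro a ha
    have ha' : (a : AlgebraicClosure ℚ) ∈ A := mem_lam_iff.mp ha
    have h1 := Fermat.Agent.S37.apply_mem_of_mem_decomposition hdec' ha'
    show (σ.restrictNormal ↥K).symm a ∈ lam A K
    rw [mem_lam_iff, hcomm]
    exact h1
  refine ⟨σ.restrictNormal ↥K, hmem, fun a => ?_⟩
  apply lamResMap_injective A K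
  rw [map_pow]
  show lamResMap A K (IsLocalRing.residue (lam A K) ⟨(σ.restrictNormal ↥K).symm a, hmem a a.2⟩) ^ q
    = lamResMap A K (IsLocalRing.residue (lam A K) a)
  rw [lamResMap_residue, lamResMap_residue]
  refine (Fermat.Agent.S37.residue_eq_pow_of_isFrobeniusAt hσ ?_).symm
  rw [coe_lamIncl, coe_lamIncl]
  show ((a : ↥K) : AlgebraicClosure ℚ) = σ (((σ.restrictNormal ↥K).symm a : ↥K) : AlgebraicClosure ℚ)
  rw [hcomm, AlgEquiv.apply_symm_apply]

end Fermat.Agent.S34
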