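import Mathlib

set_option autoImplicit false
namespace Fermat.Agent.S34
open Polynomial

/-- A root of a monic polynomial with coefficients in a subalgebra is integral over it. -/
theorem s34cc_isIntegral_of_monic {R 𝔽 : Type*} [CommRing R] [Field 𝔽] [Algebra R 𝔽]
    (B : Subalgebra R 𝔽) (H : 𝔽[X]) (hH : H.Monic) (hc : ∀ i, H.coeff i ∈ B) {θ : 𝔽}
    (hθ : H.eval θ = 0) : IsIntegral B θ := by
  have hl : H ∈ lifts (algebraMap B 𝔽) :=
    (lifts_iff_coeff_lifts H).2 fun n => ⟨⟨H.coeff n, hc n⟩, rfl⟩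
  obtain ⟨P, hP, -, hPm⟩ := lifts_and_natDegree_eq_and_monic hl hH
  refine ⟨P, hPm, ?_⟩
  rw [eval₂_eq_eval_map, hP, hθ]

theorem s34ccS_step1 {Λ 𝔽 : Type*} [CommRing Λ] [Field 𝔽] [Algebra Λ 𝔽] (B : Subring 𝔽)
    (hΛB : ∀ c : Λ, algebraMap Λ 𝔽 c ∈ B) (w s : 𝔽) (hs : s ∈ B) (hws : w * s ∈ B)
    (c : 𝔽) (hc : c ∈ Algebra.adjoin Λ {w}) : ∃ k : ℕ, ∀ k' ≥ k, s ^ k' * c ∈ B := by
  induction hc using Algebra.adjoin_induction with
  | mem x hx =>
    rw [Set.mem_singleton_iff] at hx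
    subst hx
    refine ⟨1, fun k' hk' => ?_⟩
    obtain ⟨j, rfl⟩ : ∃ j, k' = j + 1 := ⟨k' - 1, by omega⟩
    have : s ^ (j + 1) * x = s ^ j * (x * s) := by ring
    rw [this]
    exact B.mul_mem (B.pow_mem hs j) hws
  | algebraMap r =>
    exact ⟨0, fun k' _ => B.mul_mem (B.pow_mem hs k') (hΛB r)⟩
  | add x y _ _ hx hy =>
    obtain ⟨k₁, h₁⟩ := hx
    obtain ⟨k₂, h₂⟩ := hy
    refine ⟨max k₁ k₂, fun k' hk' => ?_⟩
    rw [mul_add]
    exact B.add_mem (h₁ k' (le_trans (le_max_left _ _) hk')) (h₂ k' (le_trans (le_max_right _ _) hk'))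
  | mul x y _ _ hx hy =>
    obtain ⟨k₁, h₁⟩ := hx
    obtain ⟨k₂, h₂⟩ := hy
    refine ⟨k₁ + k₂, fun k' hk' => ?_⟩
    obtain ⟨j, rfl⟩ : ∃ j, k' = k₁ + j := ⟨k' - k₁, by omega⟩
    have : s ^ (k₁ + j) * (x * y) = (s ^ k₁ * x) * (s ^ j * y) := by ring
    rw [this]
    exact B.mul_mem (h₁ k₁ le_rfl) (h₂ j (by omega))

theorem s34cc_scale {Λ 𝔽 : Type*} [CommRing Λ] [Field 𝔽] [Algebra Λ 𝔽] (B : Subring 𝔽)
    (hΛB : ∀ c : Λ, algebraMap Λ 𝔽 c ∈ B) (w s : 𝔽) (hs : s ∈ B) (hws : w * s ∈ B) {z : 𝔽}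
    (hz : IsIntegral (Algebra.adjoin Λ {w}) z) :
    ∃ (k : ℕ) (H : 𝔽[X]), H.Monic ∧ (∀ i, H.coeff i ∈ B) ∧ H.eval (s ^ k * z) = 0 := by
  obtain ⟨p, hp, hpz⟩ := hz
  set P : 𝔽[X] := p.map (algebraMap ↥(Algebra.adjoin Λ {w}) 𝔽) with hP
  have hPm : P.Monic := hp.map _
  have hPz : P.eval z = 0 := by rw [hP, eval_map]; exact hpz
  have hPc : ∀ i, P.coeff i ∈ Algebra.adjoin Λ {w} := by
    intro i
    rw [hP, coeff_map]
    exact (p.coeff i).2
  have h1 : ∀ i, ∃ k : ℕ, ∀ k' ≥ k, s ^ k' * P.coeff i ∈ B :=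
    fun i => s34ccS_step1 B hΛB w s hs hws _ (hPc i)
  choose kf hkf using h1
  set K : ℕ := ∑ i ∈ Finset.range (P.natDegree + 1), kf i with hK
  have hKle : ∀ i, i ≤ P.natDegree → kf i ≤ K := by
    intro i hi
    exact Finset.single_le_sum (f := kf) (fun _ _ => Nat.zero_le _)
      (Finset.mem_range.mpr (by omega))
  refine ⟨K, Polynomial.scaleRoots P (s ^ K), ?_, ?_, ?_⟩
  · exact (Polynomial.monic_scaleRoots_iff _).mpr hPm
  · intro i
    rw [Polynomial.coeff_scaleRoots]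
    rcases lt_trichotomy i P.natDegree with hi | hi | hi
    · obtain ⟨j, hj⟩ : ∃ j, P.natDegree - i = j + 1 := ⟨P.natDegree - i - 1, by omega⟩
      rw [hj]
      have : P.coeff i * (s ^ K) ^ (j + 1) = (s ^ K * P.coeff i) * (s ^ K) ^ j := by ring
      rw [this]
      exact B.mul_mem (hkf i K (hKle i hi.le)) (B.pow_mem (B.pow_mem hs K) j)
    · subst hi
      rw [Nat.sub_self, pow_zero, mul_one, Polynomial.coeff_natDegree, hPm.leadingCoeff]
      exact B.one_mem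
    · rw [Polynomial.coeff_eq_zero_of_natDegree_lt hi, zero_mul]
      exact B.zero_mem
  · rw [Polynomial.scaleRoots_eval_mul, hPz, mul_zero]

theorem s34cc_isMaximal_of_monic_mem {Λ : Type*} [CommRing Λ] [IsDomain Λ]
    [IsDiscreteValuationRing Λ] (π : Λ) (hπ : Irreducible π) (𝔫 : Ideal Λ[X]) (h𝔫 : 𝔫.IsPrime)
    (hπ𝔫 : C π ∈ 𝔫) (a : Λ[X]) (ha : a.Monic) (ha𝔫 : a ∈ 𝔫) : 𝔫.IsMaximal := by
  have := PrincipalIdealRing.isMaximal_of_irreducible hπ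
  let _ : Field (Λ ⧸ Ideal.span {π}) := Ideal.Quotient.field _
  set ρ : Λ[X] →+* (Λ ⧸ Ideal.span {π})[X] :=
    Polynomial.mapRingHom (Ideal.Quotient.mk (Ideal.span {π})) with hρ
  have hρs : Function.Surjective ρ := Polynomial.map_surjective _ Ideal.Quotient.mk_surjective
  have hker : Ideal.comap ρ ⊥ ≤ 𝔫 := by
    intro a ha
    rw [Ideal.mem_comap, Ideal.mem_bot] at ha
    have h1 : C π ∣ a := by
      rw [Polynomial.C_dvd_iff_dvd_coeff]
      intro i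
      have := congrArg (fun q => q.coeff i) ha
      simp only [hρ, Polynomial.coe_mapRingHom, Polynomial.coeff_map, Polynomial.coeff_zero] at this
      exact Ideal.mem_span_singleton.mp (Ideal.Quotient.eq_zero_iff_mem.mp this)
    obtain ⟨b, rfl⟩ := h1
    exact 𝔫.mul_mem_right _ hπ𝔫
  have hcm : Ideal.comap ρ (Ideal.map ρ 𝔫) = 𝔫 := by
    rw [Ideal.comap_map_of_surjective ρ hρs, sup_eq_left]; exact hker
  have hprime : (Ideal.map ρ 𝔫).IsPrime :=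
    Ideal.map_isPrime_of_surjective hρs (by rw [RingHom.ker_eq_comap_bot]; exact hker)
  have hne : Ideal.map ρ 𝔫 ≠ ⊥ := by
    intro h
    have h1 : ρ a ∈ Ideal.map ρ 𝔫 := Ideal.mem_map_of_mem ρ ha𝔫
    rw [h, Ideal.mem_bot] at h1
    have h2 : (ρ a).Monic := by
      simp only [hρ, Polynomial.coe_mapRingHom]
      exact ha.map _
    exact h2.ne_zero h1
  have hmax : (Ideal.map ρ 𝔫).IsMaximal := hprime.isMaximal hne
  have := Ideal.comap_isMaximal_of_surjective ρ hρs (K := Ideal.map ρ 𝔫)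
  rw [hcm] at this
  exact this


end Fermat.Agent.S34
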