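import Mathlib
import Fermat.Agent.S34.ModelDefs

/-!
P19 (S34), block MODEL, slice D (note 807, (D1)): a ring-level DVR fibre gives an elementwise
local generator.

If `M` is a maximal ideal of `S ⧸ 𝔞` such that the localisation of `S ⧸ 𝔞` at `M` is a discrete
valuation ring, then the preimage `𝔐` of `M` in `S` is generated by `𝔞` and one element `u`
locally at `𝔐` (`ModelLocGen 𝔞 𝔐 u`).

Proof: a uniformiser of the localisation is `ū / s̄` with `s̄ ∉ M`, hence `ū / 1` is a uniformiser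
too and `ū ∈ M`.  For `z̄ ∈ M` write `z̄ / 1 = (ū / 1) (c̄ / d̄)`; then `ē (d̄ z̄ - ū c̄) = 0` for some
`ē ∉ M`, and lifting everything to `S` gives `(e d) z ∈ 𝔞 + (u)`.
-/

set_option autoImplicit false

namespace Fermat.Agent.S34

/-- (D1) ring-level DVR fibre ⟹ elementwise local generator. -/
theorem modelLocGen_of_dvr {S : Type*} [CommRing S] (𝔞 : Ideal S) (M : Ideal (S ⧸ 𝔞))
    [M.IsMaximal]
    (hdvr : ∃ _ : IsDomain (Localization.AtPrime M),
      IsDiscreteValuationRing (Localization.AtPrime M)) :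
    ∃ u : S, ModelLocGen 𝔞 (M.comap (Ideal.Quotient.mk 𝔞)) u := by
  obtain ⟨hdom, hD⟩ := hdvr
  -- a uniformiser of the localisation
  obtain ⟨ϖ, hϖ⟩ := IsDiscreteValuationRing.exists_irreducible (Localization.AtPrime M)
  obtain ⟨ubar, sbar, hus⟩ := IsLocalization.exists_mk'_eq M.primeCompl ϖ
  have hsunit : IsUnit (algebraMap (S ⧸ 𝔞) (Localization.AtPrime M) (sbar : S ⧸ 𝔞)) :=
    IsLocalization.map_units _ sbar
  -- `ū / 1` is a uniformiser as well
  have hu1 : algebraMap (S ⧸ 𝔞) (Localization.AtPrime M) ubar =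
      ϖ * algebraMap (S ⧸ 𝔞) (Localization.AtPrime M) (sbar : S ⧸ 𝔞) := by
    rw [← hus, IsLocalization.mk'_spec]
  have hmax : IsLocalRing.maximalIdeal (Localization.AtPrime M) =
      Ideal.span {algebraMap (S ⧸ 𝔞) (Localization.AtPrime M) ubar} := by
    rw [(IsDiscreteValuationRing.irreducible_iff_uniformizer ϖ).mp hϖ, hu1]
    exact (Ideal.span_singleton_mul_right_unit hsunit ϖ).symm
  have hubarM : ubar ∈ M := by
    rw [← IsLocalization.AtPrime.to_map_mem_maximal_iff (Localization.AtPrime M) M ubar, hmax]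
    exact Ideal.mem_span_singleton_self _
  obtain ⟨u, rfl⟩ := Ideal.Quotient.mk_surjective ubar
  refine ⟨u, modelLocGen_of_exists_eq (Ideal.mem_comap.mpr hubarM) fun z hz => ?_⟩
  have hzM : Ideal.Quotient.mk 𝔞 z ∈ M := Ideal.mem_comap.mp hz
  have hz1 : algebraMap (S ⧸ 𝔞) (Localization.AtPrime M) (Ideal.Quotient.mk 𝔞 z) ∈
      Ideal.span {algebraMap (S ⧸ 𝔞) (Localization.AtPrime M) (Ideal.Quotient.mk 𝔞 u)} := by
    rw [← hmax]
    exact (IsLocalization.AtPrime.to_map_mem_maximal_iff (Localization.AtPrime M) M _).mpr hzM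
  obtain ⟨w, hw⟩ := Ideal.mem_span_singleton'.mp hz1
  obtain ⟨cbar, dbar, hcd⟩ := IsLocalization.exists_mk'_eq M.primeCompl w
  -- `d̄ z̄ / 1 = ū c̄ / 1`
  have h1 : algebraMap (S ⧸ 𝔞) (Localization.AtPrime M) ((dbar : S ⧸ 𝔞) * Ideal.Quotient.mk 𝔞 z) =
      algebraMap (S ⧸ 𝔞) (Localization.AtPrime M) (Ideal.Quotient.mk 𝔞 u * cbar) := by
    rw [map_mul, map_mul, ← hw, ← hcd]
    have := IsLocalization.mk'_spec (Localization.AtPrime M) cbar dbar
    calc algebraMap (S ⧸ 𝔞) (Localization.AtPrime M) (dbar : S ⧸ 𝔞) *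
          (IsLocalization.mk' (Localization.AtPrime M) cbar dbar *
            algebraMap (S ⧸ 𝔞) (Localization.AtPrime M) (Ideal.Quotient.mk 𝔞 u))
        = (IsLocalization.mk' (Localization.AtPrime M) cbar dbar *
            algebraMap (S ⧸ 𝔞) (Localization.AtPrime M) (dbar : S ⧸ 𝔞)) *
            algebraMap (S ⧸ 𝔞) (Localization.AtPrime M) (Ideal.Quotient.mk 𝔞 u) := by ring
      _ = algebraMap (S ⧸ 𝔞) (Localization.AtPrime M) (Ideal.Quotient.mk 𝔞 u) *
            algebraMap (S ⧸ 𝔞) (Localization.AtPrime M) cbar := by rw [this]; ring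
  obtain ⟨ebar, he⟩ := (IsLocalization.eq_iff_exists M.primeCompl (Localization.AtPrime M)).mp h1
  obtain ⟨e, hee⟩ := Ideal.Quotient.mk_surjective (ebar : S ⧸ 𝔞)
  obtain ⟨d, hdd⟩ := Ideal.Quotient.mk_surjective (dbar : S ⧸ 𝔞)
  obtain ⟨c, hcc⟩ := Ideal.Quotient.mk_surjective cbar
  have heM : Ideal.Quotient.mk 𝔞 e ∉ M := by rw [hee]; exact ebar.2
  have hdM : Ideal.Quotient.mk 𝔞 d ∉ M := by rw [hdd]; exact dbar.2
  have hmem : e * d * z - u * (e * c) ∈ 𝔞 := by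
    rw [← Ideal.Quotient.eq]
    simp only [map_mul]
    rw [hee, hdd, hcc]
    calc (ebar : S ⧸ 𝔞) * (dbar : S ⧸ 𝔞) * Ideal.Quotient.mk 𝔞 z
        = (ebar : S ⧸ 𝔞) * ((dbar : S ⧸ 𝔞) * Ideal.Quotient.mk 𝔞 z) := by ring
      _ = (ebar : S ⧸ 𝔞) * (Ideal.Quotient.mk 𝔞 u * cbar) := he
      _ = Ideal.Quotient.mk 𝔞 u * ((ebar : S ⧸ 𝔞) * cbar) := by ring
  refine ⟨e * d, e * d * z - u * (e * c), e * c, ?_, hmem, by ring⟩
  intro hmemM
  rw [Ideal.mem_comap, map_mul] at hmemM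
  rcases (Ideal.IsPrime.mem_or_mem inferInstance hmemM) with h | h
  · exact heM h
  · exact hdM h

end Fermat.Agent.S34
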