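import Mathlib
import Fermat.Agent.S34.ModelDefs
import Fermat.Agent.S34.ModelAlg
import Fermat.Agent.S34.ModelDvr
import Fermat.Agent.S18.LocalGlue
import Fermat.Agent.S18.LocalNormalDvr

/-!
P19 (S34), block MODEL, slice E (note 807, (E1) = M1): local generators of the special fibre of
the level-`M` model.

In the S18 engine setting (chart `t`, hypotheses (B1), (B2) of `S18.LocalGlue.idemLifts_gen`),
every ring `A` between the chart ring (integral closure of `Λ[t]` in `𝔽`) and its localisation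
at a closed point `𝔫 ∋ π` of the `t`-line has, at every maximal ideal `𝔐` over `𝔫`, an element
`u` with `𝔐 A_𝔐 = (π, u) A_𝔐` (`ModelLocGen (π) 𝔐 u`).

Proof: `𝔫 = pt π f`; `R = Λ[X]_𝔫`, `S` = integral closure of `R` in `𝔽` is finite free over `R`,
integrally closed, with discriminant a unit times a power of `f` (`S18.LocalDisc`), so every
localisation of `S ⧸ π S` at a maximal ideal is a discrete valuation ring
(`S18.local_normal_dvr`).  `A ⊆ S` and `S` is a localisation of `A` at elements outside `𝔐`;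
take a maximal ideal `𝔐_S` of `S` over `𝔐`, apply (D1) `modelLocGen_of_dvr` and descend with
(A4) `modelLocGen_descend`.

* `model_fibre_of_dvr_quot` : DVR fibres of `S ⧸ 𝔞` give local generators at the maximal ideals
  of `S` over `𝔞`;
* `model_fibre_descend` : descent of local generators from a localisation `S` of `A`;
* `model_fibre_abs` : the statement for an abstract two-dimensional regular local base `R`;
* `model_fibre_locGen_pt`, `model_fibre_locGen` : the S18 engine setting.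
-/

set_option autoImplicit false

namespace Fermat.Agent.S34

open Polynomial Fermat.Agent.S18 Fermat.Agent.S18.LocalRing Fermat.Agent.S18.LocalBase

/-- If all localisations of `S ⧸ 𝔞` at maximal ideals are discrete valuation rings, every maximal
ideal of `S` containing `𝔞` has a local generator modulo `𝔞`. -/
theorem model_fibre_of_dvr_quot {S : Type*} [CommRing S] (𝔞 : Ideal S)
    (hdvr : ∀ (M : Ideal (S ⧸ 𝔞)) [M.IsMaximal], ∃ _ : IsDomain (Localization.AtPrime M),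
      IsDiscreteValuationRing (Localization.AtPrime M))
    (𝔐S : Ideal S) (h𝔐S : 𝔐S.IsMaximal) (h𝔞 : 𝔞 ≤ 𝔐S) :
    ∃ u : S, ModelLocGen 𝔞 𝔐S u := by
  have hcm : (𝔐S.map (Ideal.Quotient.mk 𝔞)).comap (Ideal.Quotient.mk 𝔞) = 𝔐S := by
    rw [Ideal.comap_map_of_surjective (Ideal.Quotient.mk 𝔞) Ideal.Quotient.mk_surjective,
      ← RingHom.ker_eq_comap_bot, Ideal.mk_ker, sup_eq_left]
    exact h𝔞
  haveI hMmax : (𝔐S.map (Ideal.Quotient.mk 𝔞)).IsMaximal := by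
    rcases Ideal.map_eq_top_or_isMaximal_of_surjective (Ideal.Quotient.mk 𝔞)
      Ideal.Quotient.mk_surjective h𝔐S with h | h
    · exfalso
      rw [h, Ideal.comap_top] at hcm
      exact h𝔐S.ne_top hcm.symm
    · exact h
  obtain ⟨u, hu⟩ := modelLocGen_of_dvr 𝔞 (𝔐S.map (Ideal.Quotient.mk 𝔞)) (hdvr _)
  rw [hcm] at hu
  exact ⟨u, hu⟩

/-- Descent of local generators: `S` is a localisation of `A` at elements outside the maximal
ideal `𝔐` (which become units of `S`), and every maximal ideal of `S` over `𝔞 S` has a local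
generator; then `𝔐` has one. -/
theorem model_fibre_descend {A S : Type*} [CommRing A] [CommRing S] (ι : A →+* S)
    (hι : Function.Injective ι) (𝔞 𝔐 : Ideal A) (h𝔐 : 𝔐.IsMaximal) (h𝔞 : 𝔞 ≤ 𝔐)
    (hloc : ∀ y : S, ∃ s z : A, s ∉ 𝔐 ∧ IsUnit (ι s) ∧ ι s * y = ι z)
    (hS : ∀ 𝔐S : Ideal S, 𝔐S.IsMaximal → 𝔞.map ι ≤ 𝔐S →
      ∃ uS : S, ModelLocGen (𝔞.map ι) 𝔐S uS) :
    ∃ u : A, ModelLocGen 𝔞 𝔐 u := by
  have hone : (1 : A) ∉ 𝔐 := fun h1 => h𝔐.ne_top ((Ideal.eq_top_iff_one _).mpr h1)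
  -- the ideal of `S` of fractions with numerator in `𝔐`
  let J : Ideal S :=
    { carrier := {y | ∃ s : A, s ∉ 𝔐 ∧ ∃ m ∈ 𝔐, ι s * y = ι m}
      add_mem' := by
        rintro y y' ⟨s, hs, m, hm', h⟩ ⟨s', hs', m', hm'', h'⟩
        refine ⟨s * s', fun hmem => ?_, s' * m + s * m',
          𝔐.add_mem (𝔐.mul_mem_left _ hm') (𝔐.mul_mem_left _ hm''), ?_⟩
        · rcases h𝔐.isPrime.mem_or_mem hmem with h0 | h0
          · exact hs h0
          · exact hs' h0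
        · rw [map_mul, map_add, map_mul, map_mul, ← h, ← h']
          ring
      zero_mem' := ⟨1, hone, 0, 𝔐.zero_mem, by rw [mul_zero, map_zero]⟩
      smul_mem' := by
        rintro r y ⟨s, hs, m, hm', h⟩
        obtain ⟨s₀, z, hs₀, -, hsz⟩ := hloc r
        refine ⟨s₀ * s, fun hmem => ?_, z * m, 𝔐.mul_mem_left _ hm', ?_⟩
        · rcases h𝔐.isPrime.mem_or_mem hmem with h0 | h0
          · exact hs₀ h0
          · exact hs h0
        · rw [smul_eq_mul, map_mul, map_mul, ← hsz, ← h]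
          ring }
  have hJ : J ≠ ⊤ := by
    intro htop
    have h1 : (1 : S) ∈ J := htop ▸ Submodule.mem_top
    obtain ⟨s, hs, m, hm', h⟩ := h1
    rw [mul_one] at h
    exact hs (hι h ▸ hm')
  have h𝔐J : ∀ z ∈ 𝔐, ι z ∈ J := fun z hz =>
    ⟨1, hone, z, hz, by rw [map_one, one_mul]⟩
  obtain ⟨𝔐S, h𝔐Smax, hJ𝔐S⟩ := Ideal.exists_le_maximal J hJ
  haveI := h𝔐Smax
  have hcomap : 𝔐S.comap ι = 𝔐 := by
    symm
    apply h𝔐.eq_of_le (Ideal.comap_ne_top ι h𝔐Smax.ne_top)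
    intro z hz
    exact hJ𝔐S (h𝔐J z hz)
  have h𝔞S : 𝔞.map ι ≤ 𝔐S := by
    rw [Ideal.map_le_iff_le_comap, hcomap]
    exact h𝔞
  obtain ⟨uS, huS⟩ := hS 𝔐S h𝔐Smax h𝔞S
  have hloc' : ∀ y : S, ∃ s a : A, ι s ∉ 𝔐S ∧ ι s * y = ι a := by
    intro y
    obtain ⟨s, z, -, hu, hsz⟩ := hloc y
    exact ⟨s, z, fun hmem => h𝔐Smax.ne_top (Ideal.eq_top_of_isUnit_mem _ hmem hu), hsz⟩
  obtain ⟨u, hu⟩ := modelLocGen_descend ι hι 𝔞 𝔐S hloc' huS
  rw [hcomap] at hu
  exact ⟨u, hu⟩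

/-- (E1) for an abstract two-dimensional regular local base ring `R` with parameters `π, y`
(hypotheses of `S18.local_normal_dvr` for the integral closure of `R` in `𝔽`): a subring `A` of
the integral closure `S` of `R` in `𝔽`, of which `S` is a localisation at elements outside the
maximal ideal `𝔐 ∋ π`, has a local generator of `𝔐` modulo `π`. -/
theorem model_fibre_abs {R K₁ 𝔽 : Type*} [CommRing R] [IsDomain R] [IsNoetherianRing R]
    [IsLocalRing R] [IsIntegrallyClosed R] [Field K₁] [CharZero K₁] [Algebra R K₁]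
    [IsFractionRing R K₁] [Field 𝔽] [Algebra K₁ 𝔽] [Algebra R 𝔽] [IsScalarTower R K₁ 𝔽]
    [FiniteDimensional K₁ 𝔽]
    (π y : R) (hm : IsLocalRing.maximalIdeal R = Ideal.span {π, y})
    (hπ : (Ideal.span {π} : Ideal R).IsPrime) (hy : (Ideal.span {y} : Ideal R).IsPrime)
    (hπ0 : π ≠ 0) (hy0 : y ≠ 0) (hπy : ¬ π ∣ y) [CharZero (R ⧸ Ideal.span {y})]
    (hd : ∀ (n : ℕ) (b : Module.Basis (Fin n) R ↥(integralClosure R 𝔽)),
      ∃ (B : ℕ) (v : R), IsUnit v ∧ Algebra.discr R b = v * y ^ B)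
    (A : Subring 𝔽) (hAS : ∀ z ∈ A, IsIntegral R z)
    (𝔐 : Ideal A) (h𝔐 : 𝔐.IsMaximal)
    (hπA : algebraMap R 𝔽 π ∈ A) (hπ𝔐 : (⟨algebraMap R 𝔽 π, hπA⟩ : A) ∈ 𝔐)
    (hden : ∀ z : 𝔽, IsIntegral R z → ∃ r : R, IsUnit r ∧ ∃ hr : algebraMap R 𝔽 r ∈ A,
      (⟨algebraMap R 𝔽 r, hr⟩ : A) ∉ 𝔐 ∧ algebraMap R 𝔽 r * z ∈ A) :
    ∃ u : A, ModelLocGen (Ideal.span {(⟨algebraMap R 𝔽 π, hπA⟩ : A)}) 𝔐 u := by
  classical
  have hπp : Prime π := (Ideal.span_singleton_prime hπ0).mp hπ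
  have hinj : Function.Injective (algebraMap R 𝔽) := LocalAbs.algebraMap_injective' K₁
  haveI : Module.Finite R ↥(integralClosure R 𝔽) := finite_integralClosure R K₁ 𝔽
  haveI : IsIntegrallyClosed ↥(integralClosure R 𝔽) := isIntegrallyClosed_integralClosure R K₁ 𝔽
  haveI : Module.Free R ↥(integralClosure R 𝔽) :=
    free_integralClosure R K₁ 𝔽 π hπp (isPrincipalIdealRing_quotient π y hm hπ)
  haveI : FaithfulSMul R ↥(integralClosure R 𝔽) := by
    rw [faithfulSMul_iff_algebraMap_injective]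
    intro a b hab
    apply hinj
    have := congrArg (algebraMap ↥(integralClosure R 𝔽) 𝔽) hab
    rwa [← IsScalarTower.algebraMap_apply, ← IsScalarTower.algebraMap_apply] at this
  -- the inclusion `A ⊆ S`
  let ι : A →+* ↥(integralClosure R 𝔽) :=
    { toFun := fun z => ⟨(z : 𝔽), hAS z.1 z.2⟩
      map_one' := rfl
      map_mul' := fun _ _ => rfl
      map_zero' := rfl
      map_add' := fun _ _ => rfl }
  have hι : Function.Injective ι := by
    intro z z' h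
    apply Subtype.ext
    exact congrArg (fun w : ↥(integralClosure R 𝔽) => (w : 𝔽)) h
  have hιalg : ∀ (r : R) (hr : algebraMap R 𝔽 r ∈ A),
      ι ⟨algebraMap R 𝔽 r, hr⟩ = algebraMap R ↥(integralClosure R 𝔽) r := fun r hr =>
    Subtype.ext rfl
  have h𝔞S : (Ideal.span {(⟨algebraMap R 𝔽 π, hπA⟩ : A)}).map ι =
      (Ideal.span {π}).map (algebraMap R ↥(integralClosure R 𝔽)) := by
    rw [Ideal.map_span, Ideal.map_span, Set.image_singleton, Set.image_singleton, hιalg]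
  refine model_fibre_descend ι hι _ 𝔐 h𝔐 ?_ ?_ ?_
  · rw [Ideal.span_le, Set.singleton_subset_iff]
    exact hπ𝔐
  · intro w
    obtain ⟨r, hru, hr, hr𝔐, hrw⟩ := hden (w : 𝔽) w.2
    refine ⟨⟨algebraMap R 𝔽 r, hr⟩, ⟨algebraMap R 𝔽 r * (w : 𝔽), hrw⟩, hr𝔐, ?_, Subtype.ext rfl⟩
    rw [hιalg]
    exact hru.map _
  · intro 𝔐S h𝔐S hle
    rw [h𝔞S] at hle ⊢
    exact model_fibre_of_dvr_quot _
      (fun M _ => local_normal_dvr π y hm hπ hy hπ0 hy0 hπy
        (Module.finBasis R ↥(integralClosure R 𝔽)) (hd _ _) M) 𝔐S h𝔐S hle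

/-- (E1), core: the closed point of the `t`-line is `pt π f` with `f` in cusp-normal form. -/
theorem model_fibre_locGen_pt {Λ K 𝔽 : Type*} [CommRing Λ] [IsDomain Λ]
    [IsDiscreteValuationRing Λ]
    [Field K] [CharZero K] [Algebra Λ K] [IsFractionRing Λ K] [Field 𝔽] [Algebra K 𝔽]
    [Algebra Λ 𝔽] [IsScalarTower Λ K 𝔽] (π : Λ) (hπ : Irreducible π)
    {K₁ : Type*} [Field K₁] [Algebra Λ[X] K₁] [IsFractionRing Λ[X] K₁] [Algebra K₁ 𝔽]
    [FiniteDimensional K₁ 𝔽]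
    (t : 𝔽) (hcompat : ∀ a : Λ[X], algebraMap K₁ 𝔽 (algebraMap Λ[X] K₁ a) = Polynomial.aeval t a)
    (C : Finset Λ) (hC : ∀ c ∈ C, ∀ c' ∈ C, c ≠ c' → ¬ π ∣ c - c')
    (hB1 : HasIntegralDualBasis (gaussSub π hπ.prime t) K₁ 𝔽)
    (hB2 : UnramAway K t ((algebraMap Λ K) '' (C : Set Λ)))
    (A : Subring 𝔽) (hA : ∀ z : 𝔽, IsIntegral (Algebra.adjoin Λ {t}) z → z ∈ A)
    {f : Λ[X]} (hf : f.Monic)
    (hfirr : Irreducible (f.map (Ideal.Quotient.mk (Ideal.span {π}))))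
    (hcusp : (∃ c ∈ C, f = X - Polynomial.C c) ∨ (∀ c ∈ C, X - Polynomial.C c ∉ pt π f))
    (hA𝔫 : ∀ z ∈ A, ∃ a : Λ[X], a ∉ pt π f ∧
      IsIntegral (Algebra.adjoin Λ {t}) (aeval t a * z))
    (𝔐 : Ideal A) (h𝔐 : 𝔐.IsMaximal)
    (hmemA : ∀ a : Λ[X], aeval t a ∈ A) (hπA : algebraMap Λ 𝔽 π ∈ A)
    (h𝔫𝔐 : ∀ a ∈ pt π f, (⟨aeval t a, hmemA a⟩ : A) ∈ 𝔐) :
    ∃ u : A, ModelLocGen (Ideal.span {(⟨algebraMap Λ 𝔽 π, hπA⟩ : A)}) 𝔐 u := by
  haveI hP : (pt π f).IsPrime := (pt_isMaximal hπ hfirr).isPrime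
  haveI : CharZero Λ := (algebraMap Λ K).charZero
  haveI : CharZero K₁ := LocalInst.charZero_K₁ (K₁ := K₁) (𝔽 := 𝔽) K
  letI := LocalInst.algK₁ (K₁ := K₁) (pt π f)
  haveI := LocalInst.isScalarTower_algK₁ (K₁ := K₁) (pt π f)
  letI := LocalInst.alg𝔽 K₁ (𝔽 := 𝔽) (pt π f)
  haveI := LocalInst.isScalarTower_alg𝔽 K₁ (𝔽 := 𝔽) (pt π f)
  haveI := LocalInst.isFractionRing (K₁ := K₁) (pt π f)
  have hφ : ∀ a : Λ[X], algebraMap (Localization.AtPrime (pt π f)) 𝔽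
      (algebraMap Λ[X] (Localization.AtPrime (pt π f)) a) = aeval t a :=
    LocalInst.algebraMap_apply t hcompat (pt π f)
  have hφπ : algebraMap (Localization.AtPrime (pt π f)) 𝔽
      (algebraMap Λ[X] (Localization.AtPrime (pt π f)) (Polynomial.C π)) = algebraMap Λ 𝔽 π := by
    rw [hφ, aeval_C]
  have hV : IsLocSub (algebraMap Λ[X] (Localization.AtPrime (pt π f)) (Polynomial.C π))
      (gaussSub π hπ.prime t) :=
    LocalInst.isLocSub_gaussSub t hcompat (pt π f) π hπ.prime (C_mem_pt π f)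
  haveI : CharZero (Localization.AtPrime (pt π f) ⧸
      Ideal.span {algebraMap Λ[X] (Localization.AtPrime (pt π f)) f}) :=
    charZero_quotient_f hπ hf hfirr
  -- polynomials outside `𝔫` are outside `𝔐`
  have hnot𝔐 : ∀ a : Λ[X], a ∉ pt π f → (⟨aeval t a, hmemA a⟩ : A) ∉ 𝔐 := by
    intro a ha hmem
    obtain ⟨b, c, hc, habc⟩ := (pt_isMaximal hπ hfirr).exists_inv ha
    have h1 : (⟨aeval t b, hmemA b⟩ : A) * ⟨aeval t a, hmemA a⟩ + ⟨aeval t c, hmemA c⟩ = 1 := by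
      apply Subtype.ext
      show aeval t b * aeval t a + aeval t c = 1
      rw [← map_mul, ← map_add, habc, map_one]
    apply h𝔐.ne_top
    rw [Ideal.eq_top_iff_one, ← h1]
    exact 𝔐.add_mem (𝔐.mul_mem_left _ hmem) (h𝔫𝔐 c hc)
  have hπA' : algebraMap (Localization.AtPrime (pt π f)) 𝔽
      (algebraMap Λ[X] (Localization.AtPrime (pt π f)) (Polynomial.C π)) ∈ A := by
    rw [hφπ]
    exact hπA
  have hπeq : (⟨algebraMap (Localization.AtPrime (pt π f)) 𝔽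
      (algebraMap Λ[X] (Localization.AtPrime (pt π f)) (Polynomial.C π)), hπA'⟩ : A) =
      ⟨algebraMap Λ 𝔽 π, hπA⟩ := Subtype.ext hφπ
  have hπ𝔐 : (⟨algebraMap Λ 𝔽 π, hπA⟩ : A) ∈ 𝔐 := by
    have h1 := h𝔫𝔐 (Polynomial.C π) (C_mem_pt π f)
    have h2 : (⟨aeval t (Polynomial.C π), hmemA _⟩ : A) = ⟨algebraMap Λ 𝔽 π, hπA⟩ :=
      Subtype.ext (aeval_C t π)
    rwa [h2] at h1
  have key := model_fibre_abs (K₁ := K₁) (𝔽 := 𝔽)
    (algebraMap Λ[X] (Localization.AtPrime (pt π f)) (Polynomial.C π))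
    (algebraMap Λ[X] (Localization.AtPrime (pt π f)) f)
    maximalIdeal_eq (isPrime_span_C_pi hπ) (isPrime_span_f hπ hf hfirr) (map_C_pi_ne_zero hπ)
    (map_f_ne_zero hf) (not_map_C_pi_dvd_map_f hπ hf)
    (fun n b => LocalDisc.discr_eq_unit_mul_pow_gen hπ hf hfirr (gaussSub π hπ.prime t) hV hB1 C hC
      hcusp (fun p hp _ hdeg hroot =>
        LocalGlue.unram_at π hπ t hcompat C hB2 (pt π f) p hp hdeg hroot) n b)
    A
    (fun z hz => by
      obtain ⟨a, ha, haz⟩ := hA𝔫 z hz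
      have h1 : IsIntegral (Localization.AtPrime (pt π f)) (aeval t a * z) :=
        LocalInst.isIntegral_of_isIntegral_adjoin t hcompat (pt π f) haz
      obtain ⟨u, hu⟩ := isUnit_of_not_mem ha
      have h2 : z = algebraMap (Localization.AtPrime (pt π f)) 𝔽
          ((u⁻¹ : (Localization.AtPrime (pt π f))ˣ) : Localization.AtPrime (pt π f)) *
            (aeval t a * z) := by
        rw [← hφ, ← hu, ← mul_assoc, ← map_mul, Units.inv_mul, map_one, one_mul]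
      rw [h2]
      exact isIntegral_algebraMap.mul h1)
    𝔐 h𝔐 hπA' (by rw [hπeq]; exact hπ𝔐)
    (fun z hz => by
      obtain ⟨a, ha, haz⟩ := LocalInst.exists_isIntegral_adjoin t hcompat (pt π f) hz
      have hr : algebraMap (Localization.AtPrime (pt π f)) 𝔽
          (algebraMap Λ[X] (Localization.AtPrime (pt π f)) a) ∈ A := by
        rw [hφ]
        exact hmemA a
      refine ⟨algebraMap Λ[X] (Localization.AtPrime (pt π f)) a, isUnit_of_not_mem ha, hr, ?_, ?_⟩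
      · have h2 : (⟨algebraMap (Localization.AtPrime (pt π f)) 𝔽
            (algebraMap Λ[X] (Localization.AtPrime (pt π f)) a), hr⟩ : A) =
            ⟨aeval t a, hmemA a⟩ := Subtype.ext (hφ a)
        rw [h2]
        exact hnot𝔐 a ha
      · rw [hφ]
        exact hA _ haz)
  rw [hπeq] at key
  exact key

open Polynomial Fermat.Agent.S18 in
/-- (E1) **M1**: in the S18 engine setting (chart `t`), every ring `A` between the chart ring
(integral closure of `Λ[t]`) and its localisation at a closed point `𝔫 ∋ π` of the `t`-line has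
a local generator ("uniformiser of the special fibre") at every maximal ideal over `𝔫`. -/
theorem model_fibre_locGen {Λ K 𝔽 : Type*} [CommRing Λ] [IsDomain Λ] [IsDiscreteValuationRing Λ]
    [Field K] [CharZero K] [Algebra Λ K] [IsFractionRing Λ K] [Field 𝔽] [Algebra K 𝔽]
    [Algebra Λ 𝔽] [IsScalarTower Λ K 𝔽] (π : Λ) (hπ : Irreducible π)
    {K₁ : Type*} [Field K₁] [Algebra Λ[X] K₁] [IsFractionRing Λ[X] K₁] [Algebra K₁ 𝔽]
    [FiniteDimensional K₁ 𝔽]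
    (t : 𝔽) (hcompat : ∀ a : Λ[X], algebraMap K₁ 𝔽 (algebraMap Λ[X] K₁ a) = Polynomial.aeval t a)
    (C : Finset Λ) (hC : ∀ c ∈ C, ∀ c' ∈ C, c ≠ c' → ¬ π ∣ c - c')
    (hB1 : HasIntegralDualBasis (gaussSub π hπ.prime t) K₁ 𝔽)
    (hB2 : UnramAway K t ((algebraMap Λ K) '' (C : Set Λ)))
    (A : Subring 𝔽) (hA : ∀ z : 𝔽, IsIntegral (Algebra.adjoin Λ {t}) z → z ∈ A)
    (𝔫 : Ideal Λ[X]) (h𝔫 : 𝔫.IsMaximal) (hπ𝔫 : Polynomial.C π ∈ 𝔫)
    (hA𝔫 : ∀ z ∈ A, ∃ a : Λ[X], a ∉ 𝔫 ∧ IsIntegral (Algebra.adjoin Λ {t}) (aeval t a * z))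
    (𝔐 : Ideal A) (h𝔐 : 𝔐.IsMaximal)
    (h𝔫𝔐 : ∀ a ∈ 𝔫, (⟨aeval t a, hA _ (isIntegral_algebraMap (R := Algebra.adjoin Λ {t})
      (x := ⟨aeval t a, Polynomial.aeval_mem_adjoin_singleton Λ t⟩))⟩ : A) ∈ 𝔐) :
    ∃ u : A, ModelLocGen
      (Ideal.span {(⟨algebraMap Λ 𝔽 π, hA _ (isIntegral_algebraMap (R := Algebra.adjoin Λ {t})
        (x := algebraMap Λ _ π))⟩ : A)}) 𝔐 u := by
  obtain ⟨f₀, hf₀, hf₀irr, rfl⟩ := exists_eq_pt hπ 𝔫 h𝔫 hπ𝔫
  obtain ⟨f, hf, hfirr, hpt, hcusp⟩ : ∃ f : Λ[X], f.Monic ∧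
      Irreducible (f.map (Ideal.Quotient.mk (Ideal.span {π}))) ∧ pt π f₀ = pt π f ∧
      ((∃ c ∈ C, f = X - Polynomial.C c) ∨ (∀ c ∈ C, X - Polynomial.C c ∉ pt π f)) := by
    by_cases hc : ∃ c ∈ C, X - Polynomial.C c ∈ pt π f₀
    · obtain ⟨c, hcC, hcmem⟩ := hc
      exact ⟨X - Polynomial.C c, monic_X_sub_C c, irreducible_map_X_sub_C hπ c,
        pt_eq_of_X_sub_C_mem hπ hf₀irr hcmem, Or.inl ⟨c, hcC, rfl⟩⟩
    · push Not at hc
      exact ⟨f₀, hf₀, hf₀irr, rfl, Or.inr hc⟩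
  rw [hpt] at hA𝔫 h𝔫𝔐
  exact model_fibre_locGen_pt π hπ t hcompat C hC hB1 hB2 A hA hf hfirr hcusp hA𝔫 𝔐 h𝔐
    (fun a => hA _ (isIntegral_algebraMap (R := Algebra.adjoin Λ {t})
      (x := ⟨aeval t a, Polynomial.aeval_mem_adjoin_singleton Λ t⟩)))
    (hA _ (isIntegral_algebraMap (R := Algebra.adjoin Λ {t}) (x := algebraMap Λ _ π))) h𝔫𝔐

end Fermat.Agent.S34
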