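import Mathlib
import Fermat.Agent.S34.ModelDefs
import Fermat.Agent.S34.ModelFibre
import Fermat.Agent.S18.GaussLineK
import Fermat.Agent.S34.CoverChartS

/-!
P19 (S34), block MODEL-M, W4 (note 869 / 879): core of the cover chart statement.

`S₀ ⊆ 𝔽` a subring, integrally closed in `𝔽` and containing `Λ`, `𝔐` a maximal ideal of `S₀`
containing `π` with finite residue field.  If `S₀[1/e] = C_t[1/D(t)]` for a chart `t` of the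
S18 engine (`C_t` = integral closure of `Λ[t]`, `e = 1 / D(t) ∈ S₀`, `t e ∈ S₀`, `e ∉ 𝔐`), then
`𝔐` has a local generator modulo `π` (`s34cc_chart`): apply (E1) `model_fibre_locGen` to the ring
`A = S₀[1/e]` at the closed point `𝔫 = 𝔐_A ∩ Λ[t]` (maximal because `t ^ q - t ∈ 𝔐_A`,
`q = #(S₀ ⧸ 𝔐)`) and descend from `A` to `S₀`.

* `s34cc_scale_adjoin`, `s34cc_algebraMap_mem`, `s34cc_closed`, `s34cc_aeval_mem` : bookkeeping;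
* `s34cc_descend` : descent of local generators from a localisation (variant of
  `model_fibre_descend`: only maximal ideals over `𝔐` are needed);
* `s34cc_chart` : the chart lemma;
* `s34cc_chart_x`, `s34cc_chart_inv` : the charts `x` and `x⁻¹` with `K₁ = K⟮x⟯`.
-/

set_option autoImplicit false

namespace Fermat.Agent.S34

open Polynomial IntermediateField Fermat.Agent.S18

/-- scaling, `Algebra.adjoin Λ {t}` form: if `s, w s ∈ Λ[t]` and `z` is integral over `Λ[w]`,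
some `s ^ k * z` is integral over `Λ[t]`. -/
theorem s34cc_scale_adjoin {Λ 𝔽 : Type*} [CommRing Λ] [Field 𝔽] [Algebra Λ 𝔽] (t w s : 𝔽)
    (hs : s ∈ Algebra.adjoin Λ {t}) (hws : w * s ∈ Algebra.adjoin Λ {t}) {z : 𝔽}
    (hz : IsIntegral (Algebra.adjoin Λ {w}) z) :
    ∃ k : ℕ, IsIntegral (Algebra.adjoin Λ {t}) (s ^ k * z) := by
  obtain ⟨k, H, hH, hc, hroot⟩ := s34cc_scale (Algebra.adjoin Λ {t}).toSubring
    (fun c => (Algebra.adjoin Λ {t}).algebraMap_mem c) w s hs hws hz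
  exact ⟨k, s34cc_isIntegral_of_monic (Algebra.adjoin Λ {t}) H hH hc hroot⟩

/-- the chart ring `S₀` = integral closure of `Λ[w]` contains `Λ` -/
theorem s34cc_algebraMap_mem {Λ 𝔽 : Type*} [CommRing Λ] [Field 𝔽] [Algebra Λ 𝔽] (w : 𝔽)
    (S₀ : Subring 𝔽) (hS₀ : ∀ z : 𝔽, z ∈ S₀ ↔ IsIntegral (Algebra.adjoin Λ {w}) z) (c : Λ) :
    algebraMap Λ 𝔽 c ∈ S₀ := by
  rw [hS₀]
  exact isIntegral_algebraMap (R := Algebra.adjoin Λ {w}) (x := algebraMap Λ _ c)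

/-- the chart ring `S₀` = integral closure of `Λ[w]` is integrally closed in `𝔽`
(polynomial form) -/
theorem s34cc_closed {Λ 𝔽 : Type*} [CommRing Λ] [Field 𝔽] [Algebra Λ 𝔽] (w : 𝔽)
    (S₀ : Subring 𝔽) (hS₀ : ∀ z : 𝔽, z ∈ S₀ ↔ IsIntegral (Algebra.adjoin Λ {w}) z)
    (H : 𝔽[X]) (hH : H.Monic) (hc : ∀ i, H.coeff i ∈ S₀) (z : 𝔽) (hz : H.eval z = 0) :
    z ∈ S₀ := by
  rw [hS₀]
  have hc' : ∀ i, H.coeff i ∈ integralClosure (Algebra.adjoin Λ {w}) 𝔽 :=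
    fun i => (hS₀ _).1 (hc i)
  have h1 : IsIntegral (integralClosure (Algebra.adjoin Λ {w}) 𝔽) z :=
    s34cc_isIntegral_of_monic (integralClosure (Algebra.adjoin Λ {w}) 𝔽) H hH hc' hz
  exact isIntegral_trans (R := Algebra.adjoin Λ {w})
    (A := integralClosure (Algebra.adjoin Λ {w}) 𝔽) z h1

/-- polynomial expressions with coefficients in `Λ` in an element of the subring -/
theorem s34cc_aeval_mem {Λ 𝔽 : Type*} [CommRing Λ] [Field 𝔽] [Algebra Λ 𝔽] (S₀ : Subring 𝔽)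
    (hΛS : ∀ c : Λ, algebraMap Λ 𝔽 c ∈ S₀) {t : 𝔽} (ht : t ∈ S₀) (a : Λ[X]) :
    aeval t a ∈ S₀ := by
  rw [aeval_eq_sum_range]
  refine S₀.sum_mem fun i _ => ?_
  rw [Algebra.smul_def]
  exact S₀.mul_mem (hΛS _) (S₀.pow_mem ht i)

/-- Descent of local generators: `S` is a localisation of `A` at elements outside the maximal
ideal `𝔐` (which become units of `S`), and every maximal ideal of `S` lying over `𝔐` has a
local generator; then `𝔐` has one. -/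
theorem s34cc_descend {A S : Type*} [CommRing A] [CommRing S] (ι : A →+* S)
    (hι : Function.Injective ι) (𝔞 𝔐 : Ideal A) (h𝔐 : 𝔐.IsMaximal)
    (hloc : ∀ y : S, ∃ s z : A, s ∉ 𝔐 ∧ IsUnit (ι s) ∧ ι s * y = ι z)
    (hS : ∀ 𝔐S : Ideal S, 𝔐S.IsMaximal → 𝔐S.comap ι = 𝔐 →
      ∃ uS : S, ModelLocGen (𝔞.map ι) 𝔐S uS) :
    ∃ u : A, ModelLocGen 𝔞 𝔐 u := by
  have hone : (1 : A) ∉ 𝔐 := fun h1 => h𝔐.ne_top ((Ideal.eq_top_iff_one _).mpr h1)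
  -- the ideal of `S` of fractions with numerator in `𝔐`
  let J : Ideal S :=
    { carrier := {y | ∃ s : A, s ∉ 𝔐 ∧ ∃ m ∈ 𝔐, ι s * y = ι m}
      add_mem' := by
        rintro y y' ⟨s, hs, m, hm', h⟩ ⟨s', hs', m', hm'', h'⟩
        refine ⟨s * s', fun hmem => ?_, s' * m + s * m',
          𝔐.add_mem (𝔐.mul_mem_left _ hm') (𝔐.mul_mem_left _ hm''), ?_⟩
        · rcases h𝔐.isPrime.mem_or_mem hmem with h0 | h0
          · exact hs h0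
          · exact hs' h0
        · rw [map_mul, map_add, map_mul, map_mul, ← h, ← h']
          ring
      zero_mem' := ⟨1, hone, 0, 𝔐.zero_mem, by rw [mul_zero, map_zero]⟩
      smul_mem' := by
        rintro r y ⟨s, hs, m, hm', h⟩
        obtain ⟨s₀, z, hs₀, -, hsz⟩ := hloc r
        refine ⟨s₀ * s, fun hmem => ?_, z * m, 𝔐.mul_mem_left _ hm', ?_⟩
        · rcases h𝔐.isPrime.mem_or_mem hmem with h0 | h0
          · exact hs₀ h0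
          · exact hs h0
        · rw [smul_eq_mul, map_mul, map_mul, ← hsz, ← h]
          ring }
  have hJ : J ≠ ⊤ := by
    intro htop
    have h1 : (1 : S) ∈ J := htop ▸ Submodule.mem_top
    obtain ⟨s, hs, m, hm', h⟩ := h1
    rw [mul_one] at h
    exact hs (hι h ▸ hm')
  have h𝔐J : ∀ z ∈ 𝔐, ι z ∈ J := fun z hz =>
    ⟨1, hone, z, hz, by rw [map_one, one_mul]⟩
  obtain ⟨𝔐S, h𝔐Smax, hJ𝔐S⟩ := Ideal.exists_le_maximal J hJ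
  have := h𝔐Smax
  have hcomap : 𝔐S.comap ι = 𝔐 := by
    symm
    apply h𝔐.eq_of_le (Ideal.comap_ne_top ι h𝔐Smax.ne_top)
    intro z hz
    exact hJ𝔐S (h𝔐J z hz)
  obtain ⟨uS, huS⟩ := hS 𝔐S h𝔐Smax hcomap
  have hloc' : ∀ y : S, ∃ s a : A, ι s ∉ 𝔐S ∧ ι s * y = ι a := by
    intro y
    obtain ⟨s, z, -, hu, hsz⟩ := hloc y
    exact ⟨s, z, fun hmem => h𝔐Smax.ne_top (Ideal.eq_top_of_isUnit_mem _ hmem hu), hsz⟩
  obtain ⟨u, hu⟩ := modelLocGen_descend ι hι 𝔞 𝔐S hloc' huS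
  rw [hcomap] at hu
  exact ⟨u, hu⟩

/-- The chart lemma: `S₀[1/e] = C_t[1/D(t)]` for a chart `t` of the S18 engine. -/
theorem s34cc_chart {Λ K 𝔽 : Type*} [CommRing Λ] [IsDomain Λ] [IsDiscreteValuationRing Λ]
    [Field K] [CharZero K] [Algebra Λ K] [IsFractionRing Λ K] [Field 𝔽] [Algebra K 𝔽]
    [Algebra Λ 𝔽] [IsScalarTower Λ K 𝔽] (π : Λ) (hπ : Irreducible π)
    {K₁ : Type*} [Field K₁] [Algebra Λ[X] K₁] [IsFractionRing Λ[X] K₁] [Algebra K₁ 𝔽]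
    [FiniteDimensional K₁ 𝔽]
    (t : 𝔽) (hcompat : ∀ a : Λ[X], algebraMap K₁ 𝔽 (algebraMap Λ[X] K₁ a) = Polynomial.aeval t a)
    (C : Finset Λ) (hC : ∀ c ∈ C, ∀ c' ∈ C, c ≠ c' → ¬ π ∣ c - c')
    (hB1 : HasIntegralDualBasis (gaussSub π hπ.prime t) K₁ 𝔽)
    (hB2 : UnramAway K t ((algebraMap Λ K) '' (C : Set Λ)))
    (S₀ : Subring 𝔽) (hΛS : ∀ c : Λ, algebraMap Λ 𝔽 c ∈ S₀)
    (hclosed : ∀ H : 𝔽[X], H.Monic → (∀ i, H.coeff i ∈ S₀) → ∀ z : 𝔽, H.eval z = 0 → z ∈ S₀)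
    (D : Λ[X]) (e : 𝔽) (he : e ∈ S₀) (hte : t * e ∈ S₀) (hDe : aeval t D * e = 1)
    (hscale : ∀ z ∈ S₀, ∃ k : ℕ, IsIntegral (Algebra.adjoin Λ {t}) (aeval t D ^ k * z))
    (𝔐 : Ideal S₀) (h𝔐 : 𝔐.IsMaximal) (he𝔐 : (⟨e, he⟩ : S₀) ∉ 𝔐)
    (hπ𝔐 : (⟨algebraMap Λ 𝔽 π, hΛS π⟩ : S₀) ∈ 𝔐) (hres : Finite (S₀ ⧸ 𝔐)) :
    ∃ u : S₀, ModelLocGen (Ideal.span {(⟨algebraMap Λ 𝔽 π, hΛS π⟩ : S₀)}) 𝔐 u := by
  classical
  -- the ring `A = S₀[1/e]`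
  let A : Subring 𝔽 :=
    { carrier := {z | ∃ k : ℕ, e ^ k * z ∈ S₀}
      mul_mem' := by
        rintro a b ⟨k, hk⟩ ⟨l, hl⟩
        refine ⟨k + l, ?_⟩
        have h1 : e ^ (k + l) * (a * b) = (e ^ k * a) * (e ^ l * b) := by ring
        rw [h1]
        exact S₀.mul_mem hk hl
      one_mem' := ⟨0, by rw [pow_zero, one_mul]; exact S₀.one_mem⟩
      add_mem' := by
        rintro a b ⟨k, hk⟩ ⟨l, hl⟩
        refine ⟨k + l, ?_⟩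
        have h1 : e ^ (k + l) * (a + b) = e ^ l * (e ^ k * a) + e ^ k * (e ^ l * b) := by ring
        rw [h1]
        exact S₀.add_mem (S₀.mul_mem (S₀.pow_mem he l) hk) (S₀.mul_mem (S₀.pow_mem he k) hl)
      zero_mem' := ⟨0, by rw [mul_zero]; exact S₀.zero_mem⟩
      neg_mem' := by
        rintro a ⟨k, hk⟩
        exact ⟨k, by rw [mul_neg]; exact S₀.neg_mem hk⟩ }
  have hS₀A : S₀ ≤ A := fun z hz => ⟨0, by rw [pow_zero, one_mul]; exact hz⟩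
  -- the chart ring is contained in `A`
  have hA : ∀ z : 𝔽, IsIntegral (Algebra.adjoin Λ {t}) z → z ∈ A := by
    intro z hz
    obtain ⟨k, H, hH, hc, hroot⟩ := s34cc_scale S₀ hΛS t e he hte hz
    exact ⟨k, hclosed H hH hc _ hroot⟩
  have hDint : IsIntegral (Algebra.adjoin Λ {t}) (aeval t D) :=
    isIntegral_algebraMap (R := Algebra.adjoin Λ {t})
      (x := ⟨aeval t D, aeval_mem_adjoin_singleton Λ t⟩)
  have hDA : aeval t D ∈ A := hA _ hDint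
  let ι : S₀ →+* A := Subring.inclusion hS₀A
  have hι : Function.Injective ι := Subring.inclusion_injective hS₀A
  have hιcoe : ∀ y : S₀, ((ι y : A) : 𝔽) = (y : 𝔽) := fun y => rfl
  refine s34cc_descend ι hι (Ideal.span {(⟨algebraMap Λ 𝔽 π, hΛS π⟩ : S₀)}) 𝔐 h𝔐 ?_ ?_
  · rintro ⟨y, k, hk⟩
    refine ⟨(⟨e, he⟩ : S₀) ^ k, ⟨e ^ k * y, hk⟩, fun hmem => he𝔐 (h𝔐.isPrime.mem_of_pow_mem k hmem),
      ?_, ?_⟩
    · refine IsUnit.of_mul_eq_one ((⟨aeval t D, hDA⟩ : A) ^ k) ?_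
      apply Subtype.ext
      rw [Subring.coe_mul, hιcoe, Subring.coe_pow, Subring.coe_pow, Subring.coe_one, ← mul_pow,
        mul_comm, hDe, one_pow]
    · apply Subtype.ext
      rw [Subring.coe_mul, hιcoe, hιcoe, Subring.coe_pow]
  · intro 𝔐A h𝔐A hcomap
    have hprimeA : 𝔐A.IsPrime := h𝔐A.isPrime
    have hι𝔐 : ∀ y : S₀, y ∈ 𝔐 ↔ ι y ∈ 𝔐A := fun y => by rw [← hcomap, Ideal.mem_comap]
    -- the ring homomorphism `Λ[X] → A`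
    let φ : Λ[X] →+* A := ((aeval t : Λ[X] →ₐ[Λ] 𝔽) : Λ[X] →+* 𝔽).codRestrict A
      (fun a => hA _ (isIntegral_algebraMap (R := Algebra.adjoin Λ {t})
        (x := ⟨aeval t a, aeval_mem_adjoin_singleton Λ t⟩)))
    have hφ : ∀ a : Λ[X], ((φ a : A) : 𝔽) = aeval t a := fun a => rfl
    have h𝔫prime : (𝔐A.comap φ).IsPrime := Ideal.comap_isPrime φ 𝔐A
    have hπ𝔫 : Polynomial.C π ∈ 𝔐A.comap φ := by
      rw [Ideal.mem_comap]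
      have h1 : φ (Polynomial.C π) = ι ⟨algebraMap Λ 𝔽 π, hΛS π⟩ := by
        apply Subtype.ext
        rw [hφ, aeval_C, hιcoe]
      rw [h1]
      exact (hι𝔐 _).1 hπ𝔐
    -- the residue field of `𝔐` is finite
    have : Fintype (S₀ ⧸ 𝔐) := Fintype.ofFinite _
    let _ : Field (S₀ ⧸ 𝔐) := Ideal.Quotient.field 𝔐
    have hq1 : 1 < Fintype.card (S₀ ⧸ 𝔐) := Fintype.one_lt_card
    have hpow : ∀ y : S₀, y ^ Fintype.card (S₀ ⧸ 𝔐) - y ∈ 𝔐 := by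
      intro y
      rw [← Ideal.Quotient.eq_zero_iff_mem, map_sub, map_pow, FiniteField.pow_card, sub_self]
    have he𝔐A : ι ⟨e, he⟩ ∉ 𝔐A := fun hmem => he𝔐 ((hι𝔐 _).2 hmem)
    have hXq : X ^ Fintype.card (S₀ ⧸ 𝔐) - X ∈ 𝔐A.comap φ := by
      rw [Ideal.mem_comap]
      have h1 : (⟨t * e, hte⟩ : S₀) ^ Fintype.card (S₀ ⧸ 𝔐) * ⟨e, he⟩ -
          ⟨t * e, hte⟩ * (⟨e, he⟩ : S₀) ^ Fintype.card (S₀ ⧸ 𝔐) ∈ 𝔐 := by
        have h2 : (⟨t * e, hte⟩ : S₀) ^ Fintype.card (S₀ ⧸ 𝔐) * ⟨e, he⟩ -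
            ⟨t * e, hte⟩ * (⟨e, he⟩ : S₀) ^ Fintype.card (S₀ ⧸ 𝔐) =
            ((⟨t * e, hte⟩ : S₀) ^ Fintype.card (S₀ ⧸ 𝔐) - ⟨t * e, hte⟩) * ⟨e, he⟩ -
              ⟨t * e, hte⟩ * ((⟨e, he⟩ : S₀) ^ Fintype.card (S₀ ⧸ 𝔐) - ⟨e, he⟩) := by ring
        rw [h2]
        exact 𝔐.sub_mem (𝔐.mul_mem_right _ (hpow _)) (𝔐.mul_mem_left _ (hpow _))
      have h3 : ι ((⟨t * e, hte⟩ : S₀) ^ Fintype.card (S₀ ⧸ 𝔐) * ⟨e, he⟩ -
          ⟨t * e, hte⟩ * (⟨e, he⟩ : S₀) ^ Fintype.card (S₀ ⧸ 𝔐)) =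
          (ι ⟨e, he⟩) ^ (Fintype.card (S₀ ⧸ 𝔐) + 1) *
            φ (X ^ Fintype.card (S₀ ⧸ 𝔐) - X) := by
        apply Subtype.ext
        simp only [hιcoe, hφ, Subring.coe_mul, Subring.coe_pow, AddSubgroupClass.coe_sub,
          map_sub, map_pow, aeval_X]
        ring
      have h4 : (ι ⟨e, he⟩) ^ (Fintype.card (S₀ ⧸ 𝔐) + 1) *
          φ (X ^ Fintype.card (S₀ ⧸ 𝔐) - X) ∈ 𝔐A := h3 ▸ (hι𝔐 _).1 h1
      rcases hprimeA.mem_or_mem h4 with h5 | h5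
      · exact absurd (hprimeA.mem_of_pow_mem _ h5) he𝔐A
      · exact h5
    have h𝔫max : (𝔐A.comap φ).IsMaximal :=
      s34cc_isMaximal_of_monic_mem π hπ _ h𝔫prime hπ𝔫 (X ^ Fintype.card (S₀ ⧸ 𝔐) - X)
        (monic_X_pow_sub (by rw [degree_X]; exact_mod_cast hq1)) hXq
    have hDunit : φ D ∉ 𝔐A := by
      intro hmem
      have h1 : φ D * ι ⟨e, he⟩ = 1 := by
        apply Subtype.ext
        rw [Subring.coe_mul, hφ, hιcoe, Subring.coe_one]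
        exact hDe
      exact h𝔐A.ne_top ((Ideal.eq_top_iff_one _).mpr (h1 ▸ 𝔐A.mul_mem_right _ hmem))
    have hA𝔫 : ∀ z ∈ A, ∃ a : Λ[X], a ∉ 𝔐A.comap φ ∧
        IsIntegral (Algebra.adjoin Λ {t}) (aeval t a * z) := by
      rintro z ⟨k, hk⟩
      obtain ⟨k', hk'⟩ := hscale _ hk
      refine ⟨D ^ k', fun hmem => ?_, ?_⟩
      · rw [Ideal.mem_comap, map_pow] at hmem
        exact hDunit (hprimeA.mem_of_pow_mem k' hmem)
      · have h2 : aeval t D ^ k * e ^ k = 1 := by rw [← mul_pow, hDe, one_pow]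
        have h1 : aeval t (D ^ k') * z = aeval t D ^ k * (aeval t D ^ k' * (e ^ k * z)) := by
          rw [map_pow]
          calc aeval t D ^ k' * z = aeval t D ^ k' * z * (aeval t D ^ k * e ^ k) := by
                rw [h2, mul_one]
            _ = aeval t D ^ k * (aeval t D ^ k' * (e ^ k * z)) := by ring
        rw [h1]
        exact (hDint.pow k).mul hk'
    obtain ⟨u, hu⟩ := model_fibre_locGen π hπ t hcompat C hC hB1 hB2 A hA (𝔐A.comap φ) h𝔫max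
      hπ𝔫 hA𝔫 𝔐A h𝔐A (fun a ha => ha)
    refine ⟨u, ?_⟩
    have hspan : (Ideal.span {(⟨algebraMap Λ 𝔽 π, hΛS π⟩ : S₀)}).map ι =
        Ideal.span {(⟨algebraMap Λ 𝔽 π, hA _ (isIntegral_algebraMap (R := Algebra.adjoin Λ {t})
          (x := algebraMap Λ _ π))⟩ : A)} := by
      rw [Ideal.map_span, Set.image_singleton]
      rfl
    rw [hspan]
    exact hu

/-- the chart lemma for the chart `x` (`K₁ = K⟮x⟯`) -/
theorem s34cc_chart_x {Λ K 𝔽 : Type*} [CommRing Λ] [IsDomain Λ] [IsDiscreteValuationRing Λ]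
    [Field K] [CharZero K] [Algebra Λ K] [IsFractionRing Λ K] [Field 𝔽] [Algebra K 𝔽]
    [Algebra Λ 𝔽] [IsScalarTower Λ K 𝔽] (π : Λ) (hπ : Irreducible π)
    (C : Finset Λ) (hC : ∀ c ∈ C, ∀ c' ∈ C, c ≠ c' → ¬ π ∣ c - c')
    (x : 𝔽) (hx : Transcendental K x) [FiniteDimensional K⟮x⟯ 𝔽]
    (hB1 : HasIntegralDualBasis (gaussSub π hπ.prime x) K⟮x⟯ 𝔽)
    (hB2 : UnramAway K x ((algebraMap Λ K) '' (C : Set Λ)))
    (S₀ : Subring 𝔽) (hΛS : ∀ c : Λ, algebraMap Λ 𝔽 c ∈ S₀)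
    (hclosed : ∀ H : 𝔽[X], H.Monic → (∀ i, H.coeff i ∈ S₀) → ∀ z : 𝔽, H.eval z = 0 → z ∈ S₀)
    (D : Λ[X]) (e : 𝔽) (he : e ∈ S₀) (hte : x * e ∈ S₀) (hDe : aeval x D * e = 1)
    (hscale : ∀ z ∈ S₀, ∃ k : ℕ, IsIntegral (Algebra.adjoin Λ {x}) (aeval x D ^ k * z))
    (𝔐 : Ideal S₀) (h𝔐 : 𝔐.IsMaximal) (he𝔐 : (⟨e, he⟩ : S₀) ∉ 𝔐)
    (hπ𝔐 : (⟨algebraMap Λ 𝔽 π, hΛS π⟩ : S₀) ∈ 𝔐) (hres : Finite (S₀ ⧸ 𝔐)) :
    ∃ u : S₀, ModelLocGen (Ideal.span {(⟨algebraMap Λ 𝔽 π, hΛS π⟩ : S₀)}) 𝔐 u := by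
  let _ : Algebra Λ[X] K⟮x⟯ := GaussLineK.polyAlgebra x (AdjoinSimple.gen K x)
  have : IsFractionRing Λ[X] K⟮x⟯ := GaussLineK.isFractionRing_gen hx
  refine s34cc_chart π hπ (K₁ := K⟮x⟯) x (fun a => ?_) C hC hB1 hB2 S₀ hΛS hclosed D e he hte hDe
    hscale 𝔐 h𝔐 he𝔐 hπ𝔐 hres
  exact GaussLineK.polyAlgebra_algebraMap_apply x (AdjoinSimple.gen K x) a

/-- the chart lemma for the chart `x⁻¹` (`K₁ = K⟮x⟯`) -/
theorem s34cc_chart_inv {Λ K 𝔽 : Type*} [CommRing Λ] [IsDomain Λ] [IsDiscreteValuationRing Λ]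
    [Field K] [CharZero K] [Algebra Λ K] [IsFractionRing Λ K] [Field 𝔽] [Algebra K 𝔽]
    [Algebra Λ 𝔽] [IsScalarTower Λ K 𝔽] (π : Λ) (hπ : Irreducible π)
    (C' : Finset Λ) (hC' : ∀ c ∈ C', ∀ c' ∈ C', c ≠ c' → ¬ π ∣ c - c')
    (x : 𝔽) (hx : Transcendental K x) [FiniteDimensional K⟮x⟯ 𝔽]
    (hB1 : HasIntegralDualBasis (gaussSub π hπ.prime x) K⟮x⟯ 𝔽)
    (hB2' : UnramAway K x⁻¹ ((algebraMap Λ K) '' (C' : Set Λ)))
    (S₀ : Subring 𝔽) (hΛS : ∀ c : Λ, algebraMap Λ 𝔽 c ∈ S₀)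
    (hclosed : ∀ H : 𝔽[X], H.Monic → (∀ i, H.coeff i ∈ S₀) → ∀ z : 𝔽, H.eval z = 0 → z ∈ S₀)
    (D : Λ[X]) (e : 𝔽) (he : e ∈ S₀) (hte : x⁻¹ * e ∈ S₀) (hDe : aeval x⁻¹ D * e = 1)
    (hscale : ∀ z ∈ S₀, ∃ k : ℕ, IsIntegral (Algebra.adjoin Λ {x⁻¹}) (aeval x⁻¹ D ^ k * z))
    (𝔐 : Ideal S₀) (h𝔐 : 𝔐.IsMaximal) (he𝔐 : (⟨e, he⟩ : S₀) ∉ 𝔐)
    (hπ𝔐 : (⟨algebraMap Λ 𝔽 π, hΛS π⟩ : S₀) ∈ 𝔐) (hres : Finite (S₀ ⧸ 𝔐)) :
    ∃ u : S₀, ModelLocGen (Ideal.span {(⟨algebraMap Λ 𝔽 π, hΛS π⟩ : S₀)}) 𝔐 u := by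
  have ht : Transcendental Λ x := GaussLineK.transcendental_of_fraction hx
  have hV : gaussSub π hπ.prime x⁻¹ = gaussSub π hπ.prime x :=
    GaussLineK.gaussSub_inv π hπ.prime ht
  let _ : Algebra Λ[X] K⟮x⟯ := GaussLineK.polyAlgebra x (AdjoinSimple.gen K x)⁻¹
  have : IsFractionRing Λ[X] K⟮x⟯ := GaussLineK.isFractionRing_gen_inv hx
  rw [← hV] at hB1
  refine s34cc_chart π hπ (K₁ := K⟮x⟯) x⁻¹ (fun a => ?_) C' hC' hB1 hB2' S₀ hΛS hclosed D e he hte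
    hDe hscale 𝔐 h𝔐 he𝔐 hπ𝔐 hres
  exact GaussLineK.polyAlgebra_algebraMap_apply x (AdjoinSimple.gen K x)⁻¹ a

end Fermat.Agent.S34
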