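import Mathlib
import Fermat.Agent.S34.CoverChartCore

/-!
P19 (S34), block MODEL-M, leaf W4 (FIN case): the chart ring `S₀` = integral closure of `Λ[j]`
in the cover field `𝔽 ⊇ K(x)`, `j = Ng(x) / Dg(x)`, has a local generator of the special fibre
at every closed point with finite residue field.

Route (note 879): `x ∈ S₀` (root of `Ng - j Dg`, unit leading coefficient); by Bezout
`a Ng + b Dg = 1` the element `e := a(x) j + b(x)` is the inverse of `Dg(x)` in `S₀`; so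
`S₀ = C_x[1 / Dg(x)]` and the chart-`x` core `s34cc_chart_x` applies with `D := Dg`.
-/

set_option autoImplicit false

namespace Fermat.Agent.S34

open Polynomial IntermediateField Fermat.Agent.S18

/-- `x` is integral over `Λ[j]` when `Ng(x) = j * Dg(x)`, `deg Dg < deg Ng`, `lc Ng` a unit. -/
theorem s34ccf_isIntegral_x {Λ 𝔽 : Type*} [CommRing Λ] [Field 𝔽] [Algebra Λ 𝔽]
    (Ng Dg : Λ[X]) (hdeg : Dg.natDegree < Ng.natDegree) (hlead : IsUnit Ng.leadingCoeff)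
    (x j : 𝔽) (hcov : aeval x Ng = j * aeval x Dg) :
    IsIntegral (Algebra.adjoin Λ {j}) x := by
  obtain ⟨v, hv⟩ := hlead.exists_left_inv
  -- `v * lc Ng = 1`
  have hu : algebraMap Λ 𝔽 v * algebraMap Λ 𝔽 Ng.leadingCoeff = 1 := by
    rw [← map_mul, hv, map_one]
  have hu0 : algebraMap Λ 𝔽 Ng.leadingCoeff ≠ 0 := fun h => by
    rw [h, mul_zero] at hu; exact zero_ne_one hu
  set P : 𝔽[X] := Ng.map (algebraMap Λ 𝔽) with hP
  set Q : 𝔽[X] := C j * Dg.map (algebraMap Λ 𝔽) with hQ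
  have hPdeg : P.natDegree = Ng.natDegree := natDegree_map_of_leadingCoeff_ne_zero _ hu0
  have hPlc : P.leadingCoeff = algebraMap Λ 𝔽 Ng.leadingCoeff :=
    leadingCoeff_map_of_leadingCoeff_ne_zero _ hu0
  have hP0 : P ≠ 0 := fun h => by rw [h, leadingCoeff_zero] at hPlc; exact hu0 hPlc.symm
  have hQdeg : Q.degree < P.degree := by
    by_cases hQ0 : Q = 0
    · rw [hQ0, degree_zero]; exact bot_lt_iff_ne_bot.mpr (degree_ne_bot.mpr hP0)
    · rw [degree_eq_natDegree hQ0, degree_eq_natDegree hP0, Nat.cast_lt, hPdeg]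
      refine lt_of_le_of_lt ?_ hdeg
      exact (natDegree_C_mul_le _ _).trans natDegree_map_le
  have hlc : (P - Q).leadingCoeff = algebraMap Λ 𝔽 Ng.leadingCoeff := by
    rw [leadingCoeff_sub_of_degree_lt hQdeg, hPlc]
  set H : 𝔽[X] := C (algebraMap Λ 𝔽 v) * (P - Q) with hH
  have hHm : H.Monic := by
    rw [Monic, hH, leadingCoeff_mul, leadingCoeff_C, hlc, hu]
  refine s34cc_isIntegral_of_monic (Algebra.adjoin Λ {j}) H hHm (fun i => ?_) (θ := x) ?_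
  · rw [hH, coeff_C_mul, coeff_sub, hP, hQ, coeff_C_mul, coeff_map, coeff_map]
    refine Subalgebra.mul_mem _ (Subalgebra.algebraMap_mem _ _)
      (Subalgebra.sub_mem _ (Subalgebra.algebraMap_mem _ _)
        (Subalgebra.mul_mem _ (Algebra.subset_adjoin (Set.mem_singleton j))
          (Subalgebra.algebraMap_mem _ _)))
  · rw [hH, eval_mul, eval_C, eval_sub, hP, hQ, eval_mul, eval_C, eval_map, eval_map,
      ← aeval_def, ← aeval_def, hcov, sub_self, mul_zero]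

/-- **W4, FIN case** (`w = j`), subring form. -/
theorem s34_cover_chart_core_fin {Λ K 𝔽 : Type*} [CommRing Λ] [IsDomain Λ]
    [IsDiscreteValuationRing Λ] [Field K] [CharZero K] [Algebra Λ K] [IsFractionRing Λ K]
    [Field 𝔽] [Algebra K 𝔽] [Algebra Λ 𝔽] [IsScalarTower Λ K 𝔽]
    (π : Λ) (hπ : Irreducible π)
    (Ng Dg : Λ[X]) (hdeg : Dg.natDegree < Ng.natDegree) (hlead : IsUnit Ng.leadingCoeff)
    (hcop : IsCoprime Ng Dg)
    (C C' : Finset Λ) (hC : ∀ c ∈ C, ∀ c' ∈ C, c ≠ c' → ¬ π ∣ c - c')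
    (hC' : ∀ c ∈ C', ∀ c' ∈ C', c ≠ c' → ¬ π ∣ c - c')
    (x j : 𝔽) (hx : Transcendental K x) [FiniteDimensional K⟮x⟯ 𝔽]
    (hcov : aeval x Ng = j * aeval x Dg)
    (hB1 : HasIntegralDualBasis (gaussSub π hπ.prime x) K⟮x⟯ 𝔽)
    (hB2 : UnramAway K x ((algebraMap Λ K) '' (C : Set Λ)))
    (hB2' : UnramAway K x⁻¹ ((algebraMap Λ K) '' (C' : Set Λ)))
    (S₀ : Subring 𝔽) (hS₀ : ∀ z : 𝔽, z ∈ S₀ ↔ IsIntegral (Algebra.adjoin Λ {j}) z)
    (hπS : algebraMap Λ 𝔽 π ∈ S₀) (𝔐 : Ideal S₀) (h𝔐 : 𝔐.IsMaximal)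
    (hπ𝔐 : (⟨algebraMap Λ 𝔽 π, hπS⟩ : S₀) ∈ 𝔐) (hres : Finite (S₀ ⧸ 𝔐)) :
    ∃ u : S₀, ModelLocGen (Ideal.span {(⟨algebraMap Λ 𝔽 π, hπS⟩ : S₀)}) 𝔐 u := by
  have hΛS : ∀ c : Λ, algebraMap Λ 𝔽 c ∈ S₀ := s34cc_algebraMap_mem j S₀ hS₀
  have hclosed : ∀ H : 𝔽[X], H.Monic → (∀ i, H.coeff i ∈ S₀) → ∀ z : 𝔽, H.eval z = 0 → z ∈ S₀ :=
    s34cc_closed j S₀ hS₀
  -- `x` and `j` lie in `S₀`
  have hxS : x ∈ S₀ := (hS₀ x).mpr (s34ccf_isIntegral_x Ng Dg hdeg hlead x j hcov)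
  have hjS : j ∈ S₀ := (hS₀ j).mpr
    (isIntegral_algebraMap (R := Algebra.adjoin Λ {j})
      (x := ⟨j, Algebra.subset_adjoin (Set.mem_singleton j)⟩))
  -- Bezout
  obtain ⟨a, b, hab⟩ := hcop
  set e : 𝔽 := aeval x a * j + aeval x b with he_def
  have he : e ∈ S₀ :=
    S₀.add_mem (S₀.mul_mem (s34cc_aeval_mem S₀ hΛS hxS a) hjS) (s34cc_aeval_mem S₀ hΛS hxS b)
  have hDe : aeval x Dg * e = 1 := by
    have h1 : aeval x (a * Ng + b * Dg) = (1 : 𝔽) := by rw [hab, map_one]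
    rw [map_add, map_mul, map_mul, hcov] at h1
    rw [he_def, ← h1]
    ring
  have hte : x * e ∈ S₀ := S₀.mul_mem hxS he
  have hDS : aeval x Dg ∈ S₀ := s34cc_aeval_mem S₀ hΛS hxS Dg
  have hscale : ∀ z ∈ S₀, ∃ k : ℕ, IsIntegral (Algebra.adjoin Λ {x}) (aeval x Dg ^ k * z) := by
    intro z hz
    refine s34cc_scale_adjoin x j (aeval x Dg) (aeval_mem_adjoin_singleton Λ x) ?_
      ((hS₀ z).mp hz)
    rw [← hcov]
    exact aeval_mem_adjoin_singleton Λ x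
  have he𝔐 : (⟨e, he⟩ : S₀) ∉ 𝔐 := by
    intro hmem
    have h1 : (⟨aeval x Dg, hDS⟩ : S₀) * ⟨e, he⟩ = 1 := Subtype.ext hDe
    have h2 : (1 : S₀) ∈ 𝔐 := by
      rw [← h1]; exact 𝔐.mul_mem_left _ hmem
    exact h𝔐.ne_top ((Ideal.eq_top_iff_one _).mpr h2)
  exact s34cc_chart_x π hπ C hC x hx hB1 hB2 S₀ hΛS hclosed Dg e he hte hDe hscale 𝔐 h𝔐 he𝔐
    hπ𝔐 hres

end Fermat.Agent.S34
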