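import Mathlib

set_option autoImplicit false
namespace Fermat.Agent.S34
open Polynomial

/-! Degree-bounded Bezout identity and integrality of `x ^ i / N(x)` over `Λ[v]`
where `v = D(x) / N(x)`. -/

theorem s34cc_bezout_deg {Λ : Type*} [CommRing Λ] [IsDomain Λ] (Ng Dg : Λ[X])
    (hdeg : Dg.natDegree < Ng.natDegree) (hlead : IsUnit Ng.leadingCoeff)
    (hcop : IsCoprime Ng Dg) (F : Λ[X]) (hF : F.natDegree ≤ 2 * Ng.natDegree) :
    ∃ A B : Λ[X], A.natDegree ≤ Ng.natDegree ∧ B.natDegree ≤ Ng.natDegree ∧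
      F = A * Ng + B * Dg := by
  obtain ⟨a, b, hab⟩ := hcop
  have hmon : Monic (C (↑(hlead.unit⁻¹) : Λ) * Ng) := by
    have h := Polynomial.monic_of_isUnit_leadingCoeff_inv_smul hlead
    rwa [Units.smul_def, Polynomial.smul_eq_C_mul] at h
  have hu0 : (↑(hlead.unit⁻¹) : Λ) ≠ 0 := Units.ne_zero _
  have hdeg' : (C (↑(hlead.unit⁻¹) : Λ) * Ng).natDegree = Ng.natDegree :=
    Polynomial.natDegree_C_mul hu0
  have hne1 : C (↑(hlead.unit⁻¹) : Λ) * Ng ≠ 1 := by
    intro h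
    have h2 := hdeg'
    rw [h, natDegree_one] at h2
    omega
  have hdiv := Polynomial.modByMonic_add_div (F * b) (C (↑(hlead.unit⁻¹) : Λ) * Ng)
  have hr := Polynomial.natDegree_modByMonic_lt (F * b) hmon hne1
  rw [hdeg'] at hr
  set r := (F * b) %ₘ (C (↑(hlead.unit⁻¹) : Λ) * Ng) with hrdef
  set q := (F * b) /ₘ (C (↑(hlead.unit⁻¹) : Λ) * Ng) with hqdef
  have hEq : F = (F * a + C (↑(hlead.unit⁻¹) : Λ) * q * Dg) * Ng + r * Dg := by
    linear_combination (-F) * hab - Dg * hdiv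
  refine ⟨F * a + C (↑(hlead.unit⁻¹) : Λ) * q * Dg, r, ?_, hr.le, hEq⟩
  by_cases hA : F * a + C (↑(hlead.unit⁻¹) : Λ) * q * Dg = 0
  · rw [hA, natDegree_zero]; exact Nat.zero_le _
  · have hNg0 : Ng ≠ 0 := by
      intro h
      rw [h, natDegree_zero] at hdeg
      omega
    have h1 : ((F * a + C (↑(hlead.unit⁻¹) : Λ) * q * Dg) * Ng).natDegree =
        (F * a + C (↑(hlead.unit⁻¹) : Λ) * q * Dg).natDegree + Ng.natDegree :=
      Polynomial.natDegree_mul hA hNg0
    have h2 : (F * a + C (↑(hlead.unit⁻¹) : Λ) * q * Dg) * Ng = F - r * Dg := by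
      linear_combination hEq.symm
    have h3 : (F - r * Dg).natDegree ≤ 2 * Ng.natDegree := by
      refine (Polynomial.natDegree_sub_le _ _).trans (max_le hF ?_)
      refine (Polynomial.natDegree_mul_le).trans ?_
      omega
    rw [h2] at h1
    omega

theorem s34ccE_aeval_div_mem {Λ 𝔽 : Type*} [CommRing Λ] [Field 𝔽] [Algebra Λ 𝔽]
    (Ng : Λ[X]) (x v : 𝔽) (P : Λ[X]) (hP : P.natDegree ≤ Ng.natDegree) :
    aeval x P / aeval x Ng ∈
      Submodule.span (Algebra.adjoin Λ {v})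
        (Set.range fun l : Fin (Ng.natDegree + 1) => x ^ (l : ℕ) / aeval x Ng) := by
  rw [Polynomial.aeval_eq_sum_range' (Nat.lt_succ_of_le hP) x, Finset.sum_div]
  refine Submodule.sum_mem _ ?_
  intro l hl
  have hl' : l < Ng.natDegree + 1 := Finset.mem_range.mp hl
  have h1 : P.coeff l • x ^ l / aeval x Ng =
      (algebraMap Λ (Algebra.adjoin Λ {v}) (P.coeff l)) • (x ^ l / aeval x Ng) := by
    rw [algebraMap_smul, smul_div_assoc]
  rw [h1]
  exact Submodule.smul_mem _ _ (Submodule.subset_span ⟨⟨l, hl'⟩, rfl⟩)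

theorem s34cc_isIntegral_pow_div {Λ 𝔽 : Type*} [CommRing Λ] [IsDomain Λ] [Field 𝔽] [Algebra Λ 𝔽]
    (Ng Dg : Λ[X]) (hdeg : Dg.natDegree < Ng.natDegree) (hlead : IsUnit Ng.leadingCoeff)
    (hcop : IsCoprime Ng Dg) (x v : 𝔽) (hN : aeval x Ng ≠ 0)
    (hv : v * aeval x Ng = aeval x Dg) (i : ℕ) (hi : i ≤ Ng.natDegree) :
    IsIntegral (Algebra.adjoin Λ {v}) (x ^ i / aeval x Ng) := by
  have hmemP := s34ccE_aeval_div_mem (Λ := Λ) (𝔽 := 𝔽) Ng x v
  set N : Submodule (Algebra.adjoin Λ {v}) 𝔽 :=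
    Submodule.span (Algebra.adjoin Λ {v})
      (Set.range fun l : Fin (Ng.natDegree + 1) => x ^ (l : ℕ) / aeval x Ng) with hNdef
  have h1mem : (1 : 𝔽) ∈ N := by
    have h := hmemP Ng le_rfl
    rwa [div_self hN] at h
  have hNbot : N ≠ ⊥ := by
    intro h
    rw [h, Submodule.mem_bot] at h1mem
    exact one_ne_zero h1mem
  have hNfg : N.FG := Submodule.fg_span (Set.finite_range _)
  have hgen : ∀ l : ℕ, l ≤ Ng.natDegree →
      (x ^ i / aeval x Ng) * (x ^ l / aeval x Ng) ∈ N := by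
    intro l hl
    obtain ⟨A, B, hA, hB, hAB⟩ := s34cc_bezout_deg Ng Dg hdeg hlead hcop (X ^ (i + l))
      (by rw [natDegree_X_pow]; omega)
    have hev := congrArg (aeval x) hAB
    simp only [map_pow, aeval_X, map_add, map_mul] at hev
    rw [← hv] at hev
    have hkey : (x ^ i / aeval x Ng) * (x ^ l / aeval x Ng) =
        aeval x A / aeval x Ng +
          (⟨v, Algebra.subset_adjoin (Set.mem_singleton v)⟩ : Algebra.adjoin Λ {v}) •
            (aeval x B / aeval x Ng) := by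
      rw [Subalgebra.smul_def]
      simp only [smul_eq_mul]
      rw [div_mul_div_comm, ← pow_add, hev]
      field_simp
    rw [hkey]
    exact N.add_mem (hmemP A hA) (N.smul_mem _ (hmemP B hB))
  refine isIntegral_of_smul_mem_submodule N hNbot hNfg (x ^ i / aeval x Ng) ?_
  intro m hm
  induction hm using Submodule.span_induction with
  | mem y hy =>
    obtain ⟨l, rfl⟩ := hy
    exact hgen l (Nat.lt_succ_iff.mp l.2)
  | zero => rw [smul_zero]; exact N.zero_mem
  | add y z _ _ hy hz => rw [smul_add]; exact N.add_mem hy hz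
  | smul r y _ hy =>
    rw [smul_comm]
    exact N.smul_mem r hy


end Fermat.Agent.S34
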