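import Mathlib
import Fermat.Agent.S34.CoverChartCore
import Fermat.Agent.S34.CoverChartE

/-!
P19 (S34), block MODEL-M, leaf W4 (INF case): the chart ring `S₀` = integral closure of
`Λ[j⁻¹]` in the cover field `𝔽 ⊇ K(x)`, `j = Ng(x) / Dg(x)`, has a local generator of the
special fibre at every closed point with finite residue field.

Route (note 879): `eᵢ := xⁱ / Ng(x) ∈ S₀` for `i ≤ n = deg Ng` (`s34cc_isIntegral_pow_div`),
`Σ nᵢ eᵢ = 1` and `eᵢⁿ = e₀ⁿ⁻ⁱ eₙⁱ`, so `e₀ ∉ 𝔐` or `eₙ ∉ 𝔐`.  If `e₀ ∉ 𝔐`: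
`S₀[1/e₀] = C_x[1/Ng(x)]` and the chart-`x` core applies with `D := Ng`; if `eₙ ∉ 𝔐`:
`S₀[1/eₙ] = C_{1/x}[1/Ng^rev(1/x)]` and the chart-`x⁻¹` core applies with `D := Ng.reflect n`.
-/

set_option autoImplicit false

namespace Fermat.Agent.S34

open Polynomial IntermediateField Fermat.Agent.S18

/-- (W4), case `w = j⁻¹`, `Subring` form. -/
theorem s34_cover_chart_core_inf {Λ K 𝔽 : Type*} [CommRing Λ] [IsDomain Λ]
    [IsDiscreteValuationRing Λ] [Field K] [CharZero K] [Algebra Λ K] [IsFractionRing Λ K]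
    [Field 𝔽] [Algebra K 𝔽] [Algebra Λ 𝔽] [IsScalarTower Λ K 𝔽]
    (π : Λ) (hπ : Irreducible π)
    (Ng Dg : Λ[X]) (hdeg : Dg.natDegree < Ng.natDegree) (hlead : IsUnit Ng.leadingCoeff)
    (hcop : IsCoprime Ng Dg)
    (C C' : Finset Λ) (hC : ∀ c ∈ C, ∀ c' ∈ C, c ≠ c' → ¬ π ∣ c - c')
    (hC' : ∀ c ∈ C', ∀ c' ∈ C', c ≠ c' → ¬ π ∣ c - c')
    (x j : 𝔽) (hx : Transcendental K x) [FiniteDimensional K⟮x⟯ 𝔽]
    (hcov : aeval x Ng = j * aeval x Dg)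
    (hB1 : HasIntegralDualBasis (gaussSub π hπ.prime x) K⟮x⟯ 𝔽)
    (hB2 : UnramAway K x ((algebraMap Λ K) '' (C : Set Λ)))
    (hB2' : UnramAway K x⁻¹ ((algebraMap Λ K) '' (C' : Set Λ)))
    (S₀ : Subring 𝔽) (hS₀ : ∀ z : 𝔽, z ∈ S₀ ↔ IsIntegral (Algebra.adjoin Λ {j⁻¹}) z)
    (hπS : algebraMap Λ 𝔽 π ∈ S₀) (𝔐 : Ideal S₀) (h𝔐 : 𝔐.IsMaximal)
    (hπ𝔐 : (⟨algebraMap Λ 𝔽 π, hπS⟩ : S₀) ∈ 𝔐) (hres : Finite (S₀ ⧸ 𝔐)) :
    ∃ u : S₀, ModelLocGen (Ideal.span {(⟨algebraMap Λ 𝔽 π, hπS⟩ : S₀)}) 𝔐 u := by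
  classical
  have hΛS : ∀ c : Λ, algebraMap Λ 𝔽 c ∈ S₀ := s34cc_algebraMap_mem j⁻¹ S₀ hS₀
  have hclosed : ∀ H : 𝔽[X], H.Monic → (∀ i, H.coeff i ∈ S₀) → ∀ z : 𝔽, H.eval z = 0 → z ∈ S₀ :=
    s34cc_closed j⁻¹ S₀ hS₀
  have htΛ : Transcendental Λ x := GaussLineK.transcendental_of_fraction hx
  have hNg0 : Ng ≠ 0 := by
    intro h0
    rw [h0, leadingCoeff_zero] at hlead
    exact not_isUnit_zero hlead
  have hNx : aeval x Ng ≠ 0 := fun h => hNg0 (transcendental_iff.mp htΛ Ng h)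
  have hx0 : x ≠ 0 := by
    intro h0
    have h1 : aeval x (X : Λ[X]) = 0 := by rw [aeval_X, h0]
    exact X_ne_zero (transcendental_iff.mp htΛ X h1)
  have hj0 : j ≠ 0 := by
    rintro rfl
    rw [zero_mul] at hcov
    exact hNx hcov
  have hv : j⁻¹ * aeval x Ng = aeval x Dg := by
    rw [hcov, ← mul_assoc, inv_mul_cancel₀ hj0, one_mul]
  have hn1 : 1 ≤ Ng.natDegree := by omega
  -- the elements `eᵢ`
  have he : ∀ i, i ≤ Ng.natDegree → x ^ i / aeval x Ng ∈ S₀ := fun i hi =>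
    (hS₀ _).2 (s34cc_isIntegral_pow_div Ng Dg hdeg hlead hcop x j⁻¹ hNx hv i hi)
  have hsum : ∑ i ∈ Finset.range (Ng.natDegree + 1),
      algebraMap Λ 𝔽 (Ng.coeff i) * (x ^ i / aeval x Ng) = 1 := by
    have h2 : aeval x Ng = ∑ i ∈ Finset.range (Ng.natDegree + 1), Ng.coeff i • x ^ i :=
      aeval_eq_sum_range' (Nat.lt_succ_self _) x
    have h3 : ∑ i ∈ Finset.range (Ng.natDegree + 1),
        algebraMap Λ 𝔽 (Ng.coeff i) * (x ^ i / aeval x Ng) =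
        (∑ i ∈ Finset.range (Ng.natDegree + 1), Ng.coeff i • x ^ i) / aeval x Ng := by
      rw [Finset.sum_div]
      refine Finset.sum_congr rfl fun i _ => ?_
      rw [Algebra.smul_def, mul_div_assoc]
    rw [h3, ← h2, div_self hNx]
  -- `e₀ ∉ 𝔐` or `eₙ ∉ 𝔐`
  have hdich : (⟨x ^ 0 / aeval x Ng, he 0 (Nat.zero_le _)⟩ : S₀) ∉ 𝔐 ∨
      (⟨x ^ Ng.natDegree / aeval x Ng, he _ le_rfl⟩ : S₀) ∉ 𝔐 := by
    by_contra hcon
    push Not at hcon
    obtain ⟨h0, hnn⟩ := hcon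
    have hprime := h𝔐.isPrime
    have hall : ∀ i (hi : i ≤ Ng.natDegree), (⟨x ^ i / aeval x Ng, he i hi⟩ : S₀) ∈ 𝔐 := by
      intro i hi
      rcases Nat.lt_or_ge i Ng.natDegree with hlt | hge
      · apply hprime.mem_of_pow_mem Ng.natDegree
        have h1 : (⟨x ^ i / aeval x Ng, he i hi⟩ : S₀) ^ Ng.natDegree =
            (⟨x ^ 0 / aeval x Ng, he 0 (Nat.zero_le _)⟩ : S₀) ^ (Ng.natDegree - i) *
              (⟨x ^ Ng.natDegree / aeval x Ng, he _ le_rfl⟩ : S₀) ^ i := by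
          apply Subtype.ext
          simp only [Subring.coe_pow, Subring.coe_mul]
          rw [pow_zero, div_pow, div_pow, div_pow, one_pow, ← pow_mul, ← pow_mul,
            div_mul_div_comm, one_mul, ← pow_add, mul_comm Ng.natDegree i]
          congr 2
          omega
        rw [h1]
        exact 𝔐.mul_mem_right _ (Ideal.pow_mem_of_mem 𝔐 h0 _ (by omega))
      · have hin : i = Ng.natDegree := le_antisymm hi hge
        subst hin
        exact hnn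
    -- `1 = Σ nᵢ eᵢ ∈ 𝔐`
    let g : ℕ → S₀ := fun i => if hi : i ≤ Ng.natDegree then
      (⟨algebraMap Λ 𝔽 (Ng.coeff i), hΛS _⟩ : S₀) * ⟨x ^ i / aeval x Ng, he i hi⟩ else 0
    have hg𝔐 : ∑ i ∈ Finset.range (Ng.natDegree + 1), g i ∈ 𝔐 := by
      refine 𝔐.sum_mem fun i _ => ?_
      by_cases hi : i ≤ Ng.natDegree
      · simp only [g, dif_pos hi]
        exact 𝔐.mul_mem_left _ (hall i hi)
      · simp only [g, dif_neg hi]
        exact 𝔐.zero_mem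
    have hg1 : ∑ i ∈ Finset.range (Ng.natDegree + 1), g i = 1 := by
      apply Subtype.ext
      rw [AddSubmonoidClass.coe_finsetSum, Subring.coe_one, ← hsum]
      refine Finset.sum_congr rfl fun i hi => ?_
      have hi' : i ≤ Ng.natDegree := Nat.lt_succ_iff.mp (Finset.mem_range.mp hi)
      simp only [g, dif_pos hi', Subring.coe_mul]
    rw [hg1] at hg𝔐
    exact h𝔐.ne_top ((Ideal.eq_top_iff_one _).mpr hg𝔐)
  rcases hdich with h0 | hnn
  · -- chart `x`, `D := Ng`, `e := e₀`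
    refine s34cc_chart_x π hπ C hC x hx hB1 hB2 S₀ hΛS hclosed Ng (x ^ 0 / aeval x Ng)
      (he 0 (Nat.zero_le _)) ?_ ?_ ?_ 𝔐 h𝔐 h0 hπ𝔐 hres
    · have h1 : x * (x ^ 0 / aeval x Ng) = x ^ 1 / aeval x Ng := by
        rw [pow_zero, pow_one, mul_one_div]
      rw [h1]
      exact he 1 hn1
    · rw [pow_zero, mul_one_div, div_self hNx]
    · intro z hz
      refine s34cc_scale_adjoin x j⁻¹ (aeval x Ng) (aeval_mem_adjoin_singleton Λ x) ?_
        ((hS₀ z).1 hz)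
      rw [hv]
      exact aeval_mem_adjoin_singleton Λ x
  · -- chart `x⁻¹`, `D := Ng.reflect n`, `e := eₙ`
    have hxn : x ^ Ng.natDegree ≠ 0 := pow_ne_zero _ hx0
    have hinvN : aeval x⁻¹ (Ng.reflect Ng.natDegree) * x ^ Ng.natDegree = aeval x Ng := by
      let _ : Invertible x := invertibleOfNonzero hx0
      have h1 := eval₂_reflect_mul_pow (algebraMap Λ 𝔽) x Ng.natDegree Ng le_rfl
      rwa [invOf_eq_inv] at h1
    have hinvD : aeval x⁻¹ (Dg.reflect Ng.natDegree) * x ^ Ng.natDegree = aeval x Dg := by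
      let _ : Invertible x := invertibleOfNonzero hx0
      have h1 := eval₂_reflect_mul_pow (algebraMap Λ 𝔽) x Ng.natDegree Dg hdeg.le
      rwa [invOf_eq_inv] at h1
    have e1 : aeval x⁻¹ (Ng.reflect Ng.natDegree) = aeval x Ng / x ^ Ng.natDegree := by
      rw [← hinvN, mul_div_cancel_right₀ _ hxn]
    have e2 : aeval x⁻¹ (Dg.reflect Ng.natDegree) = aeval x Dg / x ^ Ng.natDegree := by
      rw [← hinvD, mul_div_cancel_right₀ _ hxn]
    refine s34cc_chart_inv π hπ C' hC' x hx hB1 hB2' S₀ hΛS hclosed (Ng.reflect Ng.natDegree)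
      (x ^ Ng.natDegree / aeval x Ng) (he _ le_rfl) ?_ ?_ ?_ 𝔐 h𝔐 hnn hπ𝔐 hres
    · have h1 : x⁻¹ * (x ^ Ng.natDegree / aeval x Ng) = x ^ (Ng.natDegree - 1) / aeval x Ng := by
        obtain ⟨m, hm⟩ : ∃ m, Ng.natDegree = m + 1 := ⟨Ng.natDegree - 1, by omega⟩
        rw [hm, Nat.add_sub_cancel, pow_succ, ← mul_div_assoc, ← mul_assoc, mul_comm x⁻¹,
          mul_assoc, inv_mul_cancel₀ hx0, mul_one]
      rw [h1]
      exact he _ (Nat.sub_le _ _)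
    · rw [e1, div_mul_div_comm, mul_comm, div_self (mul_ne_zero hxn hNx)]
    · intro z hz
      refine s34cc_scale_adjoin x⁻¹ j⁻¹ (aeval x⁻¹ (Ng.reflect Ng.natDegree))
        (aeval_mem_adjoin_singleton Λ x⁻¹) ?_ ((hS₀ z).1 hz)
      have h1 : j⁻¹ * aeval x⁻¹ (Ng.reflect Ng.natDegree) =
          aeval x⁻¹ (Dg.reflect Ng.natDegree) := by
        rw [e1, e2, ← mul_div_assoc, hv]
      rw [h1]
      exact aeval_mem_adjoin_singleton Λ x⁻¹

end Fermat.Agent.S34
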