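import Mathlib
import Fermat.Agent.S34.CoverChartFin
import Fermat.Agent.S34.CoverChartInf

/-!
P19 (S34), block MODEL-M, W4 (note 869): local generators of the special fibre on the chart
rings of the cover.

`𝔽` the cover field (finite over `K(x)`, S18 engine data (B1), (B2) for the two charts `x`,
`x⁻¹`), `j = Ng(x) / Dg(x)` the cover relation.  For `w = j` and `w = j⁻¹`, every maximal ideal
`𝔐 ∋ π` with finite residue field of the integral closure of `Λ[w]` in `𝔽` has a local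
generator modulo `π` (`ModelLocGen (π) 𝔐 u`).

* `s34_cover_chart_core` : `Subring` form (`S₀` = the integral closure of `Λ[w]`);
* `s34_cover_chart_locGen` : `integralClosure` form (pinned statement of note 869).

The two cases are `s34_cover_chart_core_fin` (`w = j`: `S₀ = C_x[1/Dg(x)]`) and
`s34_cover_chart_core_inf` (`w = j⁻¹`: `S₀[1/e₀] = C_x[1/Ng(x)]`,
`S₀[1/eₙ] = C_{1/x}[1/Ng^rev(1/x)]`, `eᵢ = xⁱ / Ng(x)`), both through the chart lemma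
`s34cc_chart` (E1 `model_fibre_locGen` + descent).
-/

set_option autoImplicit false

namespace Fermat.Agent.S34

open Polynomial IntermediateField Fermat.Agent.S18

/-- (W4), `Subring` form. -/
theorem s34_cover_chart_core {Λ K 𝔽 : Type*} [CommRing Λ] [IsDomain Λ]
    [IsDiscreteValuationRing Λ] [Field K] [CharZero K] [Algebra Λ K] [IsFractionRing Λ K]
    [Field 𝔽] [Algebra K 𝔽] [Algebra Λ 𝔽] [IsScalarTower Λ K 𝔽]
    (π : Λ) (hπ : Irreducible π)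
    (Ng Dg : Λ[X]) (hdeg : Dg.natDegree < Ng.natDegree) (hlead : IsUnit Ng.leadingCoeff)
    (hcop : IsCoprime Ng Dg)
    (C C' : Finset Λ) (hC : ∀ c ∈ C, ∀ c' ∈ C, c ≠ c' → ¬ π ∣ c - c')
    (hC' : ∀ c ∈ C', ∀ c' ∈ C', c ≠ c' → ¬ π ∣ c - c')
    (x j : 𝔽) (hx : Transcendental K x) [FiniteDimensional K⟮x⟯ 𝔽]
    (hcov : aeval x Ng = j * aeval x Dg)
    (hB1 : HasIntegralDualBasis (gaussSub π hπ.prime x) K⟮x⟯ 𝔽)
    (hB2 : UnramAway K x ((algebraMap Λ K) '' (C : Set Λ)))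
    (hB2' : UnramAway K x⁻¹ ((algebraMap Λ K) '' (C' : Set Λ)))
    (w : 𝔽) (hw : w = j ∨ w = j⁻¹)
    (S₀ : Subring 𝔽) (hS₀ : ∀ z : 𝔽, z ∈ S₀ ↔ IsIntegral (Algebra.adjoin Λ {w}) z)
    (hπS : algebraMap Λ 𝔽 π ∈ S₀) (𝔐 : Ideal S₀) (h𝔐 : 𝔐.IsMaximal)
    (hπ𝔐 : (⟨algebraMap Λ 𝔽 π, hπS⟩ : S₀) ∈ 𝔐) (hres : Finite (S₀ ⧸ 𝔐)) :
    ∃ u : S₀, ModelLocGen (Ideal.span {(⟨algebraMap Λ 𝔽 π, hπS⟩ : S₀)}) 𝔐 u := by
  rcases hw with rfl | rfl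
  · exact s34_cover_chart_core_fin π hπ Ng Dg hdeg hlead hcop C C' hC hC' x w hx hcov hB1 hB2
      hB2' S₀ hS₀ hπS 𝔐 h𝔐 hπ𝔐 hres
  · exact s34_cover_chart_core_inf π hπ Ng Dg hdeg hlead hcop C C' hC hC' x j hx hcov hB1 hB2
      hB2' S₀ hS₀ hπS 𝔐 h𝔐 hπ𝔐 hres

/-- (W4) **cover chart rings**: for `w = j` and `w = j⁻¹`, every maximal ideal `𝔐 ∋ π` with
finite residue field of the integral closure of `Λ[w]` in the cover field `𝔽` has a local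
generator modulo `π`. -/
theorem s34_cover_chart_locGen {Λ K 𝔽 : Type*} [CommRing Λ] [IsDomain Λ]
    [IsDiscreteValuationRing Λ] [Field K] [CharZero K] [Algebra Λ K] [IsFractionRing Λ K]
    [Field 𝔽] [Algebra K 𝔽] [Algebra Λ 𝔽] [IsScalarTower Λ K 𝔽]
    (π : Λ) (hπ : Irreducible π)
    (Ng Dg : Λ[X]) (hdeg : Dg.natDegree < Ng.natDegree) (hlead : IsUnit Ng.leadingCoeff)
    (hcop : IsCoprime Ng Dg)
    (C C' : Finset Λ) (hC : ∀ c ∈ C, ∀ c' ∈ C, c ≠ c' → ¬ π ∣ c - c')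
    (hC' : ∀ c ∈ C', ∀ c' ∈ C', c ≠ c' → ¬ π ∣ c - c')
    (x j : 𝔽) (hx : Transcendental K x) [FiniteDimensional K⟮x⟯ 𝔽]
    (hcov : aeval x Ng = j * aeval x Dg)
    (hB1 : HasIntegralDualBasis (gaussSub π hπ.prime x) K⟮x⟯ 𝔽)
    (hB2 : UnramAway K x ((algebraMap Λ K) '' (C : Set Λ)))
    (hB2' : UnramAway K x⁻¹ ((algebraMap Λ K) '' (C' : Set Λ)))
    (w : 𝔽) (hw : w = j ∨ w = j⁻¹)
    (𝔐 : Ideal ↥(integralClosure ↥(Algebra.adjoin Λ {w}) 𝔽)) (h𝔐 : 𝔐.IsMaximal)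
    (hπ𝔐 : algebraMap Λ ↥(integralClosure ↥(Algebra.adjoin Λ {w}) 𝔽) π ∈ 𝔐)
    (hres : Finite (↥(integralClosure ↥(Algebra.adjoin Λ {w}) 𝔽) ⧸ 𝔐)) :
    ∃ u : ↥(integralClosure ↥(Algebra.adjoin Λ {w}) 𝔽),
      ModelLocGen (Ideal.span {algebraMap Λ ↥(integralClosure ↥(Algebra.adjoin Λ {w}) 𝔽) π})
        𝔐 u := by
  have hπS : algebraMap Λ 𝔽 π ∈ (integralClosure ↥(Algebra.adjoin Λ {w}) 𝔽).toSubring :=
    (algebraMap Λ ↥(integralClosure ↥(Algebra.adjoin Λ {w}) 𝔽) π).2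
  exact s34_cover_chart_core π hπ Ng Dg hdeg hlead hcop C C' hC hC' x j hx hcov hB1 hB2 hB2' w hw
    (integralClosure ↥(Algebra.adjoin Λ {w}) 𝔽).toSubring (fun z => Iff.rfl) hπS 𝔐 h𝔐 hπ𝔐 hres

end Fermat.Agent.S34
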