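import Mathlib
import Fermat.Agent.S18.ModelDefs

/-!
# P19 (S34), MODEL-M, lemma L0: `s34_constField_eq`

`L` an algebraic closure of `ℚ`, `Ω ⊇ L`, `T ⊆ Ω`.  If `K₁` contains the constant field
`K_a = constField K₀ T = L ∩ genField K₀ T`, then `constField K₁ T = K₁`: enlarging the constants
to a field containing the field of constants does not create new constants.

Proof.  `E := genField K₀ T`.  For `θ ∈ L` the minimal polynomial of `θ` over `K_a` and of `θ`
over `E` have the same degree (a monic factor over `E` of a polynomial split in `L` has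
coefficients in `L ∩ E = K_a`).  Hence, by a degree count with primitive elements, an element
`c ∈ L` lying in `E(θ)` lies in `K_a(θ)`.  Finally every element of `genField K₁ T` lies in
`E(θ)` for some `θ ∈ K₁`.
-/

set_option autoImplicit false
set_option linter.style.haveILetI false

namespace Fermat.Agent.S34

open Polynomial IntermediateField
open Fermat.Agent.S18.Model

section ConstFieldEq

variable {L Ω : Type*} [Field L] [Algebra ℚ L] [Field Ω] [Algebra L Ω]

/-- evaluation of a polynomial over the constant field at a constant, inside `Ω`. -/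
theorem s34cf_aeval_map (K₀ : IntermediateField ℚ L) (T : Set Ω)
    (p : (↥(constField K₀ T))[X]) (θ : L) :
    aeval (algebraMap L Ω θ)
        (p.map (algebraMap ↥(constField K₀ T) ↥(genField K₀ T))) =
      algebraMap L Ω (aeval θ p) := by
  have h1 : (algebraMap ↥(genField K₀ T) Ω).comp
      (algebraMap ↥(constField K₀ T) ↥(genField K₀ T)) =
      (algebraMap L Ω).comp (algebraMap ↥(constField K₀ T) L) := by
    ext c
    rfl
  rw [aeval_def, eval₂_map, h1, aeval_def, hom_eval₂]

/-- **Degrees of minimal polynomials do not drop** from the constant field `K_a` to `E`. -/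
theorem s34cf_natDegree_minpoly [IsAlgClosed L] [Algebra.IsAlgebraic ℚ L]
    (K₀ : IntermediateField ℚ L) (T : Set Ω) (θ : L) :
    IsIntegral ↥(genField K₀ T) (algebraMap L Ω θ) ∧
    (minpoly ↥(genField K₀ T) (algebraMap L Ω θ)).natDegree =
      (minpoly ↥(constField K₀ T) θ).natDegree := by
  have hθ : IsIntegral ↥(constField K₀ T) θ :=
    (Algebra.IsIntegral.isIntegral (R := ℚ) θ).tower_top
  set f := minpoly ↥(constField K₀ T) θ with hf
  have hfm : f.Monic := minpoly.monic hθ
  set φ := algebraMap ↥(constField K₀ T) ↥(genField K₀ T) with hφ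
  have hroot : aeval (algebraMap L Ω θ) (f.map φ) = 0 := by
    rw [s34cf_aeval_map, hf, minpoly.aeval, map_zero]
  have hint : IsIntegral ↥(genField K₀ T) (algebraMap L Ω θ) := ⟨f.map φ, hfm.map φ, hroot⟩
  refine ⟨hint, ?_⟩
  set g := minpoly ↥(genField K₀ T) (algebraMap L Ω θ) with hg
  have hgm : g.Monic := minpoly.monic hint
  have hdvd : g ∣ f.map φ := minpoly.dvd _ _ hroot
  apply le_antisymm
  · have := natDegree_le_of_dvd hdvd (hfm.map φ).ne_zero
    rwa [hfm.natDegree_map] at this
  · -- the coefficients of `g` are constants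
    have hsplitL : (f.map (algebraMap ↥(constField K₀ T) L)).Splits := IsAlgClosed.splits _
    have hmapΩ : (f.map φ).map (algebraMap ↥(genField K₀ T) Ω) =
        (f.map (algebraMap ↥(constField K₀ T) L)).map (algebraMap L Ω) := by
      rw [Polynomial.map_map, Polynomial.map_map]
      congr 1
    have hsplitΩ : ((f.map φ).map (algebraMap ↥(genField K₀ T) Ω)).Splits := by
      rw [hmapΩ]
      exact hsplitL.map (algebraMap L Ω)
    have hdvdΩ : g.map (algebraMap ↥(genField K₀ T) Ω) ∣
        (f.map φ).map (algebraMap ↥(genField K₀ T) Ω) := Polynomial.map_dvd _ hdvd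
    have hgsplit : (g.map (algebraMap ↥(genField K₀ T) Ω)).Splits :=
      Polynomial.Splits.of_dvd hsplitΩ
        (Polynomial.map_ne_zero ((hfm.map φ).ne_zero)) hdvdΩ
    -- roots of `g` lie in the image of `L`
    have hroots : ∀ r ∈ (g.map (algebraMap ↥(genField K₀ T) Ω)).roots,
        r ∈ Set.range (algebraMap L Ω) := by
      intro r hr
      have hr' : r ∈ ((f.map (algebraMap ↥(constField K₀ T) L)).map (algebraMap L Ω)).roots := by
        rw [← hmapΩ]
        exact Multiset.mem_of_le
          (Polynomial.roots.le_of_dvd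
            (Polynomial.map_ne_zero ((hfm.map φ).ne_zero)) hdvdΩ) hr
      rw [hsplitL.roots_map, Multiset.mem_map] at hr'
      obtain ⟨a, -, rfl⟩ := hr'
      exact ⟨a, rfl⟩
    have hlift : g.map (algebraMap ↥(genField K₀ T) Ω) ∈ Polynomial.lifts (algebraMap L Ω) := by
      rw [hgsplit.eq_prod_roots_of_monic (hgm.map _)]
      refine Subsemiring.multiset_prod_mem _ _ ?_
      intro p hp
      rw [Multiset.mem_map] at hp
      obtain ⟨r, hr, rfl⟩ := hp
      obtain ⟨a, rfl⟩ := hroots r hr
      rw [Polynomial.mem_lifts]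
      exact ⟨X - C a, by rw [Polynomial.map_sub, map_X, map_C]⟩
    have hcoeff : ∀ n : ℕ, g.coeff n ∈ Set.range φ := by
      intro n
      obtain ⟨l, hl⟩ := (Polynomial.lifts_iff_coeff_lifts _).mp hlift n
      rw [coeff_map] at hl
      have hlmem : l ∈ constField K₀ T := by
        rw [mem_constField_iff, hl]
        exact (g.coeff n).2
      exact ⟨⟨l, hlmem⟩, Subtype.ext hl⟩
    have hgl : g ∈ Polynomial.lifts φ := (Polynomial.lifts_iff_coeff_lifts _).mpr hcoeff
    obtain ⟨g₀, hg₀, hg₀deg, hg₀m⟩ := Polynomial.lifts_and_natDegree_eq_and_monic hgl hgm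
    have hg₀root : aeval θ g₀ = 0 := by
      apply (algebraMap L Ω).injective
      rw [map_zero, ← s34cf_aeval_map, hg₀, hg, minpoly.aeval]
    have hdvd₀ : f ∣ g₀ := minpoly.dvd _ _ hg₀root
    have := natDegree_le_of_dvd hdvd₀ hg₀m.ne_zero
    rwa [hg₀deg] at this

/-- the preimage in `L` of an intermediate field of `Ω / E` contains `K_a(S)` as soon as it
contains `S`. -/
theorem s34cf_map_mem (K₀ : IntermediateField ℚ L) (T : Set Ω)
    (A : IntermediateField ↥(genField K₀ T) Ω) (S : Set L)
    (hS : ∀ s ∈ S, algebraMap L Ω s ∈ A) :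
    ∀ l ∈ IntermediateField.adjoin ↥(constField K₀ T) S, algebraMap L Ω l ∈ A := by
  let W : IntermediateField ↥(constField K₀ T) L :=
    Subfield.toIntermediateField (A.toSubfield.comap (algebraMap L Ω)) (fun a => by
      show algebraMap L Ω (algebraMap ↥(constField K₀ T) L a) ∈ A
      exact A.algebraMap_mem (⟨algebraMap L Ω (a : L), a.2⟩ : ↥(genField K₀ T)))
  have hle : IntermediateField.adjoin ↥(constField K₀ T) S ≤ W :=
    IntermediateField.adjoin_le_iff.mpr (fun s hs => hS s hs)
  intro l hl
  exact hle hl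

/-- **Key lemma**: a constant lying in `E(θ)` lies in `K_a(θ)`. -/
theorem s34cf_mem_adjoin_simple [IsAlgClosed L] [Algebra.IsAlgebraic ℚ L]
    (K₀ : IntermediateField ℚ L) (T : Set Ω) (θ c : L)
    (hc : algebraMap L Ω c ∈ (↥(genField K₀ T))⟮algebraMap L Ω θ⟯) :
    c ∈ (↥(constField K₀ T))⟮θ⟯ := by
  haveI : CharZero L := algebraRat.charZero L
  have hint : ∀ l : L, IsIntegral ↥(constField K₀ T) l := fun l =>
    (Algebra.IsIntegral.isIntegral (R := ℚ) l).tower_top
  set M₂ : IntermediateField ↥(constField K₀ T) L :=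
    IntermediateField.adjoin ↥(constField K₀ T) {θ, c} with hM₂
  haveI : FiniteDimensional ↥(constField K₀ T) ↥M₂ :=
    IntermediateField.finiteDimensional_adjoin (fun x _ => hint x)
  obtain ⟨α, hα⟩ := Field.exists_primitive_element ↥(constField K₀ T) ↥M₂
  have hθ' : (↥(constField K₀ T))⟮(α : L)⟯ = M₂ := by
    have h1 := congrArg IntermediateField.lift hα
    rwa [IntermediateField.lift_adjoin_simple, IntermediateField.lift_top] at h1
  -- the `E`-side inclusion
  have hαE : algebraMap L Ω (α : L) ∈ (↥(genField K₀ T))⟮algebraMap L Ω θ⟯ := by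
    refine s34cf_map_mem K₀ T _ {θ, c} ?_ (α : L) α.2
    intro s hs
    rcases hs with rfl | hs
    · exact IntermediateField.mem_adjoin_simple_self _ _
    · rw [Set.mem_singleton_iff] at hs
      rw [hs]
      exact hc
  have hleE : (↥(genField K₀ T))⟮algebraMap L Ω (α : L)⟯ ≤
      (↥(genField K₀ T))⟮algebraMap L Ω θ⟯ :=
    IntermediateField.adjoin_simple_le_iff.mpr hαE
  obtain ⟨hintθ, hdegθ⟩ := s34cf_natDegree_minpoly K₀ T θ
  obtain ⟨hintα, hdegα⟩ := s34cf_natDegree_minpoly K₀ T (α : L)
  haveI : FiniteDimensional ↥(genField K₀ T) ↥((↥(genField K₀ T))⟮algebraMap L Ω θ⟯) :=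
    IntermediateField.adjoin.finiteDimensional hintθ
  have hfin : Module.finrank ↥(constField K₀ T) ↥((↥(constField K₀ T))⟮(α : L)⟯) ≤
      Module.finrank ↥(constField K₀ T) ↥((↥(constField K₀ T))⟮θ⟯) := by
    rw [IntermediateField.adjoin.finrank (hint _), IntermediateField.adjoin.finrank (hint _),
      ← hdegα, ← hdegθ, ← IntermediateField.adjoin.finrank hintα,
      ← IntermediateField.adjoin.finrank hintθ]
    exact Submodule.finrank_mono (show ((↥(genField K₀ T))⟮algebraMap L Ω (α : L)⟯).toSubalgebra.toSubmodule ≤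
      ((↥(genField K₀ T))⟮algebraMap L Ω θ⟯).toSubalgebra.toSubmodule from hleE)
  have hle : (↥(constField K₀ T))⟮θ⟯ ≤ (↥(constField K₀ T))⟮(α : L)⟯ := by
    rw [hθ']
    exact IntermediateField.adjoin_simple_le_iff.mpr
      (IntermediateField.subset_adjoin _ _ (Set.mem_insert θ {c}))
  haveI : FiniteDimensional ↥(constField K₀ T) ↥((↥(constField K₀ T))⟮(α : L)⟯) :=
    IntermediateField.adjoin.finiteDimensional (hint _)
  have heq := IntermediateField.eq_of_le_of_finrank_le hle hfin
  rw [heq, hθ']
  exact IntermediateField.subset_adjoin _ _ (Set.mem_insert_of_mem θ (Set.mem_singleton c))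

/-- every element of `genField K₁ T` lies in `E(θ)` for some `θ ∈ K₁`. -/
theorem s34cf_exists_simple [IsAlgClosed L] [Algebra.IsAlgebraic ℚ L]
    (K₀ K₁ : IntermediateField ℚ L) (T : Set Ω) (h : constField K₀ T ≤ K₁)
    (ω : Ω) (hω : ω ∈ genField K₁ T) :
    ∃ θ ∈ K₁, ω ∈ (↥(genField K₀ T))⟮algebraMap L Ω θ⟯ := by
  haveI : CharZero L := algebraRat.charZero L
  have hint : ∀ l : L, IsIntegral ↥(constField K₀ T) l := fun l =>
    (Algebra.IsIntegral.isIntegral (R := ℚ) l).tower_top
  -- `genField K₁ T ⊆ E(K₁)`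
  have hgen : genField K₁ T ≤
      (IntermediateField.adjoin ↥(genField K₀ T)
        ((algebraMap L Ω) '' (K₁ : Set L))).toSubfield := by
    refine Subfield.closure_le.mpr ?_
    rintro y (hy | hy)
    · exact IntermediateField.subset_adjoin _ _ hy
    · exact (IntermediateField.adjoin ↥(genField K₀ T)
        ((algebraMap L Ω) '' (K₁ : Set L))).algebraMap_mem
          (⟨y, mem_genField_of_mem K₀ hy⟩ : ↥(genField K₀ T))
  have hω' : ω ∈ IntermediateField.adjoin ↥(genField K₀ T)
      ((algebraMap L Ω) '' (K₁ : Set L)) := hgen hω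
  obtain ⟨Tf, hTf, hωTf⟩ := IntermediateField.exists_finset_of_mem_adjoin hω'
  -- the finite set of constants
  set S₀ : Set L := (algebraMap L Ω) ⁻¹' (Tf : Set Ω) with hS₀
  have hS₀fin : S₀.Finite :=
    Set.Finite.preimage ((algebraMap L Ω).injective.injOn) Tf.finite_toSet
  have hS₀K : ∀ l ∈ S₀, l ∈ K₁ := by
    intro l hl
    obtain ⟨k, hk, hkl⟩ := hTf hl
    rw [← (algebraMap L Ω).injective hkl]
    exact hk
  haveI : Finite ↥S₀ := hS₀fin.to_subtype
  set M₁ : IntermediateField ↥(constField K₀ T) L :=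
    IntermediateField.adjoin ↥(constField K₀ T) S₀ with hM₁
  haveI : FiniteDimensional ↥(constField K₀ T) ↥M₁ :=
    IntermediateField.finiteDimensional_adjoin (fun x _ => hint x)
  obtain ⟨α, hα⟩ := Field.exists_primitive_element ↥(constField K₀ T) ↥M₁
  have hθ' : (↥(constField K₀ T))⟮(α : L)⟯ = M₁ := by
    have h1 := congrArg IntermediateField.lift hα
    rwa [IntermediateField.lift_adjoin_simple, IntermediateField.lift_top] at h1
  have hM₁K : M₁ ≤ IntermediateField.extendScalars h :=
    IntermediateField.adjoin_le_iff.mpr (fun l hl => hS₀K l hl)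
  refine ⟨(α : L), hM₁K α.2, ?_⟩
  have hle : IntermediateField.adjoin ↥(genField K₀ T) (Tf : Set Ω) ≤
      (↥(genField K₀ T))⟮algebraMap L Ω (α : L)⟯ := by
    refine IntermediateField.adjoin_le_iff.mpr ?_
    intro y hy
    obtain ⟨k, -, rfl⟩ := hTf hy
    refine s34cf_map_mem K₀ T _ {(α : L)} ?_ k ?_
    · intro s hs
      rw [Set.mem_singleton_iff] at hs
      rw [hs]
      exact IntermediateField.mem_adjoin_simple_self _ _
    · rw [hθ']
      exact IntermediateField.subset_adjoin _ _ hy
  exact hle hωTf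

/-- **L0**: if `K₁` contains the constant field of `genField K₀ T`, then `K₁` is the constant
field of `genField K₁ T`. -/
theorem s34_constField_eq {L Ω : Type*} [Field L] [Algebra ℚ L] [IsAlgClosed L]
    [Algebra.IsAlgebraic ℚ L] [Field Ω] [Algebra L Ω]
    (K₀ K₁ : IntermediateField ℚ L) (T : Set Ω)
    (h : Fermat.Agent.S18.Model.constField K₀ T ≤ K₁) :
    Fermat.Agent.S18.Model.constField K₁ T = K₁ := by
  apply le_antisymm
  · intro c hc
    rw [mem_constField_iff] at hc
    obtain ⟨θ, hθ, hcθ⟩ := s34cf_exists_simple K₀ K₁ T h _ hc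
    have h1 := s34cf_mem_adjoin_simple K₀ T θ c hcθ
    have h2 : (↥(constField K₀ T))⟮θ⟯ ≤ IntermediateField.extendScalars h :=
      IntermediateField.adjoin_simple_le_iff.mpr hθ
    exact h2 h1
  · exact le_constField K₁ T

end ConstFieldEq

end Fermat.Agent.S34
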