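import Fermat.Agent.S34.CoverG
import Fermat.Agent.S34.ConstFieldEq

/-!
P19 (S34), block MODEL-M, leaf W1, final form with cusps: the cover package `CoverPkg cov N K` over EVERY
number field `K ⊂ ℚ̄` containing a fixed number field `K₀` (depending on the cover and the
level).

Proof: `Ω = F_L(x)` from `S37.CoverERam.exists_omega_x`, `K₁ ⊇` cusps, `K₀ := constField
K₁ T`; for `K ⊇ K₀`, `coverPkg_constField` with base field `K` gives the package over
`constField K T`, which equals `K` by (L0) `s34_constField_eq`.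
-/

set_option autoImplicit false

open ModularCurve AlgebraicCurve Polynomial IntermediateField
open Fermat.Agent.S24 Fermat.Agent.S18

noncomputable section

namespace Fermat.Agent.S34

open Fermat.Agent.S18.Model

variable {N : ℕ} [NeZero N] {ℓ : ℕ} [Fact ℓ.Prime] {A : ValuationSubring (AlgebraicClosure ℚ)}

set_option synthInstance.maxHeartbeats 400000 in
set_option maxHeartbeats 2000000 in
/-- **W1, final form**: for a good cover there is a number field `K₀` such that the cover
package holds over every number field `K ⊇ K₀`. -/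
theorem s34_cover_exists_cusps (cov : GoodCover ℓ A) (hA : A.LiesOverPrime ℓ) (hℓN : ¬ ℓ ∣ N) :
    ∃ (K₀ : IntermediateField ℚ (AlgebraicClosure ℚ)) (_ : FiniteDimensional ℚ ↥K₀),
      (∀ a ∈ cov.cusps ∪ cov.cusps', a ∈ K₀) ∧
      ∀ (K : IntermediateField ℚ (AlgebraicClosure ℚ)), FiniteDimensional ℚ ↥K → K₀ ≤ K →
        CoverPkg cov N K := by
  classical
  obtain ⟨K₁, hK₁fd, hK₁⟩ := NumField.exists_finiteDimensional_intermediateField
    ((cov.cusps ∪ cov.cusps' : Finset (AlgebraicClosure ℚ)) : Set (AlgebraicClosure ℚ))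
    (Finset.finite_toSet _)
  refine S37.CoverERam.exists_omega_x N
    (cov.Ng.map (Int.castRingHom (AlgebraicClosure ℚ)))
    (cov.Dg.map (Int.castRingHom (AlgebraicClosure ℚ))) (S37.CoverERam.natDegree_lt cov)
    (fun Ω _ _ _ _ _ x hgen hcov => ?_)
  have hx : Transcendental (AlgebraicClosure ℚ) x :=
    RamFF.transcendental_x N _ _ (ModelCover.isCoprime_algClosure cov) x hcov
  have hTalg := Embed.isAlgebraic_genSet N K₁ x (1 : Ω) cov.Ng cov.Dg
    (ModelCover.isCoprime_algClosure cov) hcov (p := 1) one_pos 1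
    (by rw [pow_one, map_one, map_one])
  have hTfin := Embed.genSet_finite N x (1 : Ω)
  have hKfd : FiniteDimensional ℚ ↥(constField K₁ (Embed.genSet N x (1 : Ω))) :=
    Model.finiteDimensional_constField K₁ hx hTfin hTalg
  refine ⟨constField K₁ (Embed.genSet N x (1 : Ω)), hKfd,
    fun a ha => le_constField K₁ _ (hK₁ (Finset.mem_coe.mpr ha)), fun K hKfd' hle => ?_⟩
  have hK₁K : K₁ ≤ K := (le_constField K₁ _).trans hle
  have hpkg := coverPkg_constField cov hA hℓN K
    (fun a ha => hK₁K (hK₁ (Finset.mem_coe.mpr ha))) Ω x hgen hcov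
  haveI : Algebra.IsAlgebraic ℚ (AlgebraicClosure ℚ) := AlgebraicClosure.isAlgebraic ℚ
  rw [s34_constField_eq K₁ K (Embed.genSet N x (1 : Ω)) hle] at hpkg
  exact hpkg

end Fermat.Agent.S34
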