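import Mathlib

/-!
# P19 (S34), MODEL-M, W5 auxiliary: the fibres of the two covers of the `j`-line are Möbius orbits

Pure field identities (no polynomials):

* `s34_lam_mobius`: if `256 (y² - y + 1)³ x² (x - 1)² = 256 (x² - x + 1)³ y² (y - 1)²` then `y` is
  one of the six images `x, 1 - x, 1/x, 1/(1 - x), x/(x - 1), (x - 1)/x`;
* `s34_mu_mobius`: the same for the Hesse cover `27 y³ (y³ + 8)³ / (y³ - 1)³` and the twelve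
  images `ω^a x`, `ω^a (ω^b x + 2) / (ω^b x - 1)`.
-/

set_option autoImplicit false

namespace Fermat.Agent.S34

theorem s34_lam_mobius {Ω : Type*} [Field Ω] (x y : Ω) (h256 : (256 : Ω) ≠ 0)
    (hx0 : x ≠ 0) (hx1 : x ≠ 1)
    (h : 256 * (y ^ 2 - y + 1) ^ 3 * (x ^ 2 * (x - 1) ^ 2) =
      256 * (x ^ 2 - x + 1) ^ 3 * (y ^ 2 * (y - 1) ^ 2)) :
    y = x ∨ y = 1 - x ∨ y = x⁻¹ ∨ y = (1 - x)⁻¹ ∨ y = x / (x - 1) ∨ y = (x - 1) / x := by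
  have hx1' : x - 1 ≠ 0 := sub_ne_zero.mpr hx1
  have hx1'' : 1 - x ≠ 0 := sub_ne_zero.mpr (Ne.symm hx1)
  have key : (y - x) * (y - (1 - x)) * (x * y - 1) * ((1 - x) * y - 1) * ((x - 1) * y - x) *
      (x * y - (x - 1)) = 0 := by
    have h2 : (256 : Ω) * ((y - x) * (y - (1 - x)) * (x * y - 1) * ((1 - x) * y - 1) *
        ((x - 1) * y - x) * (x * y - (x - 1))) = 0 := by
      linear_combination (-1 : Ω) * h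
    exact (mul_eq_zero.mp h2).resolve_left h256
  rcases mul_eq_zero.mp key with key | h6
  · rcases mul_eq_zero.mp key with key | h5
    · rcases mul_eq_zero.mp key with key | h4
      · rcases mul_eq_zero.mp key with key | h3
        · rcases mul_eq_zero.mp key with h1 | h2
          · exact Or.inl (sub_eq_zero.mp h1)
          · exact Or.inr (Or.inl (sub_eq_zero.mp h2))
        · refine Or.inr (Or.inr (Or.inl ?_))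
          exact eq_inv_of_mul_eq_one_left (by linear_combination h3)
      · refine Or.inr (Or.inr (Or.inr (Or.inl ?_)))
        exact eq_inv_of_mul_eq_one_left (by linear_combination h4)
    · refine Or.inr (Or.inr (Or.inr (Or.inr (Or.inl ?_))))
      rw [eq_div_iff hx1']
      linear_combination h5
  · refine Or.inr (Or.inr (Or.inr (Or.inr (Or.inr ?_))))
    rw [eq_div_iff hx0]
    linear_combination h6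

/-- cube roots: `A³ = B³` iff `A = ω^a B`. -/
theorem s34_cube_eq {Ω : Type*} [Field Ω] (ω A B : Ω) (hω : ω ^ 2 + ω + 1 = 0)
    (h : A ^ 3 = B ^ 3) : A = B ∨ A = ω * B ∨ A = ω ^ 2 * B := by
  have key : (A - B) * (A - ω * B) * (A - ω ^ 2 * B) = 0 := by
    linear_combination h + (-(A ^ 2 * B) + ω * A * B ^ 2 - (ω - 1) * B ^ 3) * hω
  rcases mul_eq_zero.mp key with key | h3
  · rcases mul_eq_zero.mp key with h1 | h2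
    · exact Or.inl (sub_eq_zero.mp h1)
    · exact Or.inr (Or.inl (sub_eq_zero.mp h2))
  · exact Or.inr (Or.inr (sub_eq_zero.mp h3))

/-- the resolvent cubic of the Hesse cover. -/
theorem s34_mu_resolvent {Ω : Type*} [CommRing Ω] (ω x U : Ω) (hω : ω ^ 2 + ω + 1 = 0) :
    (U * (x - 1) ^ 3 - (x + 2) ^ 3) * (U * (ω * x - 1) ^ 3 - (ω * x + 2) ^ 3) *
        (U * (ω ^ 2 * x - 1) ^ 3 - (ω ^ 2 * x + 2) ^ 3) =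
      (-512) + (-192)*x^3 + (-24)*x^6 + (-1)*x^9 + (-192)*U + (2088)*U*x^3 + (-441)*U*x^6 + (3)*U*x^9 + (-24)*U^2 + (-441)*U^2*x^3 + (-261)*U^2*x^6 + (-3)*U^2*x^9 + (-1)*U^3 + (3)*U^3*x^3 + (-3)*U^3*x^6 + U^3*x^9 := by
  linear_combination ((-768)*x + (-384)*x^2 + (-768)*x^2*ω + (-384)*x^2*ω^2 + (128)*x^3 + (-704)*x^3*ω + (-576)*x^3*ω^2 + (-512)*x^3*ω^3 + (-64)*x^3*ω^4 + (-96)*x^4*ω + (-288)*x^4*ω^2 + (-576)*x^4*ω^3 + (-288)*x^4*ω^4 + (-96)*x^4*ω^5 + (-48)*x^5*ω^2 + (-144)*x^5*ω^3 + (-288)*x^5*ω^4 + (-144)*x^5*ω^5 + (-48)*x^5*ω^6 + (24)*x^6 + (-24)*x^6*ω + (16)*x^6*ω^3 + (-88)*x^6*ω^4 + (-72)*x^6*ω^5 + (-64)*x^6*ω^6 + (-8)*x^6*ω^7 + (-12)*x^7*ω^5 + (-24)*x^7*ω^6 + (-12)*x^7*ω^7 + (-6)*x^8*ω^7 + x^9 + (-1)*x^9*ω + x^9*ω^3 + (-1)*x^9*ω^4 + x^9*ω^6 + (-1)*x^9*ω^7 + (-288)*U*x^2 + (720)*U*x^2*ω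 + (-288)*U*x^2*ω^2 + (-2040)*U*x^3 + (1824)*U*x^3*ω + (-216)*U*x^3*ω^2 + (-264)*U*x^3*ω^3 + (48)*U*x^3*ω^4 + (108)*U*x^4*ω + (-324)*U*x^4*ω^2 + (324)*U*x^4*ω^3 + (-324)*U*x^4*ω^4 + (108)*U*x^4*ω^5 + (18)*U*x^5*ω^2 + (216)*U*x^5*ω^3 + (-540)*U*x^5*ω^4 + (216)*U*x^5*ω^5 + (18)*U*x^5*ω^6 + (441)*U*x^6 + (-441)*U*x^6*ω + (456)*U*x^6*ω^3 + (-402)*U*x^6*ω^4 + (54)*U*x^6*ω^5 + (39)*U*x^6*ω^6 + (15)*U*x^6*ω^7 + (27)*U*x^7*ω^5 + (-27)*U*x^7*ω^6 + (27)*U*x^7*ω^7 + (9)*U*x^8*ω^7 + (-3)*U*x^9 + (3)*U*x^9*ω + (-3)*U*x^9*ω^3 + (3)*U*x^9*ω^4 + (-3)*U*x^9*ω^6 + (3)*U*x^9*ω^7 + (36)*U^2*x + (-54)*U^2*x^2 + (54)*U^2*x^2*ω + (-54)*U^2*x^2*ω^2 + (456)*U^2*x^3 + (-402)*U^2*x^3*ω + (54)*U^2*x^3*ω^2 + (39)*U^2*x^3*ω^3 + (15)*U^2*x^3*ω^4 + (-9)*U^2*x^4*ω + (-108)*U^2*x^4*ω^2 + (270)*U^2*x^4*ω^3 + (-108)*U^2*x^4*ω^4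 + (-9)*U^2*x^4*ω^5 + (27)*U^2*x^5*ω^2 + (-81)*U^2*x^5*ω^3 + (81)*U^2*x^5*ω^4 + (-81)*U^2*x^5*ω^5 + (27)*U^2*x^5*ω^6 + (261)*U^2*x^6 + (-261)*U^2*x^6*ω + (255)*U^2*x^6*ω^3 + (-228)*U^2*x^6*ω^4 + (27)*U^2*x^6*ω^5 + (33)*U^2*x^6*ω^6 + (-6)*U^2*x^6*ω^7 + (-18)*U^2*x^7*ω^5 + (45)*U^2*x^7*ω^6 + (-18)*U^2*x^7*ω^7 + (3)*U^2*x^9 + (-3)*U^2*x^9*ω + (3)*U^2*x^9*ω^3 + (-3)*U^2*x^9*ω^4 + (3)*U^2*x^9*ω^6 + (-3)*U^2*x^9*ω^7 + (3)*U^3*x + (-3)*U^3*x^2 + (-6)*U^3*x^2*ω + (-3)*U^3*x^2*ω^2 + (-2)*U^3*x^3 + (11)*U^3*x^3*ω + (9)*U^3*x^3*ω^2 + (8)*U^3*x^3*ω^3 + U^3*x^3*ω^4 + (-3)*U^3*x^4*ω + (-9)*U^3*x^4*ω^2 + (-18)*U^3*x^4*ω^3 + (-9)*U^3*x^4*ω^4 + (-3)*U^3*x^4*ω^5 + (3)*U^3*x^5*ω^2 + (9)*U^3*x^5*ω^3 + (18)*U^3*x^5*ω^4 + (9)*U^3*x^5*ω^5 + (3)*U^3*x^5*ω^6 + (3)*U^3*x^6 + (-3)*U^3*x^6*ω + (2)*U^3*x^6*ω^3 + (-11)*U^3*x^6*ω^4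 + (-9)*U^3*x^6*ω^5 + (-8)*U^3*x^6*ω^6 + (-1)*U^3*x^6*ω^7 + (3)*U^3*x^7*ω^5 + (6)*U^3*x^7*ω^6 + (3)*U^3*x^7*ω^7 + (-3)*U^3*x^8*ω^7 + (-1)*U^3*x^9 + U^3*x^9*ω + (-1)*U^3*x^9*ω^3 + U^3*x^9*ω^4 + (-1)*U^3*x^9*ω^6 + U^3*x^9*ω^7) * hω

/-- the fibres of the Hesse cover are orbits of the tetrahedral group of Möbius maps. -/
theorem s34_mu_mobius {Ω : Type*} [Field Ω] (ω x y : Ω) (hω : ω ^ 2 + ω + 1 = 0)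
    (h27 : (27 : Ω) ≠ 0) (hx0 : x ≠ 1) (hx1 : ω * x ≠ 1) (hx2 : ω ^ 2 * x ≠ 1)
    (h : 27 * (y * (y ^ 3 + 8)) ^ 3 * (x ^ 3 - 1) ^ 3 =
      27 * (x * (x ^ 3 + 8)) ^ 3 * (y ^ 3 - 1) ^ 3) :
    (y = x ∨ y = ω * x ∨ y = ω ^ 2 * x) ∨
      ∃ t : Ω, (t = x ∨ t = ω * x ∨ t = ω ^ 2 * x) ∧
        (y = (t + 2) / (t - 1) ∨ y = ω * (t + 2) / (t - 1) ∨ y = ω ^ 2 * (t + 2) / (t - 1)) := by
  have hF : (y ^ 3 - x ^ 3) * ((-512) + (-192)*x^3 + (-24)*x^6 + (-1)*x^9 + (-192)*(y^3) + (2088)*(y^3)*x^3 + (-441)*(y^3)*x^6 + (3)*(y^3)*x^9 + (-24)*(y^3)^2 + (-441)*(y^3)^2*x^3 + (-261)*(y^3)^2*x^6 + (-3)*(y^3)^2*x^9 + (-1)*(y^3)^3 + (3)*(y^3)^3*x^3 + (-3)*(y^3)^3*x^6 + (y^3)^3*x^9) = 0 := by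
    have h2 : (27 : Ω) * ((y ^ 3 - x ^ 3) * ((-512) + (-192)*x^3 + (-24)*x^6 + (-1)*x^9 + (-192)*(y^3) + (2088)*(y^3)*x^3 + (-441)*(y^3)*x^6 + (3)*(y^3)*x^9 + (-24)*(y^3)^2 + (-441)*(y^3)^2*x^3 + (-261)*(y^3)^2*x^6 + (-3)*(y^3)^2*x^9 + (-1)*(y^3)^3 + (3)*(y^3)^3*x^3 + (-3)*(y^3)^3*x^6 + (y^3)^3*x^9)) = 0 := by
      linear_combination h
    exact (mul_eq_zero.mp h2).resolve_left h27
  have hbranch : ∀ t : Ω, t ≠ 1 → y ^ 3 * (t - 1) ^ 3 - (t + 2) ^ 3 = 0 →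
      (y = (t + 2) / (t - 1) ∨ y = ω * (t + 2) / (t - 1) ∨ y = ω ^ 2 * (t + 2) / (t - 1)) := by
    intro t ht hb
    have ht' : t - 1 ≠ 0 := sub_ne_zero.mpr ht
    have hc : (y * (t - 1)) ^ 3 = (t + 2) ^ 3 := by linear_combination hb
    rcases s34_cube_eq ω (y * (t - 1)) (t + 2) hω hc with h1 | h1 | h1
    · left
      rw [eq_div_iff ht']
      exact h1
    · right; left
      rw [eq_div_iff ht']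
      exact h1
    · right; right
      rw [eq_div_iff ht']
      exact h1
  rcases mul_eq_zero.mp hF with h1 | h1
  · left
    exact s34_cube_eq ω y x hω (sub_eq_zero.mp h1)
  · right
    have hres := s34_mu_resolvent ω x (y ^ 3) hω
    rw [h1] at hres
    rcases mul_eq_zero.mp hres with hres | h3
    · rcases mul_eq_zero.mp hres with h1' | h2
      · exact ⟨x, Or.inl rfl, hbranch x hx0 h1'⟩
      · exact ⟨ω * x, Or.inr (Or.inl rfl), hbranch (ω * x) hx1 h2⟩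
    · exact ⟨ω ^ 2 * x, Or.inr (Or.inr rfl), hbranch (ω ^ 2 * x) hx2 h3⟩

end Fermat.Agent.S34
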