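import Mathlib
import Fermat.Agent.S34.CoverMobius
import Fermat.Agent.S37.CoverShift

/-!
# P19 (S34), MODEL-M, W5: the cover field is Galois over the coarse function field

* `s34cg_finiteDimensional`, `s34cg_isGalois`, `s34cg_splits_of_roots`: generic (a field generated
  by one root of a polynomial which splits is Galois; a polynomial all of whose roots in an
  algebraic closure are rational splits).
* `S34CoverSplit cov`: the cover polynomial `Ng − j·Dg` splits over every field containing one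
  root `x` (transcendental over a number field containing the cusps).
* `s34cg_coverSplit_goodCover0`, `s34cg_exists_goodCover`: this holds for the cover of
  `S37.exists_goodCover0` (the `λ`-cover in the coordinate `x - 1` for `ℓ ≠ 2`, the Hesse cover
  for `ℓ = 2`): the fibres are Möbius orbits (`S34/CoverMobius`).
* `s34cg_isGalois_fieldRange`, `s34cg_normal_fieldRange`: for `e : F →ₐ[K] 𝔽`, `𝔽 = e(F)(x)`,
  `Ng(x) = e(j)·Dg(x)`, the field `𝔽` is finite Galois over `e(F)`.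
-/

set_option autoImplicit false

namespace Fermat.Agent.S34

open Polynomial IntermediateField

universe u v

/-! ## Generic part -/

section Galois

variable {F : Type u} {𝔽 : Type v} [Field F] [Field 𝔽] [Algebra F 𝔽]

theorem s34cg_finiteDimensional (x : 𝔽) (hgen : F⟮x⟯ = ⊤) (p : F[X]) (hp0 : p ≠ 0)
    (hpx : aeval x p = 0) : FiniteDimensional F 𝔽 := by
  have hint : IsIntegral F x := isAlgebraic_iff_isIntegral.mp ⟨p, hp0, hpx⟩
  have h1 : FiniteDimensional F F⟮x⟯ := IntermediateField.adjoin.finiteDimensional hint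
  rw [hgen] at h1
  exact (IntermediateField.topEquiv (F := F) (E := 𝔽)).toLinearEquiv.finiteDimensional

theorem s34cg_isGalois [CharZero F] (x : 𝔽) (hgen : F⟮x⟯ = ⊤) (p : F[X]) (hp0 : p ≠ 0)
    (hpx : aeval x p = 0) (hsplit : (p.map (algebraMap F 𝔽)).Splits) : IsGalois F 𝔽 := by
  have hint : IsIntegral F x := isAlgebraic_iff_isIntegral.mp ⟨p, hp0, hpx⟩
  have hdvd : minpoly F x ∣ p := minpoly.dvd F x hpx
  have hq0 : minpoly F x ≠ 0 := minpoly.ne_zero hint
  have hqs : ((minpoly F x).map (algebraMap F 𝔽)).Splits :=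
    hsplit.of_dvd (Polynomial.map_ne_zero hp0) (Polynomial.map_dvd _ hdvd)
  have hsf : (minpoly F x).IsSplittingField F 𝔽 := by
    rw [isSplittingField_iff_intermediateField]
    refine ⟨hqs, ?_⟩
    rw [eq_top_iff, ← hgen]
    refine adjoin_le_iff.mpr (Set.singleton_subset_iff.mpr ?_)
    exact subset_adjoin F _ ((mem_rootSet_of_ne hq0).mpr (minpoly.aeval F x))
  exact IsGalois.of_separable_splitting_field (p := minpoly F x)
    (minpoly.irreducible hint).separable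

/-- A polynomial all of whose roots in an algebraic closure come from the field splits. -/
theorem s34cg_splits_of_roots (P : 𝔽[X])
    (h : ∀ y : AlgebraicClosure 𝔽, aeval y P = 0 →
      y ∈ Set.range (algebraMap 𝔽 (AlgebraicClosure 𝔽))) : P.Splits := by
  rw [splits_iff_splits]
  by_cases hP : P = 0
  · exact Or.inl hP
  refine Or.inr fun {g} hg hgP => ?_
  obtain ⟨y, hy⟩ := IsAlgClosed.exists_aeval_eq_zero (AlgebraicClosure 𝔽) g
    (degree_pos_of_irreducible hg).ne'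
  have hyP : aeval y P = 0 := by
    obtain ⟨c, rfl⟩ := hgP
    rw [map_mul, hy, zero_mul]
  obtain ⟨y₀, rfl⟩ := h y hyP
  have hroot : g.IsRoot y₀ := by
    rw [aeval_algebraMap_apply,
      map_eq_zero_iff _ (algebraMap 𝔽 (AlgebraicClosure 𝔽)).injective] at hy
    simpa using hy
  exact degree_eq_one_of_irreducible_of_root hg hroot

/-- Evaluation of an integer polynomial does not depend on the intermediate coefficient ring. -/
theorem s34cg_aeval_map_int {R S : Type*} [CommRing R] [CommRing S] [Algebra R S] (p : ℤ[X])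
    (y : S) : aeval y (p.map (Int.castRingHom R)) = eval y (p.map (Int.castRingHom S)) := by
  rw [aeval_def, eval₂_map, eval_map]
  congr 1
  exact RingHom.ext_int _ _

end Galois

/-! ## The two covers -/

section Split

variable {𝔽 : Type v} [Field 𝔽]

/-- roots of the `λ`-cover polynomial (coordinate `x - 1`) lie in every subfield containing
one root. -/
theorem s34cg_root_lam1 {Ω : Type*} [Field Ω] (S : Subfield Ω) (x J y : Ω) (hxS : x ∈ S)
    (h256 : (256 : Ω) ≠ 0) (hx1 : x ≠ 1) (hx2 : x ≠ 2)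
    (hc : 256 * ((x - 1) ^ 2 - (x - 1) + 1) ^ 3 = J * ((x - 1) ^ 2 * (x - 2) ^ 2))
    (hy : 256 * ((y - 1) ^ 2 - (y - 1) + 1) ^ 3 - J * ((y - 1) ^ 2 * (y - 2) ^ 2) = 0) :
    y ∈ S := by
  have hx1' : x - 1 ≠ 0 := sub_ne_zero.mpr hx1
  have hx2' : x - 1 ≠ 1 := by
    intro h0
    apply hx2
    linear_combination h0
  have hmob := s34_lam_mobius (x - 1) (y - 1) h256 hx1' hx2'
    (by linear_combination ((x - 1) ^ 2 * (x - 1 - 1) ^ 2) * hy -
      ((y - 1) ^ 2 * (y - 1 - 1) ^ 2) * hc)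
  have hx' : x - 1 ∈ S := sub_mem hxS (one_mem _)
  have h1 : (1 : Ω) ∈ S := one_mem _
  have hS : y - 1 ∈ S := by
    rcases hmob with h | h | h | h | h | h
    · rw [h]; exact hx'
    · rw [h]; exact sub_mem h1 hx'
    · rw [h]; exact inv_mem hx'
    · rw [h]; exact inv_mem (sub_mem h1 hx')
    · rw [h]; exact div_mem hx' (sub_mem hx' h1)
    · rw [h]; exact div_mem (sub_mem hx' h1) hx'
  have hS' := add_mem hS h1
  rwa [sub_add_cancel] at hS'

/-- roots of the Hesse cover polynomial lie in every subfield containing one root and `ω`. -/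
theorem s34cg_root_mu {Ω : Type*} [Field Ω] (S : Subfield Ω) (ω x J y : Ω) (hωS : ω ∈ S)
    (hxS : x ∈ S) (hω : ω ^ 2 + ω + 1 = 0) (h27 : (27 : Ω) ≠ 0)
    (hx0 : x ≠ 1) (hx1 : ω * x ≠ 1) (hx2 : ω ^ 2 * x ≠ 1)
    (hc : 27 * (x * (x ^ 3 + 8)) ^ 3 = J * (x ^ 3 - 1) ^ 3)
    (hy : 27 * (y * (y ^ 3 + 8)) ^ 3 - J * (y ^ 3 - 1) ^ 3 = 0) : y ∈ S := by
  have hmob := s34_mu_mobius ω x y hω h27 hx0 hx1 hx2
    (by linear_combination (x ^ 3 - 1) ^ 3 * hy - (y ^ 3 - 1) ^ 3 * hc)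
  have h1 : (1 : Ω) ∈ S := one_mem _
  have h2 : (2 : Ω) ∈ S := ofNat_mem S 2
  rcases hmob with (h | h | h) | ⟨t, ht, h⟩
  · rw [h]; exact hxS
  · rw [h]; exact mul_mem hωS hxS
  · rw [h]; exact mul_mem (pow_mem hωS 2) hxS
  · have htS : t ∈ S := by
      rcases ht with ht | ht | ht
      · rw [ht]; exact hxS
      · rw [ht]; exact mul_mem hωS hxS
      · rw [ht]; exact mul_mem (pow_mem hωS 2) hxS
    rcases h with h | h | h
    · rw [h]; exact div_mem (add_mem htS h2) (sub_mem htS h1)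
    · rw [h]; exact div_mem (mul_mem hωS (add_mem htS h2)) (sub_mem htS h1)
    · rw [h]; exact div_mem (mul_mem (pow_mem hωS 2) (add_mem htS h2)) (sub_mem htS h1)

/-- The `λ`-cover in the coordinate `x - 1`. -/
theorem s34cg_split_lam1 (h256 : (256 : 𝔽) ≠ 0) (x j : 𝔽) (hx1 : x ≠ 1) (hx2 : x ≠ 2)
    (hcov : 256 * ((x - 1) ^ 2 - (x - 1) + 1) ^ 3 = j * ((x - 1) ^ 2 * (x - 2) ^ 2)) :
    ((C 256 * ((X - 1) ^ 2 - (X - 1) + 1) ^ 3 : 𝔽[X]) -
      C j * ((X - 1) ^ 2 * (X - 2) ^ 2)).Splits := by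
  apply s34cg_splits_of_roots
  intro y hy
  have hy' : 256 * ((y - 1) ^ 2 - (y - 1) + 1) ^ 3 -
      algebraMap 𝔽 (AlgebraicClosure 𝔽) j * ((y - 1) ^ 2 * (y - 2) ^ 2) = 0 := by
    simpa [map_ofNat] using hy
  have hc := congrArg (algebraMap 𝔽 (AlgebraicClosure 𝔽)) hcov
  simp only [map_mul, map_pow, map_sub, map_add, map_one, map_ofNat] at hc
  have h256' : (256 : AlgebraicClosure 𝔽) ≠ 0 := by
    have h := (map_ne_zero (algebraMap 𝔽 (AlgebraicClosure 𝔽))).mpr h256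
    rwa [map_ofNat] at h
  have hinj := (algebraMap 𝔽 (AlgebraicClosure 𝔽)).injective
  have hx1' : algebraMap 𝔽 (AlgebraicClosure 𝔽) x ≠ 1 := by
    intro h0
    apply hx1
    apply hinj
    rw [map_one]
    exact h0
  have hx2' : algebraMap 𝔽 (AlgebraicClosure 𝔽) x ≠ 2 := by
    intro h0
    apply hx2
    apply hinj
    rw [map_ofNat]
    exact h0
  exact (RingHom.mem_fieldRange).mp
    (s34cg_root_lam1 (algebraMap 𝔽 (AlgebraicClosure 𝔽)).fieldRange _ _ y ⟨x, rfl⟩ h256' hx1'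
      hx2' hc hy')

/-- The Hesse cover. -/
theorem s34cg_split_mu (h27 : (27 : 𝔽) ≠ 0) (ω : 𝔽) (hω : ω ^ 2 + ω + 1 = 0) (x j : 𝔽)
    (hx0 : x ≠ 1) (hx1 : ω * x ≠ 1) (hx2 : ω ^ 2 * x ≠ 1)
    (hcov : 27 * (x * (x ^ 3 + 8)) ^ 3 = j * (x ^ 3 - 1) ^ 3) :
    ((C 27 * (X * (X ^ 3 + 8)) ^ 3 : 𝔽[X]) - C j * (X ^ 3 - 1) ^ 3).Splits := by
  apply s34cg_splits_of_roots
  intro y hy
  have hy' : 27 * (y * (y ^ 3 + 8)) ^ 3 -
      algebraMap 𝔽 (AlgebraicClosure 𝔽) j * (y ^ 3 - 1) ^ 3 = 0 := by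
    simpa [map_ofNat] using hy
  have hc := congrArg (algebraMap 𝔽 (AlgebraicClosure 𝔽)) hcov
  simp only [map_mul, map_pow, map_sub, map_add, map_one, map_ofNat] at hc
  have hω' := congrArg (algebraMap 𝔽 (AlgebraicClosure 𝔽)) hω
  simp only [map_pow, map_add, map_one, map_zero] at hω'
  have h27' : (27 : AlgebraicClosure 𝔽) ≠ 0 := by
    have h := (map_ne_zero (algebraMap 𝔽 (AlgebraicClosure 𝔽))).mpr h27
    rwa [map_ofNat] at h
  have hinj := (algebraMap 𝔽 (AlgebraicClosure 𝔽)).injective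
  have hx0' : algebraMap 𝔽 (AlgebraicClosure 𝔽) x ≠ 1 := by
    intro h0
    apply hx0
    apply hinj
    rw [map_one]
    exact h0
  have hx1' : algebraMap 𝔽 (AlgebraicClosure 𝔽) ω * algebraMap 𝔽 (AlgebraicClosure 𝔽) x ≠ 1 := by
    intro h0
    apply hx1
    apply hinj
    rw [map_one, map_mul]
    exact h0
  have hx2' : algebraMap 𝔽 (AlgebraicClosure 𝔽) ω ^ 2 * algebraMap 𝔽 (AlgebraicClosure 𝔽) x ≠ 1 := by
    intro h0
    apply hx2
    apply hinj
    rw [map_one, map_mul, map_pow]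
    exact h0
  exact (RingHom.mem_fieldRange).mp
    (s34cg_root_mu (algebraMap 𝔽 (AlgebraicClosure 𝔽)).fieldRange _ _ _ y ⟨ω, rfl⟩ ⟨x, rfl⟩ hω'
      h27' hx0' hx1' hx2' hc hy')

end Split

/-! ## The cover of `S37.exists_goodCover0` -/

section Concrete

open Fermat.Agent.S18

/-- The cover polynomial `Ng − j·Dg` splits over every field containing one root `x`
(transcendental over a number field containing the cusps). -/
def S34CoverSplit {ℓ : ℕ} {A : ValuationSubring (AlgebraicClosure ℚ)} (cov : GoodCover ℓ A) :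
    Prop :=
  ∀ (K : IntermediateField ℚ (AlgebraicClosure ℚ)), (∀ a ∈ cov.cusps, a ∈ K) →
    ∀ (𝔽 : Type) [Field 𝔽] [Algebra ↥K 𝔽] (x j : 𝔽), Transcendental ↥K x →
      eval x (cov.Ng.map (Int.castRingHom 𝔽)) = j * eval x (cov.Dg.map (Int.castRingHom 𝔽)) →
      (cov.Ng.map (Int.castRingHom 𝔽) - C j * cov.Dg.map (Int.castRingHom 𝔽)).Splits

variable {ℓ : ℕ} [Fact ℓ.Prime] {A : ValuationSubring (AlgebraicClosure ℚ)}

theorem s34cg_coverSplit_lam1 (hA : A.LiesOverPrime ℓ) (h2 : ℓ ≠ 2) :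
    S34CoverSplit (Fermat.Agent.S37.goodCover_lam1 hA h2) := by
  intro K _ 𝔽 _ _ x j hx hcov
  have hchar : CharZero 𝔽 := charZero_of_injective_algebraMap (algebraMap ↥K 𝔽).injective
  have hne : ∀ c : ↥K, x ≠ algebraMap ↥K 𝔽 c := fun c h => hx (h ▸ isAlgebraic_algebraMap c)
  have hN : (Fermat.Agent.S37.goodCover_lam1 hA h2).Ng.map (Int.castRingHom 𝔽) =
      C 256 * ((X - 1) ^ 2 - (X - 1) + 1) ^ 3 := by
    rw [Fermat.Agent.S37.goodCover_lam1_Ng_eq]
    simp only [Polynomial.map_mul, Polynomial.map_pow, Polynomial.map_sub, Polynomial.map_add,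
      Polynomial.map_C, Polynomial.map_X, Polynomial.map_one, map_ofNat, Polynomial.map_ofNat]
  have hD : (Fermat.Agent.S37.goodCover_lam1 hA h2).Dg.map (Int.castRingHom 𝔽) =
      (X - 1) ^ 2 * (X - 2) ^ 2 := by
    rw [Fermat.Agent.S37.goodCover_lam1_Dg_eq]
    simp only [Polynomial.map_mul, Polynomial.map_pow, Polynomial.map_sub,
      Polynomial.map_X, Polynomial.map_one, Polynomial.map_ofNat]
  rw [hN, hD] at hcov ⊢
  refine s34cg_split_lam1 (by norm_num) x j ?_ ?_ ?_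
  · intro h
    exact hne 1 (by rw [map_one]; exact h)
  · intro h
    exact hne 2 (by rw [map_ofNat]; exact h)
  · simpa using hcov

theorem s34cg_coverSplit_mu (hA : A.LiesOverPrime ℓ) (h3 : ℓ ≠ 3) :
    S34CoverSplit (goodCover_mu hA h3) := by
  intro K hK 𝔽 _ _ x j hx hcov
  have hchar : CharZero 𝔽 := charZero_of_injective_algebraMap (algebraMap ↥K 𝔽).injective
  have hne : ∀ c : ↥K, x ≠ algebraMap ↥K 𝔽 c := fun c h => hx (h ▸ isAlgebraic_algebraMap c)
  have homK : CoverInst.omega ∈ K :=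
    hK _ ((mem_goodCover_mu_cusps hA h3).mpr (Or.inr (Or.inl rfl)))
  obtain ⟨ωK, hωK⟩ : ∃ ωK : ↥K, (ωK : AlgebraicClosure ℚ) = CoverInst.omega :=
    ⟨⟨CoverInst.omega, homK⟩, rfl⟩
  have hωK2 : ωK ^ 2 + ωK + 1 = 0 := by
    apply Subtype.ext
    push_cast
    rw [hωK]
    exact CoverInst.omega_spec
  have hω : (algebraMap ↥K 𝔽 ωK) ^ 2 + algebraMap ↥K 𝔽 ωK + 1 = 0 := by
    rw [← map_pow, ← map_add, ← map_one (algebraMap ↥K 𝔽), ← map_add, hωK2, map_zero]
  have hN : (goodCover_mu hA h3).Ng.map (Int.castRingHom 𝔽) =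
      C 27 * (X * (X ^ 3 + 8)) ^ 3 := by
    rw [goodCover_mu_Ng, Cover.map_muN]
    rfl
  have hD : (goodCover_mu hA h3).Dg.map (Int.castRingHom 𝔽) = (X ^ 3 - 1) ^ 3 := by
    rw [goodCover_mu_Dg, Cover.map_muD]
    rfl
  rw [hN, hD] at hcov ⊢
  refine s34cg_split_mu (by norm_num) (algebraMap ↥K 𝔽 ωK) hω x j ?_ ?_ ?_ ?_
  · intro h
    exact hne 1 (by rw [map_one]; exact h)
  · intro h
    refine hne ωK⁻¹ ?_
    rw [map_inv₀]
    exact eq_inv_of_mul_eq_one_right h
  · intro h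
    refine hne (ωK ^ 2)⁻¹ ?_
    rw [map_inv₀, map_pow]
    exact eq_inv_of_mul_eq_one_right h
  · simpa using hcov

theorem s34cg_coverSplit_goodCover0 (hA : A.LiesOverPrime ℓ) :
    S34CoverSplit (Fermat.Agent.S37.goodCover0 hA) := by
  by_cases h2 : ℓ = 2
  · rw [Fermat.Agent.S37.goodCover0_of_eq_two hA h2]
    exact s34cg_coverSplit_mu hA _
  · rw [Fermat.Agent.S37.goodCover0_of_ne_two hA h2]
    exact s34cg_coverSplit_lam1 hA h2

/-- The cover to use in W1 / MSTAR (the one of `S37.exists_goodCover0`). -/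
theorem s34cg_exists_goodCover (hA : A.LiesOverPrime ℓ) :
    ∃ cov : GoodCover ℓ A, ¬ (ℓ : ℤ) ∣ cov.Dg.eval 0 ∧ S34CoverSplit cov :=
  ⟨Fermat.Agent.S37.goodCover0 hA, Fermat.Agent.S37.not_dvd_eval_goodCover0_Dg hA,
    s34cg_coverSplit_goodCover0 hA⟩

end Concrete

/-! ## W5 export -/

section Export

open Fermat.Agent.S18

/-- **W5**: for `e : F →ₐ[K] 𝔽`, `𝔽 = e(F)(x)`, `Ng(x) = e(j)·Dg(x)`, the cover field `𝔽` is
finite Galois over `e(F)`. -/
theorem s34cg_isGalois_fieldRange {ℓ : ℕ} {A : ValuationSubring (AlgebraicClosure ℚ)}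
    (cov : GoodCover ℓ A) (hsplit : S34CoverSplit cov)
    (K : IntermediateField ℚ (AlgebraicClosure ℚ)) (hK : ∀ a ∈ cov.cusps, a ∈ K)
    {F : Type*} {𝔽 : Type} [Field F] [Field 𝔽] [Algebra ↥K F] [Algebra ↥K 𝔽]
    (e : F →ₐ[↥K] 𝔽) (x : 𝔽) (j : F) (hx : Transcendental ↥K x)
    (hgen : IntermediateField.adjoin ↥e.fieldRange {x} = ⊤)
    {R : Type*} [CommRing R] [Algebra R 𝔽]
    (hcov : aeval x (cov.Ng.map (Int.castRingHom R)) =
      e j * aeval x (cov.Dg.map (Int.castRingHom R))) :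
    FiniteDimensional ↥e.fieldRange 𝔽 ∧ IsGalois ↥e.fieldRange 𝔽 := by
  classical
  have hchar𝔽 : CharZero 𝔽 := charZero_of_injective_algebraMap (algebraMap ↥K 𝔽).injective
  have hchar : CharZero ↥e.fieldRange :=
    charZero_of_injective_algebraMap (algebraMap ↥K ↥e.fieldRange).injective
  have hcov' : eval x (cov.Ng.map (Int.castRingHom 𝔽)) =
      e j * eval x (cov.Dg.map (Int.castRingHom 𝔽)) := by
    rw [← s34cg_aeval_map_int (R := R), ← s34cg_aeval_map_int (R := R)]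
    exact hcov
  have hsp := hsplit K hK 𝔽 x (e j) hx hcov'
  -- the polynomial over `e(F)`
  let j₀ : ↥e.fieldRange := ⟨e j, AlgHom.mem_fieldRange.mpr ⟨j, rfl⟩⟩
  let p : (↥e.fieldRange)[X] := cov.Ng.map (Int.castRingHom ↥e.fieldRange) -
    C j₀ * cov.Dg.map (Int.castRingHom ↥e.fieldRange)
  have hpmap : p.map (algebraMap ↥e.fieldRange 𝔽) =
      cov.Ng.map (Int.castRingHom 𝔽) - C (e j) * cov.Dg.map (Int.castRingHom 𝔽) := by
    have h1 : (algebraMap ↥e.fieldRange 𝔽).comp (Int.castRingHom ↥e.fieldRange) =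
        Int.castRingHom 𝔽 := RingHom.ext_int _ _
    show (cov.Ng.map (Int.castRingHom ↥e.fieldRange) -
      C j₀ * cov.Dg.map (Int.castRingHom ↥e.fieldRange)).map (algebraMap ↥e.fieldRange 𝔽) = _
    rw [Polynomial.map_sub, Polynomial.map_mul, Polynomial.map_C, Polynomial.map_map,
      Polynomial.map_map, h1]
    rfl
  have hm0 : cov.m ≠ 0 := fun h => cov.hm (h ▸ dvd_zero ℓ)
  have hdeg := (cov.basic 𝔽 (Nat.cast_ne_zero.2 hm0).isUnit).1
  have hp0 : p ≠ 0 := by
    intro h0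
    have h1 : cov.Ng.map (Int.castRingHom 𝔽) = C (e j) * cov.Dg.map (Int.castRingHom 𝔽) := by
      have := hpmap
      rw [h0, Polynomial.map_zero] at this
      exact sub_eq_zero.mp this.symm
    have h2 := natDegree_C_mul_le (e j) (cov.Dg.map (Int.castRingHom 𝔽))
    rw [← h1] at h2
    omega
  have hpx : aeval x p = 0 := by
    rw [aeval_def, ← eval_map, hpmap, eval_sub, eval_mul, eval_C, hcov', sub_self]
  have hspl : (p.map (algebraMap ↥e.fieldRange 𝔽)).Splits := by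
    rw [hpmap]
    exact hsp
  exact ⟨s34cg_finiteDimensional x hgen p hp0 hpx, s34cg_isGalois x hgen p hp0 hpx hspl⟩

theorem s34cg_normal_fieldRange {ℓ : ℕ} {A : ValuationSubring (AlgebraicClosure ℚ)}
    (cov : GoodCover ℓ A) (hsplit : S34CoverSplit cov)
    (K : IntermediateField ℚ (AlgebraicClosure ℚ)) (hK : ∀ a ∈ cov.cusps, a ∈ K)
    {F : Type*} {𝔽 : Type} [Field F] [Field 𝔽] [Algebra ↥K F] [Algebra ↥K 𝔽]
    (e : F →ₐ[↥K] 𝔽) (x : 𝔽) (j : F) (hx : Transcendental ↥K x)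
    (hgen : IntermediateField.adjoin ↥e.fieldRange {x} = ⊤)
    {R : Type*} [CommRing R] [Algebra R 𝔽]
    (hcov : aeval x (cov.Ng.map (Int.castRingHom R)) =
      e j * aeval x (cov.Dg.map (Int.castRingHom R))) :
    Normal ↥e.fieldRange 𝔽 :=
  have := (s34cg_isGalois_fieldRange cov hsplit K hK e x j hx hgen hcov).2
  IsGalois.to_normal

end Export

end Fermat.Agent.S34
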