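import Mathlib
import Fermat.Agent.S34.ModelDefs
import Fermat.Agent.S34.ModelMDefs
import Fermat.Agent.S18.ModelInsts
import Fermat.Agent.S18.NumField
import Fermat.Agent.S18.Char0DegK
import Fermat.Agent.S18.Descent

/-!
P19 (S34), block MODEL-M: bridge from the `S37`/`S18` conventions (`Λ = ↥(lam A K)`,
`F_M = modularFunctionFieldFullC ↥K M`, `j = GaussL.jC`) to the KRON convention of
`S34MstarAt` (`Λ = (lam A K).toSubring`, `F_M = FFL ↥K M`, `j = jL`).
-/

set_option autoImplicit false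

namespace Fermat.Agent.S34

open ModularCurve Polynomial IntermediateField Fermat.Agent.S18

set_option synthInstance.maxHeartbeats 400000 in
set_option maxHeartbeats 2000000 in
/-- transport of the chart statement along an equality of intermediate fields. -/
theorem mstarBridge_transport {L : Type*} [Field L] (Λ : Subring L)
    (E₁ E₂ : IntermediateField L (LaurentSeries L)) (h : E₁ = E₂) (w₁ : ↥E₁) (w₂ : ↥E₂)
    (hw : (w₁ : LaurentSeries L) = w₂) (ϖ : ↥Λ)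
    (H : ∀ 𝔐 : Ideal ↥(integralClosure (Algebra.adjoin ↥Λ {w₁}) ↥E₁), 𝔐.IsMaximal →
      algebraMap ↥Λ _ ϖ ∈ 𝔐 → ∃ u, ModelLocGen (Ideal.span {algebraMap ↥Λ _ ϖ}) 𝔐 u) :
    ∀ 𝔐 : Ideal ↥(integralClosure (Algebra.adjoin ↥Λ {w₂}) ↥E₂), 𝔐.IsMaximal →
      algebraMap ↥Λ _ ϖ ∈ 𝔐 → ∃ u, ModelLocGen (Ideal.span {algebraMap ↥Λ _ ϖ}) 𝔐 u := by
  subst h
  obtain rfl : w₁ = w₂ := Subtype.ext hw
  exact H

theorem mstarBridge_coe_jL (L : Type*) [Field L] [Algebra ℚ L] (M : ℕ) [NeZero M] :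
    ((GaussL.jC L M : ↥(modularFunctionFieldFullC L M)) : LaurentSeries L) =
      ((Fermat.Agent.S24.jL L M : Fermat.Agent.S24.FFL L M) : LaurentSeries L) := by
  show jqModC L = coeffEmb L jq
  rw [coeffEmb, ← jqModC_rat, coeffMap_jqModC]

set_option synthInstance.maxHeartbeats 400000 in
set_option maxHeartbeats 2000000 in
/-- the chart statement for `F_M = modularFunctionFieldFullC L M` gives `S34MstarChart`. -/
theorem mstarBridge_chart {L : Type*} [Field L] [Algebra ℚ L] (Λ : Subring L) (M : ℕ) [NeZero M]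
    (w₁ : ↥(modularFunctionFieldFullC L M)) (w₂ : Fermat.Agent.S24.FFL L M)
    (hw : (w₁ : LaurentSeries L) = w₂) (ϖ : ↥Λ)
    (H : ∀ 𝔐 : Ideal ↥(integralClosure (Algebra.adjoin ↥Λ {w₁})
        ↥(modularFunctionFieldFullC L M)), 𝔐.IsMaximal →
      algebraMap ↥Λ _ ϖ ∈ 𝔐 → ∃ u, ModelLocGen (Ideal.span {algebraMap ↥Λ _ ϖ}) 𝔐 u) :
    S34MstarChart Λ M w₂ ϖ :=
  mstarBridge_transport Λ _ _ (Descent.fullC_eq_laurentBaseChange L M) w₁ w₂ hw ϖ H

end Fermat.Agent.S34
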