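import Fermat.Agent.S34.ModelMAbs
import Fermat.Agent.S34.ModelMDefs
import Fermat.Agent.S34.CoverGK2
import Fermat.Agent.S34.CoverGal
import Fermat.Agent.S34.CoverChart
import Fermat.Agent.S34.ModelMBridge
import Fermat.Agent.S18.Char0DegK
import Fermat.Agent.S18.ModelInsts

/-!
P19 (S34), block MODEL-M: **(M*)** for the coarse level-`M` model (export `s34_mstar`,
note P19-OUT MSTAR).

For every sufficiently large number field `K ⊂ ℚ̄`, `Λ = A ∩ K`, every maximal ideal `𝔐 ∋ ϖ` of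
either coarse chart ring (integral closure of `Λ[j]`, resp. `Λ[j⁻¹]`, in the modular function
field `F_M` of level `M` over `K`, `q ∤ M`) has a local generator of the special fibre:
`ModelLocGen (ϖ) 𝔐 u`.

Assembly: cover package W1 (`s34_cover_exists_cusps`), Galois W5 (`s34cg_isGalois_fieldRange`),
local generators on the cover charts W4 (`s34_cover_chart_locGen`), norm descent
(`s34_mstar_abs`), bridge to the KRON convention (`mstarBridge_chart`).
-/

set_option autoImplicit false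

open ModularCurve AlgebraicCurve Polynomial IntermediateField
open Fermat.Agent.S24 Fermat.Agent.S18

namespace Fermat.Agent.S34

/-- `K(w⁻¹) = K(w)`. -/
theorem mstar_adjoin_inv {K E : Type*} [Field K] [Field E] [Algebra K E] (w : E) :
    K⟮w⁻¹⟯ = K⟮w⟯ := by
  apply le_antisymm
  · rw [IntermediateField.adjoin_simple_le_iff]
    exact inv_mem (IntermediateField.mem_adjoin_simple_self K w)
  · rw [IntermediateField.adjoin_simple_le_iff]
    have h := inv_mem (IntermediateField.mem_adjoin_simple_self K w⁻¹)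
    rwa [inv_inv] at h

set_option synthInstance.maxHeartbeats 400000 in
set_option maxHeartbeats 2000000 in
/-- (M*) on the `S37` side, for one chart `w ∈ {j, j⁻¹}` and a number field `K` carrying the
cover package. -/
theorem mstar_core {M : ℕ} [NeZero M] {ℓ : ℕ} [Fact ℓ.Prime]
    {A : ValuationSubring (AlgebraicClosure ℚ)} (hA : A.LiesOverPrime ℓ)
    (cov : GoodCover ℓ A) (hsplit : S34CoverSplit cov)
    (K : IntermediateField ℚ (AlgebraicClosure ℚ)) [FiniteDimensional ℚ ↥K]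
    (hK : ∀ a ∈ cov.cusps, a ∈ K) (hpkg : CoverPkg cov M K)
    (ϖ : ↥(NumField.lam A K)) (hϖ : Irreducible ϖ)
    (w : ↥(modularFunctionFieldFullC ↥K M))
    (hw : w = GaussL.jC ↥K M ∨ w = (GaussL.jC ↥K M)⁻¹)
    (𝔐 : Ideal ↥(integralClosure (Algebra.adjoin ↥(NumField.lam A K) {w})
      ↥(modularFunctionFieldFullC ↥K M))) (h𝔐 : 𝔐.IsMaximal)
    (hπ𝔐 : algebraMap ↥(NumField.lam A K) _ ϖ ∈ 𝔐) :
    ∃ u, ModelLocGen (Ideal.span {algebraMap ↥(NumField.lam A K) _ ϖ}) 𝔐 u := by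
  classical
  obtain ⟨𝔽, i1, i2, i3, i4, e, x, hx, hfin, hgen, hcov, hE⟩ := hpkg
  obtain ⟨C, C', hC, hC', hB1, hB2, hB2'⟩ := hE ϖ hϖ
  have : IsDiscreteValuationRing ↥(NumField.lam A K) :=
    NumField.isDiscreteValuationRing_lam K hA
  obtain ⟨hdeg, hlead, hcop⟩ := S37.CoverE.basic_lam cov hA K
  obtain ⟨hfdG, hgal⟩ :=
    s34cg_isGalois_fieldRange cov hsplit K hK e x (GaussL.jC ↥K M) hx hgen hcov
  obtain ⟨hjtr, -⟩ := ModelAbs.cover_facts _ _ hdeg hlead x (e (GaussL.jC ↥K M)) hx hcov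
  have hjC : Transcendental ↥K (GaussL.jC ↥K M) := fun h =>
    hjtr ((isAlgebraic_algHom_iff e e.toRingHom.injective).mpr h)
  have hwtr : Transcendental ↥K w := by
    rcases hw with rfl | rfl
    · exact hjC
    · exact fun h => hjC (IsAlgebraic.inv_iff.mp h)
  have hFfd : FiniteDimensional ↥(↥K)⟮w⟯ ↥(modularFunctionFieldFullC ↥K M) := by
    rcases hw with rfl | rfl
    · exact (Char0DegK.finrank_adjoin_jC_le ↥K M).1
    · rw [mstar_adjoin_inv]
      exact (Char0DegK.finrank_adjoin_jC_le ↥K M).1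
  have : Finite (↥(NumField.lam A K) ⧸ Ideal.span {ϖ}) := by
    rw [← hϖ.maximalIdeal_eq]
    exact NumField.finite_residueField_lam K hA
  have hew : Transcendental ↥K (e w) := fun h =>
    hwtr ((isAlgebraic_algHom_iff e e.toRingHom.injective).mp h)
  have : FiniteDimensional ↥(↥K)⟮e w⟯ 𝔽 := s34_mpre_finiteDimensional e w
  refine s34_mstar_abs ϖ hϖ e w hwtr ?_ 𝔐 h𝔐 hπ𝔐
  intro 𝔐' h𝔐' hπ𝔐'
  have := h𝔐'
  have hres := s34_mpre_finite_quotient ϖ hϖ (e w) hew 𝔐' hπ𝔐'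
  exact s34_cover_chart_locGen ϖ hϖ _ _ hdeg hlead hcop C C'
    (fun c hc c' hc' hne hdvd => hϖ.not_isUnit (isUnit_of_dvd_unit hdvd (hC c hc c' hc' hne)))
    (fun c hc c' hc' hne hdvd => hϖ.not_isUnit (isUnit_of_dvd_unit hdvd (hC' c hc c' hc' hne)))
    x (e (GaussL.jC ↥K M)) hx hcov hB1 hB2 hB2' (e w)
    (by
      rcases hw with rfl | rfl
      · exact Or.inl rfl
      · exact Or.inr (map_inv₀ e _))
    𝔐' h𝔐' hπ𝔐' hres

set_option synthInstance.maxHeartbeats 400000 in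
set_option maxHeartbeats 2000000 in
/-- **(M*) EXPORT** (note P19-OUT MSTAR): local generators of the special fibre at every closed
point of both coarse charts of the level-`M` model, over every sufficiently large number field. -/
theorem s34_mstar (M : ℕ) [NeZero M] {q : ℕ} [Fact q.Prime]
    {A : ValuationSubring (AlgebraicClosure ℚ)} (hA : A.LiesOverPrime q) (hqM : ¬ q ∣ M) :
    ∃ (K₀ : IntermediateField ℚ (AlgebraicClosure ℚ)) (_ : FiniteDimensional ℚ ↥K₀),
      ∀ (K : IntermediateField ℚ (AlgebraicClosure ℚ)) [FiniteDimensional ℚ ↥K], K₀ ≤ K →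
        ∀ ϖ : ↥(NumField.lam A K).toSubring, Irreducible ϖ →
          S34MstarAt (NumField.lam A K).toSubring M ϖ := by
  obtain ⟨cov, -, hsplit⟩ := s34cg_exists_goodCover hA
  obtain ⟨K₀, hK₀fd, hcusps, hK₀⟩ := s34_cover_exists_cusps (N := M) cov hA hqM
  refine ⟨K₀, hK₀fd, fun K _ hK ϖ hϖ => ?_⟩
  have hpkg := hK₀ K inferInstance hK
  have hKc : ∀ a ∈ cov.cusps, a ∈ K := fun a ha =>
    hK (hcusps a (Finset.mem_union_left _ ha))
  refine ⟨mstarBridge_chart (NumField.lam A K).toSubring M (GaussL.jC ↥K M) _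
      (mstarBridge_coe_jL ↥K M) ϖ
      (fun 𝔐 h𝔐 hπ => mstar_core hA cov hsplit K hKc hpkg ϖ hϖ _ (Or.inl rfl) 𝔐 h𝔐 hπ),
    mstarBridge_chart (NumField.lam A K).toSubring M (GaussL.jC ↥K M)⁻¹ _
      (by
        show ((GaussL.jC ↥K M : ↥(modularFunctionFieldFullC ↥K M)) : LaurentSeries ↥K)⁻¹ =
          ((Fermat.Agent.S24.jL ↥K M : Fermat.Agent.S24.FFL ↥K M) : LaurentSeries ↥K)⁻¹
        rw [mstarBridge_coe_jL ↥K M]) ϖ
      (fun 𝔐 h𝔐 hπ => mstar_core hA cov hsplit K hKc hpkg ϖ hϖ _ (Or.inr rfl) 𝔐 h𝔐 hπ)⟩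

end Fermat.Agent.S34
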