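import Fermat.Prelude.Def_ModularCurve_ArithmeticGalois
import Fermat.Prelude.Def_FLTPrelim_Ramification
import Fermat.Agent.S34.GeoL
import Fermat.Agent.S34.GalSdTriv
import Fermat.Agent.S34.GalDict
import Fermat.Agent.S34.ModelM
import Fermat.Agent.S34.KronFrobEx
import Fermat.Agent.S37.Hecke

/-!
# P19 (S34): the geometric theorem GEO

`geo`: for `q ∥ N` and `m` prime to `q`, the second differences `(τ' - 1)(τ - 1)` of elements
`τ, τ'` of an inertia group at `q` kill the `m`-torsion of `J₀(N)(ℚ̄)`.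

Assembly: a Kummer generator `u` of an `m`-torsion class over a large normal number field `K`
(`s34gal_exists_kummer_field_monic`), the core `geo_core_L` at `L = K`, `Λ = A ∩ K`
(`geo_core_K`), and the translation back to the Jacobian (`s34gal_geo_of_pow_absSd`).
-/

set_option autoImplicit false
set_option linter.style.haveILetI false

namespace Fermat.Agent.S34

open ModularCurve AlgebraicCurve IntermediateField IsDedekindDomain
open Fermat.Agent.S18 Fermat.Agent.S18.NumField Fermat.Agent.S28.FreeBasisAbs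

local notation "Qb" => AlgebraicClosure ℚ

set_option maxHeartbeats 4000000 in
set_option synthInstance.maxHeartbeats 400000 in
/-- The core of GEO over a normal number field `K` containing enough roots of unity and over
which (M*) holds. -/
theorem geo_core_K (M q : ℕ) [NeZero M] (hq : q.Prime) (hqM : ¬ q ∣ M)
    (m : ℕ) (hmq : ¬ q ∣ m)
    (A : ValuationSubring Qb) (hA : A.LiesOverPrime q)
    (τ τ' : Qb ≃ₐ[ℚ] Qb)
    (hτ : τ ∈ A.inertiaSubgroupIn ℚ) (hτ' : τ' ∈ A.inertiaSubgroupIn ℚ)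
    (K : IntermediateField ℚ Qb) [FiniteDimensional ℚ ↥K] [Normal ℚ ↥K]
    (ζ : ↥(lam A K).toSubring) (hζ : IsPrimitiveRoot ζ m)
    (ζq : (↥K)ˣ) (hζq : IsPrimitiveRoot ζq q) (hζqΛ : (ζq : ↥K) ∈ (lam A K).toSubring)
    (hM : ∀ ϖ : ↥(lam A K).toSubring, Irreducible ϖ → S34MstarAt (lam A K).toSubring M ϖ)
    (u : ↥(laurentBaseChange (↥K) (modularFunctionFieldFull (M * q)))) (hu : u ≠ 0)
    (hlc : ((u : ↥(laurentBaseChange (↥K) (modularFunctionFieldFull (M * q)))) :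
      LaurentSeries ↥K).leadingCoeff = 1)
    (hrat : ∀ P : Place Qb (modularFunctionFieldBar (M * q)),
      P.ord (s34galEmb (modularFunctionFieldFull (M * q)) K u) ≠ 0 →
        s34galRational (modularFunctionFieldFull (M * q)) K P)
    (hdvd : ∀ P : Place Qb (modularFunctionFieldBar (M * q)),
      (m : ℤ) ∣ P.ord (s34galEmb (modularFunctionFieldFull (M * q)) K u)) :
    ∃ y : ↥(laurentBaseChange (↥K) (modularFunctionFieldFull (M * q))), y ^ m =
      absSd (arithmeticRingAut (modularFunctionFieldFull (M * q)) (τ.restrictNormal ↥K))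
        (arithmeticRingAut (modularFunctionFieldFull (M * q)) (τ'.restrictNormal ↥K)) u := by
  haveI : Fact q.Prime := ⟨hq⟩
  haveI : NeZero q := ⟨hq.ne_zero⟩
  have hcop : Nat.Coprime M q := ((Nat.Prime.coprime_iff_not_dvd hq).mpr hqM).symm
  obtain ⟨ι⟩ := s34geo_nonempty_emb K
  haveI := s34geo_isDVR A K hA
  haveI := s34geo_isFractionRing A K
  obtain ⟨ϖ, hϖ⟩ := exists_irreducible_lam (A := A) (K := K) hA
  have hΛ := isGaussRing_lam hA hϖ
  haveI : CharP (IsLocalRing.ResidueField (lam A K)) q := charP_residueField_lam K hA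
  obtain ⟨φ, hφΛ, hφ⟩ := kron_exists_frob A q hq hA K
  haveI := s34geo_isDedekindDomain_fin ↥K (M * q)
  haveI := s34geo_isFractionRing_fin ↥K (M * q)
  haveI := s34geo_isDedekindDomain_inv ↥K (M * q)
  haveI := s34geo_isFractionRing_inv ↥K (M * q)
  have hFF := Fermat.Agent.S37.isFF_modularFunctionFieldBar (M * q)
  exact geo_core_L ι M q hcop hΛ hq ζq hζq hζqΛ φ hφΛ hφ
    (hM (GaussL.piL hΛ) (GaussL.prime_piL hΛ).irreducible)
    m (s34geo_isUnit_natCast A K hA hmq) ζ hζ (τ.restrictNormal ↥K) (τ'.restrictNormal ↥K)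
    (s34gal_T_lam A K (modularFunctionFieldFull (M * q)) hτ)
    (s34gal_T_symm_lam A K (modularFunctionFieldFull (M * q)) hτ)
    (s34gal_T_lam A K (modularFunctionFieldFull (M * q)) hτ')
    (s34gal_T_symm_lam A K (modularFunctionFieldFull (M * q)) hτ')
    (s34gal_triv_V A K ι M hcop hA (GaussL.prime_piL hΛ) hτ)
    (s34gal_triv_V A K ι M hcop hA (GaussL.prime_piL hΛ) hτ')
    (s34gal_sd_V A K ι M hcop hA (GaussL.prime_piL hΛ) hτ hτ')
    u hu hlc
    (fun 𝔔 => s34gal_dict_dvd (modularFunctionFieldFull (M * q)) hFF K m u hu hdvd hrat 𝔔)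
    (fun 𝔔 => s34gal_dict_dvd (modularFunctionFieldFull (M * q)) hFF K m u hu hdvd hrat 𝔔)
    (fun 𝔔 h𝔔u => s34gal_dict_residue (modularFunctionFieldFull (M * q)) hFF K u hu hrat 𝔔 h𝔔u)
    (fun 𝔔 h𝔔u => s34gal_dict_residue (modularFunctionFieldFull (M * q)) hFF K u hu hrat 𝔔 h𝔔u)

/-- GEO at level `M * q`, `q ∤ M`. -/
theorem geo_core (M q : ℕ) [NeZero M] (hq : q.Prime) (hqM : ¬ q ∣ M)
    (m : ℕ) (hm : ¬ q ∣ m)
    (A : ValuationSubring (AlgebraicClosure ℚ)) (hA : A.LiesOverPrime q)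
    (τ τ' : AlgebraicClosure ℚ ≃ₐ[ℚ] AlgebraicClosure ℚ)
    (hτ : τ ∈ A.inertiaSubgroupIn ℚ) (hτ' : τ' ∈ A.inertiaSubgroupIn ℚ)
    (x : ModularCurve.JZero (M * q)) (hx : (m : ℤ) • x = 0) :
    τ' • τ • x - τ' • x - τ • x + x = 0 := by
  haveI : Fact q.Prime := ⟨hq⟩
  have hm0 : m ≠ 0 := by
    rintro rfl
    exact hm (dvd_zero q)
  have hx' : m • x = 0 := by
    rwa [natCast_zsmul] at hx
  -- the Kummer generator
  obtain ⟨D, K₁, hK₁, hD, hG1⟩ := s34gal_exists_kummer_field_monic (M * q) x hx'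
  -- roots of unity
  obtain ⟨K₂, hK₂, hroot⟩ := s34geo_exists_primitiveRoot A m hm0
  obtain ⟨K₃, hK₃, hrootq⟩ := s34geo_exists_primitiveRoot_unit A q hq.ne_zero
  -- (M*)
  obtain ⟨K₄, hK₄, hmstar⟩ := s34_mstar M hA hqM
  -- the number field
  haveI : FiniteDimensional ℚ ↥(K₁ ⊔ K₂) := IntermediateField.finiteDimensional_sup K₁ K₂
  haveI : FiniteDimensional ℚ ↥(K₃ ⊔ K₄) := IntermediateField.finiteDimensional_sup K₃ K₄
  haveI : FiniteDimensional ℚ ↥((K₁ ⊔ K₂) ⊔ (K₃ ⊔ K₄)) :=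
    IntermediateField.finiteDimensional_sup _ _
  obtain ⟨K, hK, hKn, hKf⟩ := s34geo_exists_normal ((K₁ ⊔ K₂) ⊔ (K₃ ⊔ K₄))
  have h1 : K₁ ≤ K := le_trans (le_trans le_sup_left le_sup_left) hK
  have h2 : K₂ ≤ K := le_trans (le_trans le_sup_right le_sup_left) hK
  have h3 : K₃ ≤ K := le_trans (le_trans le_sup_left le_sup_right) hK
  have h4 : K₄ ≤ K := le_trans (le_trans le_sup_right le_sup_right) hK
  obtain ⟨u, hu, hlc, hdiv, hrat, hdvd⟩ := hG1 K h1
  obtain ⟨ζ, hζ⟩ := hroot K h2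
  obtain ⟨ζq, hζq, hζqΛ⟩ := hrootq K h3
  obtain ⟨y, hy⟩ := geo_core_K M q hq hqM m hm A hA τ τ' hτ hτ' K ζ hζ ζq hζq hζqΛ
    (fun ϖ hϖ => hmstar K h4 ϖ hϖ) u hu hlc hrat hdvd
  exact s34gal_geo_of_pow_absSd (M * q) hm0 τ τ' x K D u y hD hu hdiv hy

/-- GEO: second differences of inertia kill the prime-to-`q` torsion of `J₀(N)`, `q ∥ N`. -/
theorem geo (N q : ℕ) [NeZero N] (hq : q.Prime) (hqN : q ∣ N) (hq2 : ¬ q ^ 2 ∣ N)
    (m : ℕ) (hm : ¬ q ∣ m)
    (A : ValuationSubring (AlgebraicClosure ℚ)) (hA : A.LiesOverPrime q)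
    (τ τ' : AlgebraicClosure ℚ ≃ₐ[ℚ] AlgebraicClosure ℚ)
    (hτ : τ ∈ A.inertiaSubgroupIn ℚ) (hτ' : τ' ∈ A.inertiaSubgroupIn ℚ)
    (x : ModularCurve.JZero N) (hx : (m : ℤ) • x = 0) :
    τ' • τ • x - τ' • x - τ • x + x = 0 := by
  obtain ⟨M, rfl⟩ : ∃ M, N = M * q := ⟨N / q, (Nat.div_mul_cancel hqN).symm⟩
  have hM0 : M ≠ 0 := by
    rintro rfl
    exact NeZero.ne (0 * q) (zero_mul q)
  haveI : NeZero M := ⟨hM0⟩
  have hqM : ¬ q ∣ M := by
    intro h
    apply hq2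
    rw [pow_two]
    exact Nat.mul_dvd_mul h dvd_rfl
  exact geo_core M q hq hqM m hm A hA τ τ' hτ hτ' x hx

end Fermat.Agent.S34
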