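import Fermat.Agent.S31.Main

/-!
# P19 (S34), block T: the transfer

`isUnipotentOnInertiaAt_of_geo`: the Galois representation of a Hecke–Galois datum has unipotent
inertia at a prime `q ≠ p`, given that for every `τ` in an inertia group at `q` the second
difference `(τ - 1) ^ 2` kills the `p ^ n`-torsion of `J₀(N)` (hypothesis `hgeo`).

Proof (pattern of P16 / S31): for `τ` in an inertia group at `q`,
* `tr ρ(τ) = 2`: modulo `𝔪 ^ n` the traces of `ρ(1)` and `ρ(τ)` are values of `π ∘ evHecke` at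
  Lucas elements of Frobenius lifts (`s34_exists_frob_pair`), whose difference kills the cuspidal
  characters modulo `p ^ n` (on a Kummer class `c` the two Lucas elements act as `c + c` and
  `τ c + τ⁻¹ c`, equal by `hgeo`), hence lies in `p ^ (n - c) 𝕋` (`S31.exists_bound`);
* `det ρ(τ) = 1`: modulo `𝔪 ^ n` it is `det ρ(σ' ^ j') = ℓ' ^ j' ≡ 1 (mod p ^ n)`;
* in rank two the characteristic polynomial is `X ^ 2 - tr X + det`.
-/

set_option autoImplicit false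
set_option linter.style.haveILetI false

namespace Fermat.Agent.S34

open Fermat.Agent.S42 Fermat.Agent.S30 Fermat.Agent.S31 CongruenceSubgroup ModularCurve Polynomial
open scoped MatrixGroups

namespace Transfer

/-- Congruent endomorphisms of a finite free module have congruent determinants. -/
theorem det_sub_mem_of_forall {R : Type*} [CommRing R] {V : Type*} [AddCommGroup V]
    [Module R V] [Module.Free R V] [Module.Finite R V] (I : Ideal R) (f g : Module.End R V)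
    (h : ∀ v : V, f v - g v ∈ I • (⊤ : Submodule R V)) :
    LinearMap.det f - LinearMap.det g ∈ I := by
  classical
  rw [← LinearMap.det_toMatrix (Module.Free.chooseBasis R V) f,
    ← LinearMap.det_toMatrix (Module.Free.chooseBasis R V) g, ← Ideal.Quotient.eq,
    RingHom.map_det, RingHom.map_det]
  congr 1
  ext i j
  rw [RingHom.mapMatrix_apply, RingHom.mapMatrix_apply, Matrix.map_apply, Matrix.map_apply,
    Ideal.Quotient.eq, LinearMap.toMatrix_apply, LinearMap.toMatrix_apply, ← Finsupp.sub_apply,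
    ← map_sub]
  exact TracePow.repr_mem_of_mem_smul_top _ I (h _) i

/-- If `s` and `g` agree on a level `L` at which `ρ` is trivial modulo `I`, then the determinants
of `ρ g` and `ρ s` agree modulo `I`. -/
theorem det_sub_mem {T : Type} [CommRing T] [IsLocalRing T] (ρ : GaloisRepAdic T)
    (I : Ideal T) (L : IntermediateField ℚ (AlgebraicClosure ℚ))
    (hL : ∀ σ : AlgebraicClosure ℚ ≃ₐ[ℚ] AlgebraicClosure ℚ, (∀ x ∈ L, σ x = x) →
      ∀ v : ρ.V, ρ.ρ σ v - v ∈ I • (⊤ : Submodule T ρ.V))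
    (g s : AlgebraicClosure ℚ ≃ₐ[ℚ] AlgebraicClosure ℚ) (hgs : ∀ x ∈ L, s x = g x) :
    LinearMap.det (ρ.ρ g) - LinearMap.det (ρ.ρ s) ∈ I := by
  refine det_sub_mem_of_forall I _ _ fun v => ?_
  have hfix : ∀ x ∈ L, (s⁻¹ * g) x = x := by
    intro x hx
    show s⁻¹ (g x) = x
    rw [← hgs x hx]
    exact s.symm_apply_apply x
  have h1 := hL (s⁻¹ * g) hfix v
  have h2 : ρ.ρ g v - ρ.ρ s v = ρ.ρ s (ρ.ρ (s⁻¹ * g) v - v) := by
    rw [map_sub, ← Module.End.mul_apply, ← map_mul, mul_inv_cancel_left]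
  rw [h2]
  have h3 : (I • (⊤ : Submodule T ρ.V)).map (ρ.ρ s) ≤ I • (⊤ : Submodule T ρ.V) := by
    rw [Submodule.map_smul'']
    exact Submodule.smul_mono le_rfl le_top
  exact h3 (Submodule.mem_map_of_mem h1)

/-- In rank two the characteristic polynomial is `X ^ 2 - tr X + det`. -/
theorem charpoly_eq_of_finrank_two {R : Type*} [CommRing R] [Nontrivial R] {V : Type*}
    [AddCommGroup V] [Module R V] [Module.Free R V] [Module.Finite R V]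
    (hV : Module.finrank R V = 2) (f : Module.End R V) :
    LinearMap.charpoly f = X ^ 2 - C (LinearMap.trace R V f) * X + C (LinearMap.det f) := by
  classical
  have b : Module.Basis (Fin 2) R V := Module.finBasisOfFinrankEq R V hV
  rw [← LinearMap.charpoly_toMatrix f b, Matrix.charpoly_fin_two,
    ← LinearMap.trace_eq_matrix_trace R b f, LinearMap.det_toMatrix b f]

/-- The value of a power of a Frobenius element fixing a primitive `p ^ n`-th root of unity. -/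
theorem pow_modEq_one {p : ℕ} (hp : p.Prime) (n : ℕ) {ℓ : ℕ} (hℓ : ℓ.Prime) (hℓp : ℓ ≠ p)
    {A : ValuationSubring (AlgebraicClosure ℚ)} (hA : A.LiesOverPrime ℓ)
    {σ : AlgebraicClosure ℚ ≃ₐ[ℚ] AlgebraicClosure ℚ} (hσ : A.IsFrobeniusAt σ ℓ)
    {ζ : AlgebraicClosure ℚ} (hζ : IsPrimitiveRoot ζ (p ^ n)) {j : ℕ} (h1 : (σ ^ j) ζ = ζ) :
    ℓ ^ j ≡ 1 [MOD p ^ n] := by
  have hpn : p ^ n ≠ 0 := pow_ne_zero _ hp.ne_zero
  have hζ1 : ζ ^ p ^ n = 1 := hζ.pow_eq_one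
  have e1 : (σ ^ j) ζ = ζ ^ ℓ ^ j := GeomCyclo.frobenius_pow_apply hp hℓ hℓp hA hσ j hζ1
  have h : ζ ^ ℓ ^ j = ζ ^ 1 := by rw [← e1, h1, pow_one]
  rw [(hζ.isOfFinOrder hpn).pow_eq_pow_iff_modEq, ← hζ.eq_orderOf] at h
  exact h

end Transfer

/-- **The Frobenius pair for S34.**  For `τ` in an inertia group at `q ≠ p` whose second
difference kills the `p`-power torsion of `J₀(N)`, a finite level `L` and `n`, there are good primes
`ℓ`, `ℓ'`, Frobenius elements `σ`, `σ'` at `ℓ`, `ℓ'` and exponents `j`, `j'` with `σ ^ j = 1` and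
`σ' ^ j' = τ` on `L`, `ℓ' ^ j' ≡ 1` modulo `p ^ n`, such that `lucasE ℓ j - lucasE ℓ' j'` kills
every cuspidal character `Γ₀(N) → ℤ/p ^ n`. -/
theorem s34_exists_frob_pair (N p : ℕ) [NeZero N] [Fact p.Prime] (S : Finset ℕ) (hpS : p ∈ S)
    (hNS : ∀ q : ℕ, q.Prime → q ∣ N → q ∈ S)
    (hE1 : ∀ n : ℕ, FrobeniusRelation N (p ^ n))
    (q : ℕ) (hq : q.Prime) (hqp : q ≠ p)
    (hgeo : ∀ n : ℕ, ∀ P : ValuationSubring (AlgebraicClosure ℚ), P.LiesOverPrime q →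
      ∀ τ ∈ P.inertiaSubgroupIn ℚ, ∀ x : JZero N, x ∈ Jp N (p ^ n) →
        τ • τ • x - (2 : ℤ) • τ • x + x = 0)
    (n : ℕ) (L : IntermediateField ℚ (AlgebraicClosure ℚ)) [FiniteDimensional ℚ L]
    (P : ValuationSubring (AlgebraicClosure ℚ)) (hP : P.LiesOverPrime q)
    (τ : AlgebraicClosure ℚ ≃ₐ[ℚ] AlgebraicClosure ℚ) (hτ : τ ∈ P.inertiaSubgroupIn ℚ) :
    ∃ (ℓ ℓ' : GoodPrime N (↑S : Set ℕ)) (A A' : ValuationSubring (AlgebraicClosure ℚ))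
      (σ σ' : AlgebraicClosure ℚ ≃ₐ[ℚ] AlgebraicClosure ℚ) (j j' : ℕ),
      A.LiesOverPrime ℓ ∧ A.IsFrobeniusAt σ ℓ ∧ A'.LiesOverPrime ℓ' ∧ A'.IsFrobeniusAt σ' ℓ' ∧
      (∀ x ∈ L, (σ ^ j) x = x) ∧ (∀ x ∈ L, (σ' ^ j') x = τ x) ∧
      ((ℓ' : ℕ) ^ j' ≡ 1 [MOD p ^ n]) ∧
      ∀ φ : Additive ↥(Gamma0 N) →+ ZMod (p ^ n), IsCuspidalHom N φ →
        evChar N (↑S : Set ℕ) (ZMod (p ^ n)) (lucasE ℓ j - lucasE ℓ' j') φ = 0 := by
  have hp : p.Prime := Fact.out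
  haveI : NeZero (p ^ n) := ⟨pow_ne_zero n hp.ne_zero⟩
  obtain ⟨L', hLL', hfd, hgal, ⟨ζ, hζL', hζ⟩, hfix⟩ := exists_galois_level N p n L
  haveI := hfd
  haveI := hgal
  obtain ⟨ℓ, A, σ, j, hℓ, hℓS, hA, hσ, hσg⟩ :=
    exists_frobenius_pow_eq_on L' (1 : AlgebraicClosure ℚ ≃ₐ[ℚ] AlgebraicClosure ℚ) S
  obtain ⟨ℓ', A', σ', j', hℓ', hℓ'S, hA', hσ', hσ'g⟩ := exists_frobenius_pow_eq_on L' τ S
  -- the primes outside `S` are good
  have key : ∀ r : ℕ, r.Prime → r ∉ S → r ≠ p ∧ ¬ r ∣ N ∧ ¬ r ∣ N * p ^ n := by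
    intro r hr hrS
    have h1 : r ≠ p := fun h => hrS (h ▸ hpS)
    have h2 : ¬ r ∣ N := fun h => hrS (hNS r hr h)
    refine ⟨h1, h2, fun h => ?_⟩
    rcases (Nat.Prime.dvd_mul hr).mp h with h3 | h3
    · exact h2 h3
    · exact h1 ((Nat.prime_dvd_prime_iff_eq hr hp).mp (hr.dvd_of_dvd_pow h3))
  obtain ⟨hℓp, hℓN, hℓNm⟩ := key ℓ hℓ hℓS
  obtain ⟨hℓ'p, hℓ'N, hℓ'Nm⟩ := key ℓ' hℓ' hℓ'S
  have hζ1 : ζ ^ p ^ n = 1 := hζ.pow_eq_one
  have hmod : ℓ ^ j ≡ 1 [MOD p ^ n] :=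
    Transfer.pow_modEq_one hp n hℓ hℓp hA hσ hζ (hσg ζ hζL')
  have hmod' : ℓ' ^ j' ≡ 1 [MOD p ^ n] :=
    Transfer.pow_modEq_one hp n hℓ' hℓ'p hA' hσ' hζ
      ((hσ'g ζ hζL').trans (cya_inertia_apply hp hq hqp hP hτ hζ1))
  refine ⟨⟨ℓ, hℓ, hℓN, hℓS⟩, ⟨ℓ', hℓ', hℓ'N, hℓ'S⟩, A, A', σ, σ', j, j', hA, hσ, hA', hσ',
    fun x hx => hσg x (hLL' hx), fun x hx => hσ'g x (hLL' hx), hmod', ?_⟩
  intro φ hφ
  obtain ⟨c, hc⟩ := exists_isKummer_of_cuspidal N (p ^ n) φ hφ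
  have hcJ : c ∈ Jp N (p ^ n) := isKummer_mem_Jp hc
  refine evChar_lucasE_sub_eq_zero_B (↑S : Set ℕ) ⟨ℓ, hℓ, hℓN, hℓS⟩ ⟨ℓ', hℓ', hℓ'N, hℓ'S⟩ j j' hc ?_
  have hfixc := hfix φ c hc
  obtain ⟨e1, e2⟩ := Geom.smul_eq_of_eqOn L' hfixc hσg
  obtain ⟨e1', e2'⟩ := Geom.smul_eq_of_eqOn L' hfixc hσ'g
  rw [one_smul] at e1
  rw [inv_one, one_smul] at e2
  -- `ℓ ^ j` and `ℓ' ^ j'` act as the identity on the torsion
  have e5 : ∀ x : JZero N, x ∈ Jp N (p ^ n) → ((ℓ : ℤ) ^ j) • x = x := by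
    intro x hx
    have h5 := Geom.zsmul_eq_of_modEq hmod hx
    rw [Nat.cast_pow, Nat.cast_one, one_smul] at h5
    exact h5
  have e5' : ∀ x : JZero N, x ∈ Jp N (p ^ n) → ((ℓ' : ℤ) ^ j') • x = x := by
    intro x hx
    have h5 := Geom.zsmul_eq_of_modEq hmod' hx
    rw [Nat.cast_pow, Nat.cast_one, one_smul] at h5
    exact h5
  -- the second difference at `τ⁻¹ • c`
  have hg := hgeo n P hP τ hτ (τ⁻¹ • c) (smul_mem_Jp τ⁻¹ hcJ)
  rw [smul_inv_smul] at hg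
  have hsum : τ • c + τ⁻¹ • c = c + c := by
    have h2 : (2 : ℤ) • c = c + c := two_zsmul c
    rw [h2] at hg
    have h3 : τ • c + τ⁻¹ • c = (τ • c - (c + c) + τ⁻¹ • c) + (c + c) := by abel
    rw [h3, hg, zero_add]
  have hl := lucas_heckeOperatorBar_apply (hE1 n) hℓ hℓNm A hA σ hσ j c hcJ
  have hl' := lucas_heckeOperatorBar_apply (hE1 n) hℓ' hℓ'Nm A' hA' σ' hσ' j' c hcJ
  rw [e1, e2, e5 c hcJ] at hl
  rw [e1', e2', e5' _ (smul_mem_Jp τ⁻¹ hcJ)] at hl'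
  exact hl.trans (hsum.symm.trans hl'.symm)

variable {p : ℕ} {N : ℕ} [NeZero N] {S : Finset ℕ}
  {𝒪 : Type} [CommRing 𝒪] [IsDomain 𝒪] [IsDiscreteValuationRing 𝒪]
  [IsAdicComplete (IsLocalRing.maximalIdeal 𝒪) 𝒪]
  {θ : CuspForm.heckeAlgebra N 2 (↑S : Set ℕ) →+* IsLocalRing.ResidueField 𝒪}
  {T : Type} [CommRing T] [IsLocalRing T] [IsNoetherianRing T]
  [IsAdicComplete (IsLocalRing.maximalIdeal T) T] [Algebra 𝒪 T] [IsLocalHom (algebraMap 𝒪 T)]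
  [Module.Finite 𝒪 T] [Module.Free 𝒪 T]

/-- **S34 modulo (E1) and the second-difference hypothesis.** -/
theorem isUnipotentOnInertiaAt_of_E (hp : p.Prime)
    (hp𝒪 : (p : 𝒪) ∈ IsLocalRing.maximalIdeal 𝒪) (hpS : p ∈ S)
    (hNS : ∀ q : ℕ, q.Prime → q ∣ N → q ∈ S)
    (H : CuspForm.HeckeGaloisRepDatum N (↑S : Set ℕ) 𝒪 θ T)
    (hE1 : ∀ n : ℕ, FrobeniusRelation N (p ^ n))
    (q : ℕ) (hq : q.Prime) (hqp : q ≠ p)
    (hgeo : ∀ n : ℕ, ∀ P : ValuationSubring (AlgebraicClosure ℚ), P.LiesOverPrime q →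
      ∀ τ ∈ P.inertiaSubgroupIn ℚ, ∀ x : JZero N, x ∈ Jp N (p ^ n) →
        τ • τ • x - (2 : ℤ) • τ • x + x = 0) :
    H.ρ.IsUnipotentOnInertiaAt q := by
  haveI : Fact p.Prime := ⟨hp⟩
  intro P hP τ hτ
  have hpT : (p : T) ∈ IsLocalRing.maximalIdeal T := by
    have h1 : (p : T) = algebraMap 𝒪 T (p : 𝒪) := (map_natCast (algebraMap 𝒪 T) p).symm
    rw [h1]
    exact map_nonunit (algebraMap 𝒪 T) _ hp𝒪
  obtain ⟨c, hc⟩ := exists_bound N (↑S : Set ℕ) p hp.pos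
  have hbot : (⨅ i : ℕ, IsLocalRing.maximalIdeal T ^ i) = ⊥ :=
    Ideal.iInf_pow_eq_bot_of_isLocalRing _ (Ideal.IsMaximal.ne_top inferInstance)
  -- the two congruences at every level
  have key : ∀ n : ℕ,
      LinearMap.trace T H.ρ.V (H.ρ.ρ τ) - LinearMap.trace T H.ρ.V (H.ρ.ρ 1)
        ∈ IsLocalRing.maximalIdeal T ^ (n - c) ∧
      LinearMap.det (H.ρ.ρ τ) - 1 ∈ IsLocalRing.maximalIdeal T ^ n := by
    intro n
    obtain ⟨L, hL, hcont⟩ := H.ρ.isAdicContinuous n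
    haveI := hL
    obtain ⟨ℓ, ℓ', A, A', σ, σ', j, j', hA, hσ, hA', hσ', hg, hτg, hmod, hev⟩ :=
      s34_exists_frob_pair N p S hpS hNS hE1 q hq hqp hgeo n L P hP τ hτ
    obtain ⟨t, ht⟩ := hc n _ hev
    have hle : IsLocalRing.maximalIdeal T ^ n ≤ IsLocalRing.maximalIdeal T ^ (n - c) :=
      Ideal.pow_le_pow_right (Nat.sub_le n c)
    have h1 : ∀ (ℓ : GoodPrime N (↑S : Set ℕ)) (A : ValuationSubring (AlgebraicClosure ℚ))
        (σ : AlgebraicClosure ℚ ≃ₐ[ℚ] AlgebraicClosure ℚ) (j : ℕ), A.LiesOverPrime ℓ →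
        A.IsFrobeniusAt σ ℓ →
        LinearMap.trace T H.ρ.V (H.ρ.ρ (σ ^ j)) = H.π (evHecke N (↑S : Set ℕ) (lucasE ℓ j)) := by
      intro ℓ A σ j hA hσ
      rw [map_pow, trace_pow_eq_lucas H.ρ.finrank_eq (H.ρ.ρ σ) _ _
        (H.charpoly_frob ℓ.1 ℓ.2.1 ℓ.2.2.1 ℓ.2.2.2 A hA σ hσ) j, evHecke_lucasE, map_lucas,
        map_natCast]
    constructor
    · have h3 := hle (Main.trace_sub_mem H.ρ _ L hcont 1 (σ ^ j) hg)
      have h4 := hle (Main.trace_sub_mem H.ρ _ L hcont τ (σ' ^ j') hτg)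
      rw [h1 ℓ A σ j hA hσ] at h3
      rw [h1 ℓ' A' σ' j' hA' hσ'] at h4
      have h5 : H.π (evHecke N (↑S : Set ℕ) (lucasE ℓ j))
          - H.π (evHecke N (↑S : Set ℕ) (lucasE ℓ' j'))
          ∈ IsLocalRing.maximalIdeal T ^ (n - c) := by
        rw [← map_sub, ← map_sub, ht, map_zsmul, zsmul_eq_mul, Int.cast_pow, Int.cast_natCast]
        exact Ideal.mul_mem_right _ _ (Ideal.pow_mem_pow hpT _)
      have h6 : LinearMap.trace T H.ρ.V (H.ρ.ρ τ) - LinearMap.trace T H.ρ.V (H.ρ.ρ 1)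
          = (LinearMap.trace T H.ρ.V (H.ρ.ρ τ) - H.π (evHecke N (↑S : Set ℕ) (lucasE ℓ' j')))
            - (LinearMap.trace T H.ρ.V (H.ρ.ρ 1) - H.π (evHecke N (↑S : Set ℕ) (lucasE ℓ j)))
            - (H.π (evHecke N (↑S : Set ℕ) (lucasE ℓ j))
                - H.π (evHecke N (↑S : Set ℕ) (lucasE ℓ' j'))) := by ring
      rw [h6]
      exact Ideal.sub_mem _ (Ideal.sub_mem _ h4 h3) h5
    · -- the determinant
      have hd1 := Transfer.det_sub_mem H.ρ _ L hcont τ (σ' ^ j') hτg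
      have hdσ : LinearMap.det (H.ρ.ρ σ') = ((ℓ' : ℕ) : T) := by
        rw [LinearMap.det_eq_sign_charpoly_coeff, H.ρ.finrank_eq,
          H.charpoly_frob ℓ'.1 ℓ'.2.1 ℓ'.2.2.1 ℓ'.2.2.2 A' hA' σ' hσ']
        simp
      have hd2 : LinearMap.det (H.ρ.ρ (σ' ^ j')) = (((ℓ' : ℕ) ^ j' : ℕ) : T) := by
        rw [map_pow, map_pow, hdσ, Nat.cast_pow]
      have hd3 : (((ℓ' : ℕ) ^ j' : ℕ) : T) - 1 ∈ IsLocalRing.maximalIdeal T ^ n := by
        obtain ⟨k, hk⟩ := (Nat.modEq_iff_dvd.mp hmod.symm)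
        have h7 : (((ℓ' : ℕ) ^ j' : ℕ) : T) - 1 = (p : T) ^ n * (k : T) := by
          have h8 := congrArg (Int.cast : ℤ → T) hk
          push_cast at h8
          push_cast
          rw [h8]
        rw [h7]
        exact Ideal.mul_mem_right _ _ (Ideal.pow_mem_pow hpT n)
      have h9 : LinearMap.det (H.ρ.ρ τ) - 1
          = (LinearMap.det (H.ρ.ρ τ) - LinearMap.det (H.ρ.ρ (σ' ^ j')))
            + ((((ℓ' : ℕ) ^ j' : ℕ) : T) - 1) := by
        rw [hd2]; ring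
      rw [h9]
      exact Ideal.add_mem _ hd1 hd3
  -- the trace
  have htr : LinearMap.trace T H.ρ.V (H.ρ.ρ τ) = 2 := by
    have hmem : LinearMap.trace T H.ρ.V (H.ρ.ρ τ) - LinearMap.trace T H.ρ.V (H.ρ.ρ 1)
        ∈ (⨅ i : ℕ, IsLocalRing.maximalIdeal T ^ i) := by
      rw [Ideal.mem_iInf]
      intro i
      have := (key (i + c)).1
      rwa [Nat.add_sub_cancel] at this
    rw [hbot, Ideal.mem_bot] at hmem
    rw [sub_eq_zero.mp hmem, map_one, LinearMap.trace_one, H.ρ.finrank_eq]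
    norm_num
  -- the determinant
  have hdet : LinearMap.det (H.ρ.ρ τ) = 1 := by
    have hmem : LinearMap.det (H.ρ.ρ τ) - 1 ∈ (⨅ i : ℕ, IsLocalRing.maximalIdeal T ^ i) := by
      rw [Ideal.mem_iInf]
      exact fun i => (key i).2
    rw [hbot, Ideal.mem_bot] at hmem
    exact sub_eq_zero.mp hmem
  rw [Transfer.charpoly_eq_of_finrank_two H.ρ.finrank_eq, htr, hdet]
  simp only [map_ofNat, map_one]
  ring

/-- **S34 modulo the second-difference hypothesis** (block T of P19): (E1) is supplied by P12. -/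
theorem isUnipotentOnInertiaAt_of_geo (hp : p.Prime)
    (hp𝒪 : (p : 𝒪) ∈ IsLocalRing.maximalIdeal 𝒪) (hpS : p ∈ S)
    (hNS : ∀ q : ℕ, q.Prime → q ∣ N → q ∈ S)
    (H : CuspForm.HeckeGaloisRepDatum N (↑S : Set ℕ) 𝒪 θ T)
    (q : ℕ) (hq : q.Prime) (hqp : q ≠ p)
    (hgeo : ∀ n : ℕ, ∀ P : ValuationSubring (AlgebraicClosure ℚ), P.LiesOverPrime q →
      ∀ τ ∈ P.inertiaSubgroupIn ℚ, ∀ x : JZero N, x ∈ Jp N (p ^ n) →
        τ • τ • x - (2 : ℤ) • τ • x + x = 0) :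
    H.ρ.IsUnipotentOnInertiaAt q :=
  isUnipotentOnInertiaAt_of_E hp hp𝒪 hpS hNS H (fun n => Main.frobeniusRelation_pow N p n)
    q hq hqp hgeo

end Fermat.Agent.S34
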