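import Fermat.Agent.S18.CechAux
import Fermat.Agent.S18.Basic

/-!
P19 (S34), block ABS: **chart overlap** for the local hypothesis of the Kummer engine.

The Kummer engine `s34_kummer_engine` asks for its local datum (the `LOCF` atom) at every maximal
ideal `𝔪 ∋ π` of both charts `B_fin` (integral closure of `Λ[j]`) and `B_inf` (integral closure
of `Λ[j⁻¹]`).  The closed points of the second chart at which `j⁻¹` does not vanish are also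
closed points of the first chart.  `abs_locf_inf_of_fin` makes this precise at the level of the
atoms: the atom at a maximal ideal `𝔪` of `B_inf` with `j⁻¹ ∉ 𝔪` follows from the atoms at the
maximal ideals of `B_fin`.  Hence the second chart only has to be treated at the points with
`j⁻¹ ∈ 𝔪` (the cusps).
-/

set_option autoImplicit false

namespace Fermat.Agent.S34

open Fermat.Agent.S18

/-- **Chart overlap.**  The local datum of the Kummer engine at a maximal ideal `𝔪` of the chart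
`B_inf` with `j⁻¹ ∉ 𝔪` follows from the local data at the maximal ideals of the chart `B_fin`.
(The shape of the datum is verbatim the one of `s34_kummer_engine`; `z` and `m` are arbitrary.) -/
theorem abs_locf_inf_of_fin
    {Λ F : Type*} [CommRing Λ] [Field F] [Algebra Λ F]
    (π : Λ) (hπ : Prime π) (j : F) (hj0 : j ≠ 0) (m : ℕ) (z : F)
    (hfin : ∀ 𝔪 : Ideal ↥(integralClosure (Algebra.adjoin Λ {j}) F), 𝔪.IsMaximal →
      algebraMap Λ ↥(integralClosure (Algebra.adjoin Λ {j}) F) π ∈ 𝔪 →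
      ∃ g : F, g ≠ 0 ∧ IsIntegral (gaussSub π hπ j) g⁻¹ ∧
        (∃ δ : F, IsIntegral (gaussSub π hπ j) δ ∧ g - 1 = π • δ) ∧
        ∃ c : ↥(integralClosure (Algebra.adjoin Λ {j}) F), c ∉ 𝔪 ∧
          IsIntegral (Algebra.adjoin Λ {j}) ((c : F) * z * (g ^ m)⁻¹))
    (𝔪 : Ideal ↥(integralClosure (Algebra.adjoin Λ {j⁻¹}) F)) (h𝔪 : 𝔪.IsMaximal)
    (hπ𝔪 : algebraMap Λ ↥(integralClosure (Algebra.adjoin Λ {j⁻¹}) F) π ∈ 𝔪)
    (hj𝔪 : ∀ a : ↥(integralClosure (Algebra.adjoin Λ {j⁻¹}) F), (a : F) = j⁻¹ → a ∉ 𝔪) :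
    ∃ g : F, g ≠ 0 ∧ IsIntegral (gaussSub π hπ j) g⁻¹ ∧
      (∃ δ : F, IsIntegral (gaussSub π hπ j) δ ∧ g - 1 = π • δ) ∧
      ∃ c : ↥(integralClosure (Algebra.adjoin Λ {j⁻¹}) F), c ∉ 𝔪 ∧
        IsIntegral (Algebra.adjoin Λ {j⁻¹}) ((c : F) * z * (g ^ m)⁻¹) := by
  classical
  have hjj : j * j⁻¹ = 1 := mul_inv_cancel₀ hj0
  -- `j⁻¹` as an element of `B_inf`
  have hsint : IsIntegral (Algebra.adjoin Λ {j⁻¹}) (j⁻¹ : F) :=
    isIntegral_algebraMap (R := Algebra.adjoin Λ {j⁻¹})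
      (x := ⟨j⁻¹, Algebra.self_mem_adjoin_singleton Λ j⁻¹⟩)
  set s : ↥(integralClosure (Algebra.adjoin Λ {j⁻¹}) F) := ⟨j⁻¹, hsint⟩ with hs
  have hs𝔪 : s ∉ 𝔪 := hj𝔪 s rfl
  have hspow : ∀ n : ℕ, s ^ n ∉ 𝔪 := fun n hn => hs𝔪 (h𝔪.isPrime.mem_of_pow_mem n hn)
  -- scaling: elements of `B_fin` are pushed into `B_inf` by powers of `j⁻¹`
  have hscale : ∀ r : F, IsIntegral (Algebra.adjoin Λ {j}) r →
      ∃ N : ℕ, ∀ e : ℕ, N ≤ e → IsIntegral (Algebra.adjoin Λ {j⁻¹}) (j⁻¹ ^ e * r) :=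
    fun r hr => CechAux.exists_forall_isIntegral_inv_pow_mul hjj hr
  -- the ideal of `B_fin` defined by `𝔪`
  let 𝔪' : Ideal ↥(integralClosure (Algebra.adjoin Λ {j}) F) :=
    { carrier := {b | ∃ n : ℕ, ∃ a ∈ 𝔪, (a : F) = j⁻¹ ^ n * (b : F)}
      zero_mem' := ⟨0, 0, 𝔪.zero_mem, by simp⟩
      add_mem' := by
        rintro b₁ b₂ ⟨n₁, a₁, ha₁, h₁⟩ ⟨n₂, a₂, ha₂, h₂⟩
        refine ⟨n₁ + n₂, s ^ n₂ * a₁ + s ^ n₁ * a₂,
          𝔪.add_mem (𝔪.mul_mem_left _ ha₁) (𝔪.mul_mem_left _ ha₂), ?_⟩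
        push_cast
        rw [h₁, h₂, pow_add]
        ring
      smul_mem' := by
        rintro r b ⟨n, a, ha, h⟩
        obtain ⟨N, hN⟩ := hscale (r : F) r.2
        refine ⟨N + n, (⟨j⁻¹ ^ N * (r : F), hN N le_rfl⟩ :
          ↥(integralClosure (Algebra.adjoin Λ {j⁻¹}) F)) * a, 𝔪.mul_mem_left _ ha, ?_⟩
        push_cast
        rw [h, pow_add, smul_eq_mul]
        push_cast
        ring }
  have hmem' : ∀ b : ↥(integralClosure (Algebra.adjoin Λ {j}) F),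
      b ∈ 𝔪' ↔ ∃ n : ℕ, ∃ a ∈ 𝔪, (a : F) = j⁻¹ ^ n * (b : F) := fun b => Iff.rfl
  have hne : 𝔪' ≠ ⊤ := by
    intro htop
    have h1 : (1 : ↥(integralClosure (Algebra.adjoin Λ {j}) F)) ∈ 𝔪' := by
      rw [htop]; trivial
    obtain ⟨n, a, ha, h⟩ := (hmem' 1).mp h1
    refine hspow n ?_
    have : s ^ n = a := by
      apply Subtype.ext
      rw [h, OneMemClass.coe_one, mul_one, SubmonoidClass.coe_pow]
    rw [this]
    exact ha
  obtain ⟨𝔫, h𝔫, hle⟩ := Ideal.exists_le_maximal 𝔪' hne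
  have hπ𝔫 : algebraMap Λ ↥(integralClosure (Algebra.adjoin Λ {j}) F) π ∈ 𝔫 := by
    refine hle ((hmem' _).mpr ⟨0, _, hπ𝔪, ?_⟩)
    simp
  obtain ⟨g, hg0, hginv, hg1, c', hc', hint⟩ := hfin 𝔫 h𝔫 hπ𝔫
  obtain ⟨N₁, hN₁⟩ := hscale _ hint
  obtain ⟨N₂, hN₂⟩ := hscale (c' : F) c'.2
  refine ⟨g, hg0, hginv, hg1,
    ⟨j⁻¹ ^ (N₁ + N₂) * (c' : F), hN₂ _ (Nat.le_add_left _ _)⟩, ?_, ?_⟩
  · intro hc
    exact hc' (hle ((hmem' c').mpr ⟨N₁ + N₂, _, hc, rfl⟩))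
  · have := hN₁ (N₁ + N₂) (Nat.le_add_right _ _)
    have h2 : j⁻¹ ^ (N₁ + N₂) * (c' : F) * z * (g ^ m)⁻¹
        = j⁻¹ ^ (N₁ + N₂) * ((c' : F) * z * (g ^ m)⁻¹) := by ring
    show IsIntegral (Algebra.adjoin Λ {j⁻¹}) (j⁻¹ ^ (N₁ + N₂) * (c' : F) * z * (g ^ m)⁻¹)
    rw [h2]
    exact this

end Fermat.Agent.S34
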