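import Mathlib
import Fermat.Agent.S18.GaussLineF

/-!
# P19 (S34), block ABS: the chart rings are noetherian domains

For a DVR `Λ` with fraction field `K` of characteristic zero, `t ∈ F` transcendental over `K` with
`F / K(t)` finite: the integral closure of `Λ[t]` in `F` is a noetherian ring (finite over the
noetherian ring `Λ[t]`, S18 `finite_integralClosure`).
-/

set_option autoImplicit false

namespace Fermat.Agent.S34

open IntermediateField Polynomial

section

variable {Λ F : Type*} [CommRing Λ] [Field F] [Algebra Λ F]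

/-- `Λ[t]` is noetherian when `Λ` is. -/
theorem abs_isNoetherianRing_adjoin [IsNoetherianRing Λ] (t : F) :
    IsNoetherianRing ↥(Algebra.adjoin Λ {t}) := by
  have hfg : (Algebra.adjoin Λ {t}).FG := ⟨{t}, by simp⟩
  have : Algebra.FiniteType Λ ↥(Algebra.adjoin Λ {t}) :=
    (Subalgebra.fg_iff_finiteType _).mp hfg
  exact Algebra.FiniteType.isNoetherianRing Λ _

end

section

variable {Λ K F : Type*} [CommRing Λ] [IsDomain Λ] [IsDiscreteValuationRing Λ] [Field K]
  [CharZero K] [Algebra Λ K] [IsFractionRing Λ K] [Field F] [Algebra K F] [Algebra Λ F]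
  [IsScalarTower Λ K F]

/-- The integral closure of `Λ[t]` in `F` is a noetherian ring. -/
theorem abs_isNoetherianRing_chart {t : F} (ht : Transcendental K t) [FiniteDimensional K⟮t⟯ F] :
    IsNoetherianRing ↥(integralClosure (Algebra.adjoin Λ {t}) F) := by
  have h1 : IsNoetherianRing ↥(Algebra.adjoin Λ {t}) := abs_isNoetherianRing_adjoin t
  have h2 : Module.Finite ↥(Algebra.adjoin Λ {t}) ↥(integralClosure (Algebra.adjoin Λ {t}) F) :=
    S18.GaussLineK.finite_integralClosure (Λ := Λ) ht
  exact IsNoetherianRing.of_finite ↥(Algebra.adjoin Λ {t})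
    ↥(integralClosure (Algebra.adjoin Λ {t}) F)

/-- The integral closure of `Λ[t⁻¹]` in `F` is a noetherian ring (hypotheses in terms of `t`). -/
theorem abs_isNoetherianRing_chart_inv {t : F} (ht : Transcendental K t)
    [FiniteDimensional K⟮t⟯ F] :
    IsNoetherianRing ↥(integralClosure (Algebra.adjoin Λ {t⁻¹}) F) := by
  have hti : Transcendental K t⁻¹ := by
    intro h
    exact ht (by simpa using h.inv)
  have hadj : K⟮t⁻¹⟯ = K⟮t⟯ := by
    apply le_antisymm
    · rw [adjoin_simple_le_iff]
      exact inv_mem (mem_adjoin_simple_self K t)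
    · rw [adjoin_simple_le_iff]
      have := inv_mem (mem_adjoin_simple_self K t⁻¹)
      rwa [inv_inv] at this
  have hfd : FiniteDimensional K⟮t⁻¹⟯ F := by
    rw [hadj]
    infer_instance
  exact abs_isNoetherianRing_chart (Λ := Λ) hti

end

end Fermat.Agent.S34
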