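import Mathlib
import Fermat.Agent.S34.ModelMDefs
import Fermat.Agent.S18.ModelInsts
import Fermat.Agent.S18.NumField
import Fermat.Agent.S18.Char0DegK
import Fermat.Agent.S18.Descent
import Fermat.Agent.S24.Defs

/-!
# P19 (S34), MODEL-M: bridge between the two conventions for the level-`M` function field

* `S18`/`S37` (cover side): `modularFunctionFieldFullC L M`, `GaussL.jC L M`;
* `S24`/`KRON`/integration side: `laurentBaseChange L (modularFunctionFieldFull M)`, `S24.jL L M`.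

The two intermediate fields of `L((q))` are equal (`S18.Descent.fullC_eq_laurentBaseChange`) and
the two `j` have the same series, so every statement written uniformly in the pair `(F, j)` can
be transported (`s34bridge_transport`, `s34bridge_fullC`).  Also: `Λ / ϖ` is finite for
`Λ = A ∩ K` (`s34bridge_finite_quot`).
-/

set_option autoImplicit false

namespace Fermat.Agent.S34

open ModularCurve Fermat.Agent.S18

section Transport

variable {L : Type*} [Field L]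

/-- Transport of a property of a pair `(F, j)`, `F` an intermediate field of `L((q))` and
`j ∈ F`, along an equality of fields and of the underlying series. -/
theorem s34bridge_transport (Pr : ∀ F : IntermediateField L (LaurentSeries L), ↥F → Prop)
    {F₁ F₂ : IntermediateField L (LaurentSeries L)} (h : F₁ = F₂) {j₁ : ↥F₁} {j₂ : ↥F₂}
    (hj : (j₁ : LaurentSeries L) = (j₂ : LaurentSeries L)) : Pr F₁ j₁ ↔ Pr F₂ j₂ := by
  subst h
  obtain rfl : j₁ = j₂ := Subtype.ext hj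
  exact Iff.rfl

/-- Transport of a property of a field `F` alone. -/
theorem s34bridge_transport_field (Pr : IntermediateField L (LaurentSeries L) → Prop)
    {F₁ F₂ : IntermediateField L (LaurentSeries L)} (h : F₁ = F₂) : Pr F₁ ↔ Pr F₂ := by
  subst h
  exact Iff.rfl

variable [Algebra ℚ L]

/-- The two names of `j` have the same series. -/
theorem s34bridge_coe_jL (M : ℕ) [NeZero M] :
    ((Fermat.Agent.S24.jL L M : ↥(laurentBaseChange L (modularFunctionFieldFull M))) :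
      LaurentSeries L) = ((GaussL.jC L M : ↥(modularFunctionFieldFullC L M)) : LaurentSeries L) := by
  show coeffEmb L jq = jqModC L
  rw [coeffEmb, ← jqModC_rat, coeffMap_jqModC]

/-- **Bridge**: a property of `(modularFunctionFieldFullC L M, GaussL.jC L M)` is a property of
`(laurentBaseChange L (modularFunctionFieldFull M), S24.jL L M)`. -/
theorem s34bridge_fullC (M : ℕ) [NeZero M]
    (Pr : ∀ F : IntermediateField L (LaurentSeries L), ↥F → Prop) :
    Pr (modularFunctionFieldFullC L M) (GaussL.jC L M) ↔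
      Pr (laurentBaseChange L (modularFunctionFieldFull M)) (Fermat.Agent.S24.jL L M) :=
  s34bridge_transport Pr (Descent.fullC_eq_laurentBaseChange L M) (s34bridge_coe_jL M).symm

end Transport

section Abs

variable {Λ₁ Λ₂ F₁ F₂ : Type*} [CommRing Λ₁] [CommRing Λ₂] [Field F₁] [Field F₂]
  [Algebra Λ₁ F₁] [Algebra Λ₂ F₂]

/-- A ring hom compatible with the structure maps sends `Λ₁[w₁]` into `Λ₂[w₂]`. -/
theorem s34bridge_adjoin_map (σ : Λ₁ →+* Λ₂) (e : F₁ →+* F₂)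
    (hσ : ∀ x, e (algebraMap Λ₁ F₁ x) = algebraMap Λ₂ F₂ (σ x)) {w₁ : F₁} {w₂ : F₂}
    (hw : e w₁ = w₂) {x : F₁} (hx : x ∈ Algebra.adjoin Λ₁ {w₁}) :
    e x ∈ Algebra.adjoin Λ₂ {w₂} := by
  induction hx using Algebra.adjoin_induction with
  | mem x hx =>
    obtain rfl : x = w₁ := hx
    rw [hw]
    exact Algebra.self_mem_adjoin_singleton Λ₂ w₂
  | algebraMap r =>
    rw [hσ]
    exact Subalgebra.algebraMap_mem _ _
  | add x y _ _ hx hy =>
    rw [map_add]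
    exact Subalgebra.add_mem _ hx hy
  | mul x y _ _ hx hy =>
    rw [map_mul]
    exact Subalgebra.mul_mem _ hx hy

/-- ... and integral elements over `Λ₁[w₁]` to integral elements over `Λ₂[w₂]`. -/
theorem s34bridge_isIntegral_map (σ : Λ₁ →+* Λ₂) (e : F₁ →+* F₂)
    (hσ : ∀ x, e (algebraMap Λ₁ F₁ x) = algebraMap Λ₂ F₂ (σ x)) {w₁ : F₁} {w₂ : F₂}
    (hw : e w₁ = w₂) {x : F₁} (hx : IsIntegral ↥(Algebra.adjoin Λ₁ {w₁}) x) :
    IsIntegral ↥(Algebra.adjoin Λ₂ {w₂}) (e x) := by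
  let φ : ↥(Algebra.adjoin Λ₁ {w₁}) →+* ↥(Algebra.adjoin Λ₂ {w₂}) :=
    { toFun := fun y => ⟨e y.1, s34bridge_adjoin_map σ e hσ hw y.2⟩
      map_one' := Subtype.ext (map_one e)
      map_mul' := fun a b => Subtype.ext (map_mul e _ _)
      map_zero' := Subtype.ext (map_zero e)
      map_add' := fun a b => Subtype.ext (map_add e _ _) }
  exact hx.map_of_comp_eq φ e (RingHom.ext fun y => rfl)

/-- The ring isomorphism between the two chart rings induced by `e : F₁ ≃+* F₂`. -/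
noncomputable def s34bridgeEquiv (σ : Λ₁ ≃+* Λ₂) (e : F₁ ≃+* F₂)
    (hσ : ∀ x, e (algebraMap Λ₁ F₁ x) = algebraMap Λ₂ F₂ (σ x)) {w₁ : F₁} {w₂ : F₂}
    (hw : e w₁ = w₂) :
    ↥(integralClosure (Algebra.adjoin Λ₁ {w₁}) F₁) ≃+*
      ↥(integralClosure (Algebra.adjoin Λ₂ {w₂}) F₂) where
  toFun y := ⟨e y.1, s34bridge_isIntegral_map (σ : Λ₁ →+* Λ₂) (e : F₁ →+* F₂) hσ hw y.2⟩
  invFun y := ⟨e.symm y.1, s34bridge_isIntegral_map (σ.symm : Λ₂ →+* Λ₁) (e.symm : F₂ →+* F₁)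
    (fun x => by
      show e.symm (algebraMap Λ₂ F₂ x) = algebraMap Λ₁ F₁ (σ.symm x)
      rw [RingEquiv.symm_apply_eq, hσ, RingEquiv.apply_symm_apply])
    (by show e.symm w₂ = w₁; rw [RingEquiv.symm_apply_eq, hw]) y.2⟩
  left_inv y := Subtype.ext (e.symm_apply_apply _)
  right_inv y := Subtype.ext (e.apply_symm_apply _)
  map_mul' a b := Subtype.ext (map_mul e _ _)
  map_add' a b := Subtype.ext (map_add e _ _)

theorem s34bridgeEquiv_coe (σ : Λ₁ ≃+* Λ₂) (e : F₁ ≃+* F₂)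
    (hσ : ∀ x, e (algebraMap Λ₁ F₁ x) = algebraMap Λ₂ F₂ (σ x)) {w₁ : F₁} {w₂ : F₂}
    (hw : e w₁ = w₂) (y : ↥(integralClosure (Algebra.adjoin Λ₁ {w₁}) F₁)) :
    ((s34bridgeEquiv σ e hσ hw y : ↥(integralClosure (Algebra.adjoin Λ₂ {w₂}) F₂)) : F₂)
      = e (y : F₁) := rfl

/-- Transport of `ModelLocGen` along a ring isomorphism. -/
theorem s34bridge_locGen_equiv {B₁ B₂ : Type*} [CommRing B₁] [CommRing B₂] (ψ : B₁ ≃+* B₂)
    {π₁ : B₁} {π₂ : B₂} (hπ : ψ π₁ = π₂) (𝔐 : Ideal B₂) {u : B₁}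
    (hu : ModelLocGen (Ideal.span {π₁}) (𝔐.comap ψ.toRingHom) u) :
    ModelLocGen (Ideal.span {π₂}) 𝔐 (ψ u) := by
  refine modelLocGen_of_exists_eq (Ideal.mem_comap.mp hu.mem) fun z hz => ?_
  have hz' : ψ.symm z ∈ 𝔐.comap ψ.toRingHom := by
    rw [Ideal.mem_comap]
    show ψ (ψ.symm z) ∈ 𝔐
    rwa [RingEquiv.apply_symm_apply]
  obtain ⟨a, c, d, ha, hc, h1⟩ := hu.exists_eq hz'
  obtain ⟨r, rfl⟩ := Ideal.mem_span_singleton'.mp hc
  refine ⟨ψ a, ψ (r * π₁), ψ d, fun h => ha (Ideal.mem_comap.mpr h), ?_, ?_⟩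
  · rw [map_mul, hπ]
    exact Ideal.mem_span_singleton'.mpr ⟨ψ r, rfl⟩
  · have h2 := congrArg ψ h1
    rw [map_mul, RingEquiv.apply_symm_apply, map_add, map_mul ψ u d] at h2
    exact h2

/-- **Abstract bridge**: the statement "every closed point of the chart ring
`integralClosure Λ[w]` of `F` over `ϖ` has a local generator" is invariant under isomorphisms
of the data `(Λ → F, w, ϖ)`.  The element `π₂` is any element of the second chart ring whose
image in `F₂` is the image of `ϖ₁` (so no instance path for `Λ₂ → chart ring` is involved). -/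
theorem s34bridge_chart_abs (σ : Λ₁ ≃+* Λ₂) (e : F₁ ≃+* F₂)
    (hσ : ∀ x, e (algebraMap Λ₁ F₁ x) = algebraMap Λ₂ F₂ (σ x)) {w₁ : F₁} {w₂ : F₂}
    (hw : e w₁ = w₂) (ϖ₁ : Λ₁)
    (h : ∀ 𝔐 : Ideal ↥(integralClosure (Algebra.adjoin Λ₁ {w₁}) F₁), 𝔐.IsMaximal →
      algebraMap Λ₁ _ ϖ₁ ∈ 𝔐 → ∃ u, ModelLocGen (Ideal.span {algebraMap Λ₁ _ ϖ₁}) 𝔐 u)
    (π₂ : ↥(integralClosure (Algebra.adjoin Λ₂ {w₂}) F₂))
    (hπ₂ : (π₂ : F₂) = e (algebraMap Λ₁ F₁ ϖ₁))
    (𝔐 : Ideal ↥(integralClosure (Algebra.adjoin Λ₂ {w₂}) F₂)) (h𝔐 : 𝔐.IsMaximal)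
    (hmem : π₂ ∈ 𝔐) : ∃ u, ModelLocGen (Ideal.span {π₂}) 𝔐 u := by
  set ψ := s34bridgeEquiv σ e hσ hw with hψ
  have hπ : ψ (algebraMap Λ₁ _ ϖ₁) = π₂ := by
    apply Subtype.ext
    rw [hπ₂]
    rfl
  have hmax : (𝔐.comap ψ.toRingHom).IsMaximal :=
    Ideal.comap_isMaximal_of_surjective ψ.toRingHom ψ.surjective (H := h𝔐)
  have hmem' : algebraMap Λ₁ _ ϖ₁ ∈ 𝔐.comap ψ.toRingHom := by
    rw [Ideal.mem_comap]
    show ψ _ ∈ 𝔐
    rw [hπ]
    exact hmem
  obtain ⟨u, hu⟩ := h _ hmax hmem'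
  exact ⟨ψ u, s34bridge_locGen_equiv ψ hπ 𝔐 hu⟩

end Abs

section Gen

variable {L : Type*} [Field L]

/-- The identity between two equal intermediate fields of `L((q))`, as a ring isomorphism. -/
noncomputable def s34bridgeFieldEquiv {F₁ F₂ : IntermediateField L (LaurentSeries L)}
    (h : F₁ = F₂) : ↥F₁ ≃+* ↥F₂ where
  toFun x := ⟨x.1, h ▸ x.2⟩
  invFun x := ⟨x.1, h ▸ x.2⟩
  left_inv _ := rfl
  right_inv _ := rfl
  map_mul' _ _ := rfl
  map_add' _ _ := rfl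

theorem s34bridgeFieldEquiv_coe {F₁ F₂ : IntermediateField L (LaurentSeries L)}
    (h : F₁ = F₂) (x : ↥F₁) : ((s34bridgeFieldEquiv h x : ↥F₂) : LaurentSeries L) = x := rfl

variable [Algebra ℚ L]

/-- **Bridge, generic form**: (M*) for a chart of `modularFunctionFieldFullC L M` over a ring
`Λ₁ ≃ Λ` (any algebra structure whose structure map is the constant embedding) gives
`S34MstarChart Λ M w (σ ϖ₁)`. -/
theorem s34bridge_chart_gen (Λ : Subring L) (M : ℕ)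
    {Λ₁ : Type*} [CommRing Λ₁] [Algebra Λ₁ ↥(modularFunctionFieldFullC L M)]
    (σ : Λ₁ ≃+* ↥Λ)
    (hσ : ∀ x, ((algebraMap Λ₁ ↥(modularFunctionFieldFullC L M) x :
        ↥(modularFunctionFieldFullC L M)) : LaurentSeries L)
      = algebraMap L (LaurentSeries L) ((σ x : ↥Λ) : L))
    {w₁ : ↥(modularFunctionFieldFullC L M)} {w : Fermat.Agent.S24.FFL L M}
    (hw : (w₁ : LaurentSeries L) = (w : LaurentSeries L)) (ϖ₁ : Λ₁)
    (h : ∀ 𝔐 : Ideal ↥(integralClosure (Algebra.adjoin Λ₁ {w₁})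
        ↥(modularFunctionFieldFullC L M)), 𝔐.IsMaximal → algebraMap Λ₁ _ ϖ₁ ∈ 𝔐 →
      ∃ u, ModelLocGen (Ideal.span {algebraMap Λ₁ _ ϖ₁}) 𝔐 u) :
    S34MstarChart Λ M w (σ ϖ₁) := by
  intro 𝔐 h𝔐 hmem
  refine @s34bridge_chart_abs Λ₁ ↥Λ ↥(modularFunctionFieldFullC L M)
    (Fermat.Agent.S24.FFL L M) _ _ _ _ _ _ σ
    (s34bridgeFieldEquiv (Descent.fullC_eq_laurentBaseChange L M)) ?_ w₁ w ?_ ϖ₁ h _ ?_
    𝔐 h𝔐 hmem
  · intro x
    apply Subtype.ext
    exact hσ x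
  · exact Subtype.ext hw
  · apply Subtype.ext
    exact (hσ ϖ₁).symm

end Gen

section Concrete

open Fermat.Agent.S18.NumField

variable {A : ValuationSubring (AlgebraicClosure ℚ)}
  (K : IntermediateField ℚ (AlgebraicClosure ℚ)) (M : ℕ) [NeZero M]

/-- The identity `↥(lam A K) ≃+* ↥(lam A K).toSubring`. -/
def s34bridgeLamEquiv : ↥(lam A K) ≃+* ↥(lam A K).toSubring where
  toFun x := ⟨x.1, x.2⟩
  invFun x := ⟨x.1, x.2⟩
  left_inv _ := rfl
  right_inv _ := rfl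
  map_mul' _ _ := rfl
  map_add' _ _ := rfl

/-- Irreducibility does not see the difference between `↥(lam A K).toSubring` and
`↥(lam A K)`. -/
theorem s34bridge_irreducible {ϖ : ↥(lam A K).toSubring} (hϖ : Irreducible ϖ) :
    Irreducible (ϖ : ↥(lam A K)) := hϖ

theorem s34bridge_irreducible_iff (ϖ : ↥(lam A K).toSubring) :
    Irreducible (ϖ : ↥(lam A K)) ↔ Irreducible ϖ := Iff.rfl

/-- The inverses of the two names of `j` have the same series. -/
theorem s34bridge_coe_jL_inv :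
    (((Fermat.Agent.S24.jL ↥K M)⁻¹ : ↥(laurentBaseChange ↥K (modularFunctionFieldFull M))) :
      LaurentSeries ↥K)
      = (((GaussL.jC ↥K M)⁻¹ : ↥(modularFunctionFieldFullC ↥K M)) : LaurentSeries ↥K) := by
  rw [IntermediateField.coe_inv, IntermediateField.coe_inv, s34bridge_coe_jL]

set_option synthInstance.maxHeartbeats 400000 in
set_option maxHeartbeats 1000000 in
/-- **Bridge (M*)**, one chart, hypothesis in the generic-instance form of
`s34bridge_chart_gen` (`w₁` any element of the cover-side field with the same series as `w`). -/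
theorem s34bridge_mstar_chart (ϖ : ↥(lam A K).toSubring)
    {w₁ : ↥(modularFunctionFieldFullC ↥K M)} {w : Fermat.Agent.S24.FFL ↥K M}
    (hw : (w₁ : LaurentSeries ↥K) = (w : LaurentSeries ↥K))
    (h : ∀ 𝔐 : Ideal ↥(integralClosure (Algebra.adjoin ↥(lam A K) {w₁})
        ↥(modularFunctionFieldFullC ↥K M)), 𝔐.IsMaximal →
      algebraMap ↥(lam A K) _ (ϖ : ↥(lam A K)) ∈ 𝔐 →
      ∃ u, ModelLocGen (Ideal.span {algebraMap ↥(lam A K) _ (ϖ : ↥(lam A K))}) 𝔐 u) :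
    S34MstarChart (lam A K).toSubring M w ϖ :=
  s34bridge_chart_gen (lam A K).toSubring M (s34bridgeLamEquiv K) (fun _ => rfl) hw ϖ h

set_option synthInstance.maxHeartbeats 400000 in
set_option maxHeartbeats 1000000 in
/-- **Bridge (M*)**, finite chart `Λ[j]`. -/
theorem s34bridge_mstar_fin (ϖ : ↥(lam A K).toSubring)
    (h : ∀ 𝔐 : Ideal ↥(integralClosure (Algebra.adjoin ↥(lam A K) {GaussL.jC ↥K M})
        ↥(modularFunctionFieldFullC ↥K M)), 𝔐.IsMaximal →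
      algebraMap ↥(lam A K) _ (ϖ : ↥(lam A K)) ∈ 𝔐 →
      ∃ u, ModelLocGen (Ideal.span {algebraMap ↥(lam A K) _ (ϖ : ↥(lam A K))}) 𝔐 u) :
    S34MstarChart (lam A K).toSubring M (Fermat.Agent.S24.jL ↥K M) ϖ :=
  s34bridge_mstar_chart K M ϖ (s34bridge_coe_jL M).symm h

set_option synthInstance.maxHeartbeats 400000 in
set_option maxHeartbeats 1000000 in
/-- **Bridge (M*)**, chart at infinity `Λ[j⁻¹]`. -/
theorem s34bridge_mstar_inf (ϖ : ↥(lam A K).toSubring)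
    (h : ∀ 𝔐 : Ideal ↥(integralClosure (Algebra.adjoin ↥(lam A K) {(GaussL.jC ↥K M)⁻¹})
        ↥(modularFunctionFieldFullC ↥K M)), 𝔐.IsMaximal →
      algebraMap ↥(lam A K) _ (ϖ : ↥(lam A K)) ∈ 𝔐 →
      ∃ u, ModelLocGen (Ideal.span {algebraMap ↥(lam A K) _ (ϖ : ↥(lam A K))}) 𝔐 u) :
    S34MstarChart (lam A K).toSubring M (Fermat.Agent.S24.jL ↥K M)⁻¹ ϖ :=
  s34bridge_mstar_chart K M ϖ (s34bridge_coe_jL_inv K M).symm h

set_option synthInstance.maxHeartbeats 400000 in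
set_option maxHeartbeats 1000000 in
/-- **Bridge (M*)**: both charts of the level-`M` model over `Λ = A ∩ K`, from the cover-side
statements (`modularFunctionFieldFullC ↥K M`, `GaussL.jC ↥K M`, `Λ = ↥(lam A K)`). -/
theorem s34bridge_mstar (ϖ : ↥(lam A K).toSubring)
    (hfin : ∀ 𝔐 : Ideal ↥(integralClosure (Algebra.adjoin ↥(lam A K) {GaussL.jC ↥K M})
        ↥(modularFunctionFieldFullC ↥K M)), 𝔐.IsMaximal →
      algebraMap ↥(lam A K) _ (ϖ : ↥(lam A K)) ∈ 𝔐 →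
      ∃ u, ModelLocGen (Ideal.span {algebraMap ↥(lam A K) _ (ϖ : ↥(lam A K))}) 𝔐 u)
    (hinf : ∀ 𝔐 : Ideal ↥(integralClosure (Algebra.adjoin ↥(lam A K) {(GaussL.jC ↥K M)⁻¹})
        ↥(modularFunctionFieldFullC ↥K M)), 𝔐.IsMaximal →
      algebraMap ↥(lam A K) _ (ϖ : ↥(lam A K)) ∈ 𝔐 →
      ∃ u, ModelLocGen (Ideal.span {algebraMap ↥(lam A K) _ (ϖ : ↥(lam A K))}) 𝔐 u) :
    S34MstarAt (lam A K).toSubring M ϖ :=
  ⟨s34bridge_mstar_fin K M ϖ hfin, s34bridge_mstar_inf K M ϖ hinf⟩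

end Concrete

section Finite

open Fermat.Agent.S18.NumField

variable {ℓ : ℕ} [Fact ℓ.Prime] {A : ValuationSubring (AlgebraicClosure ℚ)}
  (K : IntermediateField ℚ (AlgebraicClosure ℚ)) [FiniteDimensional ℚ ↥K]

/-- `Λ / ϖ` is finite for `Λ = A ∩ K`. -/
theorem s34bridge_finite_quot (hA : A.LiesOverPrime ℓ) {ϖ : ↥(lam A K)} (hϖ : Irreducible ϖ) :
    Finite (↥(lam A K) ⧸ Ideal.span {ϖ}) := by
  haveI := isDiscreteValuationRing_lam K hA
  have h := finite_residueField_lam K hA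
  rw [← hϖ.maximalIdeal_eq]
  exact h

/-- `Λ / ϖ` is finite, `Λ` as a subring of `K`. -/
theorem s34bridge_finite_quot_toSubring (hA : A.LiesOverPrime ℓ) {ϖ : ↥(lam A K).toSubring}
    (hϖ : Irreducible ϖ) : Finite (↥(lam A K).toSubring ⧸ Ideal.span {ϖ}) :=
  s34bridge_finite_quot K hA (ϖ := ϖ) hϖ

end Finite

end Fermat.Agent.S34
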