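import Mathlib
import Fermat.Agent.S34.ModelMDefs
import Fermat.Agent.S18.Descent
import Fermat.Agent.S18.NumField
import Fermat.Agent.S18.Char0DegK
import Fermat.Agent.S18.ModelInsts
import Fermat.Agent.S37.KronStab

/-!
P19 (S34), block MODEL-M, BRIDGE (second team): transport of (M*) from the S37 convention
(`F_K = modularFunctionFieldFullC K M`, `j = GaussL.jC K M`, `Λ = ↥(NumField.lam A K)`) to the KRON
convention of `S34/ModelMDefs.lean` (`FFL K M = laurentBaseChange K (modularFunctionFieldFull M)`,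
`j = S24.jL K M`, `Λ = (NumField.lam A K).toSubring`).
-/

set_option autoImplicit false

namespace Fermat.Agent.S34

open ModularCurve Fermat.Agent.S18

/-- Generic transport of the chart statement along an equality of intermediate fields of
`L((q))`. -/
theorem s34bridgeB_transport {L : Type*} [Field L] (Λ : Subring L)
    (F₁ F₂ : IntermediateField L (LaurentSeries L)) (h : F₁ = F₂) (j₁ : ↥F₁) (j₂ : ↥F₂)
    (hj : (j₁ : LaurentSeries L) = j₂) (ϖ : ↥Λ)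
    (H : ∀ 𝔐 : Ideal ↥(integralClosure (Algebra.adjoin ↥Λ {j₁}) ↥F₁), 𝔐.IsMaximal →
      algebraMap ↥Λ _ ϖ ∈ 𝔐 → ∃ u, ModelLocGen (Ideal.span {algebraMap ↥Λ _ ϖ}) 𝔐 u) :
    ∀ 𝔐 : Ideal ↥(integralClosure (Algebra.adjoin ↥Λ {j₂}) ↥F₂), 𝔐.IsMaximal →
      algebraMap ↥Λ _ ϖ ∈ 𝔐 → ∃ u, ModelLocGen (Ideal.span {algebraMap ↥Λ _ ϖ}) 𝔐 u := by
  subst h
  obtain rfl : j₁ = j₂ := Subtype.ext hj
  exact H

variable {A : ValuationSubring (AlgebraicClosure ℚ)}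

/-- BRIDGE, finite chart: (M*) in the S37 convention gives `S34MstarChart` for `j`. -/
theorem s34bridgeB_fin (K : IntermediateField ℚ (AlgebraicClosure ℚ)) (M : ℕ) [NeZero M]
    (ϖ : ↥(NumField.lam A K))
    (H : ∀ 𝔐 : Ideal ↥(integralClosure (Algebra.adjoin ↥(NumField.lam A K) {GaussL.jC ↥K M})
        ↥(modularFunctionFieldFullC ↥K M)), 𝔐.IsMaximal →
      algebraMap ↥(NumField.lam A K) _ ϖ ∈ 𝔐 →
      ∃ u, ModelLocGen (Ideal.span {algebraMap ↥(NumField.lam A K) _ ϖ}) 𝔐 u) :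
    S34MstarChart (NumField.lam A K).toSubring M (Fermat.Agent.S24.jL ↥K M) ⟨ϖ.1, ϖ.2⟩ :=
  s34bridgeB_transport (NumField.lam A K).toSubring _ _
    (Descent.fullC_eq_laurentBaseChange ↥K M) (GaussL.jC ↥K M) (Fermat.Agent.S24.jL ↥K M)
    (Fermat.Agent.S37.KronStab.coeffEmb_jq_eq ↥K).symm ⟨ϖ.1, ϖ.2⟩ H

/-- BRIDGE, chart at infinity: (M*) in the S37 convention gives `S34MstarChart` for `j⁻¹`. -/
theorem s34bridgeB_inf (K : IntermediateField ℚ (AlgebraicClosure ℚ)) (M : ℕ) [NeZero M]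
    (ϖ : ↥(NumField.lam A K))
    (H : ∀ 𝔐 : Ideal ↥(integralClosure (Algebra.adjoin ↥(NumField.lam A K) {(GaussL.jC ↥K M)⁻¹})
        ↥(modularFunctionFieldFullC ↥K M)), 𝔐.IsMaximal →
      algebraMap ↥(NumField.lam A K) _ ϖ ∈ 𝔐 →
      ∃ u, ModelLocGen (Ideal.span {algebraMap ↥(NumField.lam A K) _ ϖ}) 𝔐 u) :
    S34MstarChart (NumField.lam A K).toSubring M (Fermat.Agent.S24.jL ↥K M)⁻¹ ⟨ϖ.1, ϖ.2⟩ :=
  s34bridgeB_transport (NumField.lam A K).toSubring _ _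
    (Descent.fullC_eq_laurentBaseChange ↥K M) (GaussL.jC ↥K M)⁻¹ (Fermat.Agent.S24.jL ↥K M)⁻¹
    (by
      show ((GaussL.jC ↥K M : ↥(modularFunctionFieldFullC ↥K M)) : LaurentSeries ↥K)⁻¹ =
        ((Fermat.Agent.S24.jL ↥K M : Fermat.Agent.S24.FFL ↥K M) : LaurentSeries ↥K)⁻¹
      exact congrArg (·⁻¹) (Fermat.Agent.S37.KronStab.coeffEmb_jq_eq ↥K).symm) ⟨ϖ.1, ϖ.2⟩ H

/-- BRIDGE, both charts: (M*) in the S37 convention gives `S34MstarAt` (KRON convention). -/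
theorem s34bridgeB_at (K : IntermediateField ℚ (AlgebraicClosure ℚ)) (M : ℕ) [NeZero M]
    (ϖ : ↥(NumField.lam A K))
    (Hfin : ∀ 𝔐 : Ideal ↥(integralClosure (Algebra.adjoin ↥(NumField.lam A K) {GaussL.jC ↥K M})
        ↥(modularFunctionFieldFullC ↥K M)), 𝔐.IsMaximal →
      algebraMap ↥(NumField.lam A K) _ ϖ ∈ 𝔐 →
      ∃ u, ModelLocGen (Ideal.span {algebraMap ↥(NumField.lam A K) _ ϖ}) 𝔐 u)
    (Hinf : ∀ 𝔐 : Ideal ↥(integralClosure
        (Algebra.adjoin ↥(NumField.lam A K) {(GaussL.jC ↥K M)⁻¹})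
        ↥(modularFunctionFieldFullC ↥K M)), 𝔐.IsMaximal →
      algebraMap ↥(NumField.lam A K) _ ϖ ∈ 𝔐 →
      ∃ u, ModelLocGen (Ideal.span {algebraMap ↥(NumField.lam A K) _ ϖ}) 𝔐 u) :
    S34MstarAt (NumField.lam A K).toSubring M ⟨ϖ.1, ϖ.2⟩ :=
  ⟨s34bridgeB_fin K M ϖ Hfin, s34bridgeB_inf K M ϖ Hinf⟩

/-- irreducibility does not see the difference between `↥Λ` and `↥Λ.toSubring`. -/
theorem s34bridgeB_irreducible (K : IntermediateField ℚ (AlgebraicClosure ℚ))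
    (ϖ : ↥(NumField.lam A K)) :
    Irreducible ϖ ↔ Irreducible (⟨ϖ.1, ϖ.2⟩ : ↥(NumField.lam A K).toSubring) := Iff.rfl

/-- The residue ring `Λ ⧸ (ϖ)` of `Λ = A ∩ K` is finite. -/
theorem s34bridgeB_finite_quot {ℓ : ℕ} [Fact ℓ.Prime] (K : IntermediateField ℚ (AlgebraicClosure ℚ))
    [FiniteDimensional ℚ ↥K] (hA : A.LiesOverPrime ℓ) {ϖ : ↥(NumField.lam A K)}
    (hϖ : Irreducible ϖ) : Finite (↥(NumField.lam A K) ⧸ Ideal.span {ϖ}) := by
  haveI : IsDiscreteValuationRing ↥(NumField.lam A K) :=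
    NumField.isDiscreteValuationRing_lam K hA
  have h := NumField.finite_residueField_lam (A := A) (K := K) hA
  rw [← hϖ.maximalIdeal_eq]
  exact h

end Fermat.Agent.S34
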