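import Mathlib
import Fermat.Agent.S34.ModelDefs
import Fermat.Agent.S34.ModelAlg
import Fermat.Agent.S34.ModelFibre
import Fermat.Agent.S18.GaussLineK
import Fermat.Agent.S34.CoverChartS

/-!
P19 (S34), MODEL-M, leaf W4 (note 879), the CORE, second team (names suffixed `_X`; statements =
helper8's `CoverChartCore` stub verbatim).

* `s34_chart_abs_X` : abstract chart lemma.  E1 (`model_fibre_locGen`) for a chart `t` gives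
  local generators of the special fibre at a closed point `𝔐` (finite residue field) of any
  subring `S₀ ⊆ 𝔽` such that, for some `e ∈ S₀ ∖ 𝔐` and `g ∈ Λ[X]` with `e * g(t) = 1`, one has
  `S₀[1/e] = C_t[1/g(t)]` (`C_t` = integral closure of `Λ[t]`), in elementwise form.
* `s34cc_scale_adjoin_X`, `s34cc_algebraMap_mem_X`, `s34cc_closed_X`, `s34cc_aeval_mem_X`,
  `s34cc_chart_x_X`, `s34cc_chart_inv_X` : the six statements of the W4 core.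
-/

set_option autoImplicit false

namespace Fermat.Agent.S34

open Polynomial IntermediateField Fermat.Agent.S18

/-- Descent of local generators from a localisation `S` of `A`, using only the maximal ideals of
`S` lying over `𝔐` (variant of `model_fibre_descend`). -/
theorem s34_descend_at_X {A S : Type*} [CommRing A] [CommRing S] (ι : A →+* S)
    (hι : Function.Injective ι) (𝔞 𝔐 : Ideal A) (h𝔐 : 𝔐.IsMaximal)
    (hloc : ∀ y : S, ∃ s z : A, s ∉ 𝔐 ∧ IsUnit (ι s) ∧ ι s * y = ι z)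
    (hS : ∀ 𝔐S : Ideal S, 𝔐S.IsMaximal → 𝔐S.comap ι = 𝔐 →
      ∃ uS : S, ModelLocGen (𝔞.map ι) 𝔐S uS) :
    ∃ u : A, ModelLocGen 𝔞 𝔐 u := by
  have hone : (1 : A) ∉ 𝔐 := fun h1 => h𝔐.ne_top ((Ideal.eq_top_iff_one _).mpr h1)
  let J : Ideal S :=
    { carrier := {y | ∃ s : A, s ∉ 𝔐 ∧ ∃ m ∈ 𝔐, ι s * y = ι m}
      add_mem' := by
        rintro y y' ⟨s, hs, m, hm', h⟩ ⟨s', hs', m', hm'', h'⟩
        refine ⟨s * s', fun hmem => ?_, s' * m + s * m',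
          𝔐.add_mem (𝔐.mul_mem_left _ hm') (𝔐.mul_mem_left _ hm''), ?_⟩
        · rcases h𝔐.isPrime.mem_or_mem hmem with h0 | h0
          · exact hs h0
          · exact hs' h0
        · rw [map_mul, map_add, map_mul, map_mul, ← h, ← h']
          ring
      zero_mem' := ⟨1, hone, 0, 𝔐.zero_mem, by rw [mul_zero, map_zero]⟩
      smul_mem' := by
        rintro r y ⟨s, hs, m, hm', h⟩
        obtain ⟨s₀, z, hs₀, -, hsz⟩ := hloc r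
        refine ⟨s₀ * s, fun hmem => ?_, z * m, 𝔐.mul_mem_left _ hm', ?_⟩
        · rcases h𝔐.isPrime.mem_or_mem hmem with h0 | h0
          · exact hs₀ h0
          · exact hs h0
        · rw [smul_eq_mul, map_mul, map_mul, ← hsz, ← h]
          ring }
  have hJ : J ≠ ⊤ := by
    intro htop
    have h1 : (1 : S) ∈ J := htop ▸ Submodule.mem_top
    obtain ⟨s, hs, m, hm', h⟩ := h1
    rw [mul_one] at h
    exact hs (hι h ▸ hm')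
  have h𝔐J : ∀ z ∈ 𝔐, ι z ∈ J := fun z hz =>
    ⟨1, hone, z, hz, by rw [map_one, one_mul]⟩
  obtain ⟨𝔐S, h𝔐Smax, hJ𝔐S⟩ := Ideal.exists_le_maximal J hJ
  have := h𝔐Smax
  have hcomap : 𝔐S.comap ι = 𝔐 := by
    symm
    apply h𝔐.eq_of_le (Ideal.comap_ne_top ι h𝔐Smax.ne_top)
    intro z hz
    exact hJ𝔐S (h𝔐J z hz)
  obtain ⟨uS, huS⟩ := hS 𝔐S h𝔐Smax hcomap
  have hloc' : ∀ y : S, ∃ s a : A, ι s ∉ 𝔐S ∧ ι s * y = ι a := by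
    intro y
    obtain ⟨s, z, -, hu, hsz⟩ := hloc y
    exact ⟨s, z, fun hmem => h𝔐Smax.ne_top (Ideal.eq_top_of_isUnit_mem _ hmem hu), hsz⟩
  obtain ⟨u, hu⟩ := modelLocGen_descend ι hι 𝔞 𝔐S hloc' huS
  rw [hcomap] at hu
  exact ⟨u, hu⟩

/-- **Abstract chart lemma.** -/
theorem s34_chart_abs_X {Λ K 𝔽 : Type*} [CommRing Λ] [IsDomain Λ] [IsDiscreteValuationRing Λ]
    [Field K] [CharZero K] [Algebra Λ K] [IsFractionRing Λ K] [Field 𝔽] [Algebra K 𝔽]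
    [Algebra Λ 𝔽] [IsScalarTower Λ K 𝔽] (π : Λ) (hπ : Irreducible π)
    {K₁ : Type*} [Field K₁] [Algebra Λ[X] K₁] [IsFractionRing Λ[X] K₁] [Algebra K₁ 𝔽]
    [FiniteDimensional K₁ 𝔽]
    (t : 𝔽) (hcompat : ∀ a : Λ[X], algebraMap K₁ 𝔽 (algebraMap Λ[X] K₁ a) = Polynomial.aeval t a)
    (C : Finset Λ) (hC : ∀ c ∈ C, ∀ c' ∈ C, c ≠ c' → ¬ π ∣ c - c')
    (hB1 : HasIntegralDualBasis (gaussSub π hπ.prime t) K₁ 𝔽)
    (hB2 : UnramAway K t ((algebraMap Λ K) '' (C : Set Λ)))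
    (S₀ : Subring 𝔽) (hΛS : ∀ l : Λ, algebraMap Λ 𝔽 l ∈ S₀)
    (𝔐 : Ideal ↥S₀) (h𝔐 : 𝔐.IsMaximal) (hres : Finite (↥S₀ ⧸ 𝔐))
    (hπ𝔐 : (⟨algebraMap Λ 𝔽 π, hΛS π⟩ : ↥S₀) ∈ 𝔐)
    (e : 𝔽) (heS : e ∈ S₀) (he𝔐 : (⟨e, heS⟩ : ↥S₀) ∉ 𝔐)
    (g : Λ[X]) (heg : e * aeval t g = 1)
    (ha : ∀ z ∈ S₀, ∃ k : ℕ, IsIntegral (Algebra.adjoin Λ {t}) (aeval t g ^ k * z))
    (hb : ∀ c : 𝔽, IsIntegral (Algebra.adjoin Λ {t}) c → ∃ k : ℕ, e ^ k * c ∈ S₀) :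
    ∃ u : ↥S₀, ModelLocGen (Ideal.span {(⟨algebraMap Λ 𝔽 π, hΛS π⟩ : ↥S₀)}) 𝔐 u := by
  classical
  have hegk : ∀ k : ℕ, e ^ k * aeval t g ^ k = 1 := fun k => by
    rw [← mul_pow, heg, one_pow]
  -- the ring `A = S₀[1/e]`
  let A : Subring 𝔽 :=
    { carrier := {z | ∃ k : ℕ, e ^ k * z ∈ S₀}
      mul_mem' := by
        rintro z z' ⟨k, hk⟩ ⟨k', hk'⟩
        refine ⟨k + k', ?_⟩
        have h1 := S₀.mul_mem hk hk'
        have h2 : e ^ (k + k') * (z * z') = e ^ k * z * (e ^ k' * z') := by ring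
        rw [h2]
        exact h1
      one_mem' := ⟨0, by rw [pow_zero, one_mul]; exact S₀.one_mem⟩
      add_mem' := by
        rintro z z' ⟨k, hk⟩ ⟨k', hk'⟩
        refine ⟨k + k', ?_⟩
        have h1 := S₀.add_mem (S₀.mul_mem (S₀.pow_mem heS k') hk)
          (S₀.mul_mem (S₀.pow_mem heS k) hk')
        have h2 : e ^ (k + k') * (z + z') = e ^ k' * (e ^ k * z) + e ^ k * (e ^ k' * z') := by
          ring
        rw [h2]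
        exact h1
      zero_mem' := ⟨0, by rw [mul_zero]; exact S₀.zero_mem⟩
      neg_mem' := by
        rintro z ⟨k, hk⟩
        exact ⟨k, by rw [mul_neg]; exact S₀.neg_mem hk⟩ }
  have hSA : ∀ z ∈ S₀, z ∈ A := fun z hz => ⟨0, by rw [pow_zero, one_mul]; exact hz⟩
  have hA : ∀ z : 𝔽, IsIntegral (Algebra.adjoin Λ {t}) z → z ∈ A := fun z hz => hb z hz
  have hgA : ∀ k : ℕ, aeval t g ^ k ∈ A := fun k =>
    ⟨k, by rw [hegk]; exact S₀.one_mem⟩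
  let ι : ↥S₀ →+* ↥A := Subring.inclusion (fun z hz => hSA z hz)
  have hι : Function.Injective ι := Subring.inclusion_injective _
  have hιval : ∀ s : ↥S₀, ((ι s : ↥A) : 𝔽) = (s : 𝔽) := fun s => rfl
  have hprime : 𝔐.IsPrime := h𝔐.isPrime
  refine s34_descend_at_X ι hι _ 𝔐 h𝔐 ?_ ?_
  · -- localisation
    rintro ⟨y, k, hk⟩
    refine ⟨⟨e, heS⟩ ^ k, ⟨e ^ k * y, hk⟩, fun hmem => he𝔐 (hprime.mem_of_pow_mem k hmem), ?_,
      Subtype.ext ?_⟩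
    · refine IsUnit.of_mul_eq_one (⟨aeval t g ^ k, hgA k⟩ : ↥A) (Subtype.ext ?_)
      show ((ι (⟨e, heS⟩ ^ k) : ↥A) : 𝔽) * aeval t g ^ k = 1
      rw [hιval, Subring.coe_pow]
      exact hegk k
    · show ((ι (⟨e, heS⟩ ^ k) : ↥A) : 𝔽) * y = e ^ k * y
      rw [hιval, Subring.coe_pow]
  · intro 𝔐A h𝔐A hcomap
    have := h𝔐A
    have hAprime : 𝔐A.IsPrime := h𝔐A.isPrime
    -- the residue field of `𝔐A` is finite
    have hfinA : Finite (↥A ⧸ 𝔐A) := by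
      obtain ⟨e', m, hm, hem⟩ := h𝔐.exists_inv he𝔐
      have hle : 𝔐 ≤ 𝔐A.comap ι := hcomap.symm.le
      have hmk : ∀ k : ℕ, (Ideal.Quotient.mk 𝔐A) (ι (e' ^ k * ⟨e, heS⟩ ^ k)) = 1 := by
        intro k
        have h1 : (Ideal.Quotient.mk 𝔐A) (ι (e' * ⟨e, heS⟩)) = 1 := by
          have h2 : e' * ⟨e, heS⟩ = 1 - m := by rw [← hem]; ring
          rw [h2, map_sub, map_one, map_sub, map_one, sub_eq_self]
          exact Ideal.Quotient.eq_zero_iff_mem.mpr (hle hm)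
        rw [← mul_pow, map_pow, map_pow, h1, one_pow]
      refine Finite.of_surjective (Ideal.quotientMap 𝔐A ι hle) ?_
      intro y
      obtain ⟨⟨y, k, hk⟩, rfl⟩ := Ideal.Quotient.mk_surjective y
      refine ⟨Ideal.Quotient.mk 𝔐 (e' ^ k * ⟨e ^ k * y, hk⟩), ?_⟩
      rw [Ideal.quotientMap_mk]
      have h3 : ι (e' ^ k * ⟨e ^ k * y, hk⟩) = ι (e' ^ k * ⟨e, heS⟩ ^ k) * ⟨y, k, hk⟩ := by
        apply Subtype.ext
        show ((ι (e' ^ k * ⟨e ^ k * y, hk⟩) : ↥A) : 𝔽) =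
          ((ι (e' ^ k * ⟨e, heS⟩ ^ k) : ↥A) : 𝔽) * y
        rw [hιval, hιval]
        simp only [Subring.coe_mul, Subring.coe_pow]
        ring
      rw [h3, map_mul, hmk, one_mul]
    -- the point of the `t`-line
    let ρ : Λ[X] →+* ↥A :=
      ((aeval t : Λ[X] →ₐ[Λ] 𝔽) : Λ[X] →+* 𝔽).codRestrict A (fun a =>
        hA _ (isIntegral_algebraMap (R := Algebra.adjoin Λ {t})
          (x := ⟨aeval t a, Polynomial.aeval_mem_adjoin_singleton Λ t⟩)))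
    have hρval : ∀ a : Λ[X], ((ρ a : ↥A) : 𝔽) = aeval t a := fun a => rfl
    have h𝔫prime : (𝔐A.comap ρ).IsPrime := Ideal.comap_isPrime ρ 𝔐A
    have h𝔫 : (𝔐A.comap ρ).IsMaximal := by
      have : Finite (Λ[X] ⧸ 𝔐A.comap ρ) :=
        Finite.of_injective (Ideal.quotientMap 𝔐A ρ le_rfl)
          (Ideal.quotientMap_injective' le_rfl)
      exact Ideal.Quotient.maximal_of_isField _ (Finite.isField_of_domain _)
    have hπA : (⟨algebraMap Λ 𝔽 π, hSA _ (hΛS π)⟩ : ↥A) ∈ 𝔐A := by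
      have h1 : ι ⟨algebraMap Λ 𝔽 π, hΛS π⟩ ∈ 𝔐A := by
        rw [← Ideal.mem_comap, hcomap]
        exact hπ𝔐
      exact h1
    have hπ𝔫 : Polynomial.C π ∈ 𝔐A.comap ρ := by
      rw [Ideal.mem_comap]
      have h1 : ρ (Polynomial.C π) = ⟨algebraMap Λ 𝔽 π, hSA _ (hΛS π)⟩ :=
        Subtype.ext (by rw [hρval, aeval_C])
      rw [h1]
      exact hπA
    have hg𝔫 : ∀ l : ℕ, g ^ l ∉ 𝔐A.comap ρ := by
      intro l hmem
      have h1 : g ∈ 𝔐A.comap ρ := h𝔫prime.mem_of_pow_mem l hmem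
      rw [Ideal.mem_comap] at h1
      have h2 : IsUnit (ρ g) := by
        refine IsUnit.of_mul_eq_one (ι ⟨e, heS⟩) (Subtype.ext ?_)
        show ((ρ g : ↥A) : 𝔽) * ((ι ⟨e, heS⟩ : ↥A) : 𝔽) = 1
        rw [hρval, hιval, mul_comm]
        exact heg
      exact h𝔐A.ne_top (Ideal.eq_top_of_isUnit_mem _ h1 h2)
    have hA𝔫 : ∀ z ∈ A, ∃ a : Λ[X], a ∉ 𝔐A.comap ρ ∧
        IsIntegral (Algebra.adjoin Λ {t}) (aeval t a * z) := by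
      rintro z ⟨k, hk⟩
      obtain ⟨l, hl⟩ := ha _ hk
      refine ⟨g ^ l, hg𝔫 l, ?_⟩
      have h1 : aeval t (g ^ l) * z = aeval t g ^ k * (aeval t g ^ l * (e ^ k * z)) := by
        rw [map_pow]
        have h2 := hegk k
        calc aeval t g ^ l * z = aeval t g ^ l * z * (e ^ k * aeval t g ^ k) := by
              rw [h2, mul_one]
          _ = aeval t g ^ k * (aeval t g ^ l * (e ^ k * z)) := by ring
      rw [h1]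
      exact (isIntegral_algebraMap (R := Algebra.adjoin Λ {t})
        (x := ⟨aeval t g, Polynomial.aeval_mem_adjoin_singleton Λ t⟩)).pow k |>.mul hl
    obtain ⟨u, hu⟩ := model_fibre_locGen π hπ t hcompat C hC hB1 hB2 A hA (𝔐A.comap ρ) h𝔫 hπ𝔫
      hA𝔫 𝔐A h𝔐A (fun a ha => ha)
    refine ⟨u, ?_⟩
    have h1 : (Ideal.span {(⟨algebraMap Λ 𝔽 π, hΛS π⟩ : ↥S₀)}).map ι =
        Ideal.span {(⟨algebraMap Λ 𝔽 π, hA _ (isIntegral_algebraMap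
          (R := Algebra.adjoin Λ {t}) (x := algebraMap Λ _ π))⟩ : ↥A)} := by
      rw [Ideal.map_span, Set.image_singleton]
      rfl
    rw [h1]
    exact hu


/-- scaling, `Algebra.adjoin Λ {t}` form -/
theorem s34cc_scale_adjoin_X {Λ 𝔽 : Type*} [CommRing Λ] [Field 𝔽] [Algebra Λ 𝔽] (t w s : 𝔽)
    (hs : s ∈ Algebra.adjoin Λ {t}) (hws : w * s ∈ Algebra.adjoin Λ {t}) {z : 𝔽}
    (hz : IsIntegral (Algebra.adjoin Λ {w}) z) :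
    ∃ k : ℕ, IsIntegral (Algebra.adjoin Λ {t}) (s ^ k * z) := by
  obtain ⟨k, H, hHm, hHc, hH0⟩ := s34cc_scale (Algebra.adjoin Λ {t}).toSubring
    (fun c => Subalgebra.algebraMap_mem _ c) w s hs hws hz
  exact ⟨k, s34cc_isIntegral_of_monic (Algebra.adjoin Λ {t}) H hHm hHc hH0⟩

/-- the chart ring `S₀` = integral closure of `Λ[w]` contains `Λ` -/
theorem s34cc_algebraMap_mem_X {Λ 𝔽 : Type*} [CommRing Λ] [Field 𝔽] [Algebra Λ 𝔽] (w : 𝔽)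
    (S₀ : Subring 𝔽) (hS₀ : ∀ z : 𝔽, z ∈ S₀ ↔ IsIntegral (Algebra.adjoin Λ {w}) z) (c : Λ) :
    algebraMap Λ 𝔽 c ∈ S₀ :=
  (hS₀ _).mpr (isIntegral_algebraMap (R := Algebra.adjoin Λ {w}) (x := algebraMap Λ _ c))

/-- the chart ring `S₀` = integral closure of `Λ[w]` is integrally closed in `𝔽`
(polynomial form) -/
theorem s34cc_closed_X {Λ 𝔽 : Type*} [CommRing Λ] [Field 𝔽] [Algebra Λ 𝔽] (w : 𝔽)
    (S₀ : Subring 𝔽) (hS₀ : ∀ z : 𝔽, z ∈ S₀ ↔ IsIntegral (Algebra.adjoin Λ {w}) z)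
    (H : 𝔽[X]) (hH : H.Monic) (hc : ∀ i, H.coeff i ∈ S₀) (z : 𝔽) (hz : H.eval z = 0) :
    z ∈ S₀ := by
  have h1 : IsIntegral (integralClosure (Algebra.adjoin Λ {w}) 𝔽) z :=
    s34cc_isIntegral_of_monic (integralClosure (Algebra.adjoin Λ {w}) 𝔽) H hH
      (fun i => (hS₀ _).mp (hc i)) hz
  exact (hS₀ z).mpr (isIntegral_trans z h1)

/-- polynomial expressions with coefficients in `Λ` in an element of the subring -/
theorem s34cc_aeval_mem_X {Λ 𝔽 : Type*} [CommRing Λ] [Field 𝔽] [Algebra Λ 𝔽] (S₀ : Subring 𝔽)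
    (hΛS : ∀ c : Λ, algebraMap Λ 𝔽 c ∈ S₀) {t : 𝔽} (ht : t ∈ S₀) (a : Λ[X]) :
    aeval t a ∈ S₀ := by
  rw [aeval_eq_sum_range]
  refine S₀.sum_mem fun i _ => ?_
  rw [Algebra.smul_def]
  exact S₀.mul_mem (hΛS _) (S₀.pow_mem ht i)

/-- `(b)` of the abstract chart lemma from `e, t * e ∈ S₀`. -/
theorem s34cc_chart_b_X {Λ 𝔽 : Type*} [CommRing Λ] [Field 𝔽] [Algebra Λ 𝔽] (S₀ : Subring 𝔽)
    (hΛS : ∀ c : Λ, algebraMap Λ 𝔽 c ∈ S₀)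
    (hclosed : ∀ H : 𝔽[X], H.Monic → (∀ i, H.coeff i ∈ S₀) → ∀ z : 𝔽, H.eval z = 0 → z ∈ S₀)
    (t e : 𝔽) (he : e ∈ S₀) (hte : t * e ∈ S₀) (c : 𝔽)
    (hc : IsIntegral (Algebra.adjoin Λ {t}) c) : ∃ k : ℕ, e ^ k * c ∈ S₀ := by
  obtain ⟨k, H, hHm, hHc, hH0⟩ := s34cc_scale S₀ hΛS t e he hte hc
  exact ⟨k, hclosed H hHm hHc _ hH0⟩

/-- chart `x` -/
theorem s34cc_chart_x_X {Λ K 𝔽 : Type*} [CommRing Λ] [IsDomain Λ] [IsDiscreteValuationRing Λ]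
    [Field K] [CharZero K] [Algebra Λ K] [IsFractionRing Λ K] [Field 𝔽] [Algebra K 𝔽]
    [Algebra Λ 𝔽] [IsScalarTower Λ K 𝔽] (π : Λ) (hπ : Irreducible π)
    (C : Finset Λ) (hC : ∀ c ∈ C, ∀ c' ∈ C, c ≠ c' → ¬ π ∣ c - c')
    (x : 𝔽) (hx : Transcendental K x) [FiniteDimensional K⟮x⟯ 𝔽]
    (hB1 : HasIntegralDualBasis (gaussSub π hπ.prime x) K⟮x⟯ 𝔽)
    (hB2 : UnramAway K x ((algebraMap Λ K) '' (C : Set Λ)))
    (S₀ : Subring 𝔽) (hΛS : ∀ c : Λ, algebraMap Λ 𝔽 c ∈ S₀)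
    (hclosed : ∀ H : 𝔽[X], H.Monic → (∀ i, H.coeff i ∈ S₀) → ∀ z : 𝔽, H.eval z = 0 → z ∈ S₀)
    (D : Λ[X]) (e : 𝔽) (he : e ∈ S₀) (hte : x * e ∈ S₀) (hDe : aeval x D * e = 1)
    (hscale : ∀ z ∈ S₀, ∃ k : ℕ, IsIntegral (Algebra.adjoin Λ {x}) (aeval x D ^ k * z))
    (𝔐 : Ideal S₀) (h𝔐 : 𝔐.IsMaximal) (he𝔐 : (⟨e, he⟩ : S₀) ∉ 𝔐)
    (hπ𝔐 : (⟨algebraMap Λ 𝔽 π, hΛS π⟩ : S₀) ∈ 𝔐) (hres : Finite (S₀ ⧸ 𝔐)) :
    ∃ u : S₀, ModelLocGen (Ideal.span {(⟨algebraMap Λ 𝔽 π, hΛS π⟩ : S₀)}) 𝔐 u := by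
  letI : Algebra Λ[X] K⟮x⟯ := GaussLineK.polyAlgebra x (AdjoinSimple.gen K x)
  haveI : IsFractionRing Λ[X] K⟮x⟯ := GaussLineK.isFractionRing_gen hx
  exact s34_chart_abs_X π hπ (K₁ := K⟮x⟯) x
    (fun a => GaussLineK.polyAlgebra_algebraMap_apply x (AdjoinSimple.gen K x) a) C hC hB1 hB2
    S₀ hΛS 𝔐 h𝔐 hres hπ𝔐 e he he𝔐 D (by rw [mul_comm]; exact hDe) hscale
    (s34cc_chart_b_X S₀ hΛS hclosed x e he hte)

/-- chart `x⁻¹` -/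
theorem s34cc_chart_inv_X {Λ K 𝔽 : Type*} [CommRing Λ] [IsDomain Λ] [IsDiscreteValuationRing Λ]
    [Field K] [CharZero K] [Algebra Λ K] [IsFractionRing Λ K] [Field 𝔽] [Algebra K 𝔽]
    [Algebra Λ 𝔽] [IsScalarTower Λ K 𝔽] (π : Λ) (hπ : Irreducible π)
    (C' : Finset Λ) (hC' : ∀ c ∈ C', ∀ c' ∈ C', c ≠ c' → ¬ π ∣ c - c')
    (x : 𝔽) (hx : Transcendental K x) [FiniteDimensional K⟮x⟯ 𝔽]
    (hB1 : HasIntegralDualBasis (gaussSub π hπ.prime x) K⟮x⟯ 𝔽)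
    (hB2' : UnramAway K x⁻¹ ((algebraMap Λ K) '' (C' : Set Λ)))
    (S₀ : Subring 𝔽) (hΛS : ∀ c : Λ, algebraMap Λ 𝔽 c ∈ S₀)
    (hclosed : ∀ H : 𝔽[X], H.Monic → (∀ i, H.coeff i ∈ S₀) → ∀ z : 𝔽, H.eval z = 0 → z ∈ S₀)
    (D : Λ[X]) (e : 𝔽) (he : e ∈ S₀) (hte : x⁻¹ * e ∈ S₀) (hDe : aeval x⁻¹ D * e = 1)
    (hscale : ∀ z ∈ S₀, ∃ k : ℕ, IsIntegral (Algebra.adjoin Λ {x⁻¹}) (aeval x⁻¹ D ^ k * z))
    (𝔐 : Ideal S₀) (h𝔐 : 𝔐.IsMaximal) (he𝔐 : (⟨e, he⟩ : S₀) ∉ 𝔐)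
    (hπ𝔐 : (⟨algebraMap Λ 𝔽 π, hΛS π⟩ : S₀) ∈ 𝔐) (hres : Finite (S₀ ⧸ 𝔐)) :
    ∃ u : S₀, ModelLocGen (Ideal.span {(⟨algebraMap Λ 𝔽 π, hΛS π⟩ : S₀)}) 𝔐 u := by
  have ht : Transcendental Λ x := GaussLineK.transcendental_of_fraction hx
  have hV : gaussSub π hπ.prime x⁻¹ = gaussSub π hπ.prime x :=
    GaussLineK.gaussSub_inv π hπ.prime ht
  letI : Algebra Λ[X] K⟮x⟯ := GaussLineK.polyAlgebra x (AdjoinSimple.gen K x)⁻¹
  haveI : IsFractionRing Λ[X] K⟮x⟯ := GaussLineK.isFractionRing_gen_inv hx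
  rw [← hV] at hB1
  exact s34_chart_abs_X π hπ (K₁ := K⟮x⟯) x⁻¹
    (fun a => GaussLineK.polyAlgebra_algebraMap_apply x (AdjoinSimple.gen K x)⁻¹ a) C' hC' hB1
    hB2' S₀ hΛS 𝔐 h𝔐 hres hπ𝔐 e he he𝔐 D (by rw [mul_comm]; exact hDe) hscale
    (s34cc_chart_b_X S₀ hΛS hclosed x⁻¹ e he hte)

end Fermat.Agent.S34
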