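import Mathlib

/-!
P19 (S34), leaf W4 (second team): Bezout with degree control for a coprime pair `(Ng, Dg)` with
`Ng` of unit leading coefficient, and integrality of `x ^ i / Ng(x)` (`i ≤ deg Ng`) over
`Λ[v]` when `v * Ng(x) = Dg(x)`.
-/

set_option autoImplicit false
open Polynomial
namespace Fermat.Agent.S34

theorem s34cc_bezout_deg_X {Λ : Type*} [CommRing Λ] [IsDomain Λ] (Ng Dg : Λ[X])
    (hdeg : Dg.natDegree < Ng.natDegree) (hlead : IsUnit Ng.leadingCoeff)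
    (hcop : IsCoprime Ng Dg) (F : Λ[X]) (hF : F.natDegree ≤ 2 * Ng.natDegree) :
    ∃ A B : Λ[X], A.natDegree ≤ Ng.natDegree ∧ B.natDegree ≤ Ng.natDegree ∧
      F = A * Ng + B * Dg := by
  obtain ⟨a₀, b₀, hab⟩ := hcop
  obtain ⟨u, hu⟩ := hlead
  have hu0 : ((↑u⁻¹ : Λ)) ≠ 0 := (u⁻¹).ne_zero
  have hNg0 : Ng ≠ 0 := by
    rintro rfl
    rw [natDegree_zero] at hdeg
    exact Nat.not_lt_zero _ hdeg
  have hmonic : (C (↑u⁻¹ : Λ) * Ng).Monic := by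
    rw [Monic, leadingCoeff_mul, leadingCoeff_C, ← hu, Units.inv_mul]
  have hnat : (C (↑u⁻¹ : Λ) * Ng).natDegree = Ng.natDegree := natDegree_C_mul hu0
  have hne1 : C (↑u⁻¹ : Λ) * Ng ≠ 1 := by
    intro h1
    rw [h1, natDegree_one] at hnat
    omega
  have hdiv := modByMonic_add_div (F * b₀) (C (↑u⁻¹ : Λ) * Ng)
  have hBlt := natDegree_modByMonic_lt (F * b₀) hmonic hne1
  rw [hnat] at hBlt
  have hFeq : F = (F * a₀ + (F * b₀ /ₘ (C (↑u⁻¹ : Λ) * Ng)) * C (↑u⁻¹ : Λ) * Dg) * Ng +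
      (F * b₀ %ₘ (C (↑u⁻¹ : Λ) * Ng)) * Dg := by
    linear_combination (-F) * hab - Dg * hdiv
  refine ⟨F * a₀ + (F * b₀ /ₘ (C (↑u⁻¹ : Λ) * Ng)) * C (↑u⁻¹ : Λ) * Dg,
    F * b₀ %ₘ (C (↑u⁻¹ : Λ) * Ng), ?_, hBlt.le, hFeq⟩
  by_cases hA0 : F * a₀ + (F * b₀ /ₘ (C (↑u⁻¹ : Λ) * Ng)) * C (↑u⁻¹ : Λ) * Dg = 0
  · rw [hA0, natDegree_zero]
    exact Nat.zero_le _
  · have hAN : (F * a₀ + (F * b₀ /ₘ (C (↑u⁻¹ : Λ) * Ng)) * C (↑u⁻¹ : Λ) * Dg) * Ng =
        F - (F * b₀ %ₘ (C (↑u⁻¹ : Λ) * Ng)) * Dg := by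
      linear_combination (-1 : Λ[X]) * hFeq
    have h1 := natDegree_mul hA0 hNg0
    rw [hAN] at h1
    have h2 : (F - (F * b₀ %ₘ (C (↑u⁻¹ : Λ) * Ng)) * Dg).natDegree ≤ 2 * Ng.natDegree := by
      refine (natDegree_sub_le _ _).trans (max_le hF ?_)
      refine natDegree_mul_le.trans ?_
      omega
    omega

/-- The `Λ[v]`-module generated by the `x ^ k / Ng(x)`, `k ≤ deg Ng`. -/
noncomputable def s34ccX_mod {Λ 𝔽 : Type*} [CommRing Λ] [Field 𝔽] [Algebra Λ 𝔽]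
    (Ng : Λ[X]) (x v : 𝔽) : Submodule (Algebra.adjoin Λ {v}) 𝔽 :=
  Submodule.span (Algebra.adjoin Λ {v})
    ((fun k : ℕ => x ^ k / aeval x Ng) '' (Finset.range (Ng.natDegree + 1) : Set ℕ))

theorem s34ccX_aeval_div_mem {Λ 𝔽 : Type*} [CommRing Λ] [Field 𝔽] [Algebra Λ 𝔽]
    (Ng : Λ[X]) (x v : 𝔽) (G : Λ[X]) (hG : G.natDegree ≤ Ng.natDegree) :
    aeval x G / aeval x Ng ∈ s34ccX_mod Ng x v := by
  rw [aeval_eq_sum_range' (Nat.lt_succ_of_le hG), Finset.sum_div]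
  refine Submodule.sum_mem _ fun k hk => ?_
  have h1 : G.coeff k • x ^ k / aeval x Ng =
      (algebraMap Λ (Algebra.adjoin Λ {v}) (G.coeff k)) • (x ^ k / aeval x Ng) := by
    rw [algebraMap_smul, smul_div_assoc]
  rw [h1]
  exact Submodule.smul_mem _ _ (Submodule.subset_span ⟨k, hk, rfl⟩)

theorem s34ccX_mul_mem {Λ 𝔽 : Type*} [CommRing Λ] [IsDomain Λ] [Field 𝔽] [Algebra Λ 𝔽]
    (Ng Dg : Λ[X]) (hdeg : Dg.natDegree < Ng.natDegree) (hlead : IsUnit Ng.leadingCoeff)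
    (hcop : IsCoprime Ng Dg) (x v : 𝔽) (hN : aeval x Ng ≠ 0)
    (hv : v * aeval x Ng = aeval x Dg) (i : ℕ) (hi : i ≤ Ng.natDegree) :
    ∀ m ∈ s34ccX_mod Ng x v, (x ^ i / aeval x Ng) * m ∈ s34ccX_mod Ng x v := by
  intro m hm
  induction hm using Submodule.span_induction with
  | mem y hy =>
    obtain ⟨j, hj, rfl⟩ := hy
    have hj' : j ≤ Ng.natDegree := Nat.lt_succ_iff.mp (Finset.mem_range.mp hj)
    obtain ⟨A, B, hA, hB, hF⟩ := s34cc_bezout_deg_X Ng Dg hdeg hlead hcop (X ^ (i + j))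
      ((natDegree_X_pow_le _).trans (by omega))
    have h1 : x ^ (i + j) = aeval x A * aeval x Ng + aeval x B * (v * aeval x Ng) := by
      have h2 := congrArg (aeval x) hF
      rw [map_pow, aeval_X, map_add, map_mul, map_mul] at h2
      rw [h2, hv]
    have h3 : x ^ i / aeval x Ng * (x ^ j / aeval x Ng) =
        aeval x A / aeval x Ng +
          (⟨v, Algebra.subset_adjoin (Set.mem_singleton v)⟩ : Algebra.adjoin Λ {v}) •
            (aeval x B / aeval x Ng) := by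
      rw [div_mul_div_comm, ← pow_add, h1, Subalgebra.smul_def, smul_eq_mul]
      field_simp
    rw [h3]
    exact Submodule.add_mem _ (s34ccX_aeval_div_mem Ng x v A hA)
      (Submodule.smul_mem _ _ (s34ccX_aeval_div_mem Ng x v B hB))
  | zero =>
    rw [mul_zero]
    exact Submodule.zero_mem _
  | add a b _ _ ha hb =>
    rw [mul_add]
    exact Submodule.add_mem _ ha hb
  | smul r a _ ha =>
    rw [mul_smul_comm]
    exact Submodule.smul_mem _ r ha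

theorem s34cc_isIntegral_pow_div_X {Λ 𝔽 : Type*} [CommRing Λ] [IsDomain Λ] [Field 𝔽]
    [Algebra Λ 𝔽]
    (Ng Dg : Λ[X]) (hdeg : Dg.natDegree < Ng.natDegree) (hlead : IsUnit Ng.leadingCoeff)
    (hcop : IsCoprime Ng Dg) (x v : 𝔽) (hN : aeval x Ng ≠ 0)
    (hv : v * aeval x Ng = aeval x Dg) (i : ℕ) (hi : i ≤ Ng.natDegree) :
    IsIntegral (Algebra.adjoin Λ {v}) (x ^ i / aeval x Ng) := by
  refine isIntegral_of_smul_mem_submodule (R := Algebra.adjoin Λ {v}) (A := 𝔽) (M := 𝔽)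
    (s34ccX_mod Ng x v) ?_ ?_ _ ?_
  · intro h0
    have h1 : aeval x Ng / aeval x Ng ∈ s34ccX_mod Ng x v :=
      s34ccX_aeval_div_mem Ng x v Ng le_rfl
    rw [h0, Submodule.mem_bot, div_self hN] at h1
    exact one_ne_zero h1
  · exact Submodule.fg_span ((Finset.finite_toSet _).image _)
  · intro m hm
    rw [smul_eq_mul]
    exact s34ccX_mul_mem Ng Dg hdeg hlead hcop x v hN hv i hi m hm

end Fermat.Agent.S34
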