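import Mathlib
import Fermat.Agent.S34.CoverChartCore
import Fermat.Agent.S34.CoverChartE

/-!
P19 (S34), W4 (cover chart), chart at infinity (`w = j⁻¹`), second team: the integral closure
`S₀` of `Λ[j⁻¹]` in the cover field has a local generator of the special fibre at every closed
point with finite residue field.

With `e i := x ^ i / Ng(x)` (`i ≤ n = deg Ng`), all `e i` lie in `S₀`, `Σ Ng.coeff i • e i = 1` and
`e i ^ n = e 0 ^ (n - i) * e n ^ i`; so `e 0 ∉ 𝔐` (chart `x`, `D = Ng`) or `e n ∉ 𝔐` (chart `x⁻¹`,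
`D = reflect n Ng`).
-/

set_option autoImplicit false

namespace Fermat.Agent.S34

open Polynomial IntermediateField Fermat.Agent.S18

/-- `Σ Ng.coeff i • (x ^ i / Ng(x)) = 1`. -/
theorem s34ccIX_sum_eq_one {Λ 𝔽 : Type*} [CommRing Λ] [Field 𝔽] [Algebra Λ 𝔽] (Ng : Λ[X])
    (x : 𝔽) (hN : aeval x Ng ≠ 0) :
    ∑ i ∈ Finset.range (Ng.natDegree + 1),
      algebraMap Λ 𝔽 (Ng.coeff i) * (x ^ i / aeval x Ng) = 1 := by
  have h1 : aeval x Ng = ∑ i ∈ Finset.range (Ng.natDegree + 1),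
      algebraMap Λ 𝔽 (Ng.coeff i) * x ^ i := by
    rw [aeval_eq_sum_range]
    exact Finset.sum_congr rfl (fun i _ => Algebra.smul_def _ _)
  have h2 : ∑ i ∈ Finset.range (Ng.natDegree + 1),
      algebraMap Λ 𝔽 (Ng.coeff i) * (x ^ i / aeval x Ng) =
      (∑ i ∈ Finset.range (Ng.natDegree + 1), algebraMap Λ 𝔽 (Ng.coeff i) * x ^ i) /
        aeval x Ng := by
    rw [Finset.sum_div]
    exact Finset.sum_congr rfl (fun i _ => (mul_div_assoc _ _ _).symm)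
  rw [h2, ← h1, div_self hN]

/-- Not both `1 / Ng(x)` and `x ^ n / Ng(x)` lie in a prime ideal of a subring containing `Λ`
and all `x ^ i / Ng(x)`, `i ≤ n`. -/
theorem s34ccIX_not_both {Λ 𝔽 : Type*} [CommRing Λ] [Field 𝔽] [Algebra Λ 𝔽] (Ng : Λ[X])
    (x : 𝔽) (hN : aeval x Ng ≠ 0) (S₀ : Subring 𝔽) (hΛS : ∀ c : Λ, algebraMap Λ 𝔽 c ∈ S₀)
    (he : ∀ i ≤ Ng.natDegree, x ^ i / aeval x Ng ∈ S₀) (𝔐 : Ideal S₀) (h𝔐 : 𝔐.IsPrime)
    (h0 : (⟨x ^ 0 / aeval x Ng, he 0 (Nat.zero_le _)⟩ : S₀) ∈ 𝔐)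
    (hn : (⟨x ^ Ng.natDegree / aeval x Ng, he _ le_rfl⟩ : S₀) ∈ 𝔐) : False := by
  have hall : ∀ (i : ℕ) (hi : i ≤ Ng.natDegree),
      (⟨x ^ i / aeval x Ng, he i hi⟩ : S₀) ∈ 𝔐 := by
    intro i hi
    rcases Nat.eq_zero_or_pos i with rfl | hpos
    · exact h0
    · have h1 : (⟨x ^ i / aeval x Ng, he i hi⟩ : S₀) ^ Ng.natDegree =
          (⟨x ^ 0 / aeval x Ng, he 0 (Nat.zero_le _)⟩ : S₀) ^ (Ng.natDegree - i) *
            (⟨x ^ Ng.natDegree / aeval x Ng, he _ le_rfl⟩ : S₀) ^ i := by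
        apply Subtype.ext
        show (x ^ i / aeval x Ng) ^ Ng.natDegree =
          (x ^ 0 / aeval x Ng) ^ (Ng.natDegree - i) * (x ^ Ng.natDegree / aeval x Ng) ^ i
        rw [pow_zero, div_pow, div_pow, div_pow, one_pow, ← pow_mul, ← pow_mul,
          div_mul_div_comm, one_mul, ← pow_add, Nat.sub_add_cancel hi, mul_comm i]
      have h2 : (⟨x ^ i / aeval x Ng, he i hi⟩ : S₀) ^ Ng.natDegree ∈ 𝔐 := by
        rw [h1]
        exact 𝔐.mul_mem_left _ (𝔐.pow_mem_of_mem hn i hpos)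
      exact h𝔐.mem_of_pow_mem _ h2
  have hone : (1 : S₀) = ∑ i ∈ (Finset.range (Ng.natDegree + 1)).attach,
      (⟨algebraMap Λ 𝔽 (Ng.coeff i), hΛS _⟩ : S₀) *
        ⟨x ^ (i : ℕ) / aeval x Ng, he i (Nat.lt_succ_iff.mp (Finset.mem_range.mp i.2))⟩ := by
    apply Subtype.ext
    rw [AddSubmonoidClass.coe_finsetSum]
    show (1 : 𝔽) = ∑ i ∈ (Finset.range (Ng.natDegree + 1)).attach,
      algebraMap Λ 𝔽 (Ng.coeff i) * (x ^ (i : ℕ) / aeval x Ng)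
    rw [Finset.sum_attach (Finset.range (Ng.natDegree + 1))
      (fun i => algebraMap Λ 𝔽 (Ng.coeff i) * (x ^ i / aeval x Ng))]
    exact (s34ccIX_sum_eq_one Ng x hN).symm
  apply h𝔐.ne_top
  rw [Ideal.eq_top_iff_one, hone]
  exact 𝔐.sum_mem (fun i _ => 𝔐.mul_mem_left _
    (hall i (Nat.lt_succ_iff.mp (Finset.mem_range.mp i.2))))

/-- **Second team.**  The chart at infinity (`w = j⁻¹`) of the cover. -/
theorem s34_cover_chart_core_inf_X {Λ K 𝔽 : Type*} [CommRing Λ] [IsDomain Λ]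
    [IsDiscreteValuationRing Λ] [Field K] [CharZero K] [Algebra Λ K] [IsFractionRing Λ K]
    [Field 𝔽] [Algebra K 𝔽] [Algebra Λ 𝔽] [IsScalarTower Λ K 𝔽]
    (π : Λ) (hπ : Irreducible π)
    (Ng Dg : Λ[X]) (hdeg : Dg.natDegree < Ng.natDegree) (hlead : IsUnit Ng.leadingCoeff)
    (hcop : IsCoprime Ng Dg)
    (C C' : Finset Λ) (hC : ∀ c ∈ C, ∀ c' ∈ C, c ≠ c' → ¬ π ∣ c - c')
    (hC' : ∀ c ∈ C', ∀ c' ∈ C', c ≠ c' → ¬ π ∣ c - c')
    (x j : 𝔽) (hx : Transcendental K x) [FiniteDimensional K⟮x⟯ 𝔽]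
    (hcov : aeval x Ng = j * aeval x Dg)
    (hB1 : HasIntegralDualBasis (gaussSub π hπ.prime x) K⟮x⟯ 𝔽)
    (hB2 : UnramAway K x ((algebraMap Λ K) '' (C : Set Λ)))
    (hB2' : UnramAway K x⁻¹ ((algebraMap Λ K) '' (C' : Set Λ)))
    (S₀ : Subring 𝔽) (hS₀ : ∀ z : 𝔽, z ∈ S₀ ↔ IsIntegral (Algebra.adjoin Λ {j⁻¹}) z)
    (hπS : algebraMap Λ 𝔽 π ∈ S₀) (𝔐 : Ideal S₀) (h𝔐 : 𝔐.IsMaximal)
    (hπ𝔐 : (⟨algebraMap Λ 𝔽 π, hπS⟩ : S₀) ∈ 𝔐) (hres : Finite (S₀ ⧸ 𝔐)) :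
    ∃ u : S₀, ModelLocGen (Ideal.span {(⟨algebraMap Λ 𝔽 π, hπS⟩ : S₀)}) 𝔐 u := by
  have ht : Transcendental Λ x := GaussLineK.transcendental_of_fraction hx
  have hx0 : x ≠ 0 := GaussLineK.ne_zero_of_transcendental ht
  have hNg0 : Ng ≠ 0 := by
    intro h0
    rw [h0, leadingCoeff_zero] at hlead
    exact not_isUnit_zero hlead
  have hN : aeval x Ng ≠ 0 := GaussLineK.aeval_ne_zero ht hNg0
  have hj0 : j ≠ 0 := by
    rintro rfl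
    rw [zero_mul] at hcov
    exact hN hcov
  have hv : j⁻¹ * aeval x Ng = aeval x Dg := by
    rw [hcov, ← mul_assoc, inv_mul_cancel₀ hj0, one_mul]
  have hn1 : 1 ≤ Ng.natDegree := by omega
  have hΛS : ∀ c : Λ, algebraMap Λ 𝔽 c ∈ S₀ := s34cc_algebraMap_mem j⁻¹ S₀ hS₀
  have hclosed : ∀ H : 𝔽[X], H.Monic → (∀ i, H.coeff i ∈ S₀) → ∀ z : 𝔽, H.eval z = 0 →
      z ∈ S₀ := s34cc_closed j⁻¹ S₀ hS₀
  have he : ∀ i ≤ Ng.natDegree, x ^ i / aeval x Ng ∈ S₀ := fun i hi =>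
    (hS₀ _).mpr (s34cc_isIntegral_pow_div Ng Dg hdeg hlead hcop x j⁻¹ hN hv i hi)
  by_cases h0 : (⟨x ^ 0 / aeval x Ng, he 0 (Nat.zero_le _)⟩ : S₀) ∈ 𝔐
  · -- chart `x⁻¹`
    have hn : (⟨x ^ Ng.natDegree / aeval x Ng, he _ le_rfl⟩ : S₀) ∉ 𝔐 := fun hn =>
      s34ccIX_not_both Ng x hN S₀ hΛS he 𝔐 h𝔐.isPrime h0 hn
    have hrefl : aeval x⁻¹ (reflect Ng.natDegree Ng) = aeval x Ng * x⁻¹ ^ Ng.natDegree := by
      have h1 := GaussLineK.glA_aeval_reflect (Λ := Λ) (inv_ne_zero hx0) Ng.natDegree Ng le_rfl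
      rwa [inv_inv] at h1
    have hreflD : aeval x⁻¹ (reflect Ng.natDegree Dg) = aeval x Dg * x⁻¹ ^ Ng.natDegree := by
      have h1 := GaussLineK.glA_aeval_reflect (Λ := Λ) (inv_ne_zero hx0) Ng.natDegree Dg
        hdeg.le
      rwa [inv_inv] at h1
    have hxn : x ^ Ng.natDegree ≠ 0 := pow_ne_zero _ hx0
    refine s34cc_chart_inv π hπ C' hC' x hx hB1 hB2' S₀ hΛS hclosed
      (reflect Ng.natDegree Ng) (x ^ Ng.natDegree / aeval x Ng) (he _ le_rfl) ?_ ?_ ?_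
      𝔐 h𝔐 hn hπ𝔐 hres
    · have h2 : x⁻¹ * (x ^ Ng.natDegree / aeval x Ng) = x ^ (Ng.natDegree - 1) / aeval x Ng := by
        obtain ⟨m, hm⟩ : ∃ m, Ng.natDegree = m + 1 := ⟨Ng.natDegree - 1, by omega⟩
        rw [hm, Nat.add_sub_cancel, pow_succ]
        field_simp
      rw [h2]
      exact he _ (Nat.sub_le _ _)
    · rw [hrefl, inv_pow]
      field_simp
    · intro z hz
      refine s34cc_scale_adjoin x⁻¹ j⁻¹ (aeval x⁻¹ (reflect Ng.natDegree Ng))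
        (GaussLineK.aeval_mem_adjoin _ _) ?_ ((hS₀ z).mp hz)
      have h3 : j⁻¹ * aeval x⁻¹ (reflect Ng.natDegree Ng) =
          aeval x⁻¹ (reflect Ng.natDegree Dg) := by
        rw [hrefl, hreflD, ← mul_assoc, hv]
      rw [h3]
      exact GaussLineK.aeval_mem_adjoin _ _
  · -- chart `x`
    refine s34cc_chart_x π hπ C hC x hx hB1 hB2 S₀ hΛS hclosed Ng (x ^ 0 / aeval x Ng)
      (he 0 (Nat.zero_le _)) ?_ ?_ ?_ 𝔐 h𝔐 h0 hπ𝔐 hres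
    · have h2 : x * (x ^ 0 / aeval x Ng) = x ^ 1 / aeval x Ng := by
        rw [pow_zero, pow_one, mul_one_div]
      rw [h2]
      exact he 1 hn1
    · rw [pow_zero, mul_one_div, div_self hN]
    · intro z hz
      refine s34cc_scale_adjoin x j⁻¹ (aeval x Ng) (GaussLineK.aeval_mem_adjoin _ _) ?_
        ((hS₀ z).mp hz)
      rw [hv]
      exact GaussLineK.aeval_mem_adjoin _ _

end Fermat.Agent.S34
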