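import Fermat.Agent.S37.CoverE

/-!
P19 (S34), block MODEL-M, leaf W1 (MASTER v2, note 848): the cover field of the level-`N` curve
over its own constant field, with the hypotheses of the local engine E1
(`S34.model_fibre_locGen`) for BOTH charts `x` and `x⁻¹` exported (instead of the conclusion
`IntLifts` of `S37.CoverE.coverE_of_omega`), together with generation `𝔽 = K(x, e(F_K))`.

* `CoverPkg cov N K` : the package over a number field `K ⊂ ℚ̄` (a `Prop`, so that it can be
  transported along an equality of intermediate fields);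
* `coverPkg_constField` : the package over `K = constField K₀ T`, `𝔽 = genField K₀ T`.
-/

set_option autoImplicit false

open ModularCurve AlgebraicCurve Polynomial IntermediateField
open Fermat.Agent.S24 Fermat.Agent.S18

noncomputable section

namespace Fermat.Agent.S34

open Fermat.Agent.S18.Model

/-- **Cover package** over the number field `K`, `Λ = A ∩ K`: a finite extension `𝔽` of `K(x)`,
generated over `K` by `x` and the image of `e : F_K → 𝔽` (`F_K` the modular function field of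
level `N` over `K`), with `Ng(x) = e(j) Dg(x)`, and for every uniformiser `ϖ` of `Λ` the data of
the local engine for the two charts `x`, `x⁻¹`: the integral dual basis (B1) over the Gauss ring
of `x`, and unramifiedness (B2) away from the finite sets `C`, `C'` of cusps, whose elements are
pairwise distinct modulo `ϖ`. -/
def CoverPkg {ℓ : ℕ} {A : ValuationSubring (AlgebraicClosure ℚ)} (cov : GoodCover ℓ A)
    (N : ℕ) [NeZero N] (K : IntermediateField ℚ (AlgebraicClosure ℚ)) : Prop :=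
  ∃ (𝔽 : Type) (_ : Field 𝔽) (_ : Algebra ↥K 𝔽) (_ : Algebra ↥(NumField.lam A K) 𝔽)
    (_ : IsScalarTower ↥(NumField.lam A K) ↥K 𝔽)
    (e : ↥(modularFunctionFieldFullC ↥K N) →ₐ[↥K] 𝔽) (x : 𝔽),
    Transcendental ↥K x ∧
    ∃ (_ : FiniteDimensional ↥(↥K)⟮x⟯ 𝔽),
      IntermediateField.adjoin ↥e.fieldRange {x} = ⊤ ∧
      aeval x (cov.Ng.map (Int.castRingHom ↥(NumField.lam A K))) =
        e (GaussL.jC ↥K N) * aeval x (cov.Dg.map (Int.castRingHom ↥(NumField.lam A K))) ∧
      ∀ (ϖ : ↥(NumField.lam A K)) (hϖ : Irreducible ϖ),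
        ∃ C C' : Finset ↥(NumField.lam A K),
          (∀ c ∈ C, ∀ c' ∈ C, c ≠ c' → IsUnit (c - c')) ∧
          (∀ c ∈ C', ∀ c' ∈ C', c ≠ c' → IsUnit (c - c')) ∧
          HasIntegralDualBasis (gaussSub ϖ hϖ.prime x) ↥(↥K)⟮x⟯ 𝔽 ∧
          UnramAway ↥K x ((algebraMap ↥(NumField.lam A K) ↥K) '' (C : Set ↥(NumField.lam A K))) ∧
          UnramAway ↥K x⁻¹
            ((algebraMap ↥(NumField.lam A K) ↥K) '' (C' : Set ↥(NumField.lam A K)))

variable {N : ℕ} [NeZero N] {ℓ : ℕ} [Fact ℓ.Prime] {A : ValuationSubring (AlgebraicClosure ℚ)}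

/-- Generation over `K` by `x` and the image of `e` is generation by `x` over the image of
`e`. -/
theorem cover_adjoin_fieldRange {K F 𝔽 : Type*} [Field K] [Field F] [Field 𝔽] [Algebra K F]
    [Algebra K 𝔽] (e : F →ₐ[K] 𝔽) (x : 𝔽)
    (h : IntermediateField.adjoin K (insert x (Set.range e)) = ⊤) :
    IntermediateField.adjoin ↥e.fieldRange {x} = ⊤ := by
  rw [eq_top_iff]
  intro y _
  have h1 : IntermediateField.adjoin K (insert x (Set.range e)) ≤
      (IntermediateField.adjoin ↥e.fieldRange {x}).restrictScalars K := by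
    rw [IntermediateField.adjoin_le_iff]
    rintro t (rfl | ⟨f, rfl⟩)
    · exact (IntermediateField.mem_restrictScalars K).2
        (IntermediateField.mem_adjoin_simple_self _ _)
    · exact (IntermediateField.mem_restrictScalars K).2
        ((IntermediateField.adjoin ↥e.fieldRange {t | t = x}).algebraMap_mem
          (⟨e f, AlgHom.mem_fieldRange.mpr ⟨f, rfl⟩⟩ : ↥e.fieldRange))
  have h2 : y ∈ IntermediateField.adjoin K (insert x (Set.range e)) := by
    rw [h]
    exact IntermediateField.mem_top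
  exact (IntermediateField.mem_restrictScalars K).1 (h1 h2)

/-- (B1) for the chart `x` in the abstract setting of `S37.CoverE.intLifts_pair` (its first
half). -/
theorem cover_hB1 {Λ K FK 𝔽 : Type*} [CommRing Λ] [IsDomain Λ]
    [IsDiscreteValuationRing Λ] [Field K] [CharZero K] [Algebra Λ K] [IsFractionRing Λ K]
    [Field 𝔽] [Algebra K 𝔽] [Algebra Λ 𝔽] [IsScalarTower Λ K 𝔽]
    [Field FK] [Algebra K FK] [Algebra Λ FK] [IsScalarTower Λ K FK]
    (π : Λ) (hπ : Irreducible π)
    (Ng Dg : Λ[X]) (hdeg : Dg.natDegree < Ng.natDegree) (hlead : IsUnit Ng.leadingCoeff)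
    (hcop : IsCoprime (Ng.map (Ideal.Quotient.mk (Ideal.span {π})))
      (Dg.map (Ideal.Quotient.mk (Ideal.span {π}))))
    (e : FK →ₐ[K] 𝔽) (jK θ : FK) (H : FK[X]) (x : 𝔽)
    (hx : Transcendental K x)
    (hcov : aeval x Ng = e jK * aeval x Dg)
    (Tgen : Set 𝔽) (hTgen : IntermediateField.adjoin K Tgen = ⊤)
    (hTsub : ∀ t ∈ Tgen, t = x ∨ t ∈ Set.range e)
    (hjθ : IntermediateField.adjoin K {jK, θ} = ⊤)
    (hHm : H.Monic) (hHc : ∀ i, H.coeff i ∈ gaussSub π hπ.prime jK) (hHθ : H.eval θ = 0)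
    (hHd0 : H.derivative.eval θ ≠ 0)
    (hHd : IsIntegral (gaussSub π hπ.prime jK) (H.derivative.eval θ)⁻¹) :
    HasIntegralDualBasis (gaussSub π hπ.prime x) K⟮x⟯ 𝔽 := by
  have he : ∀ c : Λ, (e : FK →+* 𝔽) (algebraMap Λ FK c) = algebraMap Λ 𝔽 c := by
    intro c
    rw [IsScalarTower.algebraMap_apply Λ K FK, IsScalarTower.algebraMap_apply Λ K 𝔽]
    exact e.commutes _
  obtain ⟨hHm', hHc', hHθ', hHd0', hHd'⟩ :=
    Transport.map_G2 π hπ.prime (e : FK →+* 𝔽) he jK θ H hHm hHc hHθ hHd0 hHd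
  obtain ⟨hjtr, hjx⟩ := ModelAbs.cover_facts Ng Dg hdeg hlead x (e jK) hx hcov
  have hgen3 : IntermediateField.adjoin K {x, e θ, x} = ⊤ :=
    Transport.adjoin_eq_top e jK θ hjθ x x hjx Tgen hTgen
      (fun t ht => (hTsub t ht).elim Or.inl (fun h => Or.inr (Or.inr h)))
  have hgen : IntermediateField.adjoin K {x, e θ} = ⊤ := by
    have hset : ({x, e θ, x} : Set 𝔽) = {x, e θ} := by
      ext t
      simp only [Set.mem_insert_iff, Set.mem_singleton_iff]
      tauto
    rw [← hset]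
    exact hgen3
  have hle : gaussSub π hπ.prime (e jK) ≤ gaussSub π hπ.prime x :=
    VjInt.gaussSub_j_le' hπ hdeg hlead hcop hcov
  exact S37.CoverE.hasIntegralDualBasis_of_theta π hπ (e jK) x (e θ) (H.map (e : FK →+* 𝔽))
    hjx hjtr hle hgen hHm' hHc' hHθ' hHd0' hHd'

set_option synthInstance.maxHeartbeats 400000 in
set_option maxHeartbeats 2000000 in
/-- **W1**: the cover package over the constant field `K = constField K₀ T` of
`𝔽 = genField K₀ T = K₀(x, j_d)`, for `Ω = F_L(x)` (mirror of `S37.CoverE.coverE_of_omega`,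
exporting the engine hypotheses instead of `IntLifts`). -/
theorem coverPkg_constField (cov : GoodCover ℓ A) (hA : A.LiesOverPrime ℓ) (hℓN : ¬ ℓ ∣ N)
    (K₀ : IntermediateField ℚ (AlgebraicClosure ℚ)) [FiniteDimensional ℚ ↥K₀]
    (hcusps : ∀ a ∈ cov.cusps ∪ cov.cusps', a ∈ K₀)
    (Ω : Type) [Field Ω] [Algebra (AlgebraicClosure ℚ) Ω]
    [Algebra (FFL (AlgebraicClosure ℚ) N) Ω]
    [IsScalarTower (AlgebraicClosure ℚ) (FFL (AlgebraicClosure ℚ) N) Ω]
    [FiniteDimensional (FFL (AlgebraicClosure ℚ) N) Ω] (x : Ω)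
    (hgen : IntermediateField.adjoin (FFL (AlgebraicClosure ℚ) N) {x} = ⊤)
    (hcov : aeval x (cov.Ng.map (Int.castRingHom (AlgebraicClosure ℚ))) =
      algebraMap (FFL (AlgebraicClosure ℚ) N) Ω (jL (AlgebraicClosure ℚ) N) *
        aeval x (cov.Dg.map (Int.castRingHom (AlgebraicClosure ℚ)))) :
    CoverPkg cov N (constField K₀ (Embed.genSet N x (1 : Ω))) := by
  classical
  have hx : Transcendental (AlgebraicClosure ℚ) x :=
    RamFF.transcendental_x N _ _ (ModelCover.isCoprime_algClosure cov) x hcov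
  have hTalg := Embed.isAlgebraic_genSet N K₀ x (1 : Ω) cov.Ng cov.Dg
    (ModelCover.isCoprime_algClosure cov) hcov (p := 1) one_pos 1
    (by rw [pow_one, map_one, map_one])
  have hTfin := Embed.genSet_finite N x (1 : Ω)
  have hKfd : FiniteDimensional ℚ ↥(constField K₀ (Embed.genSet N x (1 : Ω))) :=
    Model.finiteDimensional_constField K₀ hx hTfin hTalg
  have hDVR : IsDiscreteValuationRing
      ↥(NumField.lam A (constField K₀ (Embed.genSet N x (1 : Ω)))) :=
    NumField.isDiscreteValuationRing_lam (constField K₀ (Embed.genSet N x (1 : Ω))) hA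
  obtain ⟨ϖ₀, hϖ₀⟩ := NumField.exists_irreducible_lam
    (K := constField K₀ (Embed.genSet N x (1 : Ω))) hA
  -- function field facts
  have hxK := Model.transcendental_gen K₀ (Embed.x_mem N x (1 : Ω)) hx
  have hfin := Model.finiteDimensional_genField K₀ (Embed.x_mem N x (1 : Ω)) hTfin hTalg
  have hTgen := Model.adjoin_constField_eq_top K₀ (Embed.genSet N x (1 : Ω))
  have hTsub : ∀ t ∈ {t : ↥(genField K₀ (Embed.genSet N x (1 : Ω))) |
      (t : Ω) ∈ Embed.genSet N x (1 : Ω)},
      t = gen K₀ (Embed.x_mem N x (1 : Ω)) ∨ t ∈ Set.range (Embed.embed N K₀ x (1 : Ω)) := by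
    intro t ht
    rcases Embed.eq_or_mem_range_embed N K₀ x (1 : Ω) t ht with h | h | h
    · exact Or.inl h
    · refine Or.inr ⟨1, ?_⟩
      rw [map_one, h]
      exact Subtype.ext rfl
    · exact Or.inr h
  have hj : ((Embed.embed N K₀ x (1 : Ω) (GaussL.jC _ N) :
      ↥(genField K₀ (Embed.genSet N x (1 : Ω)))) : Ω) =
      algebraMap (FFL (AlgebraicClosure ℚ) N) Ω (jL (AlgebraicClosure ℚ) N) := by
    rw [Embed.coe_embed, Descent.toFL_jC]
  refine ⟨↥(genField K₀ (Embed.genSet N x (1 : Ω))), inferInstance, inferInstance,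
    inferInstance, inferInstance, Embed.embed N K₀ x (1 : Ω),
    gen K₀ (Embed.x_mem N x (1 : Ω)), hxK, hfin, ?_, ?_, ?_⟩
  · -- generation
    refine cover_adjoin_fieldRange _ _ ?_
    rw [eq_top_iff, ← hTgen]
    refine IntermediateField.adjoin.mono _ _ _ ?_
    intro t ht
    rcases hTsub t ht with h | h
    · exact Set.mem_insert_iff.mpr (Or.inl h)
    · exact Set.mem_insert_of_mem _ h
  · -- the cover relation
    exact (ModelCover.exists_cover_data_E cov hA K₀ (Embed.genSet N x (1 : Ω)) x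
      (Embed.x_mem N x (1 : Ω)) hcusps hcov hgen ϖ₀
      (Embed.embed N K₀ x (1 : Ω) (GaussL.jC _ N)) hj).2.2.2.1
  · intro ϖ hϖ
    obtain ⟨θ, H, hjθ, hHm, hHc, hHθ, hHd0, hHd⟩ := GaussOut.exists_theta N hA hℓN _ ϖ hϖ
    obtain ⟨hdeg, hlead, hcop, hcov', C, C', hC, hC', hB2, hB2'⟩ :=
      ModelCover.exists_cover_data_E cov hA K₀ (Embed.genSet N x (1 : Ω)) x
        (Embed.x_mem N x (1 : Ω)) hcusps hcov hgen ϖ
        (Embed.embed N K₀ x (1 : Ω) (GaussL.jC _ N)) hj
    refine ⟨C, C', hC, hC', ?_, hB2, hB2'⟩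
    exact cover_hB1 ϖ hϖ _ _ hdeg hlead hcop (Embed.embed N K₀ x (1 : Ω)) (GaussL.jC _ N) θ H
      (gen K₀ (Embed.x_mem N x (1 : Ω))) hxK hcov' _ hTgen hTsub hjθ hHm hHc hHθ hHd0 hHd

end Fermat.Agent.S34
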