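import Mathlib

/-!
# P19 (S34), MODEL-M, W5 (abstract part): a simple extension generated by a root of a polynomial
all of whose roots lie in the extension is Galois (characteristic zero).
-/

set_option autoImplicit false

namespace Fermat.Agent.S34

open Polynomial

/-- (G-abs-1) `𝔽 = F₀(x)`, `P(x) = 0`, and every root of `P` in an algebraic closure of `𝔽` lies
in `𝔽`: then `𝔽 / F₀` is Galois. -/
theorem s34_isGalois_of_roots {F₀ 𝔽 : Type*} [Field F₀] [Field 𝔽] [Algebra F₀ 𝔽] [CharZero F₀]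
    (x : 𝔽) (hgen : IntermediateField.adjoin F₀ {x} = ⊤) (P : F₀[X]) (hP0 : P ≠ 0)
    (hPx : aeval x P = 0)
    (hroots : ∀ y : AlgebraicClosure 𝔽, aeval y P = 0 →
      y ∈ (algebraMap 𝔽 (AlgebraicClosure 𝔽)).range) : IsGalois F₀ 𝔽 := by
  have hx : IsIntegral F₀ x := IsAlgebraic.isIntegral ⟨P, hP0, hPx⟩
  have hpP : minpoly F₀ x ∣ P := minpoly.dvd F₀ x hPx
  have hsplit : ((minpoly F₀ x).map (algebraMap F₀ 𝔽)).Splits := by
    refine Splits.of_splits_map (algebraMap 𝔽 (AlgebraicClosure 𝔽)) (IsAlgClosed.splits _) ?_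
    intro a ha
    apply hroots
    have h0 : ((minpoly F₀ x).map (algebraMap F₀ 𝔽)).map (algebraMap 𝔽 (AlgebraicClosure 𝔽)) ≠ 0 :=
      Polynomial.map_ne_zero (Polynomial.map_ne_zero (minpoly.ne_zero hx))
    have h1 : eval a (((minpoly F₀ x).map (algebraMap F₀ 𝔽)).map
        (algebraMap 𝔽 (AlgebraicClosure 𝔽))) = 0 := (mem_roots h0).mp ha
    have h2 : aeval a (minpoly F₀ x) = 0 := by
      rw [aeval_def, IsScalarTower.algebraMap_eq F₀ 𝔽 (AlgebraicClosure 𝔽), ← eval_map,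
        ← Polynomial.map_map]
      exact h1
    obtain ⟨Q, hQ⟩ := hpP
    rw [hQ, map_mul, h2, zero_mul]
  have : (minpoly F₀ x).IsSplittingField F₀ 𝔽 := by
    rw [isSplittingField_iff_intermediateField]
    refine ⟨hsplit, top_unique ?_⟩
    rw [← hgen]
    apply IntermediateField.adjoin.mono
    intro y hy
    rw [Set.mem_singleton_iff] at hy
    rw [hy, mem_rootSet]
    exact ⟨minpoly.ne_zero hx, minpoly.aeval F₀ x⟩
  exact IsGalois.of_separable_splitting_field (p := minpoly F₀ x)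
    (minpoly.irreducible hx).separable

/-- (G-abs-1), normality form. -/
theorem s34_normal_of_roots {F₀ 𝔽 : Type*} [Field F₀] [Field 𝔽] [Algebra F₀ 𝔽] [CharZero F₀]
    (x : 𝔽) (hgen : IntermediateField.adjoin F₀ {x} = ⊤) (P : F₀[X]) (hP0 : P ≠ 0)
    (hPx : aeval x P = 0)
    (hroots : ∀ y : AlgebraicClosure 𝔽, aeval y P = 0 →
      y ∈ (algebraMap 𝔽 (AlgebraicClosure 𝔽)).range) : Normal F₀ 𝔽 :=
  have := s34_isGalois_of_roots x hgen P hP0 hPx hroots
  inferInstance

end Fermat.Agent.S34
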