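import Mathlib
import Fermat.Agent.S34.CoverMobius
import Fermat.Agent.S37.CoverShift

/-!
# P19 (S34), MODEL-M, W5 (second team): the cover field is Galois over the coarse field

Mirror of the pin `P19-W5` (first team `S34/CoverGal.lean`), all names suffixed `_B`.

`𝔽 = e(F)(x)` with `Ng(x) = e(j) · Dg(x)`.  For the cover `S37.goodCover0` (the `λ`-cover in the
coordinate `x - 1` for `ℓ ≠ 2`, the Hesse cover for `ℓ = 2`) every root of `Ng - j · Dg` in an
extension of `𝔽` is a Möbius image of `x` (`S34/CoverMobius.lean`), hence lies in `𝔽`; so `𝔽` is a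
splitting field of `Ng - j · Dg` over `e(F)`: finite, normal, Galois (characteristic zero).
-/

set_option autoImplicit false

namespace Fermat.Agent.S34

open Polynomial IntermediateField
open Fermat.Agent.S18

/-! ### Generic lemmas (Mathlib only) -/

/-- (c) a polynomial all of whose roots in an algebraic closure are rational splits. -/
theorem s34cg_splits_of_roots_B {𝔽 : Type*} [Field 𝔽] (P : 𝔽[X])
    (h : ∀ y : AlgebraicClosure 𝔽, aeval y P = 0 →
      y ∈ Set.range (algebraMap 𝔽 (AlgebraicClosure 𝔽))) : P.Splits := by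
  refine Splits.of_splits_map_of_injective (i := algebraMap 𝔽 (AlgebraicClosure 𝔽))
    (algebraMap 𝔽 (AlgebraicClosure 𝔽)).injective (IsAlgClosed.splits _) ?_
  intro a ha
  apply h a
  have h1 : (P.map (algebraMap 𝔽 (AlgebraicClosure 𝔽))).eval a = 0 := (mem_roots'.mp ha).2
  rw [eval_map_algebraMap] at h1
  exact h1

/-- (a) `𝔽 = F(x)` with `x` algebraic over `F` is finite over `F`. -/
theorem s34cg_finiteDimensional_B {F 𝔽 : Type*} [Field F] [Field 𝔽] [Algebra F 𝔽] (x : 𝔽)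
    (hgen : F⟮x⟯ = ⊤) (p : F[X]) (hp0 : p ≠ 0) (hpx : aeval x p = 0) :
    FiniteDimensional F 𝔽 := by
  have hxalg : IsAlgebraic F x := ⟨p, hp0, hpx⟩
  haveI : FiniteDimensional F F⟮x⟯ := adjoin.finiteDimensional hxalg.isIntegral
  have h1 : FiniteDimensional F (⊤ : IntermediateField F 𝔽) := hgen ▸ this
  exact LinearEquiv.finiteDimensional (topEquiv (F := F) (E := 𝔽)).toLinearEquiv

/-- (b) `𝔽 = F(x)`, `p(x) = 0`, `p ≠ 0` split in `𝔽`, characteristic zero: `𝔽 / F` is Galois. -/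
theorem s34cg_isGalois_B {F 𝔽 : Type*} [Field F] [Field 𝔽] [Algebra F 𝔽] [CharZero F] (x : 𝔽)
    (hgen : F⟮x⟯ = ⊤) (p : F[X]) (hp0 : p ≠ 0) (hpx : aeval x p = 0)
    (hsplit : (p.map (algebraMap F 𝔽)).Splits) : IsGalois F 𝔽 := by
  have hxalg : IsAlgebraic F x := ⟨p, hp0, hpx⟩
  have hadj : Algebra.adjoin F (p.rootSet 𝔽 : Set 𝔽) = ⊤ := by
    have hxroot : x ∈ p.rootSet 𝔽 := (mem_rootSet_of_ne hp0).mpr hpx
    have h1 : Algebra.adjoin F ({x} : Set 𝔽) = ⊤ := by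
      rw [← adjoin_simple_toSubalgebra_of_isAlgebraic hxalg, hgen]
      rfl
    rw [eq_top_iff, ← h1]
    exact Algebra.adjoin_mono (Set.singleton_subset_iff.mpr hxroot)
  haveI : IsSplittingField F 𝔽 p := ⟨hsplit, hadj⟩
  haveI : Normal F 𝔽 := Normal.of_isSplittingField p
  exact IsGalois.mk

/-! ### The Möbius orbits of the two covers -/

/-- roots of the `λ`-relation are rational over any field containing one root. -/
theorem s34cg_lam_root_mem_B {𝔽 Ω : Type*} [Field 𝔽] [Field Ω] [Algebra 𝔽 Ω] [CharZero 𝔽]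
    (x j : 𝔽) (hcov : 256 * (x ^ 2 - x + 1) ^ 3 = j * (x ^ 2 * (x - 1) ^ 2))
    (y : Ω) (hy : 256 * (y ^ 2 - y + 1) ^ 3 = algebraMap 𝔽 Ω j * (y ^ 2 * (y - 1) ^ 2)) :
    y ∈ Set.range (algebraMap 𝔽 Ω) := by
  have h256 : (256 : 𝔽) ≠ 0 := by norm_num
  have hx0 : x ≠ 0 := by
    rintro rfl
    norm_num at hcov
  have hx1 : x ≠ 1 := by
    rintro rfl
    norm_num at hcov
  set ι := algebraMap 𝔽 Ω with hι
  have hx0' : ι x ≠ 0 := (map_ne_zero ι).mpr hx0
  have hx1' : ι x ≠ 1 := fun h => hx1 (ι.injective (by rw [h, map_one]))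
  have hcov' : 256 * ((ι x) ^ 2 - ι x + 1) ^ 3 = ι j * ((ι x) ^ 2 * (ι x - 1) ^ 2) := by
    have := congrArg ι hcov
    simpa [map_mul, map_pow, map_sub, map_add, map_one, map_ofNat] using this
  have h256' : (256 : Ω) ≠ 0 := by
    have : (256 : Ω) = ι 256 := by rw [map_ofNat]
    rw [this]
    exact (map_ne_zero ι).mpr h256
  have hkey : 256 * (y ^ 2 - y + 1) ^ 3 * ((ι x) ^ 2 * (ι x - 1) ^ 2) =
      256 * ((ι x) ^ 2 - ι x + 1) ^ 3 * (y ^ 2 * (y - 1) ^ 2) := by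
    linear_combination ((ι x) ^ 2 * (ι x - 1) ^ 2) * hy - (y ^ 2 * (y - 1) ^ 2) * hcov'
  rcases s34_lam_mobius (ι x) y h256' hx0' hx1' hkey with h | h | h | h | h | h
  · exact ⟨x, h.symm⟩
  · exact ⟨1 - x, by rw [h, map_sub, map_one]⟩
  · exact ⟨x⁻¹, by rw [h, map_inv₀]⟩
  · exact ⟨(1 - x)⁻¹, by rw [h, map_inv₀, map_sub, map_one]⟩
  · exact ⟨x / (x - 1), by rw [h, map_div₀, map_sub, map_one]⟩
  · exact ⟨(x - 1) / x, by rw [h, map_div₀, map_sub, map_one]⟩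

/-- roots of the Hesse relation are rational over any field containing one root and a primitive
cube root of unity. -/
theorem s34cg_mu_root_mem_B {𝔽 Ω : Type*} [Field 𝔽] [Field Ω] [Algebra 𝔽 Ω] [CharZero 𝔽]
    (ω x j : 𝔽) (hω : ω ^ 2 + ω + 1 = 0)
    (hcov : 27 * (x * (x ^ 3 + 8)) ^ 3 = j * (x ^ 3 - 1) ^ 3)
    (y : Ω) (hy : 27 * (y * (y ^ 3 + 8)) ^ 3 = algebraMap 𝔽 Ω j * (y ^ 3 - 1) ^ 3) :
    y ∈ Set.range (algebraMap 𝔽 Ω) := by
  have h27 : (27 : 𝔽) ≠ 0 := by norm_num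
  have hω3 : ω ^ 3 = 1 := by linear_combination (ω - 1) * hω
  have hx3 : x ^ 3 ≠ 1 := by
    intro h
    have h1 : 27 * (x * (x ^ 3 + 8)) ^ 3 = (19683 : 𝔽) := by
      have : (x * (x ^ 3 + 8)) ^ 3 = x ^ 3 * (x ^ 3 + 8) ^ 3 := by ring
      rw [this, h]
      norm_num
    rw [h1, h] at hcov
    norm_num at hcov
  have hx0 : x ≠ 1 := by
    rintro rfl
    exact hx3 (by norm_num)
  have hx1 : ω * x ≠ 1 := by
    intro h
    apply hx3
    have h1 : (ω * x) ^ 3 = 1 := by rw [h]; norm_num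
    rw [mul_pow, hω3, one_mul] at h1
    exact h1
  have hx2 : ω ^ 2 * x ≠ 1 := by
    intro h
    apply hx3
    have h1 : (ω ^ 2 * x) ^ 3 = 1 := by rw [h]; norm_num
    have h2 : (ω ^ 2 * x) ^ 3 = (ω ^ 3) ^ 2 * x ^ 3 := by ring
    rw [h2, hω3, one_pow, one_mul] at h1
    exact h1
  set ι := algebraMap 𝔽 Ω with hι
  have hωι : (ι ω) ^ 2 + ι ω + 1 = 0 := by
    have := congrArg ι hω
    simpa [map_add, map_pow, map_one] using this
  have hne : ∀ a : 𝔽, a ≠ 1 → ι a ≠ 1 := fun a ha h => ha (ι.injective (by rw [h, map_one]))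
  have hcov' : 27 * (ι x * ((ι x) ^ 3 + 8)) ^ 3 = ι j * ((ι x) ^ 3 - 1) ^ 3 := by
    have := congrArg ι hcov
    simpa [map_mul, map_pow, map_sub, map_add, map_one, map_ofNat] using this
  have h27' : (27 : Ω) ≠ 0 := by
    have : (27 : Ω) = ι 27 := by rw [map_ofNat]
    rw [this]
    exact (map_ne_zero ι).mpr h27
  have hkey : 27 * (y * (y ^ 3 + 8)) ^ 3 * ((ι x) ^ 3 - 1) ^ 3 =
      27 * (ι x * ((ι x) ^ 3 + 8)) ^ 3 * (y ^ 3 - 1) ^ 3 := by
    linear_combination (((ι x) ^ 3 - 1) ^ 3) * hy - ((y ^ 3 - 1) ^ 3) * hcov'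
  have hx1' : ι ω * ι x ≠ 1 := by
    rw [← map_mul]
    exact hne _ hx1
  have hx2' : (ι ω) ^ 2 * ι x ≠ 1 := by
    rw [← map_pow, ← map_mul]
    exact hne _ hx2
  have hbranch : ∀ t : 𝔽, ∀ y' : Ω,
      (y' = (ι t + 2) / (ι t - 1) ∨ y' = ι ω * (ι t + 2) / (ι t - 1) ∨
        y' = (ι ω) ^ 2 * (ι t + 2) / (ι t - 1)) → y' ∈ Set.range ι := by
    intro t y' h
    rcases h with h | h | h
    · exact ⟨(t + 2) / (t - 1), by
        rw [h, map_div₀, map_add, map_sub, map_one, map_ofNat]⟩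
    · exact ⟨ω * (t + 2) / (t - 1), by
        rw [h, map_div₀, map_mul, map_add, map_sub, map_one, map_ofNat]⟩
    · exact ⟨ω ^ 2 * (t + 2) / (t - 1), by
        rw [h, map_div₀, map_mul, map_pow, map_add, map_sub, map_one, map_ofNat]⟩
  rcases s34_mu_mobius (ι ω) (ι x) y hωι h27' (hne _ hx0) hx1' hx2' hkey with
    (h | h | h) | ⟨t, ht, hy'⟩
  · exact ⟨x, h.symm⟩
  · exact ⟨ω * x, by rw [h, map_mul]⟩
  · exact ⟨ω ^ 2 * x, by rw [h, map_mul, map_pow]⟩
  · rcases ht with rfl | rfl | rfl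
    · exact hbranch x y hy'
    · refine hbranch (ω * x) y ?_
      rw [map_mul]
      exact hy'
    · refine hbranch (ω ^ 2 * x) y ?_
      rw [map_mul, map_pow]
      exact hy'

/-! ### The pinned statements -/

/-- the cover polynomial `Ng − j·Dg` splits over every field containing one root `x`
(`x` transcendental over a number field `K ∋` cusps). -/
def S34CoverSplit_B {ℓ : ℕ} {A : ValuationSubring (AlgebraicClosure ℚ)} (cov : GoodCover ℓ A) :
    Prop :=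
  ∀ (K : IntermediateField ℚ (AlgebraicClosure ℚ)), (∀ a ∈ cov.cusps, a ∈ K) →
    ∀ (𝔽 : Type) [Field 𝔽] [Algebra ↥K 𝔽] (x j : 𝔽), Transcendental ↥K x →
      eval x (cov.Ng.map (Int.castRingHom 𝔽)) = j * eval x (cov.Dg.map (Int.castRingHom 𝔽)) →
      (cov.Ng.map (Int.castRingHom 𝔽) - C j * cov.Dg.map (Int.castRingHom 𝔽)).Splits

variable {ℓ : ℕ} [Fact ℓ.Prime] {A : ValuationSubring (AlgebraicClosure ℚ)}

theorem s34cg_coverSplit_lam1_B (hA : A.LiesOverPrime ℓ) (h2 : ℓ ≠ 2) :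
    S34CoverSplit_B (Fermat.Agent.S37.goodCover_lam1 hA h2) := by
  intro K _ 𝔽 _ _ x j _ hcov
  haveI : CharZero 𝔽 := charZero_of_injective_algebraMap (algebraMap ↥K 𝔽).injective
  rw [Fermat.Agent.S37.goodCover_lam1_Ng, Fermat.Agent.S37.goodCover_lam1_Dg,
    Fermat.Agent.S37.CoverShift.map_comp_X_add_C, Fermat.Agent.S37.CoverShift.map_comp_X_add_C,
    Cover.map_lamN, Cover.map_lamD] at hcov ⊢
  rw [taylor_eval, taylor_eval, Cover.eval_lamN, Cover.eval_lamD] at hcov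
  refine s34cg_splits_of_roots_B _ ?_
  intro y hy
  rw [map_sub, map_mul, aeval_C, taylor_apply, taylor_apply, aeval_comp, aeval_comp,
    Cover.aeval_lamN, Cover.aeval_lamD] at hy
  simp only [map_add, aeval_X, aeval_C] at hy
  have hy' : 256 * ((y - 1) ^ 2 - (y - 1) + 1) ^ 3 =
      algebraMap 𝔽 (AlgebraicClosure 𝔽) j * ((y - 1) ^ 2 * ((y - 1) - 1) ^ 2) := by
    have h1 : y + algebraMap 𝔽 (AlgebraicClosure 𝔽) (((-1 : ℤ) : 𝔽)) = y - 1 := by
      push_cast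
      ring
    rw [h1] at hy
    linear_combination hy
  have hcov' : 256 * ((x - 1) ^ 2 - (x - 1) + 1) ^ 3 = j * ((x - 1) ^ 2 * ((x - 1) - 1) ^ 2) := by
    have h1 : x + (((-1 : ℤ) : 𝔽)) = x - 1 := by
      push_cast
      ring
    rw [h1] at hcov
    exact hcov
  obtain ⟨z, hz⟩ := s34cg_lam_root_mem_B (x - 1) j hcov' (y - 1) hy'
  exact ⟨z + 1, by rw [map_add, map_one, hz]; ring⟩

theorem s34cg_coverSplit_mu_B (hA : A.LiesOverPrime ℓ) (h3 : ℓ ≠ 3) :
    S34CoverSplit_B (goodCover_mu hA h3) := by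
  intro K hK 𝔽 _ _ x j _ hcov
  haveI : CharZero 𝔽 := charZero_of_injective_algebraMap (algebraMap ↥K 𝔽).injective
  have hωK : CoverInst.omega ∈ K :=
    hK _ ((mem_goodCover_mu_cusps hA h3).mpr (Or.inr (Or.inl rfl)))
  let ωK : ↥K := ⟨CoverInst.omega, hωK⟩
  have hωK' : ωK ^ 2 + ωK + 1 = 0 := Subtype.ext (by
    push_cast
    exact CoverInst.omega_spec)
  have hω : (algebraMap ↥K 𝔽 ωK) ^ 2 + algebraMap ↥K 𝔽 ωK + 1 = 0 := by
    have := congrArg (algebraMap ↥K 𝔽) hωK'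
    simpa [map_add, map_pow, map_one] using this
  rw [goodCover_mu_Ng, goodCover_mu_Dg, Cover.map_muN, Cover.map_muD] at hcov ⊢
  rw [Cover.eval_muN, Cover.eval_muD] at hcov
  refine s34cg_splits_of_roots_B _ ?_
  intro y hy
  rw [map_sub, map_mul, aeval_C, Cover.aeval_muN, Cover.aeval_muD] at hy
  exact s34cg_mu_root_mem_B (algebraMap ↥K 𝔽 ωK) x j hω hcov y (by linear_combination hy)

theorem s34cg_coverSplit_goodCover0_B (hA : A.LiesOverPrime ℓ) :
    S34CoverSplit_B (Fermat.Agent.S37.goodCover0 hA) := by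
  by_cases h2 : ℓ = 2
  · rw [Fermat.Agent.S37.goodCover0_of_eq_two hA h2]
    exact s34cg_coverSplit_mu_B hA (by omega)
  · rw [Fermat.Agent.S37.goodCover0_of_ne_two hA h2]
    exact s34cg_coverSplit_lam1_B hA h2

/-- the cover to use in W1 / MSTAR (the one of `S37.exists_goodCover0`). -/
theorem s34cg_exists_goodCover_B (hA : A.LiesOverPrime ℓ) :
    ∃ cov : GoodCover ℓ A, ¬ (ℓ : ℤ) ∣ cov.Dg.eval 0 ∧ S34CoverSplit_B cov :=
  ⟨Fermat.Agent.S37.goodCover0 hA, Fermat.Agent.S37.not_dvd_eval_goodCover0_Dg hA,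
    s34cg_coverSplit_goodCover0_B hA⟩

/-- **W5 export**: in the W1 package (`e : F →ₐ[K] 𝔽`, `𝔽 = e(F)(x)`, `Ng(x) = e(j)·Dg(x)`) the
cover field is finite Galois over `e(F)`. -/
theorem s34cg_isGalois_fieldRange_B {ℓ : ℕ} {A : ValuationSubring (AlgebraicClosure ℚ)}
    (cov : GoodCover ℓ A) (hsplit : S34CoverSplit_B cov)
    (K : IntermediateField ℚ (AlgebraicClosure ℚ)) (hK : ∀ a ∈ cov.cusps, a ∈ K)
    {F : Type*} {𝔽 : Type} [Field F] [Field 𝔽] [Algebra ↥K F] [Algebra ↥K 𝔽] (e : F →ₐ[↥K] 𝔽)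
    (x : 𝔽) (j : F)
    (hx : Transcendental ↥K x) (hgen : IntermediateField.adjoin ↥e.fieldRange {x} = ⊤)
    {R : Type*} [CommRing R] [Algebra R 𝔽]
    (hcov : aeval x (cov.Ng.map (Int.castRingHom R)) =
      e j * aeval x (cov.Dg.map (Int.castRingHom R))) :
    FiniteDimensional ↥e.fieldRange 𝔽 ∧ IsGalois ↥e.fieldRange 𝔽 := by
  haveI : CharZero 𝔽 := charZero_of_injective_algebraMap (algebraMap ↥K 𝔽).injective
  haveI : CharZero ↥e.fieldRange :=
    charZero_of_injective_algebraMap (algebraMap ↥K ↥e.fieldRange).injective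
  -- the cover relation in `𝔽`
  have hev : ∀ q : ℤ[X], aeval x (q.map (Int.castRingHom R)) =
      eval x (q.map (Int.castRingHom 𝔽)) := by
    intro q
    rw [aeval_def, eval₂_map, eval_map]
    congr 1
    exact RingHom.ext_int _ _
  rw [hev, hev] at hcov
  have hS := hsplit K hK 𝔽 x (e j) hx hcov
  -- the polynomial over `e(F)`
  let jE : ↥e.fieldRange := ⟨e j, AlgHom.mem_fieldRange.mpr ⟨j, rfl⟩⟩
  let p : (↥e.fieldRange)[X] :=
    cov.Ng.map (Int.castRingHom ↥e.fieldRange) - C jE * cov.Dg.map (Int.castRingHom ↥e.fieldRange)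
  have hmap : p.map (algebraMap ↥e.fieldRange 𝔽) =
      cov.Ng.map (Int.castRingHom 𝔽) - C (e j) * cov.Dg.map (Int.castRingHom 𝔽) := by
    have h1 : (algebraMap ↥e.fieldRange 𝔽).comp (Int.castRingHom ↥e.fieldRange) =
        Int.castRingHom 𝔽 := RingHom.ext_int _ _
    simp only [p, Polynomial.map_sub, Polynomial.map_mul, Polynomial.map_map, h1, map_C]
    rfl
  have hpx : aeval x p = 0 := by
    rw [aeval_def, ← eval_map, hmap, eval_sub, eval_mul, eval_C, hcov, sub_self]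
  have hp0 : p ≠ 0 := by
    intro h0
    have hm0 : cov.m ≠ 0 := by
      intro h
      exact cov.hm (h ▸ dvd_zero ℓ)
    have hu : IsUnit ((cov.m : ℕ) : 𝔽) := (Nat.cast_ne_zero.mpr hm0).isUnit
    obtain ⟨hdeg, -, -⟩ := cov.basic 𝔽 hu
    have h1 : cov.Ng.map (Int.castRingHom 𝔽) = C (e j) * cov.Dg.map (Int.castRingHom 𝔽) := by
      have h2 : p.map (algebraMap ↥e.fieldRange 𝔽) = 0 := by rw [h0, Polynomial.map_zero]
      rw [hmap, sub_eq_zero] at h2
      exact h2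
    have h3 : (cov.Ng.map (Int.castRingHom 𝔽)).natDegree ≤
        (cov.Dg.map (Int.castRingHom 𝔽)).natDegree := by
      rw [h1]
      exact natDegree_C_mul_le _ _
    omega
  have hfd := s34cg_finiteDimensional_B (F := ↥e.fieldRange) x hgen p hp0 hpx
  exact ⟨hfd, s34cg_isGalois_B (F := ↥e.fieldRange) x hgen p hp0 hpx (hmap ▸ hS)⟩

theorem s34cg_normal_fieldRange_B {ℓ : ℕ} {A : ValuationSubring (AlgebraicClosure ℚ)}
    (cov : GoodCover ℓ A) (hsplit : S34CoverSplit_B cov)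
    (K : IntermediateField ℚ (AlgebraicClosure ℚ)) (hK : ∀ a ∈ cov.cusps, a ∈ K)
    {F : Type*} {𝔽 : Type} [Field F] [Field 𝔽] [Algebra ↥K F] [Algebra ↥K 𝔽] (e : F →ₐ[↥K] 𝔽)
    (x : 𝔽) (j : F)
    (hx : Transcendental ↥K x) (hgen : IntermediateField.adjoin ↥e.fieldRange {x} = ⊤)
    {R : Type*} [CommRing R] [Algebra R 𝔽]
    (hcov : aeval x (cov.Ng.map (Int.castRingHom R)) =
      e j * aeval x (cov.Dg.map (Int.castRingHom R))) :
    Normal ↥e.fieldRange 𝔽 :=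
  (s34cg_isGalois_fieldRange_B cov hsplit K hK e x j hx hgen hcov).2.to_normal

end Fermat.Agent.S34
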