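import Mathlib

/-!
P19 (S34), block MODEL-M2 (norm descent to the coarse model): the basic predicate.

`InvLocGen G 𝔐 π u` : `u` is `G`-invariant, lies in `𝔐`, and the ideal `𝔐 ∩ B^G` of the ring of
invariants `B^G` is generated by `π` and `u` locally at `𝔐 ∩ B^G` (division-free elementwise form,
written inside `B`).
-/

set_option autoImplicit false

namespace Fermat.Agent.S34

/-- `u` is `G`-invariant, lies in `𝔐`, and `𝔐 ∩ B^G` is generated by `π` and `u` locally at
`𝔐 ∩ B^G` inside the ring of invariants `B^G` (elementwise form). -/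
def InvLocGen (G : Type*) [Group G] {B : Type*} [CommRing B] [MulSemiringAction G B]
    (𝔐 : Ideal B) (π u : B) : Prop :=
  (∀ g : G, g • u = u) ∧ u ∈ 𝔐 ∧ ∀ z ∈ 𝔐, (∀ g : G, g • z = z) →
    ∃ a b c : B, (∀ g : G, g • a = a) ∧ (∀ g : G, g • b = b) ∧ (∀ g : G, g • c = c) ∧
      a ∉ 𝔐 ∧ a * z = π * b + u * c

theorem InvLocGen.smul_eq {G : Type*} [Group G] {B : Type*} [CommRing B]
    [MulSemiringAction G B] {𝔐 : Ideal B} {π u : B} (h : InvLocGen G 𝔐 π u) (g : G) :
    g • u = u := h.1 g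

theorem InvLocGen.mem {G : Type*} [Group G] {B : Type*} [CommRing B]
    [MulSemiringAction G B] {𝔐 : Ideal B} {π u : B} (h : InvLocGen G 𝔐 π u) : u ∈ 𝔐 := h.2.1

end Fermat.Agent.S34
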