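import Mathlib

/-!
# P19 (S34), block D1: Nakayama's lemma in denominator form

Let `M` be a finite module over a commutative ring `R`, `𝔪` a prime ideal of `R` and `P` a
submodule of `M`.  If every element of `M` can be moved into `P + 𝔪 M` by a scalar outside `𝔪`,
then a single scalar outside `𝔪` moves all of `M` into `P` (`dnC_nakayama`).
-/

set_option autoImplicit false

namespace Fermat.Agent.S34

/-- A uniform denominator: if every element of a finite module can be moved into the submodule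
`N` by a scalar outside the prime ideal `𝔪`, then one scalar outside `𝔪` moves the whole module
into `N`. -/
theorem dnCn_uniform {R M : Type*} [CommRing R] [AddCommGroup M] [Module R M] [Module.Finite R M]
    (𝔪 : Ideal R) [𝔪.IsPrime] (N : Submodule R M)
    (h : ∀ x : M, ∃ a : R, a ∉ 𝔪 ∧ a • x ∈ N) :
    ∃ a : R, a ∉ 𝔪 ∧ ∀ x : M, a • x ∈ N := by
  classical
  obtain ⟨S, hS⟩ := (Module.Finite.fg_top : (⊤ : Submodule R M).FG)
  choose c hc1 hc2 using h
  refine ⟨∏ y ∈ S, c y, ?_, ?_⟩
  · intro hmem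
    obtain ⟨y, -, hy⟩ := Ideal.IsPrime.prod_mem_iff.mp hmem
    exact hc1 y hy
  · have hle : Submodule.span R (S : Set M) ≤
        N.comap ((∏ y ∈ S, c y) • (LinearMap.id : M →ₗ[R] M)) := by
      rw [Submodule.span_le]
      intro x hx
      have hx' : x ∈ S := hx
      rw [SetLike.mem_coe, Submodule.mem_comap, LinearMap.smul_apply, LinearMap.id_apply,
        ← Finset.prod_erase_mul S c hx', mul_smul]
      exact N.smul_mem _ (hc2 x)
    intro x
    have hx : x ∈ Submodule.span R (S : Set M) := by rw [hS]; trivial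
    exact hle hx

/-- The value at `a` of a monic polynomial whose lower coefficients lie in the prime ideal `𝔪`
is outside `𝔪` as soon as `a` is. -/
theorem dnCn_eval_not_mem {R : Type*} [CommRing R] (𝔪 : Ideal R) [𝔪.IsPrime] (p : Polynomial R)
    (hp : p.Monic) (hcoeff : ∀ k, p.coeff k ∈ 𝔪 ^ (p.natDegree - k)) (a : R) (ha : a ∉ 𝔪) :
    p.eval a ∉ 𝔪 := by
  intro hmem
  rw [Polynomial.eval_eq_sum_range, Finset.sum_range_succ, hp.coeff_natDegree, one_mul] at hmem
  have hsum : ∑ i ∈ Finset.range p.natDegree, p.coeff i * a ^ i ∈ 𝔪 := by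
    refine Ideal.sum_mem _ fun i hi => ?_
    have hi' : i < p.natDegree := Finset.mem_range.mp hi
    have hne : p.natDegree - i ≠ 0 := by omega
    exact Ideal.mul_mem_right _ _ (Ideal.pow_le_self hne (hcoeff i))
  have hpow : a ^ p.natDegree ∈ 𝔪 := by
    have := 𝔪.sub_mem hmem hsum
    rwa [add_sub_cancel_left] at this
  exact ha (Ideal.IsPrime.mem_of_pow_mem inferInstance _ hpow)

/-- Nakayama in denominator form. -/
theorem dnC_nakayama {R M : Type*} [CommRing R] [AddCommGroup M] [Module R M] [Module.Finite R M]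
    (𝔪 : Ideal R) [𝔪.IsPrime] (P : Submodule R M)
    (h : ∀ x : M, ∃ a : R, a ∉ 𝔪 ∧ a • x ∈ P ⊔ 𝔪 • (⊤ : Submodule R M)) :
    ∃ a : R, a ∉ 𝔪 ∧ ∀ x : M, a • x ∈ P := by
  obtain ⟨a, ha, hax⟩ := dnCn_uniform 𝔪 (P ⊔ 𝔪 • (⊤ : Submodule R M)) h
  have hmap : Submodule.map P.mkQ (𝔪 • (⊤ : Submodule R M)) ≤
      𝔪 • (⊤ : Submodule R (M ⧸ P)) := by
    rw [Submodule.map_smul'']
    exact Submodule.smul_mono le_rfl le_top
  have hrange : LinearMap.range (algebraMap R (Module.End R (M ⧸ P)) a) ≤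
      𝔪 • (⊤ : Submodule R (M ⧸ P)) := by
    rintro _ ⟨q, rfl⟩
    obtain ⟨x, rfl⟩ := Submodule.mkQ_surjective P q
    rw [Module.algebraMap_end_apply]
    obtain ⟨y, hy, z, hz, hyz⟩ := Submodule.mem_sup.mp (hax x)
    have hy0 : P.mkQ y = 0 := by
      rw [Submodule.mkQ_apply, Submodule.Quotient.mk_eq_zero]
      exact hy
    have hq : a • P.mkQ x = P.mkQ z := by
      rw [← map_smul, ← hyz, map_add, hy0, zero_add]
    rw [hq]
    exact hmap (Submodule.mem_map_of_mem hz)
  obtain ⟨p, hmonic, -, hcoeff, hp⟩ :=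
    LinearMap.exists_monic_and_natDegree_eq_and_coeff_mem_pow_and_aeval_eq_zero R
      (algebraMap R (Module.End R (M ⧸ P)) a) 𝔪 hrange
  rw [Polynomial.aeval_algebraMap_apply_eq_algebraMap_eval] at hp
  refine ⟨p.eval a, dnCn_eval_not_mem 𝔪 p hmonic hcoeff a ha, fun x => ?_⟩
  have hx := LinearMap.congr_fun hp (P.mkQ x)
  rw [Module.algebraMap_end_apply, LinearMap.zero_apply, ← map_smul, Submodule.mkQ_apply,
    Submodule.Quotient.mk_eq_zero] at hx
  exact hx

end Fermat.Agent.S34
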