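import Mathlib

/-!
# P19 (S34), norm descent, leaf D0: invariants surject onto the residue field

Let a finite group `I` act on a commutative ring `B` and let `𝔐` be a maximal ideal of `B` with
finite residue field on which `I` acts trivially.  Then every residue class modulo `𝔐` contains
an `I`-invariant element (`invLocGen_residue`).

Proof: the residues of invariants form a subring of the finite field `B ⧸ 𝔐`, hence a subfield
`k`.  For `y : B` the polynomial `∏ g, (X - g • y)` has invariant coefficients and reduces to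
`(X - ȳ) ^ n`, `n = |I|`.  So the minimal polynomial of `ȳ` over `k` divides `(X - ȳ) ^ n`; it is
separable because `k` is finite, hence it is `X - ȳ` and `ȳ ∈ k`.
-/

set_option autoImplicit false

namespace Fermat.Agent.S34

open Polynomial

/-- A subring of a finite field is closed under inverses. -/
theorem descRes_inv_mem {κ : Type*} [Field κ] [Finite κ] (S : Subring κ) {a : κ} (ha : a ∈ S) :
    a⁻¹ ∈ S := by
  classical
  have := Fintype.ofFinite κ
  rcases eq_or_ne a 0 with rfl | h0
  · rw [inv_zero]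
    exact S.zero_mem
  · have h1 : a ^ (Fintype.card κ - 1) = 1 := FiniteField.pow_card_sub_one_eq_one a h0
    have h2 : 1 < Fintype.card κ := Fintype.one_lt_card
    have h3 : a⁻¹ = a ^ (Fintype.card κ - 2) := by
      apply inv_eq_of_mul_eq_one_right
      rw [← pow_succ', show Fintype.card κ - 2 + 1 = Fintype.card κ - 1 by omega]
      exact h1
    rw [h3]
    exact pow_mem ha _

/-- If all coefficients of `(X - x) ^ n`, `n ≠ 0`, lie in a subring `S` of a finite field, then
`x ∈ S`. -/
theorem descRes_mem_of_pow {κ : Type*} [Field κ] [Finite κ] (S : Subring κ) (x : κ) (n : ℕ)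
    (hn : n ≠ 0) (h : ∀ k : ℕ, ((X - C x) ^ n : κ[X]).coeff k ∈ S) : x ∈ S := by
  classical
  let K₁ : Subfield κ := { S with inv_mem' := fun a ha => descRes_inv_mem S ha }
  have hx : IsIntegral K₁ x := IsIntegral.of_finite K₁ x
  have hsep : (minpoly K₁ x).Separable :=
    PerfectField.separable_of_irreducible (minpoly.irreducible hx)
  have hl : ((X - C x) ^ n : κ[X]) ∈ Polynomial.lifts (algebraMap K₁ κ) := by
    rw [Polynomial.lifts_iff_coeff_lifts]
    intro k
    exact ⟨⟨_, h k⟩, rfl⟩
  obtain ⟨q₀, hq₀⟩ := (Polynomial.mem_lifts _).1 hl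
  have hroot : aeval x q₀ = 0 := by
    rw [aeval_def, ← eval_map, hq₀]
    simp [hn]
  have hdvd : (minpoly K₁ x).map (algebraMap K₁ κ) ∣ (X - C x) ^ n := by
    rw [← hq₀]
    exact Polynomial.map_dvd _ (minpoly.dvd K₁ x hroot)
  have hsq : Squarefree ((minpoly K₁ x).map (algebraMap K₁ κ)) := hsep.map.squarefree
  have hdvd1 : (minpoly K₁ x).map (algebraMap K₁ κ) ∣ X - C x := hsq.isRadical n _ hdvd
  have hdeg : (minpoly K₁ x).degree = 1 := by
    have h1 := Polynomial.degree_le_of_dvd hdvd1 (X_sub_C_ne_zero x)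
    rw [degree_map, degree_X_sub_C] at h1
    exact le_antisymm h1 (Nat.WithBot.one_le_iff_zero_lt.2 (minpoly.degree_pos hx))
  obtain ⟨⟨z, hz⟩, rfl⟩ := minpoly.mem_range_of_degree_eq_one K₁ x hdeg
  exact hz

theorem invLocGen_residue {B : Type*} [CommRing B] (I : Type*) [Group I] [Finite I]
    [MulSemiringAction I B] (𝔐 : Ideal B) [𝔐.IsMaximal] [Finite (B ⧸ 𝔐)]
    (htriv : ∀ g : I, ∀ y : B, g • y - y ∈ 𝔐) (y : B) :
    ∃ y₀ : B, (∀ g : I, g • y₀ = y₀) ∧ y - y₀ ∈ 𝔐 := by
  classical
  let _ : Field (B ⧸ 𝔐) := Ideal.Quotient.field 𝔐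
  have := Fintype.ofFinite I
  have hmem : Ideal.Quotient.mk 𝔐 y ∈ (FixedPoints.subring B I).map (Ideal.Quotient.mk 𝔐) := by
    apply descRes_mem_of_pow _ _ (Fintype.card I) Fintype.card_ne_zero
    intro k
    have h1 : (MulSemiringAction.charpoly I y).map (Ideal.Quotient.mk 𝔐) =
        (X - C (Ideal.Quotient.mk 𝔐 y)) ^ Fintype.card I := by
      have h2 : ∀ g : I, Ideal.Quotient.mk 𝔐 (g • y) = Ideal.Quotient.mk 𝔐 y :=
        fun g => Ideal.Quotient.eq.2 (htriv g y)
      rw [MulSemiringAction.charpoly_eq, Polynomial.map_prod]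
      simp only [Polynomial.map_sub, Polynomial.map_X, Polynomial.map_C, h2, Finset.prod_const,
        Finset.card_univ]
    rw [← h1, Polynomial.coeff_map]
    exact Subring.mem_map.2 ⟨_, fun g => MulSemiringAction.smul_coeff_charpoly y k g, rfl⟩
  obtain ⟨y₀, hy₀, h⟩ := Subring.mem_map.1 hmem
  exact ⟨y₀, fun g => hy₀ g, Ideal.Quotient.eq.1 h.symm⟩

end Fermat.Agent.S34
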