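import Mathlib
import Fermat.Agent.S34.ModelDefs
import Fermat.Agent.S34.DescDefs
import Fermat.Agent.S34.DescRes

/-!
P19 (S34), block MODEL-M2 (norm descent), leaf D1: the norm step for the inertia group.

`I` a finite group acting faithfully on the domain `B`, trivially on the finite residue field
`B ⧸ 𝔐`; `B` finite over the invariants; `t` a local generator of `𝔐` modulo `π`.  Then the
constant coefficient `u = ± N(t)` of the characteristic polynomial `∏ (X - g • t)` generates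
`𝔐 ∩ B^I` modulo `π`, locally, inside the ring of invariants.

Proof: `1, t, …, t^(n-1)` (`n = |I|`) span `B` over `B^I` locally at `𝔐` (successive
approximation + Nakayama), hence are linearly independent (the rank of `B` over `B^I` is `n`);
then compare the coefficients of `t^0` in a relation `s z = π b + t c`.
-/

set_option autoImplicit false

namespace Fermat.Agent.S34

open Polynomial

/-- Nakayama step: a family spanning `B` locally at `𝔐` modulo `𝔐 B` spans `B` locally. -/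
theorem descNorm_nakayama {A B ι : Type*} [CommRing A] [CommRing B] [Algebra A B]
    [Module.Finite A B] [Fintype ι] (𝔐 : Ideal A) [𝔐.IsMaximal] (b : ι → B)
    (hspan : ∀ c : B, ∃ s : A, s ∉ 𝔐 ∧ ∃ a : ι → A,
      algebraMap A B s * c - ∑ j, algebraMap A B (a j) * b j ∈ 𝔐.map (algebraMap A B)) :
    ∃ r : A, r ∉ 𝔐 ∧ ∀ c : B, r • c ∈ Submodule.span A (Set.range b) := by
  classical
  set N : Submodule A B := Submodule.span A (Set.range b) with hN
  have hmap : ∀ w ∈ 𝔐.map (algebraMap A B), N.mkQ w ∈ 𝔐 • (⊤ : Submodule A (B ⧸ N)) := by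
    intro w hw
    have hw' : w ∈ (𝔐 • ⊤ : Submodule A B) := by
      rw [Ideal.smul_top_eq_map]; exact hw
    refine Submodule.smul_induction_on hw' (fun m hm x _ => ?_) (fun x y hx hy => ?_)
    · rw [map_smul]; exact Submodule.smul_mem_smul hm Submodule.mem_top
    · rw [map_add]; exact Submodule.add_mem _ hx hy
  have hQ : (⊤ : Submodule A (B ⧸ N)) ≤ 𝔐 • (⊤ : Submodule A (B ⧸ N)) := by
    intro x _
    obtain ⟨c, rfl⟩ := N.mkQ_surjective x
    obtain ⟨s, hs, a, ha⟩ := hspan c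
    obtain ⟨y, i, hi, hyi⟩ := (inferInstance : 𝔐.IsMaximal).exists_inv hs
    have hsum : ∑ j, algebraMap A B (a j) * b j ∈ N := by
      refine Submodule.sum_mem _ fun j _ => ?_
      rw [← Algebra.smul_def]
      exact N.smul_mem _ (Submodule.subset_span ⟨j, rfl⟩)
    have h1 : N.mkQ (s • c) ∈ 𝔐 • (⊤ : Submodule A (B ⧸ N)) := by
      have e : s • c = (∑ j, algebraMap A B (a j) * b j) +
          (algebraMap A B s * c - ∑ j, algebraMap A B (a j) * b j) := by
        rw [Algebra.smul_def]; ring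
      have h0 : N.mkQ (∑ j, algebraMap A B (a j) * b j) = 0 := by
        rw [Submodule.mkQ_apply]
        exact (Submodule.Quotient.mk_eq_zero N).mpr hsum
      rw [e, map_add, h0, zero_add]
      exact hmap _ ha
    have e : N.mkQ c = y • N.mkQ (s • c) + i • N.mkQ c := by
      rw [← map_smul, ← map_smul, ← map_add, smul_smul, ← add_smul, hyi, one_smul]
    rw [e]
    exact Submodule.add_mem _ (Submodule.smul_mem _ _ h1)
      (Submodule.smul_mem_smul hi Submodule.mem_top)
  have hfg : (⊤ : Submodule A (B ⧸ N)).FG := Module.finite_def.mp inferInstance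
  obtain ⟨r, hr1, hr2⟩ :=
    Submodule.exists_sub_one_mem_and_smul_eq_zero_of_fg_of_le_smul 𝔐 ⊤ hfg hQ
  refine ⟨r, fun hr => ?_, fun c => ?_⟩
  · have h1 : (1 : A) ∈ 𝔐 := by
      have := 𝔐.sub_mem hr hr1
      rwa [sub_sub_cancel] at this
    exact (inferInstance : 𝔐.IsMaximal).ne_top ((Ideal.eq_top_iff_one _).mpr h1)
  · have := hr2 (N.mkQ c) Submodule.mem_top
    rw [← map_smul, Submodule.mkQ_apply] at this
    exact (Submodule.Quotient.mk_eq_zero N).mp this

/-- Denominators outside `𝔐` can be taken invariant. -/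
theorem descNorm_inv_den {B : Type*} [CommRing B] (I : Type*) [Group I] [Finite I]
    [MulSemiringAction I B] (𝔐 : Ideal B) [𝔐.IsPrime]
    (htriv : ∀ g : I, ∀ y : B, g • y - y ∈ 𝔐) {a : B} (ha : a ∉ 𝔐) :
    ∃ a' : B, (∀ g : I, g • (a * a') = a * a') ∧ a * a' ∉ 𝔐 := by
  classical
  cases nonempty_fintype I
  have h𝔐 : 𝔐.IsPrime := inferInstance
  have e : a * ∏ g ∈ Finset.univ.erase (1 : I), g • a = ∏ g : I, g • a := by
    have := Finset.mul_prod_erase Finset.univ (fun g : I => g • a) (Finset.mem_univ 1)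
    rwa [one_smul] at this
  refine ⟨∏ g ∈ Finset.univ.erase (1 : I), g • a, fun g => ?_, ?_⟩
  · rw [e]; exact Finset.smul_prod_perm a g
  · rw [e, h𝔐.prod_mem_iff]
    rintro ⟨g, -, hg⟩
    have := 𝔐.sub_mem hg (htriv g a)
    rw [sub_sub_cancel] at this
    exact ha this

/-- Successive approximation by polynomials in `t` with invariant coefficients. -/
theorem descNorm_approx {B : Type*} [CommRing B] (I : Type*) [Group I] [Finite I]
    [MulSemiringAction I B] (𝔐 : Ideal B) [𝔐.IsMaximal] [Finite (B ⧸ 𝔐)]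
    (htriv : ∀ g : I, ∀ y : B, g • y - y ∈ 𝔐) (π : B)
    {t : B} (ht : ModelLocGen (Ideal.span {π}) 𝔐 t) (k : ℕ) (y : B) :
    ∃ s : B, (∀ g : I, g • s = s) ∧ s ∉ 𝔐 ∧ ∃ a : ℕ → B, (∀ i, ∀ g : I, g • a i = a i) ∧
      ∃ x y' : B, s * y = ∑ i ∈ Finset.range k, a i * t ^ i + π * x + t ^ k * y' := by
  classical
  have h𝔐 : 𝔐.IsPrime := Ideal.IsMaximal.isPrime inferInstance
  induction k with
  | zero =>
    refine ⟨1, fun g => smul_one g, fun h => h𝔐.ne_top ((Ideal.eq_top_iff_one _).mpr h),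
      fun _ => 0, fun _ g => smul_zero g, 0, y, by simp⟩
  | succ k ih =>
    obtain ⟨s, hs, hs𝔐, a, ha, x, y', e⟩ := ih
    obtain ⟨a₀, ha₀, hm⟩ := invLocGen_residue I 𝔐 htriv y'
    obtain ⟨α, c, d, hα, hc, hαm⟩ := ht.exists_eq hm
    obtain ⟨c', rfl⟩ := Ideal.mem_span_singleton'.mp hc
    obtain ⟨α', hinv, hnot⟩ := descNorm_inv_den I 𝔐 htriv hα
    refine ⟨α * α' * s, fun g => by rw [smul_mul', hinv, hs], fun h => ?_,
      fun i => α * α' * (if i = k then a₀ else a i), fun i g => ?_,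
      α * α' * x + t ^ k * (α' * c'), α' * d, ?_⟩
    · rcases h𝔐.mem_or_mem h with h | h
      · exact hnot h
      · exact hs𝔐 h
    · beta_reduce
      rw [smul_mul', hinv]
      split_ifs
      · rw [ha₀]
      · rw [ha]
    · beta_reduce
      rw [Finset.sum_range_succ, if_pos rfl]
      have e1 : ∑ i ∈ Finset.range k, α * α' * (if i = k then a₀ else a i) * t ^ i =
          α * α' * ∑ i ∈ Finset.range k, a i * t ^ i := by
        rw [Finset.mul_sum]
        refine Finset.sum_congr rfl fun i hi => ?_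
        rw [if_neg (Finset.mem_range.mp hi).ne, mul_assoc]
      rw [e1, mul_assoc, e, pow_succ]
      linear_combination (t ^ k * α') * hαm

/-- The characteristic polynomial of `t ∈ 𝔐`: invariant coefficients in `𝔐`. -/
theorem descNorm_charpoly {B : Type*} [CommRing B] (I : Type*) [Group I] [Fintype I]
    [MulSemiringAction I B] (𝔐 : Ideal B) [𝔐.IsMaximal]
    (htriv : ∀ g : I, ∀ y : B, g • y - y ∈ 𝔐) {t : B} (ht : t ∈ 𝔐) :
    ∃ p : ℕ → B, (∀ i, ∀ g : I, g • p i = p i) ∧ (∀ i, p i ∈ 𝔐) ∧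
      t ^ (Fintype.card I) + ∑ i ∈ Finset.range (Fintype.card I), p i * t ^ i = 0 := by
  classical
  have hnt : Nontrivial B := ⟨⟨0, 1, fun h => (inferInstance : 𝔐.IsMaximal).ne_top
    ((Ideal.eq_top_iff_one _).mpr (h ▸ 𝔐.zero_mem))⟩⟩
  set P : B[X] := MulSemiringAction.charpoly I t with hP
  have hdeg : P.natDegree = Fintype.card I := by
    rw [hP, MulSemiringAction.charpoly_eq, natDegree_finsetProd_X_sub_C_eq_card]
    rfl
  have hmonic : P.Monic := MulSemiringAction.monic_charpoly I t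
  have hgt : ∀ g : I, g • t ∈ 𝔐 := fun g => by
    have := 𝔐.add_mem (htriv g t) ht
    rwa [sub_add_cancel] at this
  have hmap : P.map (Ideal.Quotient.mk 𝔐) = X ^ Fintype.card I := by
    rw [hP, MulSemiringAction.charpoly_eq, Polynomial.map_prod]
    have : ∀ g : I, ((X : B[X]) - C (g • t)).map (Ideal.Quotient.mk 𝔐) = X := fun g => by
      rw [Polynomial.map_sub, map_X, map_C, Ideal.Quotient.eq_zero_iff_mem.mpr (hgt g), map_zero,
        sub_zero]
    rw [Finset.prod_congr rfl fun g _ => this g, Finset.prod_const, Finset.card_univ]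
  refine ⟨fun i => if i < Fintype.card I then P.coeff i else 0, fun i g => ?_, fun i => ?_, ?_⟩
  · beta_reduce
    split_ifs
    · exact MulSemiringAction.smul_coeff_charpoly t i g
    · exact smul_zero g
  · beta_reduce
    split_ifs with h
    · rw [← Ideal.Quotient.eq_zero_iff_mem, ← coeff_map, hmap, coeff_X_pow, if_neg h.ne]
    · exact 𝔐.zero_mem
  · have h0 : P.eval t = 0 := MulSemiringAction.eval_charpoly I t
    rw [hmonic.as_sum, hdeg] at h0
    simp only [eval_add, eval_pow, eval_X, eval_finsetSum, eval_mul, eval_C] at h0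
    have e : ∑ i ∈ Finset.range (Fintype.card I),
        (if i < Fintype.card I then P.coeff i else 0) * t ^ i =
        ∑ i ∈ Finset.range (Fintype.card I), P.coeff i * t ^ i :=
      Finset.sum_congr rfl fun i hi => by rw [if_pos (Finset.mem_range.mp hi)]
    beta_reduce
    rw [e]
    exact h0

/-- `1, t, …, t^m` (`m + 1 = |I|`) is a basis of `B` over the invariants, locally at `𝔐`
(elementwise form inside `B`). -/
theorem descNorm_basis {B : Type*} [CommRing B] [IsDomain B] (I : Type*) [Group I] [Fintype I]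
    [MulSemiringAction I B] [FaithfulSMul I B]
    (hfin : ∃ s : Finset B, ∀ y : B, ∃ c : B → B, (∀ b, ∀ g : I, g • c b = c b) ∧
      y = ∑ b ∈ s, c b * b)
    (𝔐 : Ideal B) [𝔐.IsMaximal] [Finite (B ⧸ 𝔐)]
    (htriv : ∀ g : I, ∀ y : B, g • y - y ∈ 𝔐)
    (π : B) (hπ : ∀ g : I, g • π = π) (hπ𝔐 : π ∈ 𝔐)
    {t : B} (ht : ModelLocGen (Ideal.span {π}) 𝔐 t) (m : ℕ) (hm : Fintype.card I = m + 1)
    (p : ℕ → B) (hpinv : ∀ i, ∀ g : I, g • p i = p i) (hp𝔐 : ∀ i, p i ∈ 𝔐)
    (hrel : t ^ (m + 1) + ∑ i ∈ Finset.range (m + 1), p i * t ^ i = 0) :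
    (∃ r : B, (∀ g : I, g • r = r) ∧ r ∉ 𝔐 ∧ ∀ c : B, ∃ a : Fin (m + 1) → B,
      (∀ i, ∀ g : I, g • a i = a i) ∧ r * c = ∑ i, a i * t ^ (i : ℕ)) ∧
    (∀ g : Fin (m + 1) → B, (∀ i, ∀ σ : I, σ • g i = g i) → ∑ i, g i * t ^ (i : ℕ) = 0 →
      ∀ i, g i = 0) := by
  classical
  let R : Subring B := FixedPoints.subring B I
  have hGal : IsGaloisGroup I R B :=
    ⟨inferInstance, inferInstance, ⟨fun x h => ⟨⟨x, h⟩, rfl⟩⟩⟩
  have hfaith : FaithfulSMul R B :=
    (faithfulSMul_iff_algebraMap_injective R B).mpr Subtype.val_injective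
  have hfinite : Module.Finite R B := by
    obtain ⟨s, hs⟩ := hfin
    refine ⟨⟨s, ?_⟩⟩
    rw [eq_top_iff]
    intro y _
    obtain ⟨c, hc, rfl⟩ := hs y
    refine Submodule.sum_mem _ fun b hb => ?_
    have e : c b * b = (⟨c b, hc b⟩ : R) • b := rfl
    rw [e]
    exact Submodule.smul_mem _ _ (Submodule.subset_span hb)
  have hint : Algebra.IsIntegral R B := Algebra.IsInvariant.isIntegral R B I
  let 𝔐R : Ideal R := 𝔐.comap (algebraMap R B)
  have h𝔐R : 𝔐R.IsMaximal := Ideal.isMaximal_comap_of_isIntegral_of_isMaximal 𝔐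
  let b : Fin (m + 1) → B := fun k => t ^ (k : ℕ)
  have hspan : ∀ c : B, ∃ s : R, s ∉ 𝔐R ∧ ∃ a : Fin (m + 1) → R,
      algebraMap R B s * c - ∑ j, algebraMap R B (a j) * b j ∈ 𝔐R.map (algebraMap R B) := by
    intro c
    obtain ⟨s, hsinv, hs𝔐, a, hainv, x, y', e⟩ := descNorm_approx I 𝔐 htriv π ht (m + 1) c
    refine ⟨⟨s, hsinv⟩, hs𝔐, fun j => ⟨a j, hainv j⟩, ?_⟩
    have e2 : algebraMap R B ⟨s, hsinv⟩ * c -
        ∑ j : Fin (m + 1), algebraMap R B ⟨a j, hainv j⟩ * b j =
        algebraMap R B ⟨π, hπ⟩ * x -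
          ∑ i ∈ Finset.range (m + 1), algebraMap R B ⟨p i, hpinv i⟩ * (t ^ i * y') := by
      show s * c - ∑ j : Fin (m + 1), a j * t ^ (j : ℕ) =
        π * x - ∑ i ∈ Finset.range (m + 1), p i * (t ^ i * y')
      rw [Fin.sum_univ_eq_sum_range (fun i => a i * t ^ i) (m + 1), e]
      have h1 : t ^ (m + 1) = - ∑ i ∈ Finset.range (m + 1), p i * t ^ i :=
        eq_neg_of_add_eq_zero_left hrel
      have h2 : ∑ i ∈ Finset.range (m + 1), p i * (t ^ i * y') =
          (∑ i ∈ Finset.range (m + 1), p i * t ^ i) * y' := by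
        rw [Finset.sum_mul]
        exact Finset.sum_congr rfl fun i _ => by ring
      rw [h1, h2]; ring
    rw [e2]
    exact Ideal.sub_mem _ (Ideal.mul_mem_right _ _ (Ideal.mem_map_of_mem _ hπ𝔐))
      (Ideal.sum_mem _ fun i _ => Ideal.mul_mem_right _ _ (Ideal.mem_map_of_mem _ (hp𝔐 i)))
  obtain ⟨r, hr, hrN⟩ := descNorm_nakayama 𝔐R b hspan
  have hr0 : r ≠ 0 := fun h => hr (h ▸ 𝔐R.zero_mem)
  have hli : LinearIndependent R b := by
    rw [linearIndependent_iff_card_eq_finrank_span]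
    refine le_antisymm ?_ (finrank_range_le_card b)
    have hcard : Fintype.card (Fin (m + 1)) = Module.finrank R B := by
      rw [Fintype.card_fin, ← hm, ← Nat.card_eq_fintype_card,
        IsGaloisGroup.card_eq_finrank' I R B]
    rw [hcard]
    have hfinN : Module.Finite R (Submodule.span R (Set.range b)) :=
      Module.Finite.span_of_finite R (Set.finite_range b)
    let f : B →ₗ[R] Submodule.span R (Set.range b) :=
      { toFun := fun c => ⟨r • c, hrN c⟩
        map_add' := fun x y => by ext; simp [smul_add]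
        map_smul' := fun k x => by ext; simp [smul_comm r k x] }
    have hf : Function.Injective f := by
      intro x y hxy
      have h1 : r • x = r • y := congrArg Subtype.val hxy
      have h2 : (r : B) * x = (r : B) * y := h1
      exact mul_left_cancel₀ (fun h => hr0 (Subtype.ext h)) h2
    exact LinearMap.finrank_le_finrank_of_injective hf
  refine ⟨⟨r, r.2, hr, fun c => ?_⟩, fun g hg hsum i => ?_⟩
  · obtain ⟨a, ha⟩ := (Submodule.mem_span_range_iff_exists_fun R).mp (hrN c)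
    exact ⟨fun i => (a i : B), fun i => (a i).2, ha.symm⟩
  · have h := Fintype.linearIndependent_iff.mp hli (fun i => ⟨g i, hg i⟩) hsum i
    exact congrArg Subtype.val h

/-- (D1) the norm step for the inertia group. -/
theorem invLocGen_norm {B : Type*} [CommRing B] [IsDomain B] (I : Type*) [Group I] [Finite I]
    [MulSemiringAction I B] [FaithfulSMul I B]
    (hfin : ∃ s : Finset B, ∀ y : B, ∃ c : B → B, (∀ b, ∀ g : I, g • c b = c b) ∧
      y = ∑ b ∈ s, c b * b)
    (𝔐 : Ideal B) [𝔐.IsMaximal] [Finite (B ⧸ 𝔐)]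
    (htriv : ∀ g : I, ∀ y : B, g • y - y ∈ 𝔐)
    (π : B) (hπ : ∀ g : I, g • π = π) (hπ𝔐 : π ∈ 𝔐)
    {t : B} (ht : ModelLocGen (Ideal.span {π}) 𝔐 t) :
    ∃ u : B, InvLocGen I 𝔐 π u := by
  classical
  cases nonempty_fintype I
  have h𝔐 : 𝔐.IsPrime := Ideal.IsMaximal.isPrime inferInstance
  obtain ⟨m, hm⟩ : ∃ m, Fintype.card I = m + 1 :=
    Nat.exists_eq_succ_of_ne_zero Fintype.card_ne_zero
  obtain ⟨p, hpinv, hp𝔐, hrel⟩ := descNorm_charpoly I 𝔐 htriv ht.1
  rw [hm] at hrel
  obtain ⟨⟨r, hrinv, hr𝔐, hrspan⟩, hindep⟩ :=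
    descNorm_basis I hfin 𝔐 htriv π hπ hπ𝔐 ht m hm p hpinv hp𝔐 hrel
  refine ⟨p 0, hpinv 0, hp𝔐 0, fun z hz hzinv => ?_⟩
  obtain ⟨α, c, d, hα, hc, hαz⟩ := ht.exists_eq hz
  obtain ⟨c', rfl⟩ := Ideal.mem_span_singleton'.mp hc
  obtain ⟨α', hαinv, hαnot⟩ := descNorm_inv_den I 𝔐 htriv hα
  obtain ⟨β, hβinv, hβ⟩ := hrspan (α' * c')
  obtain ⟨γ, hγinv, hγ⟩ := hrspan (α' * d)
  have e1 : r * (α * α') * z =
      π * ∑ i, β i * t ^ (i : ℕ) + t * ∑ i, γ i * t ^ (i : ℕ) := by
    rw [← hβ, ← hγ]; linear_combination (r * α') * hαz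
  have hXinv : ∀ σ : I, σ • (r * (α * α') * z) = r * (α * α') * z := fun σ => by
    rw [smul_mul', smul_mul', hrinv, hαinv, hzinv]
  let g : Fin (m + 1) → B := fun i =>
    (if i = 0 then r * (α * α') * z else 0) - π * β i -
      Fin.cases 0 (fun j => γ (Fin.castSucc j)) i + γ (Fin.last m) * p i
  have hginv : ∀ i, ∀ σ : I, σ • g i = g i := by
    intro i σ
    have h3 : σ • (Fin.cases 0 (fun j => γ (Fin.castSucc j)) i : B) =
        Fin.cases 0 (fun j => γ (Fin.castSucc j)) i := by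
      refine Fin.cases ?_ (fun j => ?_) i
      · simp
      · simp [hγinv]
    show σ • ((if i = 0 then r * (α * α') * z else 0) - π * β i -
      Fin.cases 0 (fun j => γ (Fin.castSucc j)) i + γ (Fin.last m) * p i) = _
    rw [smul_add, smul_sub, smul_sub, smul_mul', smul_mul', h3, hπ, hβinv, hγinv, hpinv]
    congr 3
    split_ifs
    · exact hXinv σ
    · exact smul_zero σ
  have hsum : ∑ i, g i * t ^ (i : ℕ) = 0 := by
    have s1 : ∑ i : Fin (m + 1), (if i = 0 then r * (α * α') * z else 0) * t ^ (i : ℕ) =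
        r * (α * α') * z := by
      simp [ite_mul]
    have s2 : ∑ i : Fin (m + 1),
        (Fin.cases 0 (fun j => γ (Fin.castSucc j)) i : B) * t ^ (i : ℕ) =
        ∑ j : Fin m, γ (Fin.castSucc j) * t ^ ((j : ℕ) + 1) := by
      rw [Fin.sum_univ_succ]
      simp
    have s3 : t * ∑ i : Fin (m + 1), γ i * t ^ (i : ℕ) =
        ∑ j : Fin m, γ (Fin.castSucc j) * t ^ ((j : ℕ) + 1) + γ (Fin.last m) * t ^ (m + 1) := by
      rw [Fin.sum_univ_castSucc, mul_add, Finset.mul_sum]
      congr 1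
      · refine Finset.sum_congr rfl fun j _ => ?_
        rw [Fin.val_castSucc]; ring
      · rw [Fin.val_last]; ring
    have s4 : ∑ i : Fin (m + 1), p i * t ^ (i : ℕ) =
        ∑ i ∈ Finset.range (m + 1), p i * t ^ i :=
      Fin.sum_univ_eq_sum_range (fun i => p i * t ^ i) (m + 1)
    have s5 : ∑ i, g i * t ^ (i : ℕ) =
        ∑ i : Fin (m + 1), (if i = 0 then r * (α * α') * z else 0) * t ^ (i : ℕ) -
          π * ∑ i, β i * t ^ (i : ℕ) -
          ∑ i : Fin (m + 1), (Fin.cases 0 (fun j => γ (Fin.castSucc j)) i : B) * t ^ (i : ℕ) +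
          γ (Fin.last m) * ∑ i : Fin (m + 1), p i * t ^ (i : ℕ) := by
      rw [Finset.mul_sum, Finset.mul_sum, ← Finset.sum_sub_distrib, ← Finset.sum_sub_distrib,
        ← Finset.sum_add_distrib]
      refine Finset.sum_congr rfl fun i _ => ?_
      show ((if i = 0 then r * (α * α') * z else 0) - π * β i -
        Fin.cases 0 (fun j => γ (Fin.castSucc j)) i + γ (Fin.last m) * p i) * t ^ (i : ℕ) = _
      ring
    rw [s5, s1, s2, s4]
    linear_combination e1 + s3 + γ (Fin.last m) * hrel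
  have h0 : g 0 = 0 := hindep g hginv hsum 0
  have h0' : r * (α * α') * z - π * β 0 + γ (Fin.last m) * p 0 = 0 := by
    have : g 0 = r * (α * α') * z - π * β 0 + γ (Fin.last m) * p 0 := by
      show (if (0 : Fin (m + 1)) = 0 then r * (α * α') * z else 0) - π * β 0 -
        Fin.cases 0 (fun j => γ (Fin.castSucc j)) (0 : Fin (m + 1)) + γ (Fin.last m) * p 0 = _
      simp
    rw [← this]; exact h0
  refine ⟨r * (α * α'), β 0, -γ (Fin.last m), fun σ => ?_, hβinv 0, fun σ => ?_, fun h => ?_, ?_⟩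
  · rw [smul_mul', hrinv, hαinv]
  · rw [smul_neg, hγinv]
  · rcases h𝔐.mem_or_mem h with h | h
    · exact hr𝔐 h
    · exact hαnot h
  · linear_combination h0'

end Fermat.Agent.S34
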