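import Mathlib
import Fermat.Agent.S34.ModelDefs
import Fermat.Agent.S34.DescDefs

/-!
P19 (S34), block MODEL-M2 (norm descent), leaves D0 and D1 (second team).

* `invLocGen_residue_B` : if a finite group `I` acts trivially on the finite residue field
  `B ⧸ 𝔐`, then every residue class contains an `I`-invariant element.
* `invLocGen_norm_B` : the norm step of the descent.
-/

set_option autoImplicit false

namespace Fermat.Agent.S34

open Polynomial

/-- In a finite field, a subring is closed under inverses. -/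
theorem s34dnb_inv_mem {κ : Type*} [Field κ] [Finite κ] (S : Subring κ) {x : κ} (hx : x ∈ S) :
    x⁻¹ ∈ S := by
  classical
  cases nonempty_fintype κ
  by_cases h0 : x = 0
  · rw [h0, inv_zero]; exact S.zero_mem
  · have h1 : x ^ (Fintype.card κ - 1) = 1 := FiniteField.pow_card_sub_one_eq_one x h0
    have h2 : 2 ≤ Fintype.card κ := Fintype.one_lt_card
    have h3 : x⁻¹ = x ^ (Fintype.card κ - 2) := by
      apply inv_eq_of_mul_eq_one_right
      rw [← pow_succ', show Fintype.card κ - 2 + 1 = Fintype.card κ - 1 by omega, h1]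
    rw [h3]; exact pow_mem hx _

/-- Field core of D0: if all coefficients of `(X - x)^n` lie in a subfield of a finite field,
then so does `x`. -/
theorem s34dnb_field_core {κ : Type*} [Field κ] [Finite κ] (K : Subfield κ) (x : κ) (n : ℕ)
    (hn : n ≠ 0) (h : ∀ i, ((X - C x) ^ n : κ[X]).coeff i ∈ K) : x ∈ K := by
  have hl : ((X - C x) ^ n : κ[X]) ∈ Polynomial.lifts (algebraMap K κ) := by
    rw [Polynomial.lifts_iff_coeff_lifts]
    intro i
    exact ⟨⟨_, h i⟩, rfl⟩
  obtain ⟨f, hf⟩ := hl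
  rw [Polynomial.coe_mapRingHom] at hf
  have hroot : aeval x f = 0 := by
    rw [aeval_def, ← eval_map, hf]
    simp [hn]
  have hint : IsIntegral K x := Algebra.IsIntegral.isIntegral x
  have hdvd : minpoly K x ∣ f := minpoly.dvd K x hroot
  have hsep : (minpoly K x).Separable := Algebra.IsSeparable.isSeparable K x
  have hsq : Squarefree ((minpoly K x).map (algebraMap K κ)) := (hsep.map).squarefree
  have hdvd' : (minpoly K x).map (algebraMap K κ) ∣ (X - C x) ^ n :=
    hf ▸ Polynomial.map_dvd _ hdvd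
  have hdvd1 : (minpoly K x).map (algebraMap K κ) ∣ (X - C x) :=
    (hsq.dvd_pow_iff_dvd hn).mp hdvd'
  have hdeg : (minpoly K x).degree = 1 := by
    apply le_antisymm
    · have h1 := Polynomial.degree_le_of_dvd hdvd1 (X_sub_C_ne_zero x)
      rwa [Polynomial.degree_map, degree_X_sub_C] at h1
    · have h2 := minpoly.degree_pos hint
      exact Nat.WithBot.one_le_iff_zero_lt.mpr h2
  obtain ⟨⟨y, hy⟩, rfl⟩ := minpoly.mem_range_of_degree_eq_one K x hdeg
  exact hy

theorem invLocGen_residue_B {B : Type*} [CommRing B] (I : Type*) [Group I] [Finite I]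
    [MulSemiringAction I B] (𝔐 : Ideal B) [𝔐.IsMaximal] [Finite (B ⧸ 𝔐)]
    (htriv : ∀ g : I, ∀ y : B, g • y - y ∈ 𝔐) (y : B) :
    ∃ y₀ : B, (∀ g : I, g • y₀ = y₀) ∧ y - y₀ ∈ 𝔐 := by
  classical
  cases nonempty_fintype I
  let _ : Field (B ⧸ 𝔐) := Ideal.Quotient.field 𝔐
  let q : B →+* B ⧸ 𝔐 := Ideal.Quotient.mk 𝔐
  let S : Subring (B ⧸ 𝔐) := (FixedPoints.subring B I).map q
  let K : Subfield (B ⧸ 𝔐) := { S with inv_mem' := fun x hx => s34dnb_inv_mem S hx }
  have hmap : (MulSemiringAction.charpoly I y).map q = (X - C (q y)) ^ Fintype.card I := by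
    rw [MulSemiringAction.charpoly_eq, Polynomial.map_prod]
    have h1 : ∀ g : I, (X - C (g • y)).map q = X - C (q y) := by
      intro g
      rw [Polynomial.map_sub, Polynomial.map_X, Polynomial.map_C]
      congr 2
      exact Ideal.Quotient.eq.mpr (htriv g y)
    simp only [h1, Finset.prod_const, Finset.card_univ]
  have hK : q y ∈ K := by
    refine s34dnb_field_core K (q y) (Fintype.card I) Fintype.card_ne_zero (fun i => ?_)
    rw [← hmap, Polynomial.coeff_map]
    exact ⟨_, fun g => MulSemiringAction.smul_coeff_charpoly y i g, rfl⟩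
  obtain ⟨y₀, hy₀, hq⟩ := hK
  exact ⟨y₀, fun g => hy₀ g, Ideal.Quotient.eq.mp hq.symm⟩

/-! ### D1: the norm step -/

/-- (b) a non-member of `𝔐` has an invariant multiple outside `𝔐`. -/
theorem s34dnb_norm_mul {B : Type*} [CommRing B] (I : Type*) [Group I] [Fintype I]
    [MulSemiringAction I B] (𝔐 : Ideal B) [𝔐.IsPrime]
    (htriv : ∀ g : I, ∀ y : B, g • y - y ∈ 𝔐) {a : B} (ha : a ∉ 𝔐) :
    ∃ a' : B, (∀ g : I, g • (a * a') = a * a') ∧ a * a' ∉ 𝔐 := by
  classical
  refine ⟨∏ g ∈ (Finset.univ.erase (1 : I)), g • a, ?_⟩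
  have h1 : a * ∏ g ∈ (Finset.univ.erase (1 : I)), g • a = ∏ g : I, g • a := by
    have h := Finset.mul_prod_erase Finset.univ (fun g : I => g • a) (Finset.mem_univ 1)
    simpa using h
  rw [h1]
  constructor
  · intro g
    rw [Finset.smul_prod']
    simp only [smul_smul]
    exact Fintype.prod_equiv (Equiv.mulLeft g) _ _ (fun x => rfl)
  · intro hmem
    obtain ⟨g, -, hg⟩ := (Ideal.IsPrime.prod_mem_iff).mp hmem
    have h2 := 𝔐.sub_mem hg (htriv g a)
    rw [sub_sub_cancel] at h2
    exact ha h2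

/-- local generation with invariant denominators. -/
theorem s34dnb_gen {B : Type*} [CommRing B] (I : Type*) [Group I] [Fintype I]
    [MulSemiringAction I B] (𝔐 : Ideal B) [𝔐.IsPrime]
    (htriv : ∀ g : I, ∀ y : B, g • y - y ∈ 𝔐) (π : B)
    {t : B} (ht : ModelLocGen (Ideal.span {π}) 𝔐 t) {z : B} (hz : z ∈ 𝔐) :
    ∃ s b c : B, (∀ g : I, g • s = s) ∧ s ∉ 𝔐 ∧ s * z = π * b + t * c := by
  obtain ⟨a, c, d, ha, hc, h1⟩ := ht.exists_eq hz
  obtain ⟨b, rfl⟩ := Ideal.mem_span_singleton'.mp hc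
  obtain ⟨a', hinv, hnot⟩ := s34dnb_norm_mul I 𝔐 htriv ha
  exact ⟨a * a', a' * b, a' * d, hinv, hnot, by linear_combination a' * h1⟩

theorem s34dnb_natDegree {B : Type*} [CommRing B] [Nontrivial B] (I : Type*) [Group I]
    [Fintype I] [MulSemiringAction I B] (t : B) :
    (MulSemiringAction.charpoly I t).natDegree = Fintype.card I := by
  rw [MulSemiringAction.charpoly_eq, natDegree_prod_of_monic _ _ (fun g _ => monic_X_sub_C _)]
  simp

theorem s34dnb_charpoly_coeff_mem {B : Type*} [CommRing B] (I : Type*) [Group I] [Fintype I]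
    [MulSemiringAction I B] (𝔐 : Ideal B)
    (htriv : ∀ g : I, ∀ y : B, g • y - y ∈ 𝔐) {t : B} (ht : t ∈ 𝔐) (i : ℕ)
    (hi : i < Fintype.card I) : (MulSemiringAction.charpoly I t).coeff i ∈ 𝔐 := by
  have hmem : ∀ g : I, g • t ∈ 𝔐 := fun g => by
    have h := 𝔐.add_mem (htriv g t) ht
    rwa [sub_add_cancel] at h
  have hmap : (MulSemiringAction.charpoly I t).map (Ideal.Quotient.mk 𝔐) =
      X ^ Fintype.card I := by
    rw [MulSemiringAction.charpoly_eq, Polynomial.map_prod]
    have h1 : ∀ g : I, (X - C (g • t)).map (Ideal.Quotient.mk 𝔐) = X := by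
      intro g
      rw [Polynomial.map_sub, Polynomial.map_X, Polynomial.map_C,
        Ideal.Quotient.eq_zero_iff_mem.mpr (hmem g), C_0, sub_zero]
    simp only [h1, Finset.prod_const, Finset.card_univ]
  rw [← Ideal.Quotient.eq_zero_iff_mem, ← Polynomial.coeff_map, hmap, coeff_X_pow, if_neg hi.ne]

theorem s34dnb_pow_card_mul {B : Type*} [CommRing B] [Nontrivial B] (I : Type*) [Group I]
    [Fintype I] [MulSemiringAction I B] (t y : B) :
    t ^ Fintype.card I * y = ∑ i ∈ Finset.range (Fintype.card I),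
      (-(MulSemiringAction.charpoly I t).coeff i) * (t ^ i * y) := by
  have h0 := MulSemiringAction.eval_charpoly I t
  rw [Polynomial.eval_eq_sum_range, s34dnb_natDegree, Finset.sum_range_succ] at h0
  have h1 : (MulSemiringAction.charpoly I t).coeff (Fintype.card I) = 1 := by
    have h := (MulSemiringAction.monic_charpoly I t).coeff_natDegree
    rwa [s34dnb_natDegree] at h
  rw [h1, one_mul] at h0
  have h2 : t ^ Fintype.card I = - ∑ i ∈ Finset.range (Fintype.card I),
      (MulSemiringAction.charpoly I t).coeff i * t ^ i := by linear_combination h0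
  rw [h2, neg_mul, Finset.sum_mul, ← Finset.sum_neg_distrib]
  refine Finset.sum_congr rfl (fun i _ => by ring)

/-- the contraction of `𝔐` to the ring of invariants. -/
abbrev s34dnb_m {B : Type*} [CommRing B] (I : Type*) [Group I] [MulSemiringAction I B]
    (𝔐 : Ideal B) : Ideal (FixedPoints.subring B I) :=
  𝔐.comap (FixedPoints.subring B I).subtype

/-- the span of the first `n` powers of `t` over the ring of invariants. -/
noncomputable def s34dnb_N {B : Type*} [CommRing B] (I : Type*) [Group I]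
    [MulSemiringAction I B] (t : B) (n : ℕ) : Submodule (FixedPoints.subring B I) B :=
  Submodule.span _ ((fun i : ℕ => t ^ i) '' Set.Iio n)

theorem s34dnb_mem_N {B : Type*} [CommRing B] (I : Type*) [Group I]
    [MulSemiringAction I B] (t : B) (n : ℕ) {a : B} (ha : ∀ g : I, g • a = a) {e : ℕ}
    (he : e < n) : a * t ^ e ∈ s34dnb_N I t n :=
  Submodule.smul_mem _ (⟨a, ha⟩ : FixedPoints.subring B I)
    (Submodule.subset_span ⟨e, he, rfl⟩)

theorem s34dnb_mem_mB {B : Type*} [CommRing B] (I : Type*) [Group I]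
    [MulSemiringAction I B] (𝔐 : Ideal B) {a : B} (ha : ∀ g : I, g • a = a) (ha' : a ∈ 𝔐)
    (x : B) : a * x ∈ (s34dnb_m I 𝔐) • (⊤ : Submodule (FixedPoints.subring B I) B) :=
  Submodule.smul_mem_smul (r := (⟨a, ha⟩ : FixedPoints.subring B I)) ha' Submodule.mem_top

/-- (d) -/
theorem s34dnb_stepD {B : Type*} [CommRing B] [IsDomain B] (I : Type*) [Group I] [Fintype I]
    [MulSemiringAction I B] (𝔐 : Ideal B) [𝔐.IsMaximal] [Finite (B ⧸ 𝔐)]
    (htriv : ∀ g : I, ∀ y : B, g • y - y ∈ 𝔐)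
    (π : B) (hπ : ∀ g : I, g • π = π) (hπ𝔐 : π ∈ 𝔐)
    {t : B} (ht : ModelLocGen (Ideal.span {π}) 𝔐 t) :
    ∀ k e : ℕ, e + k = Fintype.card I → ∀ y : B, ∃ s : FixedPoints.subring B I,
      (s : B) ∉ 𝔐 ∧ (s : B) * (t ^ e * y) ∈ s34dnb_N I t (Fintype.card I) ⊔
        (s34dnb_m I 𝔐) • (⊤ : Submodule (FixedPoints.subring B I) B) := by
  intro k
  induction k with
  | zero =>
    intro e he y
    have he' : e = Fintype.card I := by omega
    subst he'
    refine ⟨1, ?_, ?_⟩
    · rw [OneMemClass.coe_one]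
      exact (Ideal.ne_top_iff_one 𝔐).mp (Ideal.IsMaximal.ne_top inferInstance)
    · rw [OneMemClass.coe_one, one_mul]
      apply Submodule.mem_sup_right
      rw [s34dnb_pow_card_mul]
      refine Submodule.sum_mem _ (fun i hi => ?_)
      exact s34dnb_mem_mB I 𝔐
        (fun g => by rw [smul_neg, MulSemiringAction.smul_coeff_charpoly])
        (𝔐.neg_mem (s34dnb_charpoly_coeff_mem I 𝔐 htriv ht.1 i (Finset.mem_range.mp hi))) _
  | succ k ih =>
    intro e he y
    obtain ⟨a₀, ha₀, hya₀⟩ := invLocGen_residue_B I 𝔐 htriv y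
    obtain ⟨s₁, b, c, hs₁, hs₁', h1⟩ := s34dnb_gen I 𝔐 htriv π ht hya₀
    obtain ⟨s₂, hs₂, h2⟩ := ih (e + 1) (by omega) c
    refine ⟨s₂ * ⟨s₁, hs₁⟩, ?_, ?_⟩
    · intro hmem
      rw [Subring.coe_mul] at hmem
      rcases (Ideal.IsPrime.mem_or_mem inferInstance hmem) with h | h
      exacts [hs₂ h, hs₁' h]
    · have key : ((s₂ * ⟨s₁, hs₁⟩ : FixedPoints.subring B I) : B) * (t ^ e * y) =
          (s₂ : B) * ((s₁ * a₀) * t ^ e) + (s₂ : B) * (π * (t ^ e * b))
            + (s₂ : B) * (t ^ (e + 1) * c) := by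
        rw [Subring.coe_mul]
        linear_combination (s₂ : B) * t ^ e * h1
      rw [key]
      refine Submodule.add_mem _ (Submodule.add_mem _ ?_ ?_) h2
      · exact Submodule.smul_mem _ s₂ (Submodule.mem_sup_left
          (s34dnb_mem_N I t _ (fun g => by rw [smul_mul', hs₁ g, ha₀ g]) (by omega)))
      · exact Submodule.smul_mem _ s₂ (Submodule.mem_sup_right (s34dnb_mem_mB I 𝔐 hπ hπ𝔐 _))

/-- (e) Nakayama: a single invariant denominator outside `𝔐` puts all of `B` into the span of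
the first `|I|` powers of `t`. -/
theorem s34dnb_stepE {B : Type*} [CommRing B] [IsDomain B] (I : Type*) [Group I] [Fintype I]
    [MulSemiringAction I B]
    (hfin : ∃ s : Finset B, ∀ y : B, ∃ c : B → B, (∀ b, ∀ g : I, g • c b = c b) ∧
      y = ∑ b ∈ s, c b * b)
    (𝔐 : Ideal B) [𝔐.IsMaximal] [Finite (B ⧸ 𝔐)]
    (htriv : ∀ g : I, ∀ y : B, g • y - y ∈ 𝔐)
    (π : B) (hπ : ∀ g : I, g • π = π) (hπ𝔐 : π ∈ 𝔐)
    {t : B} (ht : ModelLocGen (Ideal.span {π}) 𝔐 t) :
    ∃ s : FixedPoints.subring B I, (s : B) ∉ 𝔐 ∧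
      ∀ y : B, (s : B) * y ∈ s34dnb_N I t (Fintype.card I) := by
  classical
  obtain ⟨gens, hgens⟩ := hfin
  have hspan : ∀ y : B, y ∈ Submodule.span (FixedPoints.subring B I) (gens : Set B) := by
    intro y
    obtain ⟨c, hc, rfl⟩ := hgens y
    refine Submodule.sum_mem _ (fun b hb => ?_)
    exact Submodule.smul_mem _ (⟨c b, hc b⟩ : FixedPoints.subring B I)
      (Submodule.subset_span hb)
  have hfinite : Module.Finite (FixedPoints.subring B I) B :=
    ⟨⟨gens, eq_top_iff.mpr (fun y _ => hspan y)⟩⟩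
  have hD := s34dnb_stepD I 𝔐 htriv π hπ hπ𝔐 ht (Fintype.card I) 0 (by simp)
  choose σ hσ1 hσ2 using hD
  simp only [pow_zero, one_mul] at hσ2
  let S0 : FixedPoints.subring B I := ∏ b ∈ gens, σ b
  have hS0 : S0 ∉ s34dnb_m I 𝔐 := by
    intro hmem
    obtain ⟨b, -, hb⟩ := (Ideal.IsPrime.prod_mem_iff).mp hmem
    exact hσ1 b hb
  have hS0T : ∀ y : B, S0 • y ∈ s34dnb_N I t (Fintype.card I) ⊔
        (s34dnb_m I 𝔐) • (⊤ : Submodule (FixedPoints.subring B I) B) := by
    intro y
    have hle : Submodule.span (FixedPoints.subring B I) (gens : Set B) ≤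
        (s34dnb_N I t (Fintype.card I) ⊔
          (s34dnb_m I 𝔐) • (⊤ : Submodule (FixedPoints.subring B I) B)).comap
          (LinearMap.lsmul (FixedPoints.subring B I) B S0) := by
      rw [Submodule.span_le]
      intro b hb
      rw [SetLike.mem_coe, Submodule.mem_comap, LinearMap.lsmul_apply]
      have hprod : S0 = (∏ b' ∈ gens.erase b, σ b') * σ b :=
        (Finset.prod_erase_mul _ _ hb).symm
      rw [hprod, mul_smul]
      exact Submodule.smul_mem _ _ (hσ2 b)
    exact hle (hspan y)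
  let f : Module.End (FixedPoints.subring B I) (B ⧸ s34dnb_N I t (Fintype.card I)) :=
    algebraMap (FixedPoints.subring B I) _ S0
  have hrange : LinearMap.range f ≤ (s34dnb_m I 𝔐) •
      (⊤ : Submodule (FixedPoints.subring B I) (B ⧸ s34dnb_N I t (Fintype.card I))) := by
    rintro _ ⟨m, rfl⟩
    obtain ⟨y, rfl⟩ := (s34dnb_N I t (Fintype.card I)).mkQ_surjective m
    have h1 : f ((s34dnb_N I t (Fintype.card I)).mkQ y) =
        (s34dnb_N I t (Fintype.card I)).mkQ (S0 • y) := by
      rw [map_smul]; rfl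
    rw [h1]
    obtain ⟨n0, hn0, w, hw, hsum⟩ := Submodule.mem_sup.mp (hS0T y)
    rw [← hsum, map_add, Submodule.mkQ_apply, (Submodule.Quotient.mk_eq_zero _).mpr hn0,
      zero_add]
    have h2 : (s34dnb_N I t (Fintype.card I)).mkQ w ∈
        ((s34dnb_m I 𝔐) • (⊤ : Submodule (FixedPoints.subring B I) B)).map
          (s34dnb_N I t (Fintype.card I)).mkQ := Submodule.mem_map_of_mem hw
    rw [Submodule.map_smul''] at h2
    exact Submodule.smul_mono le_rfl le_top h2
  obtain ⟨p, hp, -, hpc, hp0⟩ :=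
    LinearMap.exists_monic_and_natDegree_eq_and_coeff_mem_pow_and_aeval_eq_zero _ f
      (s34dnb_m I 𝔐) hrange
  have hp1 : algebraMap (FixedPoints.subring B I)
      (Module.End (FixedPoints.subring B I) (B ⧸ s34dnb_N I t (Fintype.card I)))
      (p.eval S0) = 0 := by
    rw [← Polynomial.aeval_algebraMap_apply_eq_algebraMap_eval]; exact hp0
  refine ⟨p.eval S0, ?_, ?_⟩
  · intro hmem
    have hm : p.eval S0 ∈ s34dnb_m I 𝔐 := hmem
    rw [Polynomial.eval_eq_sum_range, Finset.sum_range_succ, hp.coeff_natDegree, one_mul] at hm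
    have hsum : ∑ i ∈ Finset.range p.natDegree, p.coeff i * S0 ^ i ∈ s34dnb_m I 𝔐 := by
      refine Ideal.sum_mem _ (fun i hi => ?_)
      refine Ideal.mul_mem_right _ _ (Ideal.pow_le_self ?_ (hpc i))
      have := Finset.mem_range.mp hi
      omega
    have h3 : S0 ^ p.natDegree ∈ s34dnb_m I 𝔐 := (Ideal.add_mem_iff_right _ hsum).mp hm
    exact hS0 (Ideal.IsPrime.mem_of_pow_mem inferInstance _ h3)
  · intro y
    have h4 := LinearMap.congr_fun hp1 ((s34dnb_N I t (Fintype.card I)).mkQ y)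
    rw [Module.algebraMap_end_apply, LinearMap.zero_apply, ← map_smul, Submodule.mkQ_apply,
      Submodule.Quotient.mk_eq_zero] at h4
    exact h4

theorem s34dnb_smul_N {B : Type*} [CommRing B] (I : Type*) [Group I]
    [MulSemiringAction I B] (g : I) (t : B) (hg : g • t = t) (n : ℕ) {x : B}
    (hx : x ∈ s34dnb_N I t n) : g • x = x := by
  unfold s34dnb_N at hx
  induction hx using Submodule.span_induction with
  | mem x hx =>
    obtain ⟨i, -, rfl⟩ := hx
    rw [smul_pow', hg]
  | zero => exact smul_zero g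
  | add x y _ _ hx hy => rw [smul_add, hx, hy]
  | smul r x _ hx => rw [Subring.smul_def, smul_eq_mul, smul_mul', hx, r.2 g]

theorem s34dnb_inj {B : Type*} [CommRing B] [IsDomain B] (I : Type*) [Group I]
    [MulSemiringAction I B] [FaithfulSMul I B] (t : B) (n : ℕ)
    (s : FixedPoints.subring B I) (hs : (s : B) ≠ 0)
    (hN : ∀ y : B, (s : B) * y ∈ s34dnb_N I t n) :
    Function.Injective (fun g : I => g • t) := by
  have key : ∀ g : I, g • t = t → g = 1 := by
    intro g hg
    apply FaithfulSMul.eq_of_smul_eq_smul (α := B)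
    intro y
    rw [one_smul]
    have h1 := s34dnb_smul_N I g t hg n (hN y)
    rw [smul_mul', s.2 g] at h1
    exact mul_left_cancel₀ hs h1
  intro g h hgh
  have hgh' : g • t = h • t := hgh
  have h2 : (h⁻¹ * g) • t = t := by rw [mul_smul, hgh', inv_smul_smul]
  exact (inv_mul_eq_one.mp (key _ h2)).symm

theorem s34dnb_poly_zero {B : Type*} [CommRing B] [IsDomain B] (I : Type*) [Group I]
    [Fintype I] [MulSemiringAction I B] (t : B)
    (hinj : Function.Injective (fun g : I => g • t)) (f : B[X])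
    (hf : ∀ g : I, g • f = f) (hdeg : ∀ m, Fintype.card I ≤ m → f.coeff m = 0)
    (h0 : f.eval t = 0) : f = 0 := by
  by_contra hne
  have hnat : f.natDegree < Fintype.card I := by
    by_contra hcon
    exact (Polynomial.leadingCoeff_ne_zero.mpr hne) (hdeg _ (not_lt.mp hcon))
  have hev : ∀ g : I, f.eval ((fun g : I => g • t) g) = 0 := by
    intro g
    have h := Polynomial.smul_eval_smul B g f t
    rw [hf g, h0, smul_zero] at h
    exact h
  exact hne (Polynomial.eq_zero_of_natDegree_lt_card_of_eval_eq_zero f hinj hev hnat)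

theorem s34dnb_N_poly {B : Type*} [CommRing B] (I : Type*) [Group I]
    [MulSemiringAction I B] (t : B) (n : ℕ) {x : B} (hx : x ∈ s34dnb_N I t n) :
    ∃ f : B[X], (∀ g : I, g • f = f) ∧ (∀ m, n ≤ m → f.coeff m = 0) ∧ f.eval t = x := by
  unfold s34dnb_N at hx
  induction hx using Submodule.span_induction with
  | mem x hx =>
    obtain ⟨i, hi, rfl⟩ := hx
    refine ⟨X ^ i, fun g => by rw [smul_pow', Polynomial.smul_X], fun m hm => ?_, by simp⟩
    have hi' : i < n := hi
    rw [coeff_X_pow, if_neg (by omega)]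
  | zero => exact ⟨0, fun g => smul_zero g, fun m _ => coeff_zero m, eval_zero⟩
  | add x y _ _ hx hy =>
    obtain ⟨f, hf1, hf2, hf3⟩ := hx
    obtain ⟨f', hf1', hf2', hf3'⟩ := hy
    exact ⟨f + f', fun g => by rw [smul_add, hf1, hf1'],
      fun m hm => by rw [coeff_add, hf2 m hm, hf2' m hm, add_zero],
      by rw [eval_add, hf3, hf3']⟩
  | smul r x _ hx =>
    obtain ⟨f, hf1, hf2, hf3⟩ := hx
    exact ⟨C (r : B) * f, fun g => by rw [smul_mul', Polynomial.smul_C, hf1, r.2 g],
      fun m hm => by rw [coeff_C_mul, hf2 m hm, mul_zero],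
      by rw [eval_mul, eval_C, hf3]; rfl⟩

theorem invLocGen_norm_B {B : Type*} [CommRing B] [IsDomain B] (I : Type*) [Group I] [Finite I]
    [MulSemiringAction I B] [FaithfulSMul I B]
    (hfin : ∃ s : Finset B, ∀ y : B, ∃ c : B → B, (∀ b, ∀ g : I, g • c b = c b) ∧
      y = ∑ b ∈ s, c b * b)
    (𝔐 : Ideal B) [𝔐.IsMaximal] [Finite (B ⧸ 𝔐)]
    (htriv : ∀ g : I, ∀ y : B, g • y - y ∈ 𝔐)
    (π : B) (hπ : ∀ g : I, g • π = π) (hπ𝔐 : π ∈ 𝔐)
    {t : B} (ht : ModelLocGen (Ideal.span {π}) 𝔐 t) :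
    ∃ u : B, InvLocGen I 𝔐 π u := by
  classical
  cases nonempty_fintype I
  have hn : 0 < Fintype.card I := Fintype.card_pos
  refine ⟨(MulSemiringAction.charpoly I t).coeff 0,
    fun g => MulSemiringAction.smul_coeff_charpoly t 0 g,
    s34dnb_charpoly_coeff_mem I 𝔐 htriv ht.1 0 hn, ?_⟩
  intro z hz hzinv
  obtain ⟨S1, hS1, hS1N⟩ := s34dnb_stepE I hfin 𝔐 htriv π hπ hπ𝔐 ht
  have hS10 : (S1 : B) ≠ 0 := fun h => hS1 (h ▸ 𝔐.zero_mem)
  have hinj := s34dnb_inj I t _ S1 hS10 hS1N
  obtain ⟨s₀, b, c, hs₀, hs₀', h1⟩ := s34dnb_gen I 𝔐 htriv π ht hz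
  obtain ⟨fb, hfb1, hfb2, hfb3⟩ := s34dnb_N_poly I t _ (hS1N b)
  obtain ⟨fc, hfc1, hfc2, hfc3⟩ := s34dnb_N_poly I t _ (hS1N c)
  have hq : ∀ g : I, g • fc.coeff (Fintype.card I - 1) = fc.coeff (Fintype.card I - 1) := by
    intro g
    rw [← Polynomial.coeff_smul, hfc1]
  have hH : C (s₀ * S1 * z) - C π * fb - X * fc
      + C (fc.coeff (Fintype.card I - 1)) * MulSemiringAction.charpoly I t = 0 := by
    apply s34dnb_poly_zero I t hinj
    · intro g
      rw [smul_add, smul_sub, smul_sub, smul_mul', smul_mul', smul_mul', Polynomial.smul_C,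
        Polynomial.smul_C, Polynomial.smul_C, Polynomial.smul_X, hfb1, hfc1,
        MulSemiringAction.smul_charpoly, hq g, hπ g, smul_mul', smul_mul', hs₀ g, S1.2 g,
        hzinv g]
    · intro m hm
      obtain ⟨m', rfl⟩ : ∃ m', m = m' + 1 := ⟨m - 1, by omega⟩
      rw [coeff_add, coeff_sub, coeff_sub, coeff_C_succ, coeff_C_mul, coeff_C_mul, coeff_X_mul,
        hfb2 _ hm]
      rcases Nat.lt_or_ge (Fintype.card I) (m' + 1) with h | h
      · have hc0 : (MulSemiringAction.charpoly I t).coeff (m' + 1) = 0 :=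
          Polynomial.coeff_eq_zero_of_natDegree_lt (by rw [s34dnb_natDegree]; exact h)
        rw [hfc2 m' (by omega), hc0]
        ring
      · have hm' : m' + 1 = Fintype.card I := le_antisymm h hm
        have hm'' : m' = Fintype.card I - 1 := by omega
        have hc1 : (MulSemiringAction.charpoly I t).coeff (m' + 1) = 1 := by
          have h := (MulSemiringAction.monic_charpoly I t).coeff_natDegree
          rwa [s34dnb_natDegree, ← hm'] at h
        rw [hc1, ← hm'']
        ring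
    · rw [eval_add, eval_sub, eval_sub, eval_mul, eval_mul, eval_mul, eval_C, eval_C, eval_C,
        eval_X, hfb3, hfc3, MulSemiringAction.eval_charpoly]
      linear_combination (S1 : B) * h1
  have h0 := congrArg (fun f : B[X] => f.coeff 0) hH
  simp only [coeff_add, coeff_sub, coeff_C_mul, coeff_C_zero, coeff_zero, coeff_X_mul_zero,
    sub_zero] at h0
  refine ⟨s₀ * S1, fb.coeff 0, -fc.coeff (Fintype.card I - 1), ?_, ?_, ?_, ?_, ?_⟩
  · intro g
    rw [smul_mul', hs₀ g, S1.2 g]
  · intro g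
    rw [← Polynomial.coeff_smul, hfb1]
  · intro g
    rw [smul_neg, hq g]
  · intro hmem
    rcases (Ideal.IsPrime.mem_or_mem inferInstance hmem) with h | h
    exacts [hs₀' h, hS1 h]
  · linear_combination h0

end Fermat.Agent.S34
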