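import Mathlib

/-!
P19 (S34), block MODEL-M2 (norm descent), leaf D1, auxiliary file Xb: invariant denominators
(norm of an element outside a prime on which the group acts trivially modulo the prime) and
independence of the powers of `t` over the invariants (degree below the group order).
-/

set_option autoImplicit false

namespace Fermat.Agent.S34

open Polynomial

theorem dnx_den {B : Type*} [CommRing B] (H : Type*) [Group H] [Fintype H]
    [MulSemiringAction H B] (𝔐 : Ideal B) [𝔐.IsPrime]
    (htriv : ∀ g : H, ∀ y : B, g • y - y ∈ 𝔐) (a : B) (ha : a ∉ 𝔐) :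
    ∃ a' : B, a * a' ∈ FixedPoints.subring B H ∧ a * a' ∉ 𝔐 := by
  classical
  have hprod : a * ∏ g ∈ Finset.univ.erase (1 : H), g • a = ∏ g : H, g • a := by
    have h1 := Finset.mul_prod_erase (Finset.univ : Finset H) (fun g => g • a)
      (Finset.mem_univ 1)
    rw [one_smul] at h1
    exact h1
  refine ⟨∏ g ∈ Finset.univ.erase (1 : H), g • a, ?_, ?_⟩
  · rw [hprod]
    intro h
    exact Finset.smul_prod_perm a h
  · rw [hprod]
    intro hmem
    obtain ⟨g, -, hg⟩ := Ideal.IsPrime.prod_mem_iff.mp hmem
    apply ha
    have h2 := 𝔐.sub_mem hg (htriv g a)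
    rwa [sub_sub_cancel] at h2

theorem dnx_indep {B : Type*} [CommRing B] [IsDomain B] (I : Type*) [Group I] [Fintype I]
    [MulSemiringAction I B] (t : B) (hinj : Function.Injective fun g : I => g • t)
    (f : (↥(FixedPoints.subring B I))[X])
    (hf : f ∈ Polynomial.degreeLT ↥(FixedPoints.subring B I) (Fintype.card I))
    (hft : f.eval₂ (FixedPoints.subring B I).subtype t = 0) : f = 0 := by
  have hmapinj : Function.Injective
      (Polynomial.map (FixedPoints.subring B I).subtype) :=
    Polynomial.map_injective _ Subtype.val_injective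
  apply hmapinj
  rw [Polynomial.map_zero]
  have hFt : (f.map (FixedPoints.subring B I).subtype).eval t = 0 := by
    rw [Polynomial.eval_map]
    exact hft
  have hsmul : ∀ g : I, g • (f.map (FixedPoints.subring B I).subtype) =
      f.map (FixedPoints.subring B I).subtype := by
    intro g
    ext n
    rw [Polynomial.coeff_smul, Polynomial.coeff_map]
    exact (f.coeff n).2 g
  refine Polynomial.eq_zero_of_natDegree_lt_card_of_eval_eq_zero _ hinj ?_ ?_
  · intro g
    have h1 := Polynomial.smul_eval_smul B g (f.map (FixedPoints.subring B I).subtype) t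
    rw [hsmul g, hFt, smul_zero] at h1
    exact h1
  · by_cases hf0 : f = 0
    · rw [hf0, Polynomial.map_zero, Polynomial.natDegree_zero]
      exact Fintype.card_pos
    · have h2 : f.natDegree < Fintype.card I :=
        (Polynomial.natDegree_lt_iff_degree_lt hf0).mpr (Polynomial.mem_degreeLT.mp hf)
      exact lt_of_le_of_lt (Polynomial.natDegree_map_le) h2

end Fermat.Agent.S34
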