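import Mathlib

/-!
# P19 (S34), norm descent, leaf D0 (second proof): invariants surject onto the residue field

Let a finite group `I` act on a commutative ring `B` with ring of invariants `A`, and let `𝔐` be a
maximal ideal of `B` with finite residue field on which `I` acts trivially.  Then every residue
class modulo `𝔐` contains an element of `A` (`dnC_residue`).

Proof: put `P = 𝔐 ∩ A`.  The residue field extension `(B ⧸ 𝔐) / (A ⧸ P)` is a finite extension
of finite fields, hence Galois, and every element of its Galois group is induced by an element of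
the stabiliser of `𝔐` in `I` (`Ideal.Quotient.stabilizerHom_surjective`).  As `I` acts trivially
on `B ⧸ 𝔐`, the Galois group fixes every element, so `B ⧸ 𝔐 = A ⧸ P`.
-/

set_option autoImplicit false

namespace Fermat.Agent.S34

/-- trivial action on a finite residue field ⇒ every residue class contains an invariant. -/
theorem dnC_residue {A B : Type*} [CommRing A] [CommRing B] [Algebra A B] (I : Type*) [Group I]
    [Finite I] [MulSemiringAction I B] [SMulCommClass I A B] [Algebra.IsInvariant A B I]
    (𝔐 : Ideal B) [𝔐.IsMaximal] [Finite (B ⧸ 𝔐)]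
    (htriv : ∀ g : I, ∀ y : B, g • y - y ∈ 𝔐) (y : B) :
    ∃ a : A, y - algebraMap A B a ∈ 𝔐 := by
  classical
  have hint : Algebra.IsIntegral A B := Algebra.IsInvariant.isIntegral A B I
  have hover : 𝔐.LiesOver (𝔐.under A) := ⟨rfl⟩
  have hPmax : (𝔐.under A).IsMaximal := Ideal.isMaximal_comap_of_isIntegral_of_isMaximal 𝔐
  let _ : Field (A ⧸ 𝔐.under A) := Ideal.Quotient.field (𝔐.under A)
  let _ : Field (B ⧸ 𝔐) := Ideal.Quotient.field 𝔐
  have hmem : Ideal.Quotient.mk 𝔐 y ∈ Set.range (algebraMap (A ⧸ 𝔐.under A) (B ⧸ 𝔐)) := by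
    rw [IsGalois.mem_range_algebraMap_iff_fixed]
    intro f
    obtain ⟨g, rfl⟩ := Ideal.Quotient.stabilizerHom_surjective I (𝔐.under A) 𝔐 f
    rw [Ideal.Quotient.stabilizerHom_apply, Ideal.Quotient.eq]
    exact htriv g y
  obtain ⟨ā, hā⟩ := hmem
  obtain ⟨a, rfl⟩ := Ideal.Quotient.mk_surjective ā
  exact ⟨a, Ideal.Quotient.eq.1 hā.symm⟩

end Fermat.Agent.S34
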