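import Mathlib

/-!
P19 (S34), tower descent, leaf D0 (extra team): if a finite group `I` acts trivially on the
finite residue field `B ⧸ 𝔐`, every residue class is represented by an `I`-invariant element.
-/

set_option autoImplicit false

namespace Fermat.Agent.S34

open Polynomial

/-- A subring of a finite field is closed under inverses. -/
theorem drx_inv_mem {κ : Type*} [Field κ] [Finite κ] (S : Subring κ) {c : κ} (hc : c ∈ S) :
    c⁻¹ ∈ S := by
  cases nonempty_fintype κ
  by_cases h0 : c = 0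
  · rw [h0, inv_zero]
    exact S.zero_mem
  have h1 : c ^ (Fintype.card κ - 1) = 1 := FiniteField.pow_card_sub_one_eq_one c h0
  have h2 : 2 ≤ Fintype.card κ := Fintype.one_lt_card
  have h3 : c ^ (Fintype.card κ - 2) * c = 1 := by
    rw [← pow_succ]
    have e : Fintype.card κ - 2 + 1 = Fintype.card κ - 1 := by omega
    rw [e, h1]
  rw [← eq_inv_of_mul_eq_one_left h3]
  exact S.pow_mem hc _

/-- If `K` is a subfield of the finite field `κ` and `(X - C a) ^ n`, `n ≠ 0`, has all its
coefficients in `K`, then `a ∈ K`. -/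
theorem drx_mem_of_pow_lifts {κ : Type*} [Field κ] [Finite κ] (K : Subfield κ) (a : κ) (n : ℕ)
    (hn : n ≠ 0) (h : ∀ k, ((X - C a) ^ n : κ[X]).coeff k ∈ K) : a ∈ K := by
  have hlift : ((X - C a) ^ n : κ[X]) ∈ Polynomial.lifts (algebraMap K κ) := by
    rw [Polynomial.lifts_iff_coeff_lifts]
    intro k
    exact ⟨⟨_, h k⟩, rfl⟩
  obtain ⟨Q, hQ⟩ := (Polynomial.mem_lifts _).mp hlift
  have hint : IsIntegral K a := IsIntegral.of_finite K a
  have haeval : aeval a Q = 0 := by
    rw [aeval_def, ← eval_map, hQ, eval_pow, eval_sub, eval_X, eval_C, sub_self, zero_pow hn]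
  have hdvd : minpoly K a ∣ Q := minpoly.dvd K a haeval
  have hsep : (minpoly K a).Separable :=
    PerfectField.separable_of_irreducible (minpoly.irreducible hint)
  have hsq : Squarefree ((minpoly K a).map (algebraMap K κ)) := hsep.map.squarefree
  have hdvd2 : (minpoly K a).map (algebraMap K κ) ∣ (X - C a) ^ n := by
    rw [← hQ]
    exact Polynomial.map_dvd _ hdvd
  have hdvd3 : (minpoly K a).map (algebraMap K κ) ∣ X - C a :=
    (hsq.dvd_pow_iff_dvd hn).mp hdvd2
  have hdeg : (minpoly K a).natDegree ≤ 1 := by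
    have h4 := natDegree_le_of_dvd hdvd3 (X_sub_C_ne_zero a)
    rwa [natDegree_map, natDegree_X_sub_C] at h4
  have hdeg1 : (minpoly K a).degree = 1 := by
    have hpos := minpoly.natDegree_pos hint
    have h5 : (minpoly K a).natDegree = 1 := by omega
    rw [degree_eq_natDegree (minpoly.ne_zero hint), h5]
    rfl
  obtain ⟨c, hc⟩ := minpoly.mem_range_of_degree_eq_one K a hdeg1
  rw [← hc]
  exact c.2

theorem invLocGen_residue_X {B : Type*} [CommRing B] (I : Type*) [Group I] [Finite I]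
    [MulSemiringAction I B] (𝔐 : Ideal B) [𝔐.IsMaximal] [Finite (B ⧸ 𝔐)]
    (htriv : ∀ g : I, ∀ y : B, g • y - y ∈ 𝔐) (y : B) :
    ∃ y₀ : B, (∀ g : I, g • y₀ = y₀) ∧ y - y₀ ∈ 𝔐 := by
  cases nonempty_fintype I
  let _ : Field (B ⧸ 𝔐) := Ideal.Quotient.field 𝔐
  let S : Subring (B ⧸ 𝔐) := (FixedPoints.subring B I).map (Ideal.Quotient.mk 𝔐)
  let K : Subfield (B ⧸ 𝔐) := { S with inv_mem' := fun c hc => drx_inv_mem S hc }
  have hmk : ∀ g : I, Ideal.Quotient.mk 𝔐 (g • y) = Ideal.Quotient.mk 𝔐 y := fun g =>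
    Ideal.Quotient.eq.mpr (htriv g y)
  have hP : (MulSemiringAction.charpoly I y).map (Ideal.Quotient.mk 𝔐) =
      (X - C (Ideal.Quotient.mk 𝔐 y)) ^ Fintype.card I := by
    rw [MulSemiringAction.charpoly_eq, Polynomial.map_prod]
    simp only [Polynomial.map_sub, Polynomial.map_X, Polynomial.map_C, hmk]
    rw [Finset.prod_const, Finset.card_univ]
  have hmem : Ideal.Quotient.mk 𝔐 y ∈ K := by
    apply drx_mem_of_pow_lifts K _ (Fintype.card I) Fintype.card_ne_zero
    intro k
    rw [← hP, coeff_map]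
    exact ⟨_, fun g => MulSemiringAction.smul_coeff_charpoly y k g, rfl⟩
  obtain ⟨y₀, hy₀, hy₀eq⟩ := hmem
  exact ⟨y₀, hy₀, Ideal.Quotient.eq.mp hy₀eq.symm⟩

end Fermat.Agent.S34
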