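import Mathlib
import Fermat.Agent.S34.ModelDefs
import Fermat.Agent.S34.DescDefs

/-!
P19 (S34), block MODEL-M2 (norm descent), leaf D3: the split step.

`S ≤ G` the stabiliser of the maximal ideal `𝔐`; an `S`-invariant local generator `uS` of
`𝔐 ∩ B^S` gives a `G`-invariant local generator of `𝔐 ∩ B^G`, namely the coset norm of
`e * uS + h * h` for suitable `S`-invariant `e`, `h`.
-/

set_option autoImplicit false

namespace Fermat.Agent.S34

section

variable {B : Type*} [CommRing B] {G : Type*} [Group G] [MulSemiringAction G B]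

/-- value of an `S`-invariant element on a coset (through a representative). -/
noncomputable def s34dsp_phi (S : Subgroup G) (y : B) (c : G ⧸ S) : B := (Quotient.out c) • y

theorem s34dsp_smul_eq_of_mk_eq (S : Subgroup G) {y : B} (hy : ∀ g ∈ S, g • y = y) {a b : G}
    (hab : (QuotientGroup.mk a : G ⧸ S) = QuotientGroup.mk b) : a • y = b • y := by
  have h1 : a⁻¹ * b ∈ S := QuotientGroup.eq.mp hab
  have h2 := hy _ h1
  calc a • y = a • ((a⁻¹ * b) • y) := by rw [h2]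
    _ = b • y := by rw [smul_smul, mul_inv_cancel_left]

theorem s34dsp_phi_mk (S : Subgroup G) {y : B} (hy : ∀ g ∈ S, g • y = y) (g : G) :
    s34dsp_phi S y (QuotientGroup.mk g) = g • y := by
  unfold s34dsp_phi
  exact s34dsp_smul_eq_of_mk_eq S hy (QuotientGroup.out_eq' _)

theorem s34dsp_smul_phi (S : Subgroup G) {y : B} (hy : ∀ g ∈ S, g • y = y) (g : G)
    (c : G ⧸ S) : g • s34dsp_phi S y c = s34dsp_phi S y (g • c) := by
  induction c using QuotientGroup.induction_on with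
  | H k =>
    have h1 : g • (QuotientGroup.mk k : G ⧸ S) = QuotientGroup.mk (g * k) := rfl
    rw [s34dsp_phi_mk S hy, smul_smul, h1, s34dsp_phi_mk S hy]

theorem s34dsp_smul_sum (S : Subgroup G) [Fintype (G ⧸ S)] {y : B}
    (hy : ∀ g ∈ S, g • y = y) (g : G) :
    g • (∑ c : G ⧸ S, s34dsp_phi S y c) = ∑ c : G ⧸ S, s34dsp_phi S y c := by
  rw [Finset.smul_sum]
  simp only [s34dsp_smul_phi S hy]
  exact Fintype.sum_equiv (MulAction.toPerm g) _ _ (fun c => rfl)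

theorem s34dsp_smul_prod (S : Subgroup G) [Fintype (G ⧸ S)] {y : B}
    (hy : ∀ g ∈ S, g • y = y) (g : G) :
    g • (∏ c : G ⧸ S, s34dsp_phi S y c) = ∏ c : G ⧸ S, s34dsp_phi S y c := by
  rw [Finset.smul_prod']
  simp only [s34dsp_smul_phi S hy]
  exact Fintype.prod_equiv (MulAction.toPerm g) _ _ (fun c => rfl)

theorem s34dsp_out_notMem (S : Subgroup G) {c : G ⧸ S}
    (hc : c ≠ QuotientGroup.mk 1) : Quotient.out c ∉ S := by
  intro hmem
  apply hc
  have h1 : (QuotientGroup.mk (Quotient.out c) : G ⧸ S) = QuotientGroup.mk 1 := by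
    rw [QuotientGroup.eq]
    simpa using hmem
  rw [← h1]
  exact (QuotientGroup.out_eq' c).symm

theorem s34dsp_smul_rho (S : Subgroup G) [Fintype (G ⧸ S)] [DecidableEq (G ⧸ S)] {y : B}
    (hy : ∀ g ∈ S, g • y = y) (s : G) (hs : s ∈ S) :
    s • (∏ c ∈ Finset.univ.erase (QuotientGroup.mk 1 : G ⧸ S), s34dsp_phi S y c)
      = ∏ c ∈ Finset.univ.erase (QuotientGroup.mk 1 : G ⧸ S), s34dsp_phi S y c := by
  rw [Finset.smul_prod']
  have hs1 : s • (QuotientGroup.mk 1 : G ⧸ S) = QuotientGroup.mk 1 := by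
    have h1 : s • (QuotientGroup.mk 1 : G ⧸ S) = QuotientGroup.mk (s * 1) := rfl
    rw [h1, QuotientGroup.eq]
    simpa using hs
  refine Finset.prod_equiv (MulAction.toPerm s) (fun c => ?_)
    (fun c _ => s34dsp_smul_phi S hy s c)
  simp only [Finset.mem_erase, Finset.mem_univ, and_true, MulAction.toPerm_apply]
  constructor
  · intro h1 h2
    apply h1
    rw [← hs1] at h2
    exact smul_left_cancel s h2
  · intro h1 h2
    apply h1
    rw [h2, hs1]

theorem s34dsp_prod_notMem {ι : Type*} (s : Finset ι) (f : ι → B) (𝔐 : Ideal B) [𝔐.IsPrime]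
    (h : ∀ i ∈ s, f i ∉ 𝔐) : ∏ i ∈ s, f i ∉ 𝔐 := by
  intro hp
  obtain ⟨i, hi, hfi⟩ := (Ideal.IsPrime.prod_mem_iff).mp hp
  exact h i hi hfi

/-- the norm over the subgroup `S`. -/
noncomputable def s34dsp_nS (S : Subgroup G) [Fintype S] (x : B) : B := ∏ s : S, (s : G) • x

theorem s34dsp_smul_nS (S : Subgroup G) [Fintype S] (x : B) (g : G) :
    g • s34dsp_nS S x = ∏ s : S, (g * (s : G)) • x := by
  unfold s34dsp_nS
  rw [Finset.smul_prod']
  simp only [smul_smul]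

theorem s34dsp_nS_inv (S : Subgroup G) [Fintype S] (x : B) (t : G) (ht : t ∈ S) :
    t • s34dsp_nS S x = s34dsp_nS S x := by
  rw [s34dsp_smul_nS]
  exact Fintype.prod_equiv (Equiv.mulLeft (⟨t, ht⟩ : S)) _ _ (fun s => rfl)

theorem s34dsp_smul_nS_mem (S : Subgroup G) [Fintype S] (𝔐 : Ideal B) (x : B) (c : G)
    (hc : c • x ∈ 𝔐) : c • s34dsp_nS S x ∈ 𝔐 := by
  rw [s34dsp_smul_nS]
  refine Ideal.mem_of_dvd _ (Finset.dvd_prod_of_mem _ (Finset.mem_univ (1 : S))) ?_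
  simpa using hc

theorem s34dsp_smul_nS_notMem (S : Subgroup G) [Fintype S] (𝔐 : Ideal B) [𝔐.IsPrime] (x : B)
    (c : G) (hc : ∀ s ∈ S, (c * s) • x ∉ 𝔐) : c • s34dsp_nS S x ∉ 𝔐 := by
  rw [s34dsp_smul_nS]
  exact s34dsp_prod_notMem _ _ 𝔐 (fun s _ => hc s s.2)

theorem s34dsp_mem_iff (𝔐 : Ideal B) (S : Subgroup G)
    (hS : ∀ g : G, g ∈ S ↔ ∀ z ∈ 𝔐, g • z ∈ 𝔐) {s : G} (hs : s ∈ S) (z : B) :
    s • z ∈ 𝔐 ↔ z ∈ 𝔐 := by
  constructor
  · intro h
    have h1 := (hS s⁻¹).mp (S.inv_mem hs) _ h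
    rwa [inv_smul_smul] at h1
  · exact (hS s).mp hs z

theorem s34dsp_exists_of_notMem (𝔐 : Ideal B) (S : Subgroup G)
    (hS : ∀ g : G, g ∈ S ↔ ∀ z ∈ 𝔐, g • z ∈ 𝔐) {c : G} (hc : c ∉ S) :
    ∃ z ∈ 𝔐, c • z ∉ 𝔐 := by
  by_contra hcon
  refine hc ((hS c).mpr (fun z hz => ?_))
  by_contra hcz
  exact hcon ⟨z, hz, hcz⟩

theorem s34dsp_exists_e [Fintype G] (𝔐 : Ideal B) [𝔐.IsMaximal] (S : Subgroup G) [Fintype S]
    (hS : ∀ g : G, g ∈ S ↔ ∀ z ∈ 𝔐, g • z ∈ 𝔐) :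
    ∃ e : B, (∀ g ∈ S, g • e = e) ∧ e ∉ 𝔐 ∧ ∀ c : G, c ∉ S → c • e ∈ 𝔐 := by
  classical
  have hprime : 𝔐.IsPrime := Ideal.IsMaximal.isPrime inferInstance
  have hx : ∀ g : G, ∃ x : B, x ∉ 𝔐 ∧ (g ∉ S → g • x ∈ 𝔐) := by
    intro g
    by_cases hg : g ∈ S
    · exact ⟨1, (Ideal.ne_top_iff_one 𝔐).mp hprime.ne_top, fun h => absurd hg h⟩
    · have hg' : g⁻¹ ∉ S := fun h => hg (by simpa using S.inv_mem h)
      obtain ⟨z, hz, hgz⟩ := s34dsp_exists_of_notMem 𝔐 S hS hg'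
      exact ⟨g⁻¹ • z, hgz, fun _ => by rwa [smul_inv_smul]⟩
  choose x hx1 hx2 using hx
  refine ⟨∏ g : G, s34dsp_nS S (x g), ?_, ?_, ?_⟩
  · intro t ht
    rw [Finset.smul_prod']
    exact Finset.prod_congr rfl (fun g _ => s34dsp_nS_inv S (x g) t ht)
  · refine s34dsp_prod_notMem _ _ 𝔐 (fun g _ => ?_)
    have h1 := s34dsp_smul_nS_notMem S 𝔐 (x g) 1 (fun s hs => by
      rw [one_mul, s34dsp_mem_iff 𝔐 S hS hs]
      exact hx1 g)
    rwa [one_smul] at h1
  · intro c hc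
    rw [Finset.smul_prod']
    refine Ideal.mem_of_dvd _ (Finset.dvd_prod_of_mem _ (Finset.mem_univ c)) ?_
    exact s34dsp_smul_nS_mem S 𝔐 (x c) c (hx2 c hc)

theorem s34dsp_exists_h [Fintype G] (𝔐 : Ideal B) [𝔐.IsMaximal] (S : Subgroup G) [Fintype S]
    (hS : ∀ g : G, g ∈ S ↔ ∀ z ∈ 𝔐, g • z ∈ 𝔐) :
    ∃ h : B, (∀ g ∈ S, g • h = h) ∧ h ∈ 𝔐 ∧ ∀ c : G, c ∉ S → c • h ∉ 𝔐 := by
  have hprime : 𝔐.IsPrime := Ideal.IsMaximal.isPrime inferInstance
  have h1M : (1 : B) ∉ 𝔐 := (Ideal.ne_top_iff_one 𝔐).mp hprime.ne_top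
  obtain ⟨e, -, he, hec⟩ := s34dsp_exists_e 𝔐 S hS
  obtain ⟨e', i, hi, hei⟩ := Ideal.IsMaximal.exists_inv (inferInstance : 𝔐.IsMaximal) he
  have hci : ∀ c : G, c ∉ S → c • i ∉ 𝔐 := by
    intro c hc hmem
    apply h1M
    have h2 : c • (e' * e + i) = 1 := by rw [hei, smul_one]
    rw [smul_add, smul_mul'] at h2
    rw [← h2]
    exact 𝔐.add_mem (𝔐.mul_mem_left _ (hec c hc)) hmem
  refine ⟨s34dsp_nS S i, fun g hg => s34dsp_nS_inv S i g hg, ?_, ?_⟩
  · have h2 := s34dsp_smul_nS_mem S 𝔐 i 1 (by rwa [one_smul])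
    rwa [one_smul] at h2
  · intro c hc
    refine s34dsp_smul_nS_notMem S 𝔐 i c (fun s hs => hci _ ?_)
    intro hcs
    apply hc
    have := S.mul_mem hcs (S.inv_mem hs)
    simpa using this

/-- the `S`-invariant relation with respect to `y = e * uS + h * h`. -/
theorem s34dsp_rel_y (𝔐 : Ideal B) [𝔐.IsPrime] (S : Subgroup G) (π uS e h : B)
    (heinv : ∀ g ∈ S, g • e = e) (he : e ∉ 𝔐)
    (hhinv : ∀ g ∈ S, g • h = h) (hh : h ∈ 𝔐)
    (hgen : InvLocGen S 𝔐 π uS)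
    (z : B) (hz : z ∈ 𝔐) (hzinv : ∀ g ∈ S, g • z = z) :
    ∃ a b c : B, (∀ g ∈ S, g • a = a) ∧ (∀ g ∈ S, g • b = b) ∧ (∀ g ∈ S, g • c = c) ∧
      a ∉ 𝔐 ∧ a * z = π * b + (e * uS + h * h) * c := by
  obtain ⟨a, b, c, ha, hb, hc, haM, hrel⟩ := hgen.2.2 z hz (fun s => hzinv s s.2)
  obtain ⟨a', b', c', ha', hb', hc', haM', hrel'⟩ := hgen.2.2 h hh (fun s => hhinv s s.2)
  have ha : ∀ g ∈ S, g • a = a := fun g hg => ha ⟨g, hg⟩
  have hb : ∀ g ∈ S, g • b = b := fun g hg => hb ⟨g, hg⟩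
  have hc : ∀ g ∈ S, g • c = c := fun g hg => hc ⟨g, hg⟩
  have ha' : ∀ g ∈ S, g • a' = a' := fun g hg => ha' ⟨g, hg⟩
  have hb' : ∀ g ∈ S, g • b' = b' := fun g hg => hb' ⟨g, hg⟩
  have hc' : ∀ g ∈ S, g • c' = c' := fun g hg => hc' ⟨g, hg⟩
  have hα : e * a' + h * c' ∉ 𝔐 := by
    intro hmem
    have h1 : e * a' ∈ 𝔐 := by
      have h2 := 𝔐.sub_mem hmem (𝔐.mul_mem_right c' hh)
      simpa using h2
    rcases Ideal.IsPrime.mem_or_mem inferInstance h1 with h3 | h3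
    · exact he h3
    · exact haM' h3
  refine ⟨(e * a' + h * c') * e * a, (e * a' + h * c') * e * b - e * b' * h * c,
    (e * a' + h * c') * c - c' * h * c, ?_, ?_, ?_, ?_, ?_⟩
  · intro g hg
    simp only [smul_mul', smul_add, heinv g hg, hhinv g hg, ha g hg, ha' g hg, hc' g hg]
  · intro g hg
    simp only [smul_mul', smul_add, smul_sub, heinv g hg, hhinv g hg, hb g hg, hc g hg,
      ha' g hg, hb' g hg, hc' g hg]
  · intro g hg
    simp only [smul_mul', smul_add, smul_sub, heinv g hg, hhinv g hg, hc g hg,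
      ha' g hg, hc' g hg]
  · intro hmem
    rcases Ideal.IsPrime.mem_or_mem inferInstance hmem with h3 | h3
    · rcases Ideal.IsPrime.mem_or_mem inferInstance h3 with h4 | h4
      · exact hα h4
      · exact he h4
    · exact haM h3
  · linear_combination ((e * a' + h * c') * e) * hrel - (e * h * c) * hrel'

end

theorem invLocGen_split {B : Type*} [CommRing B] (G : Type*) [Group G] [Finite G]
    [MulSemiringAction G B] (𝔐 : Ideal B) [𝔐.IsMaximal] (S : Subgroup G)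
    (hS : ∀ g : G, g ∈ S ↔ ∀ z ∈ 𝔐, g • z ∈ 𝔐)
    (π : B) (hπ : ∀ g : G, g • π = π)
    {uS : B} (h : InvLocGen S 𝔐 π uS) :
    ∃ u : B, InvLocGen G 𝔐 π u := by
  classical
  have : Fintype G := Fintype.ofFinite G
  have : Fintype (G ⧸ S) := Fintype.ofFinite _
  have : Fintype S := Fintype.ofFinite _
  have hprime : 𝔐.IsPrime := Ideal.IsMaximal.isPrime inferInstance
  obtain ⟨e, heinv, he, hec⟩ := s34dsp_exists_e 𝔐 S hS
  obtain ⟨k, hkinv, hk, hkc⟩ := s34dsp_exists_h 𝔐 S hS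
  have huSinv : ∀ g ∈ S, g • uS = uS := fun g hg => h.1 ⟨g, hg⟩
  have hyinv : ∀ g ∈ S, g • (e * uS + k * k) = e * uS + k * k := by
    intro g hg
    simp only [smul_mul', smul_add, heinv g hg, hkinv g hg, huSinv g hg]
  have hymem : e * uS + k * k ∈ 𝔐 :=
    𝔐.add_mem (𝔐.mul_mem_left _ h.2.1) (𝔐.mul_mem_left _ hk)
  have hyc : ∀ c : G, c ∉ S → c • (e * uS + k * k) ∉ 𝔐 := by
    intro c hc hmem
    rw [smul_add, smul_mul', smul_mul'] at hmem
    have h1 : c • k * c • k ∈ 𝔐 := by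
      have h2 := 𝔐.sub_mem hmem (𝔐.mul_mem_right (c • uS) (hec c hc))
      simpa using h2
    rcases Ideal.IsPrime.mem_or_mem hprime h1 with h3 | h3 <;> exact hkc c hc h3
  -- the coset norm
  have hu : (e * uS + k * k) *
      ∏ c ∈ Finset.univ.erase (QuotientGroup.mk 1 : G ⧸ S), s34dsp_phi S (e * uS + k * k) c
      = ∏ c : G ⧸ S, s34dsp_phi S (e * uS + k * k) c := by
    have h1 := Finset.mul_prod_erase Finset.univ (s34dsp_phi S (e * uS + k * k))
      (Finset.mem_univ (QuotientGroup.mk 1 : G ⧸ S))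
    rwa [s34dsp_phi_mk S hyinv, one_smul] at h1
  have hρinv := s34dsp_smul_rho S hyinv
  have hρ : ∏ c ∈ Finset.univ.erase (QuotientGroup.mk 1 : G ⧸ S),
      s34dsp_phi S (e * uS + k * k) c ∉ 𝔐 := by
    refine s34dsp_prod_notMem _ _ 𝔐 (fun c hc => ?_)
    exact hyc _ (s34dsp_out_notMem S (Finset.ne_of_mem_erase hc))
  have huinv := s34dsp_smul_prod S hyinv
  refine ⟨∏ c : G ⧸ S, s34dsp_phi S (e * uS + k * k) c, huinv, ?_, ?_⟩
  · rw [← hu]
    exact 𝔐.mul_mem_right _ hymem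
  · intro z hz hzinv
    obtain ⟨a, b, d, ha, hb, hd, haM, hrel⟩ :=
      s34dsp_rel_y 𝔐 S π uS e k heinv he hkinv hk h z hz (fun g _ => hzinv g)
    set ρ := ∏ c ∈ Finset.univ.erase (QuotientGroup.mk 1 : G ⧸ S),
      s34dsp_phi S (e * uS + k * k) c with hρdef
    set u := ∏ c : G ⧸ S, s34dsp_phi S (e * uS + k * k) c with hudef
    have hrel2 : (e * (ρ * a)) * z = π * (e * (ρ * b)) + u * (e * d) := by
      rw [← hu]
      linear_combination (e * ρ) * hrel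
    have hAinv : ∀ g ∈ S, g • (e * (ρ * a)) = e * (ρ * a) := by
      intro g hg
      simp only [smul_mul', heinv g hg, hρinv g hg, ha g hg]
    have hBinv : ∀ g ∈ S, g • (e * (ρ * b)) = e * (ρ * b) := by
      intro g hg
      simp only [smul_mul', heinv g hg, hρinv g hg, hb g hg]
    have hCinv : ∀ g ∈ S, g • (e * d) = e * d := by
      intro g hg
      simp only [smul_mul', heinv g hg, hd g hg]
    refine ⟨∑ c : G ⧸ S, s34dsp_phi S (e * (ρ * a)) c, ∑ c : G ⧸ S, s34dsp_phi S (e * (ρ * b)) c,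
      ∑ c : G ⧸ S, s34dsp_phi S (e * d) c, s34dsp_smul_sum S hAinv, s34dsp_smul_sum S hBinv,
      s34dsp_smul_sum S hCinv, ?_, ?_⟩
    · intro hmem
      rw [← Finset.add_sum_erase Finset.univ _ (Finset.mem_univ (QuotientGroup.mk 1 : G ⧸ S)),
        s34dsp_phi_mk S hAinv, one_smul] at hmem
      have h1 : ∑ c ∈ Finset.univ.erase (QuotientGroup.mk 1 : G ⧸ S),
          s34dsp_phi S (e * (ρ * a)) c ∈ 𝔐 := by
        refine 𝔐.sum_mem (fun c hc => ?_)
        unfold s34dsp_phi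
        rw [smul_mul']
        exact 𝔐.mul_mem_right _ (hec _ (s34dsp_out_notMem S (Finset.ne_of_mem_erase hc)))
      have h2 : e * (ρ * a) ∈ 𝔐 := by
        have h3 := 𝔐.sub_mem hmem h1
        simpa using h3
      rcases Ideal.IsPrime.mem_or_mem hprime h2 with h3 | h3
      · exact he h3
      · rcases Ideal.IsPrime.mem_or_mem hprime h3 with h4 | h4
        · exact hρ h4
        · exact haM h4
    · rw [Finset.sum_mul, Finset.mul_sum, Finset.mul_sum, ← Finset.sum_add_distrib]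
      refine Finset.sum_congr rfl (fun c _ => ?_)
      unfold s34dsp_phi
      have h1 := congrArg (fun t => (Quotient.out c) • t) hrel2
      simp only [smul_mul', smul_add, hzinv, hπ, huinv] at h1
      simp only [smul_mul']
      exact h1

end Fermat.Agent.S34
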