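import Mathlib
import Fermat.Agent.S34.ModelDefs
import Fermat.Agent.S34.DescDefs

/-!
P19 (S34), block MODEL-M2 (norm descent), leaf D2: the trace step.

`I ⊲ S` acting on `B`, `𝔐` an `S`-stable maximal ideal, `I` the inertia group.  A local generator
of `𝔐 ∩ B^I` modulo `π` gives a local generator of `𝔐 ∩ B^S` modulo `π`, by a twisted trace over
`S ⧸ I` and Dedekind independence of the automorphisms of `B ⧸ 𝔐` induced by `S ⧸ I`.
-/

set_option autoImplicit false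

namespace Fermat.Agent.S34

section

variable {B : Type*} [CommRing B] {S : Type*} [Group S] [MulSemiringAction S B]

/-- the trace over coset representatives. -/
noncomputable def s34dtr_T (I : Subgroup S) [Fintype (S ⧸ I)] (y : B) : B :=
  ∑ c : S ⧸ I, (Quotient.out c : S) • y

theorem s34dtr_smul_eq_of_mem (I : Subgroup S) {y : B} (hy : ∀ g : I, g • y = y) {s₁ s₂ : S}
    (h : s₁⁻¹ * s₂ ∈ I) : s₂ • y = s₁ • y := by
  have h2 : (s₁⁻¹ * s₂) • y = y := hy ⟨_, h⟩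
  calc s₂ • y = s₁ • (s₁⁻¹ * s₂) • y := by rw [smul_smul, mul_inv_cancel_left]
    _ = s₁ • y := by rw [h2]

theorem s34dtr_inv_smul (I : Subgroup S) [hn : I.Normal] {y : B} (hy : ∀ g : I, g • y = y)
    (s : S) (g : I) : g • (s • y) = s • y := by
  have h1 : s⁻¹ * (g : S) * s ∈ I := by
    have := hn.conj_mem (g : S) g.2 s⁻¹
    simpa using this
  have h2 : (s⁻¹ * (g : S) * s) • y = y := hy ⟨_, h1⟩
  change (g : S) • (s • y) = s • y
  calc (g : S) • (s • y) = s • ((s⁻¹ * (g : S) * s) • y) := by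
        rw [smul_smul, smul_smul]
        congr 1
        group
    _ = s • y := by rw [h2]

theorem s34dtr_inv_mul (I : Subgroup S) {x y : B} (hx : ∀ g : I, g • x = x)
    (hy : ∀ g : I, g • y = y) (g : I) : g • (x * y) = x * y := by
  rw [smul_mul', hx, hy]

theorem s34dtr_inv_prod (I : Subgroup S) {ι : Type*} (s : Finset ι) (f : ι → B)
    (hf : ∀ i ∈ s, ∀ g : I, g • f i = f i) (g : I) : g • (∏ i ∈ s, f i) = ∏ i ∈ s, f i := by
  refine Finset.prod_induction f (fun x => ∀ g : I, g • x = x) ?_ ?_ hf g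
  · intro a b ha hb g
    exact s34dtr_inv_mul I ha hb g
  · intro g
    exact smul_one g

theorem s34dtr_inv_sum (I : Subgroup S) {ι : Type*} (s : Finset ι) (f : ι → B)
    (hf : ∀ i ∈ s, ∀ g : I, g • f i = f i) (g : I) : g • (∑ i ∈ s, f i) = ∑ i ∈ s, f i := by
  rw [Finset.smul_sum]
  exact Finset.sum_congr rfl (fun i hi => hf i hi g)

theorem s34dtr_T_smul (I : Subgroup S) [I.Normal] [Fintype (S ⧸ I)] {y : B}
    (hy : ∀ g : I, g • y = y) (s : S) : s • s34dtr_T I y = s34dtr_T I y := by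
  unfold s34dtr_T
  rw [Finset.smul_sum]
  refine Fintype.sum_equiv (MulAction.toPerm s) _ _ (fun c => ?_)
  rw [smul_smul]
  refine (s34dtr_smul_eq_of_mem I hy ?_).symm
  rw [← QuotientGroup.eq]
  rw [QuotientGroup.out_eq']
  change _ = s • c
  conv_rhs => rw [← QuotientGroup.out_eq' c]
  rfl

theorem s34dtr_T_mul_left (I : Subgroup S) [Fintype (S ⧸ I)] {z : B} (hz : ∀ s : S, s • z = z)
    (x : B) : s34dtr_T I (z * x) = z * s34dtr_T I x := by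
  unfold s34dtr_T
  rw [Finset.mul_sum]
  refine Finset.sum_congr rfl (fun c _ => ?_)
  rw [smul_mul', hz]

theorem s34dtr_T_add (I : Subgroup S) [Fintype (S ⧸ I)] (x x' : B) :
    s34dtr_T I (x + x') = s34dtr_T I x + s34dtr_T I x' := by
  unfold s34dtr_T
  rw [← Finset.sum_add_distrib]
  refine Finset.sum_congr rfl (fun c _ => ?_)
  rw [smul_add]

theorem s34dtr_T_mem (I : Subgroup S) [Fintype (S ⧸ I)] (𝔐 : Ideal B)
    (hfix : ∀ s : S, ∀ z ∈ 𝔐, s • z ∈ 𝔐) {x : B} (hx : x ∈ 𝔐) : s34dtr_T I x ∈ 𝔐 := by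
  unfold s34dtr_T
  exact Ideal.sum_mem _ (fun c _ => hfix _ _ hx)

/-- the ring endomorphism of the residue ring induced by `s`. -/
noncomputable def s34dtr_chi (𝔐 : Ideal B) (hfix : ∀ s : S, ∀ z ∈ 𝔐, s • z ∈ 𝔐) (s : S) :
    (B ⧸ 𝔐) →+* (B ⧸ 𝔐) :=
  Ideal.quotientMap 𝔐 (MulSemiringAction.toRingHom S B s) (fun z hz => hfix s z hz)

theorem s34dtr_chi_mk (𝔐 : Ideal B) (hfix : ∀ s : S, ∀ z ∈ 𝔐, s • z ∈ 𝔐) (s : S) (y : B) :
    s34dtr_chi 𝔐 hfix s (Ideal.Quotient.mk 𝔐 y) = Ideal.Quotient.mk 𝔐 (s • y) := by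
  rfl

/-- Dedekind independence, in lifted form. -/
theorem s34dtr_exists_lift (I : Subgroup S) [Fintype (S ⧸ I)] (𝔐 : Ideal B) [𝔐.IsMaximal]
    (hfix : ∀ s : S, ∀ z ∈ 𝔐, s • z ∈ 𝔐)
    (hI : ∀ s : S, s ∈ I ↔ ∀ y : B, s • y - y ∈ 𝔐)
    (hres : ∀ y : B, ∃ y₀ : B, (∀ g : I, g • y₀ = y₀) ∧ y - y₀ ∈ 𝔐)
    (e : S ⧸ I → B) (c₀ : S ⧸ I) (he : e c₀ ∉ 𝔐) :
    ∃ y : B, (∀ g : I, g • y = y) ∧
      ∑ c : S ⧸ I, e c * ((Quotient.out c : S) • y) ∉ 𝔐 := by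
  classical
  set χ : S ⧸ I → ((B ⧸ 𝔐) →* (B ⧸ 𝔐)) :=
    fun c => ((s34dtr_chi 𝔐 hfix (Quotient.out c : S) : (B ⧸ 𝔐) →+* (B ⧸ 𝔐)) :
      (B ⧸ 𝔐) →* (B ⧸ 𝔐)) with hχ
  have hχmk : ∀ (c : S ⧸ I) (y : B),
      χ c (Ideal.Quotient.mk 𝔐 y) = Ideal.Quotient.mk 𝔐 ((Quotient.out c : S) • y) :=
    fun c y => s34dtr_chi_mk 𝔐 hfix _ y
  have hinj : Function.Injective χ := by
    intro c c' hcc
    have key : (Quotient.out c : S)⁻¹ * (Quotient.out c' : S) ∈ I := by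
      rw [hI]
      intro y
      have h1 : χ c (Ideal.Quotient.mk 𝔐 y) = χ c' (Ideal.Quotient.mk 𝔐 y) := by rw [hcc]
      rw [hχmk, hχmk] at h1
      have h2 : (Quotient.out c : S) • y - (Quotient.out c' : S) • y ∈ 𝔐 :=
        Ideal.Quotient.eq.mp h1
      have h3 := hfix (Quotient.out c : S)⁻¹ _ h2
      have h4 : (Quotient.out c : S)⁻¹ • ((Quotient.out c : S) • y - (Quotient.out c' : S) • y)
          = -(((Quotient.out c : S)⁻¹ * (Quotient.out c' : S)) • y - y) := by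
        rw [smul_sub, inv_smul_smul, smul_smul]
        ring
      rw [h4] at h3
      exact (neg_mem_iff (H := 𝔐)).mp h3
    have h5 := QuotientGroup.eq.mpr key
    rw [QuotientGroup.out_eq', QuotientGroup.out_eq'] at h5
    exact h5
  have hli : LinearIndependent (B ⧸ 𝔐) (fun c : S ⧸ I => (χ c : (B ⧸ 𝔐) → (B ⧸ 𝔐))) :=
    (linearIndependent_monoidHom (B ⧸ 𝔐) (B ⧸ 𝔐)).comp χ hinj
  have hex : ∃ v : B ⧸ 𝔐, ∑ c : S ⧸ I, Ideal.Quotient.mk 𝔐 (e c) * χ c v ≠ 0 := by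
    by_contra hcon0
    have hcon : ∀ v : B ⧸ 𝔐, ∑ c : S ⧸ I, Ideal.Quotient.mk 𝔐 (e c) * χ c v = 0 :=
      fun v => by_contra (fun hv => hcon0 ⟨v, hv⟩)
    have h0 : ∑ c : S ⧸ I, (Ideal.Quotient.mk 𝔐 (e c)) • (χ c : (B ⧸ 𝔐) → (B ⧸ 𝔐)) = 0 := by
      funext v
      simp only [Finset.sum_apply, Pi.smul_apply, smul_eq_mul, Pi.zero_apply]
      exact hcon v
    have h6 := Fintype.linearIndependent_iff.mp hli _ h0 c₀
    exact he (Ideal.Quotient.eq_zero_iff_mem.mp h6)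
  obtain ⟨v, hv⟩ := hex
  obtain ⟨y', rfl⟩ := Ideal.Quotient.mk_surjective v
  obtain ⟨y, hy, hyy⟩ := hres y'
  refine ⟨y, hy, fun hmem => hv ?_⟩
  have h7 : Ideal.Quotient.mk 𝔐 y' = Ideal.Quotient.mk 𝔐 y := Ideal.Quotient.eq.mpr hyy
  rw [h7]
  have h8 := Ideal.Quotient.eq_zero_iff_mem.mpr hmem
  rw [map_sum] at h8
  rw [← h8]
  refine Finset.sum_congr rfl (fun c _ => ?_)
  rw [map_mul, hχmk]

/-- descent of relations: `I`-invariant local generation at the `S`-invariant elements gives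
`S`-invariant local generation. -/
theorem s34dtr_descend (I : Subgroup S) [I.Normal] [Fintype (S ⧸ I)] (𝔐 : Ideal B) [𝔐.IsMaximal]
    (hfix : ∀ s : S, ∀ z ∈ 𝔐, s • z ∈ 𝔐)
    (hI : ∀ s : S, s ∈ I ↔ ∀ y : B, s • y - y ∈ 𝔐)
    (hres : ∀ y : B, ∃ y₀ : B, (∀ g : I, g • y₀ = y₀) ∧ y - y₀ ∈ 𝔐)
    (π : B) (hπ : ∀ s : S, s • π = π) (u : B) (hu : ∀ s : S, s • u = u) (hu𝔐 : u ∈ 𝔐)
    (hgen : ∀ z ∈ 𝔐, (∀ s : S, s • z = z) →
      ∃ a b c : B, (∀ g : I, g • a = a) ∧ (∀ g : I, g • b = b) ∧ (∀ g : I, g • c = c) ∧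
        a ∉ 𝔐 ∧ a * z = π * b + u * c) :
    InvLocGen S 𝔐 π u := by
  refine ⟨hu, hu𝔐, fun z hz𝔐 hz => ?_⟩
  obtain ⟨a, b, c, ha, hb, hc, ha𝔐, heq⟩ := hgen z hz𝔐 hz
  have he : (fun c : S ⧸ I => (Quotient.out c : S) • a) ((1 : S) : S ⧸ I) ∉ 𝔐 := by
    intro hmem
    have h1 := hfix (Quotient.out (((1 : S) : S ⧸ I)) : S)⁻¹ _ hmem
    rw [inv_smul_smul] at h1
    exact ha𝔐 h1
  obtain ⟨y, hy, hy𝔐⟩ := s34dtr_exists_lift I 𝔐 hfix hI hres
    (fun c : S ⧸ I => (Quotient.out c : S) • a) _ he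
  refine ⟨s34dtr_T I (a * y), s34dtr_T I (b * y), s34dtr_T I (c * y),
    s34dtr_T_smul I (s34dtr_inv_mul I ha hy), s34dtr_T_smul I (s34dtr_inv_mul I hb hy),
    s34dtr_T_smul I (s34dtr_inv_mul I hc hy), ?_, ?_⟩
  · have h2 : s34dtr_T I (a * y) = ∑ c : S ⧸ I, (Quotient.out c : S) • a *
        ((Quotient.out c : S) • y) := by
      unfold s34dtr_T
      exact Finset.sum_congr rfl (fun c _ => smul_mul' _ _ _)
    rw [h2]
    exact hy𝔐
  · rw [← s34dtr_T_mul_left I hπ, ← s34dtr_T_mul_left I hu, ← s34dtr_T_add,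
      mul_comm (s34dtr_T I (a * y)) z, ← s34dtr_T_mul_left I hz]
    congr 1
    linear_combination y * heq

end

/-- (D2) the trace step of the norm descent. -/
theorem invLocGen_trace {B : Type*} [CommRing B] (S : Type*) [Group S] [Finite S]
    [MulSemiringAction S B] (I : Subgroup S) [I.Normal] (𝔐 : Ideal B) [𝔐.IsMaximal]
    (hfix : ∀ s : S, ∀ z ∈ 𝔐, s • z ∈ 𝔐)
    (hI : ∀ s : S, s ∈ I ↔ ∀ y : B, s • y - y ∈ 𝔐)
    (hres : ∀ y : B, ∃ y₀ : B, (∀ g : I, g • y₀ = y₀) ∧ y - y₀ ∈ 𝔐)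
    (π : B) (hπ : ∀ s : S, s • π = π)
    {u₁ : B} (h : InvLocGen I 𝔐 π u₁) :
    ∃ u : B, InvLocGen S 𝔐 π u := by
  classical
  let _ : Fintype (S ⧸ I) := Fintype.ofFinite _
  obtain ⟨hu₁inv, hu₁mem, hu₁gen⟩ := h
  have h1𝔐 : (1 : B) ∉ 𝔐 := (Ideal.ne_top_iff_one 𝔐).mp (Ideal.IsMaximal.ne_top inferInstance)
  have hc₀out : (Quotient.out (((1 : S) : S ⧸ I)) : S) ∈ I := by
    have h1 : ((Quotient.out (((1 : S) : S ⧸ I)) : S) : S ⧸ I) = ((1 : S) : S ⧸ I) :=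
      QuotientGroup.out_eq' _
    have h2 := QuotientGroup.eq.mp h1.symm
    simpa using h2
  have hdata : ∀ c : S ⧸ I, ∃ a b d : B, (∀ g : I, g • a = a) ∧ (∀ g : I, g • b = b) ∧
      (∀ g : I, g • d = d) ∧ a ∉ 𝔐 ∧ a * ((Quotient.out c : S) • u₁) = π * b + u₁ * d ∧
      (c = ((1 : S) : S ⧸ I) → d ∉ 𝔐) := by
    intro c
    by_cases hc : c = ((1 : S) : S ⧸ I)
    · refine ⟨1, 0, 1, fun g => smul_one g, fun g => smul_zero g, fun g => smul_one g, h1𝔐, ?_,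
        fun _ => h1𝔐⟩
      have h3 : (Quotient.out c : S) • u₁ = u₁ := by
        rw [hc]
        exact hu₁inv ⟨_, hc₀out⟩
      rw [h3]
      ring
    · obtain ⟨a, b, d, ha, hb, hd, ha', heq⟩ := hu₁gen ((Quotient.out c : S) • u₁)
        (hfix _ _ hu₁mem) (s34dtr_inv_smul I hu₁inv _)
      exact ⟨a, b, d, ha, hb, hd, ha', heq, fun h => absurd h hc⟩
  choose a b d ha hb hd ha' heq hd₀ using hdata
  set P : S ⧸ I → B := fun c => ∏ c' ∈ Finset.univ.erase c, a c' with hP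
  have hPinv : ∀ c, ∀ g : I, g • P c = P c := fun c g =>
    s34dtr_inv_prod I _ _ (fun i _ => ha i) g
  have hP𝔐 : ∀ c, P c ∉ 𝔐 := by
    intro c hmem
    obtain ⟨i, _, hi⟩ := Ideal.IsPrime.prod_mem_iff.mp hmem
    exact ha' i hi
  have hAP : ∀ c, a c * P c = ∏ c', a c' := fun c =>
    Finset.mul_prod_erase Finset.univ a (Finset.mem_univ c)
  have hAinv : ∀ g : I, g • (∏ c', a c') = ∏ c', a c' := fun g =>
    s34dtr_inv_prod I _ _ (fun i _ => ha i) g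
  have hA𝔐 : (∏ c', a c') ∉ 𝔐 := by
    intro hmem
    obtain ⟨i, _, hi⟩ := Ideal.IsPrime.prod_mem_iff.mp hmem
    exact ha' i hi
  have he : (fun c : S ⧸ I => P c * d c) ((1 : S) : S ⧸ I) ∉ 𝔐 := by
    intro hmem
    rcases (Ideal.IsMaximal.isPrime inferInstance).mem_or_mem hmem with h4 | h4
    · exact hP𝔐 _ h4
    · exact hd₀ _ rfl h4
  obtain ⟨w, hw, hδ𝔐⟩ := s34dtr_exists_lift I 𝔐 hfix hI hres (fun c : S ⧸ I => P c * d c) _ he
  set δ : B := ∑ c : S ⧸ I, P c * d c * ((Quotient.out c : S) • w) with hδ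
  set β : B := ∑ c : S ⧸ I, P c * b c * ((Quotient.out c : S) • w) with hβ
  have hδinv : ∀ g : I, g • δ = δ := fun g =>
    s34dtr_inv_sum I _ _ (fun c _ => s34dtr_inv_mul I (s34dtr_inv_mul I (hPinv c) (hd c))
      (s34dtr_inv_smul I hw _)) g
  have hβinv : ∀ g : I, g • β = β := fun g =>
    s34dtr_inv_sum I _ _ (fun c _ => s34dtr_inv_mul I (s34dtr_inv_mul I (hPinv c) (hb c))
      (s34dtr_inv_smul I hw _)) g
  have hwu : ∀ g : I, g • (w * u₁) = w * u₁ := s34dtr_inv_mul I hw hu₁inv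
  have hAu : (∏ c', a c') * s34dtr_T I (w * u₁) = π * β + u₁ * δ := by
    unfold s34dtr_T
    rw [hβ, hδ, Finset.mul_sum, Finset.mul_sum, Finset.mul_sum, ← Finset.sum_add_distrib]
    refine Finset.sum_congr rfl (fun c _ => ?_)
    rw [← hAP c, smul_mul']
    linear_combination (P c * (Quotient.out c : S) • w) * heq c
  refine ⟨s34dtr_T I (w * u₁), s34dtr_descend I 𝔐 hfix hI hres π hπ _ (s34dtr_T_smul I hwu)
    (s34dtr_T_mem I 𝔐 hfix (Ideal.mul_mem_left _ _ hu₁mem)) (fun z hz𝔐 hz => ?_)⟩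
  obtain ⟨a₁, b₁, c₁, ha₁, hb₁, hc₁, ha₁𝔐, heq₁⟩ := hu₁gen z hz𝔐 (fun g => hz (g : S))
  refine ⟨δ * a₁, δ * b₁ - β * c₁, (∏ c', a c') * c₁, s34dtr_inv_mul I hδinv ha₁, ?_,
    s34dtr_inv_mul I hAinv hc₁, ?_, ?_⟩
  · intro g
    rw [smul_sub, s34dtr_inv_mul I hδinv hb₁, s34dtr_inv_mul I hβinv hc₁]
  · intro hmem
    rcases (Ideal.IsMaximal.isPrime inferInstance).mem_or_mem hmem with h4 | h4
    · exact hδ𝔐 h4
    · exact ha₁𝔐 h4
  · linear_combination δ * heq₁ - c₁ * hAu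

end Fermat.Agent.S34
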