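import Mathlib
import Fermat.Agent.S34.AbsLP

/-!
# P19 (S34), G3 dictionary, slice P (second team): a `Λ`-point from a rational residue field

`s34dict_point_of_residue_B`: a horizontal prime `𝔔` of `Bη` through a maximal ideal `𝔪 ∋ π` of
`B` whose residue field is `K` is the kernel of a `Λ`-point `φ : B →ₐ[Λ] Λ` centred at `𝔪`.
-/

set_option autoImplicit false

namespace Fermat.Agent.S34

open IsDedekindDomain

theorem s34dict_point_of_residue_B {Λ K B Bη : Type*} [CommRing Λ] [IsDomain Λ]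
    [IsDiscreteValuationRing Λ] [Field K] [Algebra Λ K] [IsFractionRing Λ K] [CommRing B]
    [Algebra Λ B] [CommRing Bη] [IsDedekindDomain Bη] [Algebra K Bη]
    (ι : B →+* Bη) (hι : ∀ l : Λ, ι (algebraMap Λ B l) = algebraMap K Bη (algebraMap Λ K l))
    (π : Λ) (hπ : Irreducible π) (𝔪 : Ideal B) (h𝔪 : 𝔪.IsMaximal)
    (hπ𝔪 : algebraMap Λ B π ∈ 𝔪) (𝔔 : HeightOneSpectrum Bη) (h𝔔 : 𝔔 ∈ absThrough ι 𝔪)
    (hres : ∀ y : Bη, ∃ c : K, y - algebraMap K Bη c ∈ 𝔔.asIdeal) :
    ∃ φ : B →ₐ[Λ] Λ, 𝔪 = Ideal.comap (φ : B →+* Λ) (Ideal.span {π}) ∧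
      ∀ b : B, ι b ∈ 𝔔.asIdeal ↔ φ b = 0 := by
  have h𝔔' : ∀ b : B, ι b ∈ 𝔔.asIdeal → b ∈ 𝔪 := mem_absThrough.mp h𝔔
  have h1𝔪 : (1 : B) ∉ 𝔪 := (Ideal.ne_top_iff_one 𝔪).mp h𝔪.ne_top
  have h1𝔔 : (1 : Bη) ∉ 𝔔.asIdeal := (Ideal.ne_top_iff_one _).mp 𝔔.isPrime.ne_top
  -- constants lying in `𝔔` vanish
  have hU : ∀ c : K, algebraMap K Bη c ∈ 𝔔.asIdeal → c = 0 := by
    intro c hc
    by_contra hc0
    apply h1𝔔
    have h1 : (1 : Bη) = algebraMap K Bη c⁻¹ * algebraMap K Bη c := by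
      rw [← map_mul, inv_mul_cancel₀ hc0, map_one]
    rw [h1]
    exact Ideal.mul_mem_left _ _ hc
  -- the values of the elements of `B` are integral
  have hint : ∀ b : B, ∃ l : Λ, ι b - algebraMap K Bη (algebraMap Λ K l) ∈ 𝔔.asIdeal := by
    intro b
    obtain ⟨c, hc⟩ := hres (ι b)
    by_cases hc0 : c = 0
    · refine ⟨0, ?_⟩
      rw [map_zero, map_zero]
      rw [hc0, map_zero] at hc
      exact hc
    rcases ValuationRing.isInteger_or_isInteger Λ c with ⟨l, hl⟩ | ⟨l', hl'⟩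
    · refine ⟨l, ?_⟩
      rw [hl]
      exact hc
    · by_cases hu : IsUnit l'
      · obtain ⟨u, rfl⟩ := hu
        refine ⟨((u⁻¹ : Λˣ) : Λ), ?_⟩
        have h3 : algebraMap Λ K ((u⁻¹ : Λˣ) : Λ) * algebraMap Λ K (u : Λ) = 1 := by
          rw [← map_mul, Units.inv_mul, map_one]
        rw [hl'] at h3
        have h2 : algebraMap Λ K ((u⁻¹ : Λˣ) : Λ) = c := (mul_inv_eq_one₀ hc0).mp h3
        rw [h2]
        exact hc
      · exfalso
        have h1 : l' ∈ IsLocalRing.maximalIdeal Λ := (IsLocalRing.mem_maximalIdeal _).mpr hu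
        rw [hπ.maximalIdeal_eq, Ideal.mem_span_singleton] at h1
        obtain ⟨l'', rfl⟩ := h1
        have hx : ι (algebraMap Λ B (π * l'') * b - 1) ∈ 𝔔.asIdeal := by
          have h2 : ι (algebraMap Λ B (π * l'') * b - 1) =
              algebraMap K Bη c⁻¹ * (ι b - algebraMap K Bη c) := by
            rw [map_sub, map_mul, map_one, hι, hl', mul_sub, ← map_mul, inv_mul_cancel₀ hc0,
              map_one]
          rw [h2]
          exact Ideal.mul_mem_left _ _ hc
        have h3 : algebraMap Λ B (π * l'') * b - 1 ∈ 𝔪 := h𝔔' _ hx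
        have h4 : algebraMap Λ B (π * l'') * b ∈ 𝔪 := by
          rw [map_mul]
          exact Ideal.mul_mem_right _ _ (Ideal.mul_mem_right _ _ hπ𝔪)
        apply h1𝔪
        have h5 := 𝔪.sub_mem h4 h3
        rwa [sub_sub_cancel] at h5
  choose φ hφ using hint
  have huniq : ∀ (b : B) (l : Λ),
      ι b - algebraMap K Bη (algebraMap Λ K l) ∈ 𝔔.asIdeal → φ b = l := by
    intro b l hl
    have h1 : algebraMap K Bη (algebraMap Λ K (φ b - l)) ∈ 𝔔.asIdeal := by
      have h2 := 𝔔.asIdeal.sub_mem hl (hφ b)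
      have h3 : ι b - algebraMap K Bη (algebraMap Λ K l) -
          (ι b - algebraMap K Bη (algebraMap Λ K (φ b))) =
          algebraMap K Bη (algebraMap Λ K (φ b - l)) := by
        rw [map_sub, map_sub]
        ring
      rwa [h3] at h2
    have h4 : algebraMap Λ K (φ b - l) = 0 := hU _ h1
    have h5 : φ b - l = 0 := (IsFractionRing.injective Λ K) (h4.trans (map_zero _).symm)
    exact sub_eq_zero.mp h5
  have hφ1 : φ 1 = 1 := by
    apply huniq
    rw [map_one, map_one, map_one, sub_self]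
    exact 𝔔.asIdeal.zero_mem
  have hφ0 : φ 0 = 0 := by
    apply huniq
    rw [map_zero, map_zero, map_zero, sub_self]
    exact 𝔔.asIdeal.zero_mem
  have hφmul : ∀ a b : B, φ (a * b) = φ a * φ b := by
    intro a b
    apply huniq
    have h3 : ι (a * b) - algebraMap K Bη (algebraMap Λ K (φ a * φ b)) =
        ι a * (ι b - algebraMap K Bη (algebraMap Λ K (φ b))) +
          algebraMap K Bη (algebraMap Λ K (φ b)) *
            (ι a - algebraMap K Bη (algebraMap Λ K (φ a))) := by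
      rw [map_mul, map_mul, map_mul]
      ring
    rw [h3]
    exact 𝔔.asIdeal.add_mem (Ideal.mul_mem_left _ _ (hφ b)) (Ideal.mul_mem_left _ _ (hφ a))
  have hφadd : ∀ a b : B, φ (a + b) = φ a + φ b := by
    intro a b
    apply huniq
    have h3 : ι (a + b) - algebraMap K Bη (algebraMap Λ K (φ a + φ b)) =
        (ι a - algebraMap K Bη (algebraMap Λ K (φ a))) +
          (ι b - algebraMap K Bη (algebraMap Λ K (φ b))) := by
      rw [map_add, map_add, map_add]
      ring
    rw [h3]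
    exact 𝔔.asIdeal.add_mem (hφ a) (hφ b)
  have hφalg : ∀ l : Λ, φ (algebraMap Λ B l) = l := by
    intro l
    apply huniq
    rw [hι, sub_self]
    exact 𝔔.asIdeal.zero_mem
  let Φ : B →ₐ[Λ] Λ :=
    { toFun := φ
      map_one' := hφ1
      map_mul' := hφmul
      map_zero' := hφ0
      map_add' := hφadd
      commutes' := fun l => hφalg l }
  have hΦ : ∀ b : B, Φ b = φ b := fun _ => rfl
  have hker : ∀ b : B, ι b ∈ 𝔔.asIdeal ↔ φ b = 0 := by
    intro b
    constructor
    · intro hb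
      apply huniq
      rw [map_zero, map_zero, sub_zero]
      exact hb
    · intro hb
      have h1 := hφ b
      rw [hb, map_zero, map_zero, sub_zero] at h1
      exact h1
  refine ⟨Φ, ?_, fun b => hker b⟩
  apply h𝔪.eq_of_le
  · intro htop
    have h1 : (1 : B) ∈ Ideal.comap (Φ : B →+* Λ) (Ideal.span {π}) := by
      rw [htop]
      exact Submodule.mem_top
    rw [Ideal.mem_comap, Ideal.mem_span_singleton] at h1
    have h2 : π ∣ 1 := by
      have h3 : (Φ : B →+* Λ) 1 = 1 := hφ1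
      rwa [h3] at h1
    exact hπ.not_isUnit (isUnit_of_dvd_one h2)
  · intro b hb
    rw [Ideal.mem_comap, Ideal.mem_span_singleton]
    show π ∣ φ b
    by_contra hnd
    have hu : IsUnit (φ b) := by
      by_contra hnu
      apply hnd
      have h1 : φ b ∈ IsLocalRing.maximalIdeal Λ := (IsLocalRing.mem_maximalIdeal _).mpr hnu
      rw [hπ.maximalIdeal_eq, Ideal.mem_span_singleton] at h1
      exact h1
    obtain ⟨l, hl⟩ := isUnit_iff_exists_inv.mp hu
    have hx : φ (b * algebraMap Λ B l - 1) = 0 := by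
      have h1 : Φ (b * algebraMap Λ B l - 1) = Φ b * Φ (algebraMap Λ B l) - Φ 1 := by
        rw [map_sub, map_mul]
      rw [hΦ, hΦ, hΦ, hΦ, hφalg, hφ1, hl, sub_self] at h1
      exact h1
    have h2 : ι (b * algebraMap Λ B l - 1) ∈ 𝔔.asIdeal := (hker _).mpr hx
    have h3 : b * algebraMap Λ B l - 1 ∈ 𝔪 := h𝔔' _ h2
    have h4 : b * algebraMap Λ B l ∈ 𝔪 := Ideal.mul_mem_right _ _ hb
    apply h1𝔪
    have h5 := 𝔪.sub_mem h4 h3
    rwa [sub_sub_cancel] at h5

end Fermat.Agent.S34
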