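import Fermat.Agent.S18.EngineGlobal

/-!
P19 (S34), block ALG, leaf (ENG): the global step of the S18 engine
(`Fermat.Agent.S18.EngineGlobal.eq_zero_or_one_of_locFin`) with the two local-lifting hypotheses
specialised to the given `ε` (note 794 (1): only the lifts of THE idempotent `ε` are available at
a crossing point).  Same proof; the landed S18 file is not modified.
-/

set_option autoImplicit false
set_option linter.unusedSectionVars false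

namespace Fermat.Agent.S34

open Fermat.Agent.S18 Fermat.Agent.S18.EngineGlobal Fermat.Agent.S18.CechAux Polynomial
  IntermediateField

variable {Λ 𝔽 : Type*} [CommRing Λ] [Field 𝔽] [Algebra Λ 𝔽]

/-- **Global step of the engine for one given `ε`.**  As
`EngineGlobal.eq_zero_or_one_of_locFin`, but the local lifts `e₁` (integral over `Λ[x]`) and `e₂`
(integral over `Λ[x']`) are only assumed for the given `ε`. -/
theorem s34_eq_zero_or_one_of_lift [IsNoetherianRing Λ] (π : Λ)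
    (hπ : (Ideal.span {π}).IsMaximal)
    {x x' : 𝔽} (hx : x * x' = 1) (V : Subring 𝔽)
    (hclosed : ∀ y : 𝔽, IsIntegral Λ y → ∃ c : Λ, y = algebraMap Λ 𝔽 c)
    [Module.Finite (Algebra.adjoin Λ {x}) (integralClosure (Algebra.adjoin Λ {x}) 𝔽)]
    (hfinV : ∀ z : 𝔽, IsIntegral (Algebra.adjoin Λ {x}) z → IsIntegral V z)
    (hinfV : ∀ z : 𝔽, IsIntegral (Algebra.adjoin Λ {x'}) z → IsIntegral V z)
    (hKfin : ∀ z δ : 𝔽, IsIntegral (Algebra.adjoin Λ {x}) z → IsIntegral V δ → z = π • δ →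
      IsIntegral (Algebra.adjoin Λ {x}) δ)
    (hKinf : ∀ z δ : 𝔽, IsIntegral (Algebra.adjoin Λ {x'}) z → IsIntegral V δ → z = π • δ →
      IsIntegral (Algebra.adjoin Λ {x'}) δ)
    (hKmid : ∀ z δ : 𝔽, IsIntegral (Algebra.adjoin Λ {x, x'}) z → IsIntegral V δ → z = π • δ →
      IsIntegral (Algebra.adjoin Λ {x, x'}) δ)
    {ε : 𝔽} (hε : IsIntegral V ε) (hε2 : ∃ δ : 𝔽, IsIntegral V δ ∧ ε ^ 2 - ε = π • δ)
    (hL1 : ∃ e : 𝔽, IsIntegral (Algebra.adjoin Λ {x}) e ∧ ∃ δ : 𝔽, IsIntegral V δ ∧ ε - e = π • δ)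
    (hL2 : ∃ e : 𝔽, IsIntegral (Algebra.adjoin Λ {x'}) e ∧
      ∃ δ : 𝔽, IsIntegral V δ ∧ ε - e = π • δ) :
    (∃ δ : 𝔽, IsIntegral V δ ∧ ε = π • δ) ∨ (∃ δ : 𝔽, IsIntegral V δ ∧ ε - 1 = π • δ) := by
  obtain ⟨e₁, he₁, δ₁, hδ₁, h1⟩ := hL1
  obtain ⟨e₂, he₂, δ₂, hδ₂, h2⟩ := hL2
  obtain ⟨δ₀, hδ₀, h0⟩ := hε2
  have he₁V := hfinV e₁ he₁
  have he₂V := hinfV e₂ he₂
  -- `e₁` is idempotent modulo `π S_fin`
  have hid₁ : ∃ a : 𝔽, IsIntegral (Algebra.adjoin Λ {x}) a ∧ e₁ ^ 2 - e₁ = π • a := by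
    have hm : IsIntegral V (δ₀ - (δ₁ * ε + δ₁ * ε) + (ε - e₁) * δ₁ + δ₁) :=
      (((hδ₀.sub ((hδ₁.mul hε).add (hδ₁.mul hε))).add ((hε.sub he₁V).mul hδ₁))).add hδ₁
    have heq : e₁ ^ 2 - e₁ = π • (δ₀ - (δ₁ * ε + δ₁ * ε) + (ε - e₁) * δ₁ + δ₁) := by
      have e1 : e₁ = ε - π • δ₁ := by rw [← h1]; ring
      have e2 : e₁ ^ 2 - e₁ = (ε ^ 2 - ε) - (π • δ₁ * ε + π • δ₁ * ε) + (ε - e₁) * (π • δ₁) +
          π • δ₁ := by
        rw [h1]; rw [e1]; ring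
      rw [e2, h0]
      simp only [Algebra.smul_def]
      ring
    exact ⟨_, hKfin _ _ ((he₁.pow 2).sub he₁) hm heq, heq⟩
  -- `e₂` is idempotent modulo `π S_inf`
  have hid₂ : ∃ a : 𝔽, IsIntegral (Algebra.adjoin Λ {x'}) a ∧ e₂ ^ 2 - e₂ = π • a := by
    have hm : IsIntegral V (δ₀ - (δ₂ * ε + δ₂ * ε) + (ε - e₂) * δ₂ + δ₂) :=
      (((hδ₀.sub ((hδ₂.mul hε).add (hδ₂.mul hε))).add ((hε.sub he₂V).mul hδ₂))).add hδ₂
    have heq : e₂ ^ 2 - e₂ = π • (δ₀ - (δ₂ * ε + δ₂ * ε) + (ε - e₂) * δ₂ + δ₂) := by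
      have e1 : e₂ = ε - π • δ₂ := by rw [← h2]; ring
      have e2 : e₂ ^ 2 - e₂ = (ε ^ 2 - ε) - (π • δ₂ * ε + π • δ₂ * ε) + (ε - e₂) * (π • δ₂) +
          π • δ₂ := by
        rw [h2]; rw [e1]; ring
      rw [e2, h0]
      simp only [Algebra.smul_def]
      ring
    exact ⟨_, hKinf _ _ ((he₂.pow 2).sub he₂) hm heq, heq⟩
  -- `e₁ ≡ e₂` modulo `π S_mid`
  have hmid : ∃ z : 𝔽, IsIntegral (Algebra.adjoin Λ {x, x'}) z ∧ e₁ - e₂ = π • z := by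
    have heq : e₁ - e₂ = π • (δ₂ - δ₁) := by
      have : e₁ - e₂ = (ε - e₂) - (ε - e₁) := by ring
      rw [this, h1, h2, smul_sub]
    exact ⟨_, hKmid _ _ ((isIntegral_adjoin_mono (by simp) he₁).sub
      (isIntegral_adjoin_mono (by simp) he₂)) (hδ₂.sub hδ₁) heq, heq⟩
  rcases eq_zero_or_one_of_finite π hπ hx hclosed he₁ he₂ hid₁ hid₂ hmid with
    ⟨a, ha, hea⟩ | ⟨a, ha, hea⟩
  · left
    refine ⟨a + δ₁, (hfinV a ha).add hδ₁, ?_⟩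
    rw [smul_add, ← hea, ← h1]; ring
  · right
    refine ⟨a + δ₁, (hfinV a ha).add hδ₁, ?_⟩
    rw [smul_add, ← hea, ← h1]; ring

end Fermat.Agent.S34
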