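import Mathlib

/-!
# S34, block GAL-B, leaf DESC

`s34_descent_pow`: if `T ^ m = z` with `z` in a subfield `F` of `𝔽`, and `T` is congruent to an
`m`-th root of unity modulo `π` over a subring `V` of `F` (with `π` a non-unit and `m` a unit of
the base ring `Λ`), then `z` is an `m`-th power in `F`.
-/

set_option autoImplicit false

namespace Fermat.Agent.S34

open Polynomial

theorem s34_descent_pow {Λ K F 𝔽 : Type*} [CommRing Λ] [IsDomain Λ] [Field K] [Algebra Λ K]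
    [IsFractionRing Λ K] [Field F] [Field 𝔽] [Algebra F 𝔽] [Algebra K 𝔽] [Algebra Λ 𝔽]
    [IsScalarTower Λ K 𝔽]
    (π : Λ) (hπ : ¬ IsUnit π) (hπ0 : π ≠ 0) (m : ℕ) (hm : IsUnit (m : Λ)) (ζ : Λ)
    (hζ : IsPrimitiveRoot ζ m)
    (V : Subring 𝔽) (hVF : ∀ v ∈ V, ∃ f : F, algebraMap F 𝔽 f = v)
    (hKF : ∀ c : K, ∃ f : F, algebraMap F 𝔽 f = algebraMap K 𝔽 c)
    (hVK : ∀ c : K, IsIntegral V (algebraMap K 𝔽 c) → ∃ l : Λ, algebraMap Λ K l = c)
    (z : F) (T : 𝔽) (hT : T ^ m = algebraMap F 𝔽 z) (hTi : IsIntegral V T⁻¹)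
    (a : ℕ) (hcong : ∃ δ : 𝔽, IsIntegral V δ ∧ T - algebraMap Λ 𝔽 (ζ ^ a) = π • δ) :
    ∃ w : F, w ^ m = z := by
  classical
  have hinjF : Function.Injective (algebraMap F 𝔽) := (algebraMap F 𝔽).injective
  by_cases hTF : T ∈ (algebraMap F 𝔽).range
  · obtain ⟨w, hw⟩ := hTF
    refine ⟨w, hinjF ?_⟩
    rw [map_pow, hw, hT]
  exfalso
  have hm0 : m ≠ 0 := by
    rintro rfl
    rw [Nat.cast_zero] at hm
    exact not_isUnit_zero hm
  obtain ⟨m', rfl⟩ := Nat.exists_eq_succ_of_ne_zero hm0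
  have hT0 : T ≠ 0 := by
    rintro rfl
    exact hTF ⟨0, map_zero _⟩
  -- injectivity of the structure maps
  have hinjΛK : Function.Injective (algebraMap Λ K) := IsFractionRing.injective Λ K
  have hinjΛ : Function.Injective (algebraMap Λ 𝔽) := by
    rw [IsScalarTower.algebraMap_eq Λ K 𝔽]
    exact (algebraMap K 𝔽).injective.comp hinjΛK
  have hζ'prim : IsPrimitiveRoot (algebraMap Λ 𝔽 ζ) (m' + 1) := hζ.map_of_injective hinjΛ
  -- the minimal polynomial of `T` over `F`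
  have hTint : IsIntegral F T := by
    refine ⟨X ^ (m' + 1) - C z, monic_X_pow_sub_C z (Nat.succ_ne_zero m'), ?_⟩
    simp [hT]
  have hdeg : 2 ≤ (minpoly F T).natDegree := (minpoly.two_le_natDegree_iff hTint).mpr hTF
  have hμdvd : minpoly F T ∣ X ^ (m' + 1) - C z := minpoly.dvd F T (by simp [hT])
  -- factorisation of `X ^ m - z` over `𝔽`
  have hfac : (X ^ (m' + 1) - C (algebraMap F 𝔽 z) : 𝔽[X]) =
      ∏ i ∈ Finset.range (m' + 1), (X - C ((algebraMap Λ 𝔽 ζ) ^ i * T)) :=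
    X_pow_sub_C_eq_prod hζ'prim (Nat.succ_pos m') hT
  rw [Finset.prod_range_succ', pow_zero, one_mul] at hfac
  have hpdvd : (minpoly F T).map (algebraMap F 𝔽) ∣
      (∏ i ∈ Finset.range m', (X - C ((algebraMap Λ 𝔽 ζ) ^ (i + 1) * T))) * (X - C T) := by
    rw [← hfac]
    have h := Polynomial.map_dvd (algebraMap F 𝔽) hμdvd
    simpa using h
  have hroot : ((minpoly F T).map (algebraMap F 𝔽)).IsRoot T := by
    rw [IsRoot.def, eval_map_algebraMap]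
    exact minpoly.aeval F T
  obtain ⟨Q, hQ⟩ := dvd_iff_isRoot.mpr hroot
  have hXT : (X - C T : 𝔽[X]) ≠ 0 := X_sub_C_ne_zero T
  have hQdvd : Q ∣ ∏ i ∈ Finset.range m', (X - C ((algebraMap Λ 𝔽 ζ) ^ (i + 1) * T)) := by
    rw [hQ, mul_comm _ (X - C T)] at hpdvd
    exact (mul_dvd_mul_iff_left hXT).mp hpdvd
  have hR0 : (∏ i ∈ Finset.range m', (X - C ((algebraMap Λ 𝔽 ζ) ^ (i + 1) * T)) : 𝔽[X]) ≠ 0 :=
    Finset.prod_ne_zero_iff.mpr (fun i _ => X_sub_C_ne_zero _)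
  have hRsplits : (∏ i ∈ Finset.range m', (X - C ((algebraMap Λ 𝔽 ζ) ^ (i + 1) * T)) :
      𝔽[X]).Splits := Splits.prod (fun i _ => Splits.X_sub_C _)
  have hQsplits : Q.Splits := hRsplits.of_dvd hR0 hQdvd
  have hμmap0 : (minpoly F T).map (algebraMap F 𝔽) ≠ 0 :=
    (Polynomial.map_ne_zero_iff hinjF).mpr (minpoly.ne_zero hTint)
  have hQ0 : Q ≠ 0 := by
    rintro rfl
    rw [mul_zero] at hQ
    exact hμmap0 hQ
  have hQdeg : Q.degree ≠ 0 := by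
    intro h0
    have h1 : Q.natDegree = 0 := natDegree_eq_of_degree_eq_some h0
    have h2 : ((minpoly F T).map (algebraMap F 𝔽)).natDegree = 1 + Q.natDegree := by
      rw [hQ, natDegree_mul hXT hQ0, natDegree_X_sub_C]
    rw [natDegree_map, h1] at h2
    omega
  obtain ⟨T', hT'⟩ := hQsplits.exists_eval_eq_zero hQdeg
  have hRT' : (∏ i ∈ Finset.range m', (X - C ((algebraMap Λ 𝔽 ζ) ^ (i + 1) * T)) :
      𝔽[X]).eval T' = 0 := by
    obtain ⟨S, hS⟩ := hQdvd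
    rw [hS, eval_mul, hT', zero_mul]
  rw [eval_prod, Finset.prod_eq_zero_iff] at hRT'
  obtain ⟨i, hi, hi0⟩ := hRT'
  rw [eval_sub, eval_X, eval_C, sub_eq_zero] at hi0
  have hμT' : aeval T' (minpoly F T) = 0 := by
    rw [← eval_map_algebraMap, hQ, eval_mul, hT', mul_zero]
  -- conjugation principle
  have hconj : ∀ Qf : F[X], aeval T Qf = 0 → aeval T' Qf = 0 := by
    intro Qf h
    obtain ⟨S, rfl⟩ := minpoly.dvd F T h
    rw [map_mul, hμT', zero_mul]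
  -- the congruence, as a polynomial expression in `T` over `F`
  obtain ⟨δ, hδint, hδ⟩ := hcong
  rw [Algebra.smul_def] at hδ
  have hπ' : algebraMap Λ 𝔽 π ≠ 0 := by
    intro h
    exact hπ0 (hinjΛ (by rw [h, map_zero]))
  obtain ⟨πF, hπF⟩ := hKF (algebraMap Λ K π)
  obtain ⟨ζF, hζF⟩ := hKF (algebraMap Λ K (ζ ^ a))
  rw [← IsScalarTower.algebraMap_apply Λ K 𝔽] at hπF hζF
  have hNeval : ∀ t : 𝔽, aeval t (C πF⁻¹ * (X - C ζF) : F[X]) =
      (algebraMap Λ 𝔽 π)⁻¹ * (t - algebraMap Λ 𝔽 (ζ ^ a)) := by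
    intro t
    simp only [map_mul, map_sub, aeval_C, aeval_X, map_inv₀, hπF, hζF]
  have hδeq : aeval T (C πF⁻¹ * (X - C ζF) : F[X]) = δ := by
    rw [hNeval, hδ, inv_mul_cancel_left₀ hπ']
  -- transport of the integrality relation of `δ`
  obtain ⟨G, hGmonic, hGδ⟩ := id hδint
  have hlift : G.map (algebraMap V 𝔽) ∈ lifts (algebraMap F 𝔽) := by
    rw [lifts_iff_coeff_lifts]
    intro n
    rw [coeff_map]
    obtain ⟨f, hf⟩ := hVF (G.coeff n) (G.coeff n).2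
    exact ⟨f, hf⟩
  obtain ⟨GF, hGF⟩ := (mem_lifts _).mp hlift
  have hGF_eval : ∀ t : 𝔽, aeval t GF = eval₂ (algebraMap V 𝔽) t G := by
    intro t
    rw [← eval_map_algebraMap, hGF, eval_map]
  have h1 : aeval T (GF.comp (C πF⁻¹ * (X - C ζF))) = 0 := by
    rw [aeval_comp, hδeq, hGF_eval, hGδ]
  have h2 := hconj _ h1
  rw [aeval_comp, hGF_eval] at h2
  have hδ'int : IsIntegral V (aeval T' (C πF⁻¹ * (X - C ζF) : F[X])) := ⟨G, hGmonic, h2⟩
  -- the difference of the two conjugates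
  have hω : algebraMap Λ 𝔽 (ζ ^ (i + 1)) = (algebraMap Λ 𝔽 ζ) ^ (i + 1) := map_pow _ _ _
  have hdiff : (aeval T' (C πF⁻¹ * (X - C ζF) : F[X]) - δ) * T⁻¹ =
      (algebraMap Λ 𝔽 π)⁻¹ * (algebraMap Λ 𝔽 (ζ ^ (i + 1)) - 1) := by
    rw [← hδeq, hNeval, hNeval, hi0, hω]
    field_simp
    ring
  have hK : algebraMap K 𝔽 ((algebraMap Λ K π)⁻¹ * (algebraMap Λ K (ζ ^ (i + 1)) - 1)) =
      (algebraMap Λ 𝔽 π)⁻¹ * (algebraMap Λ 𝔽 (ζ ^ (i + 1)) - 1) := by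
    rw [map_mul, map_inv₀, map_sub, map_one, ← IsScalarTower.algebraMap_apply Λ K 𝔽,
      ← IsScalarTower.algebraMap_apply Λ K 𝔽]
  have hint : IsIntegral V
      (algebraMap K 𝔽 ((algebraMap Λ K π)⁻¹ * (algebraMap Λ K (ζ ^ (i + 1)) - 1))) := by
    rw [hK, ← hdiff]
    exact (hδ'int.sub hδint).mul hTi
  obtain ⟨l, hl⟩ := hVK _ hint
  have hπK : algebraMap Λ K π ≠ 0 := fun h => hπ0 (hinjΛK (by rw [h, map_zero]))
  have hdvd1 : π ∣ ζ ^ (i + 1) - 1 := by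
    refine ⟨l, hinjΛK ?_⟩
    rw [map_mul, hl, mul_inv_cancel_left₀ hπK, map_sub, map_one]
  -- `1 - ζ ^ (i + 1)` divides `m`
  have hprod := hζ.prod_one_sub_pow_eq_order
  have hdvd2 : (1 - ζ ^ (i + 1)) ∣ ((m' + 1 : ℕ) : Λ) := by
    rw [Nat.cast_add, Nat.cast_one, ← hprod]
    exact Finset.dvd_prod_of_mem (fun k => 1 - ζ ^ (k + 1)) hi
  have hdvd3 : π ∣ 1 - ζ ^ (i + 1) := by
    rw [← neg_sub]
    exact dvd_neg.mpr hdvd1
  exact hπ (isUnit_of_dvd_unit (hdvd3.trans hdvd2) hm)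

end Fermat.Agent.S34
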