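import Mathlib
import Fermat.Prelude.Def_FLTPrelim_Ramification
import Fermat.Agent.S37.FrobBasic
import Fermat.Agent.S42.Cyclo

/-! P19 (S34) block GAL, LEAF I, second team (B), file 1: inertia preserves the valuation
subring, and the second difference of a constant is a nonunit. -/

set_option autoImplicit false

namespace Fermat.Agent.S34

local notation "Qb" => AlgebraicClosure ℚ

section General

variable {K L : Type*} [Field K] [Field L] [Algebra K L] (A : ValuationSubring L)

open scoped Pointwise in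
/-- The decomposition group preserves the valuation subring. -/
theorem s34giB1_mem_of_decomp {τ : L ≃ₐ[K] L} (hτ : τ ∈ A.decompositionSubgroup K) {a : L}
    (ha : a ∈ A) : τ a ∈ A := by
  have h1 : τ • A = A := hτ
  have h2 : τ • a ∈ τ • A := ValuationSubring.smul_mem_pointwise_smul τ a A ha
  rw [h1] at h2
  exact h2

/-- The decomposition group preserves the nonunits. -/
theorem s34giB1_nonunits_of_decomp {τ : L ≃ₐ[K] L} (hτ : τ ∈ A.decompositionSubgroup K) {a : L}
    (ha : a ∈ A.nonunits) : τ a ∈ A.nonunits := by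
  rw [A.mem_nonunits_iff_or] at ha ⊢
  rcases ha with rfl | h
  · left
    exact map_zero τ
  · right
    intro h3
    apply h
    have h4 := s34giB1_mem_of_decomp A (inv_mem hτ) h3
    have h5 : τ⁻¹ ((τ a)⁻¹) = a⁻¹ := by
      rw [map_inv₀]
      congr 1
      exact τ.symm_apply_apply a
    rw [h5] at h4
    exact h4

/-- The decomposition group preserves strict inequalities of valuations. -/
theorem s34giB1_val_lt_of_decomp {τ : L ≃ₐ[K] L} (hτ : τ ∈ A.decompositionSubgroup K) {x y : L}
    (h : A.valuation x < A.valuation y) : A.valuation (τ x) < A.valuation (τ y) := by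
  have hvy : 0 < A.valuation y := lt_of_le_of_lt zero_le h
  have hy : y ≠ 0 := by
    rintro rfl
    rw [map_zero] at hvy
    exact lt_irrefl _ hvy
  have hτy : τ y ≠ 0 := (map_ne_zero τ).2 hy
  have hvτy : 0 < A.valuation (τ y) := by
    rw [zero_lt_iff]
    exact (A.valuation.ne_zero_iff).2 hτy
  have h1 : x / y ∈ A.nonunits := by
    rw [A.mem_nonunits_iff, map_div₀]
    exact (div_lt_one₀ hvy).2 h
  have h2 := s34giB1_nonunits_of_decomp A hτ h1
  rw [A.mem_nonunits_iff, map_div₀, map_div₀] at h2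
  exact (div_lt_one₀ hvτy).1 h2

/-- The decomposition group does not increase the valuation of an algebraic element. -/
theorem s34giB1_val_le_of_decomp {τ : L ≃ₐ[K] L} (hτ : τ ∈ A.decompositionSubgroup K) {c : L}
    (hc : IsIntegral K c) : A.valuation (τ c) ≤ A.valuation c := by
  by_contra hcon
  rw [not_le] at hcon
  have e : ∀ j : ℕ, (τ ^ (j + 1)) c = τ ((τ ^ j) c) := fun j => by
    rw [pow_succ', AlgEquiv.mul_apply]
  have hstep : ∀ i : ℕ, A.valuation ((τ ^ i) c) < A.valuation ((τ ^ (i + 1)) c) := by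
    intro i
    induction i with
    | zero => simpa using hcon
    | succ i ih =>
      rw [e i] at ih
      rw [e (i + 1), e i]
      exact s34giB1_val_lt_of_decomp A hτ ih
  have hmono : StrictMono (fun i : ℕ => A.valuation ((τ ^ i) c)) :=
    strictMono_nat_of_lt_succ hstep
  have hinj : Function.Injective (fun i : ℕ => (τ ^ i) c) :=
    fun i j h => hmono.injective (congrArg A.valuation h)
  have hfin : (Set.range (fun i : ℕ => (τ ^ i) c)).Finite := by
    apply Set.Finite.subset ((minpoly K c).rootSet_finite L)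
    rintro _ ⟨i, rfl⟩
    rw [Polynomial.mem_rootSet]
    refine ⟨minpoly.ne_zero hc, ?_⟩
    show Polynomial.aeval ((τ ^ i) c) (minpoly K c) = 0
    rw [Polynomial.aeval_algHom_apply, minpoly.aeval, map_zero]
  exact Set.infinite_range_of_injective hinj hfin

/-- The decomposition group preserves the valuation of an algebraic element. -/
theorem s34giB1_val_eq_of_decomp {τ : L ≃ₐ[K] L} (hτ : τ ∈ A.decompositionSubgroup K) {c : L}
    (hc : IsIntegral K c) : A.valuation (τ c) = A.valuation c := by
  apply le_antisymm (s34giB1_val_le_of_decomp A hτ hc)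
  have h := s34giB1_val_le_of_decomp A (inv_mem hτ) (hc.map (τ : L →ₐ[K] L))
  have h5 : τ⁻¹ (τ c) = c := τ.symm_apply_apply c
  rw [AlgEquiv.coe_toAlgHom, h5] at h
  exact h

/-- Second difference of an algebraic constant under inertia. -/
theorem s34giB1_secondDiff {τ τ' : L ≃ₐ[K] L} (hτ : τ ∈ A.inertiaSubgroupIn K)
    (hτ' : τ' ∈ A.inertiaSubgroupIn K) {c : L} (hc : c ≠ 0) (hci : IsIntegral K c) :
    τ' (τ c / c) / (τ c / c) - 1 ∈ A.nonunits := by
  have hτd := Fermat.Agent.S37.inertiaSubgroupIn_le_decomposition hτ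
  have hv : A.valuation (τ c / c) = 1 := by
    rw [map_div₀, s34giB1_val_eq_of_decomp A hτd hci]
    exact div_self ((A.valuation.ne_zero_iff).2 hc)
  have hmem : τ c / c ∈ A := by
    rw [← A.valuation_le_one_iff, hv]
  have hne : τ c / c ≠ 0 := div_ne_zero ((map_ne_zero τ).2 hc) hc
  have h1 := Fermat.Agent.S42.cy_inertia_sub_mem_nonunits hτ' hmem
  have h2 : τ' (τ c / c) / (τ c / c) - 1 = (τ' (τ c / c) - τ c / c) / (τ c / c) := by
    rw [sub_div, div_self hne]
  rw [h2, A.mem_nonunits_iff, map_div₀, hv, div_one]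
  exact A.mem_nonunits_iff.1 h1

end General

theorem s34giB1_isIntegral (c : Qb) : IsIntegral ℚ c := by
  have h : (DivisionRing.toRatAlgebra : Algebra ℚ Qb) = AlgebraicClosure.instAlgebra ℚ :=
    Subsingleton.elim _ _
  rw [h]
  exact Algebra.IsIntegral.isIntegral c

theorem s34gal_inertia_mem_B (A : ValuationSubring Qb) {τ : Qb ≃ₐ[ℚ] Qb}
    (hτ : τ ∈ A.inertiaSubgroupIn ℚ) {a : Qb} (ha : a ∈ A) : τ a ∈ A :=
  s34giB1_mem_of_decomp A (Fermat.Agent.S37.inertiaSubgroupIn_le_decomposition hτ) ha

theorem s34gal_const_secondDiff_B (A : ValuationSubring Qb) {τ τ' : Qb ≃ₐ[ℚ] Qb}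
    (hτ : τ ∈ A.inertiaSubgroupIn ℚ) (hτ' : τ' ∈ A.inertiaSubgroupIn ℚ) {c : Qb} (hc : c ≠ 0) :
    τ' (τ c / c) / (τ c / c) - 1 ∈ A.nonunits :=
  s34giB1_secondDiff A hτ hτ' hc (s34giB1_isIntegral c)

end Fermat.Agent.S34
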