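import Mathlib
import Fermat.Prelude.Def_FLTPrelim_Ramification
import Fermat.Agent.S18.GaussLRing
import Fermat.Agent.S18.NumField
import Fermat.Agent.S37.FrobBasic
import Fermat.Agent.S42.Cyclo

/-! P19 (S34) block GAL, LEAF I, second team (B), part 2: inertia acts on `Λ = A ∩ K` and
trivially on its residue field. -/

set_option autoImplicit false

namespace Fermat.Agent.S34

open ModularCurve IntermediateField
open Fermat.Agent.S18.NumField Fermat.Agent.S18.GaussL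

local notation "Qb" => AlgebraicClosure ℚ

/-- Inertia elements preserve the valuation subring. -/
theorem s34giB2_mem (A : ValuationSubring Qb) {τ : Qb ≃ₐ[ℚ] Qb}
    (hτ : τ ∈ A.inertiaSubgroupIn ℚ) {a : Qb} (ha : a ∈ A) : τ a ∈ A := by
  have h1 : τ a - a ∈ A := A.nonunits_subset (Fermat.Agent.S42.cy_inertia_sub_mem_nonunits hτ ha)
  have h2 : τ a = (τ a - a) + a := by ring
  rw [h2]
  exact A.add_mem _ _ h1 ha

/-- The restriction of an inertia element to a normal `K` preserves `Λ = A ∩ K`. -/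
theorem s34giB2_mem_lam (A : ValuationSubring Qb) (K : IntermediateField ℚ Qb) [Normal ℚ ↥K]
    {τ : Qb ≃ₐ[ℚ] Qb} (hτ : τ ∈ A.inertiaSubgroupIn ℚ) {y : ↥K} (hy : y ∈ lam A K) :
    τ.restrictNormal ↥K y ∈ lam A K := by
  rw [mem_lam_iff] at hy ⊢
  have h := AlgEquiv.restrictNormal_commutes τ ↥K y
  have h' : ((τ.restrictNormal ↥K y : ↥K) : Qb) = τ ((y : ↥K) : Qb) := h
  rw [h']
  exact s34giB2_mem A hτ hy

theorem s34gal_inertia_lam_B (A : ValuationSubring Qb) (K : IntermediateField ℚ Qb) [Normal ℚ ↥K]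
    {τ : Qb ≃ₐ[ℚ] Qb} (hτ : τ ∈ A.inertiaSubgroupIn ℚ) (a : ↥(lam A K).toSubring) :
    ∃ b : ↥(lam A K).toSubring, (b : ↥K) = τ.restrictNormal ↥K (a : ↥K) ∧
      lamRes A K b = lamRes A K a := by
  have haA : ((a : ↥K) : Qb) ∈ A := mem_lam_iff.mp a.2
  refine ⟨⟨τ.restrictNormal ↥K (a : ↥K), s34giB2_mem_lam A K hτ a.2⟩, rfl, ?_⟩
  set b : ↥(lam A K).toSubring := ⟨τ.restrictNormal ↥K (a : ↥K), s34giB2_mem_lam A K hτ a.2⟩
    with hb
  rw [← sub_eq_zero, ← map_sub, ← lamResA_eq_zero_iff]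
  change IsLocalRing.residue A (lamIncl A K (b - a)) = 0
  rw [IsLocalRing.residue_eq_zero_iff, A.valuation_lt_one_iff]
  have hcoe : ((lamIncl A K (b - a) : A) : Qb) = τ ((a : ↥K) : Qb) - ((a : ↥K) : Qb) := by
    have h := AlgEquiv.restrictNormal_commutes τ ↥K (a : ↥K)
    have h' : ((τ.restrictNormal ↥K (a : ↥K) : ↥K) : Qb) = τ ((a : ↥K) : Qb) := h
    rw [← h']
    rfl
  rw [hcoe]
  exact A.mem_nonunits_iff.mp (Fermat.Agent.S42.cy_inertia_sub_mem_nonunits hτ haA)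

end Fermat.Agent.S34
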