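import Mathlib
import Fermat.Prelude.Def_FLTPrelim_Ramification
import Fermat.Agent.S18.GaussLRing
import Fermat.Agent.S18.NumField
import Fermat.Agent.S34.GalInertiaB2

/-! P19 (S34) block GAL, LEAF I, second team (B), part 3: inertia acts on Laurent series with
coefficients in `lam A K` and preserves the coefficientwise residue. -/

set_option autoImplicit false

namespace Fermat.Agent.S34

open ModularCurve IntermediateField
open Fermat.Agent.S18.NumField Fermat.Agent.S18.GaussL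

local notation "Qb" => AlgebraicClosure ℚ

/-- The restriction of an inertia element preserves `lam A K`. -/
theorem s34giB3_mem (A : ValuationSubring Qb) (K : IntermediateField ℚ Qb) [Normal ℚ ↥K]
    {τ : Qb ≃ₐ[ℚ] Qb} (hτ : τ ∈ A.inertiaSubgroupIn ℚ) (a : ↥(lam A K).toSubring) :
    (((τ.restrictNormal ↥K : ↥K ≃ₐ[ℚ] ↥K) : ↥K →+* ↥K).comp (lam A K).toSubring.subtype) a
      ∈ (lam A K).toSubring := by
  obtain ⟨b, hb, -⟩ := s34gal_inertia_lam_B A K hτ a
  have h : (((τ.restrictNormal ↥K : ↥K ≃ₐ[ℚ] ↥K) : ↥K →+* ↥K).comp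
      (lam A K).toSubring.subtype) a = (b : ↥K) := hb.symm
  rw [h]
  exact b.2

/-- The ring endomorphism of `lam A K` induced by an inertia element. -/
noncomputable def s34giB3_hom (A : ValuationSubring Qb) (K : IntermediateField ℚ Qb)
    [Normal ℚ ↥K] {τ : Qb ≃ₐ[ℚ] Qb} (hτ : τ ∈ A.inertiaSubgroupIn ℚ) :
    ↥(lam A K).toSubring →+* ↥(lam A K).toSubring :=
  (((τ.restrictNormal ↥K : ↥K ≃ₐ[ℚ] ↥K) : ↥K →+* ↥K).comp
    (lam A K).toSubring.subtype).codRestrict (lam A K).toSubring (s34giB3_mem A K hτ)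

theorem s34giB3_subtype_comp (A : ValuationSubring Qb) (K : IntermediateField ℚ Qb)
    [Normal ℚ ↥K] {τ : Qb ≃ₐ[ℚ] Qb} (hτ : τ ∈ A.inertiaSubgroupIn ℚ) :
    (lam A K).toSubring.subtype.comp (s34giB3_hom A K hτ)
      = ((τ.restrictNormal ↥K : ↥K ≃ₐ[ℚ] ↥K) : ↥K →+* ↥K).comp (lam A K).toSubring.subtype :=
  RingHom.ext fun _ => rfl

theorem s34giB3_lamRes_comp (A : ValuationSubring Qb) (K : IntermediateField ℚ Qb)
    [Normal ℚ ↥K] {τ : Qb ≃ₐ[ℚ] Qb} (hτ : τ ∈ A.inertiaSubgroupIn ℚ) :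
    (lamRes A K).comp (s34giB3_hom A K hτ) = lamRes A K := by
  refine RingHom.ext fun a => ?_
  obtain ⟨b, hb, hres⟩ := s34gal_inertia_lam_B A K hτ a
  have h : s34giB3_hom A K hτ a = b := Subtype.ext hb.symm
  rw [RingHom.comp_apply, h, hres]

theorem s34gal_inertia_coeff_lam_B (A : ValuationSubring Qb) (K : IntermediateField ℚ Qb)
    [Normal ℚ ↥K] {τ : Qb ≃ₐ[ℚ] Qb} (hτ : τ ∈ A.inertiaSubgroupIn ℚ)
    (Y : LaurentSeries ↥(lam A K).toSubring) :
    ∃ Y' : LaurentSeries ↥(lam A K).toSubring,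
      coeffMap (lam A K).toSubring.subtype Y' =
        coeffMap ((τ.restrictNormal ↥K : ↥K ≃ₐ[ℚ] ↥K) : ↥K →+* ↥K)
          (coeffMap (lam A K).toSubring.subtype Y) ∧
      coeffMap (lamRes A K) Y' = coeffMap (lamRes A K) Y := by
  refine ⟨coeffMap (s34giB3_hom A K hτ) Y, ?_, ?_⟩
  · rw [coeffMap_coeffMap, coeffMap_coeffMap]
    exact coeffMap_congr (s34giB3_subtype_comp A K hτ) Y
  · rw [coeffMap_coeffMap]
    exact coeffMap_congr (s34giB3_lamRes_comp A K hτ) Y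

end Fermat.Agent.S34
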