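import Mathlib
import Fermat.Agent.S34.GalField
import Fermat.Agent.S37.HeckeFF
import Fermat.Agent.S24.Places

/-!
# P19 (S34), block GAL-B, leaf LYING (second team)

Every place of `𝔽_K / K` has a place of `𝔽_ℚ̄ / ℚ̄` above it (`s34gal_exists_place_over_B`).

* `s34lyB_exists_place_of_valuationSubring`: in a function field of one variable over an
  algebraically closed field of characteristic zero, every valuation subring containing the
  constants and different from the whole field is the valuation ring of a place;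
* the valuation subring is produced by Chevalley's extension theorem
  (`IsLocalRing.exists_factor_valuationRing`).
-/

set_option autoImplicit false

namespace Fermat.Agent.S34

open AlgebraicCurve ModularCurve IntermediateField IsDedekindDomain

local notation "Qb" => AlgebraicClosure ℚ

section General

open scoped IntermediateField.algebraAdjoinAdjoin

variable {K F : Type*} [Field K] [Field F] [Algebra K F]

/-- The integral closure of `K[y]` lies in every valuation subring containing `K` and `y`. -/
theorem s34lyB_coe_mem (W : ValuationSubring F) (hK : ∀ a : K, algebraMap K F a ∈ W) {y : F}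
    (hy : y ∈ W) (b : integralClosure (Algebra.adjoin K {y}) F) : (b : F) ∈ W := by
  let S : Subalgebra K F := { W.toSubring with algebraMap_mem' := hK }
  have hle : Algebra.adjoin K {y} ≤ S := Algebra.adjoin_le (Set.singleton_subset_iff.mpr hy)
  let ι : Algebra.adjoin K {y} →+* W :=
    (algebraMap (Algebra.adjoin K {y}) F).codRestrict W.toSubring (fun a => hle a.2)
  have hι : (algebraMap W F).comp ι = algebraMap (Algebra.adjoin K {y}) F :=
    RingHom.ext fun a => rfl
  obtain ⟨p, hpm, hp⟩ := b.2
  have hint : IsIntegral W (b : F) := by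
    refine ⟨p.map ι, hpm.map ι, ?_⟩
    rw [Polynomial.eval₂_map, hι]
    exact hp
  obtain ⟨x, hx⟩ := IsIntegrallyClosed.isIntegral_iff.mp hint
  rw [← hx]
  exact x.2

/-- In a function field of one variable over an algebraically closed field of characteristic
zero, a valuation subring containing the constants and different from the whole field is the
valuation ring of a place. -/
theorem s34lyB_exists_place_of_valuationSubring [IsAlgClosed K] [CharZero K]
    (hFF : Fermat.Agent.S37.IsFF K F) (W : ValuationSubring F)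
    (hK : ∀ a : K, algebraMap K F a ∈ W) (hW : W ≠ ⊤) :
    ∃ P : Place K F, P.toValuationSubring = W := by
  classical
  -- an element `y ∈ W` with `y⁻¹ ∉ W`
  obtain ⟨y, hyW, hy0, hyinv⟩ : ∃ y : F, y ∈ W ∧ y ≠ 0 ∧ y⁻¹ ∉ W := by
    by_contra hcon
    apply hW
    rw [eq_top_iff]
    intro g _
    by_contra hg
    have hg0 : g ≠ 0 := fun h => hg (h ▸ W.zero_mem)
    exact hcon ⟨g⁻¹, (W.mem_or_inv_mem g).resolve_left hg, inv_ne_zero hg0,
      by rw [inv_inv]; exact hg⟩
  -- `y` is transcendental
  obtain ⟨x, hx, hfin⟩ := hFF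
  have hyt : Transcendental K y := by
    apply Fermat.Agent.S24.transcendental_of_not_mem_range hx
    rintro ⟨c, hc⟩
    apply hyinv
    rw [← hc, ← map_inv₀]
    exact hK c⁻¹
  have hfiny : FiniteDimensional K⟮y⟯ F :=
    Fermat.Agent.S24.finiteDimensional_adjoin_of_transcendental hx hyt
  have := Fermat.Agent.S24.PlacesSetup.isPrincipalIdealRing hyt
  have := Fermat.Agent.S24.PlacesSetup.isDedekindDomain (F := F) hyt
  have := Fermat.Agent.S24.PlacesSetup.isFractionRing (K := K) (F := F) (y := y)
  -- the ring hom `R → W`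
  let φ : integralClosure (Algebra.adjoin K {y}) F →+* W :=
    (algebraMap (integralClosure (Algebra.adjoin K {y}) F) F).codRestrict W.toSubring
      (fun b => s34lyB_coe_mem W hK hyW b)
  have hφ : ∀ r : integralClosure (Algebra.adjoin K {y}) F,
      ((φ r : W) : F) = algebraMap (integralClosure (Algebra.adjoin K {y}) F) F r := fun _ => rfl
  let 𝔫 : Ideal (integralClosure (Algebra.adjoin K {y}) F) :=
    (IsLocalRing.maximalIdeal W).comap φ
  have h𝔫prime : 𝔫.IsPrime := Ideal.comap_isPrime φ _
  have h𝔫bot : 𝔫 ≠ ⊥ := by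
    intro hbot
    have hyR : algebraMap (Algebra.adjoin K {y}) (integralClosure (Algebra.adjoin K {y}) F)
        (Fermat.Agent.S24.PlacesSetup.gen K y) ∈ 𝔫 := by
      show φ _ ∈ IsLocalRing.maximalIdeal W
      by_contra h
      exact hyinv (Fermat.Agent.S24.PlacesHOS.inv_mem_of_not_mem_maximalIdeal W h)
    rw [hbot, Ideal.mem_bot] at hyR
    exact hy0 (congrArg Subtype.val hyR)
  let w : HeightOneSpectrum (integralClosure (Algebra.adjoin K {y}) F) := ⟨𝔫, h𝔫prime, h𝔫bot⟩
  refine ⟨Place.ofHeightOneSpectrum (K := K) w, ?_⟩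
  rw [Place.ofHeightOneSpectrum_toValuationSubring]
  apply le_antisymm
  · intro f hf
    have hval : w.valuation F f ≤ 1 := (Valuation.mem_valuationSubring_iff _ _).mp hf
    obtain ⟨n, d, hnd⟩ := HeightOneSpectrum.exists_primeCompl_mul_eq_of_integer w f hval
    have hdP : (d : integralClosure (Algebra.adjoin K {y}) F) ∉ 𝔫 := d.2
    have hinv := Fermat.Agent.S24.PlacesHOS.inv_mem_of_not_mem_maximalIdeal W (a := φ d) hdP
    rw [hφ] at hinv
    have hd0 : algebraMap (integralClosure (Algebra.adjoin K {y}) F) F
        (d : integralClosure (Algebra.adjoin K {y}) F) ≠ 0 := by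
      intro h0
      apply hdP
      have h1 : (d : integralClosure (Algebra.adjoin K {y}) F) = 0 :=
        (IsFractionRing.injective (integralClosure (Algebra.adjoin K {y}) F) F)
          (h0.trans (map_zero _).symm)
      rw [h1]
      exact 𝔫.zero_mem
    have hf_eq : f = algebraMap (integralClosure (Algebra.adjoin K {y}) F) F n *
        (algebraMap (integralClosure (Algebra.adjoin K {y}) F) F
          (d : integralClosure (Algebra.adjoin K {y}) F))⁻¹ := by
      rw [← hnd, mul_assoc, mul_inv_cancel₀ hd0, mul_one]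
    rw [hf_eq]
    exact W.mul_mem _ _ (s34lyB_coe_mem W hK hyW n) hinv
  · intro f hf
    rw [Valuation.mem_valuationSubring_iff]
    by_contra hlt
    rw [not_le] at hlt
    have hinvlt : w.valuation F f⁻¹ < 1 := by
      rw [map_inv₀]
      exact inv_lt_one_of_one_lt₀ hlt
    have hf0 : f ≠ 0 := by
      rintro rfl
      rw [map_zero] at hlt
      exact not_lt_of_ge zero_le hlt
    obtain ⟨n, d, hnd⟩ := HeightOneSpectrum.exists_primeCompl_mul_eq_of_integer w f⁻¹ hinvlt.le
    have hdP : (d : integralClosure (Algebra.adjoin K {y}) F) ∉ 𝔫 := d.2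
    have hn : n ∈ 𝔫 := by
      have h1 : w.valuation F (algebraMap (integralClosure (Algebra.adjoin K {y}) F) F n) < 1 := by
        rw [← hnd, map_mul]
        calc w.valuation F f⁻¹ * w.valuation F (algebraMap
              (integralClosure (Algebra.adjoin K {y}) F) F
              (d : integralClosure (Algebra.adjoin K {y}) F))
            ≤ w.valuation F f⁻¹ * 1 := mul_le_mul' (le_refl _) (w.valuation_le_one _)
          _ < 1 := by rw [mul_one]; exact hinvlt
      exact (HeightOneSpectrum.valuation_lt_one_iff_mem (K := F) w n).mp h1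
    apply hdP
    have hmul : φ (d : integralClosure (Algebra.adjoin K {y}) F) = φ n * ⟨f, hf⟩ := by
      apply Subtype.ext
      show algebraMap (integralClosure (Algebra.adjoin K {y}) F) F
          (d : integralClosure (Algebra.adjoin K {y}) F) =
        algebraMap (integralClosure (Algebra.adjoin K {y}) F) F n * f
      rw [← hnd, mul_comm f⁻¹, mul_assoc, inv_mul_cancel₀ hf0, mul_one]
    show φ (d : integralClosure (Algebra.adjoin K {y}) F) ∈ IsLocalRing.maximalIdeal W
    rw [hmul]
    exact Ideal.mul_mem_right _ _ hn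

end General

variable (F₀ : IntermediateField ℚ (LaurentSeries ℚ))

/-- Every place of `𝔽_K / K` has a place of `𝔽_ℚ̄ / ℚ̄` above it. -/
theorem s34gal_exists_place_over_B (hFF : Fermat.Agent.S37.IsFF Qb ↥(laurentBaseChange Qb F₀))
    (K : IntermediateField ℚ Qb) (Q : Place ↥K ↥(laurentBaseChange (↥K) F₀)) :
    ∃ P : Place Qb ↥(laurentBaseChange Qb F₀),
      ∀ f : ↥(laurentBaseChange (↥K) F₀),
        f ∈ Q.toValuationSubring ↔ s34galEmb F₀ K f ∈ P.toValuationSubring := by
  -- Chevalley: a valuation subring dominating the image of `O_Q`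
  let φ : Q.toValuationSubring →+* ↥(laurentBaseChange Qb F₀) :=
    (s34galEmb F₀ K).comp Q.toValuationSubring.subtype
  obtain ⟨W, hW, hloc⟩ := IsLocalRing.exists_factor_valuationRing φ
  have hiff : ∀ f : ↥(laurentBaseChange (↥K) F₀),
      f ∈ Q.toValuationSubring ↔ s34galEmb F₀ K f ∈ W := by
    intro f
    constructor
    · intro hf
      exact hW ⟨f, hf⟩
    · intro hf
      by_contra hfO
      have hf0 : f ≠ 0 := fun h => hfO (h ▸ zero_mem _)
      have hinv : f⁻¹ ∈ Q.toValuationSubring :=
        (Q.toValuationSubring.mem_or_inv_mem f).resolve_left hfO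
      have hu : IsUnit (φ.codRestrict W.toSubring hW ⟨f⁻¹, hinv⟩) := by
        refine IsUnit.of_mul_eq_one (⟨s34galEmb F₀ K f, hf⟩ : W.toSubring) (Subtype.ext ?_)
        show s34galEmb F₀ K f⁻¹ * s34galEmb F₀ K f = 1
        rw [← map_mul, inv_mul_cancel₀ hf0, map_one]
      have hu' : IsUnit (⟨f⁻¹, hinv⟩ : Q.toValuationSubring) := hloc.map_nonunit _ hu
      obtain ⟨b, hb⟩ := isUnit_iff_exists_inv.mp hu'
      have h1 : f⁻¹ * (b : ↥(laurentBaseChange (↥K) F₀)) = 1 := congrArg Subtype.val hb
      have hbf : (b : ↥(laurentBaseChange (↥K) F₀)) = f := by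
        have h2 := congrArg (fun t => f * t) h1
        simp only [mul_one] at h2
        rw [← mul_assoc, mul_inv_cancel₀ hf0, one_mul] at h2
        exact h2
      exact hfO (hbf ▸ b.2)
  -- the constants lie in `W`
  have hconst : ∀ c : Qb, algebraMap Qb ↥(laurentBaseChange Qb F₀) c ∈ W := by
    intro c
    have hrat : ∀ q : ℚ, algebraMap ℚ ↥(laurentBaseChange Qb F₀) q ∈ W.toSubring := by
      intro q
      have h0 : algebraMap ℚ ↥(laurentBaseChange Qb F₀) =
          (s34galEmb F₀ K).comp ((algebraMap ↥K ↥(laurentBaseChange (↥K) F₀)).comp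
            (algebraMap ℚ ↥K)) := Subsingleton.elim _ _
      have h1 : algebraMap ℚ ↥(laurentBaseChange Qb F₀) q =
          s34galEmb F₀ K (algebraMap ↥K ↥(laurentBaseChange (↥K) F₀) (algebraMap ℚ ↥K q)) := by
        rw [h0]
        rfl
      rw [h1]
      exact hW ⟨_, Q.algebraMap_mem' _⟩
    let ι : ℚ →+* W := (algebraMap ℚ ↥(laurentBaseChange Qb F₀)).codRestrict W.toSubring hrat
    have hι : (algebraMap W ↥(laurentBaseChange Qb F₀)).comp ι =
        algebraMap ℚ ↥(laurentBaseChange Qb F₀) := RingHom.ext fun a => rfl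
    have : Algebra.IsAlgebraic ℚ Qb := AlgebraicClosure.isAlgebraic ℚ
    have hc : IsIntegral ℚ c := Algebra.IsIntegral.isIntegral c
    obtain ⟨p, hpm, hp⟩ := hc
    have hint : IsIntegral W (algebraMap Qb ↥(laurentBaseChange Qb F₀) c) := by
      refine ⟨p.map ι, hpm.map ι, ?_⟩
      rw [Polynomial.eval₂_map, hι]
      have h2 : algebraMap ℚ ↥(laurentBaseChange Qb F₀) =
          (algebraMap Qb ↥(laurentBaseChange Qb F₀)).comp (algebraMap ℚ Qb) :=
        Subsingleton.elim _ _
      rw [h2, ← Polynomial.hom_eval₂, hp, map_zero]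
    obtain ⟨x, hx⟩ := IsIntegrallyClosed.isIntegral_iff.mp hint
    rw [← hx]
    exact x.2
  have hWtop : W ≠ ⊤ := by
    intro htop
    apply Q.ne_top'
    rw [eq_top_iff]
    intro f _
    rw [hiff f, htop]
    exact ValuationSubring.mem_top _
  obtain ⟨P, hP⟩ := s34lyB_exists_place_of_valuationSubring hFF W hconst hWtop
  exact ⟨P, fun f => by rw [hP]; exact hiff f⟩

end Fermat.Agent.S34
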