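import Mathlib
import Fermat.Prelude.Def_AlgebraicCurve_DivisorClassGroup
import Fermat.Agent.S24.PlacesBasic

/-!
# P19 (S34), block GAL: weak approximation and the trivial moving lemma

Statements in the frozen `Place` / `Pic⁰` formalism, for an arbitrary field extension `F / K`.

* `s34mov_weak_approx` : for a finite set `S` of places and prescribed integers `n v`, there is a
  nonzero `f` with `ord_v f = n v` for all `v ∈ S`.
* `s34mov_moving` : if nonzero functions have divisors (`HasPrincipalDivisors`), every class of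
  `Pic⁰` has a representative whose support avoids a given finite set of places.
* `s34mov_exists_kummer` : a class killed by `m` has a representative `D` avoiding a given finite
  set of places, together with a Kummer generator `u` (`div u = m • D`).
-/

set_option autoImplicit false

namespace Fermat.Agent.S34

open AlgebraicCurve

section WeakApprox

variable {K F : Type*} [Field K] [Field F] [Algebra K F]

theorem s34mov_ord_div (P : Place K F) {f h : F} (hf : f ≠ 0) (hh : h ≠ 0) :
    P.ord (f / h) = P.ord f - P.ord h := by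
  rw [div_eq_mul_inv, P.ord_mul hf (inv_ne_zero hh), P.ord_inv, sub_eq_add_neg]

theorem s34mov_ord_pow (P : Place K F) (f : F) (n : ℕ) : P.ord (f ^ n) = n * P.ord f := by
  rw [← zpow_natCast, P.ord_zpow]

theorem s34mov_ne_zero_of_ord_ne (P : Place K F) {f : F} (h : P.ord f ≠ 0) : f ≠ 0 := by
  rintro rfl
  exact h P.ord_zero

/-- `ord (f + g) = ord f` when `ord f < ord g`. -/
theorem s34mov_ord_add_of_lt (P : Place K F) {f g : F} (hf : f ≠ 0) (hg : g ≠ 0)
    (h : P.ord f < P.ord g) : P.ord (f + g) = P.ord f := by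
  rw [S24.PlacesBasic.ord_add_eq_min P hf hg h.ne, min_eq_left h.le]

/-- `ord (1 + g) = 0` when `0 < ord g`. -/
theorem s34mov_ord_one_add_of_pos (P : Place K F) {g : F} (h : 0 < P.ord g) :
    P.ord (1 + g) = 0 := by
  have hg : g ≠ 0 := s34mov_ne_zero_of_ord_ne P h.ne'
  rw [s34mov_ord_add_of_lt P one_ne_zero hg (by rw [P.ord_one]; exact h), P.ord_one]

/-- `ord (1 + g) = ord g` when `ord g < 0`. -/
theorem s34mov_ord_one_add_of_neg (P : Place K F) {g : F} (h : P.ord g < 0) :
    P.ord (1 + g) = P.ord g := by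
  have hg : g ≠ 0 := s34mov_ne_zero_of_ord_ne P h.ne
  rw [add_comm]
  exact s34mov_ord_add_of_lt P hg one_ne_zero (by rw [P.ord_one]; exact h)

/-- A place has an element of order `1`. -/
theorem s34mov_exists_ord_eq_one (W : Place K F) : ∃ ϖ : F, ϖ ≠ 0 ∧ W.ord ϖ = 1 := by
  obtain ⟨π, hπ⟩ := IsDiscreteValuationRing.exists_irreducible W.toValuationSubring
  have h1 : W.ord (π : F) = 1 := W.ord_coe_irreducible hπ
  exact ⟨(π : F), s34mov_ne_zero_of_ord_ne W (by rw [h1]; exact one_ne_zero), h1⟩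

/-- Two distinct places are separated by a function. -/
theorem s34mov_sep {v w : Place K F} (h : v ≠ w) :
    ∃ a : F, a ≠ 0 ∧ 0 < v.ord a ∧ w.ord a < 0 := by
  have h1 : ∃ b : F, b ≠ 0 ∧ 0 ≤ v.ord b ∧ w.ord b < 0 := by
    by_contra hcon
    push_neg at hcon
    exact h (S24.PlacesBasic.place_ext_of_ord fun f hf hv => hcon f hf hv)
  have h2 : ∃ c : F, c ≠ 0 ∧ 0 ≤ w.ord c ∧ v.ord c < 0 := by
    by_contra hcon
    push_neg at hcon
    exact h (S24.PlacesBasic.place_ext_of_ord fun f hf hv => hcon f hf hv).symm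
  obtain ⟨b, hb0, hb1, hb2⟩ := h1
  obtain ⟨c, hc0, hc1, hc2⟩ := h2
  refine ⟨b / c, div_ne_zero hb0 hc0, ?_, ?_⟩
  · rw [s34mov_ord_div v hb0 hc0]
    omega
  · rw [s34mov_ord_div w hb0 hc0]
    omega

/-- A uniform bound for `- ord_w b` over a finite set of places. -/
theorem s34mov_exists_bound (T : Finset (Place K F)) (b : F) (k : ℕ) :
    ∃ n : ℕ, k ≤ n ∧ ∀ w ∈ T, -(w.ord b) < n := by
  classical
  refine ⟨(T.sup fun w => (w.ord b).natAbs) + k + 1, by omega, fun w hw => ?_⟩
  have h := Finset.le_sup (f := fun w : Place K F => (w.ord b).natAbs) hw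
  have h' : (w.ord b).natAbs ≤ T.sup fun w => (w.ord b).natAbs := h
  push_cast
  omega

/-- Separation of one place from finitely many: a function with a pole at `v` and zeros at all
places of `T`. -/
theorem s34mov_sep_finset (v : Place K F) (T : Finset (Place K F)) (hv : v ∉ T) :
    ∃ a : F, a ≠ 0 ∧ v.ord a < 0 ∧ ∀ w ∈ T, 0 < w.ord a := by
  classical
  induction T using Finset.induction_on with
  | empty =>
    obtain ⟨ϖ, hϖ0, hϖ⟩ := s34mov_exists_ord_eq_one v
    exact ⟨ϖ⁻¹, inv_ne_zero hϖ0, by rw [v.ord_inv, hϖ]; omega, by simp⟩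
  | insert w' T' hw' ih =>
    have hvw' : w' ≠ v := fun h => hv (h ▸ Finset.mem_insert_self _ _)
    have hvT' : v ∉ T' := fun h => hv (Finset.mem_insert_of_mem h)
    obtain ⟨a, ha0, hav, haT⟩ := ih hvT'
    obtain ⟨b, hb0, hbw, hbv⟩ := s34mov_sep hvw'
    obtain ⟨n, hn1, hn⟩ := s34mov_exists_bound T' b 1
    have hn0 : (1 : ℤ) ≤ (n : ℤ) := by exact_mod_cast hn1
    have han0 : a ^ n ≠ 0 := pow_ne_zero _ ha0
    have hanb0 : a ^ n * b ≠ 0 := mul_ne_zero han0 hb0
    by_cases hcase : 0 ≤ w'.ord a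
    · refine ⟨a ^ n * b, hanb0, ?_, ?_⟩
      · rw [v.ord_mul han0 hb0, s34mov_ord_pow]
        have : (n : ℤ) * v.ord a ≤ 0 := mul_nonpos_of_nonneg_of_nonpos (by positivity) hav.le
        omega
      · intro w hw
        rw [Finset.mem_insert] at hw
        rw [w.ord_mul han0 hb0, s34mov_ord_pow]
        rcases hw with hw | hw
        · subst hw
          have : 0 ≤ (n : ℤ) * w.ord a := mul_nonneg (by positivity) hcase
          omega
        · have h1 := haT w hw
          have h2 := hn w hw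
          have : (n : ℤ) ≤ (n : ℤ) * w.ord a := by nlinarith
          omega
    · push_neg at hcase
      have han : ∀ P : Place K F, P.ord a < 0 → P.ord (1 + a ^ n) = n * P.ord a := by
        intro P hP
        have h1 : P.ord (a ^ n) < 0 := by
          rw [s34mov_ord_pow]
          nlinarith
        rw [s34mov_ord_one_add_of_neg P h1, s34mov_ord_pow]
      have h1an : 1 + a ^ n ≠ 0 := by
        apply s34mov_ne_zero_of_ord_ne v
        rw [han v hav]
        nlinarith
      refine ⟨a ^ n * b / (1 + a ^ n), div_ne_zero hanb0 h1an, ?_, ?_⟩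
      · rw [s34mov_ord_div v hanb0 h1an, v.ord_mul han0 hb0, s34mov_ord_pow, han v hav]
        omega
      · intro w hw
        rw [Finset.mem_insert] at hw
        rw [s34mov_ord_div w hanb0 h1an, w.ord_mul han0 hb0, s34mov_ord_pow]
        rcases hw with hw | hw
        · subst hw
          rw [han w hcase]
          omega
        · have h1 := haT w hw
          have h2 := hn w hw
          have h3 : w.ord (1 + a ^ n) = 0 := by
            apply s34mov_ord_one_add_of_pos
            rw [s34mov_ord_pow]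
            nlinarith
          rw [h3]
          have : (n : ℤ) ≤ (n : ℤ) * w.ord a := by nlinarith
          omega

/-- A function of order `1` at `v` and order `0` at finitely many other places. -/
theorem s34mov_exists_unif (v : Place K F) (T : Finset (Place K F)) (hv : v ∉ T) :
    ∃ t : F, t ≠ 0 ∧ v.ord t = 1 ∧ ∀ w ∈ T, w.ord t = 0 := by
  classical
  obtain ⟨a, ha0, hav, haT⟩ := s34mov_sep_finset v T hv
  obtain ⟨ϖ, hϖ0, hϖ⟩ := s34mov_exists_ord_eq_one v
  obtain ⟨M, hM2, hM⟩ := s34mov_exists_bound T ϖ 2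
  have hM0 : (2 : ℤ) ≤ (M : ℤ) := by exact_mod_cast hM2
  have haM0 : a ^ M ≠ 0 := pow_ne_zero _ ha0
  have hϖa0 : ϖ * a ^ M ≠ 0 := mul_ne_zero hϖ0 haM0
  -- at `v`
  have hv1 : v.ord (a ^ M) < 0 := by
    rw [s34mov_ord_pow]
    nlinarith
  have hv2 : v.ord (ϖ * a ^ M) < 0 := by
    rw [v.ord_mul hϖ0 haM0, hϖ, s34mov_ord_pow]
    nlinarith
  have hden : 1 + a ^ M ≠ 0 := by
    apply s34mov_ne_zero_of_ord_ne v
    rw [s34mov_ord_one_add_of_neg v hv1]
    exact hv1.ne
  have hnum : 1 + ϖ * a ^ M ≠ 0 := by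
    apply s34mov_ne_zero_of_ord_ne v
    rw [s34mov_ord_one_add_of_neg v hv2]
    exact hv2.ne
  refine ⟨(1 + ϖ * a ^ M) / (1 + a ^ M), div_ne_zero hnum hden, ?_, ?_⟩
  · rw [s34mov_ord_div v hnum hden, s34mov_ord_one_add_of_neg v hv2,
      s34mov_ord_one_add_of_neg v hv1, v.ord_mul hϖ0 haM0, hϖ]
    ring
  · intro w hw
    have h1 := haT w hw
    have h2 := hM w hw
    have hw1 : 0 < w.ord (a ^ M) := by
      rw [s34mov_ord_pow]
      nlinarith
    have hw2 : 0 < w.ord (ϖ * a ^ M) := by
      rw [w.ord_mul hϖ0 haM0, s34mov_ord_pow]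
      have : (M : ℤ) ≤ (M : ℤ) * w.ord a := by nlinarith
      omega
    rw [s34mov_ord_div w hnum hden, s34mov_ord_one_add_of_pos w hw1,
      s34mov_ord_one_add_of_pos w hw2, sub_zero]

/-- **Weak approximation for orders.**  Prescribed orders at finitely many places. -/
theorem s34mov_weak_approx (S : Finset (Place K F)) (n : Place K F → ℤ) :
    ∃ f : F, f ≠ 0 ∧ ∀ v ∈ S, v.ord f = n v := by
  classical
  have h : ∀ v : Place K F, ∃ t : F, t ≠ 0 ∧ v.ord t = 1 ∧ ∀ w ∈ S.erase v, w.ord t = 0 :=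
    fun v => s34mov_exists_unif v (S.erase v) (Finset.notMem_erase v S)
  choose t ht0 ht1 ht2 using h
  have hprod0 : ∀ U : Finset (Place K F), ∏ u ∈ U, t u ^ n u ≠ 0 := fun U =>
    Finset.prod_ne_zero_iff.mpr fun u _ => zpow_ne_zero _ (ht0 u)
  have hord : ∀ (U : Finset (Place K F)) (w : Place K F),
      w.ord (∏ u ∈ U, t u ^ n u) = ∑ u ∈ U, n u * w.ord (t u) := by
    intro U w
    induction U using Finset.induction_on with
    | empty => simp [w.ord_one]
    | insert u U hu ih =>
      rw [Finset.prod_insert hu, Finset.sum_insert hu,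
        w.ord_mul (zpow_ne_zero _ (ht0 u)) (hprod0 U), ih, w.ord_zpow]
  refine ⟨∏ v ∈ S, t v ^ n v, hprod0 S, fun v hv => ?_⟩
  rw [hord, Finset.sum_eq_single v]
  · rw [ht1, mul_one]
  · intro u _ huv
    rw [ht2 u v (Finset.mem_erase.mpr ⟨Ne.symm huv, hv⟩), mul_zero]
  · intro h
    exact absurd hv h

end WeakApprox

section Moving

variable {K F : Type*} [Field K] [Field F] [Algebra K F] [HasPrincipalDivisors K F]

/-- **Trivial moving lemma.**  Every class of `Pic⁰` has a representative whose support avoids a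
given finite set of places. -/
theorem s34mov_moving (S : Finset (Place K F)) (x : Pic0 K F) :
    ∃ D : Divisor.degZero (K := K) (F := F), Pic0.mk D = x ∧
      ∀ v ∈ S, (D : Divisor K F) v = 0 := by
  obtain ⟨D₀, rfl⟩ := Pic0.mk_surjective x
  obtain ⟨f, hf0, hf⟩ := s34mov_weak_approx S (fun v => -((D₀ : Divisor K F) v))
  obtain ⟨E, hE, hEdeg⟩ := HasPrincipalDivisors.exists_divisor (K := K) f hf0
  have hEmem : E ∈ Divisor.degZero (K := K) (F := F) := hEdeg
  refine ⟨D₀ + ⟨E, hEmem⟩, ?_, fun v hv => ?_⟩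
  · rw [Pic0.mk_add]
    have h0 : Pic0.mk (⟨E, hEmem⟩ : Divisor.degZero (K := K) (F := F)) = 0 := by
      refine (QuotientAddGroup.eq_zero_iff _).mpr ?_
      rw [AddSubgroup.mem_addSubgroupOf]
      exact ⟨f, hf0, hE⟩
    rw [h0, add_zero]
  · show ((D₀ : Divisor K F) + E) v = 0
    rw [Finsupp.add_apply, hE v, hf v hv]
    ring

/-- A class killed by `m` has a representative avoiding a given finite set of places, together
with a Kummer generator. -/
theorem s34mov_exists_kummer (S : Finset (Place K F)) {m : ℕ} (x : Pic0 K F) (hx : m • x = 0) :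
    ∃ (D : Divisor.degZero (K := K) (F := F)) (u : F), Pic0.mk D = x ∧ u ≠ 0 ∧
      (∀ v ∈ S, (D : Divisor K F) v = 0) ∧
      ∀ v : Place K F, (m • (D : Divisor K F)) v = v.ord u := by
  obtain ⟨D, rfl, hS⟩ := s34mov_moving S x
  have h1 : Pic0.mk (m • D) = 0 := hx
  have h2 := (QuotientAddGroup.eq_zero_iff _).mp h1
  rw [AddSubgroup.mem_addSubgroupOf] at h2
  obtain ⟨u, hu, hD⟩ := h2
  exact ⟨D, u, rfl, hu, hS, fun v => by simpa using hD v⟩

end Moving

end Fermat.Agent.S34
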