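import Mathlib
import Fermat.Agent.S34.GalPic
import Fermat.Agent.S34.GalField

/-!
# P19 (S34), block GAL, leaf R1 (second team): rational places

Generic in `F₀ : IntermediateField ℚ (LaurentSeries ℚ)`; `𝔽 = laurentBaseChange ℚ̄ F₀`.

* `s34galRational_smul_B`: for `L / ℚ` normal, the Galois conjugates of an `L`-rational place are
  `L`-rational;
* `s34gal_value_smul_B`: `ord_{σP} (σ f - σ c) = ord_P (f - c)`;
* `s34galRational_value_B`: the value at an `L`-rational place of a function defined over `L`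
  lies in `L`.
-/

set_option autoImplicit false

namespace Fermat.Agent.S34

open AlgebraicCurve ModularCurve IntermediateField

local notation "Qb" => AlgebraicClosure ℚ

variable (F₀ : IntermediateField ℚ (LaurentSeries ℚ))

theorem s34galRB_isGalois : IsGalois ℚ Qb := by
  have h1 : Algebra.IsAlgebraic ℚ Qb := AlgebraicClosure.isAlgebraic ℚ
  have h2 : IsAlgClosure ℚ Qb := ⟨inferInstance, h1⟩
  infer_instance

/-- A normal intermediate field is stable under the Galois group. -/
theorem s34galRB_map_mem {L : IntermediateField ℚ Qb} [Normal ℚ ↥L] (σ : Qb ≃ₐ[ℚ] Qb) {a : Qb}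
    (ha : a ∈ L) : σ a ∈ L := by
  have h := AlgEquiv.restrictNormal_commutes σ ↥L ⟨a, ha⟩
  have h2 : σ a = ((σ.restrictNormal ↥L ⟨a, ha⟩ : ↥L) : Qb) := h.symm
  rw [h2]
  exact SetLike.coe_mem _

/-- For `L / ℚ` normal, the Galois conjugates of an `L`-rational place are `L`-rational. -/
theorem s34galRational_smul_B {L : IntermediateField ℚ Qb} [Normal ℚ ↥L] (σ : Qb ≃ₐ[ℚ] Qb)
    {P : Place Qb ↥(laurentBaseChange Qb F₀)} (hP : s34galRational F₀ L P) :
    s34galRational F₀ L (arithmeticGalois F₀ σ • P) := by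
  intro σ' hσ'
  have hfix : ∀ a ∈ L, (σ⁻¹ * σ' * σ) a = a := by
    intro a ha
    show σ⁻¹ (σ' (σ a)) = a
    rw [hσ' (σ a) (s34galRB_map_mem σ ha)]
    exact σ.symm_apply_apply a
  have h1 := hP (σ⁻¹ * σ' * σ) hfix
  rw [map_mul, map_mul, mul_smul, mul_smul, map_inv] at h1
  have h2 := congrArg (fun Q => arithmeticGalois F₀ σ • Q) h1
  simp only [smul_inv_smul] at h2
  exact h2

/-- `ord_{σP} (σ f - σ c) = ord_P (f - c)`. -/
theorem s34gal_value_smul_B (σ : Qb ≃ₐ[ℚ] Qb) (P : Place Qb ↥(laurentBaseChange Qb F₀))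
    (f : ↥(laurentBaseChange Qb F₀)) (c : Qb) :
    (arithmeticGalois F₀ σ • P).ord
        (arithmeticGalois F₀ σ • f - algebraMap Qb ↥(laurentBaseChange Qb F₀) (σ c)) =
      P.ord (f - algebraMap Qb ↥(laurentBaseChange Qb F₀) c) := by
  have h1 : arithmeticGalois F₀ σ • (f - algebraMap Qb ↥(laurentBaseChange Qb F₀) c) =
      arithmeticGalois F₀ σ • f - algebraMap Qb ↥(laurentBaseChange Qb F₀) (σ c) := by
    rw [smul_sub, SemilinearAut.smul_algebraMap]
    rfl
  rw [← h1]
  exact SemilinearAut.ord_smul (arithmeticGalois F₀ σ) P _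

/-- The value at an `L`-rational place of a function defined over `L` lies in `L`. -/
theorem s34galRational_value_B {L : IntermediateField ℚ Qb}
    {P : Place Qb ↥(laurentBaseChange Qb F₀)} (hP : s34galRational F₀ L P)
    (f : ↥(laurentBaseChange (↥L) F₀)) {c : Qb}
    (hc : 0 < P.ord (s34galEmb F₀ L f - algebraMap Qb ↥(laurentBaseChange Qb F₀) c)) :
    c ∈ L := by
  have hfixed : ∀ σ : Qb ≃ₐ[ℚ] Qb, (∀ a ∈ L, σ a = a) → σ c = c := by
    intro σ hσ
    by_contra hne
    have h1 := s34gal_value_smul_B F₀ σ P (s34galEmb F₀ L f) c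
    rw [hP σ hσ, s34gal_smul_emb_of_fix F₀ L σ hσ f] at h1
    have h2 : 0 < P.ord (s34galEmb F₀ L f - algebraMap Qb ↥(laurentBaseChange Qb F₀) (σ c)) := by
      rw [h1]; exact hc
    have hx0 : s34galEmb F₀ L f - algebraMap Qb ↥(laurentBaseChange Qb F₀) c ≠ 0 := by
      intro h0
      rw [h0, Place.ord_zero] at hc
      exact lt_irrefl _ hc
    have hy0 : s34galEmb F₀ L f - algebraMap Qb ↥(laurentBaseChange Qb F₀) (σ c) ≠ 0 := by
      intro h0
      rw [h0, Place.ord_zero] at h2
      exact lt_irrefl _ h2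
    have hdiff : (s34galEmb F₀ L f - algebraMap Qb ↥(laurentBaseChange Qb F₀) c) +
        -(s34galEmb F₀ L f - algebraMap Qb ↥(laurentBaseChange Qb F₀) (σ c)) =
        algebraMap Qb ↥(laurentBaseChange Qb F₀) (σ c - c) := by
      rw [map_sub]; ring
    have hconst : algebraMap Qb ↥(laurentBaseChange Qb F₀) (σ c - c) ≠ 0 := by
      rw [Ne, map_eq_zero_iff _ (algebraMap Qb ↥(laurentBaseChange Qb F₀)).injective]
      exact sub_ne_zero.mpr hne
    have h3 := Fermat.Agent.S24.PlacesBasic.min_ord_le_ord_add P hx0 (neg_ne_zero.mpr hy0)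
      (by rw [hdiff]; exact hconst)
    rw [hdiff, Fermat.Agent.S24.PlacesBasic.ord_algebraMap,
      Fermat.Agent.S24.PlacesBasic.ord_neg] at h3
    have h4 : 0 < min (P.ord (s34galEmb F₀ L f - algebraMap Qb ↥(laurentBaseChange Qb F₀) c))
        (P.ord (s34galEmb F₀ L f - algebraMap Qb ↥(laurentBaseChange Qb F₀) (σ c))) :=
      lt_min hc h2
    exact absurd h3 (not_le.mpr h4)
  have hmem : c ∈ IntermediateField.fixedField L.fixingSubgroup := by
    rw [IntermediateField.mem_fixedField_iff]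
    intro σ hσ
    refine hfixed σ fun a ha => ?_
    exact (IntermediateField.mem_fixingSubgroup_iff L σ).mp hσ a ha
  have hgal := s34galRB_isGalois
  rwa [InfiniteGalois.fixedField_fixingSubgroup] at hmem

end Fermat.Agent.S34
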