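import Mathlib
import Fermat.Prelude.Def_ModularCurve_ArithmeticGalois
import Fermat.Agent.S18.NumField
import Fermat.Agent.S18.Char0DegK
import Fermat.Agent.S24.PlacesSetup
import Fermat.Agent.S24.FFLAlg
import Fermat.Agent.S37.ALEmb
import Fermat.Agent.S34.AbsNoeth

/-!
# P19 (S34), integration: the concrete setting (`S34/GeoSetup.lean`)

The concrete objects of the proof of GEO are, for a number field `K ⊆ ℚ̄` (normal over `ℚ`), a
valuation subring `A` of `ℚ̄` over the prime `q`, and a level `N`:

* `F = ↥(laurentBaseChange ↥K F₀)` (`F₀ = modularFunctionFieldFull N`, so `F = S24.FFL ↥K N`);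
* `Λ = ↥(S18.NumField.lam A K).toSubring`, a discrete valuation ring with fraction field `K`;
* `j = S24.jL ↥K N`.

This file provides

* shortcut instances for the algebra structures `K → F`, `S → F` (`S` a subring of `K`) and the
  tower `S → K → F` (the default instance search is very slow on these carriers; the shortcuts
  are the instances the default search finds, declared with higher priority);
* the ring-theoretic facts about `Λ` (`s34geo_isDVR`, `s34geo_isFractionRing`,
  `s34geo_exists_irreducible`, `s34geo_isUnit_natCast`, roots of unity);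
* the choice of the number field (`s34geo_exists_normal`, `s34geo_exists_primitiveRoot`);
* the function-field facts: `s34geo_finiteDimensional_jL` (for every field of characteristic
  zero), the Dedekind and fraction-ring instances of the two `K`-charts and the noetherian
  property of the two `Λ`-charts.
-/

set_option autoImplicit false
set_option linter.style.haveILetI false

namespace Fermat.Agent.S34

open ModularCurve IntermediateField

local notation "Qb" => AlgebraicClosure ℚ

/-! ### Shortcut instances -/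

section Inst

variable (K : IntermediateField ℚ Qb) (F₀ : IntermediateField ℚ (LaurentSeries ℚ))
  {C : Type*} [SetLike C ↥K] [SubsemiringClass C ↥K] (S : C)

/-- Shortcut: `F_K` as a `K`-algebra. -/
noncomputable instance (priority := 1100) s34geoAlgK :
    Algebra ↥K ↥(laurentBaseChange ↥K F₀) :=
  SubalgebraClass.toAlgebra (laurentBaseChange ↥K F₀)

/-- Shortcut: `F_K` as a `K`-module. -/
noncomputable instance (priority := 1100) s34geoModK :
    Module ↥K ↥(laurentBaseChange ↥K F₀) :=
  Algebra.toModule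

/-- Shortcut: the scalar action of `K` on `F_K`. -/
noncomputable instance (priority := 1100) s34geoSMulK :
    SMul ↥K ↥(laurentBaseChange ↥K F₀) :=
  Algebra.toSMul

/-- Shortcut: `F_K` as an algebra over a subring `S` of `K`. -/
noncomputable instance (priority := 1050) s34geoAlgSub :
    Algebra ↥S ↥(laurentBaseChange ↥K F₀) :=
  Algebra.ofSubsemiring S

/-- Shortcut: `F_K` as a module over a subring `S` of `K`. -/
noncomputable instance (priority := 1050) s34geoModSub :
    Module ↥S ↥(laurentBaseChange ↥K F₀) :=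
  Algebra.toModule

/-- Shortcut: the scalar action of a subring `S` of `K` on `F_K`. -/
noncomputable instance (priority := 1050) s34geoSMulSub :
    SMul ↥S ↥(laurentBaseChange ↥K F₀) :=
  Algebra.toSMul

/-- Shortcut: the tower `S → K → F_K`. -/
instance (priority := 1050) s34geoTowerSub :
    IsScalarTower ↥S ↥K ↥(laurentBaseChange ↥K F₀) :=
  IsScalarTower.of_algebraMap_eq (fun _ => rfl)

end Inst

/-! ### The discrete valuation ring `Λ = A ∩ K` -/

section Lam

open Fermat.Agent.S18.NumField

variable (A : ValuationSubring Qb) {q : ℕ} [Fact q.Prime]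
  (K : IntermediateField ℚ Qb) [FiniteDimensional ℚ ↥K]

/-- `Λ` (as a subring of `K`) is a discrete valuation ring. -/
theorem s34geo_isDVR (hA : A.LiesOverPrime q) :
    IsDiscreteValuationRing ↥(lam A K).toSubring :=
  isDiscreteValuationRing_lam K hA

omit [FiniteDimensional ℚ ↥K] in
/-- `K` is the fraction field of `Λ` (as a subring of `K`). -/
theorem s34geo_isFractionRing : IsFractionRing ↥(lam A K).toSubring ↥K :=
  inferInstanceAs (IsFractionRing ↥(lam A K) ↥K)

/-- `Λ` has a uniformiser. -/
theorem s34geo_exists_irreducible (hA : A.LiesOverPrime q) :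
    ∃ ϖ : ↥(lam A K).toSubring, Irreducible ϖ :=
  exists_irreducible_lam hA

omit [FiniteDimensional ℚ ↥K] in
/-- A natural number prime to `q` is a unit of `Λ`. -/
theorem s34geo_isUnit_natCast (hA : A.LiesOverPrime q) {m : ℕ} (hm : ¬ q ∣ m) :
    IsUnit ((m : ℕ) : ↥(lam A K).toSubring) :=
  isUnit_natCast_lam hA hm

end Lam

/-! ### The choice of the number field -/

section Field

open Fermat.Agent.S18.NumField

/-- `ℚ̄ / ℚ` is normal. -/
theorem s34geo_normal_Qb : Normal ℚ Qb :=
  @IsAlgClosure.normal ℚ Qb _ _ _ ⟨inferInstance, AlgebraicClosure.isAlgebraic ℚ⟩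

/-- Every number field is contained in a number field which is normal over `ℚ`. -/
theorem s34geo_exists_normal (K₀ : IntermediateField ℚ Qb) [FiniteDimensional ℚ ↥K₀] :
    ∃ K : IntermediateField ℚ Qb, K₀ ≤ K ∧ Normal ℚ ↥K ∧ FiniteDimensional ℚ ↥K := by
  have hn : Normal ℚ Qb := s34geo_normal_Qb
  exact ⟨IntermediateField.normalClosure ℚ ↥K₀ Qb, K₀.le_normalClosure,
    normalClosure.normal ℚ ↥K₀ Qb, normalClosure.is_finiteDimensional ℚ ↥K₀ Qb⟩

/-- Every number field embeds into `ℂ`. -/
theorem s34geo_nonempty_emb (K : IntermediateField ℚ Qb) : Nonempty (↥K →+* ℂ) := by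
  haveI : Algebra.IsAlgebraic ℚ Qb := AlgebraicClosure.isAlgebraic ℚ
  exact ⟨((IsAlgClosed.lift : Qb →ₐ[ℚ] ℂ) : Qb →+* ℂ).comp (algebraMap ↥K Qb)⟩

/-- A primitive `m`-th root of unity in every sufficiently large number field, lying in
`Λ = A ∩ K`. -/
theorem s34geo_exists_root (A : ValuationSubring Qb) (m : ℕ) (hm : m ≠ 0) :
    ∃ K₀ : IntermediateField ℚ Qb, FiniteDimensional ℚ ↥K₀ ∧
      ∀ K : IntermediateField ℚ Qb, K₀ ≤ K →
        ∃ ζ : ↥K, IsPrimitiveRoot ζ m ∧ ζ ∈ (lam A K).toSubring := by
  haveI : NeZero (m : Qb) := ⟨Nat.cast_ne_zero.mpr hm⟩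
  haveI : NeZero m := ⟨hm⟩
  obtain ⟨ζ₀, hζ₀⟩ := HasEnoughRootsOfUnity.exists_primitiveRoot Qb m
  obtain ⟨K₀, hK₀, hs⟩ := exists_finiteDimensional_intermediateField {ζ₀} (Set.finite_singleton ζ₀)
  refine ⟨K₀, hK₀, fun K hK => ?_⟩
  have hmem : ζ₀ ∈ K := hK (hs (Set.mem_singleton ζ₀))
  have hζ : IsPrimitiveRoot (⟨ζ₀, hmem⟩ : ↥K) m :=
    IsPrimitiveRoot.of_map_of_injective (f := algebraMap ↥K Qb) hζ₀ (algebraMap ↥K Qb).injective
  exact ⟨⟨ζ₀, hmem⟩, hζ, mem_lam_of_isPrimitiveRoot (Nat.pos_of_ne_zero hm) hζ⟩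

/-- A primitive `m`-th root of unity in `Λ`, for every sufficiently large number field. -/
theorem s34geo_exists_primitiveRoot (A : ValuationSubring Qb) (m : ℕ) (hm : m ≠ 0) :
    ∃ K₀ : IntermediateField ℚ Qb, FiniteDimensional ℚ ↥K₀ ∧
      ∀ K : IntermediateField ℚ Qb, K₀ ≤ K →
        ∃ ζ : ↥(lam A K).toSubring, IsPrimitiveRoot ζ m := by
  obtain ⟨K₀, hK₀, h⟩ := s34geo_exists_root A m hm
  refine ⟨K₀, hK₀, fun K hK => ?_⟩
  obtain ⟨ζ, hζ, hζΛ⟩ := h K hK
  exact ⟨⟨ζ, hζΛ⟩, IsPrimitiveRoot.of_map_of_injective (f := (lam A K).toSubring.subtype)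
    hζ Subtype.val_injective⟩

/-- A primitive `m`-th root of unity of `K` (as a unit) lying in `Λ`, for every sufficiently large
number field (the shape used by `KronInt`). -/
theorem s34geo_exists_primitiveRoot_unit (A : ValuationSubring Qb) (m : ℕ) (hm : m ≠ 0) :
    ∃ K₀ : IntermediateField ℚ Qb, FiniteDimensional ℚ ↥K₀ ∧
      ∀ K : IntermediateField ℚ Qb, K₀ ≤ K →
        ∃ ζ : (↥K)ˣ, IsPrimitiveRoot ζ m ∧ (ζ : ↥K) ∈ (lam A K).toSubring := by
  obtain ⟨K₀, hK₀, h⟩ := s34geo_exists_root A m hm
  refine ⟨K₀, hK₀, fun K hK => ?_⟩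
  obtain ⟨ζ, hζ, hζΛ⟩ := h K hK
  have hu : IsUnit ζ := hζ.isUnit hm
  refine ⟨hu.unit, ?_, hζΛ⟩
  exact IsPrimitiveRoot.of_map_of_injective (f := Units.coeHom ↥K)
    (by simpa using hζ) Units.val_injective

end Field

/-! ### The function field -/

section FunctionField

variable (L : Type*) [Field L] [Algebra ℚ L] (N : ℕ) [NeZero N]

/-- The `q`-expansion of `j ∈ F_N(L)`. -/
theorem s34geo_coe_jL :
    ((Fermat.Agent.S24.jL L N : ↥(laurentBaseChange L (modularFunctionFieldFull N))) :
      LaurentSeries L) = jqModC L := by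
  show coeffEmb L jq = jqModC L
  rw [coeffEmb, ← jqModC_rat, coeffMap_jqModC]

/-- Transport of finiteness along an equality of intermediate fields. -/
theorem s34geo_finiteDimensional_of_eq {K Ω : Type*} [Field K] [Field Ω] [Algebra K Ω]
    {E E' : IntermediateField K Ω} (h : E = E') (x : ↥E) (x' : ↥E') (hx : (x : Ω) = (x' : Ω))
    (hfd : FiniteDimensional ↥(K⟮x'⟯) ↥E') : FiniteDimensional ↥(K⟮x⟯) ↥E := by
  subst h
  obtain rfl : x = x' := Subtype.ext hx
  exact hfd

/-- `F_N(L)` is finite over `L(j)`, for every field `L` of characteristic zero. -/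
theorem s34geo_finiteDimensional_jL :
    FiniteDimensional ↥(L⟮Fermat.Agent.S24.jL L N⟯) (Fermat.Agent.S24.FFL L N) := by
  haveI : CharZero L := algebraRat.charZero L
  exact s34geo_finiteDimensional_of_eq (Fermat.Agent.S37.ALEmb.baseChange_eq_fullC L N)
    (Fermat.Agent.S24.jL L N) (Fermat.Agent.S18.GaussL.jC L N)
    ((s34geo_coe_jL L N).trans (Fermat.Agent.S18.GaussL.coe_jC L N).symm)
    (Fermat.Agent.S18.Char0DegK.finrank_adjoin_jC_le L N).1

/-- `F_N(L)` is finite over `L(j⁻¹)`. -/
theorem s34geo_finiteDimensional_jL_inv :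
    FiniteDimensional ↥(L⟮(Fermat.Agent.S24.jL L N)⁻¹⟯) (Fermat.Agent.S24.FFL L N) := by
  have hadj : L⟮(Fermat.Agent.S24.jL L N)⁻¹⟯ = L⟮Fermat.Agent.S24.jL L N⟯ := by
    apply le_antisymm
    · rw [adjoin_simple_le_iff]
      exact inv_mem (mem_adjoin_simple_self L _)
    · rw [adjoin_simple_le_iff]
      have := inv_mem (mem_adjoin_simple_self L (Fermat.Agent.S24.jL L N)⁻¹)
      rwa [inv_inv] at this
  rw [hadj]
  exact s34geo_finiteDimensional_jL L N

/-- `j⁻¹` is transcendental over `L`. -/
theorem s34geo_transcendental_jL_inv : Transcendental L (Fermat.Agent.S24.jL L N)⁻¹ := by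
  intro h
  exact Fermat.Agent.S24.transcendental_jL N L (by simpa using h.inv)

/-- The chart `j` of the generic fibre is a Dedekind domain. -/
theorem s34geo_isDedekindDomain_fin :
    IsDedekindDomain ↥(integralClosure (Algebra.adjoin L {Fermat.Agent.S24.jL L N})
      (Fermat.Agent.S24.FFL L N)) := by
  haveI : CharZero L := algebraRat.charZero L
  haveI := s34geo_finiteDimensional_jL L N
  exact Fermat.Agent.S24.PlacesSetup.isDedekindDomain (Fermat.Agent.S24.transcendental_jL N L)

/-- The chart `j` of the generic fibre has fraction field `F_N(L)`. -/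
theorem s34geo_isFractionRing_fin :
    IsFractionRing ↥(integralClosure (Algebra.adjoin L {Fermat.Agent.S24.jL L N})
      (Fermat.Agent.S24.FFL L N)) (Fermat.Agent.S24.FFL L N) := by
  haveI := s34geo_finiteDimensional_jL L N
  exact Fermat.Agent.S24.PlacesSetup.isFractionRing

/-- The chart `j⁻¹` of the generic fibre is a Dedekind domain. -/
theorem s34geo_isDedekindDomain_inv :
    IsDedekindDomain ↥(integralClosure (Algebra.adjoin L {(Fermat.Agent.S24.jL L N)⁻¹})
      (Fermat.Agent.S24.FFL L N)) := by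
  haveI : CharZero L := algebraRat.charZero L
  haveI := s34geo_finiteDimensional_jL_inv L N
  exact Fermat.Agent.S24.PlacesSetup.isDedekindDomain (s34geo_transcendental_jL_inv L N)

/-- The chart `j⁻¹` of the generic fibre has fraction field `F_N(L)`. -/
theorem s34geo_isFractionRing_inv :
    IsFractionRing ↥(integralClosure (Algebra.adjoin L {(Fermat.Agent.S24.jL L N)⁻¹})
      (Fermat.Agent.S24.FFL L N)) (Fermat.Agent.S24.FFL L N) := by
  haveI := s34geo_finiteDimensional_jL_inv L N
  exact Fermat.Agent.S24.PlacesSetup.isFractionRing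

end FunctionField

end Fermat.Agent.S34
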