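import Mathlib
import Fermat.Agent.S34.KronDefs
import Fermat.Agent.S34.KronTwoVal
import Fermat.Agent.S18.GaussOut
import Fermat.Agent.S18.GaussLineA
import Fermat.Agent.S18.GaussLineB

/-!
# P19 (S34), block INST, leaf V4 / V4' (FRAC at the good level `M`), third proof

`F_M = laurentBaseChange L (modularFunctionFieldFull M)`, `j = S24.jL L M`, `Λ : Subring L` a
Gauss ring (`IsGaussRing Λ π res`), `V_M = GaussL.gaussV Λ res F_M`, `(M : k) ≠ 0`.

* `inst_frac_fin_C` : every `c ∈ V_M` has a denominator `a'` integral over `Λ[j]`, with nonzero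
  reduction, such that `a' * c` is integral over `Λ[j]`;
* `inst_frac_inv_C` : the same for the chart `Λ[j⁻¹]`.

Proof: `c` is integral over the Gauss ring `gaussSub π j` of the `j`-line
(`S18.GaussOut.isIntegral_gaussSub`, in the `modularFunctionFieldFullC` convention), and
`S18.GaussLineK.exists_isIntegral_aeval_mul` clears the denominators by the value `s(j)` of a
polynomial `s` over `Λ` not divisible by `π`; its reduction `s̄(j̄)` is nonzero since `j̄` is
transcendental.  For `j⁻¹`: `gaussSub π j⁻¹ = gaussSub π j` (`S18.GaussLineK.gaussSub_inv`).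
The statements are transported to the `laurentBaseChange` convention by a convention-free form.
-/

set_option autoImplicit false
set_option linter.unusedSectionVars false

namespace Fermat.Agent.S34

open ModularCurve AlgebraicCurve Polynomial
open Fermat.Agent.S18 Fermat.Agent.S28 Fermat.Agent.S28.FreeBasisAbs

section FullC

variable {K k : Type*} [Field K] [Field k] {Λ : Subring K} {π : K} {res : ↥Λ →+* k}
variable (hΛ : IsGaussRing Λ π res) (N : ℕ) [NeZero N]

set_option synthInstance.maxHeartbeats 400000 in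
/-- `j` is transcendental over `Λ`. -/
theorem instFrac_transcendental_jC : Transcendental ↥Λ (GaussL.jC K N) := by
  rw [transcendental_iff]
  intro p hp0
  by_contra hp
  apply hp
  have h1 : aeval (GaussL.jC K N) (p.map Λ.subtype) = 0 := by
    rw [GaussOut.aeval_map_subtype]; exact hp0
  have h2 := congrArg (algebraMap ↥(modularFunctionFieldFullC K N) (LaurentSeries K)) h1
  rw [← Polynomial.aeval_algebraMap_apply, map_zero] at h2
  have h3 : p.map Λ.subtype = 0 := by
    by_contra h3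
    exact FreeBasisRed.aeval_jqModC_ne_zero K h3 h2
  exact (Polynomial.map_eq_zero_iff Λ.subtype_injective).mp h3

set_option synthInstance.maxHeartbeats 400000 in
include hΛ in
/-- FRAC, chart `t = j`, `fullC` form. -/
theorem instFrac_fullC_fin [CharZero K] (hN : (N : k) ≠ 0)
    {c : ↥(modularFunctionFieldFullC K N)}
    (hc : c ∈ GaussL.gaussV Λ res (modularFunctionFieldFullC K N)) :
    ∃ a' : ↥(modularFunctionFieldFullC K N),
      IsIntegral (Algebra.adjoin ↥Λ {GaussL.jC K N}) a' ∧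
      IsIntegral (Algebra.adjoin ↥Λ {GaussL.jC K N}) (a' * c) ∧
      ∃ ha' : a' ∈ GaussL.gaussV Λ res (modularFunctionFieldFullC K N),
        GaussL.gaussRed Λ res (modularFunctionFieldFullC K N) ⟨a', ha'⟩ ≠ 0 := by
  have h1 := GaussOut.isIntegral_gaussSub hΛ N hN hc
  obtain ⟨s, hs, hint⟩ := GaussLineK.exists_isIntegral_aeval_mul (GaussL.piL hΛ)
    (GaussL.prime_piL hΛ) c h1
  have hs' : s.map res ≠ 0 := fun h0 => hs ((GaussL.C_piL_dvd_iff hΛ s).2 h0)
  refine ⟨aeval (GaussL.jC K N) s, ?_, hint, ?_⟩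
  · exact isIntegral_algebraMap (R := ↥(Algebra.adjoin ↥Λ {GaussL.jC K N}))
      (x := ⟨_, GaussLineK.aeval_mem_adjoin (GaussL.jC K N) s⟩)
  · have e : aeval (GaussL.jC K N) s = aeval (GaussL.jC K N) (s.map Λ.subtype) :=
      (GaussOut.aeval_map_subtype N (GaussL.jC K N) s).symm
    rw [e]
    exact ⟨GaussL.aeval_map_mem_gaussV Λ res N s, GaussL.gaussRed_aeval_map_ne_zero Λ res N hs'⟩

set_option synthInstance.maxHeartbeats 400000 in
include hΛ in
/-- FRAC, chart `t = j⁻¹`, `fullC` form. -/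
theorem instFrac_fullC_inv [CharZero K] (hN : (N : k) ≠ 0)
    {c : ↥(modularFunctionFieldFullC K N)}
    (hc : c ∈ GaussL.gaussV Λ res (modularFunctionFieldFullC K N)) :
    ∃ a' : ↥(modularFunctionFieldFullC K N),
      IsIntegral (Algebra.adjoin ↥Λ {(GaussL.jC K N)⁻¹}) a' ∧
      IsIntegral (Algebra.adjoin ↥Λ {(GaussL.jC K N)⁻¹}) (a' * c) ∧
      ∃ ha' : a' ∈ GaussL.gaussV Λ res (modularFunctionFieldFullC K N),
        GaussL.gaussRed Λ res (modularFunctionFieldFullC K N) ⟨a', ha'⟩ ≠ 0 := by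
  have ht : Transcendental ↥Λ (GaussL.jC K N) := instFrac_transcendental_jC N
  have h1 := GaussOut.isIntegral_gaussSub hΛ N hN hc
  rw [← GaussLineK.gaussSub_inv (GaussL.piL hΛ) (GaussL.prime_piL hΛ) ht] at h1
  obtain ⟨s, hs, hint⟩ := GaussLineK.exists_isIntegral_aeval_mul (GaussL.piL hΛ)
    (GaussL.prime_piL hΛ) c h1
  have hs' : s.map res ≠ 0 := fun h0 => hs ((GaussL.C_piL_dvd_iff hΛ s).2 h0)
  refine ⟨aeval (GaussL.jC K N)⁻¹ s, ?_, hint, ?_⟩
  · exact isIntegral_algebraMap (R := ↥(Algebra.adjoin ↥Λ {(GaussL.jC K N)⁻¹}))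
      (x := ⟨_, GaussLineK.aeval_mem_adjoin (GaussL.jC K N)⁻¹ s⟩)
  · -- `j⁻¹` as an element of the Gauss valuation ring
    set u : ↥(GaussL.gaussV Λ res (modularFunctionFieldFullC K N)) :=
      ⟨(GaussL.jC K N)⁻¹, GaussL.jC_inv_mem_gaussV Λ res N⟩ with hu
    have hco : ((aeval u s : ↥(GaussL.gaussV Λ res (modularFunctionFieldFullC K N))) :
        ↥(modularFunctionFieldFullC K N)) = aeval (GaussL.jC K N)⁻¹ s :=
      aeval_subalgebra_coe s _ u
    have hcomp : (GaussL.gaussRed Λ res (modularFunctionFieldFullC K N)).comp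
        (algebraMap ↥Λ ↥(GaussL.gaussV Λ res (modularFunctionFieldFullC K N))) =
        (algebraMap k (LaurentSeries k)).comp res := by
      ext a : 1
      rw [RingHom.comp_apply, GaussL.gaussRed_algebraMap, RingHom.comp_apply,
        GaussL.algebraMap_eq_C (res a)]
    have hred : GaussL.gaussRed Λ res (modularFunctionFieldFullC K N) (aeval u s) =
        aeval (jqModC k)⁻¹ (s.map res) := by
      rw [aeval_def, hom_eval₂, aeval_def, eval₂_map, hcomp]
      congr 1
      exact GaussL.gaussRed_jC_inv Λ res N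
    have htk : Transcendental k (jqModC k)⁻¹ := by
      have h0 : Transcendental k (jqModC k) := by
        rw [transcendental_iff]
        intro p hp0
        by_contra hp
        exact FreeBasisRed.aeval_jqModC_ne_zero k hp hp0
      exact GaussLineK.transcendental_inv h0
    have hmem : aeval (GaussL.jC K N)⁻¹ s ∈ GaussL.gaussV Λ res (modularFunctionFieldFullC K N) := by
      rw [← hco]; exact (aeval u s).2
    refine ⟨hmem, ?_⟩
    have e : (⟨aeval (GaussL.jC K N)⁻¹ s, hmem⟩ :
        ↥(GaussL.gaussV Λ res (modularFunctionFieldFullC K N))) = aeval u s :=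
      Subtype.ext hco.symm
    rw [e, hred]
    exact GaussLineK.aeval_ne_zero htk hs'

end FullC

/-! ### Convention-free forms

`𝔉` is any name for the field `F_N(K) ⊂ K((T))` (`modularFunctionFieldFullC K N` or
`laurentBaseChange K (modularFunctionFieldFull N)`), `j : 𝔉` any name for `j`. -/

section Generic

variable {K k : Type*} [Field K] [Field k] {Λ : Subring K} {π : K} {res : ↥Λ →+* k}
variable (hΛ : IsGaussRing Λ π res) (N : ℕ) [NeZero N]

set_option synthInstance.maxHeartbeats 400000 in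
include hΛ in
/-- FRAC, chart `t = j`, convention-free form. -/
theorem instFrac_fin_of_eq [CharZero K] (hN : (N : k) ≠ 0)
    (𝔉 : IntermediateField K (LaurentSeries K)) (h𝔉 : 𝔉 = modularFunctionFieldFullC K N)
    (j : ↥𝔉) (hj : (j : LaurentSeries K) = jqModC K) {c : ↥𝔉}
    (hc : c ∈ GaussL.gaussV Λ res 𝔉) :
    ∃ a' : ↥𝔉, IsIntegral (Algebra.adjoin ↥Λ {j}) a' ∧
      IsIntegral (Algebra.adjoin ↥Λ {j}) (a' * c) ∧
      ∃ ha' : a' ∈ GaussL.gaussV Λ res 𝔉, GaussL.gaussRed Λ res 𝔉 ⟨a', ha'⟩ ≠ 0 := by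
  subst h𝔉
  have hj' : j = GaussL.jC K N := Subtype.ext hj
  subst hj'
  exact instFrac_fullC_fin hΛ N hN hc

set_option synthInstance.maxHeartbeats 400000 in
include hΛ in
/-- FRAC, chart `t = j⁻¹`, convention-free form. -/
theorem instFrac_inv_of_eq [CharZero K] (hN : (N : k) ≠ 0)
    (𝔉 : IntermediateField K (LaurentSeries K)) (h𝔉 : 𝔉 = modularFunctionFieldFullC K N)
    (j : ↥𝔉) (hj : (j : LaurentSeries K) = jqModC K) {c : ↥𝔉}
    (hc : c ∈ GaussL.gaussV Λ res 𝔉) :
    ∃ a' : ↥𝔉, IsIntegral (Algebra.adjoin ↥Λ {j⁻¹}) a' ∧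
      IsIntegral (Algebra.adjoin ↥Λ {j⁻¹}) (a' * c) ∧
      ∃ ha' : a' ∈ GaussL.gaussV Λ res 𝔉, GaussL.gaussRed Λ res 𝔉 ⟨a', ha'⟩ ≠ 0 := by
  subst h𝔉
  have hj' : j = GaussL.jC K N := Subtype.ext hj
  subst hj'
  exact instFrac_fullC_inv hΛ N hN hc

end Generic

/-! ### The pinned statements (note 886, leaf V4 / V4'), third proof (suffix `_C`) -/

variable {L k : Type*} [Field L] [Algebra ℚ L] [Field k] {Λ : Subring L} {π : L}
  {res : ↥Λ →+* k}

section V
variable (ι : L →+* ℂ) (M q : ℕ) [NeZero M] [NeZero q] (hcop : Nat.Coprime M q)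

/-- (V4) FRAC: `V_M` is the fin chart ring localised at the Gauss prime (`q ∤ M`). -/
theorem inst_frac_fin_C [CharZero L] (hΛ : IsGaussRing Λ π res) (hq : q.Prime) [CharP k q]
    (hcop : Nat.Coprime M q)
    {c : ↥(laurentBaseChange L (modularFunctionFieldFull M))}
    (hc : c ∈ GaussL.gaussV Λ res (laurentBaseChange L (modularFunctionFieldFull M))) :
    ∃ a' : ↥(laurentBaseChange L (modularFunctionFieldFull M)),
      IsIntegral (Algebra.adjoin ↥Λ {Fermat.Agent.S24.jL L M}) a' ∧
      IsIntegral (Algebra.adjoin ↥Λ {Fermat.Agent.S24.jL L M}) (a' * c) ∧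
      ∃ ha' : a' ∈ GaussL.gaussV Λ res (laurentBaseChange L (modularFunctionFieldFull M)),
        GaussL.gaussRed Λ res (laurentBaseChange L (modularFunctionFieldFull M)) ⟨a', ha'⟩ ≠ 0 :=
  instFrac_fin_of_eq hΛ M (ktv_natCast_ne_zero_of_coprime M q hcop hq) _
    (Fermat.Agent.S37.ALEmb.baseChange_eq_fullC L M) (Fermat.Agent.S24.jL L M) (ktv_coe_jL M) hc

/-- (V4') FRAC for the chart `j⁻¹`. -/
theorem inst_frac_inv_C [CharZero L] (hΛ : IsGaussRing Λ π res) (hq : q.Prime) [CharP k q]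
    (hcop : Nat.Coprime M q)
    {c : ↥(laurentBaseChange L (modularFunctionFieldFull M))}
    (hc : c ∈ GaussL.gaussV Λ res (laurentBaseChange L (modularFunctionFieldFull M))) :
    ∃ a' : ↥(laurentBaseChange L (modularFunctionFieldFull M)),
      IsIntegral (Algebra.adjoin ↥Λ {(Fermat.Agent.S24.jL L M)⁻¹}) a' ∧
      IsIntegral (Algebra.adjoin ↥Λ {(Fermat.Agent.S24.jL L M)⁻¹}) (a' * c) ∧
      ∃ ha' : a' ∈ GaussL.gaussV Λ res (laurentBaseChange L (modularFunctionFieldFull M)),
        GaussL.gaussRed Λ res (laurentBaseChange L (modularFunctionFieldFull M)) ⟨a', ha'⟩ ≠ 0 :=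
  instFrac_inv_of_eq hΛ M (ktv_natCast_ne_zero_of_coprime M q hcop hq) _
    (Fermat.Agent.S37.ALEmb.baseChange_eq_fullC L M) (Fermat.Agent.S24.jL L M) (ktv_coe_jL M) hc

end V

end Fermat.Agent.S34
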