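import Mathlib
import Fermat.Agent.S34.KronDefs
import Fermat.Agent.S34.KronTwoVal
import Fermat.Agent.S18.GaussLineK
import Fermat.Agent.S24.FFLAlg

/-!
# P19 (S34), block INST, FIN chart package: leaves V2 + V3 (second team)

* `inst_mem_kronO_of_isIntegral_B` : elements integral over `Λ[j]` lie in `𝒪`;
* `inst_sat_fin_B` : the fin chart ring is `π`-saturated in `𝒪`.
-/

set_option autoImplicit false

namespace Fermat.Agent.S34

open ModularCurve AlgebraicCurve Polynomial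
open Fermat.Agent.S18 Fermat.Agent.S28 Fermat.Agent.S28.FreeBasisAbs

variable {L k : Type*} [Field L] [Algebra ℚ L] [Field k] {Λ : Subring L} {π : L}
  {res : ↥Λ →+* k}

omit [Algebra ℚ L] in
/-- A Gauss ring is a discrete valuation ring. -/
theorem instB_isDiscreteValuationRing (hΛ : IsGaussRing Λ π res) :
    IsDiscreteValuationRing ↥Λ := by
  refine IsDiscreteValuationRing.ofHasUnitMulPowIrreducibleFactorization
    ⟨GaussL.piL hΛ, (GaussL.prime_piL hΛ).irreducible, ?_⟩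
  intro x hx
  have hxK : (x : L) ≠ 0 := fun h => hx (Subtype.ext h)
  obtain ⟨n, u, hu, hu', hxu⟩ := hΛ.unit (x : L) hxK
  have hu0 : u ≠ 0 := by
    rintro rfl
    exact hxK (by rw [hxu, mul_zero])
  have hru : res ⟨u, hu⟩ ≠ 0 := hΛ.red_ne_zero_of_unit hu hu' hu0
  rcases le_or_gt 0 n with hn | hn
  · obtain ⟨m, rfl⟩ := Int.eq_ofNat_of_zero_le hn
    refine ⟨m, ⟨⟨⟨u, hu⟩, ⟨u⁻¹, hu'⟩, Subtype.ext (mul_inv_cancel₀ hu0),
      Subtype.ext (inv_mul_cancel₀ hu0)⟩, Subtype.ext ?_⟩⟩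
    rw [hxu, zpow_natCast]
    rfl
  · exfalso
    apply hru
    obtain ⟨m, hm⟩ : ∃ m : ℕ, -n = m + 1 := ⟨(-n - 1).toNat, by omega⟩
    have h1 : u = π * (π ^ m * (x : L)) := by
      rw [hxu, ← mul_assoc, ← mul_assoc, ← pow_succ', ← zpow_natCast, ← zpow_add₀ hΛ.pi_ne_zero]
      have : ((m + 1 : ℕ) : ℤ) + n = 0 := by push_cast; omega
      rw [this, zpow_zero, one_mul]
    have h2 : (⟨u, hu⟩ : ↥Λ) = GaussL.piL hΛ * (GaussL.piL hΛ ^ m * x) := Subtype.ext h1
    rw [h2, map_mul, GaussL.res_piL, zero_mul]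

/-- Integral over `R[t]` implies integral over the Gauss ring of `t`. -/
theorem instB_isIntegral_gaussSub {R 𝔽 : Type*} [CommRing R] [Field 𝔽] [Algebra R 𝔽]
    (ϖ : R) (hϖ : Prime ϖ) (t : 𝔽) {z : 𝔽} (hz : IsIntegral (Algebra.adjoin R {t}) z) :
    IsIntegral (gaussSub ϖ hϖ t) z := by
  obtain ⟨f, hf, hfz⟩ := hz
  have hmem : ∀ r : ↥(Algebra.adjoin R {t}),
      algebraMap ↥(Algebra.adjoin R {t}) 𝔽 r ∈ gaussSub ϖ hϖ t := by
    rintro ⟨r, hr⟩
    rw [Algebra.adjoin_singleton_eq_range_aeval] at hr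
    obtain ⟨a, rfl⟩ := hr
    exact aeval_mem_gaussSub ϖ hϖ t a
  let ι : ↥(Algebra.adjoin R {t}) →+* ↥(gaussSub ϖ hϖ t) :=
    (algebraMap ↥(Algebra.adjoin R {t}) 𝔽).codRestrict (gaussSub ϖ hϖ t) hmem
  have hι : (algebraMap ↥(gaussSub ϖ hϖ t) 𝔽).comp ι = algebraMap ↥(Algebra.adjoin R {t}) 𝔽 := by
    ext r
    rfl
  refine ⟨f.map ι, hf.map ι, ?_⟩
  rw [eval₂_map, hι]
  exact hfz

section V
variable (ι : L →+* ℂ) (M q : ℕ) [NeZero M] [NeZero q] (hcop : Nat.Coprime M q)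

/-- (V2), second team. -/
theorem inst_mem_kronO_of_isIntegral_B [CharZero L] (hΛ : IsGaussRing Λ π res) (hq : q.Prime)
    [CharP k q] {b : ↥(laurentBaseChange L (modularFunctionFieldFull (M * q)))}
    (h : IsIntegral (Algebra.adjoin ↥Λ {Fermat.Agent.S24.jL L (M * q)}) b) :
    b ∈ kronO Λ res ι M q hcop :=
  mem_kronO_of_isIntegral ι M q hcop hΛ hq
    (instB_isIntegral_gaussSub (GaussL.piL hΛ) (GaussL.prime_piL hΛ) _ h)

/-- (V3), second team: saturation of the fin chart ring in `𝒪`. -/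
theorem inst_sat_fin_B [CharZero L] (hΛ : IsGaussRing Λ π res) (hq : q.Prime) [CharP k q]
    {b δ : ↥(laurentBaseChange L (modularFunctionFieldFull (M * q)))}
    (hb : IsIntegral (Algebra.adjoin ↥Λ {Fermat.Agent.S24.jL L (M * q)}) b)
    (hδ : δ ∈ kronO Λ res ι M q hcop) (h : b = algebraMap L _ π * δ) :
    IsIntegral (Algebra.adjoin ↥Λ {Fermat.Agent.S24.jL L (M * q)}) δ := by
  have : IsDiscreteValuationRing ↥Λ := instB_isDiscreteValuationRing hΛ
  have htr : Transcendental ↥Λ (Fermat.Agent.S24.jL L (M * q)) :=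
    Transcendental.restrictScalars (S := L) Subtype.val_injective
      (Fermat.Agent.S24.transcendental_jL (L := L) (N := M * q))
  have hδ' := kronO_isIntegral ι M q hcop hΛ hq hδ
  exact GaussLineK.lemmaK_fin (GaussL.piL hΛ) (GaussL.prime_piL hΛ) htr hb hδ'
    (by rw [h, Algebra.smul_def]; rfl)

end V

end Fermat.Agent.S34
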