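import Mathlib
import Fermat.Agent.S34.KronDefs
import Fermat.Agent.S34.KronBasic
import Fermat.Agent.S34.KronTwoVal
import Fermat.Agent.S34.KronInt
import Fermat.Prelude.Def_ModularCurve_ArithmeticGalois

/-!
# P19 (S34), INST chart package, leaf V1 (second team)

Elements of `F_N` integral over `Λ[j]` (resp. `Λ[j⁻¹]`) lie in the Gauss valuation ring.
-/

set_option autoImplicit false

namespace Fermat.Agent.S34

open ModularCurve AlgebraicCurve Polynomial
open Fermat.Agent.S18 Fermat.Agent.S28 Fermat.Agent.S28.FreeBasisAbs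

variable {L k : Type*} [Field L] [Algebra ℚ L] [Field k] {Λ : Subring L} {π : L}
  {res : ↥Λ →+* k}

/-- Integrality over a subalgebra passes to a larger subalgebra. -/
theorem instV1B_isIntegral_mono {R₀ A : Type*} [CommRing R₀] [CommRing A] [Algebra R₀ A]
    {S₁ S₂ : Subalgebra R₀ A} (h12 : S₁ ≤ S₂) {x : A} (hx : IsIntegral S₁ x) :
    IsIntegral S₂ x := by
  have h := KronInt.isIntegral_map_of_le (RingHom.id A) S₁ S₂ (fun c hc => h12 hc) hx
  simpa using h

theorem instV1B_le_gaussK [CharZero L] (hΛ : IsGaussRing Λ π res) (N : ℕ) [NeZero N] :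
    laurentBaseChange L (modularFunctionFieldFull N) ≤ GaussL.gaussK hΛ := by
  rw [Fermat.Agent.S37.ALEmb.baseChange_eq_fullC L N]
  exact GaussL.full_le_gaussK hΛ N

theorem instV1B_jL_mem (N : ℕ) [NeZero N] :
    Fermat.Agent.S24.jL L N ∈
      GaussL.gaussV Λ res (laurentBaseChange L (modularFunctionFieldFull N)) := by
  have h : ((GaussL.jC L N : ↥(modularFunctionFieldFullC L N)) : LaurentSeries L) ∈
      GaussL.gaussO Λ res := GaussL.jC_mem_gaussV (K := L) Λ res N
  rw [GaussL.coe_jC] at h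
  show ((Fermat.Agent.S24.jL L N : ↥(laurentBaseChange L (modularFunctionFieldFull N))) :
      LaurentSeries L) ∈ GaussL.gaussO Λ res
  rw [ktv_coe_jL]
  exact h

theorem instV1B_jL_inv_mem (N : ℕ) [NeZero N] :
    (Fermat.Agent.S24.jL L N)⁻¹ ∈
      GaussL.gaussV Λ res (laurentBaseChange L (modularFunctionFieldFull N)) := by
  have h : (((GaussL.jC L N)⁻¹ : ↥(modularFunctionFieldFullC L N)) : LaurentSeries L) ∈
      GaussL.gaussO Λ res := GaussL.jC_inv_mem_gaussV (K := L) Λ res N
  have e0 : (((GaussL.jC L N)⁻¹ : ↥(modularFunctionFieldFullC L N)) : LaurentSeries L) =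
      (jqModC L)⁻¹ := rfl
  rw [e0] at h
  have e1 : (((Fermat.Agent.S24.jL L N)⁻¹ :
      ↥(laurentBaseChange L (modularFunctionFieldFull N))) : LaurentSeries L) =
      ((Fermat.Agent.S24.jL L N : ↥(laurentBaseChange L (modularFunctionFieldFull N))) :
        LaurentSeries L)⁻¹ := rfl
  show (((Fermat.Agent.S24.jL L N)⁻¹ : ↥(laurentBaseChange L (modularFunctionFieldFull N))) :
      LaurentSeries L) ∈ GaussL.gaussO Λ res
  rw [e1, ktv_coe_jL]
  exact h

/-- (V1), second team. -/
theorem inst_mem_gaussV_of_isIntegral_B [CharZero L] (hΛ : IsGaussRing Λ π res) (N : ℕ) [NeZero N]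
    {a : ↥(laurentBaseChange L (modularFunctionFieldFull N))}
    (h : IsIntegral (Algebra.adjoin ↥Λ {Fermat.Agent.S24.jL L N}) a) :
    a ∈ GaussL.gaussV Λ res (laurentBaseChange L (modularFunctionFieldFull N)) := by
  refine GaussL.mem_gaussV_of_isIntegral _ hΛ (instV1B_le_gaussK hΛ N) ?_
  refine instV1B_isIntegral_mono (Algebra.adjoin_le ?_) h
  rintro _ rfl
  exact instV1B_jL_mem N

/-- (V1'), second team. -/
theorem inst_mem_gaussV_of_isIntegral_inv_B [CharZero L] (hΛ : IsGaussRing Λ π res) (N : ℕ)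
    [NeZero N] {a : ↥(laurentBaseChange L (modularFunctionFieldFull N))}
    (h : IsIntegral (Algebra.adjoin ↥Λ {(Fermat.Agent.S24.jL L N)⁻¹}) a) :
    a ∈ GaussL.gaussV Λ res (laurentBaseChange L (modularFunctionFieldFull N)) := by
  refine GaussL.mem_gaussV_of_isIntegral _ hΛ (instV1B_le_gaussK hΛ N) ?_
  refine instV1B_isIntegral_mono (Algebra.adjoin_le ?_) h
  rintro _ rfl
  exact instV1B_jL_inv_mem N

end Fermat.Agent.S34
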