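import Mathlib
import Fermat.Agent.S34.SlocDefs
import Fermat.Agent.S34.KronDefs
import Fermat.Agent.S34.KronTwoVal
import Fermat.Agent.S18.GaussLineK
import Fermat.Agent.S24.FFLAlg

/-!
P19 (S34), block INST-INF, leaf CS (second team): `π`-saturation of the semilocal cusp ring
`s34Sloc Λ j⁻¹` of level `M q` inside `kronO`.

If `b = π δ` with `b` in the semilocal ring and `δ ∈ kronO`, then `δ` is in the semilocal ring:
with `a(u) b` integral over `Λ[u]` (`u = j⁻¹`), `a(u) δ` is integral over the Gauss ring of the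
`j`-line (`kronO_isIntegral`), and Lemma K for `Λ[j⁻¹]` applies to `a(u) b = π (a(u) δ)`.
-/

set_option autoImplicit false

namespace Fermat.Agent.S34

open Polynomial

/-- abstract form: `π`-saturation of the semilocal ring at `t⁻¹ = 0` inside the integral closure
of the Gauss ring of the `t`-line. -/
theorem s34isb_sat_abs {Λ 𝔽 : Type*} [CommRing Λ] [IsDomain Λ] [IsDiscreteValuationRing Λ]
    [Field 𝔽] [Algebra Λ 𝔽] (π : Λ) (hπ : Prime π) {t : 𝔽} (ht : Transcendental Λ t)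
    {b δ : 𝔽} (hb : b ∈ s34Sloc Λ t⁻¹)
    (hδ : IsIntegral (Fermat.Agent.S18.gaussSub π hπ t) δ) (h : b = π • δ) :
    δ ∈ s34Sloc Λ t⁻¹ := by
  obtain ⟨a, ha, hint⟩ := hb
  refine ⟨a, ha, ?_⟩
  have hmem : aeval t⁻¹ a ∈ Fermat.Agent.S18.gaussSub π hπ t :=
    Fermat.Agent.S18.GaussLineK.adjoin_le π hπ ht _
      (Algebra.adjoin_mono (by simp) (aeval_mem_adjoin_singleton Λ t⁻¹))
  have haV : IsIntegral (Fermat.Agent.S18.gaussSub π hπ t) (aeval t⁻¹ a) :=
    isIntegral_algebraMap (R := Fermat.Agent.S18.gaussSub π hπ t) (x := ⟨aeval t⁻¹ a, hmem⟩)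
  refine Fermat.Agent.S18.GaussLineK.lemmaK_inv π hπ ht hint (haV.mul hδ) ?_
  rw [h, mul_smul_comm]

open ModularCurve AlgebraicCurve
open Fermat.Agent.S18 Fermat.Agent.S28 Fermat.Agent.S28.FreeBasisAbs

variable {L k : Type*} [Field L] [Algebra ℚ L] [Field k] {Λ : Subring L} {π : L}
  {res : ↥Λ →+* k} (ι : L →+* ℂ) (M q : ℕ) [NeZero M] [NeZero q] (hcop : Nat.Coprime M q)

/-- LEAF CS (`S34/InstInfSB.lean`): `hsat` for the semilocal cusp ring. -/
theorem instinf_sat_B [CharZero L] [IsDiscreteValuationRing ↥Λ] (hΛ : IsGaussRing Λ π res)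
    (hq : q.Prime) [CharP k q]
    {b δ : ↥(laurentBaseChange L (modularFunctionFieldFull (M * q)))}
    (hb : b ∈ s34Sloc ↥Λ (Fermat.Agent.S24.jL L (M * q))⁻¹)
    (hδ : δ ∈ kronO Λ res ι M q hcop)
    (h : b = algebraMap L ↥(laurentBaseChange L (modularFunctionFieldFull (M * q))) π * δ) :
    δ ∈ s34Sloc ↥Λ (Fermat.Agent.S24.jL L (M * q))⁻¹ := by
  have hT : IsScalarTower ↥Λ L ↥(laurentBaseChange L (modularFunctionFieldFull (M * q))) :=
    IsScalarTower.of_algebraMap_eq (fun _ => rfl)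
  have hj : Transcendental ↥Λ (Fermat.Agent.S24.jL L (M * q)) :=
    (Fermat.Agent.S24.transcendental_jL (M * q) L).restrictScalars Subtype.val_injective
  exact s34isb_sat_abs (GaussL.piL hΛ) (GaussL.prime_piL hΛ) hj hb
    (kronO_isIntegral ι M q hcop hΛ hq hδ) h

end Fermat.Agent.S34
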