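import Mathlib

/-!
P19 (S34), MODEL-M, leaf W4a (MASTER v2, note 848): in an integrally closed local domain `A` with
fraction field `F`, an element `x : F` which is a root of a polynomial over `A` having a unit
coefficient satisfies `x ∈ A` or `x⁻¹ ∈ A`.

Proof: induction on the degree.  If the leading coefficient `c` is a unit, `x` is integral.
Otherwise `y := c x` is integral, hence in `A`, and `x` is a root of
`eraseLead p + y X ^ (n - 1)`; if that polynomial has no unit coefficient then `y` is a unit and
`x⁻¹ = c / y`.
-/

set_option autoImplicit false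

namespace Fermat.Agent.S34

open Polynomial

theorem s34_mem_or_inv_mem {A F : Type*} [CommRing A] [IsDomain A] [IsLocalRing A]
    [IsIntegrallyClosed A] [Field F] [Algebra A F] [IsFractionRing A F]
    (x : F) (p : A[X]) (hp : Polynomial.aeval x p = 0) (hunit : ∃ i, IsUnit (p.coeff i)) :
    (∃ a : A, algebraMap A F a = x) ∨ (∃ a : A, algebraMap A F a = x⁻¹) := by
  have hinj : Function.Injective (algebraMap A F) := IsFractionRing.injective A F
  induction hn : p.natDegree using Nat.strong_induction_on generalizing p with
  | _ n IH =>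
  obtain ⟨i, hi⟩ := hunit
  have hp0 : p ≠ 0 := by
    rintro rfl
    rw [coeff_zero] at hi
    exact not_isUnit_zero hi
  rcases Nat.eq_zero_or_pos n with hn0 | hnpos
  · -- degree zero: impossible
    exfalso
    rw [hn0] at hn
    obtain ⟨a, rfl⟩ := natDegree_eq_zero.mp hn
    rw [aeval_C] at hp
    have ha0 : a = 0 := hinj (by rw [hp, map_zero])
    rw [ha0, map_zero, coeff_zero] at hi
    exact not_isUnit_zero hi
  have hint : IsIntegral A (p.leadingCoeff • x) := isIntegral_leadingCoeff_smul p x hp
  obtain ⟨a, ha⟩ := IsIntegrallyClosed.isIntegral_iff.mp hint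
  have ha' : algebraMap A F a = algebraMap A F p.leadingCoeff * x := by
    rw [ha, Algebra.smul_def]
  by_cases hlc : IsUnit p.leadingCoeff
  · -- the leading coefficient is a unit: `x ∈ A`
    left
    obtain ⟨b, hb⟩ := hlc.exists_left_inv
    refine ⟨b * a, ?_⟩
    rw [map_mul, ha', ← mul_assoc, ← map_mul, hb, map_one, one_mul]
  -- the polynomial of smaller degree
  have hq : aeval x (p.eraseLead + C a * X ^ (n - 1)) = 0 := by
    have h1 : aeval x p.eraseLead = aeval x p - aeval x (monomial p.natDegree p.leadingCoeff) := by
      rw [← map_sub, self_sub_monomial_natDegree_leadingCoeff]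
    rw [map_add, h1, hp, zero_sub, aeval_monomial, map_mul, aeval_C, map_pow, aeval_X, ha', hn]
    have hpow : x ^ n = x * x ^ (n - 1) := by
      rw [← pow_succ', Nat.sub_add_cancel hnpos]
    rw [hpow]
    ring
  have hqdeg : (p.eraseLead + C a * X ^ (n - 1)).natDegree < n := by
    have h1 : p.eraseLead.natDegree ≤ n - 1 := by
      have := eraseLead_natDegree_le p
      rw [hn] at this
      exact this
    have h2 : (C a * X ^ (n - 1)).natDegree ≤ n - 1 := natDegree_C_mul_X_pow_le a (n - 1)
    have h3 := natDegree_add_le_of_degree_le h1 h2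
    omega
  by_cases hqu : ∃ k, IsUnit ((p.eraseLead + C a * X ^ (n - 1)).coeff k)
  · exact IH _ hqdeg _ hq hqu rfl
  -- no unit coefficient: `a` is a unit and `x⁻¹ = lc / a`
  push Not at hqu
  have hin : i ≠ p.natDegree := by
    rintro rfl
    exact hlc hi
  have hqi := hqu i
  rw [coeff_add, eraseLead_coeff_of_ne i hin, coeff_C_mul, coeff_X_pow] at hqi
  have hau : IsUnit a := by
    by_contra hau
    apply hqi
    split_ifs with h
    · rw [mul_one]
      by_contra hsum
      have hmem : p.coeff i + a - a ∈ nonunits A :=
        (IsLocalRing.maximalIdeal A).sub_mem hsum hau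
      rw [add_sub_cancel_right] at hmem
      exact hmem hi
    · rw [mul_zero, add_zero]
      exact hi
  right
  obtain ⟨b, hb⟩ := hau.exists_left_inv
  refine ⟨p.leadingCoeff * b, ?_⟩
  have hax : algebraMap A F b * (algebraMap A F p.leadingCoeff * x) = 1 := by
    rw [← ha', ← map_mul, hb, map_one]
  rw [map_mul]
  exact eq_inv_of_mul_eq_one_left (by linear_combination hax)

end Fermat.Agent.S34
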