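import Mathlib

/-!
P19 (S34), leaf W4a (second team): in the fraction field of an integrally closed local domain
`A`, a root `x` of a polynomial over `A` having a unit coefficient satisfies `x ∈ A` or
`x⁻¹ ∈ A`.
-/

set_option autoImplicit false

namespace Fermat.Agent.S34

open Polynomial

theorem s34_mem_or_inv_mem_B {A F : Type*} [CommRing A] [IsDomain A] [IsLocalRing A]
    [IsIntegrallyClosed A] [Field F] [Algebra A F] [IsFractionRing A F]
    (x : F) (p : A[X]) (hp : Polynomial.aeval x p = 0) (hunit : ∃ i, IsUnit (p.coeff i)) :
    (∃ a : A, algebraMap A F a = x) ∨ (∃ a : A, algebraMap A F a = x⁻¹) := by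
  obtain ⟨i, hi⟩ := hunit
  have hinj : Function.Injective (algebraMap A F) := IsFractionRing.injective A F
  induction hm : p.natDegree using Nat.strong_induction_on generalizing p i with
  | h m IH =>
  obtain (_ | m) := m
  · obtain ⟨r, rfl⟩ := natDegree_eq_zero.mp hm
    exfalso
    rw [aeval_C] at hp
    have hr : r = 0 := hinj (by rw [hp, map_zero])
    subst hr
    rw [map_zero, coeff_zero] at hi
    exact not_isUnit_zero hi
  · obtain ⟨a, ha⟩ := IsIntegrallyClosed.isIntegral_iff.mp
      (isIntegral_leadingCoeff_smul p x hp)
    rw [Algebra.smul_def] at ha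
    by_cases hlc : IsUnit p.leadingCoeff
    · left
      obtain ⟨u, hu⟩ := hlc
      refine ⟨↑u⁻¹ * a, ?_⟩
      rw [map_mul, ha, ← hu, ← mul_assoc, ← map_mul, Units.inv_mul, map_one, one_mul]
    · have hq1 : p.eraseLead.natDegree ≤ m := (eraseLead_natDegree_le p).trans (by omega)
      have hqdeg : (p.eraseLead + C a * X ^ m).natDegree < m + 1 := by
        have h1 : (p.eraseLead + C a * X ^ m).natDegree ≤ m := by
          refine (natDegree_add_le _ _).trans (max_le hq1 ?_)
          exact (natDegree_C_mul_le _ _).trans (natDegree_X_pow_le m)
        omega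
      have hqx : aeval x (p.eraseLead + C a * X ^ m) = 0 := by
        have h1 : p.eraseLead + C p.leadingCoeff * X ^ (m + 1) = p := by
          rw [← hm]
          exact eraseLead_add_C_mul_X_pow p
        have h2 : aeval x p =
            aeval x p.eraseLead + algebraMap A F p.leadingCoeff * x ^ (m + 1) := by
          conv_lhs => rw [← h1]
          rw [map_add, map_mul, aeval_C, map_pow, aeval_X]
        rw [hp] at h2
        rw [map_add, map_mul, aeval_C, map_pow, aeval_X, ha]
        linear_combination (-1 : F) * h2
      have hcoeff : ∀ k, (p.eraseLead + C a * X ^ m).coeff k =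
          p.eraseLead.coeff k + if k = m then a else 0 := by
        intro k
        rw [coeff_add, coeff_C_mul, coeff_X_pow]
        split_ifs <;> simp
      by_cases hqu : ∃ k, IsUnit ((p.eraseLead + C a * X ^ m).coeff k)
      · obtain ⟨k, hk⟩ := hqu
        exact IH _ hqdeg _ hqx k hk rfl
      · right
        have hqu' : ∀ k, ¬ IsUnit ((p.eraseLead + C a * X ^ m).coeff k) := fun k hk =>
          hqu ⟨k, hk⟩
        have hi_ne : i ≠ p.natDegree := by
          rintro rfl
          exact hlc hi
        have him : i = m := by
          by_contra hne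
          apply hqu' i
          rw [hcoeff, if_neg hne, add_zero, eraseLead_coeff_of_ne _ hi_ne]
          exact hi
        subst him
        have ha_unit : IsUnit a := by
          by_contra hna
          have h3 : (p.eraseLead + C a * X ^ i).coeff i = p.coeff i + a := by
            rw [hcoeff, if_pos rfl, eraseLead_coeff_of_ne _ hi_ne]
          have h4 : p.coeff i ∈ nonunits A := by
            have h5 : p.coeff i = (p.eraseLead + C a * X ^ i).coeff i + (-a) := by
              rw [h3]
              ring
            rw [h5]
            refine IsLocalRing.nonunits_add (hqu' i) ?_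
            rw [mem_nonunits_iff, IsUnit.neg_iff]
            exact hna
          exact h4 hi
        obtain ⟨u, hu⟩ := ha_unit
        refine ⟨p.leadingCoeff * ↑u⁻¹, ?_⟩
        rw [map_mul]
        apply eq_inv_of_mul_eq_one_left
        calc algebraMap A F p.leadingCoeff * algebraMap A F ↑u⁻¹ * x
            = algebraMap A F ↑u⁻¹ * (algebraMap A F p.leadingCoeff * x) := by ring
          _ = 1 := by rw [← ha, ← hu, ← map_mul, Units.inv_mul, map_one]

end Fermat.Agent.S34
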