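import Mathlib
import Fermat.Agent.S34.ModelDefs

/-!
P19 (S34), block MODEL, slice A (second team): elementwise algebra of `ModelLocGen`.

* `modelLocGen_congr_B`   (A1) dependence on `u` modulo `𝔞` only;
* `modelLocGen_perturb_B` (A2) perturbation `s * u + h₁ * h₂` (Nakayama by hand);
* `modelLocGen_map_B`     (A3) transport along a ring hom locally surjective modulo `𝔭`;
* `modelLocGen_descend_B` (A4) descent along an injective localisation-like hom;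
* `modelLocGen_common_B`  (A5) a common local generator for two closed points, inside a subring.
-/

set_option autoImplicit false

namespace Fermat.Agent.S34

/-- (A1) `ModelLocGen` only depends on `u` modulo `𝔞`. -/
theorem modelLocGen_congr_B {A : Type*} [CommRing A] {𝔞 𝔐 : Ideal A} (h𝔞 : 𝔞 ≤ 𝔐) {u u' : A}
    (huu : u - u' ∈ 𝔞) (h : ModelLocGen 𝔞 𝔐 u) : ModelLocGen 𝔞 𝔐 u' := by
  have hu' : u' ∈ 𝔐 := by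
    have : u' = u - (u - u') := by ring
    rw [this]
    exact 𝔐.sub_mem h.mem (h𝔞 huu)
  refine modelLocGen_of_exists_eq hu' fun z hz => ?_
  obtain ⟨a, c, d, ha, hc, h1⟩ := h.exists_eq hz
  refine ⟨a, c + (u - u') * d, d, ha, ?_, ?_⟩
  · exact 𝔞.add_mem hc (𝔞.mul_mem_right _ huu)
  · rw [h1]; ring

/-- (A2) perturbation (Nakayama by hand): `s u + h h'` with `s ∉ 𝔐`, `h, h' ∈ 𝔐`. -/
theorem modelLocGen_perturb_B {A : Type*} [CommRing A] {𝔞 𝔐 : Ideal A} [𝔐.IsPrime] {u : A}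
    (h : ModelLocGen 𝔞 𝔐 u) {s h₁ h₂ : A} (hs : s ∉ 𝔐) (h₁m : h₁ ∈ 𝔐) (h₂m : h₂ ∈ 𝔐) :
    ModelLocGen 𝔞 𝔐 (s * u + h₁ * h₂) := by
  have hprime : 𝔐.IsPrime := inferInstance
  have hu' : s * u + h₁ * h₂ ∈ 𝔐 :=
    𝔐.add_mem (𝔐.mul_mem_left _ h.mem) (𝔐.mul_mem_left _ h₂m)
  obtain ⟨a₁, c₁, d₁, ha₁, hc₁, e₁⟩ := h.exists_eq h₁m
  -- `e * u ∈ 𝔞 + (u')` with `e ∉ 𝔐`
  have he : a₁ * s + d₁ * h₂ ∉ 𝔐 := by
    intro hmem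
    have h2 : a₁ * s ∈ 𝔐 := by
      have : a₁ * s = (a₁ * s + d₁ * h₂) - d₁ * h₂ := by ring
      rw [this]
      exact 𝔐.sub_mem hmem (𝔐.mul_mem_left _ h₂m)
    rcases hprime.mem_or_mem h2 with h3 | h3
    · exact ha₁ h3
    · exact hs h3
  refine modelLocGen_of_exists_eq hu' fun z hz => ?_
  obtain ⟨a, c, d, ha, hc, h1⟩ := h.exists_eq hz
  refine ⟨(a₁ * s + d₁ * h₂) * a, (a₁ * s + d₁ * h₂) * c - c₁ * h₂ * d, a₁ * d, ?_, ?_, ?_⟩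
  · intro hmem
    rcases hprime.mem_or_mem hmem with h3 | h3
    · exact he h3
    · exact ha h3
  · exact 𝔞.sub_mem (𝔞.mul_mem_left _ hc) (𝔞.mul_mem_right _ (𝔞.mul_mem_right _ hc₁))
  · linear_combination (a₁ * s + d₁ * h₂) * h1 - d * h₂ * e₁

/-- (A3) transport along a ring hom which is locally surjective modulo `𝔭` at `𝔪`
(covers: branch of the level-`N` model, localisations, the base change `L₀ → L`). -/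
theorem modelLocGen_map_B {A B : Type*} [CommRing A] [CommRing B] (α : A →+* B)
    (𝔞 : Ideal A) (𝔭 𝔪 : Ideal B) [𝔪.IsPrime] (h𝔭𝔪 : 𝔭 ≤ 𝔪) (h𝔞 : 𝔞 ≤ 𝔭.comap α)
    (hsurj : ∀ b : B, ∃ a a' : A, α a' ∉ 𝔪 ∧ α a' * b - α a ∈ 𝔭)
    {u : A} (hu : ModelLocGen 𝔞 (𝔪.comap α) u) : ModelLocGen 𝔭 𝔪 (α u) := by
  have hprime : 𝔪.IsPrime := inferInstance
  have huα : α u ∈ 𝔪 := Ideal.mem_comap.mp hu.mem
  refine modelLocGen_of_exists_eq huα fun z hz => ?_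
  obtain ⟨a, a', ha', haz⟩ := hsurj z
  have ha : a ∈ 𝔪.comap α := by
    rw [Ideal.mem_comap]
    have : α a = α a' * z - (α a' * z - α a) := by ring
    rw [this]
    exact 𝔪.sub_mem (𝔪.mul_mem_left _ hz) (h𝔭𝔪 haz)
  obtain ⟨e, c, d, he, hc, h1⟩ := hu.exists_eq ha
  have he' : α e ∉ 𝔪 := fun hmem => he (Ideal.mem_comap.mpr hmem)
  refine ⟨α e * α a', α e * (α a' * z - α a) + α c, α d, ?_, ?_, ?_⟩
  · intro hmem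
    rcases hprime.mem_or_mem hmem with h3 | h3
    · exact he' h3
    · exact ha' h3
  · exact 𝔭.add_mem (𝔭.mul_mem_left _ haz) (Ideal.mem_comap.mp (h𝔞 hc))
  · have h2 : α e * α a = α c + α u * α d := by
      rw [← map_mul, h1, map_add, map_mul]
    linear_combination h2

/-- clearing denominators of an element of `𝔞 S`. -/
theorem modelAlgB_clear_map {A S : Type*} [CommRing A] [CommRing S] (ι : A →+* S)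
    (𝔞 : Ideal A) (𝔐S : Ideal S) [𝔐S.IsPrime]
    (hloc : ∀ y : S, ∃ s a : A, ι s ∉ 𝔐S ∧ ι s * y = ι a)
    {c : S} (hc : c ∈ 𝔞.map ι) : ∃ s a : A, ι s ∉ 𝔐S ∧ a ∈ 𝔞 ∧ ι s * c = ι a := by
  have hprime : 𝔐S.IsPrime := inferInstance
  have h1 : (1 : S) ∉ 𝔐S := fun h => hprime.ne_top ((Ideal.eq_top_iff_one _).mpr h)
  unfold Ideal.map at hc
  refine Submodule.span_induction (p := fun c _ => ∃ s a : A, ι s ∉ 𝔐S ∧ a ∈ 𝔞 ∧ ι s * c = ι a)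
    ?_ ?_ ?_ ?_ hc
  · rintro _ ⟨a, ha, rfl⟩
    exact ⟨1, a, by rwa [map_one], ha, by rw [map_one, one_mul]⟩
  · exact ⟨1, 0, by rwa [map_one], 𝔞.zero_mem, by rw [map_zero, mul_zero]⟩
  · rintro x y _ _ ⟨s₁, a₁, hs₁, ha₁, e₁⟩ ⟨s₂, a₂, hs₂, ha₂, e₂⟩
    refine ⟨s₁ * s₂, s₂ * a₁ + s₁ * a₂, ?_, ?_, ?_⟩
    · rw [map_mul]
      intro hmem
      rcases hprime.mem_or_mem hmem with h3 | h3
      · exact hs₁ h3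
      · exact hs₂ h3
    · exact 𝔞.add_mem (𝔞.mul_mem_left _ ha₁) (𝔞.mul_mem_left _ ha₂)
    · simp only [map_mul, map_add]
      linear_combination ι s₂ * e₁ + ι s₁ * e₂
  · rintro y x _ ⟨s, a, hs, ha, e⟩
    obtain ⟨s', a', hs', e'⟩ := hloc y
    refine ⟨s' * s, a' * a, ?_, 𝔞.mul_mem_left _ ha, ?_⟩
    · rw [map_mul]
      intro hmem
      rcases hprime.mem_or_mem hmem with h3 | h3
      · exact hs' h3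
      · exact hs h3
    · simp only [map_mul, smul_eq_mul]
      linear_combination ι s * x * e' + ι a' * e

/-- (A4) descent along an injective localisation-like hom `ι : A → S` (denominators outside
`𝔐_S`), with `𝔞_S = 𝔞 S`. -/
theorem modelLocGen_descend_B {A S : Type*} [CommRing A] [CommRing S] (ι : A →+* S)
    (hι : Function.Injective ι) (𝔞 : Ideal A) (𝔐S : Ideal S) [𝔐S.IsPrime]
    (hloc : ∀ y : S, ∃ s a : A, ι s ∉ 𝔐S ∧ ι s * y = ι a)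
    {uS : S} (hu : ModelLocGen (𝔞.map ι) 𝔐S uS) :
    ∃ u : A, ModelLocGen 𝔞 (𝔐S.comap ι) u := by
  have hprime : 𝔐S.IsPrime := inferInstance
  obtain ⟨s₀, u, hs₀, e₀⟩ := hloc uS
  have huS : ι u ∈ 𝔐S := by
    rw [← e₀]
    exact 𝔐S.mul_mem_left _ hu.mem
  refine ⟨u, modelLocGen_of_exists_eq (Ideal.mem_comap.mpr huS) fun z hz => ?_⟩
  obtain ⟨aS, cS, dS, haS, hcS, h1⟩ := hu.exists_eq (Ideal.mem_comap.mp hz)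
  obtain ⟨s₁, a₁, hs₁, e₁⟩ := hloc aS
  obtain ⟨s₂, d₂, hs₂, e₂⟩ := hloc dS
  obtain ⟨s₃, c₃, hs₃, hc₃, e₃⟩ := modelAlgB_clear_map ι 𝔞 𝔐S hloc hcS
  have ha₁ : ι a₁ ∉ 𝔐S := by
    rw [← e₁]
    intro hmem
    rcases hprime.mem_or_mem hmem with h3 | h3
    · exact hs₁ h3
    · exact haS h3
  refine ⟨s₀ * s₂ * s₃ * a₁, s₀ * s₁ * s₂ * c₃, s₁ * s₃ * d₂, ?_, ?_, ?_⟩
  · rw [Ideal.mem_comap]
    simp only [map_mul]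
    intro hmem
    rcases hprime.mem_or_mem hmem with h3 | h3
    · rcases hprime.mem_or_mem h3 with h4 | h4
      · rcases hprime.mem_or_mem h4 with h5 | h5
        · exact hs₀ h5
        · exact hs₂ h5
      · exact hs₃ h4
    · exact ha₁ h3
  · exact 𝔞.mul_mem_left _ hc₃
  · apply hι
    simp only [map_mul, map_add]
    linear_combination ι s₀ * ι s₁ * ι s₂ * ι s₃ * h1 - ι s₀ * ι s₂ * ι s₃ * ι z * e₁
      + ι s₀ * ι s₁ * ι s₂ * e₃ + ι s₁ * ι s₃ * (ι s₀ * uS) * e₂ + ι s₁ * ι s₃ * ι d₂ * e₀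

/-- moving a local generator into the subring `A₀`. -/
theorem modelAlgB_move {A : Type*} [CommRing A] (𝔞 𝔐 : Ideal A) [𝔐.IsMaximal]
    (h𝔞 : 𝔞 ≤ 𝔐) (A₀ : Subring A)
    (hA : ∀ a : A, ∃ a₀ ∈ A₀, ∃ s ∈ A₀, s ∉ 𝔐 ∧ s * a - a₀ ∈ 𝔞)
    {u : A} (hu : ModelLocGen 𝔞 𝔐 u) : ∃ g ∈ A₀, ModelLocGen 𝔞 𝔐 g := by
  obtain ⟨a₀, ha₀, s, _, hs, h1⟩ := hA u
  refine ⟨a₀, ha₀, ?_⟩
  have h2 : ModelLocGen 𝔞 𝔐 (s * u + 0 * 0) :=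
    modelLocGen_perturb_B hu hs 𝔐.zero_mem 𝔐.zero_mem
  refine modelLocGen_congr_B h𝔞 ?_ h2
  have : s * u + 0 * 0 - a₀ = s * u - a₀ := by ring
  rw [this]
  exact h1

/-- an element of `A₀` in `𝔐₂ ∖ 𝔐₁`. -/
theorem modelAlgB_sep {A : Type*} [CommRing A] (𝔞 𝔐₁ 𝔐₂ : Ideal A) [𝔐₁.IsMaximal]
    [𝔐₂.IsMaximal] (h𝔞₁ : 𝔞 ≤ 𝔐₁) (h𝔞₂ : 𝔞 ≤ 𝔐₂) (hne : 𝔐₁ ≠ 𝔐₂) (A₀ : Subring A)
    (hA₁ : ∀ a : A, ∃ a₀ ∈ A₀, ∃ s ∈ A₀, s ∉ 𝔐₁ ∧ s * a - a₀ ∈ 𝔞) :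
    ∃ e ∈ A₀, e ∈ 𝔐₂ ∧ e ∉ 𝔐₁ := by
  have hprime : 𝔐₁.IsPrime := inferInstance
  have hmax₂ : 𝔐₂.IsMaximal := inferInstance
  have hmax₁ : 𝔐₁.IsMaximal := inferInstance
  have hnle : ¬ 𝔐₂ ≤ 𝔐₁ := by
    intro hle
    exact hne (hmax₂.eq_of_le hmax₁.ne_top hle).symm
  obtain ⟨e₀, he₀2, he₀1⟩ := SetLike.not_le_iff_exists.mp hnle
  obtain ⟨a₀, ha₀, s, _, hs, h1⟩ := hA₁ e₀
  refine ⟨a₀, ha₀, ?_, ?_⟩
  · have : a₀ = s * e₀ - (s * e₀ - a₀) := by ring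
    rw [this]
    exact 𝔐₂.sub_mem (𝔐₂.mul_mem_left _ he₀2) (h𝔞₂ h1)
  · intro hmem
    have h2 : s * e₀ ∈ 𝔐₁ := by
      have : s * e₀ = (s * e₀ - a₀) + a₀ := by ring
      rw [this]
      exact 𝔐₁.add_mem (h𝔞₁ h1) hmem
    rcases hprime.mem_or_mem h2 with h3 | h3
    · exact hs h3
    · exact he₀1 h3

/-- (A5) a common local generator, inside a subring `A₀` which surjects onto `A ⧸ 𝔞` locally at
`𝔐₁` and `𝔐₂`. -/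
theorem modelLocGen_common_B {A : Type*} [CommRing A] (𝔞 𝔐₁ 𝔐₂ : Ideal A) [𝔐₁.IsMaximal]
    [𝔐₂.IsMaximal] (h𝔞₁ : 𝔞 ≤ 𝔐₁) (h𝔞₂ : 𝔞 ≤ 𝔐₂) (A₀ : Subring A)
    (hA₁ : ∀ a : A, ∃ a₀ ∈ A₀, ∃ s ∈ A₀, s ∉ 𝔐₁ ∧ s * a - a₀ ∈ 𝔞)
    (hA₂ : ∀ a : A, ∃ a₀ ∈ A₀, ∃ s ∈ A₀, s ∉ 𝔐₂ ∧ s * a - a₀ ∈ 𝔞)
    {u₁ u₂ : A} (hu₁ : ModelLocGen 𝔞 𝔐₁ u₁) (hu₂ : ModelLocGen 𝔞 𝔐₂ u₂) :
    ∃ g ∈ A₀, ModelLocGen 𝔞 𝔐₁ g ∧ ModelLocGen 𝔞 𝔐₂ g := by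
  have hp₁ : 𝔐₁.IsPrime := inferInstance
  have hp₂ : 𝔐₂.IsPrime := inferInstance
  obtain ⟨g₁, hg₁, hg₁gen⟩ := modelAlgB_move 𝔞 𝔐₁ h𝔞₁ A₀ hA₁ hu₁
  by_cases hne : 𝔐₁ = 𝔐₂
  · subst hne
    exact ⟨g₁, hg₁, hg₁gen, hg₁gen⟩
  obtain ⟨g₂, hg₂, hg₂gen⟩ := modelAlgB_move 𝔞 𝔐₂ h𝔞₂ A₀ hA₂ hu₂
  obtain ⟨e, he, he2, he1⟩ := modelAlgB_sep 𝔞 𝔐₁ 𝔐₂ h𝔞₁ h𝔞₂ hne A₀ hA₁
  obtain ⟨e', he', he'1, he'2⟩ := modelAlgB_sep 𝔞 𝔐₂ 𝔐₁ h𝔞₂ h𝔞₁ (Ne.symm hne) A₀ hA₂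
  refine ⟨e * e * g₁ + e' * e' * g₂, ?_, ?_, ?_⟩
  · exact A₀.add_mem (A₀.mul_mem (A₀.mul_mem he he) hg₁) (A₀.mul_mem (A₀.mul_mem he' he') hg₂)
  · have hs : e * e ∉ 𝔐₁ := fun hmem => (hp₁.mem_or_mem hmem).elim he1 he1
    have h := modelLocGen_perturb_B hg₁gen hs he'1 (𝔐₁.mul_mem_right g₂ he'1)
    have heq : e * e * g₁ + e' * (e' * g₂) = e * e * g₁ + e' * e' * g₂ := by ring
    rwa [heq] at h
  · have hs : e' * e' ∉ 𝔐₂ := fun hmem => (hp₂.mem_or_mem hmem).elim he'2 he'2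
    have h := modelLocGen_perturb_B hg₂gen hs he2 (𝔐₂.mul_mem_right g₁ he2)
    have heq : e' * e' * g₂ + e * (e * g₁) = e * e * g₁ + e' * e' * g₂ := by ring
    rwa [heq] at h

end Fermat.Agent.S34
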