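import Mathlib
import Fermat.Agent.S34.ModelDefs
import Fermat.Agent.S34.ModelAlg
import Fermat.Agent.S34.ModelDvr
import Fermat.Agent.S18.LocalGlue
import Fermat.Agent.S18.LocalNormalDvr

/-!
P19 (S34), block MODEL, slice E (note 807, (E1)), third team: `model_fibre_locGen_C`.

In the S18 engine setting (chart `t`, hypotheses `hB1`, `hB2` of `LocalGlue.idemLifts_gen`), every
ring `A` between the chart ring (the integral closure of `Λ[t]` in `𝔽`) and its localisation at a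
closed point `𝔫 ∋ π` of the `t`-line has a local generator modulo `π` at every maximal ideal
`𝔐` over `𝔫`.

Proof: `𝔫 = (π, f)`, `R = Λ[X]_𝔫`, `S` = integral closure of `R` in `𝔽` (finite free over `R`,
integrally closed, discriminant a unit times a power of `f`).  `A ⊂ S` and `S` is a localisation
of `A` with denominators `a(t)`, `a ∉ 𝔫`, which lie outside `𝔐`; so `𝔐 S` is proper, and for a
maximal `𝔐_S ⊇ 𝔐 S` the S18 local engine (`local_normal_dvr`) makes the localisation of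
`S ⧸ π S` at `𝔐_S ⧸ π` a discrete valuation ring.  Then (D1) `modelLocGen_of_dvr` gives a local
generator at `𝔐_S` and (A4) `modelLocGen_descend` brings it down to `A`.
-/

set_option autoImplicit false

namespace Fermat.Agent.S34

open Polynomial Fermat.Agent.S18 in
/-- The abstract local engine in DVR form, for the integral closure of `R` in `𝔽`. -/
theorem modelFibreC_abs_dvr {R 𝔽 : Type*} [CommRing R] [IsDomain R] [IsNoetherianRing R]
    [IsLocalRing R] [IsIntegrallyClosed R] [Field 𝔽] [Algebra R 𝔽]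
    (K₁ : Type*) [Field K₁] [CharZero K₁] [Algebra R K₁] [IsFractionRing R K₁]
    [Algebra K₁ 𝔽] [IsScalarTower R K₁ 𝔽] [FiniteDimensional K₁ 𝔽]
    (π y : R) (hm : IsLocalRing.maximalIdeal R = Ideal.span {π, y})
    (hπ : (Ideal.span {π} : Ideal R).IsPrime) (hy : (Ideal.span {y} : Ideal R).IsPrime)
    (hπ0 : π ≠ 0) (hy0 : y ≠ 0) (hπy : ¬ π ∣ y) [CharZero (R ⧸ Ideal.span {y})]
    (hd : ∀ (n : ℕ) (b : Module.Basis (Fin n) R ↥(integralClosure R 𝔽)),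
      ∃ (B : ℕ) (v : R), IsUnit v ∧ Algebra.discr R b = v * y ^ B)
    (M : Ideal (↥(integralClosure R 𝔽) ⧸
      (Ideal.span {π}).map (algebraMap R ↥(integralClosure R 𝔽)))) [M.IsMaximal] :
    ∃ _ : IsDomain (Localization.AtPrime M),
      IsDiscreteValuationRing (Localization.AtPrime M) := by
  have hπp : Prime π := (Ideal.span_singleton_prime hπ0).mp hπ
  have hinj : Function.Injective (algebraMap R 𝔽) := LocalAbs.algebraMap_injective' K₁
  have : Module.Finite R ↥(integralClosure R 𝔽) := LocalBase.finite_integralClosure R K₁ 𝔽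
  have : IsIntegrallyClosed ↥(integralClosure R 𝔽) :=
    LocalBase.isIntegrallyClosed_integralClosure R K₁ 𝔽
  have : Module.Free R ↥(integralClosure R 𝔽) :=
    LocalBase.free_integralClosure R K₁ 𝔽 π hπp
      (LocalBase.isPrincipalIdealRing_quotient π y hm hπ)
  have : FaithfulSMul R ↥(integralClosure R 𝔽) := by
    rw [faithfulSMul_iff_algebraMap_injective]
    intro a b hab
    apply hinj
    have := congrArg (algebraMap ↥(integralClosure R 𝔽) 𝔽) hab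
    rwa [← IsScalarTower.algebraMap_apply, ← IsScalarTower.algebraMap_apply] at this
  exact local_normal_dvr π y hm hπ hy hπ0 hy0 hπy
    (Module.finBasis R ↥(integralClosure R 𝔽)) (hd _ _) M

open Fermat.Agent.S18 in
/-- The abstract form of (E1): `R` a two-dimensional regular local ring with parameters `π, y`
whose integral closure `S` in `𝔽` has discriminant a unit times a power of `y`; `A ⊂ S` a subring
of which `S` is a localisation, with denominators outside the maximal ideal `𝔐 ∋ π` of `A`. -/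
theorem modelFibreC_abs {R 𝔽 : Type*} [CommRing R] [IsDomain R] [IsNoetherianRing R]
    [IsLocalRing R] [IsIntegrallyClosed R] [Field 𝔽] [Algebra R 𝔽]
    (K₁ : Type*) [Field K₁] [CharZero K₁] [Algebra R K₁] [IsFractionRing R K₁]
    [Algebra K₁ 𝔽] [IsScalarTower R K₁ 𝔽] [FiniteDimensional K₁ 𝔽]
    (π y : R) (hm : IsLocalRing.maximalIdeal R = Ideal.span {π, y})
    (hπ : (Ideal.span {π} : Ideal R).IsPrime) (hy : (Ideal.span {y} : Ideal R).IsPrime)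
    (hπ0 : π ≠ 0) (hy0 : y ≠ 0) (hπy : ¬ π ∣ y) [CharZero (R ⧸ Ideal.span {y})]
    (hd : ∀ (n : ℕ) (b : Module.Basis (Fin n) R ↥(integralClosure R 𝔽)),
      ∃ (B : ℕ) (v : R), IsUnit v ∧ Algebra.discr R b = v * y ^ B)
    (A : Subring 𝔽) (hAS : ∀ z : A, (z : 𝔽) ∈ integralClosure R 𝔽)
    (𝔐 : Ideal A) (h𝔐 : 𝔐.IsMaximal)
    (hden : ∀ w : 𝔽, IsIntegral R w → ∃ (s : A) (r : R), IsUnit r ∧
      (s : 𝔽) = algebraMap R 𝔽 r ∧ s ∉ 𝔐 ∧ (s : 𝔽) * w ∈ A)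
    (πA : A) (hπA : (πA : 𝔽) = algebraMap R 𝔽 π) (hπ𝔐 : πA ∈ 𝔐) :
    ∃ u : A, ModelLocGen (Ideal.span {πA}) 𝔐 u := by
  have h𝔐p : 𝔐.IsPrime := h𝔐.isPrime
  let ι : A →+* ↥(integralClosure R 𝔽) := (A.subtype).codRestrict (integralClosure R 𝔽) hAS
  have hιval : ∀ z : A, ((ι z : ↥(integralClosure R 𝔽)) : 𝔽) = (z : 𝔽) := fun _ => rfl
  have hι : Function.Injective ι := fun a b h => Subtype.ext (by rw [← hιval a, ← hιval b, h])
  -- denominators
  have hden' : ∀ w : ↥(integralClosure R 𝔽), ∃ s : A, s ∉ 𝔐 ∧ IsUnit (ι s) ∧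
      ∃ b : A, ι s * w = ι b := by
    intro w
    obtain ⟨s, r, hr, hsr, hs, hsw⟩ := hden (w : 𝔽) w.2
    refine ⟨s, hs, ?_, ⟨(s : 𝔽) * (w : 𝔽), hsw⟩, Subtype.ext ?_⟩
    · have h1 : ι s = algebraMap R ↥(integralClosure R 𝔽) r := Subtype.ext (by rw [hιval, hsr]; rfl)
      rw [h1]
      exact hr.map _
    · show ((ι s : ↥(integralClosure R 𝔽)) : 𝔽) * (w : 𝔽) = (s : 𝔽) * (w : 𝔽)
      rw [hιval]
  have hone : (1 : A) ∉ 𝔐 := fun h => h𝔐.ne_top ((Ideal.eq_top_iff_one _).mpr h)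
  -- `𝔐 S` is a proper ideal
  have hclear : ∀ c ∈ 𝔐.map ι, ∃ s : A, s ∉ 𝔐 ∧ ∃ m ∈ 𝔐, ι s * c = ι m := by
    intro c hc
    refine Submodule.span_induction
      (p := fun c _ => ∃ s : A, s ∉ 𝔐 ∧ ∃ m ∈ 𝔐, ι s * c = ι m) ?_ ?_ ?_ ?_ hc
    · rintro _ ⟨m, hm, rfl⟩
      exact ⟨1, hone, m, hm, by rw [map_one, one_mul]⟩
    · exact ⟨1, hone, 0, 𝔐.zero_mem, by rw [map_zero, mul_zero]⟩
    · rintro x y _ _ ⟨s₁, hs₁, m₁, hm₁, h₁⟩ ⟨s₂, hs₂, m₂, hm₂, h₂⟩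
      refine ⟨s₁ * s₂, fun h => (h𝔐p.mem_or_mem h).elim hs₁ hs₂, s₂ * m₁ + s₁ * m₂,
        𝔐.add_mem (𝔐.mul_mem_left _ hm₁) (𝔐.mul_mem_left _ hm₂), ?_⟩
      simp only [map_mul, map_add]
      rw [← h₁, ← h₂]
      ring
    · rintro y x _ ⟨s, hs, m, hm, h⟩
      obtain ⟨s', hs', -, b, hb⟩ := hden' y
      refine ⟨s * s', fun h => (h𝔐p.mem_or_mem h).elim hs hs', b * m, 𝔐.mul_mem_left _ hm, ?_⟩
      simp only [map_mul]
      rw [← h, ← hb, smul_eq_mul]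
      ring
  have hne : 𝔐.map ι ≠ ⊤ := by
    intro htop
    have h1 : (1 : ↥(integralClosure R 𝔽)) ∈ 𝔐.map ι := htop ▸ Submodule.mem_top
    obtain ⟨s, hs, m, hm, h⟩ := hclear 1 h1
    rw [mul_one] at h
    exact hs (hι h ▸ hm)
  obtain ⟨𝔐S, h𝔐Smax, hle⟩ := Ideal.exists_le_maximal (𝔐.map ι) hne
  have hcomap : 𝔐S.comap ι = 𝔐 :=
    (h𝔐.eq_of_le (Ideal.comap_ne_top _ h𝔐Smax.ne_top) (Ideal.map_le_iff_le_comap.mp hle)).symm
  have h𝔐Sp : 𝔐S.IsPrime := h𝔐Smax.isPrime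
  -- the localisation property
  have hloc : ∀ w : ↥(integralClosure R 𝔽), ∃ s a : A, ι s ∉ 𝔐S ∧ ι s * w = ι a := by
    intro w
    obtain ⟨s, -, hsu, b, hb⟩ := hden' w
    exact ⟨s, b, fun hmem => h𝔐Smax.ne_top (Ideal.eq_top_of_isUnit_mem _ hmem hsu), hb⟩
  -- the ideal `π S`
  have hιπ : ι πA = algebraMap R ↥(integralClosure R 𝔽) π :=
    Subtype.ext (by rw [hιval, hπA]; rfl)
  have h𝔞 : (Ideal.span {π}).map (algebraMap R ↥(integralClosure R 𝔽))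
      = (Ideal.span {πA}).map ι := by
    rw [Ideal.map_span, Ideal.map_span, Set.image_singleton, Set.image_singleton, hιπ]
  have h𝔞le : (Ideal.span {π}).map (algebraMap R ↥(integralClosure R 𝔽)) ≤ 𝔐S := by
    rw [h𝔞]
    refine le_trans (Ideal.map_mono ?_) hle
    rw [Ideal.span_le, Set.singleton_subset_iff]
    exact hπ𝔐
  -- the maximal ideal of `S ⧸ π S`
  have hcm : (𝔐S.map (Ideal.Quotient.mk
      ((Ideal.span {π}).map (algebraMap R ↥(integralClosure R 𝔽))))).comap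
        (Ideal.Quotient.mk ((Ideal.span {π}).map (algebraMap R ↥(integralClosure R 𝔽)))) = 𝔐S := by
    rw [Ideal.comap_map_of_surjective _ Ideal.Quotient.mk_surjective, ← RingHom.ker_eq_comap_bot,
      Ideal.mk_ker, sup_eq_left.mpr h𝔞le]
  have hMmax : (𝔐S.map (Ideal.Quotient.mk
      ((Ideal.span {π}).map (algebraMap R ↥(integralClosure R 𝔽))))).IsMaximal := by
    rcases Ideal.map_eq_top_or_isMaximal_of_surjective
      (Ideal.Quotient.mk ((Ideal.span {π}).map (algebraMap R ↥(integralClosure R 𝔽))))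
      Ideal.Quotient.mk_surjective h𝔐Smax with h | h
    · exfalso
      rw [h, Ideal.comap_top] at hcm
      exact h𝔐Smax.ne_top hcm.symm
    · exact h
  have hdvr := modelFibreC_abs_dvr K₁ π y hm hπ hy hπ0 hy0 hπy hd
    (𝔐S.map (Ideal.Quotient.mk ((Ideal.span {π}).map (algebraMap R ↥(integralClosure R 𝔽)))))
  obtain ⟨uS, huS⟩ := modelLocGen_of_dvr _ _ hdvr
  rw [hcm, h𝔞] at huS
  obtain ⟨u, hu⟩ := modelLocGen_descend ι hι (Ideal.span {πA}) 𝔐S hloc huS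
  rw [hcomap] at hu
  exact ⟨u, hu⟩

open Polynomial Fermat.Agent.S18 Fermat.Agent.S18.LocalRing Fermat.Agent.S18.LocalBase in
/-- (E1) at a closed point `pt π f` in "cusp-adapted" form, with the evaluation map
`ev : Λ[X] → A`, `a ↦ a(t)`, as a parameter. -/
theorem modelFibreC_at_pt {Λ K 𝔽 : Type*} [CommRing Λ] [IsDomain Λ] [IsDiscreteValuationRing Λ]
    [Field K] [CharZero K] [Algebra Λ K] [IsFractionRing Λ K] [Field 𝔽] [Algebra K 𝔽]
    [Algebra Λ 𝔽] [IsScalarTower Λ K 𝔽] (π : Λ) (hπ : Irreducible π)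
    {K₁ : Type*} [Field K₁] [Algebra Λ[X] K₁] [IsFractionRing Λ[X] K₁] [Algebra K₁ 𝔽]
    [FiniteDimensional K₁ 𝔽]
    (t : 𝔽) (hcompat : ∀ a : Λ[X], algebraMap K₁ 𝔽 (algebraMap Λ[X] K₁ a) = Polynomial.aeval t a)
    (C : Finset Λ) (hC : ∀ c ∈ C, ∀ c' ∈ C, c ≠ c' → ¬ π ∣ c - c')
    (hB1 : HasIntegralDualBasis (gaussSub π hπ.prime t) K₁ 𝔽)
    (hB2 : UnramAway K t ((algebraMap Λ K) '' (C : Set Λ)))
    (A : Subring 𝔽) (hA : ∀ z : 𝔽, IsIntegral (Algebra.adjoin Λ {t}) z → z ∈ A)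
    (ev : Λ[X] →+* A) (hev : ∀ a : Λ[X], ((ev a : A) : 𝔽) = aeval t a)
    {f : Λ[X]} (hf : f.Monic) (hfirr : Irreducible (f.map (Ideal.Quotient.mk (Ideal.span {π}))))
    (hcusp : (∃ c ∈ C, f = X - Polynomial.C c) ∨ (∀ c ∈ C, X - Polynomial.C c ∉ pt π f))
    (hA𝔫 : ∀ z ∈ A, ∃ a : Λ[X], a ∉ pt π f ∧
      IsIntegral (Algebra.adjoin Λ {t}) (aeval t a * z))
    (𝔐 : Ideal A) (h𝔐 : 𝔐.IsMaximal) (h𝔫𝔐 : ∀ a ∈ pt π f, ev a ∈ 𝔐) :
    ∃ u : A, ModelLocGen (Ideal.span {ev (Polynomial.C π)}) 𝔐 u := by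
  have hmaxpt : (pt π f).IsMaximal := pt_isMaximal hπ hfirr
  have hP : (pt π f).IsPrime := hmaxpt.isPrime
  have : CharZero Λ := (algebraMap Λ K).charZero
  have : CharZero K₁ := LocalInst.charZero_K₁ (K₁ := K₁) (𝔽 := 𝔽) K
  let _ := LocalInst.algK₁ (K₁ := K₁) (pt π f)
  have := LocalInst.isScalarTower_algK₁ (K₁ := K₁) (pt π f)
  let _ := LocalInst.alg𝔽 K₁ (𝔽 := 𝔽) (pt π f)
  have := LocalInst.isScalarTower_alg𝔽 K₁ (𝔽 := 𝔽) (pt π f)
  have := LocalInst.isFractionRing (K₁ := K₁) (pt π f)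
  have hφ : ∀ a : Λ[X], algebraMap (Localization.AtPrime (pt π f)) 𝔽
      (algebraMap Λ[X] (Localization.AtPrime (pt π f)) a) = aeval t a :=
    LocalInst.algebraMap_apply t hcompat (pt π f)
  have hV : IsLocSub (algebraMap Λ[X] (Localization.AtPrime (pt π f)) (Polynomial.C π))
      (gaussSub π hπ.prime t) :=
    LocalInst.isLocSub_gaussSub t hcompat (pt π f) π hπ.prime (C_mem_pt π f)
  have : CharZero (Localization.AtPrime (pt π f) ⧸
      Ideal.span {algebraMap Λ[X] (Localization.AtPrime (pt π f)) f}) :=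
    charZero_quotient_f hπ hf hfirr
  -- `A` is contained in the integral closure of `R = Λ[X]_(π, f)`
  have hAS : ∀ z : A, (z : 𝔽) ∈ integralClosure (Localization.AtPrime (pt π f)) 𝔽 := by
    intro z
    obtain ⟨a, ha, haz⟩ := hA𝔫 z z.2
    have h1 : IsIntegral (Localization.AtPrime (pt π f)) (aeval t a * (z : 𝔽)) :=
      LocalInst.isIntegral_of_isIntegral_adjoin t hcompat (pt π f) haz
    obtain ⟨u', hu'⟩ := (isUnit_of_not_mem ha).exists_left_inv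
    have h2 : (z : 𝔽) = algebraMap (Localization.AtPrime (pt π f)) 𝔽 u' *
        (aeval t a * (z : 𝔽)) := by
      rw [← hφ a, ← mul_assoc, ← map_mul, hu', map_one, one_mul]
    rw [h2]
    exact isIntegral_algebraMap.mul h1
  -- `a(t) ∉ 𝔐` for `a ∉ (π, f)`
  have hnot : ∀ a : Λ[X], a ∉ pt π f → ev a ∉ 𝔐 := by
    intro a ha hmem
    obtain ⟨b, c, hc, hbc⟩ := hmaxpt.exists_inv ha
    have h1 : (1 : A) ∈ 𝔐 := by
      have h2 : ev (b * a + c) = 1 := by rw [hbc, map_one]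
      rw [← h2, map_add, map_mul]
      exact 𝔐.add_mem (𝔐.mul_mem_left _ hmem) (h𝔫𝔐 c hc)
    exact h𝔐.ne_top ((Ideal.eq_top_iff_one _).mpr h1)
  -- denominators
  have hden : ∀ w : 𝔽, IsIntegral (Localization.AtPrime (pt π f)) w →
      ∃ (s : A) (r : Localization.AtPrime (pt π f)), IsUnit r ∧
        (s : 𝔽) = algebraMap (Localization.AtPrime (pt π f)) 𝔽 r ∧ s ∉ 𝔐 ∧ (s : 𝔽) * w ∈ A := by
    intro w hw
    obtain ⟨a, ha, haw⟩ := LocalInst.exists_isIntegral_adjoin t hcompat (pt π f) hw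
    refine ⟨ev a, algebraMap Λ[X] (Localization.AtPrime (pt π f)) a, isUnit_of_not_mem ha, ?_,
      hnot a ha, ?_⟩
    · rw [hev, hφ]
    · rw [hev]
      exact hA _ haw
  exact modelFibreC_abs K₁
    (algebraMap Λ[X] (Localization.AtPrime (pt π f)) (Polynomial.C π))
    (algebraMap Λ[X] (Localization.AtPrime (pt π f)) f)
    maximalIdeal_eq (isPrime_span_C_pi hπ) (isPrime_span_f hπ hf hfirr) (map_C_pi_ne_zero hπ)
    (map_f_ne_zero hf) (not_map_C_pi_dvd_map_f hπ hf)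
    (fun n b => LocalDisc.discr_eq_unit_mul_pow_gen hπ hf hfirr (gaussSub π hπ.prime t) hV hB1 C hC
      hcusp (fun p hp _ hdeg hroot =>
        LocalGlue.unram_at π hπ t hcompat C hB2 (pt π f) p hp hdeg hroot) n b)
    A hAS 𝔐 h𝔐 hden (ev (Polynomial.C π)) (by rw [hev, hφ]) (h𝔫𝔐 _ (C_mem_pt π f))

open Polynomial Fermat.Agent.S18 in
/-- (E1) **M1** (third team): in the S18 engine setting (chart `t`), every ring `A` between the
chart ring (integral closure of `Λ[t]`) and its localisation at a closed point `𝔫 ∋ π` of the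
`t`-line has a local generator ("uniformiser of the special fibre") at every maximal ideal over
`𝔫`. -/
theorem model_fibre_locGen_C {Λ K 𝔽 : Type*} [CommRing Λ] [IsDomain Λ] [IsDiscreteValuationRing Λ]
    [Field K] [CharZero K] [Algebra Λ K] [IsFractionRing Λ K] [Field 𝔽] [Algebra K 𝔽]
    [Algebra Λ 𝔽] [IsScalarTower Λ K 𝔽] (π : Λ) (hπ : Irreducible π)
    {K₁ : Type*} [Field K₁] [Algebra Λ[X] K₁] [IsFractionRing Λ[X] K₁] [Algebra K₁ 𝔽]
    [FiniteDimensional K₁ 𝔽]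
    (t : 𝔽) (hcompat : ∀ a : Λ[X], algebraMap K₁ 𝔽 (algebraMap Λ[X] K₁ a) = Polynomial.aeval t a)
    (C : Finset Λ) (hC : ∀ c ∈ C, ∀ c' ∈ C, c ≠ c' → ¬ π ∣ c - c')
    (hB1 : HasIntegralDualBasis (gaussSub π hπ.prime t) K₁ 𝔽)
    (hB2 : UnramAway K t ((algebraMap Λ K) '' (C : Set Λ)))
    (A : Subring 𝔽) (hA : ∀ z : 𝔽, IsIntegral (Algebra.adjoin Λ {t}) z → z ∈ A)
    (𝔫 : Ideal Λ[X]) (h𝔫 : 𝔫.IsMaximal) (hπ𝔫 : Polynomial.C π ∈ 𝔫)
    (hA𝔫 : ∀ z ∈ A, ∃ a : Λ[X], a ∉ 𝔫 ∧ IsIntegral (Algebra.adjoin Λ {t}) (aeval t a * z))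
    (𝔐 : Ideal A) (h𝔐 : 𝔐.IsMaximal)
    (h𝔫𝔐 : ∀ a ∈ 𝔫, (⟨aeval t a, hA _ (isIntegral_algebraMap (R := Algebra.adjoin Λ {t})
      (x := ⟨aeval t a, Polynomial.aeval_mem_adjoin_singleton Λ t⟩))⟩ : A) ∈ 𝔐) :
    ∃ u : A, ModelLocGen
      (Ideal.span {(⟨algebraMap Λ 𝔽 π, hA _ (isIntegral_algebraMap (R := Algebra.adjoin Λ {t})
        (x := algebraMap Λ _ π))⟩ : A)}) 𝔐 u := by
  -- the evaluation map `Λ[X] → A`
  let ev : Λ[X] →+* A := ((aeval t : Λ[X] →ₐ[Λ] 𝔽) : Λ[X] →+* 𝔽).codRestrict A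
    (fun a => hA _ (isIntegral_algebraMap (R := Algebra.adjoin Λ {t})
      (x := ⟨aeval t a, Polynomial.aeval_mem_adjoin_singleton Λ t⟩)))
  have hev : ∀ a : Λ[X], ((ev a : A) : 𝔽) = aeval t a := fun _ => rfl
  have hevπ : ev (Polynomial.C π) = (⟨algebraMap Λ 𝔽 π, hA _ (isIntegral_algebraMap
      (R := Algebra.adjoin Λ {t}) (x := algebraMap Λ _ π))⟩ : A) :=
    Subtype.ext (by rw [hev, aeval_C])
  have h𝔫𝔐' : ∀ a ∈ 𝔫, ev a ∈ 𝔐 := fun a ha => h𝔫𝔐 a ha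
  rw [← hevπ]
  -- the closed point in cusp-adapted form
  obtain ⟨f₀, hf₀, hf₀irr, rfl⟩ := LocalRing.exists_eq_pt hπ 𝔫 h𝔫 hπ𝔫
  obtain ⟨f, hf, hfirr, hpt, hcusp⟩ : ∃ f : Λ[X], f.Monic ∧
      Irreducible (f.map (Ideal.Quotient.mk (Ideal.span {π}))) ∧
      LocalRing.pt π f₀ = LocalRing.pt π f ∧
      ((∃ c ∈ C, f = X - Polynomial.C c) ∨ (∀ c ∈ C, X - Polynomial.C c ∉ LocalRing.pt π f)) := by
    by_cases hc : ∃ c ∈ C, X - Polynomial.C c ∈ LocalRing.pt π f₀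
    · obtain ⟨c, hcC, hcmem⟩ := hc
      exact ⟨X - Polynomial.C c, monic_X_sub_C c, LocalRing.irreducible_map_X_sub_C hπ c,
        LocalRing.pt_eq_of_X_sub_C_mem hπ hf₀irr hcmem, Or.inl ⟨c, hcC, rfl⟩⟩
    · push Not at hc
      exact ⟨f₀, hf₀, hf₀irr, rfl, Or.inr hc⟩
  rw [hpt] at hA𝔫 h𝔫𝔐'
  exact modelFibreC_at_pt π hπ t hcompat C hC hB1 hB2 A hA ev hev hf hfirr hcusp hA𝔫 𝔐 h𝔐 h𝔫𝔐'

end Fermat.Agent.S34
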