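import Mathlib
import Fermat.Agent.S18.GaussLineF

/-!
# P19 (S34), MODEL-M: clearing denominators over `Λ[v]`

`E` a finite extension of `K(v)`, `v` transcendental over `K = Frac Λ`: every element of `E`
becomes integral over `Λ[v]` after multiplication by a nonzero element of `Λ[v]`.
-/

set_option autoImplicit false

namespace Fermat.Agent.S34

open Polynomial IntermediateField
open Fermat.Agent.S18 Fermat.Agent.S18.GaussLineK

theorem s34_mpre_exists_integral_multiple {Λ K E : Type*} [CommRing Λ] [IsDomain Λ] [Field K]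
    [Algebra Λ K] [IsFractionRing Λ K] [Field E] [Algebra K E] [Algebra Λ E] [IsScalarTower Λ K E]
    (v : E) (hv : Transcendental K v) [FiniteDimensional K⟮v⟯ E] (y : E) :
    ∃ c : E, c ≠ 0 ∧ c ∈ Algebra.adjoin Λ {v} ∧ IsIntegral (Algebra.adjoin Λ {v}) (c * y) := by
  have hvΛ : Transcendental Λ v := transcendental_of_fraction hv
  let alg1 : Algebra Λ[X] K⟮v⟯ := polyAlgebra (Λ := Λ) v (AdjoinSimple.gen K v)
  have frac : IsFractionRing Λ[X] K⟮v⟯ := isFractionRing_gen hv
  let alg2 : Algebra Λ[X] E := (aeval v : Λ[X] →ₐ[Λ] E).toRingHom.toAlgebra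
  have tower : IsScalarTower Λ[X] K⟮v⟯ E := by
    refine IsScalarTower.of_algebraMap_eq (fun a => ?_)
    show aeval v a = ((algebraMap Λ[X] K⟮v⟯ a : K⟮v⟯) : E)
    rw [polyAlgebra_algebraMap_apply, AdjoinSimple.coe_gen]
  have halg : IsAlgebraic K⟮v⟯ y := Algebra.IsAlgebraic.isAlgebraic y
  have halg' : IsAlgebraic Λ[X] y := (IsFractionRing.isAlgebraic_iff Λ[X] K⟮v⟯ E).mpr halg
  obtain ⟨a, ha, hint⟩ := halg'.exists_integral_multiple
  refine ⟨aeval v a, aeval_ne_zero hvΛ ha, aeval_mem_adjoin v a, ?_⟩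
  rw [glF_isIntegral_adjoin_iff]
  have h1 : a • y = aeval v a * y := by
    rw [Algebra.smul_def]
    rfl
  rw [← h1]
  exact hint

end Fermat.Agent.S34
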