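import Mathlib
import Fermat.Agent.S18.GaussLineF

/-!
P19 (S34), MODEL-M, abstract prerequisites of the norm descent assembly (helper29's pin):

* `s34_mpre_finiteDimensional` (T1): if `F` is finite over `K(w)` and `𝔽` is finite over the image
  of `e : F →ₐ[K] 𝔽`, then `𝔽` is finite over `K(e w)`.
* `s34_mpre_finite_quotient` (b): the residue fields of the chart ring (integral closure of `Λ[w]`
  in a finite extension of `K(w)`) at maximal ideals containing `π` are finite, provided `Λ ⧸ π`
  is finite.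
-/

set_option autoImplicit false

namespace Fermat.Agent.S34

open Polynomial IntermediateField

/-- (T1) finiteness of the cover field over `K(e w)`. -/
theorem s34_mpre_finiteDimensional {K F 𝔽 : Type*} [Field K] [Field F] [Algebra K F] [Field 𝔽]
    [Algebra K 𝔽] (e : F →ₐ[K] 𝔽) (w : F) [FiniteDimensional K⟮w⟯ F]
    [FiniteDimensional e.fieldRange 𝔽] : FiniteDimensional K⟮e w⟯ 𝔽 := by
  classical
  obtain ⟨s, hs⟩ := Module.Finite.fg_top (R := K⟮w⟯) (M := F)
  obtain ⟨t, ht⟩ := Module.Finite.fg_top (R := e.fieldRange) (M := 𝔽)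
  -- `e` maps `K(w)` into `K(e w)`
  have hmap : ∀ a : F, a ∈ K⟮w⟯ → e a ∈ K⟮e w⟯ := by
    intro a ha
    have h1 : e a ∈ (K⟮w⟯).map e := ⟨a, ha, rfl⟩
    rw [IntermediateField.adjoin_map, Set.image_singleton] at h1
    exact h1
  refine ⟨⟨Finset.image₂ (fun f g => e f * g) s t, ?_⟩⟩
  set T : Submodule K⟮e w⟯ 𝔽 :=
    Submodule.span K⟮e w⟯ ((Finset.image₂ (fun f g => e f * g) s t : Finset 𝔽) : Set 𝔽) with hT
  -- step 1: `e d * g ∈ T` for all `d : F`, `g ∈ t`
  have step1 : ∀ g ∈ t, ∀ d : F, e d * g ∈ T := by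
    intro g hg d
    have hd : d ∈ Submodule.span K⟮w⟯ (s : Set F) := by rw [hs]; exact Submodule.mem_top
    induction hd using Submodule.span_induction with
    | mem f hf =>
      exact Submodule.subset_span (Finset.mem_coe.mpr (Finset.mem_image₂_of_mem hf hg))
    | zero => rw [map_zero, zero_mul]; exact Submodule.zero_mem _
    | add x y _ _ hx hy => rw [map_add, add_mul]; exact Submodule.add_mem _ hx hy
    | smul a x _ hx =>
      have h2 : e (a • x) * g = (⟨e (a : F), hmap a a.2⟩ : K⟮e w⟯) • (e x * g) := by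
        rw [IntermediateField.smul_def, IntermediateField.smul_def, smul_eq_mul, smul_eq_mul,
          map_mul, mul_assoc]
      rw [h2]
      exact Submodule.smul_mem _ _ hx
  -- step 2: everything lies in `T`
  rw [eq_top_iff]
  intro y _
  have hy : y ∈ Submodule.span e.fieldRange (t : Set 𝔽) := by rw [ht]; exact Submodule.mem_top
  obtain ⟨c, -, rfl⟩ := Submodule.mem_span_finset.mp hy
  refine Submodule.sum_mem _ (fun g hg => ?_)
  obtain ⟨d, hd⟩ := (c g).2
  have h3 : c g • g = e d * g := by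
    rw [IntermediateField.smul_def, smul_eq_mul, ← hd]
    rfl
  rw [h3]
  exact step1 g hg d

/-- (b) residue fields of the chart ring at closed points of the special fibre are finite. -/
theorem s34_mpre_finite_quotient {Λ K F : Type*} [CommRing Λ] [IsDomain Λ]
    [IsDiscreteValuationRing Λ] [Field K] [CharZero K] [Algebra Λ K] [IsFractionRing Λ K]
    [Field F] [Algebra K F] [Algebra Λ F] [IsScalarTower Λ K F]
    (π : Λ) (hπ : Irreducible π) [Finite (Λ ⧸ Ideal.span {π})] (w : F)
    (hw : Transcendental K w) [FiniteDimensional K⟮w⟯ F]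
    (𝔐 : Ideal (integralClosure (Algebra.adjoin Λ {w}) F)) [𝔐.IsMaximal]
    (hπ𝔐 : algebraMap Λ (integralClosure (Algebra.adjoin Λ {w}) F) π ∈ 𝔐) :
    Finite (integralClosure (Algebra.adjoin Λ {w}) F ⧸ 𝔐) := by
  classical
  -- the chart ring is a finite `Λ[w]`-module, hence a `Λ`-algebra of finite type
  have hfin : Module.Finite (Algebra.adjoin Λ {w}) (integralClosure (Algebra.adjoin Λ {w}) F) :=
    Fermat.Agent.S18.GaussLineK.finite_integralClosure (Λ := Λ) (K := K) hw
  have hft0 : Algebra.FiniteType Λ (Algebra.adjoin Λ {w}) := by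
    have : (Algebra.adjoin Λ ({w} : Set F)).FG :=
      ⟨{w}, by rw [Finset.coe_singleton]⟩
    exact (Subalgebra.fg_iff_finiteType _).mp this
  have hft1 : Algebra.FiniteType (Algebra.adjoin Λ {w})
      (integralClosure (Algebra.adjoin Λ {w}) F) := inferInstance
  have hft : Algebra.FiniteType Λ (integralClosure (Algebra.adjoin Λ {w}) F) :=
    Algebra.FiniteType.trans hft0 hft1
  have hftq : Algebra.FiniteType Λ (integralClosure (Algebra.adjoin Λ {w}) F ⧸ 𝔐) :=
    Algebra.FiniteType.of_surjective (Ideal.Quotient.mkₐ Λ 𝔐)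
      (Ideal.Quotient.mkₐ_surjective Λ 𝔐)
  -- the residue field `k = Λ ⧸ π`
  have hmax : (Ideal.span {π} : Ideal Λ).IsMaximal :=
    PrincipalIdealRing.isMaximal_of_irreducible hπ
  let : Field (Λ ⧸ Ideal.span {π}) := Ideal.Quotient.field _
  let : Field (integralClosure (Algebra.adjoin Λ {w}) F ⧸ 𝔐) := Ideal.Quotient.field _
  let f : Λ ⧸ Ideal.span {π} →+* integralClosure (Algebra.adjoin Λ {w}) F ⧸ 𝔐 :=
    Ideal.Quotient.lift (Ideal.span {π})
      ((Ideal.Quotient.mk 𝔐).comp (algebraMap Λ (integralClosure (Algebra.adjoin Λ {w}) F)))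
      (by
        intro a ha
        obtain ⟨c, rfl⟩ := Ideal.mem_span_singleton'.mp ha
        rw [RingHom.comp_apply, map_mul, Ideal.Quotient.eq_zero_iff_mem]
        exact Ideal.mul_mem_left _ _ hπ𝔐)
  let : Algebra (Λ ⧸ Ideal.span {π}) (integralClosure (Algebra.adjoin Λ {w}) F ⧸ 𝔐) :=
    f.toAlgebra
  have : IsScalarTower Λ (Λ ⧸ Ideal.span {π})
      (integralClosure (Algebra.adjoin Λ {w}) F ⧸ 𝔐) :=
    IsScalarTower.of_algebraMap_eq (fun c => rfl)
  have : Algebra.FiniteType (Λ ⧸ Ideal.span {π})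
      (integralClosure (Algebra.adjoin Λ {w}) F ⧸ 𝔐) :=
    Algebra.FiniteType.of_restrictScalars_finiteType Λ _ _
  have : Module.Finite (Λ ⧸ Ideal.span {π})
      (integralClosure (Algebra.adjoin Λ {w}) F ⧸ 𝔐) :=
    finite_of_finite_type_of_isJacobsonRing _ _
  exact Module.finite_of_finite (Λ ⧸ Ideal.span {π})

end Fermat.Agent.S34
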