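import Mathlib
import Fermat.Agent.S18.GaussLineF
import Fermat.Agent.S34.ModelMPre

/-!
P19 (S34), MODEL-M, abstract prerequisites of the norm descent assembly, part B (helper29's pin):
the map of chart rings `ι : integralClosure Λ[w] F → integralClosure Λ[e w] 𝔽` induced by a field
embedding `e : F → 𝔽`: it is injective, integral, finite (under the finiteness hypotheses), has the
lying-over property for maximal ideals, and its range consists of the elements lying in the image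
of `e`.  Everything is packaged in `s34_mpre_iota`.
-/

set_option autoImplicit false
set_option linter.unusedSectionVars false

namespace Fermat.Agent.S34

open Polynomial IntermediateField

section MPreB

variable {Λ F₀ 𝔽 : Type*} [CommRing Λ] [IsDomain Λ] [Field F₀] [Field 𝔽] [Algebra Λ F₀]
  [Algebra Λ 𝔽]

/-- `e ∘ aeval w = aeval (e w)` on `Λ[X]`. -/
theorem s34_mpreB_comp_aeval (e : F₀ →+* 𝔽)
    (he : ∀ c : Λ, e (algebraMap Λ F₀ c) = algebraMap Λ 𝔽 c) (w : F₀) :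
    e.comp ((aeval w : Λ[X] →ₐ[Λ] F₀) : Λ[X] →+* F₀)
      = ((aeval (e w) : Λ[X] →ₐ[Λ] 𝔽) : Λ[X] →+* 𝔽) := by
  apply Polynomial.ringHom_ext
  · intro c
    simp [he]
  · simp

/-- Integrality over `Λ[w]` is preserved and reflected by `e`. -/
theorem s34_mpreB_isIntegral_iff (e : F₀ →+* 𝔽)
    (he : ∀ c : Λ, e (algebraMap Λ F₀ c) = algebraMap Λ 𝔽 c) (w a : F₀) :
    IsIntegral (Algebra.adjoin Λ {e w}) (e a) ↔ IsIntegral (Algebra.adjoin Λ {w}) a := by
  rw [Fermat.Agent.S18.GaussLineK.glF_isIntegral_adjoin_iff,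
    Fermat.Agent.S18.GaussLineK.glF_isIntegral_adjoin_iff, ← s34_mpreB_comp_aeval e he w]
  constructor
  · rintro ⟨p, hp, hp0⟩
    refine ⟨p, hp, ?_⟩
    rw [← Polynomial.hom_eval₂] at hp0
    exact e.injective (by rw [hp0, map_zero])
  · rintro ⟨p, hp, hp0⟩
    refine ⟨p, hp, ?_⟩
    rw [← Polynomial.hom_eval₂, hp0, map_zero]

/-- The map of chart rings induced by `e`. -/
noncomputable def s34ChartMap (e : F₀ →+* 𝔽)
    (he : ∀ c : Λ, e (algebraMap Λ F₀ c) = algebraMap Λ 𝔽 c) (w : F₀) :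
    integralClosure (Algebra.adjoin Λ {w}) F₀ →+* integralClosure (Algebra.adjoin Λ {e w}) 𝔽 :=
  (e.comp (integralClosure (Algebra.adjoin Λ {w}) F₀).val.toRingHom).codRestrict
    (integralClosure (Algebra.adjoin Λ {e w}) 𝔽)
    (fun a => (s34_mpreB_isIntegral_iff e he w a.1).mpr a.2)

@[simp] theorem s34ChartMap_coe (e : F₀ →+* 𝔽)
    (he : ∀ c : Λ, e (algebraMap Λ F₀ c) = algebraMap Λ 𝔽 c) (w : F₀)
    (a : integralClosure (Algebra.adjoin Λ {w}) F₀) :
    ((s34ChartMap e he w a : integralClosure (Algebra.adjoin Λ {e w}) 𝔽) : 𝔽) = e (a : F₀) := rfl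

theorem s34ChartMap_injective (e : F₀ →+* 𝔽)
    (he : ∀ c : Λ, e (algebraMap Λ F₀ c) = algebraMap Λ 𝔽 c) (w : F₀) :
    Function.Injective (s34ChartMap e he w) := by
  intro a b hab
  apply Subtype.ext
  apply e.injective
  rw [← s34ChartMap_coe e he w a, ← s34ChartMap_coe e he w b, hab]

theorem s34ChartMap_algebraMap (e : F₀ →+* 𝔽)
    (he : ∀ c : Λ, e (algebraMap Λ F₀ c) = algebraMap Λ 𝔽 c) (w : F₀) (c : Λ) :
    s34ChartMap e he w (algebraMap Λ _ c) = algebraMap Λ _ c := by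
  apply Subtype.ext
  rw [s34ChartMap_coe]
  exact he c

/-- range of the chart map: the elements of the big chart ring lying in the image of `e`. -/
theorem s34ChartMap_mem_range (e : F₀ →+* 𝔽)
    (he : ∀ c : Λ, e (algebraMap Λ F₀ c) = algebraMap Λ 𝔽 c) (w : F₀)
    (b : integralClosure (Algebra.adjoin Λ {e w}) 𝔽) :
    b ∈ (s34ChartMap e he w).range ↔ (b : 𝔽) ∈ Set.range e := by
  constructor
  · rintro ⟨a, rfl⟩
    exact ⟨a, rfl⟩
  · rintro ⟨a, ha⟩
    have hb := b.2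
    rw [← ha] at hb
    exact ⟨⟨a, (s34_mpreB_isIntegral_iff e he w a).mp hb⟩, Subtype.ext ha⟩

/-- The chart map is integral (no finiteness hypothesis needed). -/
theorem s34ChartMap_isIntegral (e : F₀ →+* 𝔽)
    (he : ∀ c : Λ, e (algebraMap Λ F₀ c) = algebraMap Λ 𝔽 c) (w : F₀) :
    (s34ChartMap e he w).IsIntegral := by
  intro b
  obtain ⟨p, hp, hp0⟩ :=
    (Fermat.Agent.S18.GaussLineK.glF_isIntegral_adjoin_iff (Λ := Λ) (e w) (b : 𝔽)).mp b.2
  -- `ψ₀ : Λ[X] → A`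
  let ψ₀ : Λ[X] →+* integralClosure (Algebra.adjoin Λ {w}) F₀ :=
    (algebraMap (Algebra.adjoin Λ {w}) (integralClosure (Algebra.adjoin Λ {w}) F₀)).comp
      ((aeval w : Λ[X] →ₐ[Λ] F₀).codRestrict (Algebra.adjoin Λ {w})
        (fun a => Fermat.Agent.S18.GaussLineK.aeval_mem_adjoin w a) :
          Λ[X] →+* Algebra.adjoin Λ {w})
  have hcomp : ((integralClosure (Algebra.adjoin Λ {e w}) 𝔽).val.toRingHom.comp
      (s34ChartMap e he w)).comp ψ₀ = ((aeval (e w) : Λ[X] →ₐ[Λ] 𝔽) : Λ[X] →+* 𝔽) := by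
    rw [← s34_mpreB_comp_aeval e he w]
    rfl
  refine ⟨p.map ψ₀, hp.map ψ₀, ?_⟩
  apply Subtype.ext
  have h1 : ((Polynomial.eval₂ (s34ChartMap e he w) b (p.map ψ₀) :
      integralClosure (Algebra.adjoin Λ {e w}) 𝔽) : 𝔽)
      = (integralClosure (Algebra.adjoin Λ {e w}) 𝔽).val.toRingHom
          (Polynomial.eval₂ (s34ChartMap e he w) b (p.map ψ₀)) := rfl
  rw [h1, Polynomial.hom_eval₂, Polynomial.eval₂_map, hcomp]
  exact hp0

/-- (c) lying over for the chart map. -/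
theorem s34ChartMap_exists_comap_eq (e : F₀ →+* 𝔽)
    (he : ∀ c : Λ, e (algebraMap Λ F₀ c) = algebraMap Λ 𝔽 c) (w : F₀)
    (𝔐 : Ideal (integralClosure (Algebra.adjoin Λ {w}) F₀)) [𝔐.IsMaximal] :
    ∃ 𝔐' : Ideal (integralClosure (Algebra.adjoin Λ {e w}) 𝔽),
      𝔐'.IsMaximal ∧ 𝔐'.comap (s34ChartMap e he w) = 𝔐 := by
  let _ : Algebra (integralClosure (Algebra.adjoin Λ {w}) F₀)
      (integralClosure (Algebra.adjoin Λ {e w}) 𝔽) := (s34ChartMap e he w).toAlgebra
  have : Algebra.IsIntegral (integralClosure (Algebra.adjoin Λ {w}) F₀)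
      (integralClosure (Algebra.adjoin Λ {e w}) 𝔽) := ⟨s34ChartMap_isIntegral e he w⟩
  refine Ideal.exists_ideal_over_maximal_of_isIntegral 𝔐 ?_
  have hker : RingHom.ker (algebraMap (integralClosure (Algebra.adjoin Λ {w}) F₀)
      (integralClosure (Algebra.adjoin Λ {e w}) 𝔽)) = ⊥ :=
    (RingHom.injective_iff_ker_eq_bot _).mp (s34ChartMap_injective e he w)
  rw [hker]
  exact bot_le

/-- (a) the chart map is finite. -/
theorem s34ChartMap_finite {K : Type*} [Field K] [CharZero K] [Algebra Λ K] [IsFractionRing Λ K]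
    [Algebra K 𝔽] [IsScalarTower Λ K 𝔽] [IsIntegrallyClosed Λ] [IsNoetherianRing Λ]
    (e : F₀ →+* 𝔽) (he : ∀ c : Λ, e (algebraMap Λ F₀ c) = algebraMap Λ 𝔽 c) (w : F₀)
    (hw : Transcendental K (e w)) [FiniteDimensional K⟮e w⟯ 𝔽] :
    (s34ChartMap e he w).Finite := by
  have hfin : Module.Finite (Algebra.adjoin Λ {e w})
      (integralClosure (Algebra.adjoin Λ {e w}) 𝔽) :=
    Fermat.Agent.S18.GaussLineK.finite_integralClosure (Λ := Λ) (K := K) hw
  let ψ₀ : Λ[X] →+* integralClosure (Algebra.adjoin Λ {w}) F₀ :=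
    (algebraMap (Algebra.adjoin Λ {w}) (integralClosure (Algebra.adjoin Λ {w}) F₀)).comp
      ((aeval w : Λ[X] →ₐ[Λ] F₀).codRestrict (Algebra.adjoin Λ {w})
        (fun a => Fermat.Agent.S18.GaussLineK.aeval_mem_adjoin w a) :
          Λ[X] →+* Algebra.adjoin Λ {w})
  let ψ₁ : Λ[X] →+* Algebra.adjoin Λ {e w} :=
    ((aeval (e w) : Λ[X] →ₐ[Λ] 𝔽).codRestrict (Algebra.adjoin Λ {e w})
        (fun a => Fermat.Agent.S18.GaussLineK.aeval_mem_adjoin (e w) a) :
          Λ[X] →+* Algebra.adjoin Λ {e w})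
  have hψ₁ : Function.Surjective ψ₁ := by
    rintro ⟨v, hv⟩
    obtain ⟨a, rfl⟩ := Fermat.Agent.S18.GaussLineK.exists_aeval_eq_of_mem_adjoin hv
    exact ⟨a, rfl⟩
  have hcomp : (s34ChartMap e he w).comp ψ₀
      = (algebraMap (Algebra.adjoin Λ {e w}) (integralClosure (Algebra.adjoin Λ {e w}) 𝔽)).comp
          ψ₁ := by
    refine RingHom.ext (fun p => ?_)
    apply Subtype.ext
    show e (aeval w p) = aeval (e w) p
    have := congrArg (fun f : Λ[X] →+* 𝔽 => f p) (s34_mpreB_comp_aeval e he w)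
    exact this
  have h2 : ((s34ChartMap e he w).comp ψ₀).Finite := by
    rw [hcomp]
    exact RingHom.Finite.comp (RingHom.finite_algebraMap.mpr hfin)
      (RingHom.Finite.of_surjective ψ₁ hψ₁)
  exact RingHom.Finite.of_comp_finite h2

end MPreB

/-- The chart map `ι` induced by `e : F →ₐ[K] 𝔽` with all the properties needed by the norm
descent assembly: compatibility with `e`, injectivity, finiteness, lying over, and the
description of its range. -/
theorem s34_mpre_iota {Λ K F 𝔽 : Type*} [CommRing Λ] [IsDomain Λ] [IsDiscreteValuationRing Λ]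
    [Field K] [CharZero K] [Algebra Λ K] [IsFractionRing Λ K]
    [Field F] [Algebra K F] [Algebra Λ F] [IsScalarTower Λ K F]
    [Field 𝔽] [Algebra K 𝔽] [Algebra Λ 𝔽] [IsScalarTower Λ K 𝔽]
    (e : F →ₐ[K] 𝔽) (w : F) (hw : Transcendental K w) [FiniteDimensional K⟮w⟯ F]
    [FiniteDimensional e.fieldRange 𝔽] :
    ∃ ι : integralClosure (Algebra.adjoin Λ {w}) F →+* integralClosure (Algebra.adjoin Λ {e w}) 𝔽,
      (∀ a, ((ι a : integralClosure (Algebra.adjoin Λ {e w}) 𝔽) : 𝔽) = e (a : F)) ∧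
      Function.Injective ι ∧ ι.Finite ∧
      (∀ 𝔐 : Ideal (integralClosure (Algebra.adjoin Λ {w}) F), 𝔐.IsMaximal →
        ∃ 𝔐' : Ideal (integralClosure (Algebra.adjoin Λ {e w}) 𝔽), 𝔐'.IsMaximal ∧ 𝔐'.comap ι = 𝔐) ∧
      (∀ b : integralClosure (Algebra.adjoin Λ {e w}) 𝔽, (b : 𝔽) ∈ Set.range e ↔ b ∈ ι.range) := by
  have he : ∀ c : Λ, (e : F →+* 𝔽) (algebraMap Λ F c) = algebraMap Λ 𝔽 c := by
    intro c
    rw [IsScalarTower.algebraMap_apply Λ K F, IsScalarTower.algebraMap_apply Λ K 𝔽]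
    exact e.commutes _
  have hew : Transcendental K (e w) :=
    fun h => hw ((isAlgebraic_algHom_iff e e.toRingHom.injective).mp h)
  have hfd : FiniteDimensional K⟮(e : F →+* 𝔽) w⟯ 𝔽 := s34_mpre_finiteDimensional e w
  refine ⟨s34ChartMap (e : F →+* 𝔽) he w, fun a => rfl, s34ChartMap_injective _ he w,
    s34ChartMap_finite (K := K) _ he w hew, fun 𝔐 h𝔐 => ?_, fun b => ?_⟩
  · exact s34ChartMap_exists_comap_eq _ he w 𝔐
  · exact (s34ChartMap_mem_range _ he w b).symm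

end Fermat.Agent.S34
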