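import Mathlib
import Fermat.Agent.S34.ModelDefs
import Fermat.Agent.S34.DescDefs
import Fermat.Agent.S34.DescRes
import Fermat.Agent.S34.DescTrace
import Fermat.Agent.S34.DescSplit
import Fermat.Agent.S34.DescNorm

/-!
P19 (S34), block MODEL-M2 (norm descent to the coarse model): the final assembly.

`model_norm_descend` : `B` a domain with an action of a finite group `G`, `ι : A → B` injective
and finite with image the ring of invariants, `𝔐'` a maximal ideal of `B` above the maximal ideal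
`𝔐` of `A` (finite residue field).  If `𝔐'` is generated by `π` and one element locally, then so
is `𝔐`.  The proof goes up the tower inertia group `⊲` decomposition group `≤ G` inside `B`
(`invLocGen_norm`, `invLocGen_trace`, `invLocGen_split`) and pulls back along `ι`.
-/

set_option autoImplicit false

namespace Fermat.Agent.S34

/-- if `g` maps the maximal ideal `𝔐` into itself, then `g • z ∈ 𝔐 ↔ z ∈ 𝔐`. -/
theorem s34mn_smul_mem_iff {B : Type*} [CommRing B] {G : Type*} [Group G]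
    [MulSemiringAction G B] (𝔐 : Ideal B) [h𝔐 : 𝔐.IsMaximal] {g : G}
    (hg : ∀ z ∈ 𝔐, g • z ∈ 𝔐) (z : B) : g • z ∈ 𝔐 ↔ z ∈ 𝔐 := by
  have h1 : 𝔐 = 𝔐.comap (MulSemiringAction.toRingHom G B g) := by
    refine h𝔐.eq_of_le ?_ ?_
    · rw [Ideal.ne_top_iff_one]
      intro h
      rw [Ideal.mem_comap, map_one] at h
      exact h𝔐.ne_top ((Ideal.eq_top_iff_one _).mpr h)
    · intro z hz
      exact hg z hz
  constructor
  · intro h
    rw [h1]
    exact h
  · exact hg z

/-- the decomposition group of a maximal ideal. -/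
def s34mn_decomp {B : Type*} [CommRing B] (G : Type*) [Group G]
    [MulSemiringAction G B] (𝔐 : Ideal B) [𝔐.IsMaximal] : Subgroup G where
  carrier := {g | ∀ z ∈ 𝔐, g • z ∈ 𝔐}
  mul_mem' := by
    intro a b ha hb z hz
    rw [mul_smul]
    exact ha _ (hb z hz)
  one_mem' := by
    intro z hz
    rw [one_smul]
    exact hz
  inv_mem' := by
    intro a ha z hz
    rw [← s34mn_smul_mem_iff 𝔐 ha, smul_inv_smul]
    exact hz

theorem s34mn_mem_decomp {B : Type*} [CommRing B] (G : Type*) [Group G]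
    [MulSemiringAction G B] (𝔐 : Ideal B) [𝔐.IsMaximal] (g : G) :
    g ∈ s34mn_decomp G 𝔐 ↔ ∀ z ∈ 𝔐, g • z ∈ 𝔐 := Iff.rfl

/-- the inertia group of a maximal ideal, as a subgroup of the decomposition group. -/
def s34mn_inertia {B : Type*} [CommRing B] (G : Type*) [Group G]
    [MulSemiringAction G B] (𝔐 : Ideal B) [𝔐.IsMaximal] : Subgroup (s34mn_decomp G 𝔐) where
  carrier := {s | ∀ y : B, s • y - y ∈ 𝔐}
  mul_mem' := by
    intro a b ha hb y
    have h1 : (a * b) • y - y = a • (b • y - y) + (a • y - y) := by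
      rw [mul_smul, smul_sub]
      ring
    rw [h1]
    exact 𝔐.add_mem (a.2 _ (hb y)) (ha y)
  one_mem' := by
    intro y
    rw [one_smul, sub_self]
    exact 𝔐.zero_mem
  inv_mem' := by
    intro a ha y
    have h1 : a⁻¹ • y - y = -(a⁻¹ • (a • y - y)) := by
      rw [smul_sub, inv_smul_smul]
      ring
    rw [h1]
    exact 𝔐.neg_mem ((a⁻¹).2 _ (ha y))

theorem s34mn_mem_inertia {B : Type*} [CommRing B] (G : Type*) [Group G]
    [MulSemiringAction G B] (𝔐 : Ideal B) [𝔐.IsMaximal] (s : s34mn_decomp G 𝔐) :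
    s ∈ s34mn_inertia G 𝔐 ↔ ∀ y : B, s • y - y ∈ 𝔐 := Iff.rfl

instance s34mn_inertia_normal {B : Type*} [CommRing B] (G : Type*) [Group G]
    [MulSemiringAction G B] (𝔐 : Ideal B) [𝔐.IsMaximal] : (s34mn_inertia G 𝔐).Normal := by
  constructor
  intro i hi s
  rw [s34mn_mem_inertia] at hi ⊢
  intro y
  have h1 : (s * i * s⁻¹) • y - y = s • (i • (s⁻¹ • y) - s⁻¹ • y) := by
    rw [smul_sub, mul_smul, mul_smul, smul_inv_smul]
  rw [h1]
  exact s.2 _ (hi _)

/-- the residue ring at a point above a point with finite residue field is finite. -/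
theorem s34mn_finite_quot {A B : Type*} [CommRing A] [CommRing B]
    (ι : A →+* B) (hfin : ι.Finite) (𝔐 : Ideal A) (hres : Finite (A ⧸ 𝔐))
    (𝔐' : Ideal B) (h𝔐' : 𝔐'.comap ι = 𝔐) : Finite (B ⧸ 𝔐') := by
  let _ : Algebra A B := ι.toAlgebra
  have : Module.Finite A B := hfin
  have : 𝔐'.LiesOver 𝔐 := ⟨h𝔐'.symm⟩
  exact Module.finite_of_finite (A ⧸ 𝔐)

/-- finite generation with invariant coefficients. -/
theorem s34mn_fin {A B : Type*} [CommRing A] [CommRing B]
    (ι : A →+* B) (hfin : ι.Finite) :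
    ∃ s : Finset B, ∀ y : B, ∃ c : B → A, y = ∑ b ∈ s, ι (c b) * b := by
  let _ : Algebra A B := ι.toAlgebra
  have : Module.Finite A B := hfin
  obtain ⟨s, hs⟩ := (Module.finite_def (R := A) (M := B)).mp inferInstance
  refine ⟨s, fun y => ?_⟩
  have hy : y ∈ Submodule.span A (s : Set B) := by
    rw [hs]
    exact Submodule.mem_top
  obtain ⟨f, -, hf⟩ := Submodule.mem_span_finset.mp hy
  refine ⟨f, ?_⟩
  rw [← hf]
  refine Finset.sum_congr rfl fun b _ => ?_
  rw [Algebra.smul_def]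
  rfl

theorem model_norm_descend {A B : Type*} [CommRing A] [CommRing B] [IsDomain B]
    (G : Type*) [Group G] [Finite G] [MulSemiringAction G B]
    (ι : A →+* B) (hι : Function.Injective ι) (hfin : ι.Finite)
    (hinv : ∀ b : B, (∀ g : G, g • b = b) ↔ b ∈ ι.range)
    (hfaith : ∀ g : G, (∀ b : B, g • b = b) → g = 1)
    (π : A) (𝔐 : Ideal A) [𝔐.IsMaximal] (hπ : π ∈ 𝔐) (hres : Finite (A ⧸ 𝔐))
    (𝔐' : Ideal B) [𝔐'.IsMaximal] (h𝔐' : 𝔐'.comap ι = 𝔐)
    {t : B} (ht : ModelLocGen (Ideal.span {ι π}) 𝔐' t) :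
    ∃ u : A, ModelLocGen (Ideal.span {π}) 𝔐 u := by
  -- basic facts
  have hιinv : ∀ (a : A) (g : G), g • ι a = ι a := fun a g => (hinv (ι a)).mpr ⟨a, rfl⟩ g
  have hmem : ∀ a : A, ι a ∈ 𝔐' ↔ a ∈ 𝔐 := by
    intro a
    rw [← h𝔐', Ideal.mem_comap]
  have hπ' : ι π ∈ 𝔐' := (hmem π).mpr hπ
  have : Finite (B ⧸ 𝔐') := s34mn_finite_quot ι hfin 𝔐 hres 𝔐' h𝔐'
  have : FaithfulSMul G B := by
    constructor
    intro g₁ g₂ h
    have h1 : g₂⁻¹ * g₁ = 1 := by
      refine hfaith _ fun b => ?_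
      rw [mul_smul, h b, inv_smul_smul]
    rw [inv_mul_eq_one] at h1
    exact h1.symm
  -- the tower
  let S : Subgroup G := s34mn_decomp G 𝔐'
  let I₀ : Subgroup S := s34mn_inertia G 𝔐'
  have : I₀.Normal := s34mn_inertia_normal G 𝔐'
  have htriv : ∀ g : I₀, ∀ y : B, g • y - y ∈ 𝔐' := fun g y => g.2 y
  -- step 1: the norm from `B` to the invariants of the inertia group
  have hfinI : ∃ s : Finset B, ∀ y : B, ∃ c : B → B, (∀ b, ∀ g : I₀, g • c b = c b) ∧
      y = ∑ b ∈ s, c b * b := by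
    obtain ⟨s, hs⟩ := s34mn_fin ι hfin
    refine ⟨s, fun y => ?_⟩
    obtain ⟨c, hc⟩ := hs y
    exact ⟨fun b => ι (c b), fun b g => hιinv (c b) _, hc⟩
  obtain ⟨u₁, hu₁⟩ := invLocGen_norm I₀ hfinI 𝔐' htriv (ι π) (fun g => hιinv π _) hπ' ht
  -- step 2: the trace from the inertia group to the decomposition group
  obtain ⟨uS, huS⟩ := invLocGen_trace S I₀ 𝔐' (fun s z hz => s.2 z hz)
    (fun s => s34mn_mem_inertia G 𝔐' s) (fun y => invLocGen_residue I₀ 𝔐' htriv y)
    (ι π) (fun s => hιinv π _) hu₁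
  -- step 3: from the decomposition group to `G`
  obtain ⟨u', hu'inv, hu'mem, hu'⟩ := invLocGen_split G 𝔐' S
    (fun g => s34mn_mem_decomp G 𝔐' g) (ι π) (hιinv π) huS
  -- step 4: pull back along `ι`
  obtain ⟨u, rfl⟩ := (hinv u').mp hu'inv
  refine ⟨u, modelLocGen_of_exists_eq ((hmem u).mp hu'mem) fun z hz => ?_⟩
  obtain ⟨a', b', c', ha', hb', hc', ha'mem, h⟩ := hu' (ι z) ((hmem z).mpr hz) (hιinv z)
  obtain ⟨a, rfl⟩ := (hinv a').mp ha'
  obtain ⟨b, rfl⟩ := (hinv b').mp hb'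
  obtain ⟨c, rfl⟩ := (hinv c').mp hc'
  refine ⟨a, π * b, c, fun ha => ha'mem ((hmem a).mpr ha),
    Ideal.mem_span_singleton'.mpr ⟨b, mul_comm _ _⟩, hι ?_⟩
  rw [map_mul, map_add, map_mul, map_mul]
  exact h

end Fermat.Agent.S34
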