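import Mathlib
import Fermat.Agent.S34.ModelDefs
import Fermat.Agent.S34.ModelNorm
import Fermat.Agent.S34.ModelMPre
import Fermat.Agent.S34.ModelMPreB
import Fermat.Agent.S34.ModelMAlg

/-!
P19 (S34), block MODEL-M, abstract assembly of (M*) for the coarse model.

Setting: `Λ` a discrete valuation ring with fraction field `K` (characteristic `0`) and finite
residue field, `F` a finite extension of `K(w)` (the coarse function field, `w = j` or `j⁻¹`),
`e : F →ₐ[K] 𝔽` an embedding into a cover field `𝔽`, finite Galois over `e(F)`.  If every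
closed point `𝔐' ∋ π` of the chart ring of the cover (integral closure of `Λ[e w]` in `𝔽`) has a
local generator of the special fibre, then so has every closed point `𝔐 ∋ π` of the coarse
chart ring (integral closure of `Λ[w]` in `F`).

Proof: norm descent `model_norm_descend` (D4) for `G = Gal(𝔽 / e(F))` acting on the chart ring
of the cover, with the chart map `ι` of `s34_mpre_iota`.
-/

set_option autoImplicit false

namespace Fermat.Agent.S34

open Polynomial IntermediateField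

section Abs

variable {Λ K F 𝔽 : Type*} [CommRing Λ] [Field K] [Algebra Λ K]
    [Field F] [Algebra K F] [Algebra Λ F] [IsScalarTower Λ K F]
    [Field 𝔽] [Algebra K 𝔽] [Algebra Λ 𝔽] [IsScalarTower Λ K 𝔽]

/-- every element of `Λ[e w]` is the image of an element of `Λ[w]`. -/
theorem mAbs_exists_of_mem (e : F →ₐ[K] 𝔽) (w : F) {b : 𝔽} (hb : b ∈ Algebra.adjoin Λ {e w}) :
    ∃ a ∈ Algebra.adjoin Λ {w}, e a = b := by
  have h1 : b ∈ (Algebra.adjoin Λ {w}).map (e.restrictScalars Λ) := by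
    rw [AlgHom.map_adjoin, Set.image_singleton]
    exact hb
  obtain ⟨a, ha, hab⟩ := Subalgebra.mem_map.mp h1
  exact ⟨a, ha, hab⟩

/-- automorphisms of `𝔽` over `e(F)` fix `Λ[e w]` pointwise. -/
theorem mAbs_fix (e : F →ₐ[K] 𝔽) (w : F) (g : 𝔽 ≃ₐ[e.fieldRange] 𝔽) {b : 𝔽}
    (hb : b ∈ Algebra.adjoin Λ {e w}) : g b = b := by
  obtain ⟨a, -, rfl⟩ := mAbs_exists_of_mem e w hb
  exact g.commutes (⟨e a, AlgHom.mem_fieldRange.mpr ⟨a, rfl⟩⟩ : e.fieldRange)

/-- automorphisms of `𝔽` over `e(F)` preserve integrality over `Λ[e w]`. -/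
theorem mAbs_isIntegral_smul (e : F →ₐ[K] 𝔽) (w : F) (g : 𝔽 ≃ₐ[e.fieldRange] 𝔽) {z : 𝔽}
    (hz : IsIntegral (Algebra.adjoin Λ {e w}) z) : IsIntegral (Algebra.adjoin Λ {e w}) (g z) := by
  refine IsIntegral.map_of_comp_eq (RingHom.id _) ((g : 𝔽 ≃+* 𝔽) : 𝔽 →+* 𝔽) ?_ hz
  ext c
  exact (mAbs_fix e w g c.2).symm

/-- the action of `Gal(𝔽 / e(F))` on the chart ring of the cover. -/
@[reducible] noncomputable def mAbsAction (e : F →ₐ[K] 𝔽) (w : F) :
    MulSemiringAction (𝔽 ≃ₐ[e.fieldRange] 𝔽) (integralClosure (Algebra.adjoin Λ {e w}) 𝔽) where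
  smul g b := ⟨g (b : 𝔽), mAbs_isIntegral_smul e w g b.2⟩
  one_smul _ := Subtype.ext rfl
  mul_smul _ _ _ := Subtype.ext rfl
  smul_zero g := Subtype.ext (map_zero g)
  smul_add g _ _ := Subtype.ext (map_add g _ _)
  smul_one g := Subtype.ext (map_one g)
  smul_mul g _ _ := Subtype.ext (map_mul g _ _)

end Abs

/-- **(M*), abstract assembly**: local generators of the special fibre descend from the chart
ring of a Galois cover field to the coarse chart ring. -/
theorem s34_mstar_abs {Λ K F 𝔽 : Type*} [CommRing Λ] [IsDomain Λ] [IsDiscreteValuationRing Λ]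
    [Field K] [CharZero K] [Algebra Λ K] [IsFractionRing Λ K]
    [Field F] [Algebra K F] [Algebra Λ F] [IsScalarTower Λ K F]
    [Field 𝔽] [Algebra K 𝔽] [Algebra Λ 𝔽] [IsScalarTower Λ K 𝔽]
    (π : Λ) (hπ : Irreducible π) [Finite (Λ ⧸ Ideal.span {π})]
    (e : F →ₐ[K] 𝔽) (w : F) (hw : Transcendental K w) [FiniteDimensional K⟮w⟯ F]
    [FiniteDimensional e.fieldRange 𝔽] [IsGalois e.fieldRange 𝔽]
    (hU : ∀ 𝔐' : Ideal (integralClosure (Algebra.adjoin Λ {e w}) 𝔽), 𝔐'.IsMaximal →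
      algebraMap Λ (integralClosure (Algebra.adjoin Λ {e w}) 𝔽) π ∈ 𝔐' →
      ∃ u, ModelLocGen
        (Ideal.span {algebraMap Λ (integralClosure (Algebra.adjoin Λ {e w}) 𝔽) π}) 𝔐' u)
    (𝔐 : Ideal (integralClosure (Algebra.adjoin Λ {w}) F)) (h𝔐 : 𝔐.IsMaximal)
    (hπ𝔐 : algebraMap Λ (integralClosure (Algebra.adjoin Λ {w}) F) π ∈ 𝔐) :
    ∃ u, ModelLocGen
      (Ideal.span {algebraMap Λ (integralClosure (Algebra.adjoin Λ {w}) F) π}) 𝔐 u := by
  classical
  obtain ⟨ι, hιe, hιinj, hιfin, hιlo, hιrange⟩ := s34_mpre_iota (Λ := Λ) e w hw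
  have hres : Finite (integralClosure (Algebra.adjoin Λ {w}) F ⧸ 𝔐) :=
    s34_mpre_finite_quotient π hπ w hw 𝔐 hπ𝔐
  obtain ⟨𝔐', h𝔐'max, h𝔐'⟩ := hιlo 𝔐 h𝔐
  have hew : Transcendental K (e w) :=
    fun h => hw ((isAlgebraic_algHom_iff e e.toRingHom.injective).mp h)
  have hfd : FiniteDimensional K⟮e w⟯ 𝔽 := s34_mpre_finiteDimensional e w
  -- `ι` is compatible with the structure maps from `Λ`
  have hιπ : ι (algebraMap Λ (integralClosure (Algebra.adjoin Λ {w}) F) π) =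
      algebraMap Λ (integralClosure (Algebra.adjoin Λ {e w}) 𝔽) π := by
    apply Subtype.ext
    rw [hιe]
    show e (algebraMap Λ F π) = algebraMap Λ 𝔽 π
    rw [IsScalarTower.algebraMap_apply Λ K F, IsScalarTower.algebraMap_apply Λ K 𝔽]
    exact e.commutes _
  have hπ𝔐' : algebraMap Λ (integralClosure (Algebra.adjoin Λ {e w}) 𝔽) π ∈ 𝔐' := by
    rw [← hιπ, ← Ideal.mem_comap, h𝔐']
    exact hπ𝔐
  obtain ⟨t, ht⟩ := hU 𝔐' h𝔐'max hπ𝔐'
  let _ : MulSemiringAction (𝔽 ≃ₐ[e.fieldRange] 𝔽)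
      (integralClosure (Algebra.adjoin Λ {e w}) 𝔽) := mAbsAction e w
  have hsmul : ∀ (g : 𝔽 ≃ₐ[e.fieldRange] 𝔽) (b : integralClosure (Algebra.adjoin Λ {e w}) 𝔽),
      ((g • b : integralClosure (Algebra.adjoin Λ {e w}) 𝔽) : 𝔽) = g (b : 𝔽) := fun _ _ => rfl
  haveI := h𝔐
  haveI := h𝔐'max
  refine model_norm_descend (𝔽 ≃ₐ[e.fieldRange] 𝔽) ι hιinj hιfin ?_ ?_
    (algebraMap Λ (integralClosure (Algebra.adjoin Λ {w}) F) π) 𝔐 hπ𝔐 hres 𝔐' h𝔐' (t := t)
    (by rw [hιπ]; exact ht)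
  · -- invariants
    intro b
    rw [← hιrange b]
    constructor
    · intro hb
      have h1 : (b : 𝔽) ∈ Set.range (algebraMap e.fieldRange 𝔽) := by
        rw [IsGalois.mem_range_algebraMap_iff_fixed]
        intro g
        rw [← hsmul, hb g]
      obtain ⟨y, hy⟩ := h1
      obtain ⟨a, ha⟩ := AlgHom.mem_fieldRange.mp y.2
      exact ⟨a, by rw [ha, ← hy]; rfl⟩
    · rintro ⟨a, ha⟩ g
      apply Subtype.ext
      rw [hsmul, ← ha]
      exact g.commutes (⟨e a, AlgHom.mem_fieldRange.mpr ⟨a, rfl⟩⟩ : e.fieldRange)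
  · -- faithfulness
    intro g hg
    apply AlgEquiv.ext
    intro y
    obtain ⟨c, hc0, hcmem, hcint⟩ :=
      s34_mpre_exists_integral_multiple (Λ := Λ) (K := K) (e w) hew y
    have h1 := congrArg (fun b : integralClosure (Algebra.adjoin Λ {e w}) 𝔽 => (b : 𝔽))
      (hg ⟨c * y, hcint⟩)
    simp only [hsmul] at h1
    rw [map_mul, mAbs_fix e w g hcmem] at h1
    exact mul_left_cancel₀ hc0 h1

end Fermat.Agent.S34
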