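import Mathlib
import Fermat.Agent.S34.ModelDefs
import Fermat.Agent.S34.ModelAlg
import Fermat.Agent.S34.ModelVal

/-!
P19 (S34), block MODEL, slice C (second team): closed points of the two-component model.

`model_node_unif_B` (C1): at a crossing point the Kronecker elements `x = β g − (α g₁) ^ q`,
`y = α g − (β g₁) ^ q` are local generators of the two branches.
`model_closed_point_B` (C2): every closed point `𝔪 ∋ ϖ` of the level-`N` ring is a one-component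
point with a local generator `α u` or `β u`, or a crossing point with `𝔪 = (ϖ, x, y)` locally.
-/

set_option autoImplicit false

namespace Fermat.Agent.S34

/-- perturbing a local generator by a power (exponent `≥ 2`) of an element of the ideal. -/
theorem modelNodeB_sub_pow {A : Type*} [CommRing A] {𝔞 𝔐 : Ideal A} [𝔐.IsPrime] {g g₂ : A}
    (hg : ModelLocGen 𝔞 𝔐 g) (hg₂ : g₂ ∈ 𝔐) (n : ℕ) (hn : 2 ≤ n) :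
    ModelLocGen 𝔞 𝔐 (g - g₂ ^ n) := by
  have hpr : 𝔐.IsPrime := inferInstance
  have h := modelLocGen_perturb hg (s := 1) (h₁ := -g₂) (h₂ := g₂ ^ (n - 1))
    (fun h1 => hpr.ne_top ((Ideal.eq_top_iff_one _).mpr h1))
    (𝔐.neg_mem hg₂) (Ideal.pow_mem_of_mem 𝔐 hg₂ _ (by omega))
  have he : (1 : A) * g + -g₂ * g₂ ^ (n - 1) = g - g₂ ^ n := by
    have hn' : n = (n - 1) + 1 := by omega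
    conv_rhs => rw [hn', pow_succ]
    ring
  rwa [he] at h

/-- one branch of (C1). -/
theorem modelNodeB_branch {A B : Type*} [CommRing A] [CommRing B] (α β : A →+* B)
    (𝔞 : Ideal A) (𝔭₁ 𝔭₂ 𝔪 : Ideal B) [𝔪.IsPrime] (h₁ : 𝔭₁ ≤ 𝔪) (h₂ : 𝔭₂ ≤ 𝔪)
    (h𝔞₂ : 𝔞 ≤ 𝔭₂.comap β)
    (hsurj₂ : ∀ b : B, ∃ a a' : A, β a' ∉ 𝔪 ∧ β a' * b - β a ∈ 𝔭₂)
    (q : ℕ) (hq : 2 ≤ q) (g g₁ g₂ : A)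
    (hk₁ : α g₁ ^ q - β g ∈ 𝔭₁) (hk₂' : α g₁ - β g₂ ^ q ∈ 𝔭₂)
    (hgβ : ModelLocGen 𝔞 (𝔪.comap β) g) :
    ModelLocGen 𝔭₂ 𝔪 (β g - α g₁ ^ q) := by
  have hprime : 𝔪.IsPrime := inferInstance
  have hβg : β g ∈ 𝔪 := Ideal.mem_comap.mp hgβ.mem
  have h1 : α g₁ ^ q ∈ 𝔪 := by
    have he : α g₁ ^ q = (α g₁ ^ q - β g) + β g := by ring
    rw [he]
    exact 𝔪.add_mem (h₁ hk₁) hβg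
  have h2 : α g₁ ∈ 𝔪 := hprime.mem_of_pow_mem q h1
  have h3 : β g₂ ^ q ∈ 𝔪 := by
    have he : β g₂ ^ q = α g₁ - (α g₁ - β g₂ ^ q) := by ring
    rw [he]
    exact 𝔪.sub_mem h2 (h₂ hk₂')
  have h4 : g₂ ∈ 𝔪.comap β := Ideal.mem_comap.mpr (hprime.mem_of_pow_mem q h3)
  have hqq : 2 ≤ q * q := by nlinarith
  have h5 : ModelLocGen 𝔞 (𝔪.comap β) (g - g₂ ^ (q * q)) := modelNodeB_sub_pow hgβ h4 _ hqq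
  have h6 : ModelLocGen 𝔭₂ 𝔪 (β (g - g₂ ^ (q * q))) :=
    modelLocGen_map β 𝔞 𝔭₂ 𝔪 h₂ h𝔞₂ hsurj₂ h5
  refine modelLocGen_congr h₂ ?_ h6
  have he : β (g - g₂ ^ (q * q)) - (β g - α g₁ ^ q) = α g₁ ^ q - (β g₂ ^ q) ^ q := by
    rw [map_sub, map_pow, pow_mul]
    ring
  rw [he]
  obtain ⟨k, hk⟩ := sub_dvd_pow_sub_pow (α g₁) (β g₂ ^ q) q
  rw [hk]
  exact 𝔭₂.mul_mem_right _ hk₂'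

/-- (C1) the node: Kronecker elements are local generators of the two branches. -/
theorem model_node_unif_B {A B : Type*} [CommRing A] [CommRing B] (α β : A →+* B)
    (𝔞 : Ideal A) (𝔭₁ 𝔭₂ 𝔪 : Ideal B) [𝔪.IsPrime] (h₁ : 𝔭₁ ≤ 𝔪) (h₂ : 𝔭₂ ≤ 𝔪)
    (h𝔞₁ : 𝔞 ≤ 𝔭₁.comap α) (h𝔞₂ : 𝔞 ≤ 𝔭₂.comap β)
    (hsurj₁ : ∀ b : B, ∃ a a' : A, α a' ∉ 𝔪 ∧ α a' * b - α a ∈ 𝔭₁)
    (hsurj₂ : ∀ b : B, ∃ a a' : A, β a' ∉ 𝔪 ∧ β a' * b - β a ∈ 𝔭₂)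
    (q : ℕ) (hq : 2 ≤ q) (g g₁ g₂ : A)
    (hk₁ : α g₁ ^ q - β g ∈ 𝔭₁) (hk₂ : α g - β g₁ ^ q ∈ 𝔭₂)
    (hk₁' : α g₂ ^ q - β g₁ ∈ 𝔭₁) (hk₂' : α g₁ - β g₂ ^ q ∈ 𝔭₂)
    (hgα : ModelLocGen 𝔞 (𝔪.comap α) g) (hgβ : ModelLocGen 𝔞 (𝔪.comap β) g) :
    β g - α g₁ ^ q ∈ 𝔭₁ ∧ α g - β g₁ ^ q ∈ 𝔭₂ ∧
      ModelLocGen 𝔭₂ 𝔪 (β g - α g₁ ^ q) ∧ ModelLocGen 𝔭₁ 𝔪 (α g - β g₁ ^ q) := by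
  have hx : β g - α g₁ ^ q ∈ 𝔭₁ := by
    have he : β g - α g₁ ^ q = -(α g₁ ^ q - β g) := by ring
    rw [he]
    exact 𝔭₁.neg_mem hk₁
  have hk₂n : β g₁ ^ q - α g ∈ 𝔭₂ := by
    have he : β g₁ ^ q - α g = -(α g - β g₁ ^ q) := by ring
    rw [he]
    exact 𝔭₂.neg_mem hk₂
  have hk₁n : β g₁ - α g₂ ^ q ∈ 𝔭₁ := by
    have he : β g₁ - α g₂ ^ q = -(α g₂ ^ q - β g₁) := by ring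
    rw [he]
    exact 𝔭₁.neg_mem hk₁'
  exact ⟨hx, hk₂,
    modelNodeB_branch α β 𝔞 𝔭₁ 𝔭₂ 𝔪 h₁ h₂ h𝔞₂ hsurj₂ q hq g g₁ g₂ hk₁ hk₂' hgβ,
    modelNodeB_branch β α 𝔞 𝔭₂ 𝔭₁ 𝔪 h₂ h₁ h𝔞₁ hsurj₁ q hq g g₁ g₂ hk₂n hk₁n hgα⟩

/-- upgrading a local generator modulo one vertical prime to a local generator modulo `ϖ` at a
point which does not lie on the other vertical prime. -/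
theorem modelNodeB_one_component {B : Type*} [CommRing B] (ϖ : B) (𝔭₁ 𝔭₂ 𝔪 : Ideal B)
    [𝔪.IsPrime] (hint : 𝔭₁ ⊓ 𝔭₂ ≤ Ideal.span {ϖ}) (h₂ : ¬ 𝔭₂ ≤ 𝔪) {v : B}
    (hv : ModelLocGen 𝔭₁ 𝔪 v) : ModelLocGen (Ideal.span {ϖ}) 𝔪 v := by
  have hprime : 𝔪.IsPrime := inferInstance
  obtain ⟨e, he₂, he𝔪⟩ := SetLike.not_le_iff_exists.mp h₂
  refine modelLocGen_of_exists_eq hv.mem fun z hz => ?_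
  obtain ⟨a, c, d, ha, hc, h1⟩ := hv.exists_eq hz
  refine ⟨e * a, e * c, e * d, ?_, ?_, ?_⟩
  · intro h
    rcases hprime.mem_or_mem h with h | h
    · exact he𝔪 h
    · exact ha h
  · exact hint ⟨𝔭₁.mul_mem_left e hc, 𝔭₂.mul_mem_right c he₂⟩
  · rw [mul_assoc, h1]
    ring

/-- (C2) **closed points of the two-component model**. -/
theorem model_closed_point_B {A B : Type*} [CommRing A] [IsNoetherianRing A] [CommRing B]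
    (α β : A →+* B) (hα : α.IsIntegral) (hβ : β.IsIntegral)
    (ϖ : B) (𝔞 : Ideal A) (𝔭₁ 𝔭₂ : Ideal B) [𝔭₁.IsPrime] [𝔭₂.IsPrime]
    (hint : 𝔭₁ ⊓ 𝔭₂ ≤ Ideal.span {ϖ})
    (h𝔞₁ : 𝔞 ≤ 𝔭₁.comap α) (h𝔞₂ : 𝔞 ≤ 𝔭₂.comap β)
    (hfrac₁ : ∀ b : B, ∃ a a' : A, α a' ∉ 𝔭₁ ∧ α a' * b - α a ∈ 𝔭₁)
    (hfrac₂ : ∀ b : B, ∃ a a' : A, β a' ∉ 𝔭₂ ∧ β a' * b - β a ∈ 𝔭₂)
    (hU : ∀ 𝔐 : Ideal A, 𝔐.IsMaximal → 𝔞 ≤ 𝔐 → ∃ u, ModelLocGen 𝔞 𝔐 u)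
    (A₀ : Subring A)
    (hA₀ : ∀ 𝔐 : Ideal A, 𝔐.IsMaximal → 𝔞 ≤ 𝔐 →
      ∀ a : A, ∃ a₀ ∈ A₀, ∃ s ∈ A₀, s ∉ 𝔐 ∧ s * a - a₀ ∈ 𝔞)
    (q : ℕ) (hq : 2 ≤ q)
    (hkron : ∀ g ∈ A₀, ∃ g₁ ∈ A₀, α g₁ ^ q - β g ∈ 𝔭₁ ∧ α g - β g₁ ^ q ∈ 𝔭₂)
    (𝔪 : Ideal B) [𝔪.IsMaximal] (hϖ𝔪 : ϖ ∈ 𝔪) :
    (¬ 𝔭₂ ≤ 𝔪 → ∃ u ∈ A₀, ModelLocGen (Ideal.span {ϖ}) 𝔪 (α u)) ∧
    (¬ 𝔭₁ ≤ 𝔪 → ∃ u ∈ A₀, ModelLocGen (Ideal.span {ϖ}) 𝔪 (β u)) ∧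
    (𝔭₁ ≤ 𝔪 → 𝔭₂ ≤ 𝔪 → ∃ g ∈ A₀, ∃ g₁ ∈ A₀,
      β g - α g₁ ^ q ∈ 𝔭₁ ∧ α g - β g₁ ^ q ∈ 𝔭₂ ∧
      ModelLocGen 𝔭₂ 𝔪 (β g - α g₁ ^ q) ∧ ModelLocGen 𝔭₁ 𝔪 (α g - β g₁ ^ q) ∧
      ∀ z ∈ 𝔪, ∃ b : B, b ∉ 𝔪 ∧
        b * z ∈ Ideal.span {ϖ, β g - α g₁ ^ q, α g - β g₁ ^ q}) := by
  have hmax : 𝔪.IsMaximal := inferInstance
  have hprime : 𝔪.IsPrime := hmax.isPrime
  have hmaxα : (𝔪.comap α).IsMaximal := Ideal.isMaximal_comap_of_isIntegral_of_isMaximal' α hα 𝔪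
  have hmaxβ : (𝔪.comap β).IsMaximal := Ideal.isMaximal_comap_of_isIntegral_of_isMaximal' β hβ 𝔪
  -- one of the two vertical primes passes through `𝔪`
  have hor : 𝔭₁ ≤ 𝔪 ∨ 𝔭₂ ≤ 𝔪 := by
    refine hprime.inf_le.mp (hint.trans ?_)
    rw [Ideal.span_singleton_le_iff_mem]
    exact hϖ𝔪
  -- local surjectivity of a branch, and a generator in `A₀`
  have hbranch : ∀ (γ : A →+* B) (𝔭 : Ideal B) [𝔭.IsPrime], (𝔪.comap γ).IsMaximal →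
      𝔞 ≤ 𝔭.comap γ → (∀ b : B, ∃ a a' : A, γ a' ∉ 𝔭 ∧ γ a' * b - γ a ∈ 𝔭) → 𝔭 ≤ 𝔪 →
      (𝔞 ≤ 𝔪.comap γ) ∧ (∀ b : B, ∃ a a' : A, γ a' ∉ 𝔪 ∧ γ a' * b - γ a ∈ 𝔭) := by
    intro γ 𝔭 _ hmaxγ h𝔞 hfrac h𝔭
    have h𝔞𝔐 : 𝔞 ≤ 𝔪.comap γ := fun a ha => h𝔭 (h𝔞 ha)
    obtain ⟨u, hu⟩ := hU _ hmaxγ h𝔞𝔐
    exact ⟨h𝔞𝔐, fun b => model_frac_local γ 𝔞 𝔭 𝔪 h𝔭 h𝔞 hmaxγ hu b (hfrac b)⟩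
  have hgenA₀ : ∀ (γ : A →+* B), (𝔪.comap γ).IsMaximal → 𝔞 ≤ 𝔪.comap γ →
      ∃ g ∈ A₀, ModelLocGen 𝔞 (𝔪.comap γ) g := by
    intro γ hmaxγ h𝔞𝔐
    obtain ⟨u, hu⟩ := hU _ hmaxγ h𝔞𝔐
    obtain ⟨g, hg, hg1, -⟩ := modelLocGen_common 𝔞 (𝔪.comap γ) (𝔪.comap γ) h𝔞𝔐 h𝔞𝔐 A₀
      (hA₀ _ hmaxγ h𝔞𝔐) (hA₀ _ hmaxγ h𝔞𝔐) hu hu
    exact ⟨g, hg, hg1⟩
  refine ⟨fun hn₂ => ?_, fun hn₁ => ?_, fun h₁ h₂ => ?_⟩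
  · have h₁ : 𝔭₁ ≤ 𝔪 := hor.resolve_right hn₂
    obtain ⟨h𝔞𝔐, hsurj⟩ := hbranch α 𝔭₁ hmaxα h𝔞₁ hfrac₁ h₁
    obtain ⟨u, hu, hgen⟩ := hgenA₀ α hmaxα h𝔞𝔐
    exact ⟨u, hu, modelNodeB_one_component ϖ 𝔭₁ 𝔭₂ 𝔪 hint hn₂
      (modelLocGen_map α 𝔞 𝔭₁ 𝔪 h₁ h𝔞₁ hsurj hgen)⟩
  · have h₂ : 𝔭₂ ≤ 𝔪 := hor.resolve_left hn₁
    obtain ⟨h𝔞𝔐, hsurj⟩ := hbranch β 𝔭₂ hmaxβ h𝔞₂ hfrac₂ h₂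
    obtain ⟨u, hu, hgen⟩ := hgenA₀ β hmaxβ h𝔞𝔐
    have hint' : 𝔭₂ ⊓ 𝔭₁ ≤ Ideal.span {ϖ} := by rwa [inf_comm]
    exact ⟨u, hu, modelNodeB_one_component ϖ 𝔭₂ 𝔭₁ 𝔪 hint' hn₁
      (modelLocGen_map β 𝔞 𝔭₂ 𝔪 h₂ h𝔞₂ hsurj hgen)⟩
  · obtain ⟨h𝔞α, hsurj₁⟩ := hbranch α 𝔭₁ hmaxα h𝔞₁ hfrac₁ h₁
    obtain ⟨h𝔞β, hsurj₂⟩ := hbranch β 𝔭₂ hmaxβ h𝔞₂ hfrac₂ h₂
    obtain ⟨u₁, hu₁⟩ := hU _ hmaxα h𝔞α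
    obtain ⟨u₂, hu₂⟩ := hU _ hmaxβ h𝔞β
    obtain ⟨g, hg, hgα, hgβ⟩ := modelLocGen_common 𝔞 (𝔪.comap α) (𝔪.comap β) h𝔞α h𝔞β A₀
      (hA₀ _ hmaxα h𝔞α) (hA₀ _ hmaxβ h𝔞β) hu₁ hu₂
    obtain ⟨g₁, hg₁, hk₁, hk₂⟩ := hkron g hg
    obtain ⟨g₂, -, hk₁', hk₂'⟩ := hkron g₁ hg₁
    obtain ⟨hx, hy, hgx, hgy⟩ := model_node_unif_B α β 𝔞 𝔭₁ 𝔭₂ 𝔪 h₁ h₂ h𝔞₁ h𝔞₂ hsurj₁ hsurj₂
      q hq g g₁ g₂ hk₁ hk₂ hk₁' hk₂' hgα hgβ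
    refine ⟨g, hg, g₁, hg₁, hx, hy, hgx, hgy, fun z hz => ?_⟩
    obtain ⟨b, p₂, c, hb, hp₂, e1⟩ := hgx.exists_eq hz
    obtain ⟨b', p₁, c', hb', hp₁, e2⟩ := hgy.exists_eq (h₂ hp₂)
    have hp₁₂ : p₁ ∈ 𝔭₂ := by
      have he : p₁ = b' * p₂ - (α g - β g₁ ^ q) * c' := by rw [e2]; ring
      rw [he]
      exact 𝔭₂.sub_mem (𝔭₂.mul_mem_left _ hp₂) (𝔭₂.mul_mem_right _ hy)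
    obtain ⟨r, hr⟩ := Ideal.mem_span_singleton'.mp (hint ⟨hp₁, hp₁₂⟩)
    refine ⟨b' * b, fun h => ?_, ?_⟩
    · rcases hprime.mem_or_mem h with h | h
      · exact hb' h
      · exact hb h
    · have he : b' * b * z = r * ϖ + (b' * c) * (β g - α g₁ ^ q) + c' * (α g - β g₁ ^ q) := by
        rw [hr, mul_assoc, e1, mul_add, e2]
        ring
      rw [he]
      refine Ideal.add_mem _ (Ideal.add_mem _ ?_ ?_) ?_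
      · exact Ideal.mul_mem_left _ _ (Ideal.subset_span (by simp))
      · exact Ideal.mul_mem_left _ _ (Ideal.subset_span (by simp))
      · exact Ideal.mul_mem_left _ _ (Ideal.subset_span (by simp))

end Fermat.Agent.S34
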