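import Mathlib
import Fermat.Agent.S34.ModelDefs
import Fermat.Agent.S34.ModelAlg
import Fermat.Agent.S34.ModelVal

/-!
P19 (S34), block MODEL, slice C (third team): the closed points of the two-component model.

* `model_node_unif_C` (C1): at a crossing point `𝔪 ⊇ 𝔭₁, 𝔭₂`, the Kronecker elements
  `x = β g - (α g₁) ^ q ∈ 𝔭₁` and `y = α g - (β g₁) ^ q ∈ 𝔭₂` are local generators of `𝔪` modulo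
  `𝔭₂` and modulo `𝔭₁` respectively.
* `model_closed_point_C` (C2): every maximal ideal `𝔪 ∋ ϖ` of the level-`N` ring is, locally,
  generated by `ϖ` and one element coming from the level-`M` ring (one-component points), or by
  `ϖ, x, y` (crossing points).

Proofs: assembly of slices A (`ModelAlg`) and B (`ModelVal`).
-/

set_option autoImplicit false

namespace Fermat.Agent.S34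

/-- `a ^ q - b ^ q ∈ I` if `a - b ∈ I`. -/
theorem modelNodeC_pow_sub_pow_mem {B : Type*} [CommRing B] (I : Ideal B) {a b : B}
    (h : a - b ∈ I) (q : ℕ) : a ^ q - b ^ q ∈ I := by
  obtain ⟨c, hc⟩ := sub_dvd_pow_sub_pow a b q
  rw [hc]
  exact I.mul_mem_right c h

/-- One branch of (C1). -/
theorem modelNodeC_branch {A B : Type*} [CommRing A] [CommRing B] (α β : A →+* B)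
    (𝔞 : Ideal A) (𝔭₁ 𝔭₂ 𝔪 : Ideal B) [𝔪.IsPrime] (h₁ : 𝔭₁ ≤ 𝔪) (h₂ : 𝔭₂ ≤ 𝔪)
    (h𝔞₂ : 𝔞 ≤ 𝔭₂.comap β)
    (hsurj₂ : ∀ b : B, ∃ a a' : A, β a' ∉ 𝔪 ∧ β a' * b - β a ∈ 𝔭₂)
    (q : ℕ) (hq : 2 ≤ q) (g g₁ g₂ : A)
    (hk₁ : α g₁ ^ q - β g ∈ 𝔭₁) (hk₂' : α g₁ - β g₂ ^ q ∈ 𝔭₂)
    (hgβ : ModelLocGen 𝔞 (𝔪.comap β) g) :
    ModelLocGen 𝔭₂ 𝔪 (β g - α g₁ ^ q) := by
  have hβg : β g ∈ 𝔪 := hgβ.mem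
  have hαg₁q : α g₁ ^ q ∈ 𝔪 := by
    have h := 𝔪.add_mem (h₁ hk₁) hβg
    rwa [sub_add_cancel] at h
  have hαg₁ : α g₁ ∈ 𝔪 := Ideal.IsPrime.mem_of_pow_mem inferInstance q hαg₁q
  have hβg₂q : β g₂ ^ q ∈ 𝔪 := by
    have h := 𝔪.sub_mem hαg₁ (h₂ hk₂')
    rwa [sub_sub_cancel] at h
  have hβg₂ : β g₂ ∈ 𝔪 := Ideal.IsPrime.mem_of_pow_mem inferInstance q hβg₂q
  have hg₂ : g₂ ∈ 𝔪.comap β := hβg₂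
  have hqq : q * q = (q * q - 1) + 1 := by
    have h4 : 4 ≤ q * q := Nat.mul_le_mul hq hq
    omega
  have hpos : 0 < q * q - 1 := by
    have h4 : 4 ≤ q * q := Nat.mul_le_mul hq hq
    omega
  have h1 : (1 : A) ∉ 𝔪.comap β := (Ideal.ne_top_iff_one _).mp (Ideal.IsPrime.ne_top inferInstance)
  have hpert : ModelLocGen 𝔞 (𝔪.comap β) (1 * g + (-g₂) * g₂ ^ (q * q - 1)) :=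
    modelLocGen_perturb hgβ h1 (neg_mem hg₂) (Ideal.pow_mem_of_mem _ hg₂ _ hpos)
  have heq : 1 * g + (-g₂) * g₂ ^ (q * q - 1) = g - g₂ ^ (q * q) := by
    conv_rhs => rw [hqq, pow_succ]
    ring
  rw [heq] at hpert
  have hmap := modelLocGen_map β 𝔞 𝔭₂ 𝔪 h₂ h𝔞₂ hsurj₂ hpert
  refine modelLocGen_congr h₂ ?_ hmap
  have h3 : β (g - g₂ ^ (q * q)) - (β g - α g₁ ^ q) = α g₁ ^ q - (β g₂ ^ q) ^ q := by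
    rw [map_sub, map_pow, pow_mul]
    ring
  rw [h3]
  exact modelNodeC_pow_sub_pow_mem 𝔭₂ hk₂' q

/-- (C1) the node: Kronecker elements are local generators of the two branches. -/
theorem model_node_unif_C {A B : Type*} [CommRing A] [CommRing B] (α β : A →+* B)
    (𝔞 : Ideal A) (𝔭₁ 𝔭₂ 𝔪 : Ideal B) [𝔪.IsPrime] (h₁ : 𝔭₁ ≤ 𝔪) (h₂ : 𝔭₂ ≤ 𝔪)
    (h𝔞₁ : 𝔞 ≤ 𝔭₁.comap α) (h𝔞₂ : 𝔞 ≤ 𝔭₂.comap β)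
    (hsurj₁ : ∀ b : B, ∃ a a' : A, α a' ∉ 𝔪 ∧ α a' * b - α a ∈ 𝔭₁)
    (hsurj₂ : ∀ b : B, ∃ a a' : A, β a' ∉ 𝔪 ∧ β a' * b - β a ∈ 𝔭₂)
    (q : ℕ) (hq : 2 ≤ q) (g g₁ g₂ : A)
    (hk₁ : α g₁ ^ q - β g ∈ 𝔭₁) (hk₂ : α g - β g₁ ^ q ∈ 𝔭₂)
    (hk₁' : α g₂ ^ q - β g₁ ∈ 𝔭₁) (hk₂' : α g₁ - β g₂ ^ q ∈ 𝔭₂)
    (hgα : ModelLocGen 𝔞 (𝔪.comap α) g) (hgβ : ModelLocGen 𝔞 (𝔪.comap β) g) :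
    β g - α g₁ ^ q ∈ 𝔭₁ ∧ α g - β g₁ ^ q ∈ 𝔭₂ ∧
      ModelLocGen 𝔭₂ 𝔪 (β g - α g₁ ^ q) ∧ ModelLocGen 𝔭₁ 𝔪 (α g - β g₁ ^ q) := by
  refine ⟨?_, hk₂, ?_, ?_⟩
  · have h := 𝔭₁.neg_mem hk₁
    rwa [neg_sub] at h
  · exact modelNodeC_branch α β 𝔞 𝔭₁ 𝔭₂ 𝔪 h₁ h₂ h𝔞₂ hsurj₂ q hq g g₁ g₂ hk₁ hk₂' hgβ
  · have hk₂n : β g₁ ^ q - α g ∈ 𝔭₂ := by
      have h := 𝔭₂.neg_mem hk₂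
      rwa [neg_sub] at h
    have hk₁n : β g₁ - α g₂ ^ q ∈ 𝔭₁ := by
      have h := 𝔭₁.neg_mem hk₁'
      rwa [neg_sub] at h
    exact modelNodeC_branch β α 𝔞 𝔭₂ 𝔭₁ 𝔪 h₂ h₁ h𝔞₁ hsurj₁ q hq g g₁ g₂ hk₂n hk₁n hgα

/-- A local generator can be moved into the subring `A₀`. -/
theorem modelNodeC_gen_in_sub {A : Type*} [CommRing A] (𝔞 𝔐 : Ideal A) [𝔐.IsPrime]
    (h𝔞 : 𝔞 ≤ 𝔐) (A₀ : Subring A)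
    (hA : ∀ a : A, ∃ a₀ ∈ A₀, ∃ s ∈ A₀, s ∉ 𝔐 ∧ s * a - a₀ ∈ 𝔞) {u : A}
    (hu : ModelLocGen 𝔞 𝔐 u) : ∃ u₀ ∈ A₀, ModelLocGen 𝔞 𝔐 u₀ := by
  obtain ⟨a₀, ha₀, s, -, hs, hsa⟩ := hA u
  refine ⟨a₀, ha₀, ?_⟩
  have h1 : ModelLocGen 𝔞 𝔐 (s * u + 0 * 0) :=
    modelLocGen_perturb hu hs (zero_mem _) (zero_mem _)
  refine modelLocGen_congr h𝔞 ?_ h1
  rw [mul_zero, add_zero]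
  exact hsa

/-- The one-component case of (C2). -/
theorem modelNodeC_one_comp {A B : Type*} [CommRing A] [IsNoetherianRing A] [CommRing B]
    (α : A →+* B) (hα : α.IsIntegral) (ϖ : B) (𝔞 : Ideal A) (𝔭₁ 𝔭₂ : Ideal B) [𝔭₁.IsPrime]
    (hint : 𝔭₁ ⊓ 𝔭₂ ≤ Ideal.span {ϖ}) (h𝔞₁ : 𝔞 ≤ 𝔭₁.comap α)
    (hfrac₁ : ∀ b : B, ∃ a a' : A, α a' ∉ 𝔭₁ ∧ α a' * b - α a ∈ 𝔭₁)
    (hU : ∀ 𝔐 : Ideal A, 𝔐.IsMaximal → 𝔞 ≤ 𝔐 → ∃ u, ModelLocGen 𝔞 𝔐 u)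
    (A₀ : Subring A)
    (hA₀ : ∀ 𝔐 : Ideal A, 𝔐.IsMaximal → 𝔞 ≤ 𝔐 →
      ∀ a : A, ∃ a₀ ∈ A₀, ∃ s ∈ A₀, s ∉ 𝔐 ∧ s * a - a₀ ∈ 𝔞)
    (𝔪 : Ideal B) [𝔪.IsMaximal] (h₁ : 𝔭₁ ≤ 𝔪) (h₂ : ¬ 𝔭₂ ≤ 𝔪) :
    ∃ u ∈ A₀, ModelLocGen (Ideal.span {ϖ}) 𝔪 (α u) := by
  have hmax : (𝔪.comap α).IsMaximal := Ideal.isMaximal_comap_of_isIntegral_of_isMaximal' α hα 𝔪
  have h𝔞𝔐 : 𝔞 ≤ 𝔪.comap α := h𝔞₁.trans (Ideal.comap_mono h₁)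
  obtain ⟨u', hu'⟩ := hU _ hmax h𝔞𝔐
  obtain ⟨u, huA₀, hu⟩ := modelNodeC_gen_in_sub 𝔞 (𝔪.comap α) h𝔞𝔐 A₀ (hA₀ _ hmax h𝔞𝔐) hu'
  have hsurj : ∀ b : B, ∃ a a' : A, α a' ∉ 𝔪 ∧ α a' * b - α a ∈ 𝔭₁ := fun b =>
    model_frac_local α 𝔞 𝔭₁ 𝔪 h₁ h𝔞₁ hmax hu b (hfrac₁ b)
  have hmap : ModelLocGen 𝔭₁ 𝔪 (α u) := modelLocGen_map α 𝔞 𝔭₁ 𝔪 h₁ h𝔞₁ hsurj hu
  obtain ⟨e, he₂, he𝔪⟩ := SetLike.not_le_iff_exists.mp h₂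
  refine ⟨u, huA₀, modelLocGen_of_exists_eq hmap.mem fun z hz => ?_⟩
  obtain ⟨b, c, d, hb, hc, hbz⟩ := hmap.exists_eq hz
  refine ⟨e * b, e * c, e * d, ?_, ?_, ?_⟩
  · intro h
    rcases Ideal.IsPrime.mem_or_mem inferInstance h with h | h
    · exact he𝔪 h
    · exact hb h
  · exact hint ⟨𝔭₁.mul_mem_left e hc, 𝔭₂.mul_mem_right c he₂⟩
  · rw [mul_assoc, hbz]
    ring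

/-- (C2) **closed points of the two-component model** (abstract form of note 794 (3), (4a)). -/
theorem model_closed_point_C {A B : Type*} [CommRing A] [IsNoetherianRing A] [CommRing B]
    (α β : A →+* B) (hα : α.IsIntegral) (hβ : β.IsIntegral)
    (ϖ : B) (𝔞 : Ideal A) (𝔭₁ 𝔭₂ : Ideal B) [𝔭₁.IsPrime] [𝔭₂.IsPrime]
    (hint : 𝔭₁ ⊓ 𝔭₂ ≤ Ideal.span {ϖ})
    (h𝔞₁ : 𝔞 ≤ 𝔭₁.comap α) (h𝔞₂ : 𝔞 ≤ 𝔭₂.comap β)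
    (hfrac₁ : ∀ b : B, ∃ a a' : A, α a' ∉ 𝔭₁ ∧ α a' * b - α a ∈ 𝔭₁)
    (hfrac₂ : ∀ b : B, ∃ a a' : A, β a' ∉ 𝔭₂ ∧ β a' * b - β a ∈ 𝔭₂)
    (hU : ∀ 𝔐 : Ideal A, 𝔐.IsMaximal → 𝔞 ≤ 𝔐 → ∃ u, ModelLocGen 𝔞 𝔐 u)
    (A₀ : Subring A)
    (hA₀ : ∀ 𝔐 : Ideal A, 𝔐.IsMaximal → 𝔞 ≤ 𝔐 →
      ∀ a : A, ∃ a₀ ∈ A₀, ∃ s ∈ A₀, s ∉ 𝔐 ∧ s * a - a₀ ∈ 𝔞)
    (q : ℕ) (hq : 2 ≤ q)
    (hkron : ∀ g ∈ A₀, ∃ g₁ ∈ A₀, α g₁ ^ q - β g ∈ 𝔭₁ ∧ α g - β g₁ ^ q ∈ 𝔭₂)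
    (𝔪 : Ideal B) [𝔪.IsMaximal] (hϖ𝔪 : ϖ ∈ 𝔪) :
    (¬ 𝔭₂ ≤ 𝔪 → ∃ u ∈ A₀, ModelLocGen (Ideal.span {ϖ}) 𝔪 (α u)) ∧
    (¬ 𝔭₁ ≤ 𝔪 → ∃ u ∈ A₀, ModelLocGen (Ideal.span {ϖ}) 𝔪 (β u)) ∧
    (𝔭₁ ≤ 𝔪 → 𝔭₂ ≤ 𝔪 → ∃ g ∈ A₀, ∃ g₁ ∈ A₀,
      β g - α g₁ ^ q ∈ 𝔭₁ ∧ α g - β g₁ ^ q ∈ 𝔭₂ ∧
      ModelLocGen 𝔭₂ 𝔪 (β g - α g₁ ^ q) ∧ ModelLocGen 𝔭₁ 𝔪 (α g - β g₁ ^ q) ∧
      ∀ z ∈ 𝔪, ∃ b : B, b ∉ 𝔪 ∧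
        b * z ∈ Ideal.span {ϖ, β g - α g₁ ^ q, α g - β g₁ ^ q}) := by
  have hor : 𝔭₁ ≤ 𝔪 ∨ 𝔭₂ ≤ 𝔪 := by
    have hle : 𝔭₁ * 𝔭₂ ≤ 𝔪 :=
      Ideal.mul_le_inf.trans (hint.trans ((Ideal.span_singleton_le_iff_mem 𝔪).mpr hϖ𝔪))
    exact (Ideal.IsPrime.mul_le inferInstance).mp hle
  refine ⟨fun h₂ => ?_, fun h₁ => ?_, fun h₁ h₂ => ?_⟩
  · exact modelNodeC_one_comp α hα ϖ 𝔞 𝔭₁ 𝔭₂ hint h𝔞₁ hfrac₁ hU A₀ hA₀ 𝔪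
      (hor.resolve_right h₂) h₂
  · exact modelNodeC_one_comp β hβ ϖ 𝔞 𝔭₂ 𝔭₁ (inf_comm 𝔭₁ 𝔭₂ ▸ hint) h𝔞₂ hfrac₂ hU A₀ hA₀ 𝔪
      (hor.resolve_left h₁) h₁
  · have hmax₁ : (𝔪.comap α).IsMaximal :=
      Ideal.isMaximal_comap_of_isIntegral_of_isMaximal' α hα 𝔪
    have hmax₂ : (𝔪.comap β).IsMaximal :=
      Ideal.isMaximal_comap_of_isIntegral_of_isMaximal' β hβ 𝔪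
    have h𝔞𝔐₁ : 𝔞 ≤ 𝔪.comap α := h𝔞₁.trans (Ideal.comap_mono h₁)
    have h𝔞𝔐₂ : 𝔞 ≤ 𝔪.comap β := h𝔞₂.trans (Ideal.comap_mono h₂)
    obtain ⟨u₁, hu₁⟩ := hU _ hmax₁ h𝔞𝔐₁
    obtain ⟨u₂, hu₂⟩ := hU _ hmax₂ h𝔞𝔐₂
    obtain ⟨g, hgA₀, hgα, hgβ⟩ := modelLocGen_common 𝔞 (𝔪.comap α) (𝔪.comap β) h𝔞𝔐₁ h𝔞𝔐₂ A₀
      (hA₀ _ hmax₁ h𝔞𝔐₁) (hA₀ _ hmax₂ h𝔞𝔐₂) hu₁ hu₂
    obtain ⟨g₁, hg₁A₀, hk₁, hk₂⟩ := hkron g hgA₀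
    obtain ⟨g₂, -, hk₁', hk₂'⟩ := hkron g₁ hg₁A₀
    have hsurj₁ : ∀ b : B, ∃ a a' : A, α a' ∉ 𝔪 ∧ α a' * b - α a ∈ 𝔭₁ := fun b =>
      model_frac_local α 𝔞 𝔭₁ 𝔪 h₁ h𝔞₁ hmax₁ hgα b (hfrac₁ b)
    have hsurj₂ : ∀ b : B, ∃ a a' : A, β a' ∉ 𝔪 ∧ β a' * b - β a ∈ 𝔭₂ := fun b =>
      model_frac_local β 𝔞 𝔭₂ 𝔪 h₂ h𝔞₂ hmax₂ hgβ b (hfrac₂ b)
    obtain ⟨hx, hy, hgx, hgy⟩ := model_node_unif_C α β 𝔞 𝔭₁ 𝔭₂ 𝔪 h₁ h₂ h𝔞₁ h𝔞₂ hsurj₁ hsurj₂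
      q hq g g₁ g₂ hk₁ hk₂ hk₁' hk₂' hgα hgβ
    refine ⟨g, hgA₀, g₁, hg₁A₀, hx, hy, hgx, hgy, fun z hz => ?_⟩
    obtain ⟨b, p₂, c, hb, hp₂, hbz⟩ := hgx.exists_eq hz
    obtain ⟨b', p₁, c', hb', hp₁, hbp⟩ := hgy.exists_eq (h₂ hp₂)
    have hp₁₂ : p₁ ∈ 𝔭₂ := by
      have h : p₁ = b' * p₂ - (α g - β g₁ ^ q) * c' := by
        rw [hbp]
        ring
      rw [h]
      exact 𝔭₂.sub_mem (𝔭₂.mul_mem_left b' hp₂) (𝔭₂.mul_mem_right c' hy)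
    obtain ⟨r, hr⟩ := Ideal.mem_span_singleton'.mp (hint ⟨hp₁, hp₁₂⟩)
    refine ⟨b' * b, ?_, ?_⟩
    · intro h
      rcases Ideal.IsPrime.mem_or_mem inferInstance h with h | h
      · exact hb' h
      · exact hb h
    · have h : b' * b * z = r * ϖ + (b' * c) * (β g - α g₁ ^ q) + c' * (α g - β g₁ ^ q) := by
        rw [mul_assoc, hbz, mul_add, hbp, hr]
        ring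
      rw [h]
      refine Ideal.add_mem _ (Ideal.add_mem _ ?_ ?_) ?_
      · exact Ideal.mul_mem_left _ _ (Ideal.subset_span (by simp))
      · exact Ideal.mul_mem_left _ _ (Ideal.subset_span (by simp))
      · exact Ideal.mul_mem_left _ _ (Ideal.subset_span (by simp))

end Fermat.Agent.S34
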