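import Mathlib

/-!
P19 (S34), block ALG, leaf (HARTOGS): algebraic Hartogs for a noetherian integrally closed
domain `R` with fraction field `F`: an element of `F` which is a fraction with denominator
outside `𝔭` for every height-one prime `𝔭` of `R` lies in `R`
(note 794 (2): "`z / g ^ m` is a unit at all height-one primes of `B_s` ⇒ unit of `B_s`").

* `node_hartogs`, `node_hartogs_unit`.

No localisation is used: for `u = c / b ∉ R` take an associated prime `𝔭 = (bR : c')` of `R ⧸ bR`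
containing `(bR : c)`; `θ = c' / b ∉ R`, `θ 𝔭 ⊆ R`.  Integral closedness gives `θ 𝔭 ⊄ 𝔭`
(a nonzero f.g. `θ`-stable submodule makes `θ` integral), so `θ r₀ = s₀ ∉ 𝔭` for some `r₀ ∈ 𝔭`;
the same argument shows `r₀ ∈ 𝔮` for every nonzero prime `𝔮 ≤ 𝔭`, hence `𝔭 ≤ 𝔮`.
-/

set_option autoImplicit false

namespace Fermat.Agent.S34

/-- An element of the fraction field stabilising the image of a nonzero ideal of a noetherian
integrally closed domain lies in the ring. -/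
theorem node_hartogs_stable {R F : Type*} [CommRing R] [IsDomain R] [IsNoetherianRing R]
    [IsIntegrallyClosed R] [Field F] [Algebra R F] [IsFractionRing R F] (θ : F) (I : Ideal R)
    (hI : I ≠ ⊥)
    (hst : ∀ r ∈ I, ∃ s ∈ I, algebraMap R F s = θ * algebraMap R F r) :
    ∃ t : R, algebraMap R F t = θ := by
  have hinj : Function.Injective (algebraMap R F) := IsFractionRing.injective R F
  let N : Submodule R F := Submodule.map (Algebra.linearMap R F) I
  have hNfg : N.FG := (IsNoetherian.noetherian I).map _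
  have hNbot : N ≠ ⊥ := by
    obtain ⟨r, hr, hr0⟩ := Submodule.exists_mem_ne_zero_of_ne_bot hI
    intro hN
    have hmem : algebraMap R F r ∈ N := ⟨r, hr, rfl⟩
    rw [hN, Submodule.mem_bot] at hmem
    exact hr0 (hinj (by rw [hmem, map_zero]))
  have hstable : ∀ n ∈ N, θ • n ∈ N := by
    rintro _ ⟨r, hr, rfl⟩
    obtain ⟨s, hs, hsθ⟩ := hst r hr
    refine ⟨s, hs, ?_⟩
    simp only [Algebra.linearMap_apply, smul_eq_mul]
    exact hsθ
  have hint : IsIntegral R θ := isIntegral_of_smul_mem_submodule N hNbot hNfg θ hstable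
  exact IsIntegrallyClosed.isIntegral_iff.mp hint

/-- **Algebraic Hartogs.**  `R` a noetherian integrally closed domain with fraction field `F`.
If `u : F` can be written with a denominator outside `𝔭` for every nonzero prime `𝔭` which is
minimal among the nonzero primes, then `u ∈ R`. -/
theorem node_hartogs {R F : Type*} [CommRing R] [IsDomain R] [IsNoetherianRing R]
    [IsIntegrallyClosed R] [Field F] [Algebra R F] [IsFractionRing R F] (u : F)
    (h : ∀ 𝔭 : Ideal R, 𝔭.IsPrime → 𝔭 ≠ ⊥ →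
      (∀ 𝔮 : Ideal R, 𝔮.IsPrime → 𝔮 ≠ ⊥ → 𝔮 ≤ 𝔭 → 𝔮 = 𝔭) →
      ∃ a b : R, b ∉ 𝔭 ∧ u * algebraMap R F b = algebraMap R F a) :
    ∃ r : R, algebraMap R F r = u := by
  classical
  have hinj : Function.Injective (algebraMap R F) := IsFractionRing.injective R F
  obtain ⟨c, b, hb, rfl⟩ := IsFractionRing.div_surjective (A := R) u
  have hb0 : b ≠ 0 := nonZeroDivisors.ne_zero hb
  have hbF : algebraMap R F b ≠ 0 := fun h0 => hb0 (hinj (by rw [h0, map_zero]))
  by_cases hcb : c ∈ Ideal.span {b}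
  · obtain ⟨t, ht⟩ := Ideal.mem_span_singleton'.mp hcb
    refine ⟨t, ?_⟩
    rw [← ht, map_mul, mul_div_assoc, div_self hbF, mul_one]
  exfalso
  -- the module `M = R ⧸ bR` and the nonzero element `x = c̄`
  let M := R ⧸ Ideal.span {b}
  let x : M := Ideal.Quotient.mk _ c
  have hx : x ≠ 0 := fun h0 => hcb (Ideal.Quotient.eq_zero_iff_mem.mp h0)
  obtain ⟨P, hPass, hxP⟩ := exists_le_isAssociatedPrime_of_isNoetherianRing R x hx
  obtain ⟨hPprime, y, hPy⟩ := isAssociatedPrime_iff.mp hPass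
  obtain ⟨c', rfl⟩ := Ideal.Quotient.mk_surjective y
  -- membership in `P` and in the colon ideal of `x`
  have hmemP : ∀ r : R, r ∈ P ↔ b ∣ r * c' := by
    intro r
    rw [hPy, Submodule.mem_colon_singleton, Submodule.mem_bot]
    have : r • (Ideal.Quotient.mk (Ideal.span {b}) c' : R ⧸ Ideal.span {b}) =
        Ideal.Quotient.mk (Ideal.span {b}) (r * c') := by
      rw [Algebra.smul_def, Ideal.Quotient.algebraMap_eq, ← map_mul]
    rw [this, Ideal.Quotient.eq_zero_iff_mem, Ideal.mem_span_singleton]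
  have hmemx : ∀ r : R, b ∣ r * c → r ∈ P := by
    intro r hr
    apply hxP
    rw [Submodule.mem_colon_singleton, Submodule.mem_bot]
    have : r • x = Ideal.Quotient.mk (Ideal.span {b}) (r * c) := by
      simp only [x]
      rw [Algebra.smul_def, Ideal.Quotient.algebraMap_eq, ← map_mul]
    rw [this, Ideal.Quotient.eq_zero_iff_mem, Ideal.mem_span_singleton]
    exact hr
  -- `θ = c' / b`
  set θ : F := algebraMap R F c' / algebraMap R F b with hθ
  have hθmul : ∀ r s : R, algebraMap R F s = θ * algebraMap R F r ↔ r * c' = b * s := by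
    intro r s
    rw [hθ, div_mul_eq_mul_div, eq_div_iff hbF, ← map_mul, ← map_mul]
    constructor
    · intro h1
      have := hinj h1
      rw [mul_comm r c', mul_comm b s]; exact this.symm
    · intro h1
      rw [mul_comm s b, ← h1, mul_comm]
  -- (F1) `θ 𝔭 ⊆ R`
  have hF1 : ∀ r ∈ P, ∃ s : R, algebraMap R F s = θ * algebraMap R F r := by
    intro r hr
    obtain ⟨s, hs⟩ := (hmemP r).mp hr
    exact ⟨s, (hθmul r s).mpr hs⟩
  -- (F3) `θ ∉ R`
  have hF3 : ¬ ∃ t : R, algebraMap R F t = θ := by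
    rintro ⟨t, ht⟩
    have h1 : algebraMap R F t = θ * algebraMap R F 1 := by rw [map_one, mul_one, ht]
    have h2 : (1 : R) ∈ P := (hmemP 1).mpr ⟨t, (hθmul 1 t).mp h1⟩
    exact hPprime.ne_top ((Ideal.eq_top_iff_one P).mpr h2)
  -- (F4) `b ∈ 𝔭`
  have hbP : b ∈ P := (hmemP b).mpr ⟨c', rfl⟩
  have hPbot : P ≠ ⊥ := fun h0 => hb0 (by rw [h0] at hbP; exact (Submodule.mem_bot R).mp hbP)
  -- `θ 𝔭 ⊄ 𝔭`
  have hex : ∃ r₀ ∈ P, ∃ s₀ : R, s₀ ∉ P ∧ algebraMap R F s₀ = θ * algebraMap R F r₀ := by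
    by_contra hcon
    apply hF3
    refine node_hartogs_stable θ P hPbot ?_
    intro r hr
    obtain ⟨s, hs⟩ := hF1 r hr
    refine ⟨s, ?_, hs⟩
    by_contra hsP
    exact hcon ⟨r, hr, s, hsP, hs⟩
  obtain ⟨r₀, hr₀, s₀, hs₀, hs₀θ⟩ := hex
  -- cross relation: `s₀ r = s r₀` whenever `θ r = s`
  have hcross : ∀ r s : R, algebraMap R F s = θ * algebraMap R F r → s₀ * r = s * r₀ := by
    intro r s hs
    apply hinj
    rw [map_mul, map_mul, hs₀θ, hs]; ring
  -- `𝔭` is minimal among nonzero primes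
  have hmin : ∀ 𝔮 : Ideal R, 𝔮.IsPrime → 𝔮 ≠ ⊥ → 𝔮 ≤ P → 𝔮 = P := by
    intro 𝔮 h𝔮 h𝔮bot h𝔮P
    have hr₀𝔮 : r₀ ∈ 𝔮 := by
      by_contra hr₀𝔮
      apply hF3
      refine node_hartogs_stable θ 𝔮 h𝔮bot ?_
      intro t ht
      obtain ⟨t', ht'⟩ := hF1 t (h𝔮P ht)
      refine ⟨t', ?_, ht'⟩
      have h1 : t' * r₀ ∈ 𝔮 := by
        rw [← hcross t t' ht']
        exact 𝔮.mul_mem_left s₀ ht
      exact (h𝔮.mem_or_mem h1).resolve_right hr₀𝔮
    apply le_antisymm h𝔮P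
    intro r hr
    obtain ⟨s, hs⟩ := hF1 r hr
    have h1 : s₀ * r ∈ 𝔮 := by
      rw [hcross r s hs]
      exact 𝔮.mul_mem_left s hr₀𝔮
    exact (h𝔮.mem_or_mem h1).resolve_left (fun hs₀𝔮 => hs₀ (h𝔮P hs₀𝔮))
  -- apply the hypothesis at `𝔭`
  obtain ⟨a, b', hb', hab⟩ := h P hPprime hPbot hmin
  apply hb'
  apply hmemx
  refine ⟨a, ?_⟩
  apply hinj
  rw [map_mul, map_mul, ← hab, div_mul_eq_mul_div, mul_div_assoc']
  rw [eq_div_iff hbF]
  ring

/-- Unit version of `node_hartogs`. -/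
theorem node_hartogs_unit {R F : Type*} [CommRing R] [IsDomain R] [IsNoetherianRing R]
    [IsIntegrallyClosed R] [Field F] [Algebra R F] [IsFractionRing R F] (u : F)
    (h : ∀ 𝔭 : Ideal R, 𝔭.IsPrime → 𝔭 ≠ ⊥ →
      (∀ 𝔮 : Ideal R, 𝔮.IsPrime → 𝔮 ≠ ⊥ → 𝔮 ≤ 𝔭 → 𝔮 = 𝔭) →
      ∃ a b : R, b ∉ 𝔭 ∧ u * algebraMap R F b = algebraMap R F a)
    (h' : ∀ 𝔭 : Ideal R, 𝔭.IsPrime → 𝔭 ≠ ⊥ →
      (∀ 𝔮 : Ideal R, 𝔮.IsPrime → 𝔮 ≠ ⊥ → 𝔮 ≤ 𝔭 → 𝔮 = 𝔭) →
      ∃ a b : R, b ∉ 𝔭 ∧ u⁻¹ * algebraMap R F b = algebraMap R F a)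
    (hu : u ≠ 0) :
    ∃ r : R, IsUnit r ∧ algebraMap R F r = u := by
  obtain ⟨r, hr⟩ := node_hartogs u h
  obtain ⟨s, hs⟩ := node_hartogs u⁻¹ h'
  refine ⟨r, ?_, hr⟩
  have : algebraMap R F (r * s) = algebraMap R F 1 := by
    rw [map_mul, hr, hs, map_one, mul_inv_cancel₀ hu]
  have h1 : r * s = 1 := IsFractionRing.injective R F this
  exact IsUnit.of_mul_eq_one _ h1

end Fermat.Agent.S34
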