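import Mathlib

/-!
P19 (S34), block ALG, leaf HARTOGS (second team): algebraic Hartogs. An element of the fraction
field of a noetherian integrally closed domain which is regular at all minimal nonzero primes
lies in the ring.
-/

set_option autoImplicit false

namespace Fermat.Agent.S34

open IsLocalRing

/-- Local step: in an integrally closed noetherian local domain whose maximal ideal is contained
in the conductor `(b : c)` with `c ∉ (b)`, every nonzero prime is the maximal ideal. -/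
theorem nhB_local {S : Type*} [CommRing S] [IsDomain S] [IsNoetherianRing S] [IsLocalRing S]
    [IsIntegrallyClosed S] (b c : S) (hb : b ≠ 0) (hc : c ∉ Ideal.span {b})
    (hm : ∀ x ∈ maximalIdeal S, x * c ∈ Ideal.span {b}) :
    ∀ P : Ideal S, P ≠ ⊥ → P.IsPrime → P = maximalIdeal S := by
  have hc0 : c ≠ 0 := by
    rintro rfl
    exact hc (zero_mem _)
  have hbm : b ∈ maximalIdeal S := by
    rw [mem_maximalIdeal, mem_nonunits_iff]
    intro hu
    apply hc
    rw [Ideal.span_singleton_eq_top.mpr hu]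
    exact Submodule.mem_top
  have key : ∀ x ∈ maximalIdeal S, ∃ y, x * c = b * y := by
    intro x hx
    obtain ⟨y, hy⟩ := Ideal.mem_span_singleton'.mp (hm x hx)
    exact ⟨y, by rw [← hy, mul_comm]⟩
  have hprinc : (maximalIdeal S).IsPrincipal := by
    by_cases hcase : ∃ t ∈ maximalIdeal S, t * c = b
    · obtain ⟨t, ht, htc⟩ := hcase
      refine ⟨⟨t, ?_⟩⟩
      apply le_antisymm
      · intro y hy
        obtain ⟨z, hz⟩ := key y hy
        rw [Ideal.submodule_span_eq, Ideal.mem_span_singleton']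
        refine ⟨z, ?_⟩
        apply mul_right_cancel₀ hc0
        rw [hz, ← htc]
        ring
      · rw [Ideal.submodule_span_eq, Ideal.span_le, Set.singleton_subset_iff]
        exact ht
    · exfalso
      have hB : ∀ x ∈ maximalIdeal S, ∀ y, x * c = b * y → y ∈ maximalIdeal S := by
        intro x hx y hxy
        by_contra hy
        rw [mem_maximalIdeal, mem_nonunits_iff, not_not] at hy
        obtain ⟨v, hv⟩ := hy.exists_right_inv
        apply hcase
        refine ⟨x * v, Ideal.mul_mem_right _ _ hx, ?_⟩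
        calc x * v * c = (x * c) * v := by ring
          _ = b * (y * v) := by rw [hxy]; ring
          _ = b := by rw [hv, mul_one]
      have hinjK : Function.Injective (algebraMap S (FractionRing S)) :=
        IsFractionRing.injective S (FractionRing S)
      have hbK : algebraMap S (FractionRing S) b ≠ 0 := by
        intro h0
        exact hb (hinjK (by rw [h0, map_zero]))
      have hint : IsIntegral S
          (algebraMap S (FractionRing S) c / algebraMap S (FractionRing S) b) := by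
        refine isIntegral_of_smul_mem_submodule (R := S) (A := FractionRing S)
          (M := FractionRing S)
          (Submodule.map (Algebra.linearMap S (FractionRing S)) (maximalIdeal S)) ?_ ?_ _ ?_
        · intro h0
          have h1 : algebraMap S (FractionRing S) b ∈
              Submodule.map (Algebra.linearMap S (FractionRing S)) (maximalIdeal S) :=
            ⟨b, hbm, rfl⟩
          rw [h0, Submodule.mem_bot] at h1
          exact hbK h1
        · exact Submodule.FG.map _ (IsNoetherian.noetherian _)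
        · rintro _ ⟨x, hx, rfl⟩
          obtain ⟨y, hy⟩ := key x hx
          refine ⟨y, hB x hx y hy, ?_⟩
          rw [Algebra.linearMap_apply, Algebra.linearMap_apply, smul_eq_mul,
            div_mul_eq_mul_div, eq_div_iff hbK, ← map_mul, ← map_mul]
          congr 1
          rw [mul_comm y b, ← hy, mul_comm]
      obtain ⟨y, hy⟩ := IsIntegrallyClosed.isIntegral_iff.mp hint
      apply hc
      rw [Ideal.mem_span_singleton']
      refine ⟨y, ?_⟩
      apply hinjK
      rw [map_mul, hy, div_mul_cancel₀ _ hbK]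
  have h43 : (maximalIdeal S).IsPrincipal ↔
      (IsIntegrallyClosed S ∧ ∀ P : Ideal S, P ≠ ⊥ → P.IsPrime → P = maximalIdeal S) :=
    (tfae_of_isNoetherianRing_of_isLocalRing_of_isDomain (R := S)).out 4 3
  exact (h43.mp hprinc).2

/-- An associated prime of a nonzero principal ideal of a noetherian integrally closed domain is
minimal among the nonzero primes. -/
theorem nhB_height_one {R : Type*} [CommRing R] [IsDomain R] [IsNoetherianRing R]
    [IsIntegrallyClosed R] (𝔭 : Ideal R) [h𝔭 : 𝔭.IsPrime] (b c : R) (hb : b ≠ 0)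
    (h𝔭c : ∀ r, r ∈ 𝔭 ↔ r * c ∈ Ideal.span {b}) :
    ∀ 𝔮 : Ideal R, 𝔮.IsPrime → 𝔮 ≠ ⊥ → 𝔮 ≤ 𝔭 → 𝔮 = 𝔭 := by
  intro 𝔮 h𝔮 h𝔮0 hle
  have hM : 𝔭.primeCompl ≤ nonZeroDivisors R := 𝔭.primeCompl_le_nonZeroDivisors
  have hinj : Function.Injective (algebraMap R (Localization.AtPrime 𝔭)) :=
    IsLocalization.injective (Localization.AtPrime 𝔭) hM
  have : IsIntegrallyClosed (Localization.AtPrime 𝔭) :=
    isIntegrallyClosed_of_isLocalization (Localization.AtPrime 𝔭) 𝔭.primeCompl hM
  have : IsNoetherianRing (Localization.AtPrime 𝔭) :=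
    IsLocalization.isNoetherianRing 𝔭.primeCompl (Localization.AtPrime 𝔭) inferInstance
  have hmax : 𝔭.map (algebraMap R (Localization.AtPrime 𝔭)) =
      maximalIdeal (Localization.AtPrime 𝔭) :=
    IsLocalization.AtPrime.map_eq_maximalIdeal 𝔭 (Localization.AtPrime 𝔭)
  have hloc := nhB_local (algebraMap R (Localization.AtPrime 𝔭) b)
    (algebraMap R (Localization.AtPrime 𝔭) c)
    (fun h0 => hb (hinj (by rw [h0, map_zero]))) ?_ ?_
  · have hdisj : Disjoint (𝔭.primeCompl : Set R) (𝔮 : Set R) := by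
      rw [Set.disjoint_left]
      intro x hx hxq
      exact hx (hle hxq)
    have hdisj' : Disjoint (𝔭.primeCompl : Set R) (𝔭 : Set R) := by
      rw [Set.disjoint_left]
      intro x hx hxp
      exact hx hxp
    have hprime := IsLocalization.isPrime_of_isPrime_disjoint 𝔭.primeCompl
      (Localization.AtPrime 𝔭) 𝔮 h𝔮 hdisj
    have hne : 𝔮.map (algebraMap R (Localization.AtPrime 𝔭)) ≠ ⊥ := by
      obtain ⟨y, hy, hy0⟩ := (Submodule.ne_bot_iff _).mp h𝔮0
      intro h0
      have h1 := Ideal.mem_map_of_mem (algebraMap R (Localization.AtPrime 𝔭)) hy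
      rw [h0, Ideal.mem_bot] at h1
      exact hy0 (hinj (by rw [h1, map_zero]))
    have heq := hloc _ hne hprime
    rw [← hmax] at heq
    have e1 := IsLocalization.under_map_of_isPrime_disjoint 𝔭.primeCompl
      (Localization.AtPrime 𝔭) h𝔮 hdisj
    have e2 := IsLocalization.under_map_of_isPrime_disjoint 𝔭.primeCompl
      (Localization.AtPrime 𝔭) h𝔭 hdisj'
    rw [← e1, heq, e2]
  · intro hmem
    obtain ⟨y, hy⟩ := Ideal.mem_span_singleton'.mp hmem
    obtain ⟨⟨r, s⟩, rfl⟩ := IsLocalization.mk'_surjective 𝔭.primeCompl y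
    have h1 : algebraMap R (Localization.AtPrime 𝔭) (r * b) =
        algebraMap R (Localization.AtPrime 𝔭) (s * c) := by
      rw [map_mul, map_mul, ← hy, ← IsLocalization.mk'_spec (Localization.AtPrime 𝔭) r s]
      ring
    have h2 : (s : R) * c ∈ Ideal.span {b} := by
      rw [← hinj h1]
      exact Ideal.mul_mem_left _ _ (Ideal.mem_span_singleton_self b)
    exact s.2 ((h𝔭c s).mpr h2)
  · intro x hx
    rw [← hmax, IsLocalization.mem_map_algebraMap_iff 𝔭.primeCompl] at hx
    obtain ⟨⟨p, s⟩, hps⟩ := hx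
    obtain ⟨d, hd⟩ := Ideal.mem_span_singleton'.mp ((h𝔭c p).mp p.2)
    obtain ⟨v, hv⟩ := (IsLocalization.map_units (Localization.AtPrime 𝔭) s).exists_right_inv
    rw [Ideal.mem_span_singleton']
    refine ⟨algebraMap R (Localization.AtPrime 𝔭) d * v, ?_⟩
    have h3 : algebraMap R (Localization.AtPrime 𝔭) d * algebraMap R (Localization.AtPrime 𝔭) b =
        algebraMap R (Localization.AtPrime 𝔭) p * algebraMap R (Localization.AtPrime 𝔭) c := by
      rw [← map_mul, ← map_mul, hd]
    calc algebraMap R (Localization.AtPrime 𝔭) d * v * algebraMap R (Localization.AtPrime 𝔭) b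
        = (algebraMap R (Localization.AtPrime 𝔭) d * algebraMap R (Localization.AtPrime 𝔭) b) *
            v := by ring
      _ = x * algebraMap R (Localization.AtPrime 𝔭) c *
            (algebraMap R (Localization.AtPrime 𝔭) s * v) := by rw [h3, ← hps]; ring
      _ = x * algebraMap R (Localization.AtPrime 𝔭) c := by rw [hv, mul_one]

theorem node_hartogs_B {R F : Type*} [CommRing R] [IsDomain R] [IsNoetherianRing R]
    [IsIntegrallyClosed R] [Field F] [Algebra R F] [IsFractionRing R F] (u : F)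
    (h : ∀ 𝔭 : Ideal R, 𝔭.IsPrime → 𝔭 ≠ ⊥ →
      (∀ 𝔮 : Ideal R, 𝔮.IsPrime → 𝔮 ≠ ⊥ → 𝔮 ≤ 𝔭 → 𝔮 = 𝔭) →
      ∃ a b : R, b ∉ 𝔭 ∧ u * algebraMap R F b = algebraMap R F a) :
    ∃ r : R, algebraMap R F r = u := by
  obtain ⟨c, b, hb, rfl⟩ := IsFractionRing.div_surjective (A := R) u
  have hb0 : b ≠ 0 := nonZeroDivisors.ne_zero hb
  have hinj : Function.Injective (algebraMap R F) := IsFractionRing.injective R F
  have hbF : algebraMap R F b ≠ 0 := fun h0 => hb0 (hinj (by rw [h0, map_zero]))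
  by_cases hcb : c ∈ Ideal.span {b}
  · obtain ⟨r, hr⟩ := Ideal.mem_span_singleton'.mp hcb
    exact ⟨r, by rw [← hr, map_mul, mul_div_cancel_right₀ _ hbF]⟩
  exfalso
  have hx : (Ideal.Quotient.mk (Ideal.span {b}) c) ≠ 0 := by
    rwa [Ne, Ideal.Quotient.eq_zero_iff_mem]
  obtain ⟨𝔭, hass, hle⟩ := exists_le_isAssociatedPrime_of_isNoetherianRing R
    (M := R ⧸ Ideal.span {b}) _ hx
  rw [isAssociatedPrime_iff] at hass
  obtain ⟨h𝔭, y, hy⟩ := hass
  obtain ⟨c', rfl⟩ := Ideal.Quotient.mk_surjective y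
  have hmem : ∀ r, r ∈ 𝔭 ↔ r * c' ∈ Ideal.span {b} := by
    intro r
    rw [hy, Submodule.mem_colon_singleton, Submodule.mem_bot, ← Ideal.Quotient.eq_zero_iff_mem]
    rfl
  have hmem2 : ∀ r, r * c ∈ Ideal.span {b} → r ∈ 𝔭 := by
    intro r hr
    apply hle
    rw [Submodule.mem_colon_singleton, Submodule.mem_bot]
    exact Ideal.Quotient.eq_zero_iff_mem.mpr hr
  have h𝔭0 : 𝔭 ≠ ⊥ := by
    intro h0
    have h1 : b ∈ 𝔭 := (hmem b).mpr (Ideal.mul_mem_right _ _ (Ideal.mem_span_singleton_self b))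
    rw [h0, Ideal.mem_bot] at h1
    exact hb0 h1
  obtain ⟨a, b', hb', hab⟩ := h 𝔭 h𝔭 h𝔭0 (nhB_height_one 𝔭 b c' hb0 hmem)
  apply hb'
  apply hmem2
  rw [Ideal.mem_span_singleton']
  refine ⟨a, ?_⟩
  apply hinj
  rw [map_mul, map_mul, ← hab, div_mul_eq_mul_div, div_mul_cancel₀ _ hbF, mul_comm]

theorem node_hartogs_unit_B {R F : Type*} [CommRing R] [IsDomain R] [IsNoetherianRing R]
    [IsIntegrallyClosed R] [Field F] [Algebra R F] [IsFractionRing R F] (u : F)
    (h : ∀ 𝔭 : Ideal R, 𝔭.IsPrime → 𝔭 ≠ ⊥ →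
      (∀ 𝔮 : Ideal R, 𝔮.IsPrime → 𝔮 ≠ ⊥ → 𝔮 ≤ 𝔭 → 𝔮 = 𝔭) →
      ∃ a b : R, b ∉ 𝔭 ∧ u * algebraMap R F b = algebraMap R F a)
    (h' : ∀ 𝔭 : Ideal R, 𝔭.IsPrime → 𝔭 ≠ ⊥ →
      (∀ 𝔮 : Ideal R, 𝔮.IsPrime → 𝔮 ≠ ⊥ → 𝔮 ≤ 𝔭 → 𝔮 = 𝔭) →
      ∃ a b : R, b ∉ 𝔭 ∧ u⁻¹ * algebraMap R F b = algebraMap R F a)
    (hu : u ≠ 0) : ∃ r : R, IsUnit r ∧ algebraMap R F r = u := by
  obtain ⟨r, hr⟩ := node_hartogs_B u h
  obtain ⟨s, hs⟩ := node_hartogs_B u⁻¹ h'
  refine ⟨r, IsUnit.of_mul_eq_one s ?_, hr⟩
  apply IsFractionRing.injective R F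
  rw [map_mul, hr, hs, mul_inv_cancel₀ hu, map_one]

end Fermat.Agent.S34
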