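import Mathlib

/-!
P19 (S34), leaf W7 "norm descent", part (C): descent of the multiplier to the invariants.

`ψ : S →ₐ[Λ] Λ` a `Λ`-point of `S`, `G` a finite group acting on `S`, `H` a `G`-invariant element
and `sst` an element outside the maximal ideal `{z | π ∣ ψ z}` such that `H ∣ sst * z` for every
invariant `z` in the kernel of `ψ`.  Then `sst` can be replaced by a `G`-invariant element `a`,
still outside that maximal ideal, with `a * z = H * c` and `c` invariant (`s34nd_descend`).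

Proof: the ideal `J` generated by the conjugates of `sst` consists of multipliers; by prime
avoidance `J` contains an element `a'` all of whose conjugates lie outside the maximal ideal;
`a` is the product of the conjugates of `a'`.
-/

set_option autoImplicit false

namespace Fermat.Agent.S34

section
variable {Λ S : Type*} [CommRing Λ] [IsDomain Λ] [IsDiscreteValuationRing Λ]
  [CommRing S] [IsDomain S] [Algebra Λ S] {G : Type*} [Group G] [Fintype G]
  [MulSemiringAction G S]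

omit [IsDomain Λ] [IsDiscreteValuationRing Λ] [IsDomain S] [Fintype G] in
/-- Step 1: divisibility by `H` of `x * z` propagates from `sst` to the ideal generated by the
conjugates of `sst`. -/
theorem s34ndC_dvd_of_mem (ψ : S →ₐ[Λ] Λ) (H : S) (hH : ∀ σ : G, σ • H = H) (sst : S)
    (hdiv : ∀ z : S, (∀ σ : G, σ • z = z) → ψ z = 0 → H ∣ sst * z)
    (x : S) (hx : x ∈ Ideal.span (Set.range fun τ : G => τ • sst))
    (z : S) (hz : ∀ σ : G, σ • z = z) (hψz : ψ z = 0) : H ∣ x * z := by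
  refine Submodule.span_induction (p := fun x _ => H ∣ x * z) ?_ ?_ ?_ ?_ hx
  · rintro _ ⟨τ, rfl⟩
    obtain ⟨c, hc⟩ := hdiv z hz hψz
    refine ⟨τ • c, ?_⟩
    have h1 : (τ • sst) * z = τ • (sst * z) := by rw [smul_mul', hz τ]
    rw [h1, hc, smul_mul', hH τ]
  · rw [zero_mul]
    exact dvd_zero H
  · intro x y _ _ hx hy
    rw [add_mul]
    exact dvd_add hx hy
  · intro a x _ hx
    rw [smul_eq_mul, mul_assoc]
    exact Dvd.dvd.mul_left hx a

omit [IsDomain S] in
/-- Step 2 (prime avoidance): some element of the ideal generated by the conjugates of `sst`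
has all its conjugates outside the maximal ideal `{z | π ∣ ψ z}`. -/
theorem s34ndC_avoid (π : Λ) (hπ : Irreducible π) (ψ : S →ₐ[Λ] Λ) (sst : S)
    (hsst : ¬ π ∣ ψ sst) :
    ∃ a' ∈ Ideal.span (Set.range fun τ : G => τ • sst), ∀ σ : G, ¬ π ∣ ψ (σ • a') := by
  by_contra hcon
  have hall : ∀ a' ∈ Ideal.span (Set.range fun τ : G => τ • sst), ∃ σ : G, π ∣ ψ (σ • a') := by
    intro a' ha'
    by_contra hno
    exact hcon ⟨a', ha', fun σ hσ => hno ⟨σ, hσ⟩⟩
  have hπprime : (Ideal.span {π} : Ideal Λ).IsPrime :=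
    (Ideal.span_singleton_prime hπ.ne_zero).2 hπ.prime
  have h𝔐 : (Ideal.comap (ψ : S →+* Λ) (Ideal.span {π})).IsPrime := Ideal.comap_isPrime _ _
  have hmem : ∀ (σ : G) (z : S),
      z ∈ Ideal.comap (MulSemiringAction.toRingHom G S σ)
        (Ideal.comap (ψ : S →+* Λ) (Ideal.span {π})) ↔ π ∣ ψ (σ • z) := by
    intro σ z
    rw [Ideal.mem_comap, Ideal.mem_comap, Ideal.mem_span_singleton]
    rfl
  have hsub : ((Ideal.span (Set.range fun τ : G => τ • sst) : Ideal S) : Set S) ⊆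
      ⋃ σ ∈ ((Finset.univ : Finset G) : Set G),
        ((Ideal.comap (MulSemiringAction.toRingHom G S σ)
          (Ideal.comap (ψ : S →+* Λ) (Ideal.span {π})) : Ideal S) : Set S) := by
    intro a' ha'
    obtain ⟨σ, hσ⟩ := hall a' ha'
    exact Set.mem_biUnion (Finset.mem_coe.mpr (Finset.mem_univ σ)) ((hmem σ a').mpr hσ)
  obtain ⟨σ, -, hσ⟩ := (Ideal.subset_union_prime (1 : G) (1 : G)
    (fun i _ _ _ => Ideal.comap_isPrime _ _)).mp hsub
  have h1 : σ⁻¹ • sst ∈ Ideal.span (Set.range fun τ : G => τ • sst) :=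
    Ideal.subset_span ⟨σ⁻¹, rfl⟩
  have h2 := (hmem σ _).mp (hσ h1)
  rw [smul_inv_smul] at h2
  exact hsst h2

/-- (C) descent of the multiplier to the invariants (prime avoidance). -/
theorem s34nd_descend (π : Λ) (hπ : Irreducible π) (ψ : S →ₐ[Λ] Λ)
    (hGΛ : ∀ (σ : G) (c : Λ), σ • algebraMap Λ S c = algebraMap Λ S c)
    (H : S) (hH : ∀ σ : G, σ • H = H) (sst : S) (hsst : ¬ π ∣ ψ sst)
    (hdiv : ∀ z : S, (∀ σ : G, σ • z = z) → ψ z = 0 → H ∣ sst * z) :
    ∃ a : S, (∀ σ : G, σ • a = a) ∧ ¬ π ∣ ψ a ∧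
      ∀ z : S, (∀ σ : G, σ • z = z) → ψ z = 0 → ∃ c : S, (∀ σ : G, σ • c = c) ∧ a * z = H * c := by
  have _ := hGΛ
  obtain ⟨a', ha'J, ha'⟩ := s34ndC_avoid (G := G) π hπ ψ sst hsst
  -- the norm of `a'`
  have hainv : ∀ τ : G, τ • (∏ σ : G, σ • a') = ∏ σ : G, σ • a' := by
    intro τ
    rw [Finset.smul_prod']
    simp only [smul_smul]
    exact Equiv.prod_comp (Equiv.mulLeft τ) (fun σ : G => σ • a')
  have haJ : (∏ σ : G, σ • a') ∈ Ideal.span (Set.range fun τ : G => τ • sst) := by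
    have h1 : (1 : G) • a' ∣ ∏ σ : G, σ • a' :=
      Finset.dvd_prod_of_mem (fun σ : G => σ • a') (Finset.mem_univ (1 : G))
    rw [one_smul] at h1
    exact Ideal.mem_of_dvd _ h1 ha'J
  have haψ : ¬ π ∣ ψ (∏ σ : G, σ • a') := by
    rw [map_prod, hπ.prime.dvd_finsetProd_iff]
    rintro ⟨σ, -, hσ⟩
    exact ha' σ hσ
  refine ⟨∏ σ : G, σ • a', hainv, haψ, fun z hz hψz => ?_⟩
  obtain ⟨c, hc⟩ := s34ndC_dvd_of_mem ψ H hH sst hdiv _ haJ z hz hψz
  by_cases hH0 : H = 0
  · exact ⟨0, fun σ => smul_zero σ, by rw [hc, hH0, zero_mul, mul_zero]⟩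
  · refine ⟨c, fun τ => ?_, hc⟩
    have h1 : H * (τ • c) = H * c := by
      calc H * (τ • c) = (τ • H) * (τ • c) := by rw [hH τ]
        _ = τ • (H * c) := (smul_mul' τ H c).symm
        _ = τ • ((∏ σ : G, σ • a') * z) := by rw [hc]
        _ = (τ • ∏ σ : G, σ • a') * (τ • z) := smul_mul' τ _ z
        _ = (∏ σ : G, σ • a') * z := by rw [hainv τ, hz τ]
        _ = H * c := hc
    exact mul_left_cancel₀ hH0 h1

end

end Fermat.Agent.S34
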