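import Mathlib

/-!
P19 (S34), leaf W7 "norm descent", part (A): CRT modification of a local generator.

`ψ : S →ₐ[Λ] Λ` is a `Λ`-point of `S`, `𝔮 = ker ψ`, `𝔐 = {z | π ∣ ψ z}` and, for `σ` in the
finite group `G` acting on `S`, `𝔑σ = {z | π ∣ ψ (σ • z)}`.  Given a local generator `h` of `𝔮` at
`𝔐`, we produce another one which lies outside all the `𝔑σ` different from `𝔐`.
-/

set_option autoImplicit false

namespace Fermat.Agent.S34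

/-- Chinese remainder theorem, elementwise: an element of `I` congruent to `1` modulo finitely
many ideals coprime to `I`. -/
theorem s34ndA_crt {R : Type*} [CommRing R] {ι : Type*} (T : Finset ι) (I : Ideal R)
    (J : ι → Ideal R) (h : ∀ i ∈ T, I ⊔ J i = ⊤) : ∃ d ∈ I, ∀ i ∈ T, 1 - d ∈ J i := by
  have h1 : (1 : R) ∈ I ⊔ ⨅ i ∈ T, J i := by
    rw [Ideal.sup_iInf_eq_top h]
    exact Submodule.mem_top
  obtain ⟨d, hd, n, hn, hdn⟩ := Submodule.mem_sup.mp h1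
  refine ⟨d, hd, fun i hi => ?_⟩
  have h2 : 1 - d = n := by rw [← hdn]; ring
  rw [h2]
  exact (Submodule.mem_iInf _).mp ((Submodule.mem_iInf _).mp hn i) hi

section
variable {Λ S : Type*} [CommRing Λ] [IsDomain Λ] [IsDiscreteValuationRing Λ]
  [CommRing S] [IsDomain S] [Algebra Λ S] {G : Type*} [Group G] [Fintype G]
  [MulSemiringAction G S]

omit [CommRing S] [IsDomain S] [Algebra Λ S] in
/-- An element of the discrete valuation ring `Λ` which is not divisible by the uniformiser is a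
unit. -/
theorem s34ndA_isUnit_of_not_dvd (π : Λ) (hπ : Irreducible π) (x : Λ) (hx : ¬ π ∣ x) :
    IsUnit x := by
  rw [← IsLocalRing.notMem_maximalIdeal, hπ.maximalIdeal_eq, Ideal.mem_span_singleton]
  exact hx

omit [IsDomain S] [Fintype G] in
/-- The ideal `𝔑σ = {z | π ∣ ψ (σ • z)}`. -/
def s34ndA_N (π : Λ) (ψ : S →ₐ[Λ] Λ) (σ : G) : Ideal S :=
  Ideal.comap (MulSemiringAction.toRingHom G S σ)
    (Ideal.comap (ψ : S →+* Λ) (Ideal.span {π}))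

omit [IsDomain Λ] [IsDiscreteValuationRing Λ] [IsDomain S] [Fintype G] in
theorem s34ndA_mem_N (π : Λ) (ψ : S →ₐ[Λ] Λ) (σ : G) (z : S) :
    z ∈ s34ndA_N π ψ σ ↔ π ∣ ψ (σ • z) := by
  unfold s34ndA_N
  rw [Ideal.mem_comap, Ideal.mem_comap, Ideal.mem_span_singleton]
  rfl

omit [IsDomain Λ] [IsDiscreteValuationRing Λ] [IsDomain S] [Fintype G] in
theorem s34ndA_mem_N_one (π : Λ) (ψ : S →ₐ[Λ] Λ) (z : S) :
    z ∈ s34ndA_N π ψ (1 : G) ↔ π ∣ ψ z := by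
  rw [s34ndA_mem_N, one_smul]

omit [IsDomain S] [Fintype G] in
/-- If `x ∉ 𝔑σ`, then `x` is invertible modulo `𝔑σ` (indeed modulo `σ⁻¹ (ker ψ)`). -/
theorem s34ndA_exists_inv (π : Λ) (hπ : Irreducible π) (ψ : S →ₐ[Λ] Λ) (σ : G) (x : S)
    (hx : ¬ π ∣ ψ (σ • x)) : ∃ y : S, ψ (σ • (1 - y * x)) = 0 := by
  obtain ⟨v, hv⟩ := (s34ndA_isUnit_of_not_dvd π hπ _ hx).exists_left_inv
  refine ⟨σ⁻¹ • algebraMap Λ S v, ?_⟩
  rw [smul_sub, smul_one, smul_mul', smul_inv_smul, map_sub, map_one, map_mul, AlgHom.commutes]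
  show 1 - v * ψ (σ • x) = 0
  rw [hv, sub_self]

omit [IsDomain S] [Fintype G] in
/-- An ideal containing an element outside `𝔑σ` is coprime to `𝔑σ`. -/
theorem s34ndA_sup_eq_top (π : Λ) (hπ : Irreducible π) (ψ : S →ₐ[Λ] Λ) (σ : G) (I : Ideal S)
    (x : S) (hxI : x ∈ I) (hx : ¬ π ∣ ψ (σ • x)) : I ⊔ s34ndA_N π ψ σ = ⊤ := by
  obtain ⟨y, hy⟩ := s34ndA_exists_inv π hπ ψ σ x hx
  rw [Ideal.eq_top_iff_one]
  have h1 : (1 : S) = y * x + (1 - y * x) := by ring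
  rw [h1]
  refine Submodule.add_mem_sup (I.mul_mem_left _ hxI) ?_
  rw [s34ndA_mem_N, hy]
  exact dvd_zero π

omit [IsDomain S] [Fintype G] in
/-- If `𝔐 ⊄ 𝔑σ` then `ker ψ ⊄ 𝔑σ`. -/
theorem s34ndA_exists_ker (π : Λ) (hπ : Irreducible π) (ψ : S →ₐ[Λ] Λ) (σ : G)
    (hσ : ∃ z : S, π ∣ ψ z ∧ ¬ π ∣ ψ (σ • z)) : ∃ q : S, ψ q = 0 ∧ ¬ π ∣ ψ (σ • q) := by
  obtain ⟨z, hz, hσz⟩ := hσ
  obtain ⟨y, hy⟩ := s34ndA_exists_inv π hπ ψ σ z hσz
  have hψi : ¬ π ∣ ψ (1 - y * z) := by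
    intro hdvd
    apply hπ.not_dvd_one
    have h1 : (1 : Λ) = ψ (1 - y * z) + ψ y * ψ z := by
      rw [map_sub, map_one, map_mul, sub_add_cancel]
    rw [h1]
    exact dvd_add hdvd (Dvd.dvd.mul_left hz _)
  obtain ⟨v, hv⟩ := (s34ndA_isUnit_of_not_dvd π hπ _ hψi).exists_right_inv
  refine ⟨(1 - y * z) * algebraMap Λ S v - 1, ?_, ?_⟩
  · rw [map_sub, map_mul, map_one, AlgHom.commutes]
    show ψ (1 - y * z) * v - 1 = 0
    rw [hv, sub_self]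
  · rw [smul_sub, smul_mul', smul_one, map_sub, map_mul, hy, zero_mul, map_one, zero_sub,
      dvd_neg]
    exact hπ.not_dvd_one

set_option linter.unusedSectionVars false in
/-- (A) CRT modification: a local generator of `ker ψ` at `𝔐 = ψ⁻¹(π)` which lies outside the
other maximal ideals of the `G`-orbit of `𝔐`. -/
theorem s34nd_modify (π : Λ) (hπ : Irreducible π) (ψ : S →ₐ[Λ] Λ)
    (hLP : ∃ h : S, ψ h = 0 ∧ ∃ s : S, ¬ π ∣ ψ s ∧ ∀ b : S, ψ b = 0 → h ∣ s * b) :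
    ∃ h : S, ψ h = 0 ∧ (∃ s : S, ¬ π ∣ ψ s ∧ ∀ b : S, ψ b = 0 → h ∣ s * b) ∧
      ∀ σ : G, (∃ z : S, π ∣ ψ z ∧ ¬ π ∣ ψ (σ • z)) → ¬ π ∣ ψ (σ • h) := by
  classical
  obtain ⟨h, hh, s, hs, hdiv⟩ := hLP
  have hprime : Prime π := hπ.prime
  have h1 : ¬ π ∣ (1 : Λ) := hπ.not_dvd_one
  -- the set of `σ` with `𝔑σ ≠ 𝔐`
  have hTmem : ∀ σ : G, σ ∈ (Finset.univ.filter
      (fun σ : G => ∃ z : S, π ∣ ψ z ∧ ¬ π ∣ ψ (σ • z))) ↔
      ∃ z : S, π ∣ ψ z ∧ ¬ π ∣ ψ (σ • z) := fun σ => by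
    rw [Finset.mem_filter]
    exact ⟨fun h => h.2, fun h => ⟨Finset.mem_univ _, h⟩⟩
  generalize (Finset.univ.filter (fun σ : G => ∃ z : S, π ∣ ψ z ∧ ¬ π ∣ ψ (σ • z))) = T at hTmem
  -- (a) `e'` in `𝔐` with `1 - e' ∈ 𝔑σ` for `σ ∈ T`
  obtain ⟨e', he'M, he'N⟩ := s34ndA_crt T (s34ndA_N π ψ (1 : G)) (fun σ => s34ndA_N π ψ σ)
    (fun σ hσ => by
      obtain ⟨z, hz, hσz⟩ := (hTmem σ).mp hσ
      exact s34ndA_sup_eq_top π hπ ψ σ _ z ((s34ndA_mem_N_one π ψ z).mpr hz) hσz)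
  -- (b) `d` in `ker ψ * 𝔐` with `1 - d ∈ 𝔑σ` for `σ ∈ T`
  obtain ⟨d, hdI, hdN⟩ := s34ndA_crt T (RingHom.ker (ψ : S →+* Λ) * s34ndA_N π ψ (1 : G))
    (fun σ => s34ndA_N π ψ σ)
    (fun σ hσ => by
      obtain ⟨z, hz, hσz⟩ := (hTmem σ).mp hσ
      obtain ⟨q, hq, hσq⟩ := s34ndA_exists_ker π hπ ψ σ ⟨z, hz, hσz⟩
      refine s34ndA_sup_eq_top π hπ ψ σ _ (q * z)
        (Ideal.mul_mem_mul (RingHom.mem_ker.mpr hq) ((s34ndA_mem_N_one π ψ z).mpr hz)) ?_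
      rw [smul_mul', map_mul]
      exact fun hdvd => (hprime.dvd_or_dvd hdvd).elim hσq hσz)
  have hψe' : π ∣ ψ e' := (s34ndA_mem_N_one π ψ e').mp he'M
  have hψe : ¬ π ∣ ψ (1 - e') := by
    intro hdvd
    apply h1
    have h2 : (1 : Λ) = ψ (1 - e') + ψ e' := by rw [map_sub, map_one, sub_add_cancel]
    rw [h2]
    exact dvd_add hdvd hψe'
  have hψd : ψ d = 0 := RingHom.mem_ker.mp (Ideal.mul_le_left hdI)
  -- `s * d` is `h` times an element of `𝔐`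
  have hclaim : ∃ m : S, π ∣ ψ m ∧ s * d = h * m := by
    refine Submodule.mul_induction_on hdI ?_ ?_
    · intro q hq x hx
      obtain ⟨c, hc⟩ := hdiv q (RingHom.mem_ker.mp hq)
      refine ⟨c * x, ?_, ?_⟩
      · rw [map_mul]
        exact Dvd.dvd.mul_left ((s34ndA_mem_N_one π ψ x).mp hx) _
      · rw [← mul_assoc, hc, mul_assoc]
    · rintro x y ⟨m₁, hm₁, h₁⟩ ⟨m₂, hm₂, h₂⟩
      refine ⟨m₁ + m₂, ?_, ?_⟩
      · rw [map_add]
        exact dvd_add hm₁ hm₂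
      · rw [mul_add, h₁, h₂, mul_add]
  obtain ⟨m, hm, hsd⟩ := hclaim
  refine ⟨(1 - e') * h + d, ?_, ⟨(s * (1 - e') + m) * s, ?_, ?_⟩, ?_⟩
  · rw [map_add, map_mul, hh, mul_zero, hψd, add_zero]
  · rw [map_mul, map_add, map_mul]
    intro hdvd
    rcases hprime.dvd_or_dvd hdvd with hd1 | hd1
    · have h2 : π ∣ ψ s * ψ (1 - e') := by
        have h3 := dvd_sub hd1 hm
        rwa [add_sub_cancel_right] at h3
      rcases hprime.dvd_or_dvd h2 with h3 | h3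
      exacts [hs h3, hψe h3]
    · exact hs hd1
  · intro b hb
    obtain ⟨c, hc⟩ := hdiv b hb
    refine ⟨s * c, ?_⟩
    linear_combination (s * (1 - e') + m) * hc - c * hsd
  · intro σ hσ
    have hσT : σ ∈ T := (hTmem σ).mpr hσ
    have hσe' : π ∣ ψ (σ • (1 - e')) := (s34ndA_mem_N π ψ σ _).mp (he'N σ hσT)
    have hσd : π ∣ ψ (σ • (1 - d)) := (s34ndA_mem_N π ψ σ _).mp (hdN σ hσT)
    intro hdvd
    apply h1
    have h2 : (1 : Λ) = ψ (σ • (1 - d)) +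
        (ψ (σ • ((1 - e') * h + d)) - ψ (σ • (1 - e')) * ψ (σ • h)) := by
      simp only [smul_add, smul_sub, smul_mul', smul_one, map_add, map_sub, map_mul, map_one]
      ring
    rw [h2]
    exact dvd_add hσd (dvd_sub hdvd (Dvd.dvd.mul_right hσe' _))

end

end Fermat.Agent.S34
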