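import Mathlib

set_option autoImplicit false

/-!
P19 (S34), leaf W7 "norm descent", part (B): induction over the stabiliser.

`ψ : S →ₐ[Λ] Λ` is a `Λ`-point of `S`, `h` generates its kernel up to the multiplier `w`
(`hdiv`), and `G` acts on `S` over `Λ`.  `s34nd_stab` produces a uniform multiplier `sst`, not
in the maximal ideal `{z | π ∣ ψ z}`, such that the product of the conjugates of `h` divides
`sst * z` for every `G`-invariant `z` in the kernel of `ψ`.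
-/

namespace Fermat.Agent.S34

/-- `ψ (algebraMap c) = c`. -/
theorem s34ndBs_psi_alg {Λ S : Type*} [CommRing Λ] [CommRing S] [Algebra Λ S]
    (ψ : S →ₐ[Λ] Λ) (c : Λ) : ψ (algebraMap Λ S c) = c := by
  rw [AlgHom.commutes]
  rfl

/-- `x - algebraMap (ψ x)` lies in the kernel of `ψ`. -/
theorem s34ndBs_psi_sub {Λ S : Type*} [CommRing Λ] [CommRing S] [Algebra Λ S]
    (ψ : S →ₐ[Λ] Λ) (x : S) : ψ (x - algebraMap Λ S (ψ x)) = 0 := by
  rw [map_sub, s34ndBs_psi_alg, sub_self]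

/-- `ψ (σ • (x - algebraMap (ψ x))) = ψ (σ • x) - ψ x`. -/
theorem s34ndBs_psi_smul_sub {Λ S : Type*} [CommRing Λ] [CommRing S] [Algebra Λ S]
    {G : Type*} [Group G] [MulSemiringAction G S] (ψ : S →ₐ[Λ] Λ)
    (hGΛ : ∀ (σ : G) (c : Λ), σ • algebraMap Λ S c = algebraMap Λ S c) (σ : G) (x : S) :
    ψ (σ • (x - algebraMap Λ S (ψ x))) = ψ (σ • x) - ψ x := by
  rw [smul_sub, hGΛ, map_sub, s34ndBs_psi_alg]

/-- Step 1: an element `ρ` of the decomposition set preserves the complement of the maximal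
ideal `{z | π ∣ ψ z}`. -/
theorem s34ndBs_step1 {Λ S : Type*} [CommRing Λ] [CommRing S] [Algebra Λ S]
    {G : Type*} [Group G] [MulSemiringAction G S] (π : Λ) (ψ : S →ₐ[Λ] Λ)
    (hGΛ : ∀ (σ : G) (c : Λ), σ • algebraMap Λ S c = algebraMap Λ S c)
    (ρ : G) (hρ : ∀ z : S, π ∣ ψ z → π ∣ ψ (ρ • z)) (x : S) (hx : ¬ π ∣ ψ x) :
    ¬ π ∣ ψ (ρ • x) := by
  intro hdvd
  have h1 : π ∣ ψ (ρ • (x - algebraMap Λ S (ψ x))) :=
    hρ _ ((s34ndBs_psi_sub ψ x).symm ▸ dvd_zero π)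
  rw [s34ndBs_psi_smul_sub ψ hGΛ] at h1
  have h2 : π ∣ ψ (ρ • x) - (ψ (ρ • x) - ψ x) := dvd_sub hdvd h1
  rw [sub_sub_cancel] at h2
  exact hx h2

/-- Step 2 (key claim): no nontrivial conjugate of `h` lies in the kernel of `ψ`. -/
theorem s34ndBs_key {Λ S : Type*} [CommRing Λ] [IsDomain Λ] [CommRing S] [Algebra Λ S]
    {G : Type*} [Group G] [MulSemiringAction G S] (π : Λ) (ψ : S →ₐ[Λ] Λ)
    (hGΛ : ∀ (σ : G) (c : Λ), σ • algebraMap Λ S c = algebraMap Λ S c)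
    (hfree : ∀ σ : G, σ ≠ 1 → ∃ s : S, ψ (σ • s) ≠ ψ s)
    (h : S) (w : S) (hw : ¬ π ∣ ψ w) (hdiv : ∀ b : S, ψ b = 0 → h ∣ w * b)
    (hoff : ∀ σ : G, (∃ z : S, π ∣ ψ z ∧ ¬ π ∣ ψ (σ • z)) → ¬ π ∣ ψ (σ • h))
    (τ : G) (hτ : τ ≠ 1) : ψ (τ • h) ≠ 0 := by
  intro h0
  by_cases hD : ∀ z : S, π ∣ ψ z → π ∣ ψ (τ • z)
  · obtain ⟨s, hs⟩ := hfree τ hτ
    apply hs
    have hτw : ψ (τ • w) ≠ 0 := fun h1 =>
      s34ndBs_step1 π ψ hGΛ τ hD w hw (h1.symm ▸ dvd_zero π)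
    obtain ⟨c, hc⟩ := hdiv _ (s34ndBs_psi_sub ψ s)
    have h2 : ψ (τ • (w * (s - algebraMap Λ S (ψ s)))) = ψ (τ • (h * c)) := by rw [hc]
    rw [smul_mul', smul_mul', map_mul, map_mul, h0, zero_mul,
      s34ndBs_psi_smul_sub ψ hGΛ] at h2
    exact sub_eq_zero.mp ((mul_eq_zero.mp h2).resolve_left hτw)
  · obtain ⟨z, hz⟩ := not_forall.mp hD
    obtain ⟨hz1, hz2⟩ := Classical.not_imp.mp hz
    exact hoff τ ⟨z, hz1, hz2⟩ (h0.symm ▸ dvd_zero π)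

/-- Step 3: induction over finite subsets of the decomposition set. -/
theorem s34ndBs_ind {Λ S : Type*} [CommRing Λ] [IsDomain Λ] [CommRing S] [Algebra Λ S]
    {G : Type*} [Group G] [MulSemiringAction G S] (π : Λ) (hπ : Prime π) (ψ : S →ₐ[Λ] Λ)
    (hGΛ : ∀ (σ : G) (c : Λ), σ • algebraMap Λ S c = algebraMap Λ S c)
    (h : S) (w : S) (hw : ¬ π ∣ ψ w) (hdiv : ∀ b : S, ψ b = 0 → h ∣ w * b)
    (hkey : ∀ τ : G, τ ≠ 1 → ψ (τ • h) ≠ 0)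
    (A : Finset G) (hA : ∀ ρ ∈ A, ∀ z : S, π ∣ ψ z → π ∣ ψ (ρ • z)) :
    ∃ sA : S, ¬ π ∣ ψ sA ∧
      ∀ z : S, (∀ ρ ∈ A, ψ (ρ⁻¹ • z) = 0) → (∏ ρ ∈ A, ρ • h) ∣ sA * z := by
  classical
  induction A using Finset.induction_on with
  | empty =>
    refine ⟨1, ?_, fun z _ => ?_⟩
    · rw [map_one]
      exact hπ.not_dvd_one
    · rw [Finset.prod_empty]
      exact one_dvd _
  | insert ρ A hρA ih =>
    obtain ⟨sA, hsA, hP⟩ := ih (fun ρ' hρ' => hA ρ' (Finset.mem_insert_of_mem hρ'))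
    have hρD := hA ρ (Finset.mem_insert_self ρ A)
    refine ⟨ρ • w * sA, ?_, fun z hz => ?_⟩
    · rw [map_mul]
      intro hd
      rcases hπ.dvd_or_dvd hd with hd | hd
      · exact s34ndBs_step1 π ψ hGΛ ρ hρD w hw hd
      · exact hsA hd
    · obtain ⟨c, hc⟩ := hP z (fun ρ' hρ' => hz ρ' (Finset.mem_insert_of_mem hρ'))
      have hzρ : ψ (ρ⁻¹ • z) = 0 := hz ρ (Finset.mem_insert_self ρ A)
      have h2 : ψ (ρ⁻¹ • (sA * z)) = ψ (ρ⁻¹ • ((∏ ρ' ∈ A, ρ' • h) * c)) := by rw [hc]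
      rw [smul_mul', smul_mul', map_mul, map_mul, hzρ, mul_zero, Finset.smul_prod',
        map_prod] at h2
      have hprod : ∏ ρ' ∈ A, ψ (ρ⁻¹ • ρ' • h) ≠ 0 := by
        rw [Finset.prod_ne_zero_iff]
        intro ρ' hρ'
        rw [smul_smul]
        apply hkey
        intro h1
        have h3 : ρ' = ρ := by
          rw [← mul_one ρ, ← h1, mul_inv_cancel_left]
        exact hρA (h3 ▸ hρ')
      have hc0 : ψ (ρ⁻¹ • c) = 0 := (mul_eq_zero.mp h2.symm).resolve_left hprod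
      obtain ⟨c'', hc''⟩ := hdiv _ hc0
      have h3 : ρ • (w * ρ⁻¹ • c) = ρ • (h * c'') := by rw [hc'']
      rw [smul_mul', smul_mul', smul_inv_smul] at h3
      refine ⟨ρ • c'', ?_⟩
      rw [Finset.prod_insert hρA]
      calc ρ • w * sA * z = ρ • w * (sA * z) := by ring
        _ = ρ • w * ((∏ ρ' ∈ A, ρ' • h) * c) := by rw [hc]
        _ = (∏ ρ' ∈ A, ρ' • h) * (ρ • w * c) := by ring
        _ = (∏ ρ' ∈ A, ρ' • h) * (ρ • h * ρ • c'') := by rw [h3]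
        _ = ρ • h * (∏ ρ' ∈ A, ρ' • h) * ρ • c'' := by ring

section
variable {Λ S : Type*} [CommRing Λ] [IsDomain Λ] [IsDiscreteValuationRing Λ]
  [CommRing S] [IsDomain S] [Algebra Λ S] {G : Type*} [Group G] [Fintype G]
  [MulSemiringAction G S]

set_option linter.unusedSectionVars false in
set_option linter.unusedVariables false in
/-- (B) induction over the stabiliser: a uniform multiplier for the product of the conjugates. -/
theorem s34nd_stab (π : Λ) (hπ : Irreducible π) (ψ : S →ₐ[Λ] Λ)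
    (hGΛ : ∀ (σ : G) (c : Λ), σ • algebraMap Λ S c = algebraMap Λ S c)
    (hfree : ∀ σ : G, σ ≠ 1 → ∃ s : S, ψ (σ • s) ≠ ψ s)
    (h : S) (hψh : ψ h = 0) (w : S) (hw : ¬ π ∣ ψ w) (hdiv : ∀ b : S, ψ b = 0 → h ∣ w * b)
    (hoff : ∀ σ : G, (∃ z : S, π ∣ ψ z ∧ ¬ π ∣ ψ (σ • z)) → ¬ π ∣ ψ (σ • h)) :
    ∃ sst : S, ¬ π ∣ ψ sst ∧
      ∀ z : S, (∀ σ : G, σ • z = z) → ψ z = 0 → (∏ σ : G, σ • h) ∣ sst * z := by
  classical
  have hπp : Prime π := hπ.prime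
  have hkey := s34ndBs_key π ψ hGΛ hfree h w hw hdiv hoff
  obtain ⟨sD, hsD, hP⟩ := s34ndBs_ind π hπp ψ hGΛ h w hw hdiv hkey
    (Finset.univ.filter (fun ρ : G => ∀ z : S, π ∣ ψ z → π ∣ ψ (ρ • z)))
    (fun ρ hρ => (Finset.mem_filter.mp hρ).2)
  refine ⟨sD * ∏ σ ∈ Finset.univ.filter
    (fun ρ : G => ¬ ∀ z : S, π ∣ ψ z → π ∣ ψ (ρ • z)), σ • h, ?_, ?_⟩
  · rw [map_mul, map_prod]
    intro hd
    rcases hπp.dvd_or_dvd hd with hd | hd
    · exact hsD hd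
    · obtain ⟨σ, hσ, hσd⟩ := hπp.exists_mem_finset_dvd hd
      obtain ⟨z, hz⟩ := not_forall.mp (Finset.mem_filter.mp hσ).2
      obtain ⟨hz1, hz2⟩ := Classical.not_imp.mp hz
      exact hoff σ ⟨z, hz1, hz2⟩ hσd
  · intro z hzG hz0
    obtain ⟨c, hc⟩ := hP z (fun ρ _ => by rw [hzG]; exact hz0)
    refine ⟨c, ?_⟩
    rw [← Finset.prod_filter_mul_prod_filter_not Finset.univ
      (fun ρ : G => ∀ z : S, π ∣ ψ z → π ∣ ψ (ρ • z))]
    rw [mul_right_comm, hc]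
    ring

end

end Fermat.Agent.S34
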