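import Mathlib
import Fermat.Agent.S34.ModelDefs
import Fermat.Agent.S34.NormDescModify
import Fermat.Agent.S34.NormDescStab
import Fermat.Agent.S34.NormDescAvoid

/-!
# P19 (S34), MODEL-M, leaf W7: norm descent of a local generator of the kernel of a `Λ`-point

`S` a domain with an action of a finite group `G`, `R → S` injective with image containing the
invariants, `ψ : S →ₐ[Λ] Λ` a `Λ`-point (`Λ` a discrete valuation ring with uniformiser `π`) with
trivial stabiliser (`ψ ∘ σ ≠ ψ` for `σ ≠ 1`).  If `ker ψ` is principal locally at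
`𝔐 = ψ⁻¹(π)`, then the kernel of the restriction of `ψ` to `R` is principal locally at
`𝔐 ∩ R` (`s34_norm_descent`), i.e. it has a `ModelLocGen` generator modulo `π`
(`s34_norm_descent_locGen`).  Statements of note 848 (P19-MASTER v2) verbatim.

The three steps are in `NormDescModify` (CRT modification), `NormDescStab` (induction over the
stabiliser) and `NormDescAvoid` (prime avoidance and descent of the multiplier).
-/

set_option autoImplicit false

namespace Fermat.Agent.S34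

/-- **Norm descent** (W7 of P19-MASTER v2). -/
theorem s34_norm_descent
    {Λ R S : Type*} [CommRing Λ] [IsDomain Λ] [IsDiscreteValuationRing Λ]
    [CommRing R] [CommRing S] [IsDomain S]
    [Algebra Λ R] [Algebra Λ S] [Algebra R S] [IsScalarTower Λ R S]
    (hRS : Function.Injective (algebraMap R S))
    {G : Type*} [Group G] [Finite G] [MulSemiringAction G S] [SMulCommClass G R S]
    (hinv : ∀ s : S, (∀ σ : G, σ • s = s) → ∃ r : R, algebraMap R S r = s)
    (π : Λ) (hπ : Irreducible π) (ψ : S →ₐ[Λ] Λ)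
    (hfree : ∀ σ : G, σ ≠ 1 → ∃ s : S, ψ (σ • s) ≠ ψ s)
    (hLP : ∃ h : S, ψ h = 0 ∧ ∃ s : S, ¬ π ∣ ψ s ∧ ∀ b : S, ψ b = 0 → h ∣ s * b) :
    ∃ h : R, ψ (algebraMap R S h) = 0 ∧ ∃ s : R, ¬ π ∣ ψ (algebraMap R S s) ∧
      ∀ b : R, ψ (algebraMap R S b) = 0 → h ∣ s * b := by
  classical
  cases nonempty_fintype G
  have hR : ∀ (σ : G) (r : R), σ • algebraMap R S r = algebraMap R S r := by
    intro σ r
    rw [Algebra.algebraMap_eq_smul_one, smul_comm, smul_one]
  have hGΛ : ∀ (σ : G) (c : Λ), σ • algebraMap Λ S c = algebraMap Λ S c := by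
    intro σ c
    rw [IsScalarTower.algebraMap_apply Λ R S, hR]
  obtain ⟨h, hψh, ⟨w, hw, hdiv⟩, hoff⟩ := s34nd_modify (G := G) π hπ ψ hLP
  obtain ⟨sst, hsst, hst⟩ := s34nd_stab π hπ ψ hGΛ hfree h hψh w hw hdiv hoff
  set H : S := ∏ σ : G, σ • h with hHdef
  have hHinv : ∀ τ : G, τ • H = H := by
    intro τ
    rw [hHdef, Finset.smul_prod']
    simp only [smul_smul]
    exact Fintype.prod_equiv (Equiv.mulLeft τ) _ _ (fun σ => rfl)
  have hψH : ψ H = 0 := by
    rw [hHdef, map_prod]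
    exact Finset.prod_eq_zero (Finset.mem_univ (1 : G)) (by rw [one_smul, hψh])
  obtain ⟨a, hainv, hψa, hadiv⟩ := s34nd_descend π hπ ψ hGΛ H hHinv sst hsst hst
  obtain ⟨hR', hhR⟩ := hinv H hHinv
  obtain ⟨aR, haR⟩ := hinv a hainv
  refine ⟨hR', by rw [hhR]; exact hψH, aR, by rw [haR]; exact hψa, ?_⟩
  intro b hb
  obtain ⟨c, hcinv, hc⟩ := hadiv (algebraMap R S b) (fun σ => hR σ b) hb
  obtain ⟨cR, hcR⟩ := hinv c hcinv
  refine ⟨cR, hRS ?_⟩
  rw [map_mul, map_mul, haR, hhR, hcR, hc]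

/-- **Norm descent, `ModelLocGen` form.** -/
theorem s34_norm_descent_locGen
    {Λ R S : Type*} [CommRing Λ] [IsDomain Λ] [IsDiscreteValuationRing Λ]
    [CommRing R] [CommRing S] [IsDomain S]
    [Algebra Λ R] [Algebra Λ S] [Algebra R S] [IsScalarTower Λ R S]
    (hRS : Function.Injective (algebraMap R S))
    {G : Type*} [Group G] [Finite G] [MulSemiringAction G S] [SMulCommClass G R S]
    (hinv : ∀ s : S, (∀ σ : G, σ • s = s) → ∃ r : R, algebraMap R S r = s)
    (π : Λ) (hπ : Irreducible π) (ψ : S →ₐ[Λ] Λ)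
    (hfree : ∀ σ : G, σ ≠ 1 → ∃ s : S, ψ (σ • s) ≠ ψ s)
    (hLP : ∃ h : S, ψ h = 0 ∧ ∃ s : S, ¬ π ∣ ψ s ∧ ∀ b : S, ψ b = 0 → h ∣ s * b) :
    ∃ h : R, ModelLocGen (Ideal.span {algebraMap Λ R π})
      (Ideal.comap ((ψ : S →+* Λ).comp (algebraMap R S)) (Ideal.span {π})) h := by
  obtain ⟨h, hψh, s, hs, hdiv⟩ := s34_norm_descent hRS hinv π hπ ψ hfree hLP
  refine ⟨h, modelLocGen_of_exists_eq ?_ ?_⟩
  · rw [Ideal.mem_comap, RingHom.comp_apply]
    show ψ (algebraMap R S h) ∈ Ideal.span {π}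
    rw [hψh]
    exact Ideal.zero_mem _
  · intro z hz
    rw [Ideal.mem_comap, RingHom.comp_apply, Ideal.mem_span_singleton] at hz
    obtain ⟨l, hl⟩ := hz
    have hl' : ψ (algebraMap R S z) = π * l := hl
    have hb : ψ (algebraMap R S (z - algebraMap Λ R (π * l))) = 0 := by
      rw [map_sub, map_sub, ← IsScalarTower.algebraMap_apply Λ R S, AlgHom.commutes, hl']
      simp
    obtain ⟨c, hc⟩ := hdiv _ hb
    refine ⟨s, s * algebraMap Λ R l * algebraMap Λ R π, c, ?_, ?_, ?_⟩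
    · intro hmem
      rw [Ideal.mem_comap, RingHom.comp_apply, Ideal.mem_span_singleton] at hmem
      exact hs hmem
    · exact Ideal.mul_mem_left _ _ (Ideal.mem_span_singleton_self _)
    · rw [map_mul] at hc
      linear_combination hc

end Fermat.Agent.S34
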