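import Mathlib

/-!
# P19 / W6 : lifting a rational point through an integral Galois cover (`s34_rat_lift`)

`S/R` integral, `G` finite acting on `S` with invariants `R`, `ψ : R → K` a `K`-point, `x ∈ S` with
trivial stabiliser which is a root of a monic `g ∈ R[X]` whose specialisation `ψ(g)` is split and
separable over `K`.  Then `ψ` extends to a ring homomorphism `ψ' : S → K` which still separates the
conjugates of `x`.

The proof is elementary (no Galois theory): pick a maximal ideal `Q` of `S` over `ker ψ`; the image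
of `x` in `S/Q` is a root of the split separable polynomial, hence is `K`-rational and distinct
from the images of its conjugates; the element `u = ∏_{σ ≠ 1} (σ⁻¹ x - a)` (with `a ∈ R`, `a ≡ x`
mod `Q`) lies in every `σ⁻¹ Q`, `σ ≠ 1`, but not in `Q`; a trace argument with `u` shows `S/Q = K`.
-/

namespace Fermat.Agent.S34.RatLift

open Polynomial

theorem s34_rat_lift {K R S : Type*} [Field K] [CharZero K] [CommRing R] [IsDomain R] [Algebra K R]
    [CommRing S] [IsDomain S] [Algebra R S] [Algebra.IsIntegral R S]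
    (hRS : Function.Injective (algebraMap R S))
    {G : Type*} [Group G] [Finite G] [MulSemiringAction G S] [SMulCommClass G R S]
    (hinv : ∀ s : S, (∀ σ : G, σ • s = s) → ∃ r : R, algebraMap R S r = s)
    (ψ : R →ₐ[K] K) (x : S) (hx : ∀ σ : G, σ ≠ 1 → σ • x ≠ x)
    (g : R[X]) (hg : g.Monic) (hgx : Polynomial.aeval x g = 0)
    (hsplit : (g.map (ψ : R →+* K)).Splits) (hsep : (g.map (ψ : R →+* K)).Separable) :
    ∃ ψ' : S →+* K, ψ'.comp (algebraMap R S) = (ψ : R →+* K) ∧
      ∀ σ : G, σ ≠ 1 → ψ' (σ • x) ≠ ψ' x := by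
  classical
  cases nonempty_fintype G
  -- the maximal ideal `ker ψ` and a maximal ideal `Q` above it
  have hψsurj : Function.Surjective (ψ : R →+* K) := fun k => ⟨algebraMap K R k, by simp⟩
  have hpmax : (RingHom.ker (ψ : R →+* K)).IsMaximal :=
    RingHom.ker_isMaximal_of_surjective _ hψsurj
  obtain ⟨Q, hQmax, hQ⟩ := Ideal.exists_ideal_over_maximal_of_isIntegral (S := S)
    (RingHom.ker (ψ : R →+* K)) (by
      rw [(RingHom.injective_iff_ker_eq_bot _).mp hRS]; exact bot_le)
  have := hQmax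
  have hQprime : Q.IsPrime := hQmax.isPrime
  let _ : Field (S ⧸ Q) := Ideal.Quotient.field Q
  set π : S →+* S ⧸ Q := Ideal.Quotient.mk Q with hπ
  set ι : K →+* S ⧸ Q := π.comp ((algebraMap R S).comp (algebraMap K R)) with hι
  -- compatibility of `ι ∘ ψ` with `π ∘ algebraMap`
  have hcompat : ∀ r : R, π (algebraMap R S r) = ι (ψ r) := by
    intro r
    have h1 : r - algebraMap K R (ψ r) ∈ RingHom.ker (ψ : R →+* K) := by
      rw [RingHom.mem_ker]; simp
    rw [← hQ, Ideal.mem_comap] at h1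
    have h2 : π (algebraMap R S (r - algebraMap K R (ψ r))) = 0 :=
      Ideal.Quotient.eq_zero_iff_mem.mpr h1
    rw [map_sub, map_sub, sub_eq_zero] at h2
    exact h2
  have hmap : g.map (π.comp (algebraMap R S)) = (g.map (ψ : R →+* K)).map ι := by
    rw [Polynomial.map_map]
    congr 1
    exact RingHom.ext hcompat
  -- all conjugates of `x` are roots of `g`
  have hroot : ∀ σ : G, Polynomial.aeval (σ • x) g = 0 := by
    intro σ
    have h := Polynomial.aeval_algHom_apply (MulSemiringAction.toAlgHom R S σ) x g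
    simp only [MulSemiringAction.toAlgHom_apply] at h
    rw [h, hgx, smul_zero]
  have hrootS : ∀ y : S, Polynomial.aeval y g = 0 → (g.map (algebraMap R S)).IsRoot y := by
    intro y hy
    rw [IsRoot.def, eval_map, ← aeval_def]; exact hy
  have hrootL : ∀ y : S, Polynomial.aeval y g = 0 →
      ((g.map (ψ : R →+* K)).map ι).IsRoot (π y) := by
    intro y hy
    rw [← hmap, IsRoot.def, eval_map, ← Polynomial.hom_eval₂, ← aeval_def, hy, map_zero]
  -- the image of `x` is rational
  obtain ⟨k₀, hk₀⟩ := hsplit.mem_range_of_isRoot (hg.map _).ne_zero (hrootL x hgx)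
  set a : S := algebraMap R S (algebraMap K R k₀) with ha
  have hak : π a = π x := hk₀
  have hafix : ∀ σ : G, σ • a = a := fun σ => smul_algebraMap σ _
  have hxa : x - a ∈ Q := by
    rw [← Ideal.Quotient.eq]; exact hak.symm
  -- the conjugates of `x` stay distinct modulo `Q`
  have hdist : ∀ σ : G, σ ≠ 1 → π (σ • x) ≠ π x := by
    intro σ hσ heq
    obtain ⟨q, hq⟩ := dvd_iff_isRoot.mpr (hrootS x hgx)
    have h3 : q.IsRoot (σ • x) := by
      have h2 := hrootS (σ • x) (hroot σ)
      rw [hq, IsRoot.def, eval_mul, eval_sub, eval_X, eval_C] at h2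
      exact (mul_eq_zero.mp h2).resolve_left (sub_ne_zero.mpr (hx σ hσ))
    obtain ⟨q', hq'⟩ := dvd_iff_isRoot.mpr h3
    have h4 : (g.map (algebraMap R S)).map π = (X - C (π x)) * (X - C (π x)) * q'.map π := by
      rw [hq, hq']
      simp only [Polynomial.map_mul, Polynomial.map_sub, Polynomial.map_X, Polynomial.map_C, heq]
      ring
    have hsepL : ((g.map (algebraMap R S)).map π).Separable := by
      rw [Polynomial.map_map, hmap]; exact hsep.map
    exact Polynomial.not_isUnit_X_sub_C _ (hsepL.squarefree (X - C (π x)) ⟨q'.map π, h4⟩)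
  -- the auxiliary element `u`
  set u : S := ∏ σ ∈ (Finset.univ.erase (1 : G)), (σ⁻¹ • x - a) with hu
  have hu_not : u ∉ Q := by
    intro h
    obtain ⟨σ, hσ, hmem⟩ := Ideal.IsPrime.prod_mem_iff.mp h
    have hσ1 : σ ≠ 1 := (Finset.mem_erase.mp hσ).1
    have h5 : π (σ⁻¹ • x) = π a := Ideal.Quotient.eq.mpr hmem
    exact hdist σ⁻¹ (inv_ne_one.mpr hσ1) (h5.trans hak)
  have hu_mem : ∀ τ : G, τ ≠ 1 → τ • u ∈ Q := by
    intro τ hτ
    have h6 : τ • u = ∏ σ ∈ (Finset.univ.erase (1 : G)), τ • (σ⁻¹ • x - a) :=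
      map_prod (MulSemiringAction.toRingHom G S τ) _ _
    rw [h6]
    have hτmem : τ ∈ Finset.univ.erase (1 : G) := Finset.mem_erase.mpr ⟨hτ, Finset.mem_univ _⟩
    refine Ideal.mem_of_dvd Q (Finset.dvd_prod_of_mem _ hτmem) ?_
    rw [smul_sub, smul_inv_smul, hafix]
    exact hxa
  -- the trace
  have hT_inv : ∀ (y : S) (τ : G), τ • (∑ σ : G, σ • y) = ∑ σ : G, σ • y := by
    intro y τ
    rw [Finset.smul_sum]
    exact Fintype.sum_equiv (Equiv.mulLeft τ) _ _ (fun σ => by simp [mul_smul])
  have hT_mod : ∀ s : S, π (∑ σ : G, σ • (s * u)) = π s * π u := by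
    intro s
    rw [← Finset.add_sum_erase Finset.univ _ (Finset.mem_univ (1 : G)), one_smul, map_add,
      map_mul, map_sum]
    rw [Finset.sum_eq_zero, add_zero]
    intro σ hσ
    have hσ1 : σ ≠ 1 := (Finset.mem_erase.mp hσ).1
    rw [smul_mul', map_mul, Ideal.Quotient.eq_zero_iff_mem.mpr (hu_mem σ hσ1), mul_zero]
  have hπu : π u ≠ 0 := fun h => hu_not (Ideal.Quotient.eq_zero_iff_mem.mp h)
  -- the residue field is `K`
  have hιsurj : Function.Surjective ι := by
    intro z
    obtain ⟨s, rfl⟩ := Ideal.Quotient.mk_surjective z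
    obtain ⟨r₁, hr₁⟩ := hinv _ (hT_inv (s * u))
    obtain ⟨r₀, hr₀⟩ := hinv _ (hT_inv (1 * u))
    have e1 : ι (ψ r₁) = π s * π u := by rw [← hcompat, hr₁, hT_mod]
    have e0 : ι (ψ r₀) = π u := by rw [← hcompat, hr₀, hT_mod, map_one, one_mul]
    refine ⟨ψ r₁ / ψ r₀, ?_⟩
    rw [map_div₀, e1, e0, mul_div_assoc, div_self hπu, mul_one]
  let e : K ≃+* S ⧸ Q := RingEquiv.ofBijective ι ⟨ι.injective, hιsurj⟩
  refine ⟨(e.symm : S ⧸ Q →+* K).comp π, ?_, ?_⟩
  · refine RingHom.ext (fun r => ?_)
    show e.symm (π (algebraMap R S r)) = ψ r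
    rw [hcompat, RingEquiv.symm_apply_eq]
    rfl
  · intro σ hσ heq
    exact hdist σ hσ (e.symm.injective heq)

end Fermat.Agent.S34.RatLift
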