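import Mathlib
import Fermat.Prelude.Def_ModularCurve_ArithmeticGalois
import Fermat.Prelude.Thm_ModularCurve_coeffMap_qExpand

/-!
# P19 (S34), block GAL: the concrete rigidified function field

Let `x₀ ∈ ℚ((t))` and `n ≥ 1`.  `s34RigField N n x₀ ⊆ ℚ((t))` is the field generated by
`F_N(t^n) = {f(t^n) : f ∈ F_N}` and `x₀` (in the application `x₀` is a root of
`N_g(X) = j(t^n) · D_g(X)` for a good cover `N_g / D_g` of the `j`-line).  Its base change
`s34RigFieldL N n x₀ L = laurentBaseChange L (s34RigField N n x₀) ⊆ L((t))` carries the coefficientwise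
action `arithmeticRingAut` of `Gal(L/ℚ)` of the Prelude, which fixes the coordinate `s34RigX` and
commutes with the embedding `s34RigEmb : F_L → s34RigFieldL`, `f(q) ↦ f(t^n)`.
-/

set_option autoImplicit false

noncomputable section

namespace Fermat.Agent.S34

open ModularCurve AlgebraicCurve IntermediateField

section Rat

variable (N n : ℕ) [NeZero n] (x₀ : LaurentSeries ℚ)

/-- The rigidified function field over `ℚ`: generated by `F_N(t^n)` and `x₀` inside `ℚ((t))`. -/
def s34RigField : IntermediateField ℚ (LaurentSeries ℚ) :=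
  (modularFunctionFieldFull N).map (qExpandₐ n) ⊔ ℚ⟮x₀⟯

theorem s34_x0_mem_rigField : x₀ ∈ s34RigField N n x₀ :=
  (le_sup_right : ℚ⟮x₀⟯ ≤ s34RigField N n x₀) (mem_adjoin_simple_self ℚ x₀)

theorem s34_qExpand_mem_rigField {f : LaurentSeries ℚ} (hf : f ∈ modularFunctionFieldFull N) :
    qExpand ℚ n f ∈ s34RigField N n x₀ :=
  (le_sup_left : (modularFunctionFieldFull N).map (qExpandₐ n) ≤ s34RigField N n x₀)
    ⟨f, hf, rfl⟩

end Rat

section BaseChange

variable (N n : ℕ) [NeZero n] (x₀ : LaurentSeries ℚ)
variable (L : Type*) [Field L] [Algebra ℚ L]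

/-- The rigidified function field over `L`, inside `L((t))`. -/
abbrev s34RigFieldL : IntermediateField L (LaurentSeries L) :=
  laurentBaseChange L (s34RigField N n x₀)

/-- The rigidifying coordinate `x₀`, as an element of the rigidified field over `L`. -/
def s34RigX : s34RigFieldL N n x₀ L :=
  ⟨coeffEmb L x₀, coeffEmb_mem_laurentBaseChange L (s34_x0_mem_rigField N n x₀)⟩

@[simp]
theorem coe_s34RigX : ((s34RigX N n x₀ L : s34RigFieldL N n x₀ L) : LaurentSeries L) =
    coeffEmb L x₀ := rfl

theorem s34_qExpand_mem_rigFieldL {f : LaurentSeries L}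
    (hf : f ∈ laurentBaseChange L (modularFunctionFieldFull N)) :
    qExpand L n f ∈ s34RigFieldL N n x₀ L := by
  rw [mem_laurentBaseChange_iff] at hf
  induction hf using Subfield.closure_induction with
  | mem y hy =>
      rcases hy with ⟨a, rfl⟩ | ⟨z, hz, rfl⟩
      · rw [algebraMap_laurentSeries_eq_single, qExpand_single, mul_zero,
          ← algebraMap_laurentSeries_eq_single]
        exact (s34RigFieldL N n x₀ L).algebraMap_mem _
      · have h : qExpand L n (coeffEmb L z) = coeffEmb L (qExpand ℚ n z) :=
          (coeffMap_qExpand (algebraMap ℚ L) n z).symm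
        rw [h]
        exact coeffEmb_mem_laurentBaseChange L (s34_qExpand_mem_rigField N n x₀ hz)
  | one => simp
  | add x y _ _ hx hy => simpa using add_mem hx hy
  | neg x _ hx => simpa using neg_mem hx
  | inv x _ hx => simpa using inv_mem hx
  | mul x y _ _ hx hy => simpa using mul_mem hx hy

/-- The embedding of the function field of `X₀(N)` over `L` into the rigidified field:
`f(q) ↦ f(t^n)`. -/
def s34RigEmb : laurentBaseChange L (modularFunctionFieldFull N) →ₐ[L] s34RigFieldL N n x₀ L where
  toFun f := ⟨qExpand L n (f : LaurentSeries L), s34_qExpand_mem_rigFieldL N n x₀ L f.2⟩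
  map_one' := Subtype.ext (map_one (qExpand L n))
  map_mul' _ _ := Subtype.ext (map_mul (qExpand L n) _ _)
  map_zero' := Subtype.ext (map_zero (qExpand L n))
  map_add' _ _ := Subtype.ext (map_add (qExpand L n) _ _)
  commutes' a := Subtype.ext <| by
    show qExpand L n (algebraMap L (LaurentSeries L) a) = algebraMap L (LaurentSeries L) a
    rw [algebraMap_laurentSeries_eq_single, qExpand_single, mul_zero]

@[simp]
theorem coe_s34RigEmb (f : laurentBaseChange L (modularFunctionFieldFull N)) :
    ((s34RigEmb N n x₀ L f : s34RigFieldL N n x₀ L) : LaurentSeries L) =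
      qExpand L n (f : LaurentSeries L) := rfl

theorem s34RigEmb_injective : Function.Injective (s34RigEmb N n x₀ L) :=
  (s34RigEmb N n x₀ L).toRingHom.injective

variable {L}

/-- The Galois action fixes the rigidifying coordinate. -/
theorem s34_arithmeticRingAut_rigX (σ : L ≃ₐ[ℚ] L) :
    arithmeticRingAut (s34RigField N n x₀) σ (s34RigX N n x₀ L) = s34RigX N n x₀ L :=
  Subtype.ext (coeffMap_coeffEmb σ x₀)

/-- The Galois action commutes with the embedding `F_L → rigidified field`. -/
theorem s34RigEmb_arithmeticRingAut (σ : L ≃ₐ[ℚ] L)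
    (f : laurentBaseChange L (modularFunctionFieldFull N)) :
    s34RigEmb N n x₀ L (arithmeticRingAut (modularFunctionFieldFull N) σ f) =
      arithmeticRingAut (s34RigField N n x₀) σ (s34RigEmb N n x₀ L f) :=
  Subtype.ext (coeffMap_qExpand (σ : L →+* L) n (f : LaurentSeries L)).symm

/-- Elements with rational coefficients are fixed by the Galois action. -/
theorem s34_arithmeticRingAut_coeffEmb (σ : L ≃ₐ[ℚ] L) {y : LaurentSeries ℚ}
    (hy : y ∈ s34RigField N n x₀) :
    arithmeticRingAut (s34RigField N n x₀) σ ⟨coeffEmb L y, coeffEmb_mem_laurentBaseChange L hy⟩ =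
      ⟨coeffEmb L y, coeffEmb_mem_laurentBaseChange L hy⟩ :=
  Subtype.ext (coeffMap_coeffEmb σ y)

end BaseChange

end Fermat.Agent.S34
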