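import Mathlib
import Fermat.Prelude.Def_ModularCurve_LaurentCoeff

/-!
# P19 (S34), block GAL, leaf ROOT-B (second team): `K` is algebraically closed in `K((q))`

`s34root_const_of_isAlgebraic_B`: an element of `LaurentSeries K` which is algebraic over the
field `K` is a constant.

Proof: a nonzero algebraic `y` cannot have positive order (the coefficient at `0` of `P(y)` is the
constant coefficient of `P`, which is nonzero for the minimal polynomial); applied to `y` and
`y⁻¹` this gives `order y = 0`; applied to `y - y₀` (`y₀` the coefficient at `0`) it gives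
`y = y₀`.
-/

set_option autoImplicit false

namespace Fermat.Agent.S34

open ModularCurve Polynomial

/-- The coefficient at `0` of a polynomial expression in a Laurent series of positive order is the
constant coefficient of the polynomial. -/
theorem s34rootB_coeff_zero_aeval {K : Type*} [Field K] (y : LaurentSeries K)
    (hy : 0 < y.order) (P : K[X]) : (aeval y P).coeff 0 = P.coeff 0 := by
  induction P using Polynomial.induction_on with
  | C a =>
    rw [aeval_C, algebraMap_laurentSeries_eq_single, HahnSeries.coeff_single_same, coeff_C_zero]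
  | add p q hp hq =>
    rw [map_add, HahnSeries.coeff_add, hp, hq, coeff_add]
  | monomial n a _ =>
    rw [map_mul, aeval_C, map_pow, aeval_X, algebraMap_laurentSeries_eq_single,
      ← HahnSeries.C_apply, HahnSeries.C_mul_eq_smul, HahnSeries.coeff_smul, coeff_C_mul_X_pow]
    have h1 : (0 : ℤ) < (y ^ (n + 1)).order := by
      rw [HahnSeries.order_pow]
      positivity
    rw [HahnSeries.coeff_eq_zero_of_lt_order h1, smul_zero, if_neg (by omega)]

/-- A nonzero algebraic Laurent series does not have positive order. -/
theorem s34rootB_not_pos {K : Type*} [Field K] (y : LaurentSeries K) (hy : IsAlgebraic K y)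
    (hy0 : y ≠ 0) : ¬ 0 < y.order := by
  intro hpos
  have hint : IsIntegral K y := hy.isIntegral
  have h1 := s34rootB_coeff_zero_aeval y hpos (minpoly K y)
  rw [minpoly.aeval, HahnSeries.coeff_zero] at h1
  exact hy0 ((minpoly.coeff_zero_eq_zero hint).mp h1.symm)

/-- A nonzero algebraic Laurent series has order `0`. -/
theorem s34rootB_order_eq_zero {K : Type*} [Field K] (y : LaurentSeries K)
    (hy : IsAlgebraic K y) (hy0 : y ≠ 0) : y.order = 0 := by
  have h1 := s34rootB_not_pos y hy hy0
  have h2 := s34rootB_not_pos y⁻¹ hy.inv (inv_ne_zero hy0)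
  have h3 : (y * y⁻¹).order = y.order + y⁻¹.order := HahnSeries.order_mul hy0 (inv_ne_zero hy0)
  rw [mul_inv_cancel₀ hy0, HahnSeries.order_one] at h3
  omega

/-- **`K` is algebraically closed in `K((q))`.** -/
theorem s34root_const_of_isAlgebraic_B {K : Type*} [Field K] (y : LaurentSeries K)
    (hy : IsAlgebraic K y) : y ∈ (algebraMap K (LaurentSeries K)).range := by
  refine ⟨y.coeff 0, ?_⟩
  by_contra hne
  have hy' : IsAlgebraic K (y - algebraMap K (LaurentSeries K) (y.coeff 0)) :=
    hy.sub (isAlgebraic_algebraMap _)
  have h0 : y - algebraMap K (LaurentSeries K) (y.coeff 0) ≠ 0 := sub_ne_zero.mpr (Ne.symm hne)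
  have hord := s34rootB_order_eq_zero _ hy' h0
  have hc : (y - algebraMap K (LaurentSeries K) (y.coeff 0)).coeff
      (y - algebraMap K (LaurentSeries K) (y.coeff 0)).order ≠ 0 :=
    fun h => h0 (HahnSeries.coeff_order_eq_zero.mp h)
  rw [hord, HahnSeries.coeff_sub, algebraMap_laurentSeries_eq_single,
    HahnSeries.coeff_single_same, sub_self] at hc
  exact hc rfl

end Fermat.Agent.S34
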