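import Fermat.Agent.S34.KummerEngine
import Fermat.Agent.S34.RootField

/-!
# P19 (S34), block GAL, ROOT-D: the Kummer engine with the root in an ambient field

`s34_kummer_engine_ambient`: the Kummer engine `s34_kummer_engine` (ABS-1′) for a function field
`F = ↥E`, `E` an intermediate field of `Ω / K`, where `K` is algebraically closed in `Ω` (for
instance `Ω = K((q))`) and the `m`-th root `W` of `z` is given in `Ω`: then `z` is an `m`-th
power in `E`.  The auxiliary field of the engine is `E(W) ⊆ Ω`.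
-/

set_option autoImplicit false
set_option linter.style.haveILetI false

open Fermat.Agent.S18 Polynomial IntermediateField

namespace Fermat.Agent.S34

theorem s34_kummer_engine_ambient
    {Λ K Ω : Type*} [CommRing Λ] [IsDomain Λ] [IsDiscreteValuationRing Λ]
    [Field K] [CharZero K] [Algebra Λ K] [IsFractionRing Λ K]
    [Field Ω] [Algebra K Ω]
    (hΩ : ∀ y : Ω, IsAlgebraic K y → y ∈ (algebraMap K Ω).range)
    (E : IntermediateField K Ω) [Algebra Λ ↥E] [IsScalarTower Λ K ↥E]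
    (π : Λ) (hπ : Irreducible π) (j : ↥E) (hj : Transcendental K j)
    [FiniteDimensional K⟮j⟯ ↥E]
    (m : ℕ) (hm : IsUnit (m : Λ)) (ζ : Λ) (hζ : IsPrimitiveRoot ζ m)
    (z : ↥E) (W : Ω) (hW : W ^ m = (z : Ω))
    (hz : IsIntegral (gaussSub π hπ.prime j) z) (hz' : IsIntegral (gaussSub π hπ.prime j) z⁻¹)
    (hz1 : ∃ δ : ↥E, IsIntegral (gaussSub π hπ.prime j) δ ∧ z - 1 = π • δ)
    (hfin : ∀ 𝔪 : Ideal ↥(integralClosure (Algebra.adjoin Λ {j}) ↥E), 𝔪.IsMaximal →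
      algebraMap Λ ↥(integralClosure (Algebra.adjoin Λ {j}) ↥E) π ∈ 𝔪 →
      ∃ g : ↥E, g ≠ 0 ∧ IsIntegral (gaussSub π hπ.prime j) g⁻¹ ∧
        (∃ δ : ↥E, IsIntegral (gaussSub π hπ.prime j) δ ∧ g - 1 = π • δ) ∧
        ∃ c : ↥(integralClosure (Algebra.adjoin Λ {j}) ↥E), c ∉ 𝔪 ∧
          IsIntegral (Algebra.adjoin Λ {j}) ((c : ↥E) * z * (g ^ m)⁻¹))
    (hinf : ∀ 𝔪 : Ideal ↥(integralClosure (Algebra.adjoin Λ {j⁻¹}) ↥E), 𝔪.IsMaximal →
      algebraMap Λ ↥(integralClosure (Algebra.adjoin Λ {j⁻¹}) ↥E) π ∈ 𝔪 →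
      ∃ g : ↥E, g ≠ 0 ∧ IsIntegral (gaussSub π hπ.prime j) g⁻¹ ∧
        (∃ δ : ↥E, IsIntegral (gaussSub π hπ.prime j) δ ∧ g - 1 = π • δ) ∧
        ∃ c : ↥(integralClosure (Algebra.adjoin Λ {j⁻¹}) ↥E), c ∉ 𝔪 ∧
          IsIntegral (Algebra.adjoin Λ {j⁻¹}) ((c : ↥E) * z * (g ^ m)⁻¹)) :
    ∃ y : ↥E, y ^ m = z := by
  have hm0 : 0 < m := by
    rcases Nat.eq_zero_or_pos m with rfl | h
    · rw [Nat.cast_zero] at hm
      exact absurd hm not_isUnit_zero
    · exact h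
  letI : Algebra Λ ↥(s34rootField E W) :=
    ((algebraMap K ↥(s34rootField E W)).comp (algebraMap Λ K)).toAlgebra
  haveI : IsScalarTower Λ K ↥(s34rootField E W) := IsScalarTower.of_algebraMap_eq fun _ => rfl
  letI : Algebra ↥E ↥(s34rootField E W) := (s34rootIncl E W).toRingHom.toAlgebra
  haveI : IsScalarTower K ↥E ↥(s34rootField E W) :=
    IsScalarTower.of_algebraMap_eq fun c => ((s34rootIncl E W).commutes c).symm
  haveI : IsScalarTower Λ ↥E ↥(s34rootField E W) := IsScalarTower.of_algebraMap_eq fun a => by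
    show algebraMap K ↥(s34rootField E W) (algebraMap Λ K a) =
      s34rootIncl E W (algebraMap Λ ↥E a)
    rw [IsScalarTower.algebraMap_apply Λ K ↥E, AlgHom.commutes]
  haveI : FiniteDimensional ↥(K⟮algebraMap ↥E ↥(s34rootField E W) j⟯) ↥(s34rootField E W) :=
    s34root_finiteDimensional E W j hm0 z hW
  obtain ⟨y, hy⟩ := s34_kummer_engine (𝔽 := ↥(s34rootField E W)) π hπ j hj
    (s34root_closed hΩ (s34rootField E W)) m hm ζ hζ z ⟨W, s34root_mem E W⟩
    (Subtype.ext hW) hz hz' hz1 hfin hinf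
  refine ⟨y, Subtype.ext ?_⟩
  have h1 : ((y : ↥E) : Ω) = W := congrArg Subtype.val hy
  rw [← hW, ← h1]
  rfl

end Fermat.Agent.S34
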