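/-
P19 (S34), block GAL, leaf ROOT-A (second team): two elementary facts on power series and
Laurent series used for extracting `m`-th roots of Laurent series with coefficients in a
field of characteristic zero.

* `s34root_exists_pow_B`: a power series with constant coefficient `1` over a field of
  characteristic zero has an `m`-th root with constant coefficient `1` (Hensel's lemma in the
  `X`-adically complete ring `K⟦X⟧`).
* `s34root_leadingCoeff_div_B`: dividing a nonzero Laurent series by its leading coefficient
  produces a Laurent series with leading coefficient `1`.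
-/
import Mathlib
import Fermat.Prelude.Def_ModularCurve_LaurentCoeff

set_option autoImplicit false

namespace Fermat.Agent.S34

open ModularCurve

/-- The polynomial `T ^ m - p` over `K⟦X⟧` is monic when `m ≠ 0`. -/
theorem s34rootB_monic {K : Type*} [Field K] {m : ℕ} (hm : m ≠ 0) (p : PowerSeries K) :
    (Polynomial.X ^ m - Polynomial.C p : Polynomial (PowerSeries K)).Monic :=
  Polynomial.monic_X_pow_sub_C p hm

/-- Membership in the ideal `(X)` of `K⟦X⟧` is vanishing of the constant coefficient. -/
theorem s34rootB_mem_span_X_iff {K : Type*} [Field K] (f : PowerSeries K) :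
    f ∈ (Ideal.span {PowerSeries.X} : Ideal (PowerSeries K)) ↔
      PowerSeries.constantCoeff f = 0 := by
  rw [Ideal.mem_span_singleton, PowerSeries.X_dvd_iff]

/-- A nonzero natural number is a unit in `K⟦X⟧` when `K` has characteristic zero. -/
theorem s34rootB_isUnit_natCast {K : Type*} [Field K] [CharZero K] {m : ℕ} (hm : m ≠ 0) :
    IsUnit ((m : PowerSeries K)) := by
  rw [PowerSeries.isUnit_iff_constantCoeff, map_natCast]
  exact (Nat.cast_ne_zero.mpr hm : (m : K) ≠ 0).isUnit

/-- The derivative of `T ^ m - p` evaluated at `1` is `m`. -/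
theorem s34rootB_derivative_eval_one {K : Type*} [Field K] (m : ℕ) (p : PowerSeries K) :
    (Polynomial.derivative
        (Polynomial.X ^ m - Polynomial.C p : Polynomial (PowerSeries K))).eval 1 =
      (m : PowerSeries K) := by
  rw [Polynomial.derivative_sub, Polynomial.derivative_C, sub_zero, Polynomial.derivative_X_pow,
    Polynomial.eval_mul, Polynomial.eval_pow, Polynomial.eval_X, one_pow, mul_one,
    Polynomial.eval_C]

theorem s34root_exists_pow_B {K : Type*} [Field K] [CharZero K] {m : ℕ} (hm : m ≠ 0)
    (p : PowerSeries K) (hp : PowerSeries.constantCoeff p = 1) :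
    ∃ w : PowerSeries K, w ^ m = p ∧ PowerSeries.constantCoeff w = 1 := by
  have hH : HenselianRing (PowerSeries K) (Ideal.span {PowerSeries.X}) := inferInstance
  have h1 : (Polynomial.X ^ m - Polynomial.C p : Polynomial (PowerSeries K)).eval 1 ∈
      (Ideal.span {PowerSeries.X} : Ideal (PowerSeries K)) := by
    rw [s34rootB_mem_span_X_iff]
    simp only [Polynomial.eval_sub, Polynomial.eval_pow, Polynomial.eval_X, Polynomial.eval_C,
      one_pow, map_sub, map_one, hp, sub_self]
  have h2 : IsUnit (Ideal.Quotient.mk (Ideal.span {PowerSeries.X} : Ideal (PowerSeries K))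
      ((Polynomial.derivative
        (Polynomial.X ^ m - Polynomial.C p : Polynomial (PowerSeries K))).eval 1)) := by
    rw [s34rootB_derivative_eval_one]
    exact (s34rootB_isUnit_natCast hm).map _
  obtain ⟨a, ha, ha1⟩ := hH.is_henselian _ (s34rootB_monic hm p) 1 h1 h2
  refine ⟨a, ?_, ?_⟩
  · have h3 : (Polynomial.X ^ m - Polynomial.C p : Polynomial (PowerSeries K)).eval a = 0 := ha
    simp only [Polynomial.eval_sub, Polynomial.eval_pow, Polynomial.eval_X,
      Polynomial.eval_C] at h3
    exact sub_eq_zero.mp h3
  · rw [s34rootB_mem_span_X_iff, map_sub, map_one] at ha1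
    exact sub_eq_zero.mp ha1

theorem s34root_leadingCoeff_div_B {K : Type*} [Field K] (u : LaurentSeries K) (hu : u ≠ 0) :
    (u * (HahnSeries.C (u.leadingCoeff))⁻¹).leadingCoeff = 1 := by
  have hc : u.leadingCoeff ≠ 0 := HahnSeries.leadingCoeff_ne_zero.mpr hu
  have hinv : ((HahnSeries.C (u.leadingCoeff) : LaurentSeries K))⁻¹ =
      HahnSeries.C (u.leadingCoeff)⁻¹ := (map_inv₀ HahnSeries.C _).symm
  rw [hinv, HahnSeries.leadingCoeff_mul, HahnSeries.C_apply, HahnSeries.leadingCoeff_of_single]
  exact mul_inv_cancel₀ hc

end Fermat.Agent.S34
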