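import Mathlib
import Fermat.Prelude.Def_ModularCurve_LaurentCoeff

/-!
# P19 (S34), block GAL, leaf ROOT-A (second team): the core of `s34root_exists_pow_sd`

Let `u` be a Laurent series over a field `K` with leading coefficient `1`, and let `σ`, `σ'` be
ring endomorphisms of `K` acting on coefficients (`ModularCurve.coeffMap`).  Then
`sd(u) = σ'(σ u) · u / (σ' u · σ u)` is (the image of) a power series with constant coefficient
`1`; hence it has an `m`-th root as soon as every such power series has one
(`s34root_exists_pow_sd_core_B`, with the root lemma as a hypothesis).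
-/

set_option autoImplicit false

namespace Fermat.Agent.S34

open ModularCurve

/-- `coeffMap` commutes with the inclusion of power series into Laurent series. -/
theorem s34rootB_coeffMap_ofPowerSeries {R S : Type*} [CommRing R] [CommRing S] (f : R →+* S)
    (p : PowerSeries R) :
    coeffMap f (HahnSeries.ofPowerSeries ℤ R p) =
      HahnSeries.ofPowerSeries ℤ S (PowerSeries.map f p) := by
  ext i
  rw [coeffMap_coeff, PowerSeries.coeff_coe, PowerSeries.coeff_coe]
  split_ifs with h
  · exact map_zero f
  · rw [PowerSeries.coeff_map]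

/-- The constant coefficient of `PowerSeries.map f p`. -/
theorem s34rootB_constantCoeff_map {R S : Type*} [CommRing R] [CommRing S] (f : R →+* S)
    (p : PowerSeries R) (hp : PowerSeries.constantCoeff p = 1) :
    PowerSeries.constantCoeff (PowerSeries.map f p) = 1 := by
  rw [← PowerSeries.coeff_zero_eq_constantCoeff_apply, PowerSeries.coeff_map,
    PowerSeries.coeff_zero_eq_constantCoeff_apply, hp, map_one]

/-- A Laurent series with leading coefficient `1` is a power of the variable times a power
series with constant coefficient `1`. -/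
theorem s34rootB_decomp {K : Type*} [Field K] (u : LaurentSeries K) (hu : u.leadingCoeff = 1) :
    ∃ (n : ℤ) (p : PowerSeries K), PowerSeries.constantCoeff p = 1 ∧
      u = HahnSeries.single n 1 * HahnSeries.ofPowerSeries ℤ K p := by
  refine ⟨u.order, u.powerSeriesPart, ?_, (LaurentSeries.single_order_mul_powerSeriesPart u).symm⟩
  rw [← PowerSeries.coeff_zero_eq_constantCoeff_apply, LaurentSeries.powerSeriesPart_coeff,
    Nat.cast_zero, add_zero, ← HahnSeries.leadingCoeff_eq, hu]

/-- The action of `coeffMap` on a decomposed Laurent series. -/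
theorem s34rootB_coeffMap_decomp {K : Type*} [Field K] (σ : K →+* K) (n : ℤ)
    (p : PowerSeries K) :
    coeffMap σ (HahnSeries.single n 1 * HahnSeries.ofPowerSeries ℤ K p) =
      HahnSeries.single n 1 * HahnSeries.ofPowerSeries ℤ K (PowerSeries.map σ p) := by
  rw [map_mul, coeffMap_single, map_one, s34rootB_coeffMap_ofPowerSeries]

/-- The purely algebraic identity behind `s34root_exists_pow_sd_core_B`. -/
theorem s34rootB_sd_eq {K : Type*} [Field K] (s : LaurentSeries K) (hs : s ≠ 0)
    (P1 P0 P2 P3 : PowerSeries K) (hQ : PowerSeries.constantCoeff (P2 * P3) = 1) :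
    HahnSeries.ofPowerSeries ℤ K (P1 * P0 * (P2 * P3)⁻¹) =
      (s * HahnSeries.ofPowerSeries ℤ K P1) * (s * HahnSeries.ofPowerSeries ℤ K P0) /
        ((s * HahnSeries.ofPowerSeries ℤ K P2) * (s * HahnSeries.ofPowerSeries ℤ K P3)) := by
  have hinv : (HahnSeries.ofPowerSeries ℤ K (P2 * P3))⁻¹ =
      HahnSeries.ofPowerSeries ℤ K (P2 * P3)⁻¹ := by
    apply inv_eq_of_mul_eq_one_right
    rw [← map_mul, PowerSeries.mul_inv_cancel _ (by rw [hQ]; exact one_ne_zero), map_one]
  rw [mul_mul_mul_comm s _ s _, mul_mul_mul_comm s _ s _,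
    mul_div_mul_left _ _ (mul_ne_zero hs hs), div_eq_mul_inv,
    ← map_mul (HahnSeries.ofPowerSeries ℤ K) P2 P3, hinv, map_mul, map_mul]

/-- **Core of ROOT-A**: if every power series over `K` with constant coefficient `1` has an
`m`-th root (with constant coefficient `1`), then for every Laurent series `u` with leading
coefficient `1` the series `σ'(σ u) · u / (σ' u · σ u)` has an `m`-th root. -/
theorem s34root_exists_pow_sd_core_B {K : Type*} [Field K] (σ σ' : K →+* K) {m : ℕ}
    (hroot : ∀ p : PowerSeries K, PowerSeries.constantCoeff p = 1 →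
      ∃ w : PowerSeries K, w ^ m = p ∧ PowerSeries.constantCoeff w = 1)
    (u : LaurentSeries K) (hu : u.leadingCoeff = 1) :
    ∃ w : LaurentSeries K,
      w ^ m = coeffMap σ' (coeffMap σ u) * u / (coeffMap σ' u * coeffMap σ u) := by
  obtain ⟨n, p, hp, rfl⟩ := s34rootB_decomp u hu
  have hs0 : (HahnSeries.single n 1 : LaurentSeries K) ≠ 0 :=
    HahnSeries.single_ne_zero one_ne_zero
  have h1 : PowerSeries.constantCoeff (PowerSeries.map σ' (PowerSeries.map σ p)) = 1 :=
    s34rootB_constantCoeff_map σ' _ (s34rootB_constantCoeff_map σ p hp)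
  have h2 : PowerSeries.constantCoeff (PowerSeries.map σ' p) = 1 :=
    s34rootB_constantCoeff_map σ' p hp
  have h3 : PowerSeries.constantCoeff (PowerSeries.map σ p) = 1 :=
    s34rootB_constantCoeff_map σ p hp
  have hQ : PowerSeries.constantCoeff (PowerSeries.map σ' p * PowerSeries.map σ p) = 1 := by
    rw [map_mul, h2, h3, mul_one]
  have hP : PowerSeries.constantCoeff (PowerSeries.map σ' (PowerSeries.map σ p) * p *
      (PowerSeries.map σ' p * PowerSeries.map σ p)⁻¹) = 1 := by
    rw [map_mul, map_mul, PowerSeries.constantCoeff_inv, hQ, h1, hp, inv_one, mul_one, mul_one]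
  obtain ⟨w₀, hw₀, -⟩ := hroot _ hP
  refine ⟨HahnSeries.ofPowerSeries ℤ K w₀, ?_⟩
  rw [← map_pow, hw₀, s34rootB_coeffMap_decomp σ n p, s34rootB_coeffMap_decomp σ' n p,
    s34rootB_coeffMap_decomp σ' n (PowerSeries.map σ p)]
  exact s34rootB_sd_eq _ hs0 _ _ _ _ hQ

end Fermat.Agent.S34
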