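import Mathlib
import Fermat.Prelude.Def_ModularCurve_LaurentCoeff
import Fermat.Agent.S34.RootSdB1
import Fermat.Agent.S34.RootSdB2

/-!
# P19 (S34), block GAL, leaf ROOT-A (second team): `s34root_exists_pow_sd_B`

For a Laurent series `u` with leading coefficient `1` over a field `K` of characteristic zero and
ring endomorphisms `σ`, `σ'` of `K`, the series `σ'(σ u) · u / (σ' u · σ u)` has an `m`-th root
in `K((X))` (`m ≠ 0`).  Wrapper of `s34root_exists_pow_sd_core_B` (RootSdB2) and of the Hensel
root lemma `s34root_exists_pow_B` (RootSdB1).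
-/

set_option autoImplicit false

namespace Fermat.Agent.S34

open ModularCurve

theorem s34root_exists_pow_sd_B {K : Type*} [Field K] [CharZero K] (σ σ' : K →+* K)
    {m : ℕ} (hm : m ≠ 0) (u : LaurentSeries K) (hu : u.leadingCoeff = 1) :
    ∃ w : LaurentSeries K,
      w ^ m = coeffMap σ' (coeffMap σ u) * u / (coeffMap σ' u * coeffMap σ u) :=
  s34root_exists_pow_sd_core_B σ σ' (fun p hp => s34root_exists_pow_B hm p hp) u hu

end Fermat.Agent.S34
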