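import Mathlib
import Fermat.Agent.S34.ModelDefs
import Fermat.Agent.S34.SlocDefs

/-!
P19 (S34), block INST-INF, leaf SC (second team): descent of the smooth-or-cross disjunction
from the semilocal ring `s34Sloc Λ u` to the chart ring `integralClosure (Λ[u]) F`.
-/

set_option autoImplicit false

namespace Fermat.Agent.S34

open Polynomial

section Abstract

variable {Λ F : Type*} [CommRing Λ] [Field F] [Algebra Λ F]

theorem s34sdb_coe_algebraMap (u : F) (c : Λ) :
    ((algebraMap Λ ↥(integralClosure (Algebra.adjoin Λ {u}) F) c :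
      ↥(integralClosure (Algebra.adjoin Λ {u}) F)) : F) = algebraMap Λ F c := rfl

theorem s34sdb_coe_aeval (u : F) (hu : IsIntegral (Algebra.adjoin Λ {u}) u) (a : Λ[X]) :
    ((aeval (⟨u, hu⟩ : ↥(integralClosure (Algebra.adjoin Λ {u}) F)) a :
      ↥(integralClosure (Algebra.adjoin Λ {u}) F)) : F) = aeval u a := by
  have h := Polynomial.aeval_algHom_apply
    ((integralClosure (Algebra.adjoin Λ {u}) F).val.restrictScalars Λ) ⟨u, hu⟩ a
  exact h.symm

/-- polynomials in `u` with constant coefficient `1` are units at the point. -/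
theorem s34sdb_unit (π : Λ) (hloc : ∀ c : Λ, π ∣ c - 1 → IsUnit c) (u : F)
    (φ : ↥(integralClosure (Algebra.adjoin Λ {u}) F) →ₐ[Λ] Λ)
    (hu : ∀ a : ↥(integralClosure (Algebra.adjoin Λ {u}) F), (a : F) = u → π ∣ φ a)
    (a : Λ[X]) (ha : a.coeff 0 = 1) :
    ∃ e : ↥(integralClosure (Algebra.adjoin Λ {u}) F), (e : F) = aeval u a ∧ IsUnit (φ e) := by
  have hint : IsIntegral (Algebra.adjoin Λ {u}) u :=
    isIntegral_algebraMap (R := Algebra.adjoin Λ {u})
      (x := ⟨u, Algebra.self_mem_adjoin_singleton Λ u⟩)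
  refine ⟨aeval (⟨u, hint⟩ : ↥(integralClosure (Algebra.adjoin Λ {u}) F)) a,
    s34sdb_coe_aeval u hint a, ?_⟩
  apply hloc
  rw [← Polynomial.aeval_algHom_apply, Polynomial.coe_aeval_eq_eval, ← ha,
    Polynomial.coeff_zero_eq_eval_zero]
  have h1 := Polynomial.sub_dvd_eval_sub (φ ⟨u, hint⟩) 0 a
  rw [sub_zero] at h1
  exact dvd_trans (hu ⟨u, hint⟩ rfl) h1

/-- every element of the semilocal ring has a denominator which is a unit at the point. -/
theorem s34sdb_den (π : Λ) (hloc : ∀ c : Λ, π ∣ c - 1 → IsUnit c) (u : F)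
    (φ : ↥(integralClosure (Algebra.adjoin Λ {u}) F) →ₐ[Λ] Λ)
    (hu : ∀ a : ↥(integralClosure (Algebra.adjoin Λ {u}) F), (a : F) = u → π ∣ φ a)
    (ψ : ↥(s34Sloc Λ u) →+* Λ)
    (hψ : ∀ b : ↥(integralClosure (Algebra.adjoin Λ {u}) F),
        ψ ⟨(b : F), mem_s34Sloc_of_isIntegral b.2⟩ = φ b)
    (s : ↥(s34Sloc Λ u)) :
    ∃ e b₀ : ↥(integralClosure (Algebra.adjoin Λ {u}) F),
      IsUnit (φ e) ∧ (e : F) * (s : F) = (b₀ : F) ∧ φ b₀ = φ e * ψ s := by
  obtain ⟨a, ha, hint⟩ := s.2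
  obtain ⟨e, he, heu⟩ := s34sdb_unit π hloc u φ hu a ha
  refine ⟨e, ⟨aeval u a * s, hint⟩, heu, by rw [he], ?_⟩
  rw [← hψ, ← hψ e, ← map_mul]
  congr 1
  exact Subtype.ext (by simp [he])

theorem s34Sloc_descent_B (π : Λ) (hloc : ∀ c : Λ, π ∣ c - 1 → IsUnit c) (u : F)
    (φ : ↥(integralClosure (Algebra.adjoin Λ {u}) F) →ₐ[Λ] Λ)
    (hu : ∀ a : ↥(integralClosure (Algebra.adjoin Λ {u}) F), (a : F) = u → π ∣ φ a)
    (ψ : ↥(s34Sloc Λ u) →+* Λ)
    (hψ : ∀ b : ↥(integralClosure (Algebra.adjoin Λ {u}) F),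
        ψ ⟨(b : F), mem_s34Sloc_of_isIntegral b.2⟩ = φ b)
    (πS : ↥(s34Sloc Λ u)) (hπS : (πS : F) = algebraMap Λ F π)
    (h : (∃ t : ↥(s34Sloc Λ u),
        ModelLocGen (Ideal.span {πS}) (Ideal.comap ψ (Ideal.span {π})) t) ∨
      (∃ x y : ↥(s34Sloc Λ u), ψ x ∈ Ideal.span {π} ∧ ψ y ∈ Ideal.span {π} ∧
        x * y ∈ Ideal.span {πS} ∧
        ∀ z : ↥(s34Sloc Λ u), ψ z ∈ Ideal.span {π} → ∃ b : ↥(s34Sloc Λ u),
          ψ b ∉ Ideal.span {π} ∧ b * z ∈ Ideal.span {πS, x, y})) :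
    (∃ t : ↥(integralClosure (Algebra.adjoin Λ {u}) F),
      ModelLocGen (Ideal.span {algebraMap Λ ↥(integralClosure (Algebra.adjoin Λ {u}) F) π})
        (Ideal.comap (φ : ↥(integralClosure (Algebra.adjoin Λ {u}) F) →+* Λ)
          (Ideal.span {π})) t) ∨
    (∃ x y G : ↥(integralClosure (Algebra.adjoin Λ {u}) F),
      x * y = algebraMap Λ ↥(integralClosure (Algebra.adjoin Λ {u}) F) π * G ∧
      π ∣ φ x ∧ π ∣ φ y ∧
      ∀ z : ↥(integralClosure (Algebra.adjoin Λ {u}) F), π ∣ φ z →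
        ∃ a : ↥(integralClosure (Algebra.adjoin Λ {u}) F), ¬ π ∣ φ a ∧
          a * z ∈ Ideal.span
            {algebraMap Λ ↥(integralClosure (Algebra.adjoin Λ {u}) F) π, x, y}) := by
  have den := s34sdb_den π hloc u φ hu ψ hψ
  rcases h with ⟨t, ht⟩ | ⟨x, y, hx, hy, hxy, hgen⟩
  · left
    obtain ⟨et, t₀, hetu, het, hφt⟩ := den t
    refine ⟨t₀, modelLocGen_of_exists_eq ?_ ?_⟩
    · rw [Ideal.mem_comap]
      change φ t₀ ∈ _
      rw [hφt]
      exact Ideal.mul_mem_left _ _ ht.1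
    · intro z hz
      have hz' : (⟨(z : F), mem_s34Sloc_of_isIntegral z.2⟩ : ↥(s34Sloc Λ u)) ∈
          Ideal.comap ψ (Ideal.span {π}) := by
        rw [Ideal.mem_comap, hψ]
        exact hz
      obtain ⟨b, c, d, hb, hc, hbz⟩ := ht.exists_eq hz'
      obtain ⟨c', rfl⟩ := Ideal.mem_span_singleton'.mp hc
      obtain ⟨eb, b₀, hebu, heb, hφb⟩ := den b
      obtain ⟨ec, c₀, hecu, hec, hφc⟩ := den c'
      obtain ⟨ed, d₀, hedu, hed, hφd⟩ := den d
      have hF : (b : F) * (z : F) = (c' : F) * algebraMap Λ F π + (t : F) * (d : F) := by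
        have h1 := congrArg Subtype.val hbz
        simpa [hπS] using h1
      refine ⟨ec * ed * et * b₀, algebraMap Λ _ π * (eb * ed * et * c₀), eb * ec * d₀,
        ?_, ?_, ?_⟩
      · intro hmem
        rw [Ideal.mem_comap] at hmem
        change φ (ec * ed * et * b₀) ∈ _ at hmem
        rw [map_mul, map_mul, map_mul, hφb, ← mul_assoc] at hmem
        apply hb
        rw [Ideal.mem_comap]
        have hunit : IsUnit (φ ec * φ ed * φ et * φ eb) := ((hecu.mul hedu).mul hetu).mul hebu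
        exact (Ideal.unit_mul_mem_iff_mem _ hunit).mp hmem
      · exact Ideal.mul_mem_right _ _ (Ideal.subset_span rfl)
      · apply Subtype.ext
        simp only [MulMemClass.coe_mul, AddMemClass.coe_add, s34sdb_coe_algebraMap]
        rw [← heb, ← hec, ← hed, ← het]
        linear_combination (eb : F) * ec * ed * et * hF
  · right
    obtain ⟨g, hg⟩ := Ideal.mem_span_singleton'.mp hxy
    obtain ⟨ex, x₁, hexu, hex, hφx⟩ := den x
    obtain ⟨ey, y₁, heyu, hey, hφy⟩ := den y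
    obtain ⟨eg, g₁, hegu, heg, hφg⟩ := den g
    have hgF : (g : F) * algebraMap Λ F π = (x : F) * (y : F) := by
      have h1 := congrArg Subtype.val hg
      simpa [hπS] using h1
    refine ⟨eg * x₁, y₁, ex * ey * g₁, ?_, ?_, ?_, ?_⟩
    · apply Subtype.ext
      simp only [MulMemClass.coe_mul, s34sdb_coe_algebraMap]
      rw [← hex, ← hey, ← heg]
      linear_combination (-(ex : F) * ey * eg) * hgF
    · rw [map_mul, hφx]
      exact Dvd.dvd.mul_left (Dvd.dvd.mul_left (Ideal.mem_span_singleton.mp hx) _) _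
    · rw [hφy]
      exact Dvd.dvd.mul_left (Ideal.mem_span_singleton.mp hy) _
    · intro z hz
      have hz' : ψ ⟨(z : F), mem_s34Sloc_of_isIntegral z.2⟩ ∈ Ideal.span {π} := by
        rw [hψ]
        exact Ideal.mem_span_singleton.mpr hz
      obtain ⟨b, hb, hbz⟩ := hgen _ hz'
      obtain ⟨c₁, w, hw, hbz1⟩ := Ideal.mem_span_insert.mp hbz
      obtain ⟨c₂, c₃, rfl⟩ := Ideal.mem_span_pair.mp hw
      obtain ⟨eb, b₀, hebu, heb, hφb⟩ := den b
      obtain ⟨e1, d₁, he1u, he1, -⟩ := den c₁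
      obtain ⟨e2, d₂, he2u, he2, -⟩ := den c₂
      obtain ⟨e3, d₃, he3u, he3, -⟩ := den c₃
      have hF : (b : F) * (z : F) = (c₁ : F) * algebraMap Λ F π +
          ((c₂ : F) * (x : F) + (c₃ : F) * (y : F)) := by
        have h1 := congrArg Subtype.val hbz1
        simpa [hπS] using h1
      refine ⟨e1 * e2 * e3 * ex * eg * ey * b₀, ?_, ?_⟩
      · intro hdvd
        rw [map_mul, hφb, ← mul_assoc] at hdvd
        apply hb
        rw [Ideal.mem_span_singleton]
        have hunit : IsUnit (φ (e1 * e2 * e3 * ex * eg * ey) * φ eb) := by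
          rw [map_mul, map_mul, map_mul, map_mul, map_mul]
          exact ((((((he1u.mul he2u).mul he3u).mul hexu).mul hegu).mul heyu)).mul hebu
        exact (hunit.dvd_mul_left).mp hdvd
      · rw [Ideal.mem_span_insert]
        refine ⟨eb * e2 * e3 * ex * eg * ey * d₁, _,
          Ideal.mem_span_pair.mpr ⟨eb * e1 * e3 * ey * d₂, eb * e1 * e2 * ex * eg * d₃, rfl⟩,
          ?_⟩
        apply Subtype.ext
        simp only [MulMemClass.coe_mul, AddMemClass.coe_add, s34sdb_coe_algebraMap]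
        rw [← heb, ← he1, ← he2, ← he3, ← hex, ← hey]
        linear_combination (eb : F) * e1 * e2 * e3 * ex * eg * ey * hF

end Abstract

end Fermat.Agent.S34
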