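import Mathlib

/-!
# P19 (S34), abstract leaf: the vertical primes by counting ("Lemma K for several components")

`V` a discrete valuation ring with uniformiser `π` and fraction field `K₁` (in the application the
Gauss valuation ring of `K(x)`), `𝔽 / K₁` finite separable, `S` the integral closure of `V` in
`𝔽`.  Let `O i` (`i : ι`, finite) be valuation subrings of `𝔽` containing `V` in which `π` is not a
unit.  Assume

* (separation) for `i ≠ j` an element integral over `V` which is a non-unit of `O i` and a unit of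
  `O j`;
* (residue degrees) for every `i` a family `a i : Fin (f i) → 𝔽` of elements integral over `V`
  which is linearly independent modulo the maximal ideal of `O i` over `V / π`;
* (count) `[𝔽 : K₁] ≤ ∑ i, f i`.

Then (`s34vp_main`)

1. an element of `S` lying in all the maximal ideals of the `O i` is in `π S`
   (so `π S = ⋂ 𝔓 i`, all `e = 1`, and the `f i` are the residue degrees, inseparable or not);
2. `S = ⋂ O i` (there is no further extension of the valuation of `V`).

The proof is a dimension count in `S / π S` (no Dedekind theory, no completion).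
-/

set_option autoImplicit false

namespace Fermat.Agent.S34

open Module

section

variable {V K₁ 𝔽 : Type*} [CommRing V] [IsDomain V] [IsDiscreteValuationRing V]
  [Field K₁] [Algebra V K₁] [IsFractionRing V K₁]
  [Field 𝔽] [Algebra K₁ 𝔽] [Algebra V 𝔽] [IsScalarTower V K₁ 𝔽]

/-- An element integral over `V` lies in every valuation subring containing the image of `V`. -/
theorem s34vp_mem_of_isIntegral {V 𝔽 : Type*} [CommRing V] [Field 𝔽] [Algebra V 𝔽]
    (O : ValuationSubring 𝔽) (hV : ∀ v : V, algebraMap V 𝔽 v ∈ O)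
    {z : 𝔽} (hz : IsIntegral V z) : z ∈ O := by
  have h1 : IsIntegral O z := by
    have := hz.map_of_comp_eq (RingHom.codRestrict (algebraMap V 𝔽) O hV) (RingHom.id 𝔽)
      (by ext; rfl)
    simpa using this
  obtain ⟨y, rfl⟩ := IsIntegrallyClosed.isIntegral_iff.mp h1
  exact y.2

theorem s34vp_valuation_le_one {V 𝔽 : Type*} [CommRing V] [Field 𝔽] [Algebra V 𝔽]
    (O : ValuationSubring 𝔽) (hV : ∀ v : V, algebraMap V 𝔽 v ∈ O)
    {z : 𝔽} (hz : IsIntegral V z) : O.valuation z ≤ 1 :=
  (ValuationSubring.valuation_le_one_iff O z).mpr (s34vp_mem_of_isIntegral O hV hz)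

/-- **Vertical primes by counting.** -/
theorem s34vp_main [FiniteDimensional K₁ 𝔽] [Algebra.IsSeparable K₁ 𝔽]
    (π : V) (hπ : Irreducible π)
    {ι : Type*} [Fintype ι] (O : ι → ValuationSubring 𝔽)
    (hV : ∀ i, ∀ v : V, algebraMap V 𝔽 v ∈ O i)
    (hπO : ∀ i, (O i).valuation (algebraMap V 𝔽 π) < 1)
    (hsep : ∀ i j, i ≠ j →
      ∃ z : 𝔽, IsIntegral V z ∧ (O i).valuation z < 1 ∧ (O j).valuation z = 1)
    (f : ι → ℕ) (a : (i : ι) → Fin (f i) → 𝔽) (ha : ∀ i l, IsIntegral V (a i l))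
    (hind : ∀ i, ∀ c : Fin (f i) → V,
      (O i).valuation (∑ l, c l • a i l) < 1 → ∀ l, π ∣ c l)
    (hn : finrank K₁ 𝔽 ≤ ∑ i, f i) :
    (∀ z : 𝔽, IsIntegral V z → (∀ i, (O i).valuation z < 1) →
        ∃ δ : 𝔽, IsIntegral V δ ∧ z = π • δ) ∧
      (∀ z : 𝔽, (∀ i, z ∈ O i) → IsIntegral V z) := by
  classical
  have hle : ∀ i {z : 𝔽}, IsIntegral V z → (O i).valuation z ≤ 1 := fun i _ hz =>
    s34vp_valuation_le_one (O i) (hV i) hz
  have hVint : ∀ v : V, IsIntegral V (algebraMap V 𝔽 v) := fun v => isIntegral_algebraMap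
  have hsmul_int : ∀ (v : V) {z : 𝔽}, IsIntegral V z → IsIntegral V (v • z) := fun v z hz => by
    rw [Algebra.smul_def]; exact (hVint v).mul hz
  -- the separating elements
  choose! zsep hzsep using hsep
  let t : ι → 𝔽 := fun j => ∏ i ∈ Finset.univ.erase j, zsep i j
  have ht_int : ∀ j, IsIntegral V (t j) := fun j =>
    IsIntegral.prod _ fun i hi => (hzsep i j (Finset.ne_of_mem_erase hi)).1
  have ht_unit : ∀ j, (O j).valuation (t j) = 1 := by
    intro j
    simp only [t, map_prod]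
    exact Finset.prod_eq_one fun i hi => (hzsep i j (Finset.ne_of_mem_erase hi)).2.2
  have ht_lt : ∀ i j, i ≠ j → (O i).valuation (t j) < 1 := by
    intro i j hij
    simp only [t]
    rw [← Finset.mul_prod_erase _ _ (Finset.mem_erase.mpr ⟨hij, Finset.mem_univ i⟩), map_mul]
    have h1 := (hzsep i j hij).2.1
    have h2 : (O i).valuation (∏ x ∈ (Finset.univ.erase j).erase i, zsep x j) ≤ 1 :=
      hle i (IsIntegral.prod _ fun x hx =>
        (hzsep x j (Finset.ne_of_mem_erase (Finset.mem_of_mem_erase hx))).1)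
    calc (O i).valuation (zsep i j) * (O i).valuation (∏ x ∈ (Finset.univ.erase j).erase i, zsep x j)
        ≤ (O i).valuation (zsep i j) * 1 := mul_le_mul' le_rfl h2
      _ < 1 := by rwa [mul_one]
  -- the family
  let g : (Σ i, Fin (f i)) → 𝔽 := fun x => t x.1 * a x.1 x.2
  have hg_int : ∀ x, IsIntegral V (g x) := fun x => (ht_int x.1).mul (ha x.1 x.2)
  have hkey : ∀ c : (Σ i, Fin (f i)) → V,
      (∀ j, (O j).valuation (∑ x, c x • g x) < 1) → ∀ x, π ∣ c x := by
    intro c hc x
    obtain ⟨j, l⟩ := x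
    have hsplit : ∑ x, c x • g x = ∑ i, t i * ∑ l, c ⟨i, l⟩ • a i l := by
      rw [Fintype.sum_sigma]
      refine Finset.sum_congr rfl fun i _ => ?_
      rw [Finset.mul_sum]
      refine Finset.sum_congr rfl fun l _ => ?_
      simp only [g, mul_smul_comm]
    have hAint : ∀ i, IsIntegral V (∑ l, c ⟨i, l⟩ • a i l) := fun i =>
      IsIntegral.sum _ fun l _ => hsmul_int _ (ha i l)
    have hj : (O j).valuation (t j * ∑ l, c ⟨j, l⟩ • a j l) < 1 := by
      have h3 : t j * ∑ l, c ⟨j, l⟩ • a j l = (∑ x, c x • g x) -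
          ∑ i ∈ Finset.univ.erase j, t i * ∑ l, c ⟨i, l⟩ • a i l := by
        rw [hsplit, ← Finset.add_sum_erase _ _ (Finset.mem_univ j)]
        ring
      rw [h3]
      refine Valuation.map_sub_lt _ (hc j) (Valuation.map_sum_lt _ one_ne_zero fun i hi => ?_)
      rw [map_mul]
      have h4 := ht_lt j i (Finset.ne_of_mem_erase hi).symm
      calc (O j).valuation (t i) * (O j).valuation (∑ l, c ⟨i, l⟩ • a i l)
          ≤ (O j).valuation (t i) * 1 := mul_le_mul' le_rfl (hle j (hAint i))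
        _ < 1 := by rwa [mul_one]
    rw [map_mul, ht_unit, one_mul] at hj
    exact hind j (fun l => c ⟨j, l⟩) hj l
  -- the integral closure
  set S := integralClosure V 𝔽 with hS
  have : Module.IsTorsionFree V 𝔽 := by
    have hinj : Function.Injective (algebraMap V 𝔽) := by
      rw [IsScalarTower.algebraMap_eq V K₁ 𝔽]
      exact (algebraMap K₁ 𝔽).injective.comp (IsFractionRing.injective V K₁)
    have : FaithfulSMul V 𝔽 := (faithfulSMul_iff_algebraMap_injective V 𝔽).mpr hinj
    infer_instance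
  have : Module.Finite V S := IsIntegralClosure.finite V K₁ 𝔽 S
  have : Module.Free V S := IsIntegralClosure.module_free V K₁ 𝔽 S
  have hrank : finrank V S = finrank K₁ 𝔽 := IsIntegralClosure.rank V K₁ 𝔽 S
  have hmax : IsLocalRing.maximalIdeal V = Ideal.span {π} :=
    (IsDiscreteValuationRing.irreducible_iff_uniformizer π).mp hπ
  set pS := Ideal.map (algebraMap V S) (IsLocalRing.maximalIdeal V) with hpS
  have hmem_pS : ∀ y : S, y ∈ pS ↔ ∃ s : S, y = π • s := by
    intro y
    rw [hpS, hmax, Ideal.map_span, Set.image_singleton, Ideal.mem_span_singleton']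
    constructor
    · rintro ⟨s, rfl⟩
      exact ⟨s, by rw [Algebra.smul_def, mul_comm]⟩
    · rintro ⟨s, rfl⟩
      exact ⟨s, by rw [Algebra.smul_def, mul_comm]⟩
  let _ : Field (V ⧸ IsLocalRing.maximalIdeal V) := Ideal.Quotient.field _
  have : Module.Finite (V ⧸ IsLocalRing.maximalIdeal V) (S ⧸ pS) :=
    Module.Finite.of_restrictScalars_finite V _ _
  have hfr : finrank (V ⧸ IsLocalRing.maximalIdeal V) (S ⧸ pS) = finrank K₁ 𝔽 := by
    rw [← hrank]
    exact IsLocalRing.finrank_quotient_map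
  let g' : (Σ i, Fin (f i)) → S := fun x => ⟨g x, hg_int x⟩
  have hsmul_mk : ∀ (c : V) (y : S),
      (Ideal.Quotient.mk (IsLocalRing.maximalIdeal V) c) • (Ideal.Quotient.mk pS y) =
        Ideal.Quotient.mk pS (c • y) := by
    intro c y
    rw [Algebra.smul_def, Ideal.Quotient.algebraMap_quotient_map_quotient, ← map_mul,
      ← Algebra.smul_def]
  have hsum_mk : ∀ (c : (Σ i, Fin (f i)) → V),
      ∑ x, (Ideal.Quotient.mk (IsLocalRing.maximalIdeal V) (c x)) • (Ideal.Quotient.mk pS (g' x)) =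
        Ideal.Quotient.mk pS (∑ x, c x • g' x) := by
    intro c
    rw [map_sum]
    exact Finset.sum_congr rfl fun x _ => hsmul_mk _ _
  have hcoe_sum : ∀ (c : (Σ i, Fin (f i)) → V), ((∑ x, c x • g' x : S) : 𝔽) = ∑ x, c x • g x := by
    intro c
    rw [← Subalgebra.coe_val, map_sum]
    rfl
  have hval_pi : ∀ j (s : S), (O j).valuation (π • (s : 𝔽)) < 1 := by
    intro j s
    rw [Algebra.smul_def, map_mul]
    calc (O j).valuation (algebraMap V 𝔽 π) * (O j).valuation (s : 𝔽)
        ≤ (O j).valuation (algebraMap V 𝔽 π) * 1 := mul_le_mul' le_rfl (hle j s.2)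
      _ < 1 := by rw [mul_one]; exact hπO j
  have hli : LinearIndependent (V ⧸ IsLocalRing.maximalIdeal V)
      (fun x => Ideal.Quotient.mk pS (g' x)) := by
    rw [Fintype.linearIndependent_iff]
    intro cbar hsum x
    choose c hc using fun x => Ideal.Quotient.mk_surjective (cbar x)
    have h1 : Ideal.Quotient.mk pS (∑ x, c x • g' x) = 0 := by
      rw [← hsum_mk, ← hsum]
      exact Finset.sum_congr rfl fun x _ => by rw [hc]
    rw [Ideal.Quotient.eq_zero_iff_mem, hmem_pS] at h1
    obtain ⟨s, hs⟩ := h1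
    have h2 : ∑ x, c x • g x = π • (s : 𝔽) := by
      rw [← hcoe_sum, hs]; rfl
    have h3 := hkey c (fun j => by rw [h2]; exact hval_pi j s) x
    rw [← hc x, Ideal.Quotient.eq_zero_iff_mem, hmax, Ideal.mem_span_singleton]
    exact h3
  have hcard : Fintype.card (Σ i, Fin (f i)) = finrank (V ⧸ IsLocalRing.maximalIdeal V) (S ⧸ pS) := by
    refine le_antisymm hli.fintype_card_le_finrank ?_
    rw [hfr, Fintype.card_sigma]
    simpa using hn
  have hspan := hli.span_eq_top_of_card_eq_finrank' hcard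
  -- (1)
  have hC2 : ∀ z : 𝔽, IsIntegral V z → (∀ i, (O i).valuation z < 1) →
      ∃ δ : 𝔽, IsIntegral V δ ∧ z = π • δ := by
    intro z hz hzv
    have h1 : Ideal.Quotient.mk pS (⟨z, hz⟩ : S) ∈
        Submodule.span (V ⧸ IsLocalRing.maximalIdeal V)
          (Set.range fun x => Ideal.Quotient.mk pS (g' x)) := by
      rw [hspan]; exact Submodule.mem_top
    rw [Submodule.mem_span_range_iff_exists_fun] at h1
    obtain ⟨cbar, hcbar⟩ := h1
    choose c hc using fun x => Ideal.Quotient.mk_surjective (cbar x)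
    have h2 : Ideal.Quotient.mk pS (∑ x, c x • g' x) = Ideal.Quotient.mk pS (⟨z, hz⟩ : S) := by
      rw [← hsum_mk, ← hcbar]
      exact Finset.sum_congr rfl fun x _ => by rw [hc]
    rw [Ideal.Quotient.eq, hmem_pS] at h2
    obtain ⟨s, hs⟩ := h2
    have h3 : ∑ x, c x • g x = z + π • (s : 𝔽) := by
      have := congrArg (fun y : S => (y : 𝔽)) hs
      simp only [AddSubgroupClass.coe_sub] at this
      rw [hcoe_sum] at this
      rw [eq_add_of_sub_eq' this]
      simp
    have h4 := hkey c (fun j => by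
      rw [h3]
      exact Valuation.map_add_lt _ (hzv j) (hval_pi j s))
    choose d hd using h4
    refine ⟨∑ x, d x • g x - (s : 𝔽), (IsIntegral.sum _ fun x _ => hsmul_int _ (hg_int x)).sub s.2, ?_⟩
    rw [smul_sub, Finset.smul_sum, eq_sub_iff_add_eq, ← h3]
    refine Finset.sum_congr rfl fun x _ => ?_
    rw [hd x, mul_smul]
  refine ⟨hC2, ?_⟩
  -- (2)
  have hπ0 : algebraMap V 𝔽 π ≠ 0 := by
    intro h0
    have hinj : Function.Injective (algebraMap V 𝔽) := by
      rw [IsScalarTower.algebraMap_eq V K₁ 𝔽]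
      exact (algebraMap K₁ 𝔽).injective.comp (IsFractionRing.injective V K₁)
    exact hπ.ne_zero (hinj (by rw [h0, map_zero]))
  have hstep : ∀ r : ℕ, ∀ z : 𝔽, (∀ i, z ∈ O i) → IsIntegral V (π ^ r • z) → IsIntegral V z := by
    intro r
    induction r with
    | zero => intro z _ h; simpa using h
    | succ r ih =>
      intro z hz h
      apply ih z hz
      have hy : ∀ i, π ^ r • z ∈ O i := fun i => by
        rw [Algebra.smul_def]
        exact mul_mem (hV i _) (hz i)
      have h1 : π ^ (r + 1) • z = π • (π ^ r • z) := by rw [pow_succ', mul_smul]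
      rw [h1] at h
      obtain ⟨δ, hδ, hδe⟩ := hC2 _ h (fun i => by
        rw [Algebra.smul_def, map_mul]
        calc (O i).valuation (algebraMap V 𝔽 π) * (O i).valuation (π ^ r • z)
            ≤ (O i).valuation (algebraMap V 𝔽 π) * 1 :=
              mul_le_mul' le_rfl ((ValuationSubring.valuation_le_one_iff _ _).mpr (hy i))
          _ < 1 := by rw [mul_one]; exact hπO i)
      have h2 : π ^ r • z = δ := by
        rw [Algebra.smul_def, Algebra.smul_def π δ] at hδe
        exact mul_left_cancel₀ hπ0 hδe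
      rw [h2]; exact hδ
  intro z hz
  have halg : IsAlgebraic V z :=
    (IsFractionRing.isAlgebraic_iff V K₁ 𝔽).mpr (Algebra.IsAlgebraic.isAlgebraic z)
  obtain ⟨y, hy0, hy⟩ := halg.exists_integral_multiple
  obtain ⟨r, u, rfl⟩ := IsDiscreteValuationRing.eq_unit_mul_pow_irreducible hy0 hπ
  apply hstep r z hz
  have h1 : π ^ r • z = ((u⁻¹ : Vˣ) : V) • (((u : V) * π ^ r) • z) := by
    rw [← mul_smul, ← mul_assoc, Units.inv_mul, one_mul]
  rw [h1]
  exact hsmul_int _ hy

/-- Membership in the maximal ideal of a valuation subring, without valuations. -/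
theorem s34vp_valuation_lt_one_iff {𝔽 : Type*} [Field 𝔽] (O : ValuationSubring 𝔽) (z : 𝔽) :
    O.valuation z < 1 ↔ z = 0 ∨ z⁻¹ ∉ O := by
  by_cases hz : z = 0
  · simp [hz]
  · rw [← ValuationSubring.valuation_le_one_iff, map_inv₀, or_iff_right hz, not_le,
      one_lt_inv₀ (zero_lt_iff.mpr ((map_ne_zero _).mpr hz))]

/-- Units of a valuation subring, without valuations. -/
theorem s34vp_valuation_eq_one_iff {𝔽 : Type*} [Field 𝔽] (O : ValuationSubring 𝔽) (z : 𝔽) :
    O.valuation z = 1 ↔ z ≠ 0 ∧ z ∈ O ∧ z⁻¹ ∈ O := by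
  by_cases hz : z = 0
  · simp [hz]
  · rw [← ValuationSubring.valuation_le_one_iff, ← ValuationSubring.valuation_le_one_iff,
      map_inv₀, inv_le_one₀ (zero_lt_iff.mpr ((map_ne_zero _).mpr hz))]
    exact ⟨fun h => ⟨hz, h.le, h.ge⟩, fun h => le_antisymm h.2.1 h.2.2⟩

/-- **Two vertical primes** (`s34vp_main` for two valuation subrings `O₁`, `O₂`). -/
theorem s34vp_two [FiniteDimensional K₁ 𝔽] [Algebra.IsSeparable K₁ 𝔽]
    (π : V) (hπ : Irreducible π) (O₁ O₂ : ValuationSubring 𝔽)
    (hV₁ : ∀ v : V, algebraMap V 𝔽 v ∈ O₁) (hV₂ : ∀ v : V, algebraMap V 𝔽 v ∈ O₂)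
    (hπ₁ : O₁.valuation (algebraMap V 𝔽 π) < 1) (hπ₂ : O₂.valuation (algebraMap V 𝔽 π) < 1)
    (z₁ z₂ : 𝔽) (hz₁ : IsIntegral V z₁) (hz₂ : IsIntegral V z₂)
    (hz₁₁ : O₁.valuation z₁ < 1) (hz₁₂ : O₂.valuation z₁ = 1)
    (hz₂₂ : O₂.valuation z₂ < 1) (hz₂₁ : O₁.valuation z₂ = 1)
    {f₁ f₂ : ℕ} (a₁ : Fin f₁ → 𝔽) (a₂ : Fin f₂ → 𝔽)
    (ha₁ : ∀ l, IsIntegral V (a₁ l)) (ha₂ : ∀ l, IsIntegral V (a₂ l))
    (hind₁ : ∀ c : Fin f₁ → V, O₁.valuation (∑ l, c l • a₁ l) < 1 → ∀ l, π ∣ c l)
    (hind₂ : ∀ c : Fin f₂ → V, O₂.valuation (∑ l, c l • a₂ l) < 1 → ∀ l, π ∣ c l)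
    (hn : finrank K₁ 𝔽 ≤ f₁ + f₂) :
    (∀ z : 𝔽, IsIntegral V z → O₁.valuation z < 1 → O₂.valuation z < 1 →
        ∃ δ : 𝔽, IsIntegral V δ ∧ z = π • δ) ∧
      (∀ z : 𝔽, z ∈ O₁ → z ∈ O₂ → IsIntegral V z) := by
  have h := s34vp_main (K₁ := K₁) π hπ (fun b : Bool => if b then O₁ else O₂)
    (by intro b; cases b <;> simpa using ‹_›)
    (by intro b; cases b <;> simpa using ‹_›)
    (by
      intro i j hij
      cases i <;> cases j
      · exact absurd rfl hij
      · exact ⟨z₂, hz₂, by simpa using hz₂₂, by simpa using hz₂₁⟩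
      · exact ⟨z₁, hz₁, by simpa using hz₁₁, by simpa using hz₁₂⟩
      · exact absurd rfl hij)
    (fun b => if b then f₁ else f₂)
    (fun b => match b with
      | true => a₁
      | false => a₂)
    (by intro b l; cases b <;> simp only <;> apply_assumption)
    (by
      intro b c hc l
      cases b
      · exact hind₂ c (by simpa using hc) l
      · exact hind₁ c (by simpa using hc) l)
    (by simpa [add_comm] using hn)
  refine ⟨fun z hz h1 h2 => h.1 z hz ?_, fun z h1 h2 => h.2 z ?_⟩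
  · intro b; cases b <;> simpa using ‹_›
  · intro b; cases b <;> simpa using ‹_›

end

end Fermat.Agent.S34
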